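/-
S41 / M5 (G1), Frey-model level (helper12): the `n`-torsion of a Frey model
`Y² = X (X - A) (X + B)` over an algebraically closed field `K` with `2 ≠ 0`, `n ≠ 0` in `K`
has exactly `n²` points (`n` odd), in ARBITRARY characteristic; consequently the odd division
polynomial `ladG A B m` of `S13/Ladder.lean` is separable over any field.

* `ft12_exists_point_of_ptX`   : every `r` is the normalised `X`-coordinate of a point;
* `ft12_lad_coprime`           : `Φ_n`, `Q_n` have no common zero;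
* `ft12_exists_torsion_finset` : at least `n²` points killed by `n` (Wronskian + generic fibre);
* `ft12_ncard_torsion`         : exactly `(2m+1)²` points killed by `2m+1`;
* `ft12_ladG_separable`        : `ladG A B m` is separable (any field, `2 (2m+1) A B (A+B) ≠ 0`).
-/
import Mathlib
import Fermat.Agent.S05.FreyModel
import Fermat.Agent.S13.Ladder

set_option autoImplicit false

open Polynomial WeierstrassCurve WeierstrassCurve.Affine

namespace Fermat.Agent.S41

open Fermat.Agent.S05 Fermat.Agent.S13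

section General

variable {K : Type*} [Field K] [DecidableEq K] {W : WeierstrassCurve K} {A B : K}

omit [DecidableEq K] in
/-- every `r` is the normalised `X`-coordinate of a nonzero point (alg. closed, `2 ≠ 0`). -/
theorem ft12_exists_point_of_ptX [IsAlgClosed K] (hW : IsFreyModel W A B) (h2 : (2 : K) ≠ 0)
    (hA : A ≠ 0) (hB : B ≠ 0) (hAB : A + B ≠ 0) (r : K) :
    ∃ P : W.toAffine.Point, P ≠ 0 ∧ ptX P = r := by
  obtain ⟨Y, hY⟩ := IsAlgClosed.exists_pow_nat_eq (r * (r - A) * (r + B)) (n := 2) (by norm_num)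
  have h4 : (4 : K) ≠ 0 := by
    have : (4 : K) = 2 * 2 := by norm_num
    rw [this]; exact mul_ne_zero h2 h2
  have h8 : (8 : K) ≠ 0 := by
    have : (8 : K) = 2 * 4 := by norm_num
    rw [this]; exact mul_ne_zero h2 h4
  have h64 : (64 : K) ≠ 0 := by
    have : (64 : K) = 8 * 8 := by norm_num
    rw [this]; exact mul_ne_zero h8 h8
  obtain ⟨x, hx⟩ : ∃ x : K, 4 * x = r := ⟨r / 4, mul_div_cancel₀ r h4⟩
  obtain ⟨y, hy⟩ : ∃ y : K, 8 * y = Y - r := ⟨(Y - r) / 8, mul_div_cancel₀ _ h8⟩
  have ha₂ := hW.a₂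
  have ha₄ := hW.a₄
  have heq : W.toAffine.Equation x y := by
    rw [Affine.equation_iff, hW.a₁, hW.a₃, hW.a₆]
    apply mul_left_cancel₀ h64
    have e1 : (8 * y) ^ 2 + 2 * (8 * y) * (4 * x) = Y ^ 2 - r ^ 2 := by
      rw [hy, hx]; ring
    have e2 : (4 * x) ^ 3 + (4 * W.a₂) * (4 * x) ^ 2 + (16 * W.a₄) * (4 * x) =
        r * (r - A) * (r + B) - r ^ 2 := by
      rw [hx, ha₂, ha₄]; ring
    linear_combination e1 - e2 + hY
  have hns : W.toAffine.Nonsingular x y := by
    rw [Affine.nonsingular_iff]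
    refine ⟨heq, ?_⟩
    by_cases hY0 : Y = 0
    · left
      rw [hW.a₁]
      intro h
      have h' : 2 * (8 * y) = 3 * (4 * x) ^ 2 + 2 * (4 * W.a₂) * (4 * x) + 16 * W.a₄ := by
        linear_combination 16 * h
      rw [hy, hx, ha₂, ha₄, hY0] at h'
      have hf' : 3 * r ^ 2 + 2 * (B - A) * r - A * B = 0 := by linear_combination -h'
      have hf : r * (r - A) * (r + B) = 0 := by rw [← hY, hY0]; ring
      rcases mul_eq_zero.mp hf with hf | hf
      · rcases mul_eq_zero.mp hf with hf | hf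
        · rw [hf] at hf'
          exact mul_ne_zero hA hB (by linear_combination -hf')
        · have hr : r = A := by linear_combination hf
          rw [hr] at hf'
          exact mul_ne_zero hA hAB (by linear_combination hf')
      · have hr : r = -B := by linear_combination hf
        rw [hr] at hf'
        exact mul_ne_zero hB hAB (by linear_combination hf')
    · right
      rw [hW.a₁, hW.a₃]
      intro h
      apply hY0
      have : Y = 8 * y + 4 * x := by rw [hy, hx]; ring
      rw [this]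
      linear_combination (4 : K) * h
  refine ⟨Point.some _ _ hns, Point.some_ne_zero hns, ?_⟩
  show 4 * x = r
  exact hx

/-- `(2m+1)`-torsion is cut out by `ladG A B m` (any characteristic `≠ 2`). -/
theorem ft12_smul_eq_zero_iff_ladG (hW : IsFreyModel W A B) (h2 : (2 : K) ≠ 0)
    (hA : A ≠ 0) (hB : B ≠ 0) (hAB : A + B ≠ 0) {m : ℕ} (hm : 1 ≤ m)
    {P : W.toAffine.Point} (hP : P ≠ 0) :
    (2 * m + 1) • P = 0 ↔ (ladG A B m).eval (ptX P) = 0 := by
  rw [(lad_spec hW h2 hA hB hAB hP (2 * m + 1)).2.1, ladQ_odd A B hm, eval_pow]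
  exact pow_eq_zero_iff (by norm_num)

omit [DecidableEq K] in
/-- degree and leading coefficient of `ladG` when `2m+1 ≠ 0` in `K`. -/
theorem ft12_natDegree_ladG (A B : K) {m : ℕ} (hm : 1 ≤ m) (hnK : ((2 * m + 1 : ℕ) : K) ≠ 0) :
    (ladG A B m).natDegree = 2 * m ^ 2 + 2 * m ∧
      (ladG A B m).leadingCoeff = -((2 * m + 1 : ℕ) : K) := by
  obtain ⟨h1, h2⟩ := ladG_lead A B hm
  have hc : (ladG A B m).coeff (2 * m ^ 2 + 2 * m) ≠ 0 := by
    rw [h2, neg_ne_zero]
    exact hnK
  have hd : (ladG A B m).natDegree = 2 * m ^ 2 + 2 * m :=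
    le_antisymm h1 (le_natDegree_of_ne_zero hc)
  exact ⟨hd, by rw [leadingCoeff, hd, h2]⟩

omit [DecidableEq K] in
theorem ft12_ladG_ne_zero (A B : K) {m : ℕ} (hm : 1 ≤ m) (hnK : ((2 * m + 1 : ℕ) : K) ≠ 0) :
    ladG A B m ≠ 0 := by
  intro h
  have := (ft12_natDegree_ladG A B hm hnK).2
  rw [h, leadingCoeff_zero] at this
  exact hnK (by linear_combination this)

/-- `Φ_n` and `Q_n` have no common zero. -/
theorem ft12_lad_coprime [IsAlgClosed K] (hW : IsFreyModel W A B) (h2 : (2 : K) ≠ 0)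
    (hA : A ≠ 0) (hB : B ≠ 0) (hAB : A + B ≠ 0) (n : ℕ) (r : K) :
    (lad A B n).1.eval r ≠ 0 ∨ (lad A B n).2.eval r ≠ 0 := by
  obtain ⟨P, hP, hPr⟩ := ft12_exists_point_of_ptX hW h2 hA hB hAB r
  have := (lad_spec hW h2 hA hB hAB hP n).1
  rwa [hPr] at this

end General

section Wronskian

variable {R : Type*} [CommRing R]

theorem ft12_leadIs_derivative {f : R[X]} {d : ℕ} {c : R} (hf : LeadIs f (d + 1) c) :
    LeadIs (derivative f) d (c * ((d : R) + 1)) := by
  refine ⟨(natDegree_derivative_le f).trans ?_, ?_⟩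
  · have := hf.1
    omega
  · rw [coeff_derivative, hf.2]

/-- The Wronskian `Φ_n' Q_n - Φ_n Q_n'` has degree `≤ 2n² - 2` and coefficient `n²` there. -/
theorem ft12_wronskian_lead (A B : R) {n : ℕ} (hn : 2 ≤ n) :
    LeadIs (derivative (lad A B n).1 * (lad A B n).2 - (lad A B n).1 * derivative (lad A B n).2)
      (2 * n ^ 2 - 2) ((n : R) ^ 2) := by
  have hn2 : 4 ≤ n ^ 2 := by nlinarith
  have hΦ : LeadIs (lad A B n).1 ((n ^ 2 - 1) + 1) 1 :=
    (lad_leadΦ A B n).congr (by omega) rfl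
  have hQ : LeadIs (lad A B n).2 ((n ^ 2 - 2) + 1) ((n : R) ^ 2) :=
    (lad_leadQ A B (by omega : 1 ≤ n)).congr (by omega) rfl
  have hΦ' := ft12_leadIs_derivative hΦ
  have hQ' := ft12_leadIs_derivative hQ
  have h1 := hΦ'.mul (lad_leadQ A B (by omega : 1 ≤ n))
  have h2 := (lad_leadΦ A B n).mul hQ'
  have hc1 : ((n ^ 2 - 1 : ℕ) : R) = (n : R) ^ 2 - 1 := by
    rw [Nat.cast_sub (by omega), Nat.cast_pow, Nat.cast_one]
  have hc2 : ((n ^ 2 - 2 : ℕ) : R) = (n : R) ^ 2 - 2 := by
    rw [Nat.cast_sub (by omega), Nat.cast_pow, Nat.cast_ofNat]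
  refine ((h1.congr (by omega : n ^ 2 - 1 + (n ^ 2 - 1) = 2 * n ^ 2 - 2) rfl).sub
    (h2.congr (by omega : n ^ 2 + (n ^ 2 - 2) = 2 * n ^ 2 - 2) rfl)).congr rfl ?_
  rw [hc1, hc2]
  ring

end Wronskian

section Count

variable {K : Type*} [Field K] [DecidableEq K] {W : WeierstrassCurve K} {A B : K}

/-- **Lower bound.** Over an algebraically closed field with `2 ≠ 0` and `n ≠ 0`, a Frey model
has at least `n²` points killed by `n`. -/
theorem ft12_exists_torsion_finset [IsAlgClosed K] (hW : IsFreyModel W A B) (h2 : (2 : K) ≠ 0)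
    (hA : A ≠ 0) (hB : B ≠ 0) (hAB : A + B ≠ 0) {n : ℕ} (hn : 2 ≤ n) (hnK : (n : K) ≠ 0) :
    ∃ s : Finset W.toAffine.Point, s.card = n ^ 2 ∧ ∀ P ∈ s, n • P = 0 := by
  classical
  have hn2 : 4 ≤ n ^ 2 := by nlinarith
  set Φ : K[X] := (lad A B n).1 with hΦdef
  set Q : K[X] := (lad A B n).2 with hQdef
  set Wr : K[X] := derivative Φ * Q - Φ * derivative Q with hWr
  have hcop : ∀ r : K, Φ.eval r ≠ 0 ∨ Q.eval r ≠ 0 := ft12_lad_coprime hW h2 hA hB hAB n
  -- the Wronskian is nonzero
  have hWr0 : Wr ≠ 0 := by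
    intro h
    have h1 := (ft12_wronskian_lead A B hn).2
    rw [← hΦdef, ← hQdef, ← hWr, h, coeff_zero] at h1
    exact hnK (pow_eq_zero_iff (by norm_num) |>.mp h1.symm)
  -- a value `X0` outside the critical values
  obtain ⟨X0, hX0⟩ := Infinite.exists_notMem_finset
    (Wr.roots.toFinset.image fun z => Φ.eval z / Q.eval z)
  -- the fibre polynomial
  set F : K[X] := Φ - C X0 * Q with hF
  have hΦlead := lad_leadΦ A B n
  have hQlead := lad_leadQ A B (by omega : 1 ≤ n)
  have hΦdeg : Φ.natDegree = n ^ 2 :=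
    le_antisymm hΦlead.1 (le_natDegree_of_ne_zero (by rw [hΦlead.2]; exact one_ne_zero))
  have hΦmonic : Φ.Monic := by
    rw [Monic, leadingCoeff, hΦdeg]; exact hΦlead.2
  have hCQdeg : (C X0 * Q).natDegree < Φ.natDegree := by
    rw [hΦdeg]
    calc (C X0 * Q).natDegree ≤ Q.natDegree := natDegree_C_mul_le _ _
      _ ≤ n ^ 2 - 1 := hQlead.1
      _ < n ^ 2 := by omega
  have hFdeg : F.natDegree = n ^ 2 := by
    rw [hF, natDegree_sub_eq_left_of_natDegree_lt hCQdeg, hΦdeg]
  have hF0 : F ≠ 0 := by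
    intro h
    rw [h, natDegree_zero] at hFdeg
    omega
  have hFeval : ∀ x : K, F.eval x = Φ.eval x - X0 * Q.eval x := by
    intro x; simp [hF]
  have hQroot : ∀ x : K, F.eval x = 0 → Q.eval x ≠ 0 := by
    intro x hx hq
    rw [hFeval, hq, mul_zero, sub_zero] at hx
    rcases hcop x with h | h
    · exact h hx
    · exact h hq
  -- `F` is separable
  have hFsep : F.Separable := by
    rw [separable_def, Polynomial.isCoprime_iff_aeval_ne_zero_of_isAlgClosed (k := K) K]
    intro a
    by_contra hcon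
    rw [not_or, not_not, not_not] at hcon
    obtain ⟨ha, ha'⟩ := hcon
    rw [coe_aeval_eq_eval] at ha ha'
    have hqa := hQroot a ha
    have h1 : Φ.eval a = X0 * Q.eval a := by
      rw [hFeval] at ha; linear_combination ha
    have h2' : (derivative Φ).eval a = X0 * (derivative Q).eval a := by
      have : (derivative F).eval a = (derivative Φ).eval a - X0 * (derivative Q).eval a := by
        simp [hF]
      rw [this] at ha'; linear_combination ha'
    have hWra : Wr.eval a = 0 := by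
      simp only [hWr, eval_sub, eval_mul]
      rw [h1, h2']; ring
    apply hX0
    rw [Finset.mem_image]
    refine ⟨a, ?_, ?_⟩
    · rw [Multiset.mem_toFinset, mem_roots hWr0]; exact hWra
    · rw [h1]; field_simp
  have hroots_card : F.roots.toFinset.card = n ^ 2 := by
    rw [Multiset.toFinset_card_of_nodup (nodup_roots hFsep), IsAlgClosed.card_roots_eq_natDegree,
      hFdeg]
  have hmemroot : ∀ x : K, x ∈ F.roots.toFinset ↔ F.eval x = 0 := by
    intro x
    rw [Multiset.mem_toFinset, mem_roots hF0]; rfl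
  -- points above the roots
  choose pt hpt0 hptX using fun r : K => ft12_exists_point_of_ptX hW h2 hA hB hAB r
  set Q0 : W.toAffine.Point := pt X0 with hQ0
  have hkey : ∀ x : K, F.eval x = 0 → n • pt x = Q0 ∨ n • pt x = -Q0 := by
    intro x hx
    have hq := hQroot x hx
    obtain ⟨-, hzero, hval⟩ := lad_spec hW h2 hA hB hAB (hpt0 x) n
    rw [hptX x] at hzero hval
    have hnz : n • pt x ≠ 0 := fun h => hq (hzero.mp h)
    have hX : ptX (n • pt x) = X0 := by
      have h1 := hval hnz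
      have h3 : Φ.eval x = X0 * Q.eval x := by
        rw [hFeval] at hx; linear_combination hx
      rw [← hΦdef, ← hQdef, h3] at h1
      exact mul_right_cancel₀ hq h1
    exact eq_or_eq_neg_of_ptX_eq h2 hnz (hpt0 X0) (hX.trans (hptX X0).symm)
  let g : K → W.toAffine.Point := fun x => if n • pt x = Q0 then pt x else -pt x
  have hgn : ∀ x : K, F.eval x = 0 → n • g x = Q0 := by
    intro x hx
    by_cases h : n • pt x = Q0
    · simp only [g, if_pos h]; exact h
    · simp only [g, if_neg h]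
      rcases hkey x hx with h' | h'
      · exact absurd h' h
      · rw [smul_neg, h', neg_neg]
  have hgX : ∀ x : K, ptX (g x) = x := by
    intro x
    by_cases h : n • pt x = Q0
    · simp only [g, if_pos h]; exact hptX x
    · simp only [g, if_neg h]; rw [ptX_neg]; exact hptX x
  have hginj : Function.Injective g := by
    intro x x' h
    rw [← hgX x, ← hgX x', h]
  have hne : F.roots.toFinset.Nonempty := by
    rw [← Finset.card_pos, hroots_card]; omega
  obtain ⟨x1, hx1⟩ := hne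
  refine ⟨F.roots.toFinset.image fun x => g x - g x1, ?_, ?_⟩
  · rw [Finset.card_image_of_injective _ (fun x x' h => hginj (sub_left_injective h)),
      hroots_card]
  · intro P hP
    rw [Finset.mem_image] at hP
    obtain ⟨x, hx, rfl⟩ := hP
    rw [smul_sub, hgn x ((hmemroot x).mp hx), hgn x1 ((hmemroot x1).mp hx1), sub_self]

/-- Auxiliary: finiteness, exact count, and the number of distinct roots of `ladG`. -/
theorem ft12_torsion_aux [IsAlgClosed K] (hW : IsFreyModel W A B) (h2 : (2 : K) ≠ 0)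
    (hA : A ≠ 0) (hB : B ≠ 0) (hAB : A + B ≠ 0) {m : ℕ} (hm : 1 ≤ m)
    (hnK : ((2 * m + 1 : ℕ) : K) ≠ 0) :
    {P : W.toAffine.Point | (2 * m + 1) • P = 0}.Finite ∧
      {P : W.toAffine.Point | (2 * m + 1) • P = 0}.ncard = (2 * m + 1) ^ 2 ∧
      (ladG A B m).roots.toFinset.card = 2 * m ^ 2 + 2 * m := by
  classical
  choose pt hpt0 hptX using fun r : K => ft12_exists_point_of_ptX hW h2 hA hB hAB r
  let F : K × Bool → W.toAffine.Point := fun rb => if rb.2 then pt rb.1 else -pt rb.1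
  let S : Finset (K × Bool) := (ladG A B m).roots.toFinset ×ˢ Finset.univ
  have hsub : {P : W.toAffine.Point | (2 * m + 1) • P = 0} ⊆
      insert 0 (F '' (S : Set (K × Bool))) := by
    intro P hP
    by_cases hP0 : P = 0
    · exact Or.inl hP0
    right
    have hroot : (ladG A B m).eval (ptX P) = 0 :=
      (ft12_smul_eq_zero_iff_ladG hW h2 hA hB hAB hm hP0).mp hP
    have hmem : ptX P ∈ (ladG A B m).roots.toFinset := by
      rw [Multiset.mem_toFinset, mem_roots (ft12_ladG_ne_zero A B hm hnK)]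
      exact hroot
    rcases eq_or_eq_neg_of_ptX_eq h2 hP0 (hpt0 (ptX P)) (hptX (ptX P)).symm with h | h
    · refine ⟨(ptX P, true), ?_, ?_⟩
      · simp only [S, Finset.coe_product, Set.mem_prod, Finset.mem_coe]
        exact ⟨hmem, Finset.mem_univ _⟩
      · simp [F, h.symm]
    · refine ⟨(ptX P, false), ?_, ?_⟩
      · simp only [S, Finset.coe_product, Set.mem_prod, Finset.mem_coe]
        exact ⟨hmem, Finset.mem_univ _⟩
      · simp [F, h.symm]
  have hfin : (insert 0 (F '' (S : Set (K × Bool))) : Set W.toAffine.Point).Finite :=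
    (S.finite_toSet.image F).insert 0
  have hTfin : {P : W.toAffine.Point | (2 * m + 1) • P = 0}.Finite := hfin.subset hsub
  have hle1 : (ladG A B m).roots.toFinset.card ≤ 2 * m ^ 2 + 2 * m :=
    calc (ladG A B m).roots.toFinset.card ≤ Multiset.card (ladG A B m).roots :=
          Multiset.toFinset_card_le _
      _ ≤ (ladG A B m).natDegree := card_roots' _
      _ = 2 * m ^ 2 + 2 * m := (ft12_natDegree_ladG A B hm hnK).1
  have hupper : {P : W.toAffine.Point | (2 * m + 1) • P = 0}.ncard ≤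
      (ladG A B m).roots.toFinset.card * 2 + 1 :=
    calc {P : W.toAffine.Point | (2 * m + 1) • P = 0}.ncard
        ≤ (insert 0 (F '' (S : Set (K × Bool))) : Set W.toAffine.Point).ncard :=
          Set.ncard_le_ncard hsub hfin
      _ ≤ (F '' (S : Set (K × Bool))).ncard + 1 := Set.ncard_insert_le _ _
      _ ≤ (S : Set (K × Bool)).ncard + 1 := by
          gcongr
          exact Set.ncard_image_le S.finite_toSet
      _ = S.card + 1 := by rw [Set.ncard_coe_finset]
      _ = (ladG A B m).roots.toFinset.card * 2 + 1 := by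
          simp only [S, Finset.card_product, Finset.card_univ, Fintype.card_bool]
  have hn : ((2 * m + 1 : ℕ) : K) ≠ 0 := hnK
  obtain ⟨s, hs, hsT⟩ := ft12_exists_torsion_finset hW h2 hA hB hAB
    (by omega : 2 ≤ 2 * m + 1) hn
  have hlower : (2 * m + 1) ^ 2 ≤ {P : W.toAffine.Point | (2 * m + 1) • P = 0}.ncard := by
    rw [← hs, ← Set.ncard_coe_finset s]
    exact Set.ncard_le_ncard (fun P hP => hsT P hP) hTfin
  have hsq : (2 * m + 1) ^ 2 = (2 * m ^ 2 + 2 * m) * 2 + 1 := by ring
  refine ⟨hTfin, ?_, ?_⟩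
  · apply le_antisymm _ hlower
    calc {P : W.toAffine.Point | (2 * m + 1) • P = 0}.ncard
        ≤ (ladG A B m).roots.toFinset.card * 2 + 1 := hupper
      _ ≤ (2 * m ^ 2 + 2 * m) * 2 + 1 := by gcongr
      _ = (2 * m + 1) ^ 2 := hsq.symm
  · have := hlower.trans hupper
    rw [hsq] at this
    omega

/-- **Exact count.** Over an algebraically closed field with `2 ≠ 0` and `2m+1 ≠ 0`, a Frey
model has exactly `(2m+1)²` points killed by `2m+1`. -/
theorem ft12_ncard_torsion [IsAlgClosed K] (hW : IsFreyModel W A B) (h2 : (2 : K) ≠ 0)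
    (hA : A ≠ 0) (hB : B ≠ 0) (hAB : A + B ≠ 0) {m : ℕ} (hm : 1 ≤ m)
    (hnK : ((2 * m + 1 : ℕ) : K) ≠ 0) :
    {P : W.toAffine.Point | (2 * m + 1) • P = 0}.Finite ∧
      {P : W.toAffine.Point | (2 * m + 1) • P = 0}.ncard = (2 * m + 1) ^ 2 :=
  ⟨(ft12_torsion_aux hW h2 hA hB hAB hm hnK).1, (ft12_torsion_aux hW h2 hA hB hAB hm hnK).2.1⟩

/-- The same count on the Prelude's carrier `Submodule.torsionBy ℤ _ n`. -/
theorem ft12_card_torsionBy [IsAlgClosed K] (hW : IsFreyModel W A B) (h2 : (2 : K) ≠ 0)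
    (hA : A ≠ 0) (hB : B ≠ 0) (hAB : A + B ≠ 0) {m : ℕ} (hm : 1 ≤ m)
    (hnK : ((2 * m + 1 : ℕ) : K) ≠ 0) :
    Finite (Submodule.torsionBy ℤ W.toAffine.Point ((2 * m + 1 : ℕ) : ℤ)) ∧
      Nat.card (Submodule.torsionBy ℤ W.toAffine.Point ((2 * m + 1 : ℕ) : ℤ)) =
        (2 * m + 1) ^ 2 := by
  obtain ⟨hfin, hcard⟩ := ft12_ncard_torsion hW h2 hA hB hAB hm hnK
  have hset : ((Submodule.torsionBy ℤ W.toAffine.Point ((2 * m + 1 : ℕ) : ℤ) :
      Submodule ℤ _) : Set W.toAffine.Point) = {P | (2 * m + 1) • P = 0} := by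
    ext x
    show x ∈ Submodule.torsionBy ℤ W.toAffine.Point ((2 * m + 1 : ℕ) : ℤ) ↔ (2 * m + 1) • x = 0
    rw [Submodule.mem_torsionBy_iff, Nat.cast_smul_eq_nsmul]
  constructor
  · have : Finite ((Submodule.torsionBy ℤ W.toAffine.Point ((2 * m + 1 : ℕ) : ℤ) :
        Submodule ℤ _) : Set W.toAffine.Point) := by
      rw [hset]; exact hfin.to_subtype
    exact this
  · have h1 : Nat.card (Submodule.torsionBy ℤ W.toAffine.Point ((2 * m + 1 : ℕ) : ℤ)) =
        ((Submodule.torsionBy ℤ W.toAffine.Point ((2 * m + 1 : ℕ) : ℤ) :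
          Submodule ℤ _) : Set W.toAffine.Point).ncard :=
      (_root_.Nat.card_coe_set_eq _)
    rw [h1, hset]
    exact hcard

end Count

section Separable

/-- The Frey model with parameters `A`, `B` (when `2 ≠ 0`). -/
def ft12_model {K : Type*} [Field K] (A B : K) : WeierstrassCurve K :=
  ⟨1, (B - 1 - A) / 4, 0, -(A * B) / 16, 0⟩

theorem ft12_model_isFreyModel {K : Type*} [Field K] (A B : K) (h2 : (2 : K) ≠ 0) :
    IsFreyModel (ft12_model A B) A B := by
  have h4 : (4 : K) ≠ 0 := by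
    have : (4 : K) = 2 * 2 := by norm_num
    rw [this]; exact mul_ne_zero h2 h2
  have h16 : (16 : K) ≠ 0 := by
    have : (16 : K) = 4 * 4 := by norm_num
    rw [this]; exact mul_ne_zero h4 h4
  exact ⟨rfl, mul_div_cancel₀ _ h4, rfl, mul_div_cancel₀ _ h16, rfl⟩

/-- `ladG A B m` has `2m² + 2m` distinct roots over an algebraically closed field. -/
theorem ft12_ladG_roots_nodup {K : Type*} [Field K] [IsAlgClosed K] (A B : K) (h2 : (2 : K) ≠ 0)
    (hA : A ≠ 0) (hB : B ≠ 0) (hAB : A + B ≠ 0) {m : ℕ} (hm : 1 ≤ m)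
    (hnK : ((2 * m + 1 : ℕ) : K) ≠ 0) : (ladG A B m).roots.Nodup := by
  classical
  have h := (ft12_torsion_aux (ft12_model_isFreyModel A B h2) h2 hA hB hAB hm hnK).2.2
  rw [← Multiset.toFinset_card_eq_card_iff_nodup]
  apply le_antisymm (Multiset.toFinset_card_le _)
  rw [h, ← (ft12_natDegree_ladG A B hm hnK).1]
  exact card_roots' _

/-- **Separability of the odd division polynomial** `ladG A B m` of the Frey model
`Y² = X (X - A) (X + B)`, over any field in which `2 (2m+1) A B (A + B) ≠ 0`. -/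
theorem ft12_ladG_separable {K : Type*} [Field K] (A B : K) (h2 : (2 : K) ≠ 0)
    (hA : A ≠ 0) (hB : B ≠ 0) (hAB : A + B ≠ 0) {m : ℕ} (hm : 1 ≤ m)
    (hnK : ((2 * m + 1 : ℕ) : K) ≠ 0) : (ladG A B m).Separable := by
  let L := AlgebraicClosure K
  let f : K →+* L := algebraMap K L
  have hf : Function.Injective f := f.injective
  have h2' : (2 : L) ≠ 0 := by
    have : f 2 ≠ 0 := (map_ne_zero f).mpr h2
    rwa [map_ofNat] at this
  have hA' : f A ≠ 0 := (map_ne_zero f).mpr hA
  have hB' : f B ≠ 0 := (map_ne_zero f).mpr hB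
  have hAB' : f A + f B ≠ 0 := by
    rw [← map_add]; exact (map_ne_zero f).mpr hAB
  have hn' : ((2 * m + 1 : ℕ) : L) ≠ 0 := by
    have : f ((2 * m + 1 : ℕ) : K) ≠ 0 := (map_ne_zero f).mpr hnK
    rwa [map_natCast] at this
  have hnd := ft12_ladG_roots_nodup (f A) (f B) h2' hA' hB' hAB' hm hn'
  have hne := ft12_ladG_ne_zero (f A) (f B) hm hn'
  have hsep : (ladG (f A) (f B) m).Separable :=
    (nodup_roots_iff_of_splits hne (IsAlgClosed.splits _)).mp hnd
  rw [ladG_map f A B m] at hsep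
  exact (separable_map f).mp hsep

end Separable

end Fermat.Agent.S41
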