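/-
S41 / M5 support (helper83): a Weierstrass change of variables induces an additive
equivalence on affine points.

`vc83_map C h : W₂.toAffine.Point → W₁.toAffine.Point` for `h : W₂ = C • W₁`, sending
`(x, y) ↦ (u² x + r, u³ y + u² s x + t)`; `vc83_addEquiv` packages it as an `AddEquiv`.
-/
import Mathlib
import Fermat.Prelude.Def_FLTPrelim_GaloisRep

set_option autoImplicit false
set_option linter.unusedSectionVars false

namespace Fermat.Agent.S41

open WeierstrassCurve

section Coord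

variable {F : Type*} [Field F]

/-- `X`-coordinate of the image point under the change of variables `C`. -/
def vc83_X (C : VariableChange F) (x : F) : F := (C.u : F) ^ 2 * x + C.r

/-- `Y`-coordinate of the image point under the change of variables `C`. -/
def vc83_Y (C : VariableChange F) (x y : F) : F :=
  (C.u : F) ^ 3 * y + (C.u : F) ^ 2 * C.s * x + C.t

lemma vc83_X_injective (C : VariableChange F) : Function.Injective (vc83_X C) := by
  intro x x' h
  have hu : (C.u : F) ^ 2 ≠ 0 := pow_ne_zero _ C.u.ne_zero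
  unfold vc83_X at h
  exact mul_left_cancel₀ hu (add_right_cancel h)

lemma vc83_Y_injective (C : VariableChange F) (x : F) : Function.Injective (vc83_Y C x) := by
  intro y y' h
  have hu : (C.u : F) ^ 3 ≠ 0 := pow_ne_zero _ C.u.ne_zero
  unfold vc83_Y at h
  exact mul_left_cancel₀ hu (add_right_cancel (add_right_cancel h))

variable (W : WeierstrassCurve F) (C : VariableChange F)

lemma vc83_eqn_expr (x y : F) :
    (vc83_Y C x y) ^ 2 + W.a₁ * (vc83_X C x) * (vc83_Y C x y) + W.a₃ * (vc83_Y C x y) -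
        ((vc83_X C x) ^ 3 + W.a₂ * (vc83_X C x) ^ 2 + W.a₄ * (vc83_X C x) + W.a₆) =
      (C.u : F) ^ 6 * (y ^ 2 + (C • W).a₁ * x * y + (C • W).a₃ * y -
        (x ^ 3 + (C • W).a₂ * x ^ 2 + (C • W).a₄ * x + (C • W).a₆)) := by
  have hu : (C.u : F) ≠ 0 := C.u.ne_zero
  simp only [variableChange_def, Units.val_inv_eq_inv_val, vc83_X, vc83_Y]
  field_simp
  ring

lemma vc83_polyX_expr (x y : F) :
    W.a₁ * (vc83_Y C x y) - (3 * (vc83_X C x) ^ 2 + 2 * W.a₂ * (vc83_X C x) + W.a₄) =
      (C.u : F) ^ 4 * ((C • W).a₁ * y - (3 * x ^ 2 + 2 * (C • W).a₂ * x + (C • W).a₄)) -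
        C.s * ((C.u : F) ^ 3 * (2 * y + (C • W).a₁ * x + (C • W).a₃)) := by
  have hu : (C.u : F) ≠ 0 := C.u.ne_zero
  simp only [variableChange_def, Units.val_inv_eq_inv_val, vc83_X, vc83_Y]
  field_simp
  ring

lemma vc83_polyY_expr (x y : F) :
    2 * (vc83_Y C x y) + W.a₁ * (vc83_X C x) + W.a₃ =
      (C.u : F) ^ 3 * (2 * y + (C • W).a₁ * x + (C • W).a₃) := by
  have hu : (C.u : F) ≠ 0 := C.u.ne_zero
  simp only [variableChange_def, Units.val_inv_eq_inv_val, vc83_X, vc83_Y]
  field_simp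
  ring

lemma vc83_equation (x y : F) :
    (C • W).toAffine.Equation x y ↔ W.toAffine.Equation (vc83_X C x) (vc83_Y C x y) := by
  have hu : (C.u : F) ^ 6 ≠ 0 := pow_ne_zero _ C.u.ne_zero
  rw [Affine.equation_iff', Affine.equation_iff', vc83_eqn_expr]
  constructor
  · intro h; rw [h, mul_zero]
  · intro h; exact (mul_eq_zero.mp h).resolve_left hu

lemma vc83_nonsingular (x y : F) :
    (C • W).toAffine.Nonsingular x y ↔ W.toAffine.Nonsingular (vc83_X C x) (vc83_Y C x y) := by
  have hu3 : (C.u : F) ^ 3 ≠ 0 := pow_ne_zero _ C.u.ne_zero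
  have hu4 : (C.u : F) ^ 4 ≠ 0 := pow_ne_zero _ C.u.ne_zero
  rw [Affine.nonsingular_iff', Affine.nonsingular_iff', ← vc83_equation, vc83_polyX_expr,
    vc83_polyY_expr]
  constructor
  · rintro ⟨he, h⟩
    refine ⟨he, ?_⟩
    by_cases hY : 2 * y + (C • W).a₁ * x + (C • W).a₃ = 0
    · left
      rw [hY, mul_zero, mul_zero, sub_zero]
      exact mul_ne_zero hu4 (h.resolve_right (not_not.mpr hY))
    · right
      exact mul_ne_zero hu3 hY
  · rintro ⟨he, h⟩
    refine ⟨he, ?_⟩
    by_cases hY : 2 * y + (C • W).a₁ * x + (C • W).a₃ = 0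
    · left
      rw [hY, mul_zero, mul_zero, sub_zero] at h
      rcases h with h | h
      · exact right_ne_zero_of_mul h
      · exact absurd rfl h
    · right
      exact hY

lemma vc83_negY (x y : F) :
    vc83_Y C x ((C • W).toAffine.negY x y) =
      W.toAffine.negY (vc83_X C x) (vc83_Y C x y) := by
  have hu : (C.u : F) ≠ 0 := C.u.ne_zero
  simp only [Affine.negY, variableChange_def, Units.val_inv_eq_inv_val, vc83_X, vc83_Y]
  field_simp
  ring

lemma vc83_addX (x₁ x₂ ℓ : F) :
    vc83_X C ((C • W).toAffine.addX x₁ x₂ ℓ) =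
      W.toAffine.addX (vc83_X C x₁) (vc83_X C x₂) ((C.u : F) * ℓ + C.s) := by
  have hu : (C.u : F) ≠ 0 := C.u.ne_zero
  simp only [Affine.addX, variableChange_def, Units.val_inv_eq_inv_val, vc83_X]
  field_simp
  ring

lemma vc83_negAddY (x₁ x₂ y₁ ℓ : F) :
    vc83_Y C ((C • W).toAffine.addX x₁ x₂ ℓ) ((C • W).toAffine.negAddY x₁ x₂ y₁ ℓ) =
      W.toAffine.negAddY (vc83_X C x₁) (vc83_X C x₂) (vc83_Y C x₁ y₁) ((C.u : F) * ℓ + C.s) := by
  have hu : (C.u : F) ≠ 0 := C.u.ne_zero
  simp only [Affine.negAddY, Affine.addX, variableChange_def, Units.val_inv_eq_inv_val, vc83_X,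
    vc83_Y]
  field_simp
  ring

lemma vc83_addY (x₁ x₂ y₁ ℓ : F) :
    vc83_Y C ((C • W).toAffine.addX x₁ x₂ ℓ) ((C • W).toAffine.addY x₁ x₂ y₁ ℓ) =
      W.toAffine.addY (vc83_X C x₁) (vc83_X C x₂) (vc83_Y C x₁ y₁) ((C.u : F) * ℓ + C.s) := by
  rw [Affine.addY, Affine.addY, vc83_negY, vc83_negAddY, vc83_addX]

variable [DecidableEq F]

lemma vc83_slope {x₁ x₂ y₁ y₂ : F} (hxy : ¬(x₁ = x₂ ∧ y₁ = (C • W).toAffine.negY x₂ y₂))
    (h₁ : (C • W).toAffine.Equation x₁ y₁) (h₂ : (C • W).toAffine.Equation x₂ y₂) :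
    W.toAffine.slope (vc83_X C x₁) (vc83_X C x₂) (vc83_Y C x₁ y₁) (vc83_Y C x₂ y₂) =
      (C.u : F) * (C • W).toAffine.slope x₁ x₂ y₁ y₂ + C.s := by
  have hu : (C.u : F) ≠ 0 := C.u.ne_zero
  by_cases hx : x₁ = x₂
  · subst hx
    have hy : y₁ ≠ (C • W).toAffine.negY x₁ y₂ := fun h => hxy ⟨rfl, h⟩
    have hyy : y₁ = y₂ := by
      rcases Affine.Y_eq_of_X_eq h₁ h₂ rfl with h | h
      · exact h
      · exact absurd h hy
    subst hyy
    have hy' : vc83_Y C x₁ y₁ ≠ W.toAffine.negY (vc83_X C x₁) (vc83_Y C x₁ y₁) := by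
      rw [← vc83_negY]
      exact fun h => hy (vc83_Y_injective C x₁ h)
    rw [Affine.slope_of_Y_ne rfl hy, Affine.slope_of_Y_ne rfl hy']
    have hd : y₁ - (C • W).toAffine.negY x₁ y₁ ≠ 0 := sub_ne_zero.mpr hy
    have hd' : vc83_Y C x₁ y₁ - W.toAffine.negY (vc83_X C x₁) (vc83_Y C x₁ y₁) ≠ 0 :=
      sub_ne_zero.mpr hy'
    rw [div_eq_iff hd']
    have e1 : vc83_Y C x₁ y₁ - W.toAffine.negY (vc83_X C x₁) (vc83_Y C x₁ y₁) =
        (C.u : F) ^ 3 * (y₁ - (C • W).toAffine.negY x₁ y₁) := by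
      have := vc83_polyY_expr W C x₁ y₁
      simp only [Affine.negY]
      linear_combination this
    have e2 : 3 * (vc83_X C x₁) ^ 2 + 2 * W.a₂ * (vc83_X C x₁) + W.a₄ - W.a₁ * (vc83_Y C x₁ y₁) =
        (C.u : F) ^ 4 * (3 * x₁ ^ 2 + 2 * (C • W).a₂ * x₁ + (C • W).a₄ - (C • W).a₁ * y₁) +
          C.s * ((C.u : F) ^ 3 * (y₁ - (C • W).toAffine.negY x₁ y₁)) := by
      have := vc83_polyX_expr W C x₁ y₁
      simp only [Affine.negY]
      linear_combination -this
    rw [e1, e2]
    field_simp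
  · have hx' : vc83_X C x₁ ≠ vc83_X C x₂ := fun h => hx (vc83_X_injective C h)
    rw [Affine.slope_of_X_ne hx, Affine.slope_of_X_ne hx']
    have hd : x₁ - x₂ ≠ 0 := sub_ne_zero.mpr hx
    have hd' : vc83_X C x₁ - vc83_X C x₂ ≠ 0 := sub_ne_zero.mpr hx'
    rw [div_eq_iff hd']
    simp only [vc83_X, vc83_Y]
    field_simp
    ring

end Coord

section Map

variable {F : Type*} [Field F] [DecidableEq F] {W₁ W₂ : WeierstrassCurve F}

/-- The map on points induced by a change of variables `W₂ = C • W₁`: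
`(x, y) ↦ (u² x + r, u³ y + u² s x + t)`. -/
def vc83_map (C : VariableChange F) (h : W₂ = C • W₁) :
    W₂.toAffine.Point → W₁.toAffine.Point
  | .zero => .zero
  | .some x y hxy => .some (vc83_X C x) (vc83_Y C x y)
      ((vc83_nonsingular W₁ C x y).mp (h ▸ hxy))

lemma vc83_map_zero (C : VariableChange F) (h : W₂ = C • W₁) :
    vc83_map C h (0 : W₂.toAffine.Point) = 0 := rfl

lemma vc83_map_some (C : VariableChange F) (h : W₂ = C • W₁) {x y : F}
    (hxy : W₂.toAffine.Nonsingular x y) :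
    vc83_map C h (.some x y hxy) = .some (vc83_X C x) (vc83_Y C x y)
      ((vc83_nonsingular W₁ C x y).mp (h ▸ hxy)) := rfl

lemma vc83_some_congr {W : WeierstrassCurve F} {x x' y y' : F}
    {h : W.toAffine.Nonsingular x y} {h' : W.toAffine.Nonsingular x' y'}
    (hx : x = x') (hy : y = y') :
    (Affine.Point.some x y h : W.toAffine.Point) = Affine.Point.some x' y' h' := by
  subst hx; subst hy; rfl

lemma vc83_map_congr {C C' : VariableChange F} (hC : C = C') (h : W₂ = C • W₁)
    (h' : W₂ = C' • W₁) (P : W₂.toAffine.Point) : vc83_map C h P = vc83_map C' h' P := by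
  subst hC
  rfl

lemma vc83_map_add (C : VariableChange F) (h : W₂ = C • W₁) (P Q : W₂.toAffine.Point) :
    vc83_map C h (P + Q) = vc83_map C h P + vc83_map C h Q := by
  subst h
  rcases P with _ | ⟨x₁, y₁, h₁⟩
  · show vc83_map C rfl (0 + Q) = 0 + vc83_map C rfl Q
    rw [zero_add, zero_add]
  rcases Q with _ | ⟨x₂, y₂, h₂⟩
  · show vc83_map C rfl (Affine.Point.some x₁ y₁ h₁ + 0) = vc83_map C rfl (.some x₁ y₁ h₁) + 0
    rw [add_zero, add_zero]
  by_cases hxy : x₁ = x₂ ∧ y₁ = (C • W₁).toAffine.negY x₂ y₂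
  · obtain ⟨hx, hy⟩ := hxy
    subst hx
    rw [Affine.Point.add_of_Y_eq rfl hy, vc83_map_some, vc83_map_some]
    rw [Affine.Point.add_of_Y_eq rfl (by rw [hy, vc83_negY])]
    rfl
  · have hxy' : ¬(vc83_X C x₁ = vc83_X C x₂ ∧
        vc83_Y C x₁ y₁ = W₁.toAffine.negY (vc83_X C x₂) (vc83_Y C x₂ y₂)) := by
      rintro ⟨hx, hy⟩
      have hx' := vc83_X_injective C hx
      subst hx'
      rw [← vc83_negY] at hy
      exact hxy ⟨rfl, vc83_Y_injective C x₁ hy⟩
    rw [Affine.Point.add_some hxy, vc83_map_some, vc83_map_some, vc83_map_some,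
      Affine.Point.add_some hxy']
    have hs := vc83_slope W₁ C hxy h₁.1 h₂.1
    apply vc83_some_congr
    · rw [hs, vc83_addX]
    · rw [hs, vc83_addY]

lemma vc83_map_injective (C : VariableChange F) (h : W₂ = C • W₁) :
    Function.Injective (vc83_map C h) := by
  rintro (_ | ⟨x₁, y₁, h₁⟩) (_ | ⟨x₂, y₂, h₂⟩) hPQ
  · rfl
  · exact absurd hPQ (by simp [vc83_map])
  · exact absurd hPQ (by simp [vc83_map])
  · simp only [vc83_map, Affine.Point.some.injEq] at hPQ
    have hx := vc83_X_injective C hPQ.1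
    subst hx
    have hy := vc83_Y_injective C x₁ hPQ.2
    subst hy
    rfl

lemma vc83_map_surjective (C : VariableChange F) (h : W₂ = C • W₁) :
    Function.Surjective (vc83_map C h) := by
  subst h
  rintro (_ | ⟨X, Y, hXY⟩)
  · exact ⟨0, rfl⟩
  · have hu : (C.u : F) ≠ 0 := C.u.ne_zero
    set x : F := (X - C.r) / (C.u : F) ^ 2 with hx
    set y : F := (Y - (C.u : F) ^ 2 * C.s * x - C.t) / (C.u : F) ^ 3 with hy
    have hX : vc83_X C x = X := by
      rw [vc83_X, hx]; field_simp; ring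
    have hY : vc83_Y C x y = Y := by
      rw [vc83_Y, hy]; field_simp; ring
    have hns : (C • W₁).toAffine.Nonsingular x y := by
      rw [vc83_nonsingular, hX, hY]; exact hXY
    refine ⟨.some x y hns, ?_⟩
    rw [vc83_map_some]
    exact vc83_some_congr hX hY

/-- The additive equivalence on points induced by a change of variables `W₂ = C • W₁`. -/
noncomputable def vc83_addEquiv (C : VariableChange F) (h : W₂ = C • W₁) :
    W₂.toAffine.Point ≃+ W₁.toAffine.Point :=
  AddEquiv.ofBijective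
    (AddMonoidHom.mk' (vc83_map C h) (vc83_map_add C h))
    ⟨vc83_map_injective C h, vc83_map_surjective C h⟩

lemma vc83_addEquiv_apply (C : VariableChange F) (h : W₂ = C • W₁) (P : W₂.toAffine.Point) :
    vc83_addEquiv C h P = vc83_map C h P := rfl

end Map

section Natural

open WeierstrassCurve.Affine

variable {R S F K : Type*} [CommRing R] [CommRing S] [Field F] [Field K]
  [DecidableEq F] [DecidableEq K]
  [Algebra R S] [Algebra R F] [Algebra S F] [IsScalarTower R S F] [Algebra R K] [Algebra S K]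
  [IsScalarTower R S K] {W₁' W₂' : Affine R}

/-- A change of variables between base changes to `F` maps to one between base changes to `K`. -/
lemma vc83_baseChange_eq (f : F →ₐ[S] K) (C : VariableChange F) (hF : W₂'⁄F = C • (W₁'⁄F)) :
    W₂'⁄K = (C.map (f : F →+* K)) • (W₁'⁄K) := by
  have h1 : (W₁'⁄F).map (f : F →+* K) = W₁'⁄K := Affine.map_baseChange W₁' f
  have h2 : (W₂'⁄F).map (f : F →+* K) = W₂'⁄K := Affine.map_baseChange W₂' f
  rw [← h1, ← h2, hF]
  exact (map_variableChange (W₁'⁄F) C (f : F →+* K)).symm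

lemma vc83_X_map (f : F →+* K) (C : VariableChange F) (x : F) :
    f (vc83_X C x) = vc83_X (C.map f) (f x) := by
  simp [vc83_X, VariableChange.map]

lemma vc83_Y_map (f : F →+* K) (C : VariableChange F) (x y : F) :
    f (vc83_Y C x y) = vc83_Y (C.map f) (f x) (f y) := by
  simp [vc83_Y, VariableChange.map]

/-- Naturality of `vc83_map` under field maps. -/
lemma vc83_map_natural (f : F →ₐ[S] K) (C : VariableChange F) (hF : W₂'⁄F = C • (W₁'⁄F))
    (hK : W₂'⁄K = (C.map (f : F →+* K)) • (W₁'⁄K)) (P : (W₂'⁄F).Point) :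
    Point.map f (vc83_map C hF P) = vc83_map (C.map (f : F →+* K)) hK (Point.map f P) := by
  rcases P with _ | ⟨x, y, hxy⟩
  · rfl
  · show Point.map f (Point.some _ _ _) = vc83_map _ hK (Point.some _ _ _)
    rw [Point.map_some]
    show _ = Point.some _ _ _
    apply vc83_some_congr
    · exact vc83_X_map (f : F →+* K) C x
    · exact vc83_Y_map (f : F →+* K) C x y

end Natural

section Galois

open WeierstrassCurve.Affine

variable {R S K : Type*} [CommRing R] [CommRing S] [Field K] [DecidableEq K]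
  [Algebra R S] [Algebra R K] [Algebra S K] [IsScalarTower R S K] {W₁' W₂' : Affine R}

/-- A change of variables over the base ring induces one between the base changes. -/
lemma vc83_baseChange_of_eq (C : VariableChange R) (h : W₂' = C • W₁') :
    W₂'⁄K = (C.map (algebraMap R K)) • (W₁'⁄K) := by
  subst h
  exact (map_variableChange W₁' C (algebraMap R K)).symm

/-- The additive equivalence on `K`-points induced by a change of variables over the base. -/
noncomputable def vc83_galEquiv (K : Type*) [Field K] [DecidableEq K] [Algebra R K]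
    (C : VariableChange R) (h : W₂' = C • W₁') : (W₂'⁄K).Point ≃+ (W₁'⁄K).Point :=
  vc83_addEquiv (C.map (algebraMap R K)) (vc83_baseChange_of_eq C h)

lemma vc83_galEquiv_apply (C : VariableChange R) (h : W₂' = C • W₁') (P : (W₂'⁄K).Point) :
    vc83_galEquiv K C h P = vc83_map (C.map (algebraMap R K)) (vc83_baseChange_of_eq C h) P :=
  rfl

/-- `vc83_galEquiv` commutes with `Point.map` of `S`-algebra endomorphisms. -/
lemma vc83_galEquiv_map (C : VariableChange R) (h : W₂' = C • W₁') (f : K →ₐ[S] K)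
    (P : (W₂'⁄K).Point) :
    vc83_galEquiv K C h (Point.map f P) = Point.map f (vc83_galEquiv K C h P) := by
  have hC : (C.map (algebraMap R K)).map (f : K →+* K) = C.map (algebraMap R K) := by
    rw [VariableChange.map_map]
    congr 1
    exact (f.restrictScalars R).comp_algebraMap
  have hK : W₂'⁄K = ((C.map (algebraMap R K)).map (f : K →+* K)) • (W₁'⁄K) := by
    rw [hC]
    exact vc83_baseChange_of_eq C h
  rw [vc83_galEquiv_apply, vc83_galEquiv_apply,
    vc83_map_natural f (C.map (algebraMap R K)) (vc83_baseChange_of_eq C h) hK]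
  exact vc83_map_congr hC.symm _ _ _

/-- `vc83_galEquiv` is equivariant for the (Prelude) Galois action on points. -/
lemma vc83_galEquiv_smul (C : VariableChange R) (h : W₂' = C • W₁') (σ : K ≃ₐ[S] K)
    (P : (W₂'⁄K).Point) :
    vc83_galEquiv K C h (σ • P) = σ • vc83_galEquiv K C h P :=
  vc83_galEquiv_map C h σ.toAlgHom P

end Galois

end Fermat.Agent.S41
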