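/-
S41 / M5 (G1) for a general Weierstrass curve (helper82): transport of helper12's Frey-model
count `ft12_card_torsionBy` along helper83's `vc83_addEquiv`.

* `tc82_isFreyModel`         : explicit change of variables `⟨1, e₁, (1 - a₁)/2, -(a₃ + e₁a₁)/2⟩`
                               to the Frey model with `A = 4(e₂ - e₁)`, `B = 4(e₁ - e₃)`, for
                               roots `e₁, e₂, e₃` of the 2-torsion cubic (Vieta form);
* `tc82_exists_frey`         : existence over an algebraically closed field, `2 ≠ 0`, `Δ ≠ 0`;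
* `tc82_card_torsionBy`      : `#W[p] = p²` for odd `p > 1` with `(p : K) ≠ 0`;
* `tc82_card_torsionBy_rat`  : `#E[p] = p²` over `ℚ̄` for `E / ℚ` with `Δ ≠ 0`, `p` odd prime,
                               on the Prelude carrier `Submodule.torsionBy ℤ (E⁄ℚ̄).Point p`.
-/
import Mathlib
import Fermat.Agent.S41.FreyTors12
import Fermat.Agent.S41.VarChange83

set_option autoImplicit false

namespace Fermat.Agent.S41

open WeierstrassCurve

section FreyForm

variable {K : Type*} [Field K]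

/-- Explicit Frey form of a Weierstrass curve whose 2-torsion cubic has roots `e1, e2, e3`. -/
theorem tc82_isFreyModel (W : WeierstrassCurve K) (h2 : (2 : K) ≠ 0) (e1 e2 e3 : K)
    (hb2 : W.b₂ = 4 * -(e1 + e2 + e3)) (hb4 : 2 * W.b₄ = 4 * (e1 * e2 + e1 * e3 + e2 * e3))
    (hb6 : W.b₆ = 4 * -(e1 * e2 * e3)) :
    Fermat.Agent.S05.IsFreyModel
      ((⟨1, e1, (1 - W.a₁) / 2, -(W.a₃ + e1 * W.a₁) / 2⟩ : VariableChange K) • W)
      (4 * (e2 - e1)) (4 * (e1 - e3)) := by
  simp only [b₂, b₄, b₆] at hb2 hb4 hb6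
  constructor
  · rw [variableChange_a₁]
    simp only [inv_one, Units.val_one, one_mul]
    field_simp
    ring
  · rw [variableChange_a₂]
    simp only [inv_one, Units.val_one, one_pow, one_mul]
    field_simp
    linear_combination 4 * hb2
  · rw [variableChange_a₃]
    simp only [inv_one, Units.val_one, one_pow, one_mul]
    field_simp
    ring
  · rw [variableChange_a₄]
    simp only [inv_one, Units.val_one, one_pow, one_mul]
    field_simp
    linear_combination 8 * hb4 + 16 * e1 * hb2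
  · rw [variableChange_a₆]
    simp only [inv_one, Units.val_one, one_pow, one_mul]
    field_simp
    linear_combination e1 ^ 2 * hb2 + e1 * hb4 + hb6

/-- Over an algebraically closed field with `2 ≠ 0`, every Weierstrass curve with `Δ ≠ 0` is
isomorphic (by a change of variables) to a Frey model with `A B (A + B) ≠ 0`. -/
theorem tc82_exists_frey [IsAlgClosed K] (W : WeierstrassCurve K) (h2 : (2 : K) ≠ 0)
    (hΔ : W.Δ ≠ 0) :
    ∃ (C : VariableChange K) (A B : K),
      Fermat.Agent.S05.IsFreyModel (C • W) A B ∧ A ≠ 0 ∧ B ≠ 0 ∧ A + B ≠ 0 := by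
  have h4 : (4 : K) ≠ 0 := by
    have : (4 : K) = 2 * 2 := by norm_num
    rw [this]
    exact mul_ne_zero h2 h2
  have h16 : (16 : K) ≠ 0 := by
    have : (16 : K) = 4 * 4 := by norm_num
    rw [this]
    exact mul_ne_zero h4 h4
  have ha : W.twoTorsionPolynomial.a ≠ 0 := h4
  have hsplit : (W.twoTorsionPolynomial.toPoly.map (RingHom.id K)).Splits :=
    IsAlgClosed.splits _
  obtain ⟨x, y, z, h3⟩ := (Cubic.splits_iff_roots_eq_three ha).mp hsplit
  have hb := Cubic.b_eq_three_roots ha h3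
  have hc := Cubic.c_eq_three_roots ha h3
  have hd := Cubic.d_eq_three_roots ha h3
  have hdisc : W.twoTorsionPolynomial.discr ≠ 0 := by
    rw [twoTorsionPolynomial_discr]
    exact mul_ne_zero h16 hΔ
  obtain ⟨hxy, hxz, hyz⟩ := (Cubic.discr_ne_zero_iff_roots_ne ha h3).mp hdisc
  refine ⟨_, _, _, tc82_isFreyModel W h2 x y z hb hc hd, ?_, ?_, ?_⟩
  · exact mul_ne_zero h4 (sub_ne_zero.mpr (Ne.symm hxy))
  · exact mul_ne_zero h4 (sub_ne_zero.mpr hxz)
  · have : 4 * (y - x) + 4 * (x - z) = 4 * (y - z) := by ring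
    rw [this]
    exact mul_ne_zero h4 (sub_ne_zero.mpr hyz)

/-- `#W[p] = p²` for a Weierstrass curve with `Δ ≠ 0` over an algebraically closed field with
`2 ≠ 0`, `p` odd, `p > 1`, `(p : K) ≠ 0`. -/
theorem tc82_card_torsionBy [IsAlgClosed K] [DecidableEq K] (W : WeierstrassCurve K)
    (h2 : (2 : K) ≠ 0) (hΔ : W.Δ ≠ 0) {p : ℕ} (hp : Odd p) (hp1 : 1 < p) (hpK : (p : K) ≠ 0) :
    Finite (Submodule.torsionBy ℤ W.toAffine.Point (p : ℤ)) ∧
      Nat.card (Submodule.torsionBy ℤ W.toAffine.Point (p : ℤ)) = p ^ 2 := by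
  obtain ⟨C, A, B, hF, hA, hB, hAB⟩ := tc82_exists_frey W h2 hΔ
  obtain ⟨m, rfl⟩ := hp
  have hm : 1 ≤ m := by omega
  obtain ⟨hfin, hcard⟩ := ft12_card_torsionBy hF h2 hA hB hAB hm hpK
  let e := vc83_addEquiv C (rfl : C • W = C • W)
  let e' : Submodule.torsionBy ℤ (C • W).toAffine.Point ((2 * m + 1 : ℕ) : ℤ) ≃
      Submodule.torsionBy ℤ W.toAffine.Point ((2 * m + 1 : ℕ) : ℤ) :=
    e.toEquiv.subtypeEquiv (fun P => by
      rw [Submodule.mem_torsionBy_iff, Submodule.mem_torsionBy_iff]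
      constructor
      · intro h
        show ((2 * m + 1 : ℕ) : ℤ) • e P = 0
        rw [← map_zsmul, h, map_zero]
      · intro h
        apply e.injective
        rw [map_zsmul, map_zero]
        exact h)
  exact ⟨Finite.of_equiv _ e', by rw [← Nat.card_congr e', hcard]⟩

end FreyForm

section Rat

open WeierstrassCurve.Affine

/-- `#E[p] = p²` over `ℚ̄` on the Prelude carrier, for `E / ℚ` with `Δ ≠ 0` and `p` an odd
prime. -/
theorem tc82_card_torsionBy_rat (E : WeierstrassCurve ℚ) (hΔ : E.Δ ≠ 0) {p : ℕ} (hp : p.Prime)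
    (hp2 : p ≠ 2) :
    Finite (Submodule.torsionBy ℤ (E⁄(AlgebraicClosure ℚ)).Point p) ∧
      Nat.card (Submodule.torsionBy ℤ (E⁄(AlgebraicClosure ℚ)).Point p) = p ^ 2 := by
  have hΔ' : (E.baseChange (AlgebraicClosure ℚ)).Δ ≠ 0 := by
    rw [WeierstrassCurve.baseChange, map_Δ]
    exact (map_ne_zero _).mpr hΔ
  exact tc82_card_torsionBy (E.baseChange (AlgebraicClosure ℚ)) two_ne_zero hΔ'
    (hp.odd_of_ne_two hp2) hp.one_lt (Nat.cast_ne_zero.mpr hp.ne_zero)

/-- The same for an elliptic curve. -/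
theorem tc82_card_torsionBy_elliptic (E : WeierstrassCurve ℚ) [E.IsElliptic] {p : ℕ}
    (hp : p.Prime) (hp2 : p ≠ 2) :
    Finite (Submodule.torsionBy ℤ (E⁄(AlgebraicClosure ℚ)).Point p) ∧
      Nat.card (Submodule.torsionBy ℤ (E⁄(AlgebraicClosure ℚ)).Point p) = p ^ 2 :=
  tc82_card_torsionBy_rat E E.isUnit_Δ.ne_zero hp hp2

end Rat

end Fermat.Agent.S41
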