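/-
S41 / M5 (helper24): elementwise form of the Prelude's `IsFrobeniusAt`, and existence of a
Frobenius element of `Gal(ℚ̄/ℚ)` at a given prime in that form (from S54 `exists_isFrobeniusAt`).
-/
import Fermat.Agent.S54.Helper96Frob

set_option autoImplicit false

namespace Fermat.Agent.S41

/-- A Frobenius element at `A` (Prelude `IsFrobeniusAt`) satisfies `σ x ≡ x ^ q` modulo the
maximal ideal of `A`, elementwise on `A`. -/
theorem fb24_frob_of_isFrobeniusAt {K L : Type*} [Field K] [Field L] [Algebra K L]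
    (A : ValuationSubring L) (σ : L ≃ₐ[K] L) (q : ℕ) (h : A.IsFrobeniusAt σ q) :
    ∀ x ∈ A, σ x - x ^ q ∈ A.nonunits := by
  intro x hx
  obtain ⟨hσ, hfrob⟩ := h
  set g : A.decompositionSubgroup K := ⟨σ, hσ⟩ with hg
  set a : A := ⟨x, hx⟩ with ha
  have h1 := hfrob (IsLocalRing.residue A a)
  have h2 : IsLocalRing.residue A (g • a - a ^ q) = 0 := by
    rw [map_sub, map_pow, IsLocalRing.ResidueField.residue_smul, h1, sub_self]
  have h3 : g • a - a ^ q ∈ IsLocalRing.maximalIdeal A :=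
    (IsLocalRing.residue_eq_zero_iff _).mp h2
  rw [A.valuation_lt_one_iff] at h3
  rw [ValuationSubring.mem_nonunits_iff]
  exact h3

/-- For every prime `ℓ` there are a valuation subring `A` of `ℚ̄` over `ℓ` and `τ ∈ Gal(ℚ̄/ℚ)`
with `τ x ≡ x ^ ℓ` modulo the maximal ideal of `A` for all `x ∈ A`. -/
theorem fb24_exists_frob_at (ℓ : ℕ) (hℓ : ℓ.Prime) :
    ∃ (A : ValuationSubring (AlgebraicClosure ℚ))
      (τ : AlgebraicClosure ℚ ≃ₐ[ℚ] AlgebraicClosure ℚ),
      A.LiesOverPrime ℓ ∧ ∀ x ∈ A, τ x - x ^ ℓ ∈ A.nonunits := by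
  obtain ⟨A, τ, hA, hτ⟩ := Fermat.Agent.S54.exists_isFrobeniusAt ℓ hℓ
  exact ⟨A, τ, hA, fb24_frob_of_isFrobeniusAt A τ ℓ hτ⟩

end Fermat.Agent.S41
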