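/-
S41 / M5.FB (helper24): bridge from the finite-level Frobenius existence theorem
(`fe8_exists_frob`, row M5.F1: a prime `P` of `𝓞 K` and `τ₀ ∈ Gal(K/ℚ)`) to the
`AlgebraicClosure ℚ`-level data consumed by M5.NE / M5.F3: a valuation subring `A` of `ℚ̄`
over `ℓ` and `τ ∈ Gal(ℚ̄/ℚ)` with `τ x ≡ x ^ ℓ` modulo the maximal ideal of `A` on `A ∩ K₀`.
-/
import Mathlib
import Fermat.Prelude.Def_FLTPrelim_Ramification

set_option autoImplicit false
set_option linter.style.haveILetI false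

namespace Fermat.Agent.S41

open NumberField

/-- Phrasing-robust form of the finite-level Frobenius existence theorem (row M5.F1). -/
def fb24_Input : Prop :=
  ∀ (K : Type) [Field K] [NumberField K] [IsGalois ℚ K] (σ : K ≃ₐ[ℚ] K) (S : Finset ℕ),
    ∃ (ℓ : ℕ) (P : Ideal (𝓞 K)) (τ : K ≃ₐ[ℚ] K), ℓ.Prime ∧ ℓ ∉ S ∧ P.IsPrime ∧ (ℓ : 𝓞 K) ∈ P ∧
      Subgroup.zpowers τ = Subgroup.zpowers σ ∧
      ∀ x : 𝓞 K, ∃ y ∈ P, τ (x : K) - (x : K) ^ ℓ = (y : K)

section Local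

variable {K L : Type*} [Field K] [NumberField K] [Field L] [Algebra K L]

/-- A valuation subring of `L` dominating the localisation of `𝓞 K` at a nonzero prime `P`:
it contains `𝓞 K`, an element of `𝓞 K` is a nonunit iff it lies in `P`, and its trace on `K`
is the localisation `(𝓞 K)_P`. -/
theorem fb24_exists_valuationSubring (P : Ideal (𝓞 K)) [P.IsPrime] (hP : P ≠ ⊥) :
    ∃ A : ValuationSubring L, (∀ a : 𝓞 K, algebraMap K L (a : K) ∈ A) ∧
      (∀ a : 𝓞 K, a ∈ P → algebraMap K L (a : K) ∈ A.nonunits) ∧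
      (∀ a : 𝓞 K, a ∉ P → A.valuation (algebraMap K L (a : K)) = 1) ∧
      (∀ x : K, algebraMap K L x ∈ A → ∃ a b : 𝓞 K, b ∉ P ∧ x * (b : K) = (a : K)) := by
  classical
  set R := Localization.AtPrime P with hR
  let g : 𝓞 K →+* L := (algebraMap K L).comp (algebraMap (𝓞 K) K)
  have hginj : Function.Injective g :=
    (algebraMap K L).injective.comp (FaithfulSMul.algebraMap_injective (𝓞 K) K)
  have hg : ∀ y : P.primeCompl, IsUnit (g y) := by
    intro y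
    refine IsUnit.mk0 _ ?_
    intro h0
    have : (y : 𝓞 K) = 0 := hginj (by rw [h0, map_zero])
    exact y.2 (this ▸ P.zero_mem)
  let f : R →+* L := IsLocalization.lift hg
  have hf : ∀ a : 𝓞 K, f (algebraMap (𝓞 K) R a) = algebraMap K L (a : K) := fun a =>
    IsLocalization.lift_eq hg a
  obtain ⟨A, hA, hloc⟩ := IsLocalRing.exists_factor_valuationRing f
  have hmem : ∀ a : 𝓞 K, algebraMap K L (a : K) ∈ A := fun a => hf a ▸ hA _
  -- units and nonunits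
  have hnon : ∀ a : 𝓞 K, a ∈ P → algebraMap K L (a : K) ∈ A.nonunits := by
    intro a ha
    rw [ValuationSubring.mem_nonunits_iff]
    have hnu : ¬ IsUnit (algebraMap (𝓞 K) R a) := by
      rw [IsLocalization.AtPrime.isUnit_to_map_iff R P a]
      exact fun h => h ha
    have hnu' : ¬ IsUnit (f.codRestrict A.toSubring hA (algebraMap (𝓞 K) R a)) :=
      fun h => hnu (hloc.map_nonunit _ h)
    have h1 : A.valuation (algebraMap K L (a : K)) ≤ 1 :=
      (A.valuation_le_one_iff _).mpr (hmem a)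
    rcases lt_or_eq_of_le h1 with h | h
    · exact h
    · exfalso
      apply hnu'
      rw [A.valuation_eq_one_iff]
      show A.valuation (f (algebraMap (𝓞 K) R a)) = 1
      rw [hf]; exact h
  have hunit : ∀ a : 𝓞 K, a ∉ P → A.valuation (algebraMap K L (a : K)) = 1 := by
    intro a ha
    have hu : IsUnit (algebraMap (𝓞 K) R a) := by
      rw [IsLocalization.AtPrime.isUnit_to_map_iff R P a]
      exact ha
    have hu' : IsUnit (f.codRestrict A.toSubring hA (algebraMap (𝓞 K) R a)) := hu.map _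
    rw [A.valuation_eq_one_iff] at hu'
    have : A.valuation (f (algebraMap (𝓞 K) R a)) = 1 := hu'
    rwa [hf] at this
  refine ⟨A, hmem, hnon, hunit, ?_⟩
  intro x hx
  have : IsDiscreteValuationRing R :=
    IsLocalization.AtPrime.isDiscreteValuationRing_of_dedekind_domain (𝓞 K) hP R
  have hRinj : Function.Injective (algebraMap (𝓞 K) R) :=
    IsLocalization.injective R P.primeCompl_le_nonZeroDivisors
  obtain ⟨a₀, b₀, hb₀, hx0⟩ := IsFractionRing.div_surjective (𝓞 K) x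
  have hb₀ne : (algebraMap (𝓞 K) K b₀) ≠ 0 := by
    intro h0
    have : b₀ = 0 := FaithfulSMul.algebraMap_injective (𝓞 K) K (by rw [h0, map_zero])
    exact (nonZeroDivisors.ne_zero hb₀) this
  -- `x * b₀ = a₀`
  have hxb : x * algebraMap (𝓞 K) K b₀ = algebraMap (𝓞 K) K a₀ := by
    rw [← hx0]; field_simp
  rcases ValuationRing.dvd_total (algebraMap (𝓞 K) R b₀) (algebraMap (𝓞 K) R a₀) with h | h
  · -- `b₀ ∣ a₀` in the localisation
    obtain ⟨r, hr⟩ := h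
    obtain ⟨⟨c, s⟩, hcs⟩ := IsLocalization.mk'_surjective P.primeCompl r
    have hspec := IsLocalization.mk'_spec R c s
    rw [show IsLocalization.mk' R c s = r from hcs] at hspec
    have h1 : a₀ * (s : 𝓞 K) = b₀ * c := by
      apply hRinj
      rw [map_mul, map_mul, hr, mul_assoc, hspec]
    refine ⟨c, s, s.2, ?_⟩
    have h2 : algebraMap (𝓞 K) K a₀ * algebraMap (𝓞 K) K (s : 𝓞 K)
        = algebraMap (𝓞 K) K b₀ * algebraMap (𝓞 K) K c := by
      rw [← map_mul, ← map_mul, h1]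
    have h3 : algebraMap (𝓞 K) K b₀ * (x * algebraMap (𝓞 K) K (s : 𝓞 K))
        = algebraMap (𝓞 K) K b₀ * algebraMap (𝓞 K) K c := by
      rw [← h2, ← hxb]; ring
    exact mul_left_cancel₀ hb₀ne h3
  · -- `a₀ ∣ b₀` in the localisation
    obtain ⟨r, hr⟩ := h
    obtain ⟨⟨c, s⟩, hcs⟩ := IsLocalization.mk'_surjective P.primeCompl r
    have hspec := IsLocalization.mk'_spec R c s
    rw [show IsLocalization.mk' R c s = r from hcs] at hspec
    have h1 : b₀ * (s : 𝓞 K) = a₀ * c := by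
      apply hRinj
      rw [map_mul, map_mul, hr, mul_assoc, hspec]
    have h2 : algebraMap (𝓞 K) K b₀ * algebraMap (𝓞 K) K (s : 𝓞 K)
        = algebraMap (𝓞 K) K a₀ * algebraMap (𝓞 K) K c := by
      rw [← map_mul, ← map_mul, h1]
    -- `x * c = s`
    have h3 : x * algebraMap (𝓞 K) K c = algebraMap (𝓞 K) K (s : 𝓞 K) := by
      have : algebraMap (𝓞 K) K b₀ * (x * algebraMap (𝓞 K) K c)
          = algebraMap (𝓞 K) K b₀ * algebraMap (𝓞 K) K (s : 𝓞 K) := by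
        rw [h2, ← hxb]; ring
      exact mul_left_cancel₀ hb₀ne this
    by_cases hc : c ∈ P
    · exfalso
      have hv1 : A.valuation (algebraMap K L x) ≤ 1 := (A.valuation_le_one_iff _).mpr hx
      have hv2 : A.valuation (algebraMap K L (c : K)) < 1 :=
        (ValuationSubring.mem_nonunits_iff A).mp (hnon c hc)
      have hv3 : A.valuation (algebraMap K L ((s : 𝓞 K) : K)) = 1 := hunit s s.2
      have h4 : algebraMap K L x * algebraMap K L (c : K) = algebraMap K L ((s : 𝓞 K) : K) := by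
        rw [← map_mul]; exact congrArg _ h3
      have h5 : A.valuation (algebraMap K L x) * A.valuation (algebraMap K L (c : K)) = 1 := by
        rw [← map_mul, h4, hv3]
      have h6 : A.valuation (algebraMap K L x) * A.valuation (algebraMap K L (c : K)) < 1 :=
        lt_of_le_of_lt (mul_le_of_le_one_left' hv1) hv2
      exact absurd h5 (ne_of_lt h6)
    · exact ⟨s, c, hc, h3⟩

omit [NumberField K] in
/-- Transfer of the Frobenius congruence from `𝓞 K` to `A ∩ K = (𝓞 K)_P`. -/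
theorem fb24_frob_congr (P : Ideal (𝓞 K)) (A : ValuationSubring L)
    (hmem : ∀ a : 𝓞 K, algebraMap K L (a : K) ∈ A)
    (hnon : ∀ a : 𝓞 K, a ∈ P → algebraMap K L (a : K) ∈ A.nonunits)
    (hunit : ∀ a : 𝓞 K, a ∉ P → A.valuation (algebraMap K L (a : K)) = 1)
    (hloc : ∀ x : K, algebraMap K L x ∈ A → ∃ a b : 𝓞 K, b ∉ P ∧ x * (b : K) = (a : K))
    (ℓ : ℕ) (τ₀ : K →+* K)
    (hτ : ∀ x : 𝓞 K, ∃ y ∈ P, τ₀ (x : K) - (x : K) ^ ℓ = (y : K))
    (x : K) (hx : algebraMap K L x ∈ A) :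
    algebraMap K L (τ₀ x - x ^ ℓ) ∈ A.nonunits := by
  set v : Valuation K _ := A.valuation.comap (algebraMap K L) with hv
  have hvdef : ∀ z : K, v z = A.valuation (algebraMap K L z) := fun z => rfl
  obtain ⟨a, b, hb, hxb⟩ := hloc x hx
  obtain ⟨y₁, hy₁, hτa⟩ := hτ a
  obtain ⟨y₂, hy₂, hτb⟩ := hτ b
  have hvb : v (b : K) = 1 := hunit b hb
  have hvy₁ : v (y₁ : K) < 1 := (ValuationSubring.mem_nonunits_iff A).mp (hnon y₁ hy₁)
  have hvy₂ : v (y₂ : K) < 1 := (ValuationSubring.mem_nonunits_iff A).mp (hnon y₂ hy₂)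
  have hva : v (a : K) ≤ 1 := (A.valuation_le_one_iff _).mpr (hmem a)
  have hvx : v x ≤ 1 := (A.valuation_le_one_iff _).mpr hx
  -- `τ₀ b = b ^ ℓ + y₂` has valuation one
  have hτb' : τ₀ (b : K) = (b : K) ^ ℓ + (y₂ : K) := by rw [← hτb]; ring
  have hτa' : τ₀ (a : K) = (a : K) ^ ℓ + (y₁ : K) := by rw [← hτa]; ring
  have hvbl : v ((b : K) ^ ℓ) = 1 := by rw [map_pow, hvb, one_pow]
  have hvτb : v (τ₀ (b : K)) = 1 := by
    rw [hτb', v.map_add_eq_of_lt_left (by rw [hvbl]; exact hvy₂), hvbl]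
  have hvτa : v (τ₀ (a : K)) ≤ 1 := by
    rw [hτa']
    refine le_trans (v.map_add _ _) (max_le ?_ hvy₁.le)
    rw [map_pow]; exact pow_le_one' hva ℓ
  have hτx : τ₀ x * τ₀ (b : K) = τ₀ (a : K) := by rw [← map_mul, hxb]
  have hvτx : v (τ₀ x) ≤ 1 := by
    have : v (τ₀ x) * v (τ₀ (b : K)) = v (τ₀ (a : K)) := by rw [← map_mul, hτx]
    rw [hvτb, mul_one] at this
    rw [this]; exact hvτa
  -- the key identity
  have hkey : (τ₀ x - x ^ ℓ) * (b : K) ^ ℓ = (y₁ : K) - τ₀ x * (y₂ : K) := by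
    have h1 : τ₀ x * ((b : K) ^ ℓ + (y₂ : K)) = (a : K) ^ ℓ + (y₁ : K) := by
      rw [← hτb', hτx, hτa']
    have h2 : (a : K) ^ ℓ = x ^ ℓ * (b : K) ^ ℓ := by rw [← hxb, mul_pow]
    rw [h2] at h1
    linear_combination h1
  have hlt : v ((y₁ : K) - τ₀ x * (y₂ : K)) < 1 := by
    refine lt_of_le_of_lt (v.map_sub _ _) (max_lt hvy₁ ?_)
    rw [map_mul]
    exact lt_of_le_of_lt (mul_le_of_le_one_left' hvτx) hvy₂
  rw [ValuationSubring.mem_nonunits_iff]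
  show v (τ₀ x - x ^ ℓ) < 1
  have : v (τ₀ x - x ^ ℓ) * v ((b : K) ^ ℓ) = v ((y₁ : K) - τ₀ x * (y₂ : K)) := by
    rw [← map_mul, hkey]
  rw [hvbl, mul_one] at this
  rw [this]; exact hlt

end Local

section Cyclo

variable {L : Type*} [Field L]

/-- If `ζ` is a primitive `m`-th root of unity with `ζ ≡ ζ ^ ℓ` modulo the maximal ideal of a
valuation subring over `ℓ`, and `ℓ` is prime to `m`, then `ℓ ≡ 1 mod m`. -/
theorem fb24_modEq_one (A : ValuationSubring L) {ℓ m : ℕ} (hℓ1 : 1 ≤ ℓ)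
    (hℓ : (ℓ : L) ∈ A.nonunits) (hcop : Nat.Coprime ℓ m) (hm : 0 < m) {ζ : L}
    (hζ : IsPrimitiveRoot ζ m) (h : ζ - ζ ^ ℓ ∈ A.nonunits) : ℓ ≡ 1 [MOD m] := by
  by_contra hne
  have hvζ : A.valuation ζ = 1 := by
    have h1 : A.valuation ζ ^ m = 1 := by rw [← map_pow, hζ.pow_eq_one, map_one]
    exact (pow_eq_one_iff.mp h1).resolve_right hm.ne'
  obtain ⟨η, hη⟩ : ∃ η : L, η = ζ ^ (ℓ - 1) := ⟨_, rfl⟩
  have hηm : η ^ m = 1 := by rw [hη, ← pow_mul, mul_comm, pow_mul, hζ.pow_eq_one, one_pow]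
  have hη1 : η ≠ 1 := by
    intro h1
    have hdvd : m ∣ ℓ - 1 := (hζ.pow_eq_one_iff_dvd _).mp (hη ▸ h1)
    exact hne ((Nat.modEq_iff_dvd' hℓ1).mpr hdvd).symm
  have hvη : A.valuation η = 1 := by rw [hη, map_pow, hvζ, one_pow]
  have hηA : η ∈ A := (A.valuation_le_one_iff η).mp hvη.le
  -- `1 - η` is a nonunit
  have h1η : A.valuation (1 - η) < 1 := by
    have h2 : ζ - ζ ^ ℓ = ζ * (1 - η) := by
      rw [hη, mul_sub, mul_one, ← pow_succ', Nat.sub_add_cancel hℓ1]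
    have h3 : A.valuation (ζ - ζ ^ ℓ) < 1 := (ValuationSubring.mem_nonunits_iff A).mp h
    rwa [h2, map_mul, hvζ, one_mul] at h3
  -- the geometric sum vanishes
  have hgeom : ∑ i ∈ Finset.range m, η ^ i = 0 := by
    have h2 : (η - 1) * ∑ i ∈ Finset.range m, η ^ i = 0 := by
      rw [mul_geom_sum, hηm, sub_self]
    exact (mul_eq_zero.mp h2).resolve_left (sub_ne_zero.mpr hη1)
  have hmsum : (m : L) = ∑ i ∈ Finset.range m, (1 - η ^ i) := by
    rw [Finset.sum_sub_distrib, hgeom, sub_zero, Finset.sum_const, Finset.card_range,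
      nsmul_eq_mul, mul_one]
  have hvpow : ∀ i : ℕ, A.valuation (1 - η ^ i) < 1 := by
    intro i
    have h2 : (1 : L) - η ^ i = (1 - η) * ∑ j ∈ Finset.range i, η ^ j := by
      have := mul_geom_sum η i
      linear_combination this
    rw [h2, map_mul]
    have h3 : A.valuation (∑ j ∈ Finset.range i, η ^ j) ≤ 1 :=
      (A.valuation_le_one_iff _).mpr (sum_mem (fun j _ => pow_mem hηA j))
    exact lt_of_le_of_lt (mul_le_of_le_one_right' h3) h1η
  have hvm : A.valuation (m : L) < 1 := by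
    rw [hmsum]
    exact A.valuation.map_sum_lt one_ne_zero (fun i _ => hvpow i)
  have hvℓ : A.valuation (ℓ : L) < 1 := (ValuationSubring.mem_nonunits_iff A).mp hℓ
  -- Bezout
  have hbez : (ℓ : ℤ) * Nat.gcdA ℓ m + (m : ℤ) * Nat.gcdB ℓ m = 1 := by
    have := Nat.gcd_eq_gcd_ab ℓ m
    rw [hcop] at this
    exact_mod_cast this.symm
  have hbezL : (ℓ : L) * ((Nat.gcdA ℓ m : ℤ) : L) + (m : L) * ((Nat.gcdB ℓ m : ℤ) : L) = 1 := by
    exact_mod_cast congrArg (Int.cast : ℤ → L) hbez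
  have hint : ∀ z : ℤ, A.valuation (z : L) ≤ 1 := fun z =>
    (A.valuation_le_one_iff _).mpr (intCast_mem A z)
  have hlt : A.valuation
      ((ℓ : L) * ((Nat.gcdA ℓ m : ℤ) : L) + (m : L) * ((Nat.gcdB ℓ m : ℤ) : L)) < 1 := by
    refine lt_of_le_of_lt (A.valuation.map_add _ _) (max_lt ?_ ?_)
    · rw [map_mul]; exact lt_of_le_of_lt (mul_le_of_le_one_right' (hint _)) hvℓ
    · rw [map_mul]; exact lt_of_le_of_lt (mul_le_of_le_one_right' (hint _)) hvm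
  rw [hbezL, map_one] at hlt
  exact lt_irrefl _ hlt

end Cyclo

section Main

local notation "Qb" => AlgebraicClosure ℚ
local notation "GQ" => AlgebraicClosure ℚ ≃ₐ[ℚ] AlgebraicClosure ℚ

/-- `AlgebraicClosure ℚ` is an algebraic closure of `ℚ` (for the default `ℚ`-algebra structure). -/
theorem fb24_isAlgClosure : IsAlgClosure ℚ (AlgebraicClosure ℚ) := by
  have h : (DivisionRing.toRatAlgebra : Algebra ℚ (AlgebraicClosure ℚ)) =
      AlgebraicClosure.instAlgebra ℚ := Subsingleton.elim _ _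
  rw [h]; infer_instance

theorem fb24_pow_apply_of_fixed (σ : GQ) (z : Qb) (h : σ z = z) (i : ℕ) : (σ ^ i) z = z := by
  induction i with
  | zero => rfl
  | succ i ih => rw [pow_succ, AlgEquiv.mul_apply, h, ih]

/-- **Frobenius bridge.**  From the finite-level Frobenius existence theorem: for every finite set
`s ⊆ ℚ̄`, every `σ ∈ Gal(ℚ̄/ℚ)` fixing the `m`-th roots of unity and every finite set `S` of
primes there are a prime `ℓ ∉ S`, `ℓ ≡ 1 mod m`, a valuation subring `A` of `ℚ̄` over `ℓ`,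
`τ ∈ Gal(ℚ̄/ℚ)` and a subfield `K₀ ∋ s` such that `τ x ≡ x ^ ℓ` modulo the maximal ideal of `A`
for all `x ∈ A ∩ K₀`, and `σ` agrees with a power of `τ` on `K₀`. -/
theorem fb24_exists_both (h : fb24_Input) (s : Finset (AlgebraicClosure ℚ)) (m : ℕ) (hm : 0 < m)
    (σ : AlgebraicClosure ℚ ≃ₐ[ℚ] AlgebraicClosure ℚ)
    (hσ : ∀ ζ : AlgebraicClosure ℚ, ζ ^ m = 1 → σ ζ = ζ) (S : Finset ℕ) :
    ∃ (ℓ : ℕ) (A : ValuationSubring (AlgebraicClosure ℚ))
      (τ : AlgebraicClosure ℚ ≃ₐ[ℚ] AlgebraicClosure ℚ)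
      (K₀ : IntermediateField ℚ (AlgebraicClosure ℚ)),
      ℓ.Prime ∧ ℓ ∉ S ∧ ℓ ≡ 1 [MOD m] ∧ A.LiesOverPrime ℓ ∧ (∀ x ∈ s, x ∈ K₀) ∧
      (∀ x ∈ K₀, x ∈ A → τ x - x ^ ℓ ∈ A.nonunits) ∧
      (∃ j : ℕ, ∀ x ∈ K₀, σ x = (τ ^ j) x) ∧ (∃ i : ℕ, ∀ x ∈ K₀, τ x = (σ ^ i) x) ∧
      (∀ ρ : AlgebraicClosure ℚ ≃ₐ[ℚ] AlgebraicClosure ℚ, ∀ x ∈ K₀, ρ x ∈ K₀) := by
  classical
  haveI := fb24_isAlgClosure
  haveI : Normal ℚ Qb := IsAlgClosure.normal ℚ Qb
  haveI : NeZero ((m : ℕ) : Qb) := ⟨Nat.cast_ne_zero.mpr hm.ne'⟩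
  obtain ⟨ζ, hζ⟩ : ∃ ζ : Qb, IsPrimitiveRoot ζ m := HasEnoughRootsOfUnity.exists_primitiveRoot Qb m
  -- the fields
  let T : Set Qb := ↑(insert ζ s)
  haveI : FiniteDimensional ℚ (IntermediateField.adjoin ℚ T) :=
    IntermediateField.finiteDimensional_adjoin (fun x _ => Algebra.IsIntegral.isIntegral x)
  let K₀ : IntermediateField ℚ Qb :=
    IntermediateField.normalClosure ℚ (IntermediateField.adjoin ℚ T) Qb
  haveI : FiniteDimensional ℚ K₀ := normalClosure.is_finiteDimensional ℚ _ Qb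
  haveI : Normal ℚ K₀ := normalClosure.normal ℚ _ Qb
  haveI : NumberField K₀ := { to_charZero := inferInstance, to_finiteDimensional := inferInstance }
  haveI : IsGalois ℚ K₀ := { }
  have hT : ∀ x ∈ T, x ∈ K₀ := fun x hx =>
    IntermediateField.le_normalClosure _ (IntermediateField.subset_adjoin ℚ T hx)
  have hζK : ζ ∈ K₀ := hT ζ (Finset.mem_coe.mpr (Finset.mem_insert_self ζ s))
  -- apply the finite-level theorem
  obtain ⟨ℓ, P, τ₀, hℓ, hℓS, hP, hℓP, hzp, hfrob⟩ :=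
    h K₀ (AlgEquiv.restrictNormalHom K₀ σ) (S ∪ m.primeFactors)
  haveI := hP
  have hℓS' : ℓ ∉ S := fun hmem => hℓS (Finset.mem_union_left _ hmem)
  have hcop : Nat.Coprime ℓ m := by
    rw [Nat.Prime.coprime_iff_not_dvd hℓ]
    intro hdvd
    exact hℓS (Finset.mem_union_right _ (Nat.mem_primeFactors.mpr ⟨hℓ, hdvd, hm.ne'⟩))
  have hPbot : P ≠ ⊥ := by
    intro hbot
    rw [hbot, Ideal.mem_bot] at hℓP
    exact hℓ.ne_zero (by exact_mod_cast hℓP)
  obtain ⟨A, hmem, hnon, hunit, hloc⟩ := fb24_exists_valuationSubring (K := K₀) (L := Qb) P hPbot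
  have hLies : A.LiesOverPrime ℓ := by
    have := hnon (ℓ : 𝓞 K₀) hℓP
    simpa [ValuationSubring.LiesOverPrime] using this
  -- lift `τ₀`
  obtain ⟨τ, hτ⟩ := AlgEquiv.restrictNormalHom_surjective (F := ℚ) (K₁ := K₀) Qb τ₀
  have hres : ∀ (ρ : GQ) (x : K₀), ((AlgEquiv.restrictNormalHom K₀ ρ) x : Qb) = ρ (x : Qb) :=
    fun ρ x => AlgEquiv.restrictNormal_commutes ρ K₀ x
  have hτx : ∀ x : K₀, ((τ₀ x : K₀) : Qb) = τ (x : Qb) := fun x => by rw [← hτ]; exact hres τ x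
  -- Frobenius congruence
  have hcongr : ∀ x ∈ K₀, x ∈ A → τ x - x ^ ℓ ∈ A.nonunits := by
    intro x hxK hxA
    have := fb24_frob_congr (K := K₀) (L := Qb) P A hmem hnon hunit hloc ℓ
      (τ₀ : K₀ →+* K₀) (fun z => hfrob z) ⟨x, hxK⟩ hxA
    have h2 : algebraMap K₀ Qb ((τ₀ : K₀ →+* K₀) ⟨x, hxK⟩ - (⟨x, hxK⟩ : K₀) ^ ℓ)
        = τ x - x ^ ℓ := by
      rw [map_sub, map_pow]
      congr 1
      exact hτx ⟨x, hxK⟩
    rwa [h2] at this
  -- powers
  have hfin : Finite (K₀ ≃ₐ[ℚ] K₀) := inferInstance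
  have hτ₀pow : τ₀ ∈ Submonoid.powers (AlgEquiv.restrictNormalHom K₀ σ) := by
    rw [mem_powers_iff_mem_zpowers, ← hzp]; exact Subgroup.mem_zpowers τ₀
  have hσpow : (AlgEquiv.restrictNormalHom K₀ σ) ∈ Submonoid.powers τ₀ := by
    rw [mem_powers_iff_mem_zpowers, hzp]; exact Subgroup.mem_zpowers _
  obtain ⟨i, hi'⟩ := hτ₀pow
  obtain ⟨j, hj'⟩ := hσpow
  have hi : (AlgEquiv.restrictNormalHom K₀ σ) ^ i = τ₀ := hi'
  have hj : τ₀ ^ j = AlgEquiv.restrictNormalHom K₀ σ := hj'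
  -- `τ ζ = ζ`
  have hτζ : τ ζ = ζ := by
    have h1 : ((τ₀ ⟨ζ, hζK⟩ : K₀) : Qb) = τ ζ := hτx ⟨ζ, hζK⟩
    rw [← h1, ← hi, ← map_pow, hres]
    exact fb24_pow_apply_of_fixed σ ζ (hσ ζ hζ.pow_eq_one) i
  have hζA : ζ ∈ A := by
    rw [← ValuationSubring.valuation_le_one_iff]
    have h1 : A.valuation ζ ^ m = 1 := by rw [← map_pow, hζ.pow_eq_one, map_one]
    exact ((pow_eq_one_iff.mp h1).resolve_right hm.ne').le
  have hmod : ℓ ≡ 1 [MOD m] := by
    have h1 := hcongr ζ hζK hζA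
    rw [hτζ] at h1
    exact fb24_modEq_one A hℓ.one_le hLies hcop hm hζ h1
  refine ⟨ℓ, A, τ, K₀, hℓ, hℓS', hmod, hLies,
    fun x hx => hT x (Finset.mem_coe.mpr (Finset.mem_insert_of_mem hx)), hcongr, ⟨j, ?_⟩,
    ⟨i, ?_⟩, ?_⟩
  · intro x hxK
    have h1 : ((AlgEquiv.restrictNormalHom K₀ σ) ⟨x, hxK⟩ : Qb) = σ x := hres σ ⟨x, hxK⟩
    rw [← h1, ← hj, ← hτ, ← map_pow, hres]
  · intro x hxK
    have h1 : ((τ₀ ⟨x, hxK⟩ : K₀) : Qb) = τ x := hτx ⟨x, hxK⟩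
    rw [← h1, ← hi, ← map_pow, hres]
  · intro ρ x hxK
    rw [← hres ρ ⟨x, hxK⟩]
    exact Subtype.property _

/-- **Frobenius bridge** (short form of `fb24_exists_both`). -/
theorem fb24_exists (h : fb24_Input) (s : Finset (AlgebraicClosure ℚ)) (m : ℕ) (hm : 0 < m)
    (σ : AlgebraicClosure ℚ ≃ₐ[ℚ] AlgebraicClosure ℚ)
    (hσ : ∀ ζ : AlgebraicClosure ℚ, ζ ^ m = 1 → σ ζ = ζ) (S : Finset ℕ) :
    ∃ (ℓ : ℕ) (A : ValuationSubring (AlgebraicClosure ℚ))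
      (τ : AlgebraicClosure ℚ ≃ₐ[ℚ] AlgebraicClosure ℚ)
      (K₀ : IntermediateField ℚ (AlgebraicClosure ℚ)),
      ℓ.Prime ∧ ℓ ∉ S ∧ ℓ ≡ 1 [MOD m] ∧ A.LiesOverPrime ℓ ∧ (∀ x ∈ s, x ∈ K₀) ∧
      (∀ x ∈ K₀, x ∈ A → τ x - x ^ ℓ ∈ A.nonunits) ∧
      (∃ j : ℕ, ∀ x ∈ K₀, σ x = (τ ^ j) x) := by
  obtain ⟨ℓ, A, τ, K₀, h1, h2, h3, h4, h5, h6, h7, -, -⟩ := fb24_exists_both h s m hm σ hσ S
  exact ⟨ℓ, A, τ, K₀, h1, h2, h3, h4, h5, h6, h7⟩

end Main

end Fermat.Agent.S41
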