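import Fermat.Agent.S41.FrobGalois8

set_option autoImplicit false
set_option linter.unusedSectionVars false
set_option linter.style.haveILetI false

open NumberField IsDedekindDomain
open scoped Pointwise

namespace Fermat.Agent.S41

open Fermat.Agent.S14

section analytic

variable {K : Type*} [Field K] [NumberField K] [IsGalois ℚ K]

/-- The weight `ℓ_v ^ (-s)` of a prime `v` (`ℓ_v` the rational prime below `v`). -/
noncomputable def fe8_w (s : ℝ) (v : HeightOneSpectrum (𝓞 K)) : ℝ := ((h25_rp v : ℕ) : ℝ) ^ (-s)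

theorem fe8_w_pos (s : ℝ) (v : HeightOneSpectrum (𝓞 K)) : 0 < fe8_w s v := by
  unfold fe8_w
  exact Real.rpow_pos_of_pos (by exact_mod_cast (h25_rp_prime v).pos) _

variable (B : Finset ℕ) (F : IntermediateField ℚ K)

/-- The good primes whose Frobenius fixes `F`. -/
def fe8_setB : Set (HeightOneSpectrum (𝓞 K)) :=
  {v | h25_rp v ∉ B ∧
    fe8_frob K v ∈ fixingSubgroup (K ≃ₐ[ℚ] K) ((F : IntermediateField ℚ K) : Set K)}

/-- The summand `ord(Frob_v) * ℓ_v ^ (-s)`. -/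
noncomputable def fe8_f (s : ℝ) (v : HeightOneSpectrum (𝓞 K)) : ℝ :=
  (orderOf (fe8_frob K v) : ℝ) * fe8_w s v

theorem fe8_f_nonneg (s : ℝ) (v : HeightOneSpectrum (𝓞 K)) : 0 ≤ fe8_f s v :=
  mul_nonneg (Nat.cast_nonneg _) (fe8_w_pos s v).le

theorem fe8_fibre_ncard_pos (𝔮 : HeightOneSpectrum (𝓞 F)) :
    0 < (fe8_fibre (K := K) F 𝔮).ncard :=
  (Set.ncard_pos (fe8_fibre_finite F 𝔮)).mpr (fe8_fibre_nonempty F 𝔮)

variable {B F}

/-- The pointwise identity behind the fibre count. -/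
theorem fe8_f_eq (hB : ∀ v : HeightOneSpectrum (𝓞 K), h25_rp v ∉ B →
      Ideal.inertia (K ≃ₐ[ℚ] K) v.asIdeal = ⊥) (s : ℝ) {v : HeightOneSpectrum (𝓞 K)}
    (hv : v ∈ fe8_setB B F) :
    fe8_f s v * ((fe8_fibre (K := K) F (fe8_below F v)).ncard : ℝ) =
      (Nat.card (fixingSubgroup (K ≃ₐ[ℚ] K) ((F : IntermediateField ℚ K) : Set K)) : ℝ) *
        nrm F s (primeNZ F (fe8_below F v)) := by
  have h1 := fe8_fib F v (hB v hv.1) hv.2
  rw [← fe8_fibre_ncard] at h1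
  have h2 := fe8_absNorm_below_of_frob_mem F v hv.2
  rw [h25_nrm_primeNZ, h2, ← h1]
  unfold fe8_f fe8_w
  push_cast
  ring


/-- Finite upper bound: a finite sum of `f` over good primes whose Frobenius fixes `F` is at most
`#Gal(K/F)` times the sum of `N(q)^(-s)` over the primes of `F` below. -/
theorem fe8_sum_le [DecidableEq (HeightOneSpectrum (𝓞 F))] (hB : ∀ v : HeightOneSpectrum (𝓞 K), h25_rp v ∉ B →
      Ideal.inertia (K ≃ₐ[ℚ] K) v.asIdeal = ⊥) (s : ℝ)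
    (T : Finset (HeightOneSpectrum (𝓞 K))) (hT : ∀ v ∈ T, v ∈ fe8_setB B F) :
    ∑ v ∈ T, fe8_f s v ≤
      (Nat.card (fixingSubgroup (K ≃ₐ[ℚ] K) ((F : IntermediateField ℚ K) : Set K)) : ℝ) *
        ∑ 𝔮 ∈ T.image (fe8_below F), nrm F s (primeNZ F 𝔮) := by
  rw [← Finset.sum_fiberwise_of_maps_to (g := fe8_below F) (t := T.image (fe8_below F))
    (fun v hv => Finset.mem_image_of_mem _ hv), Finset.mul_sum]
  refine Finset.sum_le_sum fun 𝔮 _ => ?_
  set N : ℝ := ((fe8_fibre (K := K) F 𝔮).ncard : ℝ) with hN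
  have hNpos : 0 < N := by
    rw [hN]
    exact_mod_cast fe8_fibre_ncard_pos F 𝔮
  set c : ℝ := (Nat.card (fixingSubgroup (K ≃ₐ[ℚ] K) ((F : IntermediateField ℚ K) : Set K)) : ℝ) *
    nrm F s (primeNZ F 𝔮) with hc
  have hc0 : 0 ≤ c := mul_nonneg (Nat.cast_nonneg _) (nrm_pos F s _).le
  have hterm : ∀ v ∈ T.filter (fun v => fe8_below F v = 𝔮), fe8_f s v = c / N := by
    intro v hv
    rw [Finset.mem_filter] at hv
    have h1 := fe8_f_eq hB s (hT v hv.1)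
    rw [hv.2] at h1
    rw [eq_div_iff hNpos.ne']
    exact h1
  rw [Finset.sum_congr rfl hterm, Finset.sum_const, nsmul_eq_mul]
  have hcard : ((T.filter (fun v => fe8_below F v = 𝔮)).card : ℝ) ≤ N := by
    rw [hN]
    have hsub : ((T.filter (fun v => fe8_below F v = 𝔮) : Finset _) : Set (HeightOneSpectrum (𝓞 K))) ⊆
        fe8_fibre F 𝔮 := by
      intro v hv
      rw [Finset.mem_coe, Finset.mem_filter] at hv
      exact hv.2
    have := Set.ncard_le_ncard hsub (fe8_fibre_finite F 𝔮)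
    rw [Set.ncard_coe_finset] at this
    exact_mod_cast this
  calc ((T.filter (fun v => fe8_below F v = 𝔮)).card : ℝ) * (c / N) ≤ N * (c / N) :=
        mul_le_mul_of_nonneg_right hcard (div_nonneg hc0 hNpos.le)
    _ = c := by field_simp

/-- Finite lower bound: over good degree-one primes of `F` the sum of `N(q)^(-s)` times
`#Gal(K/F)` is a finite sum of `f` over good primes whose Frobenius fixes `F`. -/
theorem fe8_mul_sum_eq (hB : ∀ v : HeightOneSpectrum (𝓞 K), h25_rp v ∉ B →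
      Ideal.inertia (K ≃ₐ[ℚ] K) v.asIdeal = ⊥) (s : ℝ)
    (T' : Finset (HeightOneSpectrum (𝓞 F)))
    (hT' : ∀ 𝔮 ∈ T', h25_rp 𝔮 ∉ B ∧ (Ideal.absNorm 𝔮.asIdeal).Prime) :
    ∃ T : Finset (HeightOneSpectrum (𝓞 K)), (∀ v ∈ T, v ∈ fe8_setB B F) ∧
      (Nat.card (fixingSubgroup (K ≃ₐ[ℚ] K) ((F : IntermediateField ℚ K) : Set K)) : ℝ) *
        ∑ 𝔮 ∈ T', nrm F s (primeNZ F 𝔮) = ∑ v ∈ T, fe8_f s v := by
  classical
  have hmem : ∀ 𝔮 ∈ T', ∀ v ∈ (fe8_fibre_finite (K := K) F 𝔮).toFinset, v ∈ fe8_setB B F := by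
    intro 𝔮 h𝔮 v hv
    rw [Set.Finite.mem_toFinset] at hv
    have hv' : fe8_below F v = 𝔮 := hv
    have hrp : h25_rp v ∉ B := by
      rw [← fe8_rp_below F v, hv']
      exact (hT' 𝔮 h𝔮).1
    refine ⟨hrp, fe8_frob_mem_of_absNorm_below F v (hB v hrp) ?_⟩
    have hN := h25_absNorm_eq (fe8_below F v)
    rw [fe8_rp_below] at hN
    have hpr : (Ideal.absNorm (fe8_below F v).asIdeal).Prime := by
      rw [hv']
      exact (hT' 𝔮 h𝔮).2
    rw [← hN] at hpr ⊢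
    have := (Nat.Prime.pow_eq_iff hpr).mp rfl
    rw [this.2, pow_one]
  refine ⟨T'.biUnion (fun 𝔮 => (fe8_fibre_finite (K := K) F 𝔮).toFinset), ?_, ?_⟩
  · intro v hv
    rw [Finset.mem_biUnion] at hv
    obtain ⟨𝔮, h𝔮, hv⟩ := hv
    exact hmem 𝔮 h𝔮 v hv
  · rw [Finset.sum_biUnion, Finset.mul_sum]
    · refine Finset.sum_congr rfl fun 𝔮 h𝔮 => ?_
      set N : ℝ := ((fe8_fibre (K := K) F 𝔮).ncard : ℝ) with hN
      have hNpos : 0 < N := by
        rw [hN]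
        exact_mod_cast fe8_fibre_ncard_pos F 𝔮
      set c : ℝ :=
        (Nat.card (fixingSubgroup (K ≃ₐ[ℚ] K) ((F : IntermediateField ℚ K) : Set K)) : ℝ) *
        nrm F s (primeNZ F 𝔮) with hc
      have hterm : ∀ v ∈ (fe8_fibre_finite (K := K) F 𝔮).toFinset, fe8_f s v = c / N := by
        intro v hv
        have h1 := fe8_f_eq hB s (hmem 𝔮 h𝔮 v hv)
        rw [Set.Finite.mem_toFinset] at hv
        have hv' : fe8_below F v = 𝔮 := hv
        rw [hv'] at h1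
        rw [eq_div_iff hNpos.ne']
        exact h1
      rw [Finset.sum_congr rfl hterm, Finset.sum_const, nsmul_eq_mul]
      have hcard : (((fe8_fibre_finite (K := K) F 𝔮).toFinset.card : ℕ) : ℝ) = N := by
        rw [hN, Set.ncard_eq_toFinset_card _ (fe8_fibre_finite F 𝔮)]
      rw [hcard]
      field_simp
    · intro 𝔮 _ 𝔮' _ hne
      rw [Function.onFun, Finset.disjoint_left]
      intro v hv hv'
      rw [Set.Finite.mem_toFinset] at hv hv'
      have h1 : fe8_below F v = 𝔮 := hv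
      have h2 : fe8_below F v = 𝔮' := hv'
      exact hne (h1.symm.trans h2)


/-- **Asymptotics of the Frobenius-weighted prime sum.**  The sum of `ord(Frob_v) ℓ_v^(-s)` over
the good primes `v` of `K` whose Frobenius fixes `F` is `#Gal(K/F) · log (1/(s-1)) + O(1)`. -/
theorem fe8_asymp (hB : ∀ v : HeightOneSpectrum (𝓞 K), h25_rp v ∉ B →
      Ideal.inertia (K ≃ₐ[ℚ] K) v.asIdeal = ⊥) :
    ∃ C : ℝ, ∀ s : ℝ, 1 < s → s ≤ 2 →
      Summable (Set.indicator (fe8_setB B F) (fe8_f (K := K) s)) ∧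
      |∑' v, Set.indicator (fe8_setB B F) (fe8_f (K := K) s) v -
        (Nat.card (fixingSubgroup (K ≃ₐ[ℚ] K) ((F : IntermediateField ℚ K) : Set K)) : ℝ) *
          Real.log (1 / (s - 1))| ≤ C := by
  classical
  obtain ⟨C1, hC1⟩ := h25_primeSum_le_log F
  obtain ⟨C0, hC0⟩ := dens_lower F
  set h : ℝ := (Nat.card (fixingSubgroup (K ≃ₐ[ℚ] K) ((F : IntermediateField ℚ K) : Set K)) : ℝ)
    with hh
  have hpos : 0 < h := by
    rw [hh]
    exact_mod_cast Nat.card_pos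
  set C2 : ℝ := (Module.finrank ℤ (𝓞 F) : ℝ) * ∑' r : ℕ, ((r : ℝ) ^ 2)⁻¹ +
    (Module.finrank ℤ (𝓞 F) : ℝ) * (B.card : ℝ) with hC2
  refine ⟨h * (|C1| + |C0| + |C2|), fun s hs1 hs2 => ?_⟩
  obtain ⟨hsum, hle⟩ := hC1 s hs1 hs2
  have hg0 : ∀ 𝔮 : HeightOneSpectrum (𝓞 F), 0 ≤ nrm F s (primeNZ F 𝔮) := fun 𝔮 => (nrm_pos F s _).le
  set Φ : HeightOneSpectrum (𝓞 K) → ℝ := Set.indicator (fe8_setB B F) (fe8_f (K := K) s) with hΦ
  have hnn : 0 ≤ Φ := fun v => Set.indicator_nonneg (fun v _ => fe8_f_nonneg s v) v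
  -- upper bound on finite sums
  have hfin : ∀ u : Finset (HeightOneSpectrum (𝓞 K)),
      ∑ v ∈ u, Φ v ≤ h * (Real.log (1 / (s - 1)) + C1) := by
    intro u
    have e : ∑ v ∈ u, Φ v = ∑ v ∈ u.filter (fun v => v ∈ fe8_setB B F), fe8_f s v := by
      rw [Finset.sum_filter]
      exact Finset.sum_congr rfl fun v _ => Set.indicator_apply _ _ _
    rw [e]
    refine (fe8_sum_le hB s _ (fun v hv => (Finset.mem_filter.mp hv).2)).trans ?_
    refine mul_le_mul_of_nonneg_left ?_ hpos.le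
    exact (hsum.sum_le_tsum _ (fun 𝔮 _ => hg0 𝔮)).trans hle
  have hS : Summable Φ := summable_of_sum_le hnn hfin
  have hupper : ∑' v, Φ v ≤ h * (Real.log (1 / (s - 1)) + C1) := Real.tsum_le_of_sum_le hnn hfin
  -- lower bound
  have hlow : ∑' 𝔮 : HeightOneSpectrum (𝓞 F), nrm F s (primeNZ F 𝔮) ≤ (∑' v, Φ v) / h + C2 := by
    refine Real.tsum_le_of_sum_le (fun 𝔮 => hg0 𝔮) fun T'' => ?_
    set T13 := T''.filter (fun 𝔮 => (Ideal.absNorm 𝔮.asIdeal).Prime) with hT13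
    set T2 := T''.filter (fun 𝔮 => ¬ (Ideal.absNorm 𝔮.asIdeal).Prime) with hT2
    set T1 := T13.filter (fun 𝔮 => h25_rp 𝔮 ∉ B) with hT1
    set T3 := T13.filter (fun 𝔮 => ¬ h25_rp 𝔮 ∉ B) with hT3
    have e1 : ∑ 𝔮 ∈ T'', nrm F s (primeNZ F 𝔮) =
        ∑ 𝔮 ∈ T13, nrm F s (primeNZ F 𝔮) + ∑ 𝔮 ∈ T2, nrm F s (primeNZ F 𝔮) :=
      (Finset.sum_filter_add_sum_filter_not T'' _ _).symm
    have e2 : ∑ 𝔮 ∈ T13, nrm F s (primeNZ F 𝔮) =
        ∑ 𝔮 ∈ T1, nrm F s (primeNZ F 𝔮) + ∑ 𝔮 ∈ T3, nrm F s (primeNZ F 𝔮) :=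
      (Finset.sum_filter_add_sum_filter_not T13 _ _).symm
    have b2 : ∑ 𝔮 ∈ T2, nrm F s (primeNZ F 𝔮) ≤
        (Module.finrank ℤ (𝓞 F) : ℝ) * ∑' r : ℕ, ((r : ℝ) ^ 2)⁻¹ :=
      h25_sum_deg_two_le T2 (fun 𝔭 h𝔭 => (Finset.mem_filter.mp h𝔭).2) hs1.le
    have b3 : ∑ 𝔮 ∈ T3, nrm F s (primeNZ F 𝔮) ≤ (Module.finrank ℤ (𝓞 F) : ℝ) * (B.card : ℝ) := by
      have h1 : ∑ 𝔮 ∈ T3, nrm F s (primeNZ F 𝔮) ≤ ∑ _𝔮 ∈ T3, (1 : ℝ) :=
        Finset.sum_le_sum fun 𝔮 _ => h25_rpow_le_one 𝔮 (by linarith)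
      rw [Finset.sum_const, nsmul_eq_mul, mul_one] at h1
      have h2 : T3.card ≤ Module.finrank ℤ (𝓞 F) * (T3.image h25_rp).card :=
        Finset.card_le_mul_card_image T3 _ (fun r _ => h25_card_fiber_le T3 r)
      have h3 : (T3.image h25_rp).card ≤ B.card := by
        refine Finset.card_le_card fun r hr => ?_
        rw [Finset.mem_image] at hr
        obtain ⟨𝔮, h𝔮, rfl⟩ := hr
        exact not_not.mp (Finset.mem_filter.mp h𝔮).2
      have h4 : (T3.card : ℝ) ≤ (Module.finrank ℤ (𝓞 F) : ℝ) * (B.card : ℝ) := by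
        exact_mod_cast h2.trans (Nat.mul_le_mul_left _ h3)
      exact h1.trans h4
    have b1 : ∑ 𝔮 ∈ T1, nrm F s (primeNZ F 𝔮) ≤ (∑' v, Φ v) / h := by
      obtain ⟨T, hTmem, hTeq⟩ := fe8_mul_sum_eq (K := K) hB s T1 (fun 𝔮 h𝔮 => by
        rw [hT1, Finset.mem_filter, hT13, Finset.mem_filter] at h𝔮
        exact ⟨h𝔮.2, h𝔮.1.2⟩)
      rw [le_div_iff₀ hpos, mul_comm, hTeq]
      have e : ∑ v ∈ T, fe8_f s v = ∑ v ∈ T, Φ v :=
        Finset.sum_congr rfl fun v hv => (Set.indicator_of_mem (hTmem v hv) _).symm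
      rw [e]
      exact hS.sum_le_tsum T (fun v _ => hnn v)
    rw [e1, e2, hC2]
    linarith
  have h0 := hC0 s hs1 hs2
  rw [dens_primeSum_univ] at h0
  refine ⟨hS, ?_⟩
  have hlow' : h * (Real.log (1 / (s - 1)) - C0 - C2) ≤ ∑' v, Φ v := by
    have : Real.log (1 / (s - 1)) - C0 - C2 ≤ (∑' v, Φ v) / h := by linarith
    rw [le_div_iff₀ hpos] at this
    linarith
  rw [abs_le]
  have a1 := le_abs_self C1
  have a0 := le_abs_self C0
  have a2 := le_abs_self C2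
  have n1 := abs_nonneg C1
  have n0 := abs_nonneg C0
  have n2 := abs_nonneg C2
  constructor
  · nlinarith
  · nlinarith

end analytic

section cyclic

variable {G : Type*} [Group G] [Finite G]

/-- In a finite group, the subgroup of `⟨σ⟩` generated by `σ^(n/e)` (`n` the order of `σ`,
`e ∣ n`) consists of the elements of `⟨σ⟩` of order dividing `e`. -/
theorem fe8_mem_zpowers_pow_iff (σ g : G) {e : ℕ} (he : e ∣ orderOf σ) :
    g ∈ Subgroup.zpowers (σ ^ (orderOf σ / e)) ↔ g ∈ Subgroup.zpowers σ ∧ orderOf g ∣ e := by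
  have hn : 0 < orderOf σ := orderOf_pos σ
  have he0 : 0 < e := Nat.pos_of_dvd_of_pos he hn
  obtain ⟨m, hm⟩ := he
  have hdiv : orderOf σ / e = m := by rw [hm]; exact Nat.mul_div_cancel_left m he0
  rw [hdiv]
  constructor
  · rintro ⟨k, rfl⟩
    refine ⟨⟨m * k, ?_⟩, ?_⟩
    · simp only [zpow_mul, zpow_natCast]
    · rw [orderOf_dvd_iff_pow_eq_one]
      have h1 : ((σ ^ m) ^ k) ^ e = (σ ^ (e * m)) ^ k := by
        simp only [← zpow_natCast, ← zpow_mul]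
        congr 1
        push_cast
        ring
      rw [h1, ← hm, pow_orderOf_eq_one, one_zpow]
  · rintro ⟨⟨k, rfl⟩, hk⟩
    rw [orderOf_dvd_iff_pow_eq_one, ← zpow_natCast, ← zpow_mul, ← orderOf_dvd_iff_zpow_eq_one,
      hm] at hk
    push_cast at hk
    have hmk : (m : ℤ) ∣ k := by
      rw [mul_comm k] at hk
      exact (mul_dvd_mul_iff_left (by exact_mod_cast he0.ne' : (e : ℤ) ≠ 0)).mp hk
    obtain ⟨j, rfl⟩ := hmk
    exact ⟨j, by simp only [zpow_mul, zpow_natCast]⟩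

theorem fe8_card_zpowers_pow (σ : G) {e : ℕ} (he : e ∣ orderOf σ) :
    Nat.card (Subgroup.zpowers (σ ^ (orderOf σ / e))) = e := by
  have hn : 0 < orderOf σ := orderOf_pos σ
  have he0 : 0 < e := Nat.pos_of_dvd_of_pos he hn
  rw [Nat.card_zpowers, orderOf_pow_of_dvd (Nat.div_pos (Nat.le_of_dvd hn he) he0).ne'
    (Nat.div_dvd_of_dvd he), Nat.div_div_self he hn.ne']

end cyclic

section mobius

variable {K : Type*} [Field K] [NumberField K] [IsGalois ℚ K]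
variable (B : Finset ℕ) (σ : K ≃ₐ[ℚ] K)

/-- Good primes whose Frobenius lies in `⟨σ⟩` and has order exactly `e`. -/
def fe8_setA (e : ℕ) : Set (HeightOneSpectrum (𝓞 K)) :=
  {v | h25_rp v ∉ B ∧ fe8_frob K v ∈ Subgroup.zpowers σ ∧ orderOf (fe8_frob K v) = e}

/-- The intermediate field fixed by the subgroup of order `e` of `⟨σ⟩`. -/
noncomputable def fe8_F (e : ℕ) : IntermediateField ℚ K :=
  IntermediateField.fixedField (Subgroup.zpowers (σ ^ (orderOf σ / e)))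

theorem fe8_fixing_F (e : ℕ) :
    fixingSubgroup (K ≃ₐ[ℚ] K) ((fe8_F σ e : IntermediateField ℚ K) : Set K) =
      Subgroup.zpowers (σ ^ (orderOf σ / e)) :=
  IntermediateField.fixingSubgroup_fixedField _

theorem fe8_card_fixing_F {e : ℕ} (he : e ∣ orderOf σ) :
    Nat.card (fixingSubgroup (K ≃ₐ[ℚ] K) ((fe8_F σ e : IntermediateField ℚ K) : Set K)) = e := by
  rw [fe8_fixing_F, fe8_card_zpowers_pow σ he]

theorem fe8_mem_setB_F {e : ℕ} (he : e ∣ orderOf σ) (v : HeightOneSpectrum (𝓞 K)) :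
    v ∈ fe8_setB B (fe8_F σ e) ↔
      h25_rp v ∉ B ∧ fe8_frob K v ∈ Subgroup.zpowers σ ∧ orderOf (fe8_frob K v) ∣ e := by
  rw [fe8_setB, Set.mem_ofPred_eq, fe8_fixing_F, fe8_mem_zpowers_pow_iff _ _ he]

variable {B σ}

theorem fe8_indicator_eq {e : ℕ} (he : e ∣ orderOf σ) (s : ℝ) (v : HeightOneSpectrum (𝓞 K)) :
    Set.indicator (fe8_setB B (fe8_F σ e)) (fe8_f s) v =
      ∑ e' ∈ e.divisors, (e' : ℝ) * Set.indicator (fe8_setA B σ e') (fe8_w s) v := by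
  have he0 : e ≠ 0 := (Nat.pos_of_dvd_of_pos he (orderOf_pos σ)).ne'
  by_cases hv : v ∈ fe8_setB B (fe8_F σ e)
  · rw [Set.indicator_of_mem hv]
    obtain ⟨h1, h2, h3⟩ := (fe8_mem_setB_F B σ he v).mp hv
    rw [Finset.sum_eq_single (orderOf (fe8_frob K v))]
    · rw [Set.indicator_of_mem (show v ∈ fe8_setA B σ _ from ⟨h1, h2, rfl⟩)]
      rfl
    · intro e' _ hne
      rw [Set.indicator_of_notMem (fun h => hne h.2.2.symm), mul_zero]
    · intro h
      exact absurd (Nat.mem_divisors.mpr ⟨h3, he0⟩) h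
  · rw [Set.indicator_of_notMem hv]
    symm
    refine Finset.sum_eq_zero fun e' he' => ?_
    rw [Set.indicator_of_notMem, mul_zero]
    rintro ⟨h1, h2, h3⟩
    exact hv ((fe8_mem_setB_F B σ he v).mpr ⟨h1, h2, h3 ▸ (Nat.mem_divisors.mp he').1⟩)

theorem fe8_summable_A (hB : ∀ v : HeightOneSpectrum (𝓞 K), h25_rp v ∉ B →
      Ideal.inertia (K ≃ₐ[ℚ] K) v.asIdeal = ⊥) {e : ℕ} (he : e ∣ orderOf σ) {s : ℝ}
    (hs1 : 1 < s) (hs2 : s ≤ 2) :
    Summable (Set.indicator (fe8_setA B σ e) (fe8_w (K := K) s)) := by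
  obtain ⟨C, hC⟩ := fe8_asymp (F := fe8_F σ e) hB
  refine Summable.of_nonneg_of_le
    (fun v => Set.indicator_nonneg (fun v _ => (fe8_w_pos s v).le) v) (fun v => ?_)
    (hC s hs1 hs2).1
  by_cases hv : v ∈ fe8_setA B σ e
  · have hv' : v ∈ fe8_setB B (fe8_F σ e) :=
      (fe8_mem_setB_F B σ he v).mpr ⟨hv.1, hv.2.1, hv.2.2 ▸ dvd_rfl⟩
    rw [Set.indicator_of_mem hv, Set.indicator_of_mem hv']
    unfold fe8_f
    have h1 : (1 : ℝ) ≤ orderOf (fe8_frob K v) := by exact_mod_cast orderOf_pos _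
    nlinarith [fe8_w_pos s v]
  · rw [Set.indicator_of_notMem hv]
    exact Set.indicator_nonneg (fun v _ => fe8_f_nonneg s v) v

/-- Möbius inversion along the cyclic group `⟨σ⟩`: the weighted sum over good primes whose
Frobenius lies in `⟨σ⟩` and has order exactly `e` is `(φ(e)/e) · log (1/(s-1)) + O(1)`. -/
theorem fe8_asympA (hB : ∀ v : HeightOneSpectrum (𝓞 K), h25_rp v ∉ B →
      Ideal.inertia (K ≃ₐ[ℚ] K) v.asIdeal = ⊥) :
    ∀ e : ℕ, e ∣ orderOf σ → ∃ C : ℝ, ∀ s : ℝ, 1 < s → s ≤ 2 →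
      |(e : ℝ) * ∑' v, Set.indicator (fe8_setA B σ e) (fe8_w (K := K) s) v -
        (Nat.totient e : ℝ) * Real.log (1 / (s - 1))| ≤ C := by
  intro e
  induction e using Nat.strong_induction_on with
  | _ e ih =>
    intro he
    have he0 : e ≠ 0 := (Nat.pos_of_dvd_of_pos he (orderOf_pos σ)).ne'
    obtain ⟨C, hC⟩ := fe8_asymp (F := fe8_F σ e) hB
    have ih' : ∀ e' : ℕ, ∃ C' : ℝ, e' ∈ e.properDivisors → ∀ s : ℝ, 1 < s → s ≤ 2 →
        |(e' : ℝ) * ∑' v, Set.indicator (fe8_setA B σ e') (fe8_w (K := K) s) v -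
          (Nat.totient e' : ℝ) * Real.log (1 / (s - 1))| ≤ C' := by
      intro e'
      by_cases h : e' ∈ e.properDivisors
      · rw [Nat.mem_properDivisors] at h
        obtain ⟨C', hC'⟩ := ih e' h.2 (h.1.trans he)
        exact ⟨C', fun _ => hC'⟩
      · exact ⟨0, fun h' => absurd h' h⟩
    choose C' hC' using ih'
    refine ⟨C + ∑ e' ∈ e.properDivisors, C' e', fun s hs1 hs2 => ?_⟩
    obtain ⟨hsum, hbd⟩ := hC s hs1 hs2
    rw [fe8_card_fixing_F σ he] at hbd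
    have hΨ : ∑' v, Set.indicator (fe8_setB B (fe8_F σ e)) (fe8_f (K := K) s) v =
        ∑ e' ∈ e.divisors,
          (e' : ℝ) * ∑' v, Set.indicator (fe8_setA B σ e') (fe8_w (K := K) s) v := by
      rw [tsum_congr (fe8_indicator_eq he s), Summable.tsum_finsetSum]
      · exact Finset.sum_congr rfl fun e' _ => tsum_mul_left
      · intro e' he'
        exact (fe8_summable_A hB ((Nat.mem_divisors.mp he').1.trans he) hs1 hs2).mul_left _
    rw [← Nat.cons_self_properDivisors he0, Finset.sum_cons] at hΨ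
    have htot : (e : ℝ) = (Nat.totient e : ℝ) + ∑ e' ∈ e.properDivisors, (Nat.totient e' : ℝ) := by
      have h := Nat.sum_totient e
      rw [← Nat.cons_self_properDivisors he0, Finset.sum_cons] at h
      exact_mod_cast h.symm
    have key : (e : ℝ) * ∑' v, Set.indicator (fe8_setA B σ e) (fe8_w (K := K) s) v -
        (Nat.totient e : ℝ) * Real.log (1 / (s - 1)) =
        (∑' v, Set.indicator (fe8_setB B (fe8_F σ e)) (fe8_f (K := K) s) v -
          (e : ℝ) * Real.log (1 / (s - 1))) -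
        ∑ e' ∈ e.properDivisors,
          ((e' : ℝ) * ∑' v, Set.indicator (fe8_setA B σ e') (fe8_w (K := K) s) v -
            (Nat.totient e' : ℝ) * Real.log (1 / (s - 1))) := by
      rw [hΨ, Finset.sum_sub_distrib, ← Finset.sum_mul]
      nth_rewrite 3 [htot]
      ring
    rw [key]
    calc _ ≤ |∑' v, Set.indicator (fe8_setB B (fe8_F σ e)) (fe8_f (K := K) s) v -
          (e : ℝ) * Real.log (1 / (s - 1))| +
          |∑ e' ∈ e.properDivisors,
          ((e' : ℝ) * ∑' v, Set.indicator (fe8_setA B σ e') (fe8_w (K := K) s) v -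
            (Nat.totient e' : ℝ) * Real.log (1 / (s - 1)))| := abs_sub _ _
      _ ≤ C + ∑ e' ∈ e.properDivisors, C' e' :=
          add_le_add hbd ((Finset.abs_sum_le_sum_abs _ _).trans
            (Finset.sum_le_sum fun e' he' => hC' e' he' s hs1 hs2))

/-- There is a good prime whose Frobenius generates `⟨σ⟩`. -/
theorem fe8_exists_gen (hB : ∀ v : HeightOneSpectrum (𝓞 K), h25_rp v ∉ B →
      Ideal.inertia (K ≃ₐ[ℚ] K) v.asIdeal = ⊥) (σ : K ≃ₐ[ℚ] K) :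
    ∃ v : HeightOneSpectrum (𝓞 K), h25_rp v ∉ B ∧
      Subgroup.zpowers (fe8_frob K v) = Subgroup.zpowers σ := by
  obtain ⟨C, hC⟩ := fe8_asympA (σ := σ) hB (orderOf σ) dvd_rfl
  set s : ℝ := 1 + Real.exp (-(|C| + 1)) with hs
  have hs1 : 1 < s := by rw [hs]; linarith [Real.exp_pos (-(|C| + 1))]
  have hs2 : s ≤ 2 := by
    have : Real.exp (-(|C| + 1)) ≤ 1 := Real.exp_le_one_iff.mpr (by linarith [abs_nonneg C])
    linarith
  have hL : Real.log (1 / (s - 1)) = |C| + 1 := by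
    rw [hs, add_sub_cancel_left, one_div, ← Real.exp_neg, neg_neg, Real.log_exp]
  have h := hC s hs1 hs2
  rw [hL] at h
  by_contra hne
  push Not at hne
  have hempty : ∀ v, Set.indicator (fe8_setA B σ (orderOf σ)) (fe8_w (K := K) s) v = 0 := by
    intro v
    apply Set.indicator_of_notMem
    rintro ⟨h1, h2, h3⟩
    apply hne v h1
    exact Subgroup.eq_of_le_of_card_ge ((Subgroup.zpowers_le).mpr h2)
      (by rw [Nat.card_zpowers, Nat.card_zpowers, h3])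
  rw [tsum_congr hempty, tsum_zero, mul_zero, zero_sub, abs_neg] at h
  have htot : (1 : ℝ) ≤ Nat.totient (orderOf σ) := by
    exact_mod_cast Nat.totient_pos.mpr (orderOf_pos σ)
  have h2 : |(Nat.totient (orderOf σ) : ℝ) * (|C| + 1)| =
      (Nat.totient (orderOf σ) : ℝ) * (|C| + 1) := abs_of_nonneg (by positivity)
  rw [h2] at h
  nlinarith [abs_nonneg C, le_abs_self C]

end mobius

/-- **Existence of Frobenius elements ("Chebotarev-lite").**  Let `K/ℚ` be a finite Galois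
extension, `σ ∈ Gal(K/ℚ)` and `S` a finite set of rational primes.  Then there are a rational
prime `ℓ ∉ S`, a prime `P` of `𝓞 K` above `ℓ` and `τ ∈ Gal(K/ℚ)` generating the same cyclic
subgroup as `σ` such that `τ` is a Frobenius at `P`: `τ x ≡ x ^ ℓ (mod P)` for all `x ∈ 𝓞 K`. -/
theorem fe8_exists_frob (K : Type*) [Field K] [NumberField K] [IsGalois ℚ K] (σ : K ≃ₐ[ℚ] K)
    (S : Finset ℕ) :
    ∃ (ℓ : ℕ) (P : Ideal (𝓞 K)) (τ : K ≃ₐ[ℚ] K), ℓ.Prime ∧ ℓ ∉ S ∧ P.IsPrime ∧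
      (ℓ : 𝓞 K) ∈ P ∧ Subgroup.zpowers τ = Subgroup.zpowers σ ∧
      ∀ x : 𝓞 K, τ • x - x ^ ℓ ∈ P := by
  classical
  obtain ⟨d, hd, hdisc⟩ := fe8_exists_disc K
  set B : Finset ℕ := S ∪ ((h25_finite_mem d hd).toFinset.image h25_rp) with hBdef
  have hB : ∀ v : HeightOneSpectrum (𝓞 K), h25_rp v ∉ B →
      Ideal.inertia (K ≃ₐ[ℚ] K) v.asIdeal = ⊥ := by
    intro v hv
    apply hdisc
    intro hdv
    apply hv
    rw [hBdef, Finset.mem_union]
    right
    exact Finset.mem_image_of_mem _ ((Set.Finite.mem_toFinset _).mpr hdv)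
  obtain ⟨v, hvB, hgen⟩ := fe8_exists_gen hB σ
  refine ⟨h25_rp v, v.asIdeal, fe8_frob K v, h25_rp_prime v, ?_, v.isPrime, ?_, hgen,
    fun x => fe8_frob_spec K v x⟩
  · intro h
    exact hvB (Finset.mem_union_left _ h)
  · have h1 : ((h25_rp v : ℕ) : ℤ) ∈ Ideal.under ℤ v.asIdeal := by
      have := Ideal.absNorm_mem (Ideal.under ℤ v.asIdeal)
      exact this
    have h2 := (Ideal.mem_comap (f := algebraMap ℤ (𝓞 K))).mp h1
    simpa using h2

/-- The Galois action on `𝓞 K` is the restriction of the action on `K`. -/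
theorem fe8_coe_smul {K : Type*} [Field K] [NumberField K] (τ : K ≃ₐ[ℚ] K) (x : 𝓞 K) :
    ((τ • x : 𝓞 K) : K) = τ (x : K) := rfl

/-- `fe8_exists_frob` with the Frobenius congruence stated on elements of `K`. -/
theorem fe8_exists_frob_coe (K : Type*) [Field K] [NumberField K] [IsGalois ℚ K]
    (σ : K ≃ₐ[ℚ] K) (S : Finset ℕ) :
    ∃ (ℓ : ℕ) (P : Ideal (𝓞 K)) (τ : K ≃ₐ[ℚ] K), ℓ.Prime ∧ ℓ ∉ S ∧ P.IsPrime ∧
      (ℓ : 𝓞 K) ∈ P ∧ Subgroup.zpowers τ = Subgroup.zpowers σ ∧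
      ∀ x : 𝓞 K, ∃ y ∈ P, τ (x : K) - (x : K) ^ ℓ = (y : K) := by
  obtain ⟨ℓ, P, τ, h1, h2, h3, h4, h5, h6⟩ := fe8_exists_frob K σ S
  exact ⟨ℓ, P, τ, h1, h2, h3, h4, h5, fun x => ⟨τ • x - x ^ ℓ, h6 x, rfl⟩⟩

end Fermat.Agent.S41
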