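/-
S41 / M6 (helper60).  Eichler–Shimura transfer of Hecke eigenvectors:
from the parabolic homomorphisms `Hom_par(Γ₀(M), ℂ)` to weight-2 cusp forms of level `M`.

* `es60_T M ℓ` : the Hecke operator at `ℓ` on `S₂(Γ₀(M))` (`T_ℓ` if `ℓ ∤ M`, `U_ℓ` if `ℓ ∣ M`,
  `0` if `ℓ` is not prime), matching `Fermat.Agent.S16.heckeHom M ℓ ℂ` on the cohomology side.
* `es60_heckeHom_periodHomPair` : the Eichler–Shimura pair is Hecke equivariant.
* `es60_exists_form` : an eigenvector in `Hom_par` gives an eigenvector among cusp forms.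
* `es60_newform_of_eigenhom` : an eigenvector in `Hom_par(Γ₀(M), ℂ)` for the operators at a set
  `S` of primes, fixed by `U_q ^ 2`, gives a normalised eigenform of level `M` with the same
  eigenvalues on `S` which is new at `q`.
-/
import Mathlib
import Fermat.Prelude.Def_FreyPackage_LevelRaising
import Fermat.Agent.S21
import Fermat.Agent.S49
import Fermat.Agent.S16.HeckePeriod

set_option autoImplicit false

open CongruenceSubgroup ModularCurve ModularCurve.Period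
open scoped MatrixGroups

namespace Fermat.Agent.S41

open Fermat.Agent.S16 Fermat.Agent.S21

variable (M : ℕ) [NeZero M]

open Classical in
/-- The Hecke operator at `ℓ` on weight-2 cusp forms of level `M`: `T_ℓ` if `ℓ ∤ M`, `U_ℓ` if
`ℓ ∣ M` (and `0` if `ℓ` is not prime). -/
noncomputable def es60_T (ℓ : ℕ) : Module.End ℂ (CuspForm (Gamma0 M) 2) :=
  if hℓ : ℓ.Prime then
    if hℓM : ℓ ∣ M then CuspForm.heckeULin 2 hℓM else CuspForm.heckeTLin 2 hℓ hℓM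
  else 0

variable {M}

theorem es60_T_of_not_dvd {ℓ : ℕ} (hℓ : ℓ.Prime) (hℓM : ¬ ℓ ∣ M) :
    es60_T M ℓ = CuspForm.heckeTLin 2 hℓ hℓM := by
  rw [es60_T, dif_pos hℓ, dif_neg hℓM]

theorem es60_T_of_dvd {ℓ : ℕ} (hℓ : ℓ.Prime) (hℓM : ℓ ∣ M) :
    es60_T M ℓ = CuspForm.heckeULin 2 hℓM := by
  rw [es60_T, dif_pos hℓ, dif_pos hℓM]

theorem es60_T_of_not_prime {ℓ : ℕ} (hℓ : ¬ ℓ.Prime) : es60_T M ℓ = 0 := by
  rw [es60_T, dif_neg hℓ]

/-- The Hecke operators on cusp forms commute. -/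
theorem es60_T_commute (ℓ ℓ' : ℕ) : Commute (es60_T M ℓ) (es60_T M ℓ') := by
  by_cases hℓ : ℓ.Prime
  · by_cases hℓ' : ℓ'.Prime
    · by_cases hℓM : ℓ ∣ M
      · by_cases hℓ'M : ℓ' ∣ M
        · rw [es60_T_of_dvd hℓ hℓM, es60_T_of_dvd hℓ' hℓ'M]
          exact CuspForm.heckeULin_comm 2 hℓM hℓ'M
        · rw [es60_T_of_dvd hℓ hℓM, es60_T_of_not_dvd hℓ' hℓ'M]
          exact (CuspForm.heckeTLin_heckeULin_comm 2 hℓ' hℓ'M hℓM).symm
      · by_cases hℓ'M : ℓ' ∣ M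
        · rw [es60_T_of_not_dvd hℓ hℓM, es60_T_of_dvd hℓ' hℓ'M]
          exact CuspForm.heckeTLin_heckeULin_comm 2 hℓ hℓM hℓ'M
        · rw [es60_T_of_not_dvd hℓ hℓM, es60_T_of_not_dvd hℓ' hℓ'M]
          exact CuspForm.heckeTLin_comm 2 hℓ hℓM hℓ' hℓ'M
    · rw [es60_T_of_not_prime hℓ']
      exact Commute.zero_right _
  · rw [es60_T_of_not_prime hℓ]
    exact Commute.zero_left _

theorem es60_T_comm_apply (ℓ ℓ' : ℕ) (f : CuspForm (Gamma0 M) 2) :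
    es60_T M ℓ (es60_T M ℓ' f) = es60_T M ℓ' (es60_T M ℓ f) :=
  congrArg (fun T : Module.End ℂ (CuspForm (Gamma0 M) 2) => T f) (es60_T_commute ℓ ℓ').eq

theorem es60_periodMap_zero : periodMap M (0 : CuspForm (Gamma0 M) 2) = 0 := by
  have h := periodMap_smul (N := M) (0 : ℂ) (0 : CuspForm (Gamma0 M) 2)
  rwa [zero_smul, zero_smul] at h

/-- The period map intertwines `heckeHom` with the Hecke operators on cusp forms. -/
theorem es60_heckeHom_periodMap (ℓ : ℕ) (f : CuspForm (Gamma0 M) 2) :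
    heckeHom M ℓ ℂ (periodMap M f) = periodMap M (es60_T M ℓ f) := by
  by_cases hℓ : ℓ.Prime
  · by_cases hℓM : ℓ ∣ M
    · rw [es60_T_of_dvd hℓ hℓM]
      exact heckeHom_periodMap_U hℓ hℓM f
    · rw [es60_T_of_not_dvd hℓ hℓM]
      exact heckeHom_periodMap_T hℓ hℓM f
  · rw [es60_T_of_not_prime hℓ, LinearMap.zero_apply, es60_periodMap_zero]
    simp [heckeHom, hℓ]

/-- The Eichler–Shimura pair is Hecke equivariant. -/
theorem es60_heckeHom_periodHomPair (ℓ : ℕ) (f g : CuspForm (Gamma0 M) 2) :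
    heckeHom M ℓ ℂ (periodHomPair M (f, g)) = periodHomPair M (es60_T M ℓ f, es60_T M ℓ g) := by
  obtain ⟨pml, hpml, hdef⟩ := periodHomPair_def M (existsPeriodMapLinear M)
  rw [hdef]
  simp only [LinearMap.coprod_apply, LinearMap.comp_apply, LinearMap.add_apply,
    LinearMap.sub_apply, LinearMap.id_apply, hpml, map_add, map_sub,
    heckeHom_charInvolution, es60_heckeHom_periodMap]

/-- Finite-dimensionality of `S₂(Γ₀(M))` (from the Eichler–Shimura embedding). -/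
theorem es60_finiteDimensional (M : ℕ) [NeZero M] :
    FiniteDimensional ℂ (CuspForm (Gamma0 M) 2) := by
  obtain ⟨hinj, hrange⟩ := Fermat.Agent.S21.result M
  have hPfin := finiteDimensional_parabolicHoms M
  have hfinR : FiniteDimensional ℂ ↥(LinearMap.range (periodHomPair M)) := by
    rw [hrange]
    exact hPfin
  have hfinD : FiniteDimensional ℂ (CuspForm (Gamma0 M) 2 × CuspForm (Gamma0 M) 2) :=
    Module.Finite.equiv (LinearEquiv.ofInjective (periodHomPair M) hinj).symm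
  exact Module.Finite.of_surjective
    (LinearMap.fst ℂ (CuspForm (Gamma0 M) 2) (CuspForm (Gamma0 M) 2)) LinearMap.fst_surjective

/-- Every parabolic homomorphism is the Eichler–Shimura pair of a unique pair of cusp forms,
and Hecke eigen-equations transfer. -/
theorem es60_exists_pair (v : Additive (Gamma0 M) →+ ℂ)
    (hpar : v ∈ parabolicHoms ℂ (Gamma0 M) ℂ) :
    ∃ f g : CuspForm (Gamma0 M) 2, periodHomPair M (f, g) = v ∧
      (∀ (ℓ : ℕ) (μ : ℂ), heckeHom M ℓ ℂ v = μ • v →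
        es60_T M ℓ f = μ • f ∧ es60_T M ℓ g = μ • g) ∧
      (∀ ℓ : ℕ, heckeHom M ℓ ℂ (heckeHom M ℓ ℂ v) = v →
        es60_T M ℓ (es60_T M ℓ f) = f ∧ es60_T M ℓ (es60_T M ℓ g) = g) := by
  obtain ⟨hinj, hrange⟩ := Fermat.Agent.S21.result M
  rw [← hrange] at hpar
  obtain ⟨⟨f, g⟩, rfl⟩ := hpar
  refine ⟨f, g, rfl, fun ℓ μ h => ?_, fun ℓ h => ?_⟩
  · rw [es60_heckeHom_periodHomPair, ← map_smul] at h
    have h' := hinj h
    rw [Prod.smul_mk, Prod.mk.injEq] at h'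
    exact h'
  · rw [es60_heckeHom_periodHomPair, es60_heckeHom_periodHomPair] at h
    have h' := hinj h
    rw [Prod.mk.injEq] at h'
    exact h'

/-- **Eichler–Shimura transfer of eigenvectors.**  A nonzero parabolic homomorphism which is
an eigenvector of the Hecke operators at the primes of `S` (and is fixed by the squares of the
operators at the primes of `S'`) gives a nonzero cusp form with the same properties. -/
theorem es60_exists_form (S S' : Set ℕ) (v : Additive (Gamma0 M) →+ ℂ)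
    (hpar : v ∈ parabolicHoms ℂ (Gamma0 M) ℂ) (hv : v ≠ 0) (μ : ℕ → ℂ)
    (heig : ∀ ℓ ∈ S, heckeHom M ℓ ℂ v = μ ℓ • v)
    (hsq : ∀ ℓ ∈ S', heckeHom M ℓ ℂ (heckeHom M ℓ ℂ v) = v) :
    ∃ f : CuspForm (Gamma0 M) 2, f ≠ 0 ∧ (∀ ℓ ∈ S, es60_T M ℓ f = μ ℓ • f) ∧
      ∀ ℓ ∈ S', es60_T M ℓ (es60_T M ℓ f) = f := by
  obtain ⟨f, g, hfg, h1, h2⟩ := es60_exists_pair v hpar
  by_cases hf : f = 0
  · have hg : g ≠ 0 := by
      rintro rfl
      apply hv
      rw [← hfg, hf]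
      exact map_zero _
    exact ⟨g, hg, fun ℓ hℓ => (h1 ℓ (μ ℓ) (heig ℓ hℓ)).2, fun ℓ hℓ => (h2 ℓ (hsq ℓ hℓ)).2⟩
  · exact ⟨f, hf, fun ℓ hℓ => (h1 ℓ (μ ℓ) (heig ℓ hℓ)).1, fun ℓ hℓ => (h2 ℓ (hsq ℓ hℓ)).1⟩

/-- A nonzero cusp form which is an eigenvector of the Hecke operators at the primes of `S`
and is fixed by the square of the operator at the prime `q ∣ M` can be replaced by a normalised
eigenform with the same eigenvalues on `S`, new at `q`. -/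
theorem es60_newform_of_form {q : ℕ} (hq : q.Prime) (S : Set ℕ)
    (f : CuspForm (Gamma0 M) 2) (hf : f ≠ 0) (μ : ℕ → ℂ)
    (heig : ∀ ℓ ∈ S, es60_T M ℓ f = μ ℓ • f)
    (hq2 : es60_T M q (es60_T M q f) = f) :
    ∃ g : CuspForm (Gamma0 M) 2, g.IsNormalizedEigenform ∧
      (∀ ℓ ∈ S, ℓ.Prime → ModularFormClass.qCoeff g ℓ = μ ℓ) ∧ g.IsNewAt q := by
  classical
  have := es60_finiteDimensional M
  -- the common eigenspace
  let W : Submodule ℂ (CuspForm (Gamma0 M) 2) :=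
    { carrier := {h | (∀ ℓ ∈ S, es60_T M ℓ h = μ ℓ • h) ∧ es60_T M q (es60_T M q h) = h}
      add_mem' := by
        rintro a b ⟨ha1, ha2⟩ ⟨hb1, hb2⟩
        refine ⟨fun ℓ hℓ => ?_, ?_⟩
        · rw [map_add, ha1 ℓ hℓ, hb1 ℓ hℓ, smul_add]
        · rw [map_add, map_add, ha2, hb2]
      zero_mem' := ⟨fun ℓ _ => by rw [map_zero, smul_zero], by rw [map_zero, map_zero]⟩
      smul_mem' := by
        rintro c a ⟨ha1, ha2⟩
        refine ⟨fun ℓ hℓ => ?_, ?_⟩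
        · rw [map_smul, ha1 ℓ hℓ, smul_comm]
        · rw [map_smul, map_smul, ha2] }
  have hWmem : ∀ h, h ∈ W ↔
      (∀ ℓ ∈ S, es60_T M ℓ h = μ ℓ • h) ∧ es60_T M q (es60_T M q h) = h := fun h => Iff.rfl
  have hW : W ≠ ⊥ := by
    intro h0
    apply hf
    have : f ∈ W := (hWmem f).2 ⟨heig, hq2⟩
    rw [h0] at this
    exact (Submodule.mem_bot ℂ).1 this
  let 𝒯 : Set (Module.End ℂ (CuspForm (Gamma0 M) 2)) := Set.range (es60_T M)
  have hcomm : ∀ A ∈ 𝒯, ∀ B ∈ 𝒯, ∀ x : CuspForm (Gamma0 M) 2, A (B x) = B (A x) := by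
    rintro _ ⟨ℓ, rfl⟩ _ ⟨ℓ', rfl⟩ x
    exact es60_T_comm_apply ℓ ℓ' x
  have hinv : ∀ A ∈ 𝒯, ∀ w ∈ W, A w ∈ W := by
    rintro _ ⟨ℓ', rfl⟩ w hw
    obtain ⟨hw1, hw2⟩ := (hWmem w).1 hw
    refine (hWmem _).2 ⟨fun ℓ hℓ => ?_, ?_⟩
    · rw [es60_T_comm_apply ℓ ℓ' w, hw1 ℓ hℓ, map_smul]
    · rw [es60_T_comm_apply q ℓ' w, es60_T_comm_apply q ℓ' (es60_T M q w), hw2]
  obtain ⟨w, hwW, hw0, hwe⟩ := Fermat.Agent.S49.exists_common_eigenvector 𝒯 hcomm W hW hinv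
  obtain ⟨hw1, hw2⟩ := (hWmem w).1 hwW
  choose lam hlam using fun ℓ : ℕ => hwe (es60_T M ℓ) ⟨ℓ, rfl⟩
  obtain ⟨g, hg, hgp⟩ := Fermat.Agent.S49.exists_normalized_of_eigenvector w hw0 lam
    (fun p hp hpM => by rw [← es60_T_of_not_dvd hp hpM]; exact hlam p)
    (fun p hp hpM => by rw [← es60_T_of_dvd hp hpM]; exact hlam p)
  refine ⟨g, hg, fun ℓ hℓ hℓp => ?_, ?_⟩
  · rw [hgp ℓ hℓp]
    have h := hw1 ℓ hℓ
    rw [hlam ℓ] at h
    exact smul_left_injective ℂ hw0 h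
  · show ModularFormClass.qCoeff g q ^ 2 = 1
    rw [hgp q hq]
    have h := hw2
    rw [hlam q, map_smul, hlam q, smul_smul, ← pow_two] at h
    have h' : lam q ^ 2 • w = (1 : ℂ) • w := by rw [h, one_smul]
    exact smul_left_injective ℂ hw0 h'

/-- **S41 / M6.**  A nonzero parabolic homomorphism of level `M` which is an eigenvector of the
Hecke operators at the primes of `S` and is fixed by `U_q ^ 2` gives a normalised eigenform of
level `M` with the same eigenvalues on `S`, new at `q`. -/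
theorem es60_newform_of_eigenhom {q : ℕ} (hq : q.Prime) (S : Set ℕ)
    (v : Additive (Gamma0 M) →+ ℂ) (hpar : v ∈ parabolicHoms ℂ (Gamma0 M) ℂ) (hv : v ≠ 0)
    (μ : ℕ → ℂ) (heig : ∀ ℓ ∈ S, ℓ.Prime → heckeHom M ℓ ℂ v = μ ℓ • v)
    (hq2 : heckeHom M q ℂ (heckeHom M q ℂ v) = v) :
    ∃ g : CuspForm (Gamma0 M) 2, g.IsNormalizedEigenform ∧
      (∀ ℓ ∈ S, ℓ.Prime → ModularFormClass.qCoeff g ℓ = μ ℓ) ∧ g.IsNewAt q := by
  obtain ⟨f, hf, hf1, hf2⟩ := es60_exists_form {ℓ | ℓ ∈ S ∧ ℓ.Prime} {q} v hpar hv μ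
    (fun ℓ hℓ => heig ℓ hℓ.1 hℓ.2) (fun ℓ hℓ => by rw [Set.mem_singleton_iff.1 hℓ]; exact hq2)
  obtain ⟨g, hg, hg1, hg2⟩ := es60_newform_of_form hq {ℓ | ℓ ∈ S ∧ ℓ.Prime} f hf μ hf1
    (hf2 q rfl)
  exact ⟨g, hg, fun ℓ hℓ hℓp => hg1 ℓ ⟨hℓ, hℓp⟩ hℓp, hg2⟩

/-- Variant: a common eigenvector of all Hecke operators in `Hom_par(Γ₀(M), ℂ)` gives a
normalised eigenform with these eigenvalues. -/
theorem es60_eigenform_of_eigenhom (v : Additive (Gamma0 M) →+ ℂ)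
    (hpar : v ∈ parabolicHoms ℂ (Gamma0 M) ℂ) (hv : v ≠ 0) (μ : ℕ → ℂ)
    (heig : ∀ ℓ : ℕ, ℓ.Prime → heckeHom M ℓ ℂ v = μ ℓ • v) :
    ∃ g : CuspForm (Gamma0 M) 2, g.IsNormalizedEigenform ∧
      ∀ ℓ : ℕ, ℓ.Prime → ModularFormClass.qCoeff g ℓ = μ ℓ := by
  obtain ⟨f, hf, hf1, -⟩ := es60_exists_form {ℓ | ℓ.Prime} ∅ v hpar hv μ
    (fun ℓ hℓ => heig ℓ hℓ) (fun ℓ hℓ => absurd hℓ (Set.notMem_empty ℓ))
  exact Fermat.Agent.S49.exists_normalized_of_eigenvector f hf μ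
    (fun p hp hpM => by rw [← es60_T_of_not_dvd hp hpM]; exact hf1 p hp)
    (fun p hp hpM => by rw [← es60_T_of_dvd hp hpM]; exact hf1 p hp)

end Fermat.Agent.S41
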