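/-
S41 / M6 bridge (helper67).  Dictionary between weight-2 Hecke eigenforms on `Γ₀(M)` and Hecke
eigenvectors in the parabolic homomorphisms `Hom_par(Γ₀(M), ℂ)` (operators `heckeHom` of S16).

* `eb67_heckeT_eq`, `eb67_heckeU_eq` : a normalised eigenform (Prelude sense: relations between
  `q`-coefficients) is an eigenvector of `T_p` (`p ∤ M`) resp. `U_p` (`p ∣ M`) with eigenvalue
  `a_p`.
* `eb67_periodMap_eigen` : its period homomorphism is a nonzero parabolic homomorphism which is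
  an eigenvector of every `heckeHom M ℓ ℂ` (`ℓ` prime) with eigenvalue `a_ℓ`.
* `eb67_exists_eigenform` : conversely a nonzero parabolic homomorphism which is an eigenvector
  of every `heckeHom M ℓ ℂ` with eigenvalue `lam ℓ` gives a normalised eigenform `f` with
  `a_p(f) = lam p` for every prime `p` (Eichler–Shimura S21 + S16 Hecke equivariance of the period
  map + the normalisation lemma of S49).
-/
import Mathlib
import Fermat.Agent.S21
import Fermat.Agent.S16.HeckePeriod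
import Fermat.Agent.S49

set_option autoImplicit false

open CongruenceSubgroup ModularCurve ModularCurve.Period ModularFormClass
open scoped MatrixGroups

namespace Fermat.Agent.S41

open Fermat.Agent.S16 Fermat.Agent.S21 Fermat.Agent.S49

/-! ### Normalised eigenforms are Hecke eigenvectors -/

section Eigen

variable {M : ℕ}

/-- In a normalised eigenform, `a_{p^(r+1) m} = a_{p^(r+1)} a_m` for `p ∤ m`. -/
private theorem eb67_split {f : CuspForm (Gamma0 M) 2} (hf : f.IsNormalizedEigenform)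
    {p : ℕ} (hp : p.Prime) (n : ℕ) (hn : n ≠ 0) :
    ∃ r m : ℕ, ¬ p ∣ m ∧ n = p ^ r * m ∧
      qCoeff (⇑f) n = qCoeff (⇑f) (p ^ r) * qCoeff (⇑f) m := by
  obtain ⟨r, m, hm, hnm⟩ := Nat.exists_eq_pow_mul_and_not_dvd hn p hp.ne_one
  refine ⟨r, m, hm, hnm, ?_⟩
  rw [hnm]
  exact hf.qCoeff_mul_of_coprime _ _
    (Nat.Coprime.pow_left r ((Nat.Prime.coprime_iff_not_dvd hp).mpr hm))

theorem eb67_heckeT_eq {f : CuspForm (Gamma0 M) 2} (hf : f.IsNormalizedEigenform)
    {p : ℕ} (hp : p.Prime) (hpM : ¬ p ∣ M) :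
    CuspForm.heckeTLin 2 hp hpM f = qCoeff (⇑f) p • f := by
  rw [← sub_eq_zero]
  apply eq_zero_of_qCoeff
  intro n
  rw [qCoeff_sub, qCoeff_heckeTLin hp hpM, qCoeff_smul, sub_eq_zero]
  rcases Nat.eq_zero_or_pos n with rfl | hn
  · simp [qCoeff_zero_eq]
  obtain ⟨r, m, hm, hnm, -⟩ := eb67_split hf hp n hn.ne'
  have hcop : ∀ k : ℕ, Nat.Coprime (p ^ k) m := fun k =>
    Nat.Coprime.pow_left k ((Nat.Prime.coprime_iff_not_dvd hp).mpr hm)
  subst hnm
  have h1 : p ^ r * m * p = p ^ (r + 1) * m := by ring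
  rw [h1, hf.qCoeff_mul_of_coprime _ _ (hcop (r + 1)), hf.qCoeff_mul_of_coprime _ _ (hcop r)]
  rcases Nat.eq_zero_or_pos r with rfl | hr
  · have hnd : ¬ p ∣ p ^ 0 * m := by simpa using hm
    rw [if_neg hnd]
    simp [hf.qCoeff_one]
  · obtain ⟨s, rfl⟩ : ∃ s, r = s + 1 := ⟨r - 1, by omega⟩
    have hd : p ∣ p ^ (s + 1) * m := Dvd.dvd.mul_right (dvd_pow_self p (by omega)) m
    have hdiv : p ^ (s + 1) * m / p = p ^ s * m := by
      rw [pow_succ, mul_assoc, mul_comm p m, ← mul_assoc, Nat.mul_div_cancel _ hp.pos]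
    rw [if_pos hd, hdiv, hf.qCoeff_mul_of_coprime _ _ (hcop s)]
    rcases Nat.eq_zero_or_pos s with rfl | hs
    · have h2 := hf.qCoeff_prime_pow_of_not_dvd p 0 hp hpM
      simp only [zero_add, pow_one, pow_zero, hf.qCoeff_one, mul_one] at h2 ⊢
      rw [h2]
      ring
    · obtain ⟨t, rfl⟩ : ∃ t, s = t + 1 := ⟨s - 1, by omega⟩
      have h2 := hf.qCoeff_prime_pow_of_not_dvd p (t + 1) hp hpM
      have h3 : t + 1 + 1 + 1 = t + 1 + 2 := by ring
      rw [h3, h2]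
      ring

theorem eb67_heckeU_eq [NeZero M] {f : CuspForm (Gamma0 M) 2} (hf : f.IsNormalizedEigenform)
    {p : ℕ} (hp : p.Prime) (hpM : p ∣ M) :
    CuspForm.heckeULin 2 hpM f = qCoeff (⇑f) p • f := by
  rw [← sub_eq_zero]
  apply eq_zero_of_qCoeff
  intro n
  rw [qCoeff_sub, qCoeff_heckeULin hp hpM, qCoeff_smul, sub_eq_zero]
  rcases Nat.eq_zero_or_pos n with rfl | hn
  · simp [qCoeff_zero_eq]
  obtain ⟨r, m, hm, hnm, -⟩ := eb67_split hf hp n hn.ne'
  have hcop : ∀ k : ℕ, Nat.Coprime (p ^ k) m := fun k =>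
    Nat.Coprime.pow_left k ((Nat.Prime.coprime_iff_not_dvd hp).mpr hm)
  subst hnm
  have h1 : p ^ r * m * p = p ^ (r + 1) * m := by ring
  rw [h1, hf.qCoeff_mul_of_coprime _ _ (hcop (r + 1)), hf.qCoeff_mul_of_coprime _ _ (hcop r)]
  rcases Nat.eq_zero_or_pos r with rfl | hr
  · simp [hf.qCoeff_one]
  · obtain ⟨s, rfl⟩ : ∃ s, r = s + 1 := ⟨r - 1, by omega⟩
    rcases Nat.eq_zero_or_pos s with rfl | hs
    · have h2 := hf.qCoeff_prime_pow_of_dvd p 0 hp hpM
      simp only [zero_add, pow_one] at h2 ⊢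
      rw [h2]
      ring
    · obtain ⟨t, rfl⟩ : ∃ t, s = t + 1 := ⟨s - 1, by omega⟩
      have h2 := hf.qCoeff_prime_pow_of_dvd p (t + 1) hp hpM
      have h3 : t + 1 + 1 + 1 = t + 1 + 2 := by ring
      rw [h3, h2]
      ring

end Eigen

/-! ### The period pair and the Hecke operators -/

section Pair

variable (M : ℕ) [NeZero M]

/-- The Hecke operator at a prime `ℓ` on cusp forms: `T_ℓ` for `ℓ ∤ M`, `U_ℓ` for `ℓ ∣ M`
(and `0` if `ℓ` is not prime). -/
noncomputable def eb67_hecke (ℓ : ℕ) : CuspForm (Gamma0 M) 2 →ₗ[ℂ] CuspForm (Gamma0 M) 2 :=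
  open scoped Classical in
  if hℓ : ℓ.Prime then
    if hℓM : ℓ ∣ M then CuspForm.heckeULin 2 hℓM else CuspForm.heckeTLin 2 hℓ hℓM
  else 0

theorem eb67_hecke_of_not_dvd {ℓ : ℕ} (hℓ : ℓ.Prime) (hℓM : ¬ ℓ ∣ M) :
    eb67_hecke M ℓ = CuspForm.heckeTLin 2 hℓ hℓM := by
  rw [eb67_hecke, dif_pos hℓ, dif_neg hℓM]

theorem eb67_hecke_of_dvd {ℓ : ℕ} (hℓ : ℓ.Prime) (hℓM : ℓ ∣ M) :
    eb67_hecke M ℓ = CuspForm.heckeULin 2 hℓM := by
  rw [eb67_hecke, dif_pos hℓ, dif_pos hℓM]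

/-- The period map intertwines the Hecke operators at every prime. -/
theorem eb67_heckeHom_periodMap {ℓ : ℕ} (hℓ : ℓ.Prime) (f : CuspForm (Gamma0 M) 2) :
    heckeHom M ℓ ℂ (periodMap M f) = periodMap M (eb67_hecke M ℓ f) := by
  by_cases hℓM : ℓ ∣ M
  · rw [eb67_hecke_of_dvd M hℓ hℓM, heckeHom_periodMap_U hℓ hℓM]
  · rw [eb67_hecke_of_not_dvd M hℓ hℓM, heckeHom_periodMap_T hℓ hℓM]

/-- Explicit formula for the period pair. -/
theorem eb67_periodHomPair_eq (f g : CuspForm (Gamma0 M) 2) :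
    periodHomPair M (f, g) =
      (periodMap M f + charInvolution M ℂ ℂ (periodMap M f)) +
        (periodMap M g - charInvolution M ℂ ℂ (periodMap M g)) := by
  refine AddMonoidHom.ext fun γ => ?_
  obtain ⟨γ, rfl⟩ := Additive.ofMul.surjective γ
  rw [periodHomPair_apply]
  simp only [AddMonoidHom.add_apply, AddMonoidHom.sub_apply, charInvolution_apply, toMul_ofMul]

/-- The period pair intertwines the Hecke operators at every prime. -/
theorem eb67_heckeHom_periodHomPair {ℓ : ℕ} (hℓ : ℓ.Prime) (f g : CuspForm (Gamma0 M) 2) :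
    heckeHom M ℓ ℂ (periodHomPair M (f, g)) =
      periodHomPair M (eb67_hecke M ℓ f, eb67_hecke M ℓ g) := by
  rw [eb67_periodHomPair_eq, eb67_periodHomPair_eq, map_add, map_add, map_sub,
    heckeHom_charInvolution, heckeHom_charInvolution, eb67_heckeHom_periodMap M hℓ,
    eb67_heckeHom_periodMap M hℓ]

/-- The period homomorphism of a cusp form is `1/2` of the period pair of `(f, f)`. -/
theorem eb67_periodHomPair_diag (f : CuspForm (Gamma0 M) 2) :
    periodHomPair M (f, f) = (2 : ℂ) • periodMap M f := by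
  rw [eb67_periodHomPair_eq]
  refine AddMonoidHom.ext fun γ => ?_
  simp only [AddMonoidHom.add_apply, AddMonoidHom.sub_apply, AddMonoidHom.smul_apply,
    smul_eq_mul]
  ring

theorem eb67_periodMap_mem (f : CuspForm (Gamma0 M) 2) :
    periodMap M f ∈ parabolicHoms ℂ (Gamma0 M) ℂ := by
  have h2 : periodMap M f = (2 : ℂ)⁻¹ • periodHomPair M (f, f) := by
    rw [eb67_periodHomPair_diag, smul_smul, inv_mul_cancel₀ (two_ne_zero), one_smul]
  rw [h2]
  refine Submodule.smul_mem _ _ ?_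
  rw [← (Fermat.Agent.S21.result M).2]
  exact LinearMap.mem_range_self _ _

theorem eb67_periodMap_ne_zero {f : CuspForm (Gamma0 M) 2} (hf : f ≠ 0) :
    periodMap M f ≠ 0 := by
  intro h0
  have h1 : periodHomPair M (f, f) = 0 := by
    rw [eb67_periodHomPair_diag, h0, smul_zero]
  have h2 : (f, f) = (0 : CuspForm (Gamma0 M) 2 × CuspForm (Gamma0 M) 2) :=
    (Fermat.Agent.S21.result M).1 (by rw [h1, map_zero])
  exact hf (Prod.ext_iff.mp h2).1

/-- **Forms to homomorphisms.** The period homomorphism of a normalised eigenform is a nonzero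
parabolic homomorphism which is an eigenvector of every Hecke operator `heckeHom M ℓ ℂ`
with eigenvalue `a_ℓ(f)`. -/
theorem eb67_periodMap_eigen {f : CuspForm (Gamma0 M) 2} (hf : f.IsNormalizedEigenform) :
    periodMap M f ∈ parabolicHoms ℂ (Gamma0 M) ℂ ∧ periodMap M f ≠ 0 ∧
      ∀ ℓ : ℕ, ℓ.Prime → heckeHom M ℓ ℂ (periodMap M f) = qCoeff (⇑f) ℓ • periodMap M f := by
  refine ⟨eb67_periodMap_mem M f, eb67_periodMap_ne_zero M ?_, fun ℓ hℓ => ?_⟩
  · rintro rfl
    have h1 := hf.qCoeff_one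
    have h2 : qCoeff (⇑(0 : CuspForm (Gamma0 M) 2)) 1 = 0 := by
      have h3 := (qCoeffLin M 1).map_zero
      rwa [qCoeffLin_apply] at h3
    rw [h2] at h1
    exact zero_ne_one h1
  · rw [eb67_heckeHom_periodMap M hℓ]
    by_cases hℓM : ℓ ∣ M
    · rw [eb67_hecke_of_dvd M hℓ hℓM, eb67_heckeU_eq hf hℓ hℓM, periodMap_smul]
    · rw [eb67_hecke_of_not_dvd M hℓ hℓM, eb67_heckeT_eq hf hℓ hℓM, periodMap_smul]

/-- **Homomorphisms to forms.** A nonzero parabolic homomorphism `Γ₀(M) → ℂ` which is an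
eigenvector of every Hecke operator `heckeHom M ℓ ℂ` (`ℓ` prime) with eigenvalue `lam ℓ` gives
a normalised eigenform `f` of level `M` with `a_p(f) = lam p` for every prime `p`. -/
theorem eb67_exists_eigenform (χ : Additive (Gamma0 M) →+ ℂ)
    (hχ : χ ∈ parabolicHoms ℂ (Gamma0 M) ℂ) (hχ0 : χ ≠ 0) (lam : ℕ → ℂ)
    (h : ∀ ℓ : ℕ, ℓ.Prime → heckeHom M ℓ ℂ χ = lam ℓ • χ) :
    ∃ f : CuspForm (Gamma0 M) 2, f.IsNormalizedEigenform ∧
      ∀ p : ℕ, p.Prime → qCoeff (⇑f) p = lam p := by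
  obtain ⟨hinj, hrange⟩ := Fermat.Agent.S21.result M
  rw [← hrange] at hχ
  obtain ⟨⟨f₁, f₂⟩, rfl⟩ := hχ
  have key : ∀ ℓ : ℕ, ℓ.Prime →
      eb67_hecke M ℓ f₁ = lam ℓ • f₁ ∧ eb67_hecke M ℓ f₂ = lam ℓ • f₂ := by
    intro ℓ hℓ
    have h1 := h ℓ hℓ
    rw [eb67_heckeHom_periodHomPair M hℓ, ← map_smul] at h1
    have h2 := hinj h1
    exact ⟨(Prod.ext_iff.mp h2).1, (Prod.ext_iff.mp h2).2⟩
  have hne : f₁ ≠ 0 ∨ f₂ ≠ 0 := by
    by_contra hcon
    have hc1 : f₁ = 0 := by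
      by_contra h1
      exact hcon (Or.inl h1)
    have hc2 : f₂ = 0 := by
      by_contra h2
      exact hcon (Or.inr h2)
    apply hχ0
    rw [hc1, hc2]
    exact map_zero _
  have build : ∀ v : CuspForm (Gamma0 M) 2, v ≠ 0 →
      (∀ ℓ : ℕ, ℓ.Prime → eb67_hecke M ℓ v = lam ℓ • v) →
      ∃ f : CuspForm (Gamma0 M) 2, f.IsNormalizedEigenform ∧
        ∀ p : ℕ, p.Prime → qCoeff (⇑f) p = lam p := by
    intro v hv hev
    refine exists_normalized_of_eigenvector v hv lam (fun p hp hpM => ?_) (fun p hp hpM => ?_)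
    · rw [← eb67_hecke_of_not_dvd M hp hpM]
      exact hev p hp
    · rw [← eb67_hecke_of_dvd M hp hpM]
      exact hev p hp
  rcases hne with h1 | h2
  · exact build f₁ h1 fun ℓ hℓ => (key ℓ hℓ).1
  · exact build f₂ h2 fun ℓ hℓ => (key ℓ hℓ).2

end Pair

end Fermat.Agent.S41
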