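/-
S41 (level raising), module M7.1: the abstract lattice argument (helper54).

Pure algebra, `Mathlib` + `Fermat.Agent.S49.Algebra` (Deligne–Serre lifting lemma) only.

* `lr54_main`   : Ribet's lattice argument, elementwise.  `A`, `B` are abelian groups
  (in the application `A = L_N × L_N`, `B = L_{Nq}`), `i : A → B`, `j : B → A` commute with
  operator families `TA`, `TB`; an eigenvector `a` mod `p` of `A` with `j (i a) ∈ pA` produces an
  eigenvector mod `p` inside `ker j`, provided `i` is injective mod `p` on eigenvectors (Ihara) and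
  the `p`-torsion of `coker j` is killed by an operator `PA` acting on eigenvectors through a
  scalar prime to `p` (dual Ihara).
* `lr54_pow_scalar` : `(T - e)^n` acts on eigenvectors mod `p` through `(λ - e)^n`.
* `lr54_ideal_ne_top`, `lr54_exists_eigen` : an eigenvector mod `p` in a lattice `L ⊆ V` gives a
  genuine eigenvector in `V` whose eigencharacter is congruent to `λ` modulo a maximal ideal
  over `p`.
-/
import Mathlib
import Fermat.Agent.S49.Algebra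

set_option autoImplicit false

namespace Fermat.Agent.S41

section Lattice

variable {A B ι : Type*} [AddCommGroup A] [AddCommGroup B]

/-- If `u` is prime to `p` and `u • a ∈ pA` then `a ∈ pA`. -/
theorem lr54_of_smul_mem {A : Type*} [AddCommGroup A] {p : ℕ} (hp : p.Prime) {u : ℤ}
    (hu : ¬ (p : ℤ) ∣ u) {a : A} (h : ∃ a', u • a = (p : ℤ) • a') : ∃ a', a = (p : ℤ) • a' := by
  obtain ⟨a', ha'⟩ := h
  have hcop : IsCoprime u (p : ℤ) := by
    have hpp : Prime (p : ℤ) := Nat.prime_iff_prime_int.mp hp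
    exact (Int.isCoprime_iff_gcd_eq_one.mpr
      (Int.isCoprime_iff_gcd_eq_one.mp ((hpp.coprime_iff_not_dvd).mpr hu))).symm
  obtain ⟨x, y, hxy⟩ := hcop
  refine ⟨x • a' + y • a, ?_⟩
  calc a = (x * u + y * (p : ℤ)) • a := by rw [hxy, one_smul]
    _ = x • (u • a) + (p : ℤ) • (y • a) := by
        rw [add_smul, mul_smul, mul_comm y, mul_smul]
    _ = (p : ℤ) • (x • a' + y • a) := by
        rw [ha', smul_add, smul_comm x (p : ℤ) a']

/-- **Level raising, abstract lattice argument.** -/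
theorem lr54_main (p : ℕ) (hp : p.Prime)
    (hA : ∀ a : A, (p : ℤ) • a = 0 → a = 0)
    (i : A →+ B) (j : B →+ A) (TA : ι → A →+ A) (TB : ι → B →+ B) (lam : ι → ℤ)
    (hi : ∀ t a, i (TA t a) = TB t (i a)) (hj : ∀ t b, j (TB t b) = TA t (j b))
    -- Ihara: `i` is injective mod `p` on eigenvectors mod `p`
    (H1 : ∀ a : A, (∀ t, ∃ a', TA t a - lam t • a = (p : ℤ) • a') →
      (∃ b', i a = (p : ℤ) • b') → ∃ a', a = (p : ℤ) • a')
    -- dual Ihara: the `p`-torsion of `coker j` is killed by `PA`, which acts on eigenvectors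
    -- mod `p` through the scalar `u`, prime to `p`
    (PA : A →+ A) (PB : B →+ B) (u : ℤ) (hu : ¬ (p : ℤ) ∣ u)
    (hPi : ∀ a, i (PA a) = PB (i a)) (hPj : ∀ b, j (PB b) = PA (j b))
    (hPT : ∀ t b, TB t (PB b) = PB (TB t b))
    (hPu : ∀ a : A, (∀ t, ∃ a', TA t a - lam t • a = (p : ℤ) • a') →
      ∃ a', PA a - u • a = (p : ℤ) • a')
    (H2 : ∀ x : A, (∃ b, j b = (p : ℤ) • x) → ∃ b, j b = PA x)
    -- the eigenvector mod `p` killed by `j ∘ i` mod `p`
    (a : A) (ha : ¬ ∃ a', a = (p : ℤ) • a')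
    (haeig : ∀ t, ∃ a', TA t a - lam t • a = (p : ℤ) • a')
    (hja : ∃ x, j (i a) = (p : ℤ) • x) :
    ∃ b : B, j b = 0 ∧ (¬ ∃ b', b = (p : ℤ) • b') ∧
      ∀ t, ∃ b', j b' = 0 ∧ TB t b - lam t • b = (p : ℤ) • b' := by
  obtain ⟨x, hx⟩ := hja
  obtain ⟨b₁, hb₁⟩ := H2 x ⟨i a, hx⟩
  refine ⟨PB (i a) - (p : ℤ) • b₁, ?_, ?_, ?_⟩
  · rw [map_sub, hPj, hx, map_zsmul, map_zsmul, hb₁, sub_self]
  · rintro ⟨b', hb'⟩
    -- then `i (PA a) ∈ pB`, hence `i (u • a) ∈ pB`, hence `u • a ∈ pA`, hence `a ∈ pA`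
    obtain ⟨a₂, ha₂⟩ := hPu a haeig
    have h1 : i (u • a) = (p : ℤ) • (b' + b₁ - i a₂) := by
      have hPA : PA a = u • a + (p : ℤ) • a₂ := by rw [← ha₂]; abel
      have h2 : PB (i a) = (p : ℤ) • (b' + b₁) := by
        rw [smul_add, ← hb']; abel
      have h3 : i (PA a) = i (u • a) + (p : ℤ) • i a₂ := by
        rw [hPA, map_add, map_zsmul (f := i) (p : ℤ) a₂]
      rw [smul_sub, ← h2, ← hPi, h3]; abel
    have h4 : ∀ t, ∃ a', TA t (u • a) - lam t • (u • a) = (p : ℤ) • a' := by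
      intro t
      obtain ⟨a', ha'⟩ := haeig t
      refine ⟨u • a', ?_⟩
      rw [map_zsmul, smul_comm (lam t) u a, ← smul_sub, ha', smul_comm]
    exact ha (lr54_of_smul_mem hp hu (H1 (u • a) h4 ⟨_, h1⟩))
  · intro t
    obtain ⟨a', ha'⟩ := haeig t
    have key : TB t (PB (i a) - (p : ℤ) • b₁) - lam t • (PB (i a) - (p : ℤ) • b₁)
        = (p : ℤ) • (PB (i a') - (TB t b₁ - lam t • b₁)) := by
      have h1 : TB t (PB (i a)) - lam t • PB (i a) = (p : ℤ) • PB (i a') := by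
        rw [hPT, ← hi, ← map_zsmul PB, ← map_zsmul i, ← map_sub PB, ← map_sub i, ha',
          map_zsmul, map_zsmul]
      rw [map_sub, map_zsmul, smul_sub, smul_sub, smul_sub, ← h1, smul_comm (lam t) (p : ℤ) b₁]
      abel
    refine ⟨PB (i a') - (TB t b₁ - lam t • b₁), ?_, key⟩
    apply hA
    rw [← map_zsmul, ← key, map_sub, map_zsmul, hj]
    have h0 : j (PB (i a) - (p : ℤ) • b₁) = 0 := by
      rw [map_sub, hPj, hx, map_zsmul, map_zsmul, hb₁, sub_self]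
    rw [h0, map_zero, smul_zero, sub_zero]

/-- The additive endomorphism `(T - e)^n`. -/
def lr54_pow {A : Type*} [AddCommGroup A] (T : A →+ A) (e : ℤ) : ℕ → (A →+ A)
  | 0 => AddMonoidHom.id A
  | n + 1 => (T - e • AddMonoidHom.id A).comp (lr54_pow T e n)

@[simp] theorem lr54_pow_zero (T : A →+ A) (e : ℤ) (a : A) : lr54_pow T e 0 a = a := rfl

theorem lr54_pow_succ (T : A →+ A) (e : ℤ) (n : ℕ) (a : A) :
    lr54_pow T e (n + 1) a = T (lr54_pow T e n a) - e • lr54_pow T e n a := by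
  simp [lr54_pow, AddMonoidHom.sub_apply]

/-- `(T - e)^n` is compatible with maps intertwining the operators. -/
theorem lr54_pow_map (TA : A →+ A) (TB : B →+ B) (f : A →+ B)
    (hf : ∀ a, f (TA a) = TB (f a)) (e : ℤ) (n : ℕ) (a : A) :
    f (lr54_pow TA e n a) = lr54_pow TB e n (f a) := by
  induction n with
  | zero => rfl
  | succ n ih => rw [lr54_pow_succ, lr54_pow_succ, map_sub, map_zsmul, hf, ih]

/-- `(T - e)^n` acts on eigenvectors mod `p` of `T` (eigenvalue `l`) through `(l - e)^n`. -/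
theorem lr54_pow_scalar (p : ℕ) (T : A →+ A) (l e : ℤ) (n : ℕ) (a : A)
    (ha : ∃ a', T a - l • a = (p : ℤ) • a') :
    ∃ a', lr54_pow T e n a - (l - e) ^ n • a = (p : ℤ) • a' := by
  obtain ⟨a₁, ha₁⟩ := ha
  induction n with
  | zero => exact ⟨0, by simp⟩
  | succ n ih =>
    obtain ⟨a₂, ha₂⟩ := ih
    have hTa : T a = l • a + (p : ℤ) • a₁ := by rw [← ha₁]; abel
    have hDn : lr54_pow T e n a = (l - e) ^ n • a + (p : ℤ) • a₂ := by
      rw [← ha₂]; abel
    refine ⟨(l - e) ^ n • a₁ + (T a₂ - e • a₂), ?_⟩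
    rw [lr54_pow_succ, hDn, map_add, map_zsmul, map_zsmul, hTa, pow_succ, mul_smul,
      sub_smul l e a]
    simp only [smul_add, smul_sub]
    rw [smul_comm ((l - e) ^ n) (p : ℤ) a₁, smul_comm e (p : ℤ) a₂,
      smul_comm e ((l - e) ^ n) a]
    abel

/-- **Level raising, abstract lattice argument**, with both Ihara inputs in the form
"killed by a power of `T t - e`". -/
theorem lr54_main_pow (p : ℕ) (hp : p.Prime)
    (hA : ∀ a : A, (p : ℤ) • a = 0 → a = 0)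
    (i : A →+ B) (j : B →+ A) (TA : ι → A →+ A) (TB : ι → B →+ B) (lam : ι → ℤ)
    (hi : ∀ t a, i (TA t a) = TB t (i a)) (hj : ∀ t b, j (TB t b) = TA t (j b))
    (hTB : ∀ s t b, TB s (TB t b) = TB t (TB s b))
    -- Ihara: the kernel of `i` mod `p` is killed by `(TA t₁ - e₁)^n₁`
    (t₁ : ι) (e₁ : ℤ) (n₁ : ℕ) (hu₁ : ¬ (p : ℤ) ∣ lam t₁ - e₁)
    (H1 : ∀ a : A, (∃ b', i a = (p : ℤ) • b') → ∃ a', lr54_pow (TA t₁) e₁ n₁ a = (p : ℤ) • a')
    -- dual Ihara: the `p`-torsion of `coker j` is killed by `(TA t₀ - e₀)^n₀`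
    (t₀ : ι) (e₀ : ℤ) (n₀ : ℕ) (hu₀ : ¬ (p : ℤ) ∣ lam t₀ - e₀)
    (H2 : ∀ x : A, (∃ b, j b = (p : ℤ) • x) → ∃ b, j b = lr54_pow (TA t₀) e₀ n₀ x)
    (a : A) (ha : ¬ ∃ a', a = (p : ℤ) • a')
    (haeig : ∀ t, ∃ a', TA t a - lam t • a = (p : ℤ) • a')
    (hja : ∃ x, j (i a) = (p : ℤ) • x) :
    ∃ b : B, j b = 0 ∧ (¬ ∃ b', b = (p : ℤ) • b') ∧
      ∀ t, ∃ b', j b' = 0 ∧ TB t b - lam t • b = (p : ℤ) • b' := by
  have hpp : Prime (p : ℤ) := Nat.prime_iff_prime_int.mp hp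
  refine lr54_main p hp hA i j TA TB lam hi hj ?_ (lr54_pow (TA t₀) e₀ n₀)
    (lr54_pow (TB t₀) e₀ n₀) ((lam t₀ - e₀) ^ n₀) (fun h => hu₀ (hpp.dvd_of_dvd_pow h))
    (fun a => lr54_pow_map (TA t₀) (TB t₀) i (hi t₀) e₀ n₀ a)
    (fun b => lr54_pow_map (TB t₀) (TA t₀) j (hj t₀) e₀ n₀ b)
    (fun t b => lr54_pow_map (TB t₀) (TB t₀) (TB t) (fun b => hTB t t₀ b) e₀ n₀ b)
    (fun a h => lr54_pow_scalar p (TA t₀) (lam t₀) e₀ n₀ a (h t₀)) H2 a ha haeig hja
  intro a' heig hia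
  obtain ⟨a₂, ha₂⟩ := H1 a' hia
  obtain ⟨a₃, ha₃⟩ := lr54_pow_scalar p (TA t₁) (lam t₁) e₁ n₁ a' (heig t₁)
  have hnd : ¬ (p : ℤ) ∣ (lam t₁ - e₁) ^ n₁ := fun h => hu₁ (hpp.dvd_of_dvd_pow h)
  refine lr54_of_smul_mem hp hnd ⟨a₂ - a₃, ?_⟩
  rw [smul_sub, ← ha₂, ← ha₃]; abel

end Lattice

section Lifting

variable {V : Type*} [AddCommGroup V] [Module ℂ V] {R : Type*} [CommRing R] {ι : Type*}

/-- An eigenvector mod `p` in a stable lattice shows that the "eigen-ideal" is proper. -/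
theorem lr54_ideal_ne_top (ρ : R →+* Module.End ℂ V) (L : Submodule ℤ V)
    (hL : ∀ r : R, ∀ x ∈ L, ρ r x ∈ L) (p : ℕ) (T : ι → R) (lam : ι → ℤ)
    (b : V) (hbL : b ∈ L) (hb : ¬ ∃ b' ∈ L, b = (p : ℤ) • b')
    (heig : ∀ t, ∃ b' ∈ L, ρ (T t) b - lam t • b = (p : ℤ) • b') :
    Ideal.span (Set.range (fun t => T t - (lam t : R)) ∪ {(p : R)}) ≠ ⊤ := by
  classical
  intro htop
  -- the ideal of all `r` with `ρ r b ∈ pL`
  let J : Ideal R :=
    { carrier := {r | ∃ b' ∈ L, ρ r b = (p : ℤ) • b'}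
      add_mem' := by
        rintro r s ⟨b₁, hb₁, h₁⟩ ⟨b₂, hb₂, h₂⟩
        exact ⟨b₁ + b₂, L.add_mem hb₁ hb₂, by
          rw [map_add, LinearMap.add_apply, h₁, h₂, smul_add]⟩
      zero_mem' := ⟨0, L.zero_mem, by simp⟩
      smul_mem' := by
        rintro s r ⟨b₁, hb₁, h₁⟩
        refine ⟨ρ s b₁, hL s b₁ hb₁, ?_⟩
        rw [smul_eq_mul, map_mul, Module.End.mul_apply, h₁, map_zsmul] }
  have hint : ∀ (n : ℤ) (x : V), ρ (n : R) x = n • x := by
    intro n x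
    rw [map_intCast, Module.End.intCast_apply]
  have hle : Ideal.span (Set.range (fun t => T t - (lam t : R)) ∪ {(p : R)}) ≤ J := by
    rw [Ideal.span_le]
    rintro r (⟨t, rfl⟩ | hr)
    · obtain ⟨b', hb', h⟩ := heig t
      refine ⟨b', hb', ?_⟩
      rw [← h, map_sub, LinearMap.sub_apply, hint]
    · rw [Set.mem_singleton_iff] at hr
      subst hr
      refine ⟨b, hbL, ?_⟩
      have h2 := hint (p : ℤ) b
      rw [Int.cast_natCast] at h2
      exact h2
  have h1 : (1 : R) ∈ J := hle (htop ▸ Submodule.mem_top)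
  obtain ⟨b', hb', h⟩ := h1
  exact hb ⟨b', hb', by simpa using h⟩

/-- **Lifting to characteristic zero.**  A commutative ring `R` acting faithfully on a complex
vector space `V`, stabilising a finitely generated lattice `L` spanning `V`; an element of `L`
outside `pL` which is an eigenvector mod `p` for the `T t` with eigenvalues `lam t` gives a genuine
common eigenvector whose eigencharacter `χ` satisfies `χ (T t) ≡ lam t` modulo a maximal ideal
of `integralClosure ℤ ℂ` containing `p`. -/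
theorem lr54_exists_eigen (ρ : R →+* Module.End ℂ V) (hρ : Function.Injective ρ)
    (L : Submodule ℤ V) (hfg : L.FG) (hspan : Submodule.span ℂ (L : Set V) = ⊤)
    (hL : ∀ r : R, ∀ x ∈ L, ρ r x ∈ L) (p : ℕ) (T : ι → R) (lam : ι → ℤ)
    (b : V) (hbL : b ∈ L) (hb : ¬ ∃ b' ∈ L, b = (p : ℤ) • b')
    (heig : ∀ t, ∃ b' ∈ L, ρ (T t) b - lam t • b = (p : ℤ) • b') :
    ∃ (v : V) (χ : R →+* integralClosure ℤ ℂ) (Q : Ideal (integralClosure ℤ ℂ)),
      v ≠ 0 ∧ (∀ r : R, ρ r v = (χ r : ℂ) • v) ∧ Q.IsMaximal ∧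
      (p : integralClosure ℤ ℂ) ∈ Q ∧
      ∀ t, χ (T t) - ((lam t : ℤ) : integralClosure ℤ ℂ) ∈ Q := by
  obtain ⟨v, χ, Q, hv, hχ, hQ, hI⟩ :=
    Fermat.Agent.S49.exists_eigenvector_of_lattice ρ hρ L hfg hspan hL _
      (lr54_ideal_ne_top ρ L hL p T lam b hbL hb heig)
  refine ⟨v, χ, Q, hv, hχ, hQ, ?_, ?_⟩
  · have := hI (p : R) (Ideal.subset_span (Or.inr rfl))
    simpa using this
  · intro t
    have := hI (T t - (lam t : R)) (Ideal.subset_span (Or.inl ⟨t, rfl⟩))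
    simpa using this

end Lifting

end Fermat.Agent.S41
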