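/-
S41 (level raising), module M2.BH (helper88): Ihara's lemma on the adjoint ("Hom") side from
Ihara's lemma on the symbol side, abstract form, and the abstract "parabolic lift".

* `hi88_hom_ihara` : `A = L_N × L_N`, `B = L_{Nq}` (symbols), `A' = Hom(Γ₀(N), ℤ)²`,
  `B' = Hom(Γ₀(Nq), ℤ)`, `ν` the maps `symbol ↦ (γ ↦ φ(c, γ c))`.  If `(T' - e) A' ⊆ ν(A)`,
  `ν(B)` is `p`-saturated, the kernel of `ν_B` is killed by `T - e`, and the symbol side satisfies
  `i a ∈ pB → (T - e)^n₁ a ∈ pA`, then the Hom side satisfies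
  `i' α ∈ pB' → (T' - e)^(n₁ + 2) α ∈ pA'`  (hypothesis `H1'` of `di28_dual_ihara`).
* `hi88_exists_potential` : a homomorphism killing all point stabilisers of an action is the
  coboundary of a potential: `pot (g • x) = pot x + χ g`.
* `hi88_sum_eq_of_factor` : a homomorphism `χ` vanishing on the kernel of an additive
  "length" `τ` turns `∑ τ (g i) = k * τ g₀` into `∑ χ (g i) = k • χ g₀`.
-/
import Mathlib
import Fermat.Agent.S41.LRAlg54

set_option autoImplicit false

namespace Fermat.Agent.S41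

section HomIhara

variable {A B A' B' : Type*} [AddCommGroup A] [AddCommGroup B] [AddCommGroup A']
  [AddCommGroup B']

/-- `lr54_pow` commutes with one more factor `T - e`. -/
theorem hi88_pow_shift (T : A →+ A) (e : ℤ) (n : ℕ) (a : A) :
    lr54_pow T e n (T a - e • a) = T (lr54_pow T e n a) - e • lr54_pow T e n a := by
  have h := lr54_pow_map T T (T - e • AddMonoidHom.id A)
    (fun a => by simp [AddMonoidHom.sub_apply, map_sub, map_zsmul]) e n a
  simp only [AddMonoidHom.sub_apply, AddMonoidHom.smul_apply, AddMonoidHom.id_apply] at h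
  exact h.symm

/-- **Ihara on the Hom side from Ihara on the symbol side** (abstract form). -/
theorem hi88_hom_ihara (p : ℕ)
    (νA : A →+ A') (νB : B →+ B') (i : A →+ B) (i' : A' →+ B')
    (TA : A →+ A) (TB : B →+ B) (TA' : A' →+ A') (TB' : B' →+ B') (e : ℤ)
    (hνi : ∀ a, νB (i a) = i' (νA a))
    (hνA : ∀ a, νA (TA a) = TA' (νA a))
    (hiT : ∀ a, i (TA a) = TB (i a))
    (hi'T : ∀ α, i' (TA' α) = TB' (i' α))
    -- `(T' - e) A' ⊆ ν(A)`: the Hecke operator is `e` on the boundary quotient of `A'`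
    (hlift : ∀ α : A', ∃ a : A, νA a = TA' α - e • α)
    -- `ν(B)` is `p`-saturated in `B'`
    (hsat : ∀ β : B', (∃ b, νB b = (p : ℤ) • β) → ∃ b, νB b = β)
    -- the kernel of `ν_B` (boundary symbols) is killed by `T - e`
    (hbdry : ∀ b : B, νB b = 0 → TB b = e • b)
    (n₁ : ℕ)
    (H1 : ∀ a : A, (∃ b', i a = (p : ℤ) • b') → ∃ a', lr54_pow TA e n₁ a = (p : ℤ) • a') :
    ∀ α : A', (∃ β', i' α = (p : ℤ) • β') →
      ∃ α', lr54_pow TA' e (n₁ + 2) α = (p : ℤ) • α' := by
  rintro α ⟨β', hβ'⟩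
  obtain ⟨a, ha⟩ := hlift α
  -- `ν_B (i a) = p • (T' β' - e β')`
  have h1 : νB (i a) = (p : ℤ) • (TB' β' - e • β') := by
    rw [hνi, ha, map_sub, map_zsmul, hi'T, hβ', map_zsmul, smul_sub, smul_comm e (p : ℤ) β']
  obtain ⟨b₀, hb₀⟩ := hsat (TB' β' - e • β') ⟨i a, h1⟩
  have h2 : νB (i a - (p : ℤ) • b₀) = 0 := by
    rw [map_sub, map_zsmul, h1, hb₀, sub_self]
  have h3 := hbdry _ h2
  -- `i (T a - e a) = p • (T b₀ - e b₀)`
  have h4 : i (TA a - e • a) = (p : ℤ) • (TB b₀ - e • b₀) := by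
    rw [map_sub, map_zsmul, hiT]
    rw [map_sub, map_zsmul] at h3
    have h5 : TB (i a) - e • i a = (p : ℤ) • TB b₀ - e • (p : ℤ) • b₀ := by
      have h6 : TB (i a) = e • (i a - (p : ℤ) • b₀) + (p : ℤ) • TB b₀ := by
        rw [← h3]; abel
      rw [h6, smul_sub]; abel
    rw [h5, smul_sub, smul_comm e (p : ℤ) b₀]
  obtain ⟨a', ha'⟩ := H1 (TA a - e • a) ⟨_, h4⟩
  refine ⟨νA a', ?_⟩
  have h7 : νA (lr54_pow TA e n₁ (TA a - e • a)) =
      lr54_pow TA' e n₁ (νA (TA a - e • a)) := lr54_pow_map TA TA' νA hνA e n₁ _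
  rw [ha', map_zsmul] at h7
  rw [h7, map_sub, map_zsmul, hνA, ha]
  -- `lr54_pow T' e n₁ ((T' - e) ((T' - e) α)) = lr54_pow T' e (n₁ + 2) α`
  rw [hi88_pow_shift, hi88_pow_shift, lr54_pow_succ, lr54_pow_succ]

end HomIhara

section Potential

/-- **Parabolic lift.** A homomorphism `χ : G → A` killing every point stabiliser of an action of
`G` on `X` has a potential: `pot (g • x) = pot x + χ g`. -/
theorem hi88_exists_potential {G X A : Type*} [Group G] [MulAction G X] [AddCommGroup A]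
    (χ : G → A) (hmul : ∀ g h, χ (g * h) = χ g + χ h)
    (hstab : ∀ (g : G) (x : X), g • x = x → χ g = 0) :
    ∃ pot : X → A, ∀ (g : G) (x : X), pot (g • x) = pot x + χ g := by
  classical
  have hone : χ 1 = 0 := by
    have h := hmul 1 1
    rw [mul_one] at h
    exact left_eq_add.mp h
  have hinv : ∀ g, χ g⁻¹ = -χ g := by
    intro g
    have h := hmul g⁻¹ g
    rw [inv_mul_cancel, hone] at h
    exact eq_neg_of_add_eq_zero_left h.symm
  -- representative of the orbit of `x`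
  let r : X → X := fun x => (Quotient.out (Quotient.mk (MulAction.orbitRel G X) x) : X)
  have hr : ∀ x, ∃ g : G, g • r x = x := by
    intro x
    have h : (MulAction.orbitRel G X) (r x) x := Quotient.mk_out (s := MulAction.orbitRel G X) x
    rw [MulAction.orbitRel_apply] at h
    obtain ⟨g, hg⟩ := h
    exact ⟨g⁻¹, by rw [← hg, inv_smul_smul]⟩
  have hrg : ∀ (g : G) (x : X), r (g • x) = r x := by
    intro g x
    have : (Quotient.mk (MulAction.orbitRel G X) (g • x)) =
        Quotient.mk (MulAction.orbitRel G X) x := by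
      apply Quotient.sound
      show (MulAction.orbitRel G X) (g • x) x
      rw [MulAction.orbitRel_apply]
      exact ⟨g, rfl⟩
    show (Quotient.out (Quotient.mk (MulAction.orbitRel G X) (g • x)) : X) = _
    rw [this]
  choose gx hgx using hr
  refine ⟨fun x => χ (gx x), fun g x => ?_⟩
  -- `gx (g • x) • r x = g • gx x • r x`
  have h1 : gx (g • x) • r x = (g * gx x) • r x := by
    have := hgx (g • x)
    rw [hrg] at this
    rw [this, mul_smul, hgx x]
  have h2 : ((g * gx x)⁻¹ * gx (g • x)) • r x = r x := by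
    rw [mul_smul, h1, inv_smul_smul]
  have h3 := hstab _ _ h2
  rw [hmul, hinv, hmul] at h3
  have h4 : χ (gx (g • x)) = χ g + χ (gx x) := by
    have := eq_neg_of_add_eq_zero_right h3
    rw [neg_neg] at this
    exact this
  show χ (gx (g • x)) = χ (gx x) + χ g
  rw [h4, add_comm]

end Potential

section Factor

/-- If `χ` is additive on a group `G` and vanishes on the kernel of an additive "length"
`τ : G → ℤ`, then `∑ τ (g i) = k * τ g₀` implies `∑ χ (g i) = k • χ g₀`. -/
theorem hi88_sum_eq_of_factor {G A ι : Type*} [Group G] [AddCommGroup A]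
    (χ : G → A) (hχ : ∀ g h, χ (g * h) = χ g + χ h)
    (τ : G → ℤ) (hτ : ∀ g h, τ (g * h) = τ g + τ h)
    (hker : ∀ g, τ g = 0 → χ g = 0)
    (s : Finset ι) (g : ι → G) (g₀ : G) (k : ℤ)
    (hsum : ∑ i ∈ s, τ (g i) = k * τ g₀) :
    ∑ i ∈ s, χ (g i) = k • χ g₀ := by
  classical
  have hχ1 : χ 1 = 0 := by
    have h := hχ 1 1
    rw [mul_one] at h
    exact left_eq_add.mp h
  have hτ1 : τ 1 = 0 := by
    have h := hτ 1 1
    rw [mul_one] at h
    exact left_eq_add.mp h
  have hχinv : ∀ g, χ g⁻¹ = -χ g := by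
    intro g
    have h := hχ g⁻¹ g
    rw [inv_mul_cancel, hχ1] at h
    exact eq_neg_of_add_eq_zero_left h.symm
  have hτinv : ∀ g, τ g⁻¹ = -τ g := by
    intro g
    have h := hτ g⁻¹ g
    rw [inv_mul_cancel, hτ1] at h
    exact eq_neg_of_add_eq_zero_left h.symm
  -- an element realising the partial sums
  have hprod : ∀ t : Finset ι, ∃ h : G, τ h = ∑ i ∈ t, τ (g i) ∧ χ h = ∑ i ∈ t, χ (g i) := by
    intro t
    induction t using Finset.induction_on with
    | empty => exact ⟨1, by simp [hτ1], by simp [hχ1]⟩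
    | insert a t ha ih =>
      obtain ⟨h, h1, h2⟩ := ih
      refine ⟨g a * h, ?_, ?_⟩
      · rw [hτ, h1, Finset.sum_insert ha]
      · rw [hχ, h2, Finset.sum_insert ha]
  -- powers
  have hpowN : ∀ n : ℕ, τ (g₀ ^ n) = n * τ g₀ ∧ χ (g₀ ^ n) = (n : ℤ) • χ g₀ := by
    intro n
    induction n with
    | zero => simp [hτ1, hχ1]
    | succ n ih =>
      rw [pow_succ, hτ, hχ, ih.1, ih.2]
      refine ⟨by push_cast; ring, ?_⟩
      push_cast
      rw [add_smul, one_smul]
  have hpow : ∀ k : ℤ, τ (g₀ ^ k) = k * τ g₀ ∧ χ (g₀ ^ k) = k • χ g₀ := by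
    intro k
    obtain ⟨n, rfl | rfl⟩ := Int.eq_nat_or_neg k
    · simpa using hpowN n
    · rw [zpow_neg, zpow_natCast, hτinv, hχinv, (hpowN n).1, (hpowN n).2]
      exact ⟨by ring, by rw [neg_smul]⟩
  obtain ⟨h, h1, h2⟩ := hprod s
  have h3 : τ (h * (g₀ ^ k)⁻¹) = 0 := by
    rw [hτ, hτinv, h1, hsum, (hpow k).1]; ring
  have h4 := hker _ h3
  rw [hχ, hχinv, h2, (hpow k).2] at h4
  exact sub_eq_zero.mp (by rw [sub_eq_add_neg]; exact h4)

end Factor

end Fermat.Agent.S41
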