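/-
S41 / M1 (helper43): trace / coset calculus at level `N q`, model-agnostic.

Setting: `X` any type with an action of `GL(2, ℚ)` on which scalar matrices act trivially,
`A` an additive commutative group, plain functions `Φ : X → A`.  Integer matrices of nonzero
determinant act through `tr43_gl`; `tr43_sl Φ M = Φ (M • ·)`.
-/
import Mathlib
import Fermat.Agent.S16.LB.Coset

set_option autoImplicit false

open CongruenceSubgroup
open scoped MatrixGroups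

namespace Fermat.Agent.S41

open Fermat.Agent.S16

/-! ### integer matrices inside `GL(2, ℚ)` -/

/-- integer matrices with nonzero determinant inside `GL(2, ℚ)` (junk value `1` otherwise). -/
noncomputable def tr43_gl (M : Matrix (Fin 2) (Fin 2) ℤ) : GL (Fin 2) ℚ :=
  if h : ((Int.castRingHom ℚ).mapMatrix M).det = 0 then 1
  else Matrix.GeneralLinearGroup.mkOfDetNeZero ((Int.castRingHom ℚ).mapMatrix M) h

theorem tr43_det_map (M : Matrix (Fin 2) (Fin 2) ℤ) :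
    ((Int.castRingHom ℚ).mapMatrix M).det = ((M.det : ℤ) : ℚ) := by
  rw [← RingHom.map_det]; rfl

theorem tr43_gl_coe {M : Matrix (Fin 2) (Fin 2) ℤ} (h : M.det ≠ 0) :
    ((tr43_gl M : GL (Fin 2) ℚ) : Matrix (Fin 2) (Fin 2) ℚ) = (Int.castRingHom ℚ).mapMatrix M := by
  have h' : ((Int.castRingHom ℚ).mapMatrix M).det ≠ 0 := by
    rw [tr43_det_map]; exact_mod_cast h
  rw [tr43_gl, dif_neg h']
  rfl

theorem tr43_gl_mul {M M' : Matrix (Fin 2) (Fin 2) ℤ} (h : M.det ≠ 0) (h' : M'.det ≠ 0) :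
    tr43_gl (M * M') = tr43_gl M * tr43_gl M' := by
  apply Units.ext
  rw [Units.val_mul, tr43_gl_coe h, tr43_gl_coe h',
    tr43_gl_coe (by rw [Matrix.det_mul]; exact mul_ne_zero h h'), map_mul]

theorem tr43_gl_sl (γ : SL(2, ℤ)) :
    tr43_gl (γ : Matrix (Fin 2) (Fin 2) ℤ) = Matrix.SpecialLinearGroup.mapGL ℚ γ := by
  apply Units.ext
  rw [tr43_gl_coe (by rw [γ.2]; exact one_ne_zero)]
  rfl

theorem tr43_det_smul (c : ℤ) (M : Matrix (Fin 2) (Fin 2) ℤ) : (c • M).det = c ^ 2 * M.det := by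
  rw [Matrix.det_smul]; rfl

theorem tr43_gl_smul {c : ℤ} (hc : c ≠ 0) {M : Matrix (Fin 2) (Fin 2) ℤ} (h : M.det ≠ 0) :
    tr43_gl (c • M)
      = Matrix.GeneralLinearGroup.scalar (Fin 2) (Units.mk0 (c : ℚ) (by exact_mod_cast hc))
        * tr43_gl M := by
  apply Units.ext
  have h2 : (c • M).det ≠ 0 := by
    rw [tr43_det_smul]; exact mul_ne_zero (pow_ne_zero _ hc) h
  rw [Units.val_mul, tr43_gl_coe h, tr43_gl_coe h2, Matrix.GeneralLinearGroup.coe_scalar]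
  ext i j
  rw [Matrix.scalar_apply, Matrix.diagonal_mul, RingHom.mapMatrix_apply, RingHom.mapMatrix_apply,
    Matrix.map_apply, Matrix.map_apply, Matrix.smul_apply, smul_eq_mul, map_mul]
  rfl

section Action

variable {X : Type*} [MulAction (GL (Fin 2) ℚ) X] {A : Type*}

/-- the function `x ↦ Φ (M • x)`. -/
noncomputable def tr43_sl (Φ : X → A) (M : Matrix (Fin 2) (Fin 2) ℤ) : X → A :=
  fun x => Φ (tr43_gl M • x)

theorem tr43_sl_apply (Φ : X → A) (M : Matrix (Fin 2) (Fin 2) ℤ) (x : X) :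
    tr43_sl Φ M x = Φ (tr43_gl M • x) := rfl

theorem tr43_sl_sl (Φ : X → A) {M M' : Matrix (Fin 2) (Fin 2) ℤ} (h : M.det ≠ 0)
    (h' : M'.det ≠ 0) : tr43_sl (tr43_sl Φ M) M' = tr43_sl Φ (M * M') := by
  funext x
  rw [tr43_sl_apply, tr43_sl_apply, tr43_sl_apply, tr43_gl_mul h h', mul_smul]

/-- scalar matrices act trivially on `X`. -/
def tr43_ScalarTriv (X : Type*) [MulAction (GL (Fin 2) ℚ) X] : Prop :=
  ∀ (c : ℚˣ) (x : X), Matrix.GeneralLinearGroup.scalar (Fin 2) c • x = x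

theorem tr43_sl_smul (hsc : tr43_ScalarTriv X) (Φ : X → A) {c : ℤ} (hc : c ≠ 0)
    {M : Matrix (Fin 2) (Fin 2) ℤ} (h : M.det ≠ 0) : tr43_sl Φ (c • M) = tr43_sl Φ M := by
  funext x
  rw [tr43_sl_apply, tr43_sl_apply, tr43_gl_smul hc h, mul_smul, hsc]

/-- `Φ` is invariant under `Γ₀(N)`. -/
def tr43_Inv (N : ℕ) (Φ : X → A) : Prop :=
  ∀ (γ : Gamma0 N) (x : X),
    Φ (Matrix.SpecialLinearGroup.mapGL ℚ (γ : SL(2, ℤ)) • x) = Φ x

theorem tr43_sl_one (Φ : X → A) : tr43_sl Φ 1 = Φ := by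
  funext x
  have : tr43_gl (1 : Matrix (Fin 2) (Fin 2) ℤ) = 1 := by
    have := tr43_gl_sl 1
    simpa using this
  rw [tr43_sl_apply, this, one_smul]

theorem tr43_sl_Gamma0 {N : ℕ} {Φ : X → A} (hΦ : tr43_Inv N Φ) (γ : Gamma0 N) :
    tr43_sl Φ ((γ : SL(2, ℤ)) : Matrix (Fin 2) (Fin 2) ℤ) = Φ := by
  funext x
  rw [tr43_sl_apply, tr43_gl_sl, hΦ]

/-- the key rewriting principle: a left factor in `Γ₀(N)` can be dropped. -/
theorem tr43_sl_Gamma0_mul {N : ℕ} {Φ : X → A} (hΦ : tr43_Inv N Φ) (γ : Gamma0 N)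
    {M : Matrix (Fin 2) (Fin 2) ℤ} (h : M.det ≠ 0) :
    tr43_sl Φ (((γ : SL(2, ℤ)) : Matrix (Fin 2) (Fin 2) ℤ) * M) = tr43_sl Φ M := by
  rw [← tr43_sl_sl Φ (by rw [(γ : SL(2, ℤ)).2]; exact one_ne_zero) h, tr43_sl_Gamma0 hΦ]

theorem tr43_Inv_of_dvd {N N' : ℕ} (h : N ∣ N') {Φ : X → A} (hΦ : tr43_Inv N Φ) :
    tr43_Inv N' Φ := by
  intro γ x
  have hγ : (γ : SL(2, ℤ)) ∈ Gamma0 N := by
    rw [Gamma0_mem]
    have h1 := lb_Gamma0_dvd γ
    rw [ZMod.intCast_zmod_eq_zero_iff_dvd]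
    exact (Int.natCast_dvd_natCast.mpr h).trans h1
  exact hΦ ⟨_, hγ⟩ x

theorem tr43_Inv_iff {N : ℕ} {Φ : X → A} :
    tr43_Inv N Φ ↔ ∀ γ : Gamma0 N, tr43_sl Φ ((γ : SL(2, ℤ)) : Matrix (Fin 2) (Fin 2) ℤ) = Φ := by
  constructor
  · intro h γ
    exact tr43_sl_Gamma0 h γ
  · intro h γ x
    have := congrFun (h γ) x
    rwa [tr43_sl_apply, tr43_gl_sl] at this

section Additive

variable [AddCommGroup A]

theorem tr43_sl_add (Φ Ψ : X → A) (M : Matrix (Fin 2) (Fin 2) ℤ) :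
    tr43_sl (Φ + Ψ) M = tr43_sl Φ M + tr43_sl Ψ M := rfl

theorem tr43_sl_neg (Φ : X → A) (M : Matrix (Fin 2) (Fin 2) ℤ) :
    tr43_sl (-Φ) M = -tr43_sl Φ M := rfl

theorem tr43_sl_zero (M : Matrix (Fin 2) (Fin 2) ℤ) : tr43_sl (0 : X → A) M = 0 := rfl

theorem tr43_sl_sum {ι : Type*} (s : Finset ι) (F : ι → X → A) (M : Matrix (Fin 2) (Fin 2) ℤ) :
    tr43_sl (∑ i ∈ s, F i) M = ∑ i ∈ s, tr43_sl (F i) M := by
  funext x
  simp only [tr43_sl_apply, Finset.sum_apply]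

theorem tr43_Inv_add {N : ℕ} {Φ Ψ : X → A} (hΦ : tr43_Inv N Φ) (hΨ : tr43_Inv N Ψ) :
    tr43_Inv N (Φ + Ψ) := fun γ x => by
  simp only [Pi.add_apply, hΦ γ x, hΨ γ x]

theorem tr43_Inv_neg {N : ℕ} {Φ : X → A} (hΦ : tr43_Inv N Φ) : tr43_Inv N (-Φ) := fun γ x => by
  simp only [Pi.neg_apply, hΦ γ x]

theorem tr43_Inv_zero {N : ℕ} : tr43_Inv N (0 : X → A) := fun _ _ => rfl

theorem tr43_Inv_sum {N : ℕ} {ι : Type*} (s : Finset ι) {F : ι → X → A}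
    (hF : ∀ i ∈ s, tr43_Inv N (F i)) : tr43_Inv N (∑ i ∈ s, F i) := fun γ x => by
  simp only [Finset.sum_apply]
  exact Finset.sum_congr rfl fun i hi => hF i hi γ x

/-- Reindexing principle: two finite families of integer matrices that agree up to left
multiplication by `Γ₀(N)` and a bijection of the index sets give the same sum. -/
theorem tr43_sum_reindex {N : ℕ} {Φ : X → A} (hΦ : tr43_Inv N Φ) {ι : Type*} [Fintype ι]
    (M M' : ι → Matrix (Fin 2) (Fin 2) ℤ) (hM' : ∀ j, (M' j).det ≠ 0)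
    (hex : ∀ i, ∃ (j : ι) (κ : Gamma0 N),
      M i = ((κ : SL(2, ℤ)) : Matrix (Fin 2) (Fin 2) ℤ) * M' j)
    (hinj : ∀ (i₁ i₂ j : ι) (κ₁ κ₂ : Gamma0 N),
      M i₁ = ((κ₁ : SL(2, ℤ)) : Matrix (Fin 2) (Fin 2) ℤ) * M' j →
      M i₂ = ((κ₂ : SL(2, ℤ)) : Matrix (Fin 2) (Fin 2) ℤ) * M' j → i₁ = i₂) :
    ∑ i, tr43_sl Φ (M i) = ∑ j, tr43_sl Φ (M' j) := by
  classical
  choose σ κ h using hex
  have hσ : Function.Injective σ := fun i₁ i₂ e =>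
    hinj i₁ i₂ (σ i₂) (κ i₁) (κ i₂) (e ▸ h i₁) (h i₂)
  have hb : Function.Bijective σ := Finite.injective_iff_bijective.mp hσ
  rw [← Fintype.sum_bijective σ hb (fun i => tr43_sl Φ (M i)) (fun j => tr43_sl Φ (M' j))]
  intro i
  rw [h i, tr43_sl_Gamma0_mul hΦ _ (hM' _)]

/-- the operator attached to an `LbSys` preserves invariance. -/
theorem tr43_Inv_lbSys {N : ℕ} (S : LbSys (Gamma0 N)) {Φ : X → A} (hΦ : tr43_Inv N Φ) :
    tr43_Inv N (∑ i, tr43_sl Φ (S.mat i)) := by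
  rw [tr43_Inv_iff]
  intro γ
  have hγ : ((γ : SL(2, ℤ)) : Matrix (Fin 2) (Fin 2) ℤ).det ≠ 0 := by
    rw [(γ : SL(2, ℤ)).2]; exact one_ne_zero
  rw [tr43_sl_sum]
  have h1 : ∀ i, tr43_sl (tr43_sl Φ (S.mat i)) ((γ : SL(2, ℤ)) : Matrix (Fin 2) (Fin 2) ℤ)
      = tr43_sl Φ (S.mat (S.perm γ i)) := by
    intro i
    rw [tr43_sl_sl Φ (S.det_pos i).ne' hγ, S.mat_mul γ i,
      tr43_sl_Gamma0_mul hΦ _ (S.det_pos _).ne']
  rw [Finset.sum_congr rfl fun i _ => h1 i]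
  exact Equiv.sum_comp (S.permEquiv γ) (fun i => tr43_sl Φ (S.mat i))

/-- the Hecke operator `T_ℓ` (representatives `lbMat ℓ`). -/
noncomputable def tr43_T (ℓ : ℕ) (Φ : X → A) : X → A :=
  ∑ i : Option (Fin ℓ), tr43_sl Φ (lbMat ℓ i)

/-- the Hecke operator `U_q` (representatives `lbMat q (some b)`). -/
noncomputable def tr43_U (q : ℕ) (Φ : X → A) : X → A :=
  ∑ b : Fin q, tr43_sl Φ (lbMat q (some b))

theorem tr43_T_eq (ℓ : ℕ) (Φ : X → A) :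
    tr43_T ℓ Φ = tr43_sl Φ (lbMat ℓ none) + tr43_U ℓ Φ := by
  rw [tr43_T, tr43_U, Fintype.sum_option]

theorem tr43_T_apply (ℓ : ℕ) (Φ : X → A) (x : X) :
    tr43_T ℓ Φ x = ∑ i : Option (Fin ℓ), Φ (tr43_gl (lbMat ℓ i) • x) := by
  simp only [tr43_T, Finset.sum_apply, tr43_sl_apply]

theorem tr43_U_apply (q : ℕ) (Φ : X → A) (x : X) :
    tr43_U q Φ x = ∑ b : Fin q, Φ (tr43_gl (lbMat q (some b)) • x) := by
  simp only [tr43_U, Finset.sum_apply, tr43_sl_apply]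

theorem tr43_T_add (ℓ : ℕ) (Φ Ψ : X → A) : tr43_T ℓ (Φ + Ψ) = tr43_T ℓ Φ + tr43_T ℓ Ψ := by
  simp only [tr43_T, tr43_sl_add, Finset.sum_add_distrib]

theorem tr43_U_add (q : ℕ) (Φ Ψ : X → A) : tr43_U q (Φ + Ψ) = tr43_U q Φ + tr43_U q Ψ := by
  simp only [tr43_U, tr43_sl_add, Finset.sum_add_distrib]

theorem tr43_T_neg (ℓ : ℕ) (Φ : X → A) : tr43_T ℓ (-Φ) = -tr43_T ℓ Φ := by
  simp only [tr43_T, tr43_sl_neg, Finset.sum_neg_distrib]

theorem tr43_U_neg (q : ℕ) (Φ : X → A) : tr43_U q (-Φ) = -tr43_U q Φ := by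
  simp only [tr43_U, tr43_sl_neg, Finset.sum_neg_distrib]

theorem tr43_T_zero (ℓ : ℕ) : tr43_T ℓ (0 : X → A) = 0 := by
  simp only [tr43_T, tr43_sl_zero, Finset.sum_const_zero]

theorem tr43_U_zero (q : ℕ) : tr43_U q (0 : X → A) = 0 := by
  simp only [tr43_U, tr43_sl_zero, Finset.sum_const_zero]

/-- `T_ℓ` preserves `Γ₀(N)`-invariance (`ℓ ∤ N`). -/
theorem tr43_T_Inv {N ℓ : ℕ} (hℓ : ℓ.Prime) (hℓN : ¬ ℓ ∣ N) {Φ : X → A} (hΦ : tr43_Inv N Φ) :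
    tr43_Inv N (tr43_T ℓ Φ) :=
  tr43_Inv_lbSys (lbSysT hℓ hℓN) hΦ

/-- `U_q` preserves `Γ₀(N)`-invariance (`q ∣ N`). -/
theorem tr43_U_Inv {N q : ℕ} (hq : q.Prime) (hqN : q ∣ N) {Φ : X → A} (hΦ : tr43_Inv N Φ) :
    tr43_Inv N (tr43_U q Φ) :=
  tr43_Inv_lbSys (lbSysU hq hqN) hΦ

end Additive

end Action

/-! ### the Atkin–Lehner matrix at `q` and the coset representatives of `Γ₀(Nq)` in `Γ₀(N)` -/

theorem tr43_smul_of (c a b d e : ℤ) :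
    c • (!![a, b; d, e] : Matrix (Fin 2) (Fin 2) ℤ) = !![c * a, c * b; c * d, c * e] := by
  ext i j
  fin_cases i <;> fin_cases j <;> simp

theorem tr43_mul_of (a b c d a' b' c' d' : ℤ) :
    (!![a, b; c, d] : Matrix (Fin 2) (Fin 2) ℤ) * !![a', b'; c', d']
      = !![a * a' + b * c', a * b' + b * d'; c * a' + d * c', c * b' + d * d'] := by
  ext i j
  fin_cases i <;> fin_cases j <;> simp [Matrix.mul_apply, Fin.sum_univ_two]

/-- Bézout data for the Atkin–Lehner matrix at `q`: `q x t - N y z = 1`. -/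
structure tr43_Data (N q : ℕ) where
  x : ℤ
  y : ℤ
  z : ℤ
  t : ℤ
  det : (q : ℤ) * x * t - (N : ℤ) * y * z = 1

theorem tr43_Data_exists {N q : ℕ} (h : Nat.Coprime q N) : Nonempty (tr43_Data N q) := by
  obtain ⟨u, v, huv⟩ : IsCoprime (q : ℤ) (N : ℤ) := Nat.isCoprime_iff_coprime.mpr h
  exact ⟨⟨u, -v, 1, 1, by linear_combination huv⟩⟩

namespace tr43_Data

variable {N q : ℕ} (D : tr43_Data N q)

/-- the Atkin–Lehner matrix `w = [[q x, y], [N q z, q t]]`, of determinant `q`. -/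
def w : Matrix (Fin 2) (Fin 2) ℤ := !![(q : ℤ) * D.x, D.y; (N : ℤ) * q * D.z, (q : ℤ) * D.t]

/-- the data of the adjugate of `w`. -/
def inv : tr43_Data N q := ⟨D.t, -D.y, -D.z, D.x, by linear_combination D.det⟩

/-- `γ_b = [[x, x b + y], [N z, N z b + q t]] ∈ Γ₀(N)`. -/
def gam (b : ℤ) : Gamma0 N :=
  lbMk N D.x (D.x * b + D.y) ((N : ℤ) * D.z) ((N : ℤ) * D.z * b + (q : ℤ) * D.t)
    (by linear_combination D.det) (dvd_mul_right _ _)

/-- `γ' = [[x, y], [N z, q t]] ∈ Γ₀(N)`, with `w = γ' diag(q, 1)`. -/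
def gam' : Gamma0 N :=
  lbMk N D.x D.y ((N : ℤ) * D.z) ((q : ℤ) * D.t) (by linear_combination D.det)
    (dvd_mul_right _ _)

/-- `η ∈ Γ₀(N q)` with `w ^ 2 = q η`. -/
def eta : Gamma0 (N * q) :=
  lbMk (N * q) ((q : ℤ) * D.x ^ 2 + (N : ℤ) * D.y * D.z) (D.y * (D.x + D.t))
    ((N : ℤ) * q * D.z * (D.x + D.t)) ((N : ℤ) * D.y * D.z + (q : ℤ) * D.t ^ 2)
    (by linear_combination ((q : ℤ) * D.x * D.t - (N : ℤ) * D.y * D.z + 1) * D.det)
    (by push_cast; exact ⟨D.z * (D.x + D.t), by ring⟩)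

/-- coset representatives of `Γ₀(N q)` in `Γ₀(N)`: `1` and the `γ_b`, `b` mod `q`. -/
def rep : Option (Fin q) → Gamma0 N
  | none => 1
  | some b => D.gam ((b : ℕ) : ℤ)

theorem w_det : D.w.det = q := by
  rw [w, Matrix.det_fin_two_of]
  linear_combination (q : ℤ) * D.det

theorem w_mul_beta (b : Fin q) :
    D.w * lbMat q (some b)
      = (q : ℤ) • ((D.gam ((b : ℕ) : ℤ) : SL(2, ℤ)) : Matrix (Fin 2) (Fin 2) ℤ) := by
  rw [w, lb_mul_some', gam, lbMk_coe, tr43_smul_of]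
  exact lb_mk_eq rfl (by ring) (by ring) (by ring)

theorem w_eq : D.w = ((D.gam' : SL(2, ℤ)) : Matrix (Fin 2) (Fin 2) ℤ) * lbMat q none := by
  rw [w, gam', lbMk_coe, lb_mul_none']
  exact lb_mk_eq (by ring) rfl (by ring) rfl

theorem w_mul_w :
    D.w * D.w = (q : ℤ) • ((D.eta : SL(2, ℤ)) : Matrix (Fin 2) (Fin 2) ℤ) := by
  rw [w, eta, lbMk_coe, tr43_smul_of, tr43_mul_of]
  exact lb_mk_eq (by ring) (by ring) (by ring) (by ring)

theorem w_mul_inv : D.w * D.inv.w = (q : ℤ) • (1 : Matrix (Fin 2) (Fin 2) ℤ) := by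
  have h := D.det
  have h1 : (1 : Matrix (Fin 2) (Fin 2) ℤ) = !![1, 0; 0, 1] := by
    ext i j
    fin_cases i <;> fin_cases j <;> simp
  rw [w, w, inv, h1, tr43_smul_of, tr43_mul_of]
  exact lb_mk_eq (by linear_combination (q : ℤ) * h) (by ring) (by ring)
    (by linear_combination (q : ℤ) * h)

theorem inv_inv : D.inv.inv = D := by
  cases D
  simp [inv]

theorem inv_mul_w : D.inv.w * D.w = (q : ℤ) • (1 : Matrix (Fin 2) (Fin 2) ℤ) := by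
  have := D.inv.w_mul_inv
  rwa [inv_inv] at this

theorem isCoprime (D : tr43_Data N q) : IsCoprime (N : ℤ) (q : ℤ) :=
  ⟨-(D.y * D.z), D.x * D.t, by linear_combination D.det⟩

theorem not_dvd_Nz (hq : q.Prime) : ¬ (q : ℤ) ∣ (N : ℤ) * D.z := by
  intro h
  have h1 : (q : ℤ) ∣ 1 := by
    have e : (1 : ℤ) = (q : ℤ) * (D.x * D.t) - (N : ℤ) * D.z * D.y := by
      linear_combination -D.det
    rw [e]
    exact dvd_sub (dvd_mul_right _ _) (Dvd.dvd.mul_right h _)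
  have := Int.le_of_dvd one_pos h1
  have := hq.two_le
  omega

/-- `w` normalises `Γ₀(N q)`. -/
theorem w_mul_Gamma0 (κ : Gamma0 (N * q)) :
    ∃ κ' : Gamma0 (N * q), D.w * ((κ : SL(2, ℤ)) : Matrix (Fin 2) (Fin 2) ℤ)
      = ((κ' : SL(2, ℤ)) : Matrix (Fin 2) (Fin 2) ℤ) * D.w := by
  have hdet := lb_sl_det (κ : SL(2, ℤ))
  have hc := lb_Gamma0_dvd κ
  have hg : ((κ : SL(2, ℤ)) : Matrix (Fin 2) (Fin 2) ℤ) = !![_, _; _, _] := Matrix.eta_fin_two _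
  generalize ((κ : SL(2, ℤ)) : Matrix (Fin 2) (Fin 2) ℤ) 0 0 = a at hdet hg
  generalize ((κ : SL(2, ℤ)) : Matrix (Fin 2) (Fin 2) ℤ) 0 1 = b at hdet hg
  generalize ((κ : SL(2, ℤ)) : Matrix (Fin 2) (Fin 2) ℤ) 1 0 = c at hdet hg hc
  generalize ((κ : SL(2, ℤ)) : Matrix (Fin 2) (Fin 2) ℤ) 1 1 = d at hdet hg
  obtain ⟨c', rfl⟩ := hc
  have h := D.det
  push_cast at hdet hg
  rw [hg]
  refine ⟨lbMk (N * q)
    (((q : ℤ) * D.x * a + D.y * ((N : ℤ) * q * c')) * D.t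
      - ((q : ℤ) * D.x * b + D.y * d) * ((N : ℤ) * D.z))
    (-(D.x * a * D.y) - D.y ^ 2 * (N : ℤ) * c' + (q : ℤ) * D.x ^ 2 * b + D.x * D.y * d)
    (((N * q : ℕ) : ℤ) * (D.z * a * D.t + (q : ℤ) * c' * D.t ^ 2 - (N : ℤ) * D.z ^ 2 * b
      - D.t * d * D.z))
    (-(((N : ℤ) * D.z * a + D.t * ((N : ℤ) * q * c')) * D.y)
      + ((N : ℤ) * D.z * b + D.t * d) * ((q : ℤ) * D.x)) ?_ (dvd_mul_right _ _), ?_⟩
  · push_cast
    linear_combination ((q : ℤ) * D.x * D.t - (N : ℤ) * D.y * D.z) ^ 2 * hdet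
      + ((q : ℤ) * D.x * D.t - (N : ℤ) * D.y * D.z + 1) * h
  · rw [lbMk_coe, w, tr43_mul_of, tr43_mul_of]
    push_cast
    refine lb_mk_eq ?_ ?_ ?_ ?_
    · linear_combination (-((q : ℤ) * D.x * a + D.y * ((N : ℤ) * q * c'))) * h
    · linear_combination (-((q : ℤ) * D.x * b + D.y * d)) * h
    · linear_combination (-((N : ℤ) * q * D.z * a + (q : ℤ) * D.t * ((N : ℤ) * q * c'))) * h
    · linear_combination (-((N : ℤ) * q * D.z * b + (q : ℤ) * D.t * d)) * h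

/-- every integer matrix with lower left entry divisible by `N` is `M' * r` with `r` one of
the representatives and the lower left entry of `M'` divisible by `N q`. -/
theorem rep_exists (hq : q.Prime) (M : Matrix (Fin 2) (Fin 2) ℤ) (hM : (N : ℤ) ∣ M 1 0) :
    ∃ (i : Option (Fin q)) (M' : Matrix (Fin 2) (Fin 2) ℤ),
      M = M' * ((D.rep i : SL(2, ℤ)) : Matrix (Fin 2) (Fin 2) ℤ)
        ∧ ((N * q : ℕ) : ℤ) ∣ M' 1 0 := by
  have h := D.det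
  by_cases hqc : (q : ℤ) ∣ M 1 0
  · refine ⟨none, M, ?_, ?_⟩
    · show M = M * ((1 : SL(2, ℤ)) : Matrix (Fin 2) (Fin 2) ℤ)
      rw [Matrix.SpecialLinearGroup.coe_one, mul_one]
    · push_cast
      exact D.isCoprime.mul_dvd hM hqc
  · obtain ⟨j, e, he⟩ := lb_exists_fin hq (M 1 0) (M 1 1) hqc
    have hg : M = !![_, _; _, _] := Matrix.eta_fin_two _
    generalize M 0 0 = a at hg
    generalize M 0 1 = b at hg
    generalize M 1 0 = c at hg hM he hqc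
    generalize M 1 1 = d at hg he
    obtain ⟨c'', rfl⟩ := hM
    refine ⟨some j,
      !![a * ((N : ℤ) * D.z * ((j : ℕ) : ℤ) + (q : ℤ) * D.t) - b * ((N : ℤ) * D.z),
        -(a * (D.x * ((j : ℕ) : ℤ) + D.y)) + b * D.x;
        (N : ℤ) * c'' * ((N : ℤ) * D.z * ((j : ℕ) : ℤ) + (q : ℤ) * D.t) - d * ((N : ℤ) * D.z),
        -((N : ℤ) * c'' * (D.x * ((j : ℕ) : ℤ) + D.y)) + d * D.x], ?_, ?_⟩
    · show _ = _ * ((D.gam ((j : ℕ) : ℤ) : SL(2, ℤ)) : Matrix (Fin 2) (Fin 2) ℤ)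
      rw [hg, gam, lbMk_coe, tr43_mul_of]
      refine lb_mk_eq ?_ ?_ ?_ ?_
      · linear_combination (-a) * h
      · linear_combination (-b) * h
      · linear_combination (-((N : ℤ) * c'')) * h
      · linear_combination (-d) * h
    · refine ⟨c'' * D.t - e * D.z, ?_⟩
      simp only [Matrix.of_apply, Matrix.cons_val_one, Matrix.cons_val_zero]
      push_cast
      linear_combination (-(N : ℤ) * D.z) * he

/-- the representatives lie in distinct cosets of `Γ₀(N q)`. -/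
theorem rep_unique (hq : q.Prime) (i j : Option (Fin q)) (K : Matrix (Fin 2) (Fin 2) ℤ)
    (hK : (q : ℤ) ∣ K 1 0)
    (hKr : ((D.rep i : SL(2, ℤ)) : Matrix (Fin 2) (Fin 2) ℤ)
      = K * ((D.rep j : SL(2, ℤ)) : Matrix (Fin 2) (Fin 2) ℤ)) : i = j := by
  have h := D.det
  have hNz := D.not_dvd_Nz hq
  have hg : K = !![_, _; _, _] := Matrix.eta_fin_two _
  generalize K 0 0 = k00 at hg
  generalize K 0 1 = k01 at hg
  generalize K 1 0 = k10 at hg hK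
  generalize K 1 1 = k11 at hg
  rcases i with _ | b <;> rcases j with _ | b'
  · rfl
  · exfalso
    have e : ((1 : SL(2, ℤ)) : Matrix (Fin 2) (Fin 2) ℤ)
        = K * ((D.gam ((b' : ℕ) : ℤ) : SL(2, ℤ)) : Matrix (Fin 2) (Fin 2) ℤ) := hKr
    have h1 : (1 : Matrix (Fin 2) (Fin 2) ℤ) = !![1, 0; 0, 1] := by
      ext i j
      fin_cases i <;> fin_cases j <;> simp
    rw [Matrix.SpecialLinearGroup.coe_one, h1, hg, gam, lbMk_coe, tr43_mul_of] at e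
    obtain ⟨-, -, e10, e11⟩ := lb_of_eq e
    have : k10 = -((N : ℤ) * D.z) := by
      linear_combination (-k10) * h - ((N : ℤ) * D.z * ((b' : ℕ) : ℤ) + (q : ℤ) * D.t) * e10
        + ((N : ℤ) * D.z) * e11
    rw [this] at hK
    exact hNz ((dvd_neg).mp hK)
  · exfalso
    have e : ((D.gam ((b : ℕ) : ℤ) : SL(2, ℤ)) : Matrix (Fin 2) (Fin 2) ℤ)
        = K * ((1 : SL(2, ℤ)) : Matrix (Fin 2) (Fin 2) ℤ) := hKr
    rw [Matrix.SpecialLinearGroup.coe_one, mul_one, hg, gam, lbMk_coe] at e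
    obtain ⟨-, -, e10, -⟩ := lb_of_eq e
    rw [← e10] at hK
    exact hNz hK
  · have e : ((D.gam ((b : ℕ) : ℤ) : SL(2, ℤ)) : Matrix (Fin 2) (Fin 2) ℤ)
        = K * ((D.gam ((b' : ℕ) : ℤ) : SL(2, ℤ)) : Matrix (Fin 2) (Fin 2) ℤ) := hKr
    rw [hg, gam, gam, lbMk_coe, lbMk_coe, tr43_mul_of] at e
    obtain ⟨-, -, e10, e11⟩ := lb_of_eq e
    have hk : k10 = ((N : ℤ) * D.z) * (((N : ℤ) * D.z) * (((b' : ℕ) : ℤ) - ((b : ℕ) : ℤ))) := by
      linear_combination (-k10) * h - ((N : ℤ) * D.z * ((b' : ℕ) : ℤ) + (q : ℤ) * D.t) * e10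
        + ((N : ℤ) * D.z) * e11
    rw [hk] at hK
    have hp : Prime (q : ℤ) := Nat.prime_iff_prime_int.mp hq
    have h2 : (q : ℤ) ∣ ((b' : ℕ) : ℤ) - ((b : ℕ) : ℤ) := by
      rcases hp.dvd_or_dvd hK with h3 | h3
      · exact absurd h3 hNz
      · rcases hp.dvd_or_dvd h3 with h4 | h4
        · exact absurd h4 hNz
        · exact h4
    have hb := b.2
    have hb' := b'.2
    have : (b : ℕ) = (b' : ℕ) := by
      obtain ⟨m, hm⟩ := h2
      have hm0 : m = 0 := by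
        by_contra hm0
        have h5 : (1 : ℤ) ≤ |m| := Int.one_le_abs hm0
        have habs : |((b' : ℕ) : ℤ) - ((b : ℕ) : ℤ)| = (q : ℤ) * |m| := by
          rw [hm, abs_mul, abs_of_nonneg (by positivity : (0 : ℤ) ≤ q)]
        have hlt : |((b' : ℕ) : ℤ) - ((b : ℕ) : ℤ)| < (q : ℤ) := by
          rw [abs_lt]; constructor <;> omega
        nlinarith
      rw [hm0, mul_zero] at hm
      omega
    exact congrArg some (Fin.ext this)

end tr43_Data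

/-- an element of `Γ₀(N)` from an integer matrix. -/
def tr43_mk (N : ℕ) (M : Matrix (Fin 2) (Fin 2) ℤ) (hdet : M.det = 1) (h : (N : ℤ) ∣ M 1 0) :
    Gamma0 N :=
  ⟨⟨M, hdet⟩, Gamma0_mem.mpr ((ZMod.intCast_zmod_eq_zero_iff_dvd _ N).mpr h)⟩

theorem tr43_mk_coe (N : ℕ) (M : Matrix (Fin 2) (Fin 2) ℤ) (hdet : M.det = 1)
    (h : (N : ℤ) ∣ M 1 0) :
    (((tr43_mk N M hdet h : Gamma0 N) : SL(2, ℤ)) : Matrix (Fin 2) (Fin 2) ℤ) = M := rfl

theorem tr43_sl_det_ne (γ : SL(2, ℤ)) : (γ : Matrix (Fin 2) (Fin 2) ℤ).det ≠ 0 := by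
  rw [γ.2]; exact one_ne_zero

theorem tr43_lbMat_det (ℓ : ℕ) (i : Option (Fin ℓ)) : (lbMat ℓ i).det = ℓ := by
  cases i <;> simp [lbMat, Matrix.det_fin_two_of]

theorem tr43_lbMat_det_ne {ℓ : ℕ} (hℓ : ℓ ≠ 0) (i : Option (Fin ℓ)) : (lbMat ℓ i).det ≠ 0 := by
  rw [tr43_lbMat_det]; exact_mod_cast hℓ

section Action2

variable {X : Type*} [MulAction (GL (Fin 2) ℚ) X] {A : Type*} [AddCommGroup A]
variable {N q : ℕ}

/-- the Atkin–Lehner operator `W_q`: `(W Φ)(x) = Φ (w x)`. -/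
noncomputable def tr43_W (D : tr43_Data N q) (Φ : X → A) : X → A := tr43_sl Φ D.w

/-- the trace from `Γ₀(N q)` to `Γ₀(N)`: sum over the `q + 1` coset representatives. -/
noncomputable def tr43_tr (D : tr43_Data N q) (Φ : X → A) : X → A :=
  ∑ i : Option (Fin q), tr43_sl Φ ((D.rep i : SL(2, ℤ)) : Matrix (Fin 2) (Fin 2) ℤ)

omit [AddCommGroup A] in
theorem tr43_W_apply (D : tr43_Data N q) (Φ : X → A) (x : X) :
    tr43_W D Φ x = Φ (tr43_gl D.w • x) := rfl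

theorem tr43_tr_apply (D : tr43_Data N q) (Φ : X → A) (x : X) :
    tr43_tr D Φ x = ∑ i : Option (Fin q),
      Φ (Matrix.SpecialLinearGroup.mapGL ℚ (D.rep i : SL(2, ℤ)) • x) := by
  simp only [tr43_tr, Finset.sum_apply, tr43_sl_apply, tr43_gl_sl]

theorem tr43_W_add (D : tr43_Data N q) (Φ Ψ : X → A) :
    tr43_W D (Φ + Ψ) = tr43_W D Φ + tr43_W D Ψ := rfl

theorem tr43_W_neg (D : tr43_Data N q) (Φ : X → A) : tr43_W D (-Φ) = -tr43_W D Φ := rfl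

theorem tr43_W_zero (D : tr43_Data N q) : tr43_W D (0 : X → A) = 0 := rfl

theorem tr43_tr_add (D : tr43_Data N q) (Φ Ψ : X → A) :
    tr43_tr D (Φ + Ψ) = tr43_tr D Φ + tr43_tr D Ψ := by
  simp only [tr43_tr, tr43_sl_add, Finset.sum_add_distrib]

theorem tr43_tr_neg (D : tr43_Data N q) (Φ : X → A) : tr43_tr D (-Φ) = -tr43_tr D Φ := by
  simp only [tr43_tr, tr43_sl_neg, Finset.sum_neg_distrib]

theorem tr43_tr_zero (D : tr43_Data N q) : tr43_tr D (0 : X → A) = 0 := by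
  simp only [tr43_tr, tr43_sl_zero, Finset.sum_const_zero]

/-- **Trace formula**: `tr Φ = Φ + U_q (W_q Φ)` (for every function `Φ`). -/
theorem tr43_tr_eq (hsc : tr43_ScalarTriv X) (hq : q ≠ 0) (D : tr43_Data N q) (Φ : X → A) :
    tr43_tr D Φ = Φ + tr43_U q (tr43_W D Φ) := by
  have hq' : (q : ℤ) ≠ 0 := by exact_mod_cast hq
  have hw : D.w.det ≠ 0 := by rw [D.w_det]; exact hq'
  rw [tr43_tr, Fintype.sum_option, tr43_U]
  congr 1
  · show tr43_sl Φ ((1 : SL(2, ℤ)) : Matrix (Fin 2) (Fin 2) ℤ) = Φ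
    rw [Matrix.SpecialLinearGroup.coe_one, tr43_sl_one]
  · refine Finset.sum_congr rfl fun b _ => ?_
    rw [tr43_W, tr43_sl_sl Φ hw (tr43_lbMat_det_ne hq _), D.w_mul_beta,
      tr43_sl_smul hsc Φ hq' (tr43_sl_det_ne _)]
    rfl

omit [AddCommGroup A] in
/-- `W_q` preserves `Γ₀(N q)`-invariance. -/
theorem tr43_W_Inv (hq : q ≠ 0) (D : tr43_Data N q) {Φ : X → A} (hΦ : tr43_Inv (N * q) Φ) :
    tr43_Inv (N * q) (tr43_W D Φ) := by
  have hq' : (q : ℤ) ≠ 0 := by exact_mod_cast hq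
  have hw : D.w.det ≠ 0 := by rw [D.w_det]; exact hq'
  rw [tr43_Inv_iff]
  intro κ
  obtain ⟨κ', hκ'⟩ := D.w_mul_Gamma0 κ
  rw [tr43_W, tr43_sl_sl Φ hw (tr43_sl_det_ne _), hκ', tr43_sl_Gamma0_mul hΦ _ hw]

omit [AddCommGroup A] in
/-- `W_q` is an involution on `Γ₀(N q)`-invariant functions. -/
theorem tr43_W_W (hsc : tr43_ScalarTriv X) (hq : q ≠ 0) (D : tr43_Data N q) {Φ : X → A}
    (hΦ : tr43_Inv (N * q) Φ) : tr43_W D (tr43_W D Φ) = Φ := by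
  have hq' : (q : ℤ) ≠ 0 := by exact_mod_cast hq
  have hw : D.w.det ≠ 0 := by rw [D.w_det]; exact hq'
  rw [tr43_W, tr43_W, tr43_sl_sl Φ hw hw, D.w_mul_w, tr43_sl_smul hsc Φ hq' (tr43_sl_det_ne _),
    tr43_sl_Gamma0 hΦ]

/-- the trace of a `Γ₀(N q)`-invariant function is `Γ₀(N)`-invariant. -/
theorem tr43_tr_Inv (hq : q.Prime) (D : tr43_Data N q) {Φ : X → A} (hΦ : tr43_Inv (N * q) Φ) :
    tr43_Inv N (tr43_tr D Φ) := by
  rw [tr43_Inv_iff]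
  intro g
  rw [tr43_tr, tr43_sl_sum]
  have h1 : ∀ i : Option (Fin q),
      tr43_sl (tr43_sl Φ ((D.rep i : SL(2, ℤ)) : Matrix (Fin 2) (Fin 2) ℤ))
        ((g : SL(2, ℤ)) : Matrix (Fin 2) (Fin 2) ℤ)
      = tr43_sl Φ (((D.rep i * g : Gamma0 N) : SL(2, ℤ)) : Matrix (Fin 2) (Fin 2) ℤ) := by
    intro i
    rw [tr43_sl_sl Φ (tr43_sl_det_ne _) (tr43_sl_det_ne _)]
    rfl
  rw [Finset.sum_congr rfl fun i _ => h1 i]
  refine tr43_sum_reindex hΦ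
    (fun i => (((D.rep i * g : Gamma0 N) : SL(2, ℤ)) : Matrix (Fin 2) (Fin 2) ℤ))
    (fun j => ((D.rep j : SL(2, ℤ)) : Matrix (Fin 2) (Fin 2) ℤ))
    (fun j => tr43_sl_det_ne _) ?_ ?_
  · intro i
    obtain ⟨j, M', hM', hdvd⟩ := D.rep_exists hq
      (((D.rep i * g : Gamma0 N) : SL(2, ℤ)) : Matrix (Fin 2) (Fin 2) ℤ)
      (lb_Gamma0_dvd (D.rep i * g))
    have hdet : M'.det = 1 := by
      have := congrArg Matrix.det hM'
      rw [Matrix.det_mul, ((D.rep i * g : Gamma0 N) : SL(2, ℤ)).2, (D.rep j : SL(2, ℤ)).2,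
        mul_one] at this
      exact this.symm
    exact ⟨j, tr43_mk (N * q) M' hdet hdvd, hM'⟩
  · intro i₁ i₂ j κ₁ κ₂ e₁ e₂
    have e₁' : ((D.rep i₁ * g : Gamma0 N) : SL(2, ℤ)) = (κ₁ : SL(2, ℤ)) * (D.rep j : SL(2, ℤ)) :=
      Subtype.ext e₁
    have e₂' : ((D.rep i₂ * g : Gamma0 N) : SL(2, ℤ)) = (κ₂ : SL(2, ℤ)) * (D.rep j : SL(2, ℤ)) :=
      Subtype.ext e₂
    have e₃ : (D.rep i₁ : SL(2, ℤ))
        = ((κ₁ * κ₂⁻¹ : Gamma0 (N * q)) : SL(2, ℤ)) * (D.rep i₂ : SL(2, ℤ)) := by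
      have a₁ : (D.rep i₁ : SL(2, ℤ)) = (κ₁ : SL(2, ℤ)) * (D.rep j : SL(2, ℤ)) * (g : SL(2, ℤ))⁻¹ := by
        rw [← e₁', Subgroup.coe_mul, mul_inv_cancel_right]
      have a₂ : (D.rep j : SL(2, ℤ)) = (κ₂ : SL(2, ℤ))⁻¹ * ((D.rep i₂ : SL(2, ℤ)) * (g : SL(2, ℤ))) := by
        rw [← Subgroup.coe_mul, e₂', inv_mul_cancel_left]
      rw [a₁, a₂, Subgroup.coe_mul, Subgroup.coe_inv]
      group
    refine D.rep_unique hq i₁ i₂ _ ?_ (congrArg Subtype.val e₃)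
    have := lb_Gamma0_dvd (κ₁ * κ₂⁻¹)
    exact (Int.natCast_dvd_natCast.mpr (dvd_mul_left q N)).trans this

/-- **Trace lemma** (symbol side): if `tr Φ = 0` and `tr (W_q Φ) = 0` then `U_q Φ = - W_q Φ`. -/
theorem tr43_U_eq_neg_W (hsc : tr43_ScalarTriv X) (hq : q ≠ 0) (D : tr43_Data N q) {Φ : X → A}
    (hΦ : tr43_Inv (N * q) Φ) (h2 : tr43_tr D (tr43_W D Φ) = 0) :
    tr43_U q Φ = -tr43_W D Φ := by
  rw [tr43_tr_eq hsc hq, tr43_W_W hsc hq D hΦ] at h2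
  exact (neg_eq_of_add_eq_zero_right h2).symm

/-- **Trace lemma** (symbol side): on the kernel of the two traces `U_q ^ 2 = 1`. -/
theorem tr43_U_U (hsc : tr43_ScalarTriv X) (hq : q ≠ 0) (D : tr43_Data N q) {Φ : X → A}
    (hΦ : tr43_Inv (N * q) Φ) (h1 : tr43_tr D Φ = 0) (h2 : tr43_tr D (tr43_W D Φ) = 0) :
    tr43_U q (tr43_U q Φ) = Φ := by
  rw [tr43_U_eq_neg_W hsc hq D hΦ h2, tr43_U_neg]
  rw [tr43_tr_eq hsc hq] at h1
  rw [← neg_eq_of_add_eq_zero_right h1, neg_neg]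

/-- `tr ∘ res = q + 1`. -/
theorem tr43_tr_res (D : tr43_Data N q) {φ : X → A} (hφ : tr43_Inv N φ) :
    tr43_tr D φ = (q + 1) • φ := by
  rw [tr43_tr, Finset.sum_congr rfl fun i _ => tr43_sl_Gamma0 hφ (D.rep i), Finset.sum_const,
    Finset.card_univ, Fintype.card_option, Fintype.card_fin]

/-- `tr ∘ W_q ∘ res = T_q`. -/
theorem tr43_tr_W_res (hsc : tr43_ScalarTriv X) (hq : q ≠ 0) (D : tr43_Data N q) {φ : X → A}
    (hφ : tr43_Inv N φ) : tr43_tr D (tr43_W D φ) = tr43_T q φ := by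
  have hφ' : tr43_Inv (N * q) φ := tr43_Inv_of_dvd (dvd_mul_right N q) hφ
  rw [tr43_tr_eq hsc hq, tr43_W_W hsc hq D hφ', tr43_T_eq, tr43_W, D.w_eq,
    tr43_sl_Gamma0_mul hφ _ (tr43_lbMat_det_ne hq _)]

end Action2

end Fermat.Agent.S41
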