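import Mathlib
import Fermat.Prelude.Def_ModularCurve_PeriodMap
import Fermat.Agent.S16.HeckeGamma0
import Fermat.Agent.S41.Trace43

/-!
# S41 / M1.N: the concrete symbol model and the map `ν : Symb → Hom(Γ₀(M), A)`

Concrete instance of the model-agnostic calculus of `Trace43`:
`X = OnePoint ℚ × OnePoint ℚ` (pairs of cusps, diagonal Möbius action of `GL(2, ℚ)`).
A *symbol* is a function `Φ : X → A` with `Φ (a, b) + Φ (b, c) = Φ (a, c)`.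

* `sc71_scalarTriv`  : scalars act trivially on `X` (hypothesis `tr43_ScalarTriv` of `Trace43`);
* `sc71_IsSymb.*`    : symbols are stable under `tr43_sl`, `tr43_T`, `tr43_U`, `tr43_W`, `tr43_tr`;
* `sc71_nu`          : `ν Φ γ = Φ (c, γ c)` (any cusp `c`), a homomorphism `Γ₀(M) → A`;
* `sc71_nu_T`, `sc71_nu_U` : `ν (T_ℓ Φ) = heckeHom M ℓ A (ν Φ)` (S16 Hecke operators on `Hom`);
* `sc71_nu_parabolic` : `ν Φ` is a parabolic homomorphism (Prelude `IsParabolicHom`);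
* `sc71_nu_eq_zero_iff` : `ν Φ = 0` iff `Φ` is a boundary symbol.
-/

set_option autoImplicit false

open Matrix MatrixGroups CongruenceSubgroup OnePoint
open Fermat.Agent.S16

namespace Fermat.Agent.S41

/-- pairs of cusps -/
abbrev sc71_X : Type := OnePoint ℚ × OnePoint ℚ

/-! ### scalars act trivially -/

theorem sc71_scalar_smul (c : ℚˣ) (x : OnePoint ℚ) :
    Matrix.GeneralLinearGroup.scalar (Fin 2) c • x = x := by
  have h00 : (Matrix.GeneralLinearGroup.scalar (Fin 2) c : GL (Fin 2) ℚ) 0 0 = c := by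
    simp [Matrix.GeneralLinearGroup.coe_scalar]
  have h01 : (Matrix.GeneralLinearGroup.scalar (Fin 2) c : GL (Fin 2) ℚ) 0 1 = 0 := by
    simp [Matrix.GeneralLinearGroup.coe_scalar]
  have h10 : (Matrix.GeneralLinearGroup.scalar (Fin 2) c : GL (Fin 2) ℚ) 1 0 = 0 := by
    simp [Matrix.GeneralLinearGroup.coe_scalar]
  have h11 : (Matrix.GeneralLinearGroup.scalar (Fin 2) c : GL (Fin 2) ℚ) 1 1 = c := by
    simp [Matrix.GeneralLinearGroup.coe_scalar]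
  induction x using OnePoint.rec with
  | infty => rw [OnePoint.smul_infty_eq_self_iff, h10]
  | coe t =>
    rw [OnePoint.smul_some_eq_ite, h00, h01, h10, h11]
    have hc : (c : ℚ) ≠ 0 := c.ne_zero
    rw [if_neg (by simp)]
    congr 1
    field_simp
    ring

theorem sc71_scalarTriv : tr43_ScalarTriv sc71_X := by
  intro c x
  obtain ⟨a, b⟩ := x
  rw [Prod.smul_mk, sc71_scalar_smul, sc71_scalar_smul]

/-! ### symbols -/

variable {A : Type*} [AddCommGroup A]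

/-- `Φ` is a (modular) symbol: additive in the pair of cusps. -/
def sc71_IsSymb (Φ : sc71_X → A) : Prop :=
  ∀ a b c : OnePoint ℚ, Φ (a, b) + Φ (b, c) = Φ (a, c)

theorem sc71_IsSymb.self {Φ : sc71_X → A} (h : sc71_IsSymb Φ) (a : OnePoint ℚ) :
    Φ (a, a) = 0 := by
  have := h a a a
  exact add_eq_left.mp this

theorem sc71_IsSymb.symm {Φ : sc71_X → A} (h : sc71_IsSymb Φ) (a b : OnePoint ℚ) :
    Φ (b, a) = -Φ (a, b) := by
  have := h a b a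
  rw [h.self] at this
  exact eq_neg_of_add_eq_zero_right this

theorem sc71_IsSymb.zero : sc71_IsSymb (0 : sc71_X → A) := fun _ _ _ => by simp

theorem sc71_IsSymb.add {Φ Ψ : sc71_X → A} (h : sc71_IsSymb Φ) (h' : sc71_IsSymb Ψ) :
    sc71_IsSymb (Φ + Ψ) := fun a b c => by
  simp only [Pi.add_apply]
  rw [← h a b c, ← h' a b c]
  abel

theorem sc71_IsSymb.neg {Φ : sc71_X → A} (h : sc71_IsSymb Φ) : sc71_IsSymb (-Φ) := fun a b c => by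
  simp only [Pi.neg_apply]
  rw [← h a b c]
  abel

theorem sc71_IsSymb.sub {Φ Ψ : sc71_X → A} (h : sc71_IsSymb Φ) (h' : sc71_IsSymb Ψ) :
    sc71_IsSymb (Φ - Ψ) := by
  rw [sub_eq_add_neg]
  exact h.add h'.neg

theorem sc71_IsSymb.zsmul {Φ : sc71_X → A} (h : sc71_IsSymb Φ) (n : ℤ) :
    sc71_IsSymb (n • Φ) := fun a b c => by
  simp only [Pi.smul_apply]
  rw [← h a b c, smul_add]

theorem sc71_IsSymb.sum {ι : Type*} (s : Finset ι) {F : ι → sc71_X → A}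
    (h : ∀ i ∈ s, sc71_IsSymb (F i)) : sc71_IsSymb (∑ i ∈ s, F i) := by
  classical
  induction s using Finset.induction_on with
  | empty => simpa using sc71_IsSymb.zero
  | insert i s hi ih =>
    rw [Finset.sum_insert hi]
    exact (h i (Finset.mem_insert_self i s)).add
      (ih fun j hj => h j (Finset.mem_insert_of_mem hj))

theorem sc71_IsSymb.sl {Φ : sc71_X → A} (h : sc71_IsSymb Φ) (M : Matrix (Fin 2) (Fin 2) ℤ) :
    sc71_IsSymb (tr43_sl Φ M) := fun a b c => by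
  simp only [tr43_sl_apply, Prod.smul_mk]
  exact h _ _ _

theorem sc71_IsSymb.T {Φ : sc71_X → A} (h : sc71_IsSymb Φ) (ℓ : ℕ) :
    sc71_IsSymb (tr43_T ℓ Φ) :=
  sc71_IsSymb.sum _ fun _ _ => h.sl _

theorem sc71_IsSymb.U {Φ : sc71_X → A} (h : sc71_IsSymb Φ) (q : ℕ) :
    sc71_IsSymb (tr43_U q Φ) :=
  sc71_IsSymb.sum _ fun _ _ => h.sl _

theorem sc71_IsSymb.W {N q : ℕ} (D : tr43_Data N q) {Φ : sc71_X → A} (h : sc71_IsSymb Φ) :
    sc71_IsSymb (tr43_W D Φ) := h.sl _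

theorem sc71_IsSymb.tr {N q : ℕ} (D : tr43_Data N q) {Φ : sc71_X → A} (h : sc71_IsSymb Φ) :
    sc71_IsSymb (tr43_tr D Φ) :=
  sc71_IsSymb.sum _ fun _ _ => h.sl _

/-- composition with a homomorphism of coefficient groups -/
theorem sc71_IsSymb.comp {B : Type*} [AddCommGroup B] {Φ : sc71_X → A} (h : sc71_IsSymb Φ)
    (f : A →+ B) : sc71_IsSymb (fun x => f (Φ x)) := fun a b c => by
  show f _ + f _ = f _
  rw [← map_add, h a b c]

/-! ### the period homomorphism `ν` -/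

omit [AddCommGroup A] in
/-- invariance in terms of the two cusps -/
theorem sc71_inv_apply {M : ℕ} {Φ : sc71_X → A} (hinv : tr43_Inv M Φ) (γ : Gamma0 M)
    (a b : OnePoint ℚ) :
    Φ (Matrix.SpecialLinearGroup.mapGL ℚ (γ : SL(2, ℤ)) • a,
      Matrix.SpecialLinearGroup.mapGL ℚ (γ : SL(2, ℤ)) • b) = Φ (a, b) := by
  have := hinv γ (a, b)
  rwa [Prod.smul_mk] at this

/-- `Φ (c, γ c)` does not depend on the cusp `c`. -/
theorem sc71_period_indep {M : ℕ} {Φ : sc71_X → A} (hΦ : sc71_IsSymb Φ) (hinv : tr43_Inv M Φ)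
    (γ : Gamma0 M) (c c' : OnePoint ℚ) :
    Φ (c, Matrix.SpecialLinearGroup.mapGL ℚ (γ : SL(2, ℤ)) • c) =
      Φ (c', Matrix.SpecialLinearGroup.mapGL ℚ (γ : SL(2, ℤ)) • c') := by
  set g := Matrix.SpecialLinearGroup.mapGL ℚ (γ : SL(2, ℤ)) with hg
  have h1 : Φ (c, g • c) = Φ (c, c') + Φ (c', g • c') + Φ (g • c', g • c) := by
    rw [hΦ c c' (g • c'), hΦ c (g • c') (g • c)]
  rw [h1, sc71_inv_apply hinv γ c' c, hΦ.symm c c']
  abel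

/-- the period homomorphism `ν Φ : Γ₀(M) → A`, `γ ↦ Φ (∞, γ ∞)`. -/
noncomputable def sc71_nu (M : ℕ) (Φ : sc71_X → A) (hΦ : sc71_IsSymb Φ) (hinv : tr43_Inv M Φ) :
    Additive (Gamma0 M) →+ A where
  toFun γ := Φ (∞, Matrix.SpecialLinearGroup.mapGL ℚ ((Additive.toMul γ : Gamma0 M) : SL(2, ℤ)) • ∞)
  map_zero' := by
    show Φ (∞, Matrix.SpecialLinearGroup.mapGL ℚ (((1 : Gamma0 M)) : SL(2, ℤ)) • ∞) = 0
    rw [Subgroup.coe_one, map_one, one_smul, hΦ.self]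
  map_add' := fun γ δ => by
    show Φ (∞, Matrix.SpecialLinearGroup.mapGL ℚ
        (((Additive.toMul γ * Additive.toMul δ : Gamma0 M)) : SL(2, ℤ)) • ∞) =
      Φ (∞, Matrix.SpecialLinearGroup.mapGL ℚ ((Additive.toMul γ : Gamma0 M) : SL(2, ℤ)) • ∞) +
      Φ (∞, Matrix.SpecialLinearGroup.mapGL ℚ ((Additive.toMul δ : Gamma0 M) : SL(2, ℤ)) • ∞)
    rw [Subgroup.coe_mul, map_mul, mul_smul,
      ← hΦ ∞ (Matrix.SpecialLinearGroup.mapGL ℚ ((Additive.toMul γ : Gamma0 M) : SL(2, ℤ)) • ∞) _,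
      sc71_inv_apply hinv]

theorem sc71_nu_apply {M : ℕ} {Φ : sc71_X → A} (hΦ : sc71_IsSymb Φ) (hinv : tr43_Inv M Φ)
    (γ : Gamma0 M) (c : OnePoint ℚ) :
    sc71_nu M Φ hΦ hinv (Additive.ofMul γ) =
      Φ (c, Matrix.SpecialLinearGroup.mapGL ℚ (γ : SL(2, ℤ)) • c) :=
  sc71_period_indep hΦ hinv γ ∞ c

/-- the "potential" relation: `Φ (c, γ x) = ν γ + Φ (c, x)`. -/
theorem sc71_nu_potential {M : ℕ} {Φ : sc71_X → A} (hΦ : sc71_IsSymb Φ) (hinv : tr43_Inv M Φ)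
    (γ : Gamma0 M) (c x : OnePoint ℚ) :
    Φ (c, Matrix.SpecialLinearGroup.mapGL ℚ (γ : SL(2, ℤ)) • x) =
      sc71_nu M Φ hΦ hinv (Additive.ofMul γ) + Φ (c, x) := by
  rw [sc71_nu_apply hΦ hinv γ c,
    ← hΦ c (Matrix.SpecialLinearGroup.mapGL ℚ (γ : SL(2, ℤ)) • c) _, sc71_inv_apply hinv]

/-- `ν Φ = 0` iff `Φ` is a boundary symbol, i.e. `x ↦ Φ (c, x)` is `Γ₀(M)`-invariant. -/
theorem sc71_nu_eq_zero_iff {M : ℕ} {Φ : sc71_X → A} (hΦ : sc71_IsSymb Φ) (hinv : tr43_Inv M Φ)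
    (c : OnePoint ℚ) :
    sc71_nu M Φ hΦ hinv = 0 ↔ ∀ (γ : Gamma0 M) (x : OnePoint ℚ),
      Φ (c, Matrix.SpecialLinearGroup.mapGL ℚ (γ : SL(2, ℤ)) • x) = Φ (c, x) := by
  constructor
  · intro h γ x
    rw [sc71_nu_potential hΦ hinv γ c x, h]
    simp
  · intro h
    refine AddMonoidHom.ext fun γ => ?_
    obtain ⟨γ, rfl⟩ := Additive.ofMul.surjective γ
    rw [sc71_nu_apply hΦ hinv γ c, h γ c, hΦ.self]
    rfl

/-! ### Hecke equivariance of `ν` (against the S16 operators on `Hom(Γ₀(M), A)`) -/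

theorem sc71_lbMat_eq (ℓ : ℕ) (i : Option (Fin ℓ)) : lbMat ℓ i = hh_repTInt ℓ i := by
  cases i <;> rfl

theorem sc71_lbMat_det (ℓ : ℕ) (i : Option (Fin ℓ)) : (lbMat ℓ i).det = ℓ := by
  cases i with
  | none => rw [lbMat_none, Matrix.det_fin_two_of]; ring
  | some j => rw [lbMat_some, Matrix.det_fin_two_of]; ring

/-- the general principle: for a system of representatives `R` (S16 `HeckeReps`) realised by
integer matrices `mat i`, the operator `Φ ↦ ∑ i, Φ ∘ mat i` on symbols corresponds under `ν`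
to the transfer operator `R.op` on homomorphisms. -/
theorem sc71_nu_op {M : ℕ} {ι : Type} [Fintype ι]
    (R : HeckeReps (Gamma0 M) (GL (Fin 2) ℝ) ι) (mat : ι → Matrix (Fin 2) (Fin 2) ℤ)
    (hdet : ∀ i, (mat i).det ≠ 0)
    (hint : ∀ (i : ι) (γ : Gamma0 M), mat i * ((γ : SL(2, ℤ)) : Matrix (Fin 2) (Fin 2) ℤ) =
      (((R.κ i γ : Gamma0 M) : SL(2, ℤ)) : Matrix (Fin 2) (Fin 2) ℤ) * mat (R.σ γ i))
    {Φ : sc71_X → A} (hΦ : sc71_IsSymb Φ) (hinv : tr43_Inv M Φ)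
    (hinv' : tr43_Inv M (∑ i, tr43_sl Φ (mat i))) :
    sc71_nu M (∑ i, tr43_sl Φ (mat i)) (sc71_IsSymb.sum _ fun _ _ => hΦ.sl _) hinv' =
      R.op A (sc71_nu M Φ hΦ hinv) := by
  refine AddMonoidHom.ext fun γ => ?_
  obtain ⟨γ, rfl⟩ := Additive.ofMul.surjective γ
  rw [HeckeReps.op_apply, sc71_nu_apply _ hinv' γ ∞]
  simp only [Finset.sum_apply, tr43_sl_apply, Prod.smul_mk]
  have key : ∀ i, tr43_gl (mat i) * Matrix.SpecialLinearGroup.mapGL ℚ (γ : SL(2, ℤ)) =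
      Matrix.SpecialLinearGroup.mapGL ℚ ((R.κ i γ : Gamma0 M) : SL(2, ℤ)) *
        tr43_gl (mat (R.σ γ i)) := by
    intro i
    have hγ : ((γ : SL(2, ℤ)) : Matrix (Fin 2) (Fin 2) ℤ).det ≠ 0 := by
      rw [(γ : SL(2, ℤ)).2]; exact one_ne_zero
    have hκ : (((R.κ i γ : Gamma0 M) : SL(2, ℤ)) : Matrix (Fin 2) (Fin 2) ℤ).det ≠ 0 := by
      rw [((R.κ i γ : Gamma0 M) : SL(2, ℤ)).2]; exact one_ne_zero
    rw [← tr43_gl_sl, ← tr43_gl_sl, ← tr43_gl_mul (hdet i) hγ, ← tr43_gl_mul hκ (hdet _), hint]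
  have h1 : ∀ i, Φ (tr43_gl (mat i) • (∞ : OnePoint ℚ),
      tr43_gl (mat i) • Matrix.SpecialLinearGroup.mapGL ℚ (γ : SL(2, ℤ)) • (∞ : OnePoint ℚ)) =
      sc71_nu M Φ hΦ hinv (Additive.ofMul (R.κ i γ)) +
        (Φ (∞, tr43_gl (mat (R.σ γ i)) • (∞ : OnePoint ℚ)) -
          Φ (∞, tr43_gl (mat i) • (∞ : OnePoint ℚ))) := by
    intro i
    rw [← mul_smul, key i, mul_smul, sc71_nu_potential hΦ hinv,
      ← hΦ (tr43_gl (mat i) • (∞ : OnePoint ℚ)) ∞ (tr43_gl (mat (R.σ γ i)) • (∞ : OnePoint ℚ)),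
      hΦ.symm ∞ (tr43_gl (mat i) • (∞ : OnePoint ℚ))]
    abel
  rw [Finset.sum_congr rfl fun i _ => h1 i, Finset.sum_add_distrib, Finset.sum_sub_distrib]
  have h2 : ∑ i, Φ (∞, tr43_gl (mat (R.σ γ i)) • (∞ : OnePoint ℚ)) =
      ∑ i, Φ (∞, tr43_gl (mat i) • (∞ : OnePoint ℚ)) :=
    Equiv.sum_comp (R.σEquiv γ) (fun j => Φ (∞, tr43_gl (mat j) • (∞ : OnePoint ℚ)))
  rw [h2, sub_self, add_zero]

/-- `ν (T_ℓ Φ) = T_ℓ (ν Φ)` for a prime `ℓ ∤ M`. -/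
theorem sc71_nu_T {M ℓ : ℕ} (hℓ : ℓ.Prime) (hℓM : ¬ ℓ ∣ M) {Φ : sc71_X → A}
    (hΦ : sc71_IsSymb Φ) (hinv : tr43_Inv M Φ) :
    sc71_nu M (tr43_T ℓ Φ) (hΦ.T ℓ) (tr43_T_Inv hℓ hℓM hinv) =
      heckeHom M ℓ A (sc71_nu M Φ hΦ hinv) := by
  rw [heckeHom_of_not_dvd hℓ hℓM]
  exact sc71_nu_op (hh_repsT M ℓ hℓ hℓM) (lbMat ℓ)
    (fun i => by rw [sc71_lbMat_det]; exact_mod_cast hℓ.ne_zero)
    (fun i γ => by
      rw [sc71_lbMat_eq, sc71_lbMat_eq]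
      exact hh_repsT_int M ℓ hℓ hℓM i γ) hΦ hinv (tr43_T_Inv hℓ hℓM hinv)

/-- `ν (U_q Φ) = U_q (ν Φ)` for a prime `q ∣ M`. -/
theorem sc71_nu_U {M q : ℕ} (hq : q.Prime) (hqM : q ∣ M) {Φ : sc71_X → A}
    (hΦ : sc71_IsSymb Φ) (hinv : tr43_Inv M Φ) :
    sc71_nu M (tr43_U q Φ) (hΦ.U q) (tr43_U_Inv hq hqM hinv) =
      heckeHom M q A (sc71_nu M Φ hΦ hinv) := by
  rw [heckeHom_of_dvd hq hqM]
  exact sc71_nu_op (hh_repsU M q hq hqM) (fun b => lbMat q (Option.some b))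
    (fun i => by rw [sc71_lbMat_det]; exact_mod_cast hq.ne_zero)
    (fun i γ => hh_repsU_int M q hq hqM i γ) hΦ hinv (tr43_U_Inv hq hqM hinv)

/-! ### `ν Φ` is parabolic -/

theorem sc71_mapGL_apply (γ : SL(2, ℤ)) (i j : Fin 2) :
    (Matrix.SpecialLinearGroup.mapGL ℚ γ : GL (Fin 2) ℚ) i j = ((γ i j : ℤ) : ℚ) := by
  simp [Matrix.SpecialLinearGroup.mapGL]

/-- an element of `SL(2, ℤ)` with `trace ^ 2 = 4` fixes a cusp. -/
theorem sc71_exists_fixed (γ : SL(2, ℤ))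
    (h : (γ : Matrix (Fin 2) (Fin 2) ℤ).trace ^ 2 = 4) :
    ∃ c : OnePoint ℚ, Matrix.SpecialLinearGroup.mapGL ℚ γ • c = c := by
  have hdet : (γ 0 0 : ℤ) * γ 1 1 - γ 0 1 * γ 1 0 = 1 := by
    have := γ.det_coe
    rwa [Matrix.det_fin_two] at this
  have htr : ((γ 0 0 : ℤ) + γ 1 1) ^ 2 = 4 := by
    rwa [Matrix.trace_fin_two] at h
  have hdetQ : ((γ 0 0 : ℤ) : ℚ) * (γ 1 1 : ℤ) - (γ 0 1 : ℤ) * (γ 1 0 : ℤ) = 1 := by
    exact_mod_cast hdet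
  have htrQ : (((γ 0 0 : ℤ) : ℚ) + (γ 1 1 : ℤ)) ^ 2 = 4 := by exact_mod_cast htr
  by_cases h10 : (γ 1 0 : ℤ) = 0
  · refine ⟨∞, ?_⟩
    rw [OnePoint.smul_infty_eq_self_iff, sc71_mapGL_apply, h10, Int.cast_zero]
  · have h10Q : ((γ 1 0 : ℤ) : ℚ) ≠ 0 := by exact_mod_cast h10
    have hsum : ((γ 0 0 : ℤ) : ℚ) + (γ 1 1 : ℤ) ≠ 0 := by
      intro h0
      rw [h0] at htrQ
      norm_num at htrQ
    refine ⟨((((γ 0 0 : ℤ) : ℚ) - (γ 1 1 : ℤ)) / (2 * (γ 1 0 : ℤ)) : ℚ), ?_⟩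
    rw [OnePoint.smul_some_eq_ite, sc71_mapGL_apply, sc71_mapGL_apply, sc71_mapGL_apply,
      sc71_mapGL_apply]
    have hden : ((γ 1 0 : ℤ) : ℚ) * ((((γ 0 0 : ℤ) : ℚ) - (γ 1 1 : ℤ)) / (2 * (γ 1 0 : ℤ))) +
        (γ 1 1 : ℤ) = (((γ 0 0 : ℤ) : ℚ) + (γ 1 1 : ℤ)) / 2 := by
      field_simp
      ring
    rw [if_neg (by rw [hden]; exact div_ne_zero hsum two_ne_zero), hden]
    congr 1
    rw [div_eq_iff (div_ne_zero hsum two_ne_zero)]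
    have hpoly : (((γ 0 0 : ℤ) : ℚ) - (γ 1 1 : ℤ)) ^ 2 + 4 * ((γ 0 1 : ℤ) * (γ 1 0 : ℤ)) = 0 := by
      linear_combination htrQ - 4 * hdetQ
    field_simp
    linear_combination hpoly

/-- `ν Φ` kills every `γ ∈ Γ₀(M)` with `trace ^ 2 = 4`. -/
theorem sc71_nu_parabolic {M : ℕ} {Φ : sc71_X → A} (hΦ : sc71_IsSymb Φ) (hinv : tr43_Inv M Φ) :
    ModularCurve.Period.IsParabolicHom (Gamma0 M) (sc71_nu M Φ hΦ hinv) := by
  intro γ hγ
  obtain ⟨c, hc⟩ := sc71_exists_fixed (γ : SL(2, ℤ)) hγ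
  rw [sc71_nu_apply hΦ hinv γ c, hc, hΦ.self]

end Fermat.Agent.S41
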