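/-
S41 / M3 (helper96): the universal property of `PSL(2, ℤ) = C₂ * C₃`, stated for `SL(2, ℤ)`:
for every group `H` and `s u : H` with `s ^ 2 = 1`, `u ^ 3 = 1` there is a homomorphism
`SL(2, ℤ) →* H` with `S ↦ s` and `S * T ↦ u`.

Proof: ping-pong for the Möbius action on `OnePoint ℚ` (sets `{x > 0}`, `{x < 0}`), Mathlib's
`Monoid.CoprodI.lift_injective_of_ping_pong`, and `SL2Z_generators`.
-/
import Mathlib

set_option autoImplicit false

open scoped MatrixGroups Pointwise
open ModularGroup OnePoint Matrix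

namespace Fermat.Agent.S41

noncomputable section

/-- The homomorphism from the cyclic group of order `n` sending the generator to `g`. -/
def psl96_cyc {G : Type*} [Group G] (n : ℕ) (g : G) (hg : g ^ n = 1) :
    Multiplicative (ZMod n) →* G :=
  AddMonoidHom.toMultiplicativeLeft
    (ZMod.lift n ⟨zmultiplesHom (Additive G) (Additive.ofMul g), by
      simp [← ofMul_pow, hg]⟩)

theorem psl96_cyc_natCast {G : Type*} [Group G] (n : ℕ) (g : G) (hg : g ^ n = 1) (k : ℕ) :
    psl96_cyc n g hg (Multiplicative.ofAdd (k : ZMod n)) = g ^ k := by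
  have h := ZMod.lift_coe n ⟨zmultiplesHom (Additive G) (Additive.ofMul g), by
      simp [← ofMul_pow, hg]⟩ (k : ℤ)
  simp only [Int.cast_natCast] at h
  simp [psl96_cyc, h]

/-- The Möbius action of `SL(2, ℤ)` on `OnePoint ℚ` as a homomorphism to permutations. -/
def psl96_rho : SL(2, ℤ) →* Equiv.Perm (OnePoint ℚ) :=
  (MulAction.toPermHom (GL (Fin 2) ℚ) (OnePoint ℚ)).comp (SpecialLinearGroup.mapGL ℚ)

theorem psl96_rho_coe (g : SL(2, ℤ)) (q : ℚ) :
    psl96_rho g (q : OnePoint ℚ) =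
      if (g 1 0 : ℚ) * q + (g 1 1 : ℚ) = 0 then ∞
      else (((g 0 0 : ℚ) * q + (g 0 1 : ℚ)) / ((g 1 0 : ℚ) * q + (g 1 1 : ℚ)) : ℚ) := by
  simp [psl96_rho, MulAction.toPermHom_apply, OnePoint.smul_some_eq_ite]

theorem psl96_rho_infty (g : SL(2, ℤ)) :
    psl96_rho g (∞ : OnePoint ℚ) =
      if (g 1 0 : ℚ) = 0 then ∞ else (((g 0 0 : ℚ) / (g 1 0 : ℚ) : ℚ) : OnePoint ℚ) := by
  simp [psl96_rho, MulAction.toPermHom_apply, OnePoint.smul_infty_eq_ite]

theorem psl96_S_sq : (S : SL(2, ℤ)) ^ 2 = -1 := by decide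

theorem psl96_U_cube : (S * T : SL(2, ℤ)) ^ 3 = -1 := by decide

theorem psl96_rho_neg_one : psl96_rho (-1) = 1 := by
  ext x
  induction x using OnePoint.rec with
  | infty => simp [psl96_rho_infty]
  | coe q => simp [psl96_rho_coe]

theorem psl96_rho_S_sq : psl96_rho S ^ 2 = 1 := by
  rw [← map_pow, psl96_S_sq, psl96_rho_neg_one]

theorem psl96_rho_U_cube : psl96_rho (S * T) ^ 3 = 1 := by
  rw [← map_pow, psl96_U_cube, psl96_rho_neg_one]

theorem psl96_S_entries : ((S : SL(2, ℤ)) 0 0 = 0) ∧ ((S : SL(2, ℤ)) 0 1 = -1) ∧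
    ((S : SL(2, ℤ)) 1 0 = 1) ∧ ((S : SL(2, ℤ)) 1 1 = 0) := by decide

theorem psl96_U_entries : ((S * T : SL(2, ℤ)) 0 0 = 0) ∧ ((S * T : SL(2, ℤ)) 0 1 = -1) ∧
    ((S * T : SL(2, ℤ)) 1 0 = 1) ∧ ((S * T : SL(2, ℤ)) 1 1 = 1) := by decide

theorem psl96_U2_entries : (((S * T) ^ 2 : SL(2, ℤ)) 0 0 = -1) ∧
    (((S * T) ^ 2 : SL(2, ℤ)) 0 1 = -1) ∧
    (((S * T) ^ 2 : SL(2, ℤ)) 1 0 = 1) ∧ (((S * T) ^ 2 : SL(2, ℤ)) 1 1 = 0) := by decide

theorem psl96_rho_S_coe {q : ℚ} (hq : q ≠ 0) :
    psl96_rho S (q : OnePoint ℚ) = ((-1 / q : ℚ) : OnePoint ℚ) := by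
  obtain ⟨h00, h01, h10, h11⟩ := psl96_S_entries
  rw [psl96_rho_coe, h00, h01, h10, h11]
  simp [hq]

theorem psl96_rho_U_coe {q : ℚ} (hq : q + 1 ≠ 0) :
    psl96_rho (S * T) (q : OnePoint ℚ) = ((-1 / (q + 1) : ℚ) : OnePoint ℚ) := by
  obtain ⟨h00, h01, h10, h11⟩ := psl96_U_entries
  rw [psl96_rho_coe, h00, h01, h10, h11]
  simp [hq]

theorem psl96_rho_U2_coe {q : ℚ} (hq : q ≠ 0) :
    psl96_rho ((S * T) ^ 2) (q : OnePoint ℚ) = (((-q - 1) / q : ℚ) : OnePoint ℚ) := by
  obtain ⟨h00, h01, h10, h11⟩ := psl96_U2_entries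
  rw [psl96_rho_coe, h00, h01, h10, h11]
  simp [hq]
  ring

/-- orders of the two cyclic factors -/
def psl96_n : Bool → ℕ := fun b => cond b 3 2

/-- the two generating permutations -/
def psl96_sig : Bool → Equiv.Perm (OnePoint ℚ) :=
  fun b => cond b (psl96_rho (S * T)) (psl96_rho S)

theorem psl96_sig_pow (b : Bool) : psl96_sig b ^ psl96_n b = 1 := by
  cases b
  · exact psl96_rho_S_sq
  · exact psl96_rho_U_cube

/-- the two cyclic factors -/
abbrev psl96_H (b : Bool) : Type := Multiplicative (ZMod (psl96_n b))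

/-- the two homomorphisms to permutations -/
def psl96_f (b : Bool) : psl96_H b →* Equiv.Perm (OnePoint ℚ) :=
  psl96_cyc (psl96_n b) (psl96_sig b) (psl96_sig_pow b)

/-- the ping-pong sets: positive rationals (for `S`), negative rationals (for `S * T`) -/
def psl96_X : Bool → Set (OnePoint ℚ) :=
  fun b => cond b {x | ∃ q : ℚ, q < 0 ∧ x = (q : OnePoint ℚ)}
    {x | ∃ q : ℚ, 0 < q ∧ x = (q : OnePoint ℚ)}

theorem psl96_pp_S : psl96_rho S • psl96_X true ⊆ psl96_X false := by
  rintro _ ⟨x, ⟨q, hq, rfl⟩, rfl⟩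
  refine ⟨-1 / q, ?_, ?_⟩
  · exact div_pos_of_neg_of_neg (by norm_num) hq
  · exact psl96_rho_S_coe hq.ne

theorem psl96_pp_U : psl96_rho (S * T) • psl96_X false ⊆ psl96_X true := by
  rintro _ ⟨x, ⟨q, hq, rfl⟩, rfl⟩
  refine ⟨-1 / (q + 1), ?_, ?_⟩
  · exact div_neg_of_neg_of_pos (by norm_num) (by linarith)
  · exact psl96_rho_U_coe (by linarith)

theorem psl96_pp_U2 : psl96_rho ((S * T) ^ 2) • psl96_X false ⊆ psl96_X true := by
  rintro _ ⟨x, ⟨q, hq, rfl⟩, rfl⟩
  refine ⟨(-q - 1) / q, ?_, ?_⟩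
  · exact div_neg_of_neg_of_pos (by linarith) hq
  · exact psl96_rho_U2_coe hq.ne'

theorem psl96_f_false (h : Multiplicative (ZMod 2)) (hh : h ≠ 1) :
    psl96_f false h = psl96_rho S := by
  have key : ∀ a : ZMod 2, Multiplicative.ofAdd a ≠ 1 →
      psl96_f false (Multiplicative.ofAdd a) = psl96_rho S := by
    intro a ha
    fin_cases a
    · exact absurd rfl ha
    · have h1 := psl96_cyc_natCast 2 (psl96_sig false) (psl96_sig_pow false) 1
      rw [pow_one, Nat.cast_one] at h1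
      exact h1
  exact key (Multiplicative.toAdd h) hh

theorem psl96_f_true (h : Multiplicative (ZMod 3)) (hh : h ≠ 1) :
    psl96_f true h = psl96_rho (S * T) ∨ psl96_f true h = psl96_rho ((S * T) ^ 2) := by
  have key : ∀ a : ZMod 3, Multiplicative.ofAdd a ≠ 1 →
      (psl96_f true (Multiplicative.ofAdd a) = psl96_rho (S * T) ∨
        psl96_f true (Multiplicative.ofAdd a) = psl96_rho ((S * T) ^ 2)) := by
    intro a ha
    fin_cases a
    · exact absurd rfl ha
    · left
      have h1 := psl96_cyc_natCast 3 (psl96_sig true) (psl96_sig_pow true) 1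
      rw [pow_one, Nat.cast_one] at h1
      exact h1
    · right
      have h1 := psl96_cyc_natCast 3 (psl96_sig true) (psl96_sig_pow true) 2
      rw [map_pow]
      exact h1
  exact key (Multiplicative.toAdd h) hh

theorem psl96_gen2_ne : Multiplicative.ofAdd (1 : ZMod 2) ≠ 1 := by decide

theorem psl96_lift_injective : Function.Injective (Monoid.CoprodI.lift psl96_f) := by
  refine Monoid.CoprodI.lift_injective_of_ping_pong psl96_f (Or.inr ⟨true, ?_⟩) psl96_X ?_ ?_ ?_
  · show (3 : Cardinal) ≤ Cardinal.mk (Multiplicative (ZMod 3))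
    rw [Cardinal.mk_fintype]
    simp
  · intro b
    cases b
    · exact ⟨((1 : ℚ) : OnePoint ℚ), 1, one_pos, rfl⟩
    · exact ⟨((-1 : ℚ) : OnePoint ℚ), -1, by norm_num, rfl⟩
  · intro i j hij
    have key : Disjoint (psl96_X false) (psl96_X true) := by
      rw [Set.disjoint_left]
      rintro x ⟨q, hq, rfl⟩ ⟨q', hq', h⟩
      have : q = q' := OnePoint.coe_injective h
      linarith
    cases i <;> cases j
    · exact absurd rfl hij
    · exact key
    · exact key.symm
    · exact absurd rfl hij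
  · intro i j hij h hh
    cases i <;> cases j
    · exact absurd rfl hij
    · rw [psl96_f_false h hh]
      exact psl96_pp_S
    · rcases psl96_f_true h hh with h1 | h1
      · rw [h1]
        exact psl96_pp_U
      · rw [h1]
        exact psl96_pp_U2
    · exact absurd rfl hij

/-- **Universal property of `PSL(2, ℤ) = C₂ * C₃`** (stated on `SL(2, ℤ)`). -/
theorem psl96_univ {H : Type*} [Group H] (s u : H) (hs : s ^ 2 = 1) (hu : u ^ 3 = 1) :
    ∃ f : SL(2, ℤ) →* H, f S = s ∧ f (S * T) = u := by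
  classical
  let τ : Bool → H := fun b => cond b u s
  have hτ : ∀ b, τ b ^ psl96_n b = 1 := by
    intro b
    cases b
    · exact hs
    · exact hu
  let ψ : ∀ b, psl96_H b →* H := fun b => psl96_cyc (psl96_n b) (τ b) (hτ b)
  let L := Monoid.CoprodI.lift psl96_f
  let e := MonoidHom.ofInjective psl96_lift_injective
  have hS : psl96_rho S = L (Monoid.CoprodI.of (i := false) (Multiplicative.ofAdd (1 : ZMod 2))) := by
    show psl96_rho S = Monoid.CoprodI.lift psl96_f _
    rw [Monoid.CoprodI.lift_of]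
    exact (psl96_f_false _ psl96_gen2_ne).symm
  have hU : psl96_rho (S * T) =
      L (Monoid.CoprodI.of (i := true) (Multiplicative.ofAdd (1 : ZMod 3))) := by
    show psl96_rho (S * T) = Monoid.CoprodI.lift psl96_f _
    rw [Monoid.CoprodI.lift_of]
    have h1 := psl96_cyc_natCast 3 (psl96_sig true) (psl96_sig_pow true) 1
    rw [pow_one, Nat.cast_one] at h1
    exact h1.symm
  have hrange : ∀ g : SL(2, ℤ), psl96_rho g ∈ L.range := by
    intro g
    have hle : Subgroup.closure ({S, T} : Set SL(2, ℤ)) ≤ L.range.comap psl96_rho := by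
      rw [Subgroup.closure_le]
      rintro x (rfl | rfl)
      · exact ⟨_, hS.symm⟩
      · show psl96_rho T ∈ L.range
        have hT : (T : SL(2, ℤ)) = S⁻¹ * (S * T) := by group
        rw [hT, map_mul, map_inv]
        exact mul_mem (inv_mem ⟨_, hS.symm⟩) ⟨_, hU.symm⟩
    exact hle (by rw [SpecialLinearGroup.SL2Z_generators]; trivial)
  let ρ' : SL(2, ℤ) →* L.range := psl96_rho.codRestrict L.range hrange
  refine ⟨(Monoid.CoprodI.lift ψ).comp (e.symm.toMonoidHom.comp ρ'), ?_, ?_⟩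
  · have h1 : ρ' S = e (Monoid.CoprodI.of (i := false) (Multiplicative.ofAdd (1 : ZMod 2))) :=
      Subtype.ext hS
    show Monoid.CoprodI.lift ψ (e.symm (ρ' S)) = s
    rw [h1, MulEquiv.symm_apply_apply, Monoid.CoprodI.lift_of]
    have h2 := psl96_cyc_natCast 2 (τ false) (hτ false) 1
    rw [pow_one, Nat.cast_one] at h2
    exact h2
  · have h1 : ρ' (S * T) =
        e (Monoid.CoprodI.of (i := true) (Multiplicative.ofAdd (1 : ZMod 3))) :=
      Subtype.ext hU
    show Monoid.CoprodI.lift ψ (e.symm (ρ' (S * T))) = u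
    rw [h1, MulEquiv.symm_apply_apply, Monoid.CoprodI.lift_of]
    have h2 := psl96_cyc_natCast 3 (τ true) (hτ true) 1
    rw [pow_one, Nat.cast_one] at h2
    exact h2

/-- Two homomorphisms from `SL(2, ℤ)` agreeing on `S` and `S * T` are equal. -/
theorem psl96_hom_ext {H : Type*} [Group H] (f g : SL(2, ℤ) →* H) (hS : f S = g S)
    (hU : f (S * T) = g (S * T)) : f = g := by
  have hT : f T = g T := by
    have h1 : (T : SL(2, ℤ)) = S⁻¹ * (S * T) := by group
    calc f T = (f S)⁻¹ * f (S * T) := by rw [← map_inv, ← map_mul, ← h1]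
      _ = (g S)⁻¹ * g (S * T) := by rw [hS, hU]
      _ = g T := by rw [← map_inv, ← map_mul, ← h1]
  have hle : Subgroup.closure ({S, T} : Set SL(2, ℤ)) ≤ MonoidHom.eqLocus f g := by
    rw [Subgroup.closure_le]
    rintro x (rfl | rfl)
    · exact hS
    · exact hT
  ext1 x
  exact hle (by rw [SpecialLinearGroup.SL2Z_generators]; trivial)

end

end Fermat.Agent.S41

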