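/-
S41 / M1.L (helper10).  Lattice facts for modular symbols, model-agnostic.

`X` is any model of `ℙ¹(ℚ)`: a type on which a group `G` (in use: `SL(2, ℤ)`) acts through
`ρ : G →* Equiv.Perm X`.  `S T : G` generate `G`, `T` fixes the base point `c`, the action is
transitive, and `Γ ≤ G` has finite index.  A *symbol* is a function `φ : X → X → A` with
`φ a b + φ b c = φ a c` which is invariant under `Γ`.

* `sl10_mem_of_edges`     : Manin generation: the values of a symbol lie in every subgroup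
                            containing the "edge values" `φ (h c) (h S c)`, `h : G`.
* `sl10_mem_closure`      : for a `Γ`-invariant symbol finitely many edges suffice.
* `sl10_eq_zero_of_edges` : a symbol vanishing on these finitely many edges is zero.
* `sl10_exists_decomp`    : a symbol with values in a torsion-free group is a finite sum
                            `∑ k, ψ k a b • m k` with integer valued symbols `ψ k`.
* `sl10_symb`, `sl10_int` : the `K`-space of `K`-valued symbols, the `ℤ`-lattice of integer valued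
                            ones; `sl10_int_fg`, `sl10_span_int`.
* `sl10_latt`             : the same lattice inside the symbol space itself; `sl10_latt_fg`,
                            `sl10_span_latt : span K L = ⊤`.
-/
import Mathlib

set_option autoImplicit false

namespace Fermat.Agent.S41

section Basic

variable {G : Type*} [Group G] {X : Type*} {A : Type*} [AddCommGroup A]

/-- `φ` is additive: `φ a b + φ b c = φ a c`. -/
def sl10_IsAdd (φ : X → X → A) : Prop := ∀ a b c, φ a b + φ b c = φ a c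

/-- `φ` is invariant under the subgroup `Γ` acting on `X` through `ρ`. -/
def sl10_IsInv (ρ : G →* Equiv.Perm X) (Γ : Subgroup G) (φ : X → X → A) : Prop :=
  ∀ g ∈ Γ, ∀ a b, φ (ρ g a) (ρ g b) = φ a b

theorem sl10_IsAdd.self {φ : X → X → A} (h : sl10_IsAdd φ) (a : X) : φ a a = 0 := by
  have := h a a a
  exact add_eq_left.mp this

theorem sl10_IsAdd.symm {φ : X → X → A} (h : sl10_IsAdd φ) (a b : X) : φ b a = - φ a b := by
  have h1 := h a b a
  rw [h.self] at h1
  exact eq_neg_of_add_eq_zero_right h1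

/-- **Manin generation.**  If `S`, `T` generate `G` and `T` fixes `c`, then all values
`φ (g c) (g' c)` of an additive `φ` lie in any subgroup containing the edge values
`φ (h c) (h S c)`. -/
theorem sl10_mem_of_edges (ρ : G →* Equiv.Perm X) {S T : G}
    (hgen : Subgroup.closure ({S, T} : Set G) = ⊤) {c : X} (hT : ρ T c = c)
    {φ : X → X → A} (hφ : sl10_IsAdd φ) (H : AddSubgroup A)
    (hH : ∀ h : G, φ (ρ h c) (ρ (h * S) c) ∈ H) (g g' : G) :
    φ (ρ g c) (ρ g' c) ∈ H := by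
  have key : ∀ k : G, ∀ h : G, φ (ρ h c) (ρ (h * k) c) ∈ H := by
    intro k
    have hk : k ∈ Subgroup.closure ({S, T} : Set G) := by rw [hgen]; trivial
    induction hk using Subgroup.closure_induction with
    | mem x hx =>
      intro h
      rcases hx with rfl | hx
      · exact hH h
      · have hx' : x = T := hx
        subst hx'
        rw [map_mul, Equiv.Perm.mul_apply, hT, hφ.self]
        exact H.zero_mem
    | one =>
      intro h
      rw [mul_one, hφ.self]
      exact H.zero_mem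
    | mul x y _ _ hx hy =>
      intro h
      rw [← hφ (ρ h c) (ρ (h * x) c) (ρ (h * (x * y)) c), ← mul_assoc]
      exact H.add_mem (hx h) (hy (h * x))
    | inv x _ hx =>
      intro h
      rw [hφ.symm]
      have := hx (h * x⁻¹)
      rw [inv_mul_cancel_right] at this
      exact H.neg_mem this
  have := key (g⁻¹ * g') g
  rwa [mul_inv_cancel_left] at this

/-- A set of representatives `f` such that every `h : G` is `γ * f` with `γ ∈ Γ`. -/
def sl10_reps (Γ : Subgroup G) : Set G := Set.range (fun q : G ⧸ Γ => (q.out)⁻¹)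

theorem sl10_reps_finite (Γ : Subgroup G) [Finite (G ⧸ Γ)] : (sl10_reps Γ).Finite :=
  Set.finite_range _

theorem sl10_exists_rep (Γ : Subgroup G) (h : G) :
    ∃ f ∈ sl10_reps Γ, ∃ γ ∈ Γ, h = γ * f := by
  refine ⟨((h⁻¹ : G) : G ⧸ Γ).out⁻¹, ⟨_, rfl⟩, h * ((h⁻¹ : G) : G ⧸ Γ).out, ?_, by group⟩
  have h1 : (((h⁻¹ : G) : G ⧸ Γ).out : G ⧸ Γ) = ((h⁻¹ : G) : G ⧸ Γ) := Quotient.out_eq' _
  have h2 := QuotientGroup.eq.mp h1
  have h3 := Γ.inv_mem h2
  have e : (((h⁻¹ : G) : G ⧸ Γ).out⁻¹ * h⁻¹)⁻¹ = h * ((h⁻¹ : G) : G ⧸ Γ).out := by group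
  rwa [e] at h3

/-- The finitely many edge values of `φ`. -/
def sl10_edges (ρ : G →* Equiv.Perm X) (Γ : Subgroup G) (S : G) (c : X) (φ : X → X → A) : Set A :=
  (fun f => φ (ρ f c) (ρ (f * S) c)) '' sl10_reps Γ

theorem sl10_edges_finite (ρ : G →* Equiv.Perm X) (Γ : Subgroup G) [Finite (G ⧸ Γ)] (S : G)
    (c : X) (φ : X → X → A) : (sl10_edges ρ Γ S c φ).Finite :=
  (sl10_reps_finite Γ).image _

theorem sl10_edge_eq (ρ : G →* Equiv.Perm X) (Γ : Subgroup G) (S : G) (c : X)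
    {φ : X → X → A} (hinv : sl10_IsInv ρ Γ φ) (h : G) :
    ∃ f ∈ sl10_reps Γ, φ (ρ h c) (ρ (h * S) c) = φ (ρ f c) (ρ (f * S) c) := by
  obtain ⟨f, hf, γ, hγ, rfl⟩ := sl10_exists_rep Γ h
  refine ⟨f, hf, ?_⟩
  rw [mul_assoc, map_mul, map_mul, Equiv.Perm.mul_apply, Equiv.Perm.mul_apply]
  exact hinv γ hγ _ _

/-- **Manin generation, finite form.**  All values of a `Γ`-invariant symbol lie in the subgroup
generated by finitely many edge values. -/
theorem sl10_mem_of_reps (ρ : G →* Equiv.Perm X) {S T : G}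
    (hgen : Subgroup.closure ({S, T} : Set G) = ⊤) {c : X} (hT : ρ T c = c)
    (htrans : ∀ x : X, ∃ g : G, ρ g c = x) (Γ : Subgroup G)
    {φ : X → X → A} (hφ : sl10_IsAdd φ) (hinv : sl10_IsInv ρ Γ φ) (H : AddSubgroup A)
    (hH : ∀ f ∈ sl10_reps Γ, φ (ρ f c) (ρ (f * S) c) ∈ H) (a b : X) : φ a b ∈ H := by
  obtain ⟨g, rfl⟩ := htrans a
  obtain ⟨g', rfl⟩ := htrans b
  refine sl10_mem_of_edges ρ hgen hT hφ H (fun h => ?_) g g'
  obtain ⟨f, hf, e⟩ := sl10_edge_eq ρ Γ S c hinv h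
  rw [e]
  exact hH f hf

theorem sl10_mem_closure (ρ : G →* Equiv.Perm X) {S T : G}
    (hgen : Subgroup.closure ({S, T} : Set G) = ⊤) {c : X} (hT : ρ T c = c)
    (htrans : ∀ x : X, ∃ g : G, ρ g c = x) (Γ : Subgroup G)
    {φ : X → X → A} (hφ : sl10_IsAdd φ) (hinv : sl10_IsInv ρ Γ φ) (a b : X) :
    φ a b ∈ AddSubgroup.closure (sl10_edges ρ Γ S c φ) :=
  sl10_mem_of_reps ρ hgen hT htrans Γ hφ hinv _
    (fun f hf => AddSubgroup.subset_closure
      (show φ (ρ f c) (ρ (f * S) c) ∈ sl10_edges ρ Γ S c φ from ⟨f, hf, rfl⟩)) a b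

/-- A `Γ`-invariant symbol vanishing on the finitely many edges is zero. -/
theorem sl10_eq_zero_of_edges (ρ : G →* Equiv.Perm X) {S T : G}
    (hgen : Subgroup.closure ({S, T} : Set G) = ⊤) {c : X} (hT : ρ T c = c)
    (htrans : ∀ x : X, ∃ g : G, ρ g c = x) (Γ : Subgroup G)
    {φ : X → X → A} (hφ : sl10_IsAdd φ) (hinv : sl10_IsInv ρ Γ φ)
    (h0 : ∀ f ∈ sl10_reps Γ, φ (ρ f c) (ρ (f * S) c) = 0) (a b : X) : φ a b = 0 := by
  have := sl10_mem_of_reps ρ hgen hT htrans Γ hφ hinv ⊥ (fun f hf => by rw [h0 f hf]; rfl) a b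
  exact this

/-- Post-composition with an additive map preserves symbols. -/
theorem sl10_IsAdd.comp {B : Type*} [AddCommGroup B] {φ : X → X → A} (h : sl10_IsAdd φ)
    (u : A →+ B) : sl10_IsAdd (fun a b => u (φ a b)) := by
  intro a b c
  show u (φ a b) + u (φ b c) = u (φ a c)
  rw [← map_add, h]

theorem sl10_IsInv.comp {B : Type*} {ρ : G →* Equiv.Perm X} {Γ : Subgroup G}
    {φ : X → X → A} (h : sl10_IsInv ρ Γ φ) (u : A → B) :
    sl10_IsInv ρ Γ (fun a b => u (φ a b)) := by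
  intro g hg a b
  show u (φ (ρ g a) (ρ g b)) = u (φ a b)
  rw [h g hg]

end Basic

section Decomp

variable {G : Type*} [Group G] {X : Type*}

/-- **Integral structure.**  A `Γ`-invariant symbol with values in a torsion-free abelian group
`V` is a finite combination `∑ k, ψ k a b • m k` of integer valued `Γ`-invariant symbols. -/
theorem sl10_exists_decomp {V : Type*} [AddCommGroup V] [Module.IsTorsionFree ℤ V]
    (ρ : G →* Equiv.Perm X) {S T : G}
    (hgen : Subgroup.closure ({S, T} : Set G) = ⊤) {c : X} (hT : ρ T c = c)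
    (htrans : ∀ x : X, ∃ g : G, ρ g c = x) (Γ : Subgroup G) [Finite (G ⧸ Γ)]
    {φ : X → X → V} (hφ : sl10_IsAdd φ) (hinv : sl10_IsInv ρ Γ φ) :
    ∃ (n : ℕ) (m : Fin n → V) (ψ : Fin n → X → X → ℤ),
      (∀ k, sl10_IsAdd (ψ k)) ∧ (∀ k, sl10_IsInv ρ Γ (ψ k)) ∧
      ∀ a b, φ a b = ∑ k, ψ k a b • m k := by
  classical
  -- the subgroup generated by the edge values
  let M : Submodule ℤ V := Submodule.span ℤ (sl10_edges ρ Γ S c φ)
  have hMfg : M.FG := Submodule.fg_span (sl10_edges_finite ρ Γ S c φ)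
  haveI : Module.Finite ℤ M := Module.Finite.of_fg hMfg
  have hmem : ∀ a b, φ a b ∈ M := by
    intro a b
    have h1 := sl10_mem_closure ρ hgen hT htrans Γ hφ hinv a b
    have h2 : AddSubgroup.closure (sl10_edges ρ Γ S c φ) ≤ M.toAddSubgroup :=
      (AddSubgroup.closure_le _).mpr Submodule.subset_span
    exact h2 h1
  obtain ⟨n, bas⟩ : Σ n : ℕ, Module.Basis (Fin n) ℤ M := Module.basisOfFiniteTypeTorsionFree'
  let φ' : X → X → M := fun a b => ⟨φ a b, hmem a b⟩
  have hφ' : sl10_IsAdd φ' := fun a b c => Subtype.ext (hφ a b c)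
  have hinv' : sl10_IsInv ρ Γ φ' := fun g hg a b => Subtype.ext (hinv g hg a b)
  refine ⟨n, fun k => (bas k : V), fun k a b => bas.repr (φ' a b) k, ?_, ?_, ?_⟩
  · intro k a b c
    show bas.repr (φ' a b) k + bas.repr (φ' b c) k = bas.repr (φ' a c) k
    rw [← hφ' a b c, map_add, Finsupp.add_apply]
  · intro k g hg a b
    show bas.repr (φ' (ρ g a) (ρ g b)) k = bas.repr (φ' a b) k
    rw [hinv' g hg a b]
  · intro a b
    have h1 := bas.sum_repr (φ' a b)
    have h2 := congrArg (fun x : M => (x : V)) h1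
    simp only [Submodule.coe_sum, Submodule.coe_smul] at h2
    exact h2.symm

/-- **Saturation.**  An integer valued symbol all of whose values are divisible by `p` is
`p` times an integer valued symbol. -/
theorem sl10_exists_div (ρ : G →* Equiv.Perm X) (Γ : Subgroup G) {p : ℤ} (hp : p ≠ 0)
    {φ : X → X → ℤ} (hφ : sl10_IsAdd φ) (hinv : sl10_IsInv ρ Γ φ) (hdiv : ∀ a b, p ∣ φ a b) :
    ∃ ψ : X → X → ℤ, sl10_IsAdd ψ ∧ sl10_IsInv ρ Γ ψ ∧ ∀ a b, φ a b = p * ψ a b := by
  choose ψ hψ using hdiv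
  refine ⟨ψ, ?_, ?_, hψ⟩
  · intro a b c
    have h := hφ a b c
    rw [hψ a b, hψ b c, hψ a c, ← mul_add] at h
    exact mul_left_cancel₀ hp h
  · intro g hg a b
    have h := hinv g hg a b
    rw [hψ (ρ g a) (ρ g b), hψ a b] at h
    exact mul_left_cancel₀ hp h

end Decomp

section Packaged

variable {G : Type*} [Group G] {X : Type*}

/-- The `R`-module of `M`-valued `Γ`-invariant symbols, as a submodule of the functions. -/
def sl10_symb (R : Type*) [Semiring R] (M : Type*) [AddCommGroup M] [Module R M]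
    (ρ : G →* Equiv.Perm X) (Γ : Subgroup G) : Submodule R (X → X → M) where
  carrier := {φ | sl10_IsAdd φ ∧ sl10_IsInv ρ Γ φ}
  add_mem' := by
    rintro φ ψ ⟨h1, h2⟩ ⟨h3, h4⟩
    refine ⟨fun a b c => ?_, fun g hg a b => ?_⟩
    · show (φ a b + ψ a b) + (φ b c + ψ b c) = φ a c + ψ a c
      rw [← h1 a b c, ← h3 a b c]
      abel
    · show φ (ρ g a) (ρ g b) + ψ (ρ g a) (ρ g b) = φ a b + ψ a b
      rw [h2 g hg, h4 g hg]
  zero_mem' := ⟨fun a b c => by simp, fun g hg a b => rfl⟩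
  smul_mem' := by
    rintro r φ ⟨h1, h2⟩
    refine ⟨fun a b c => ?_, fun g hg a b => ?_⟩
    · show r • φ a b + r • φ b c = r • φ a c
      rw [← smul_add, h1]
    · show r • φ (ρ g a) (ρ g b) = r • φ a b
      rw [h2 g hg]

theorem sl10_mem_symb {R : Type*} [Semiring R] {M : Type*} [AddCommGroup M] [Module R M]
    {ρ : G →* Equiv.Perm X} {Γ : Subgroup G} {φ : X → X → M} :
    φ ∈ sl10_symb R M ρ Γ ↔ sl10_IsAdd φ ∧ sl10_IsInv ρ Γ φ := Iff.rfl

/-- The integer valued symbols form a finitely generated `ℤ`-module. -/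
theorem sl10_symb_int_fg (ρ : G →* Equiv.Perm X) {S T : G}
    (hgen : Subgroup.closure ({S, T} : Set G) = ⊤) {c : X} (hT : ρ T c = c)
    (htrans : ∀ x : X, ∃ g : G, ρ g c = x) (Γ : Subgroup G) [Finite (G ⧸ Γ)] :
    (sl10_symb ℤ ℤ ρ Γ).FG := by
  haveI : Finite (sl10_reps Γ) := (sl10_reps_finite Γ).to_subtype
  let ev : sl10_symb ℤ ℤ ρ Γ →ₗ[ℤ] (sl10_reps Γ → ℤ) :=
    { toFun := fun φ f => (φ : X → X → ℤ) (ρ (f : G) c) (ρ ((f : G) * S) c)
      map_add' := fun φ ψ => rfl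
      map_smul' := fun r φ => rfl }
  have hinj : Function.Injective ev := by
    rw [← LinearMap.ker_eq_bot, LinearMap.ker_eq_bot']
    intro φ h
    apply Subtype.ext
    funext a b
    exact sl10_eq_zero_of_edges ρ hgen hT htrans Γ φ.2.1 φ.2.2
      (fun f hf => congrFun h ⟨f, hf⟩) a b
  haveI : Module.Finite ℤ (sl10_symb ℤ ℤ ρ Γ) := Module.Finite.of_injective ev hinj
  exact Module.Finite.iff_fg.mp inferInstance

/-- The map `(X → X → ℤ) → (X → X → K)` induced by `ℤ → K`. -/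
def sl10_cast (X : Type*) (K : Type*) [Ring K] : (X → X → ℤ) →ₗ[ℤ] (X → X → K) where
  toFun φ a b := (φ a b : K)
  map_add' φ ψ := by funext a b; simp
  map_smul' r φ := by funext a b; simp

@[simp] theorem sl10_cast_apply (K : Type*) [Ring K] (φ : X → X → ℤ) (a b : X) :
    sl10_cast X K φ a b = (φ a b : K) := rfl

/-- The lattice of integer valued symbols inside the `K`-valued functions. -/
def sl10_int (K : Type*) [Ring K] (ρ : G →* Equiv.Perm X) (Γ : Subgroup G) :
    Submodule ℤ (X → X → K) :=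
  (sl10_symb ℤ ℤ ρ Γ).map (sl10_cast X K)

theorem sl10_mem_int {K : Type*} [Ring K] {ρ : G →* Equiv.Perm X} {Γ : Subgroup G}
    {ψ : X → X → K} :
    ψ ∈ sl10_int K ρ Γ ↔ ∃ φ : X → X → ℤ, sl10_IsAdd φ ∧ sl10_IsInv ρ Γ φ ∧
      ∀ a b, ψ a b = (φ a b : K) := by
  constructor
  · rintro ⟨φ, ⟨h1, h2⟩, rfl⟩
    exact ⟨φ, h1, h2, fun a b => rfl⟩
  · rintro ⟨φ, h1, h2, h3⟩
    exact ⟨φ, ⟨h1, h2⟩, by funext a b; exact (h3 a b).symm⟩

/-- Integer valued symbols are symbols. -/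
theorem sl10_int_le (K : Type*) [Ring K] (ρ : G →* Equiv.Perm X) (Γ : Subgroup G)
    {ψ : X → X → K} (h : ψ ∈ sl10_int K ρ Γ) : ψ ∈ sl10_symb K K ρ Γ := by
  obtain ⟨φ, h1, h2, h3⟩ := sl10_mem_int.mp h
  have e : ψ = fun a b => (Int.castAddHom K) (φ a b) := by funext a b; exact h3 a b
  rw [e]
  exact ⟨h1.comp _, h2.comp _⟩

/-- In characteristic zero: the lattice consists of the symbols with integer values. -/
theorem sl10_mem_int_iff {K : Type*} [Ring K] [CharZero K] {ρ : G →* Equiv.Perm X}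
    {Γ : Subgroup G} {ψ : X → X → K} :
    ψ ∈ sl10_int K ρ Γ ↔ ψ ∈ sl10_symb K K ρ Γ ∧ ∀ a b, ∃ n : ℤ, ψ a b = (n : K) := by
  constructor
  · intro h
    refine ⟨sl10_int_le K ρ Γ h, ?_⟩
    obtain ⟨φ, -, -, h3⟩ := sl10_mem_int.mp h
    exact fun a b => ⟨φ a b, h3 a b⟩
  · rintro ⟨⟨h1, h2⟩, h3⟩
    choose φ hφ using h3
    refine sl10_mem_int.mpr ⟨φ, fun a b c => ?_, fun g hg a b => ?_, hφ⟩
    · have := h1 a b c
      rw [hφ a b, hφ b c, hφ a c] at this
      exact_mod_cast this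
    · have := h2 g hg a b
      rw [hφ (ρ g a) (ρ g b), hφ a b] at this
      exact_mod_cast this

theorem sl10_int_fg (K : Type*) [Ring K] (ρ : G →* Equiv.Perm X) {S T : G}
    (hgen : Subgroup.closure ({S, T} : Set G) = ⊤) {c : X} (hT : ρ T c = c)
    (htrans : ∀ x : X, ∃ g : G, ρ g c = x) (Γ : Subgroup G) [Finite (G ⧸ Γ)] :
    (sl10_int K ρ Γ).FG :=
  (sl10_symb_int_fg ρ hgen hT htrans Γ).map _

/-- **Span.**  Over a field of characteristic zero the `K`-valued symbols are spanned by the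
integer valued ones. -/
theorem sl10_span_int (K : Type*) [Field K] [CharZero K] (ρ : G →* Equiv.Perm X) {S T : G}
    (hgen : Subgroup.closure ({S, T} : Set G) = ⊤) {c : X} (hT : ρ T c = c)
    (htrans : ∀ x : X, ∃ g : G, ρ g c = x) (Γ : Subgroup G) [Finite (G ⧸ Γ)] :
    Submodule.span K (sl10_int K ρ Γ : Set (X → X → K)) = sl10_symb K K ρ Γ := by
  apply le_antisymm
  · exact Submodule.span_le.mpr (fun ψ hψ => sl10_int_le K ρ Γ hψ)
  · rintro φ ⟨hφ, hinv⟩
    obtain ⟨n, m, ψ, h1, h2, h3⟩ := sl10_exists_decomp ρ hgen hT htrans Γ hφ hinv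
    have e : φ = ∑ k, m k • sl10_cast X K (ψ k) := by
      funext a b
      rw [h3 a b, Finset.sum_apply, Finset.sum_apply]
      refine Finset.sum_congr rfl (fun k _ => ?_)
      simp [mul_comm]
    rw [e]
    refine Submodule.sum_mem _ (fun k _ => Submodule.smul_mem _ _ (Submodule.subset_span ?_))
    exact ⟨ψ k, ⟨h1 k, h2 k⟩, rfl⟩

/-- The lattice of integer valued symbols inside the space of `K`-valued symbols. -/
def sl10_latt (K : Type*) [Ring K] (ρ : G →* Equiv.Perm X) (Γ : Subgroup G) :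
    Submodule ℤ (sl10_symb K K ρ Γ) :=
  (sl10_int K ρ Γ).comap ((sl10_symb K K ρ Γ).subtype.restrictScalars ℤ)

theorem sl10_mem_latt {K : Type*} [Ring K] {ρ : G →* Equiv.Perm X} {Γ : Subgroup G}
    {v : sl10_symb K K ρ Γ} :
    v ∈ sl10_latt K ρ Γ ↔ (v : X → X → K) ∈ sl10_int K ρ Γ := Iff.rfl

theorem sl10_mem_latt_iff {K : Type*} [Ring K] [CharZero K] {ρ : G →* Equiv.Perm X}
    {Γ : Subgroup G} {v : sl10_symb K K ρ Γ} :
    v ∈ sl10_latt K ρ Γ ↔ ∀ a b, ∃ n : ℤ, (v : X → X → K) a b = (n : K) := by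
  rw [sl10_mem_latt, sl10_mem_int_iff]
  exact ⟨fun h => h.2, fun h => ⟨v.2, h⟩⟩

theorem sl10_latt_fg (K : Type*) [Ring K] (ρ : G →* Equiv.Perm X) {S T : G}
    (hgen : Subgroup.closure ({S, T} : Set G) = ⊤) {c : X} (hT : ρ T c = c)
    (htrans : ∀ x : X, ∃ g : G, ρ g c = x) (Γ : Subgroup G) [Finite (G ⧸ Γ)] :
    (sl10_latt K ρ Γ).FG := by
  refine Submodule.fg_of_fg_map_injective ((sl10_symb K K ρ Γ).subtype.restrictScalars ℤ)
    (fun x y h => Subtype.ext h) ?_
  have e : (sl10_latt K ρ Γ).map ((sl10_symb K K ρ Γ).subtype.restrictScalars ℤ)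
      = sl10_int K ρ Γ := by
    apply le_antisymm
    · rintro _ ⟨v, hv, rfl⟩
      exact hv
    · intro ψ hψ
      exact ⟨⟨ψ, sl10_int_le K ρ Γ hψ⟩, hψ, rfl⟩
  rw [e]
  exact sl10_int_fg K ρ hgen hT htrans Γ

/-- **Span, subtype form**: `span K L = ⊤` inside the space of `K`-valued symbols. -/
theorem sl10_span_latt (K : Type*) [Field K] [CharZero K] (ρ : G →* Equiv.Perm X) {S T : G}
    (hgen : Subgroup.closure ({S, T} : Set G) = ⊤) {c : X} (hT : ρ T c = c)
    (htrans : ∀ x : X, ∃ g : G, ρ g c = x) (Γ : Subgroup G) [Finite (G ⧸ Γ)] :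
    Submodule.span K (sl10_latt K ρ Γ : Set (sl10_symb K K ρ Γ)) = ⊤ := by
  rw [eq_top_iff]
  rintro ⟨φ, hφ, hinv⟩ -
  obtain ⟨n, m, ψ, h1, h2, h3⟩ := sl10_exists_decomp ρ hgen hT htrans Γ hφ hinv
  have hk : ∀ k, sl10_cast X K (ψ k) ∈ sl10_int K ρ Γ := fun k => ⟨ψ k, ⟨h1 k, h2 k⟩, rfl⟩
  have e : (⟨φ, hφ, hinv⟩ : sl10_symb K K ρ Γ)
      = ∑ k, m k • (⟨sl10_cast X K (ψ k), sl10_int_le K ρ Γ (hk k)⟩ : sl10_symb K K ρ Γ) := by
    apply Subtype.ext
    rw [Submodule.coe_sum]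
    funext a b
    show φ a b = _
    rw [h3 a b, Finset.sum_apply, Finset.sum_apply]
    refine Finset.sum_congr rfl (fun k _ => ?_)
    simp [mul_comm]
  rw [e]
  exact Submodule.sum_mem _ (fun k _ => Submodule.smul_mem _ _ (Submodule.subset_span (hk k)))

end Packaged

end Fermat.Agent.S41
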