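/-
S41 / M1.L (helper10).  The lattice facts of `SymbLattice10` for the concrete model
`X = OnePoint ℚ` with the Möbius action `psl96_rho` of `SL(2, ℤ)` and `Γ = Γ₀(M)`.

* `slq10_rho_T_infty`, `slq10_trans` : the hypotheses of `SymbLattice10` for `OnePoint ℚ`;
* `slq10_isInv_iff`                  : invariance spelled out with `mapGL ℚ γ • ·`;
* `slq10_mem`, `slq10_zero_of_edges`, `slq10_decomp`, `slq10_int_fg`, `slq10_span_int`,
  `slq10_latt_fg`, `slq10_span_latt` : Manin generation, finite generation of the integer valued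
  symbols of level `M` and `span K L = ⊤`.
-/
import Mathlib
import Fermat.Agent.S41.SymbLattice10
import Fermat.Agent.S41.PSL2Univ96

set_option autoImplicit false

open CongruenceSubgroup OnePoint Matrix ModularGroup
open scoped MatrixGroups

namespace Fermat.Agent.S41

theorem slq10_rho_apply (g : SL(2, ℤ)) (x : OnePoint ℚ) :
    psl96_rho g x = SpecialLinearGroup.mapGL ℚ g • x := rfl

theorem slq10_rho_T_infty : psl96_rho T (∞ : OnePoint ℚ) = ∞ := by
  rw [psl96_rho_infty]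
  have h : ((T : SL(2, ℤ)) 1 0 : ℤ) = 0 := by decide
  simp [h]

/-- `SL(2, ℤ)` acts transitively on `ℙ¹(ℚ)`. -/
theorem slq10_trans (x : OnePoint ℚ) : ∃ g : SL(2, ℤ), psl96_rho g (∞ : OnePoint ℚ) = x := by
  induction x using OnePoint.rec with
  | infty => exact ⟨1, by simp⟩
  | coe r =>
    have hcop : IsCoprime r.num (r.den : ℤ) := by
      rw [Int.isCoprime_iff_gcd_eq_one]
      exact r.reduced
    obtain ⟨u, v, huv⟩ := hcop
    let g : SL(2, ℤ) := ⟨!![r.num, -v; (r.den : ℤ), u], by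
      rw [Matrix.det_fin_two_of]; linarith⟩
    refine ⟨g, ?_⟩
    rw [psl96_rho_infty]
    have h10 : (g 1 0 : ℤ) = r.den := rfl
    have h00 : (g 0 0 : ℤ) = r.num := rfl
    have hden : ((r.den : ℤ) : ℚ) ≠ 0 := by exact_mod_cast r.den_ne_zero
    rw [h10, h00, if_neg hden]
    congr 1
    exact_mod_cast Rat.num_div_den r

theorem slq10_isInv_iff {A : Type*} [AddCommGroup A] (Γ : Subgroup SL(2, ℤ))
    (φ : OnePoint ℚ → OnePoint ℚ → A) :
    sl10_IsInv psl96_rho Γ φ ↔
      ∀ g ∈ Γ, ∀ a b, φ (SpecialLinearGroup.mapGL ℚ g • a) (SpecialLinearGroup.mapGL ℚ g • b)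
        = φ a b := Iff.rfl

instance slq10_finite (M : ℕ) [NeZero M] : Finite (SL(2, ℤ) ⧸ Gamma0 M) :=
  Subgroup.finite_quotient_of_finiteIndex

section Results

variable (Γ : Subgroup SL(2, ℤ))

/-- Manin generation for `ℙ¹(ℚ)`: the values of a `Γ`-invariant symbol lie in every subgroup
containing its values on the finitely many edges `(f ∞, f 0)`, `f ∈ sl10_reps Γ`. -/
theorem slq10_mem {A : Type*} [AddCommGroup A] {φ : OnePoint ℚ → OnePoint ℚ → A}
    (hφ : sl10_IsAdd φ) (hinv : sl10_IsInv psl96_rho Γ φ) (H : AddSubgroup A)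
    (hH : ∀ f ∈ sl10_reps Γ, φ (psl96_rho f ∞) (psl96_rho (f * S) ∞) ∈ H)
    (a b : OnePoint ℚ) : φ a b ∈ H :=
  sl10_mem_of_reps psl96_rho SpecialLinearGroup.SL2Z_generators slq10_rho_T_infty slq10_trans Γ
    hφ hinv H hH a b

theorem slq10_zero_of_edges {A : Type*} [AddCommGroup A] {φ : OnePoint ℚ → OnePoint ℚ → A}
    (hφ : sl10_IsAdd φ) (hinv : sl10_IsInv psl96_rho Γ φ)
    (h0 : ∀ f ∈ sl10_reps Γ, φ (psl96_rho f ∞) (psl96_rho (f * S) ∞) = 0)
    (a b : OnePoint ℚ) : φ a b = 0 :=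
  sl10_eq_zero_of_edges psl96_rho SpecialLinearGroup.SL2Z_generators slq10_rho_T_infty
    slq10_trans Γ hφ hinv h0 a b

variable [Finite (SL(2, ℤ) ⧸ Γ)]

theorem slq10_decomp {V : Type*} [AddCommGroup V] [Module.IsTorsionFree ℤ V]
    {φ : OnePoint ℚ → OnePoint ℚ → V} (hφ : sl10_IsAdd φ) (hinv : sl10_IsInv psl96_rho Γ φ) :
    ∃ (n : ℕ) (m : Fin n → V) (ψ : Fin n → OnePoint ℚ → OnePoint ℚ → ℤ),
      (∀ k, sl10_IsAdd (ψ k)) ∧ (∀ k, sl10_IsInv psl96_rho Γ (ψ k)) ∧
      ∀ a b, φ a b = ∑ k, ψ k a b • m k :=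
  sl10_exists_decomp psl96_rho SpecialLinearGroup.SL2Z_generators slq10_rho_T_infty slq10_trans Γ
    hφ hinv

theorem slq10_symb_int_fg : (sl10_symb ℤ ℤ psl96_rho Γ).FG :=
  sl10_symb_int_fg psl96_rho SpecialLinearGroup.SL2Z_generators slq10_rho_T_infty slq10_trans Γ

theorem slq10_int_fg (K : Type*) [Ring K] : (sl10_int K psl96_rho Γ).FG :=
  sl10_int_fg K psl96_rho SpecialLinearGroup.SL2Z_generators slq10_rho_T_infty slq10_trans Γ

theorem slq10_span_int (K : Type*) [Field K] [CharZero K] :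
    Submodule.span K (sl10_int K psl96_rho Γ : Set (OnePoint ℚ → OnePoint ℚ → K))
      = sl10_symb K K psl96_rho Γ :=
  sl10_span_int K psl96_rho SpecialLinearGroup.SL2Z_generators slq10_rho_T_infty slq10_trans Γ

theorem slq10_latt_fg (K : Type*) [Ring K] : (sl10_latt K psl96_rho Γ).FG :=
  sl10_latt_fg K psl96_rho SpecialLinearGroup.SL2Z_generators slq10_rho_T_infty slq10_trans Γ

theorem slq10_span_latt (K : Type*) [Field K] [CharZero K] :
    Submodule.span K (sl10_latt K psl96_rho Γ : Set (sl10_symb K K psl96_rho Γ)) = ⊤ :=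
  sl10_span_latt K psl96_rho SpecialLinearGroup.SL2Z_generators slq10_rho_T_infty slq10_trans Γ

end Results

end Fermat.Agent.S41
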