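/-
S41 / L3 (helper10).  The lattice facts of `SymbLattice10` in the conventions C1–C6 of the
architecture ruling: `P = OnePoint ℚ`, a symbol of level `M` is a plain function
`Φ : P × P → A` with `Φ (a, b) + Φ (b, c) = Φ (a, c)` which is `tr43_Inv M`.

* `slp10_IsSymb M Φ`            : this predicate; `slp10_isSymb_iff_curry` : bridge to the curried
                                  predicates `sl10_IsAdd`, `sl10_IsInv psl96_rho (Gamma0 M)`.
* `slp10_mem`, `slp10_eq_zero`  : Manin generation / vanishing on the finitely many edges.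
* `slp10_decomp`                : a symbol with values in a torsion-free group is a finite sum
                                  `∑ k, ψ k x • m k` with integer valued symbols `ψ k`.
* `slp10_div`                   : saturation.
* `slp10_fg_of`, `slp10_span_of`, `slp10_latt_of` : finite generation and span for ANY
                                  submodules described by the obvious membership conditions.
* `slp10_V`, `slp10_L`          : one choice of such submodules; `slp10_L_fg`, `slp10_L_span`.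
-/
import Mathlib
import Fermat.Agent.S41.SymbLatticeQ10
import Fermat.Agent.S41.Trace43

set_option autoImplicit false

open CongruenceSubgroup OnePoint Matrix ModularGroup
open scoped MatrixGroups

namespace Fermat.Agent.S41

section Bridge

variable {A : Type*} [AddCommGroup A]

/-- A symbol of level `M` with values in `A` (convention C2). -/
def slp10_IsSymb (M : ℕ) (Φ : OnePoint ℚ × OnePoint ℚ → A) : Prop :=
  (∀ a b c, Φ (a, b) + Φ (b, c) = Φ (a, c)) ∧ tr43_Inv M Φ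

theorem slp10_inv_iff_curry (M : ℕ) (Φ : OnePoint ℚ × OnePoint ℚ → A) :
    tr43_Inv M Φ ↔ sl10_IsInv psl96_rho (Gamma0 M) (Function.curry Φ) := by
  constructor
  · intro h g hg a b
    exact h ⟨g, hg⟩ (a, b)
  · rintro h ⟨g, hg⟩ ⟨a, b⟩
    exact h g hg a b

theorem slp10_isSymb_iff_curry (M : ℕ) (Φ : OnePoint ℚ × OnePoint ℚ → A) :
    slp10_IsSymb M Φ ↔
      sl10_IsAdd (Function.curry Φ) ∧ sl10_IsInv psl96_rho (Gamma0 M) (Function.curry Φ) := by
  rw [slp10_IsSymb, slp10_inv_iff_curry]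
  exact Iff.rfl

theorem slp10_isSymb_uncurry (M : ℕ) {φ : OnePoint ℚ → OnePoint ℚ → A}
    (h1 : sl10_IsAdd φ) (h2 : sl10_IsInv psl96_rho (Gamma0 M) φ) :
    slp10_IsSymb M (Function.uncurry φ) :=
  (slp10_isSymb_iff_curry M _).mpr ⟨h1, h2⟩

/-- Post-composition with an additive map preserves symbols (e.g. reduction mod `p`,
`ℤ → ℂ`, coordinates). -/
theorem slp10_IsSymb.comp {B : Type*} [AddCommGroup B] {M : ℕ}
    {Φ : OnePoint ℚ × OnePoint ℚ → A} (h : slp10_IsSymb M Φ) (u : A →+ B) :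
    slp10_IsSymb M (fun x => u (Φ x)) := by
  refine ⟨fun a b c => ?_, fun γ x => ?_⟩
  · show u (Φ (a, b)) + u (Φ (b, c)) = u (Φ (a, c))
    rw [← map_add, h.1]
  · show u (Φ _) = u (Φ x)
    rw [h.2 γ x]

end Bridge

section Manin

variable {A : Type*} [AddCommGroup A]

/-- **Manin generation** (level `M`): the values of a symbol lie in every subgroup containing its
values on the finitely many edges `(f ∞, f 0)`, `f ∈ sl10_reps (Gamma0 M)`. -/
theorem slp10_mem {M : ℕ} {Φ : OnePoint ℚ × OnePoint ℚ → A} (h : slp10_IsSymb M Φ)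
    (H : AddSubgroup A)
    (hH : ∀ f ∈ sl10_reps (Gamma0 M), Φ (psl96_rho f ∞, psl96_rho (f * S) ∞) ∈ H)
    (x : OnePoint ℚ × OnePoint ℚ) : Φ x ∈ H := by
  obtain ⟨h1, h2⟩ := (slp10_isSymb_iff_curry M Φ).mp h
  exact slq10_mem (Gamma0 M) h1 h2 H hH x.1 x.2

theorem slp10_eq_zero {M : ℕ} {Φ : OnePoint ℚ × OnePoint ℚ → A} (h : slp10_IsSymb M Φ)
    (h0 : ∀ f ∈ sl10_reps (Gamma0 M), Φ (psl96_rho f ∞, psl96_rho (f * S) ∞) = 0) : Φ = 0 := by
  obtain ⟨h1, h2⟩ := (slp10_isSymb_iff_curry M Φ).mp h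
  funext x
  exact slq10_zero_of_edges (Gamma0 M) h1 h2 h0 x.1 x.2

/-- **Integral structure** (level `M ≠ 0`): a symbol with values in a torsion-free group is a
finite combination of integer valued symbols. -/
theorem slp10_decomp {V : Type*} [AddCommGroup V] [Module.IsTorsionFree ℤ V] {M : ℕ} [NeZero M]
    {Φ : OnePoint ℚ × OnePoint ℚ → V} (h : slp10_IsSymb M Φ) :
    ∃ (n : ℕ) (m : Fin n → V) (ψ : Fin n → OnePoint ℚ × OnePoint ℚ → ℤ),
      (∀ k, slp10_IsSymb M (ψ k)) ∧ ∀ x, Φ x = ∑ k, ψ k x • m k := by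
  obtain ⟨h1, h2⟩ := (slp10_isSymb_iff_curry M Φ).mp h
  obtain ⟨n, m, ψ, hψ1, hψ2, hψ3⟩ := slq10_decomp (Gamma0 M) h1 h2
  exact ⟨n, m, fun k => Function.uncurry (ψ k),
    fun k => slp10_isSymb_uncurry M (hψ1 k) (hψ2 k), fun x => hψ3 x.1 x.2⟩

/-- **Saturation**: an integer valued symbol with all values divisible by `p ≠ 0` is `p` times an
integer valued symbol. -/
theorem slp10_div {M : ℕ} {p : ℤ} (hp : p ≠ 0) {Φ : OnePoint ℚ × OnePoint ℚ → ℤ}
    (h : slp10_IsSymb M Φ) (hdiv : ∀ x, p ∣ Φ x) :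
    ∃ Ψ : OnePoint ℚ × OnePoint ℚ → ℤ, slp10_IsSymb M Ψ ∧ ∀ x, Φ x = p * Ψ x := by
  obtain ⟨h1, h2⟩ := (slp10_isSymb_iff_curry M Φ).mp h
  obtain ⟨ψ, hψ1, hψ2, hψ3⟩ := sl10_exists_div psl96_rho (Gamma0 M) hp h1 h2
    (fun a b => hdiv (a, b))
  exact ⟨Function.uncurry ψ, slp10_isSymb_uncurry M hψ1 hψ2, fun x => hψ3 x.1 x.2⟩

end Manin

section Lattice

variable {K : Type*} [Field K] [CharZero K]

/-- integer valued symbols inside `K`-valued functions come from `ℤ`-valued symbols. -/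
theorem slp10_exists_int {M : ℕ} {Φ : OnePoint ℚ × OnePoint ℚ → K} (h : slp10_IsSymb M Φ)
    (hint : ∀ x, ∃ n : ℤ, Φ x = (n : K)) :
    ∃ Ψ : OnePoint ℚ × OnePoint ℚ → ℤ, slp10_IsSymb M Ψ ∧ ∀ x, Φ x = (Ψ x : K) := by
  choose Ψ hΨ using hint
  refine ⟨Ψ, ⟨fun a b c => ?_, fun γ x => ?_⟩, hΨ⟩
  · have := h.1 a b c
    rw [hΨ, hΨ, hΨ] at this
    exact_mod_cast this
  · have := h.2 γ x
    rw [hΨ, hΨ] at this
    exact_mod_cast this

/-- **FG**, for any `ℤ`-submodule of `K`-valued functions consisting of the integer valued symbols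
of level `M`. -/
theorem slp10_fg_of (M : ℕ) [NeZero M] (L : Submodule ℤ (OnePoint ℚ × OnePoint ℚ → K))
    (hL : ∀ Φ, Φ ∈ L ↔ slp10_IsSymb M Φ ∧ ∀ x, ∃ n : ℤ, Φ x = (n : K)) : L.FG := by
  have hfg := slq10_int_fg (Gamma0 M) K
  let e : (OnePoint ℚ → OnePoint ℚ → K) →ₗ[ℤ] (OnePoint ℚ × OnePoint ℚ → K) :=
    { toFun := fun φ => Function.uncurry φ
      map_add' := fun φ ψ => rfl
      map_smul' := fun r φ => rfl }
  have hLe : L = (sl10_int K psl96_rho (Gamma0 M)).map e := by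
    ext Φ
    rw [hL, Submodule.mem_map]
    constructor
    · rintro ⟨h, hint⟩
      refine ⟨Function.curry Φ, ?_, rfl⟩
      rw [sl10_mem_int_iff]
      exact ⟨(slp10_isSymb_iff_curry M Φ).mp h, fun a b => hint (a, b)⟩
    · rintro ⟨φ, hφ, rfl⟩
      rw [sl10_mem_int_iff] at hφ
      exact ⟨slp10_isSymb_uncurry M hφ.1.1 hφ.1.2, fun x => hφ.2 x.1 x.2⟩
  rw [hLe]
  exact hfg.map e

/-- **Span**, function-space form: every `K`-valued symbol lies in the `K`-span of any set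
containing the integer valued symbols. -/
theorem slp10_span_of (M : ℕ) [NeZero M] (s : Set (OnePoint ℚ × OnePoint ℚ → K))
    (hs : ∀ Φ, slp10_IsSymb M Φ → (∀ x, ∃ n : ℤ, Φ x = (n : K)) → Φ ∈ s)
    {Φ : OnePoint ℚ × OnePoint ℚ → K} (h : slp10_IsSymb M Φ) : Φ ∈ Submodule.span K s := by
  obtain ⟨n, m, ψ, hψ, hΦ⟩ := slp10_decomp h
  have e : Φ = ∑ k, m k • (fun x => ((ψ k x : ℤ) : K)) := by
    funext x
    rw [hΦ x, Finset.sum_apply]
    refine Finset.sum_congr rfl (fun k _ => ?_)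
    simp [mul_comm]
  rw [e]
  refine Submodule.sum_mem _ (fun k _ => Submodule.smul_mem _ _ (Submodule.subset_span ?_))
  exact hs _ ((hψ k).comp (Int.castAddHom K)) (fun x => ⟨ψ k x, rfl⟩)

/-- **FG + span**, subtype form (convention C6): `V` any `K`-submodule of functions consisting of
the symbols of level `M`, `L` any `ℤ`-submodule of `V` consisting of the integer valued ones.
Then `L` is finitely generated and spans `V`. -/
theorem slp10_latt_of (M : ℕ) [NeZero M] (V : Submodule K (OnePoint ℚ × OnePoint ℚ → K))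
    (hV : ∀ Φ, Φ ∈ V ↔ slp10_IsSymb M Φ) (L : Submodule ℤ V)
    (hL : ∀ v : V, v ∈ L ↔ ∀ x, ∃ n : ℤ, (v : OnePoint ℚ × OnePoint ℚ → K) x = (n : K)) :
    L.FG ∧ Submodule.span K (L : Set V) = ⊤ := by
  constructor
  · refine Submodule.fg_of_fg_map_injective (V.subtype.restrictScalars ℤ)
      (fun x y h => Subtype.ext h) ?_
    refine slp10_fg_of M _ (fun Φ => ?_)
    rw [Submodule.mem_map]
    constructor
    · rintro ⟨v, hv, rfl⟩
      exact ⟨(hV _).mp v.2, (hL v).mp hv⟩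
    · rintro ⟨h, hint⟩
      exact ⟨⟨Φ, (hV Φ).mpr h⟩, (hL _).mpr hint, rfl⟩
  · rw [eq_top_iff]
    rintro ⟨Φ, hΦV⟩ -
    have hΦ : slp10_IsSymb M Φ := (hV Φ).mp hΦV
    obtain ⟨n, m, ψ, hψ, hdec⟩ := slp10_decomp hΦ
    have hk : ∀ k, slp10_IsSymb M (fun x => ((ψ k x : ℤ) : K)) :=
      fun k => (hψ k).comp (Int.castAddHom K)
    have e : (⟨Φ, hΦV⟩ : V) = ∑ k, m k • (⟨_, (hV _).mpr (hk k)⟩ : V) := by
      apply Subtype.ext
      rw [Submodule.coe_sum]
      funext x
      show Φ x = _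
      rw [hdec x, Finset.sum_apply]
      refine Finset.sum_congr rfl (fun k _ => ?_)
      simp [mul_comm]
    rw [e]
    refine Submodule.sum_mem _ (fun k _ => Submodule.smul_mem _ _ (Submodule.subset_span ?_))
    exact (hL _).mpr (fun x => ⟨ψ k x, rfl⟩)

end Lattice

section Choice

/-- `V M` of convention C6: the `K`-valued symbols of level `M`. -/
def slp10_V (M : ℕ) (K : Type*) [Field K] : Submodule K (OnePoint ℚ × OnePoint ℚ → K) where
  carrier := {Φ | slp10_IsSymb M Φ}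
  add_mem' := by
    rintro Φ Ψ ⟨h1, h2⟩ ⟨h3, h4⟩
    refine ⟨fun a b c => ?_, fun γ x => ?_⟩
    · show (Φ (a, b) + Ψ (a, b)) + (Φ (b, c) + Ψ (b, c)) = Φ (a, c) + Ψ (a, c)
      rw [← h1 a b c, ← h3 a b c]
      abel
    · show Φ _ + Ψ _ = Φ x + Ψ x
      rw [h2 γ x, h4 γ x]
  zero_mem' := ⟨fun a b c => by simp, fun γ x => rfl⟩
  smul_mem' := by
    rintro r Φ ⟨h1, h2⟩
    refine ⟨fun a b c => ?_, fun γ x => ?_⟩
    · show r • Φ (a, b) + r • Φ (b, c) = r • Φ (a, c)
      rw [← smul_add, h1]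
    · show r • Φ _ = r • Φ x
      rw [h2 γ x]

theorem slp10_mem_V {M : ℕ} {K : Type*} [Field K] {Φ : OnePoint ℚ × OnePoint ℚ → K} :
    Φ ∈ slp10_V M K ↔ slp10_IsSymb M Φ := Iff.rfl

/-- `L M` of convention C6: the integer valued symbols of level `M` inside `V M`. -/
def slp10_L (M : ℕ) (K : Type*) [Field K] : Submodule ℤ (slp10_V M K) where
  carrier := {v | ∀ x, ∃ n : ℤ, (v : OnePoint ℚ × OnePoint ℚ → K) x = (n : K)}
  add_mem' := by
    intro v w hv hw x
    obtain ⟨n, hn⟩ := hv x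
    obtain ⟨m, hm⟩ := hw x
    exact ⟨n + m, by
      show (v : OnePoint ℚ × OnePoint ℚ → K) x + (w : OnePoint ℚ × OnePoint ℚ → K) x = _
      rw [hn, hm]; push_cast; rfl⟩
  zero_mem' := fun x => ⟨0, by simp⟩
  smul_mem' := by
    intro r v hv x
    obtain ⟨n, hn⟩ := hv x
    exact ⟨r * n, by
      show (r • (v : OnePoint ℚ × OnePoint ℚ → K)) x = _
      rw [Pi.smul_apply, hn]; simp⟩

theorem slp10_mem_L {M : ℕ} {K : Type*} [Field K] {v : slp10_V M K} :
    v ∈ slp10_L M K ↔ ∀ x, ∃ n : ℤ, (v : OnePoint ℚ × OnePoint ℚ → K) x = (n : K) := Iff.rfl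

theorem slp10_L_fg (M : ℕ) [NeZero M] (K : Type*) [Field K] [CharZero K] : (slp10_L M K).FG :=
  (slp10_latt_of M (slp10_V M K) (fun _ => Iff.rfl) (slp10_L M K) (fun _ => Iff.rfl)).1

theorem slp10_L_span (M : ℕ) [NeZero M] (K : Type*) [Field K] [CharZero K] :
    Submodule.span K (slp10_L M K : Set (slp10_V M K)) = ⊤ :=
  (slp10_latt_of M (slp10_V M K) (fun _ => Iff.rfl) (slp10_L M K) (fun _ => Iff.rfl)).2

end Choice

end Fermat.Agent.S41
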