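/-
S41 / M1 (helper43), part (T4): the Hecke operators `T_ℓ` (`ℓ ∤ N q`) commute with the
Atkin–Lehner operator `W_q`, with the trace `Γ₀(N q) → Γ₀(N)` and with `U_q`, on
`Γ₀(N q)`-invariant functions.  Same model-agnostic setting as `Trace43.lean`.
-/
import Mathlib
import Fermat.Agent.S41.Trace43

set_option autoImplicit false

open CongruenceSubgroup
open scoped MatrixGroups

namespace Fermat.Agent.S41

open Fermat.Agent.S16

/-! ### right division by the representatives `lbMat ℓ` -/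

theorem tr43_lbMat_none' (ℓ : ℕ) : lbMat ℓ none = !![(ℓ : ℤ), 0; 0, 1] := rfl

theorem tr43_lbMat_some' (ℓ : ℕ) (j : Fin ℓ) :
    lbMat ℓ (some j) = !![1, ((j : ℕ) : ℤ); 0, (ℓ : ℤ)] := rfl

theorem tr43_eta (M : Matrix (Fin 2) (Fin 2) ℤ) : M = !![M 0 0, M 0 1; M 1 0, M 1 1] :=
  Matrix.eta_fin_two M

theorem tr43_det_of (a b c d : ℤ) :
    (!![a, b; c, d] : Matrix (Fin 2) (Fin 2) ℤ).det = a * d - b * c :=
  Matrix.det_fin_two_of a b c d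

/-- right division by `lbMat ℓ (some j)` when `ℓ ∣ det M` and `ℓ ∤ M 0 0`. -/
theorem tr43_rdiv_some {ℓ : ℕ} (hℓ : ℓ.Prime) (M : Matrix (Fin 2) (Fin 2) ℤ)
    (hdet : (ℓ : ℤ) ∣ M.det) (h00 : ¬ (ℓ : ℤ) ∣ M 0 0) :
    ∃ (j : Fin ℓ) (M' : Matrix (Fin 2) (Fin 2) ℤ),
      M = M' * lbMat ℓ (some j) ∧ M' 1 0 = M 1 0 := by
  have hp : Prime (ℓ : ℤ) := Nat.prime_iff_prime_int.mp hℓ
  have hg := tr43_eta M
  generalize M 0 0 = a at hg h00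
  generalize M 0 1 = b at hg
  generalize M 1 0 = c at hg
  generalize M 1 1 = d at hg
  subst hg
  rw [tr43_det_of] at hdet
  obtain ⟨j, s, hs⟩ := lb_exists_fin hℓ a b h00
  -- hs : b - j * a = ℓ * s
  have h2 : (ℓ : ℤ) ∣ d - ((j : ℕ) : ℤ) * c := by
    have h3 : (ℓ : ℤ) ∣ a * (d - ((j : ℕ) : ℤ) * c) := by
      have e : a * (d - ((j : ℕ) : ℤ) * c) = (a * d - b * c) + c * ((ℓ : ℤ) * s) := by
        linear_combination c * hs
      rw [e]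
      exact dvd_add hdet (Dvd.dvd.mul_left (dvd_mul_right _ _) _)
    rcases hp.dvd_or_dvd h3 with h4 | h4
    · exact absurd h4 h00
    · exact h4
  obtain ⟨t, ht⟩ := h2
  refine ⟨j, !![a, s; c, t], ?_, rfl⟩
  rw [lb_mul_some']
  exact lb_mk_eq rfl (by linear_combination hs) rfl (by linear_combination ht)

/-- right division by some `lbMat ℓ j` when `ℓ ∣ det M`. -/
theorem tr43_rdiv {ℓ : ℕ} (hℓ : ℓ.Prime) (M : Matrix (Fin 2) (Fin 2) ℤ)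
    (hdet : (ℓ : ℤ) ∣ M.det) :
    ∃ (j : Option (Fin ℓ)) (M' : Matrix (Fin 2) (Fin 2) ℤ),
      M = M' * lbMat ℓ j ∧ ∀ n : ℤ, IsCoprime n (ℓ : ℤ) → n ∣ M 1 0 → n ∣ M' 1 0 := by
  have hp : Prime (ℓ : ℤ) := Nat.prime_iff_prime_int.mp hℓ
  by_cases h00 : (ℓ : ℤ) ∣ M 0 0
  · by_cases h10 : (ℓ : ℤ) ∣ M 1 0
    · obtain ⟨a', ha'⟩ := h00
      obtain ⟨c', hc'⟩ := h10
      refine ⟨none, !![a', M 0 1; c', M 1 1], ?_, ?_⟩
      · rw [lb_mul_none']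
        conv_lhs => rw [tr43_eta M]
        exact lb_mk_eq (by linear_combination ha') rfl (by linear_combination hc') rfl
      · intro n hn hnc
        show n ∣ c'
        rw [hc'] at hnc
        exact hn.dvd_of_dvd_mul_left hnc
    · -- ℓ ∣ a, ℓ ∤ c : use the second row
      have hg := tr43_eta M
      generalize M 0 0 = a at hg h00
      generalize M 0 1 = b at hg
      generalize M 1 0 = c at hg h10
      generalize M 1 1 = d at hg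
      subst hg
      rw [tr43_det_of] at hdet
      obtain ⟨j, t, ht⟩ := lb_exists_fin hℓ c d h10
      have h2 : (ℓ : ℤ) ∣ b - ((j : ℕ) : ℤ) * a := by
        have h3 : (ℓ : ℤ) ∣ c * (b - ((j : ℕ) : ℤ) * a) := by
          have e : c * (b - ((j : ℕ) : ℤ) * a) = a * ((ℓ : ℤ) * t) - (a * d - b * c) := by
            linear_combination a * ht
          rw [e]
          exact dvd_sub (Dvd.dvd.mul_left (dvd_mul_right _ _) _) hdet
        rcases hp.dvd_or_dvd h3 with h4 | h4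
        · exact absurd h4 h10
        · exact h4
      obtain ⟨s, hs⟩ := h2
      refine ⟨some j, !![a, s; c, t], ?_, fun n _ hnc => hnc⟩
      rw [lb_mul_some']
      exact lb_mk_eq rfl (by linear_combination hs) rfl (by linear_combination ht)
  · obtain ⟨j, M', hM', h10⟩ := tr43_rdiv_some hℓ M hdet h00
    exact ⟨some j, M', hM', fun n _ hnc => h10 ▸ hnc⟩

/-- uniqueness of right division: the index and the cofactor are determined. -/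
theorem tr43_rdiv_unique {ℓ : ℕ} (hℓ : ℓ.Prime) (X Y : Matrix (Fin 2) (Fin 2) ℤ)
    (hX : ¬ (ℓ : ℤ) ∣ X.det) (i₁ i₂ : Option (Fin ℓ))
    (h : X * lbMat ℓ i₁ = Y * lbMat ℓ i₂) : i₁ = i₂ ∧ X = Y := by
  have hp : Prime (ℓ : ℤ) := Nat.prime_iff_prime_int.mp hℓ
  have hℓ0 : (ℓ : ℤ) ≠ 0 := by exact_mod_cast hℓ.ne_zero
  have hgX := tr43_eta X
  have hgY := tr43_eta Y
  generalize X 0 0 = x00 at hgX
  generalize X 0 1 = x01 at hgX
  generalize X 1 0 = x10 at hgX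
  generalize X 1 1 = x11 at hgX
  generalize Y 0 0 = y00 at hgY
  generalize Y 0 1 = y01 at hgY
  generalize Y 1 0 = y10 at hgY
  generalize Y 1 1 = y11 at hgY
  subst hgX hgY
  rw [tr43_det_of] at hX
  rcases i₁ with _ | a <;> rcases i₂ with _ | a'
  · rw [lb_mul_none', lb_mul_none'] at h
    obtain ⟨e00, e01, e10, e11⟩ := lb_of_eq h
    exact ⟨rfl, lb_mk_eq (mul_right_cancel₀ hℓ0 e00) e01 (mul_right_cancel₀ hℓ0 e10) e11⟩
  · exfalso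
    rw [lb_mul_none', lb_mul_some'] at h
    obtain ⟨e00, e01, e10, e11⟩ := lb_of_eq h
    apply hX
    refine ⟨x00 * (x10 * ((a' : ℕ) : ℤ) + y11) - (x00 * ((a' : ℕ) : ℤ) + y01) * x10, ?_⟩
    linear_combination x00 * e11 - x10 * e01 - (x00 * ((a' : ℕ) : ℤ)) * e10
      + (x10 * ((a' : ℕ) : ℤ)) * e00
  · exfalso
    rw [lb_mul_none', lb_mul_some'] at h
    obtain ⟨e00, e01, e10, e11⟩ := lb_of_eq h
    apply hX
    refine ⟨y00 * x11 - x01 * y10, ?_⟩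
    linear_combination x11 * e00 - x01 * e10
  · rw [lb_mul_some', lb_mul_some'] at h
    obtain ⟨e00, e01, e10, e11⟩ := lb_of_eq h
    subst e00 e10
    have hdvd : (ℓ : ℤ) ∣ ((a : ℕ) : ℤ) - ((a' : ℕ) : ℤ) := by
      by_contra hnd
      have h1 : (ℓ : ℤ) ∣ x00 := by
        have : (ℓ : ℤ) ∣ x00 * (((a : ℕ) : ℤ) - ((a' : ℕ) : ℤ)) :=
          ⟨y01 - x01, by linear_combination e01⟩
        rcases hp.dvd_or_dvd this with h4 | h4
        · exact h4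
        · exact absurd h4 hnd
      have h2 : (ℓ : ℤ) ∣ x10 := by
        have : (ℓ : ℤ) ∣ x10 * (((a : ℕ) : ℤ) - ((a' : ℕ) : ℤ)) :=
          ⟨y11 - x11, by linear_combination e11⟩
        rcases hp.dvd_or_dvd this with h4 | h4
        · exact h4
        · exact absurd h4 hnd
      exact hX (dvd_sub (Dvd.dvd.mul_right h1 _) (Dvd.dvd.mul_left h2 _))
    have haa : (a : ℕ) = (a' : ℕ) := by
      have h1 := a.2
      have h2 := a'.2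
      obtain ⟨m, hm⟩ := hdvd
      have hm0 : m = 0 := by
        by_contra hm0
        have h5 : (1 : ℤ) ≤ |m| := Int.one_le_abs hm0
        have habs : |((a : ℕ) : ℤ) - ((a' : ℕ) : ℤ)| = (ℓ : ℤ) * |m| := by
          rw [hm, abs_mul, abs_of_nonneg (by positivity : (0 : ℤ) ≤ ℓ)]
        have hlt : |((a : ℕ) : ℤ) - ((a' : ℕ) : ℤ)| < (ℓ : ℤ) := by
          rw [abs_lt]; constructor <;> omega
        nlinarith
      rw [hm0, mul_zero] at hm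
      omega
    have haa' : a = a' := Fin.ext haa
    subst haa'
    refine ⟨rfl, lb_mk_eq rfl ?_ rfl ?_⟩
    · exact mul_right_cancel₀ hℓ0 (by linear_combination e01)
    · exact mul_right_cancel₀ hℓ0 (by linear_combination e11)

/-- Hermite normal form: an integer matrix of determinant `ℓ` with lower left entry divisible
by `N` (`ℓ ∤ N`) is `κ * lbMat ℓ j` with `κ ∈ Γ₀(N)`. -/
theorem tr43_hnf {N ℓ : ℕ} (hℓ : ℓ.Prime) (hℓN : ¬ ℓ ∣ N) (M : Matrix (Fin 2) (Fin 2) ℤ)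
    (hdet : M.det = ℓ) (hM : (N : ℤ) ∣ M 1 0) :
    ∃ (j : Option (Fin ℓ)) (κ : Gamma0 N),
      M = ((κ : SL(2, ℤ)) : Matrix (Fin 2) (Fin 2) ℤ) * lbMat ℓ j := by
  have hℓ0 : (ℓ : ℤ) ≠ 0 := by exact_mod_cast hℓ.ne_zero
  obtain ⟨j, M', hM', hdvd⟩ := tr43_rdiv hℓ M (by rw [hdet])
  have hcop : IsCoprime (N : ℤ) (ℓ : ℤ) := by
    rw [Int.isCoprime_iff_gcd_eq_one, Int.gcd_natCast_natCast]
    exact ((Nat.Prime.coprime_iff_not_dvd hℓ).mpr hℓN).symm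
  have hdet' : M'.det = 1 := by
    have := congrArg Matrix.det hM'
    rw [Matrix.det_mul, hdet, tr43_lbMat_det] at this
    exact (mul_right_cancel₀ hℓ0 (by linear_combination this)).symm
  exact ⟨j, tr43_mk N M' hdet' (hdvd _ hcop hM), hM'⟩

theorem tr43_not_dvd_one {ℓ : ℕ} (hℓ : ℓ.Prime) : ¬ (ℓ : ℤ) ∣ 1 := by
  intro h
  have := Int.le_of_dvd one_pos h
  have := hℓ.two_le
  omega

theorem tr43_smul_cancel {c : ℤ} (hc : c ≠ 0) {A B : Matrix (Fin 2) (Fin 2) ℤ}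
    (h : c • A = c • B) : A = B := by
  ext i j
  have := congrFun (congrFun h i) j
  simp only [Matrix.smul_apply, smul_eq_mul] at this
  exact mul_left_cancel₀ hc this

theorem tr43_lbMat_10 (ℓ : ℕ) (i : Option (Fin ℓ)) : (lbMat ℓ i) 1 0 = 0 := by
  cases i <;> simp [lbMat]

theorem tr43_lbMat_00 (ℓ : ℕ) (i : Option (Fin ℓ)) : (lbMat ℓ i) 0 0 = ℓ ∨ (lbMat ℓ i) 0 0 = 1 := by
  cases i <;> simp [lbMat]

/-- cancelling a common right factor up to `Γ₀(N)` on the left. -/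
theorem tr43_cancel_left {N : ℕ} (κ₁ κ₂ : Gamma0 N) {A B P : Matrix (Fin 2) (Fin 2) ℤ}
    (h₁ : A = ((κ₁ : SL(2, ℤ)) : Matrix (Fin 2) (Fin 2) ℤ) * P)
    (h₂ : B = ((κ₂ : SL(2, ℤ)) : Matrix (Fin 2) (Fin 2) ℤ) * P) :
    (((κ₁⁻¹ : Gamma0 N) : SL(2, ℤ)) : Matrix (Fin 2) (Fin 2) ℤ) * A
      = (((κ₂⁻¹ : Gamma0 N) : SL(2, ℤ)) : Matrix (Fin 2) (Fin 2) ℤ) * B := by
  have key : ∀ κ : Gamma0 N, (((κ⁻¹ : Gamma0 N) : SL(2, ℤ)) : Matrix (Fin 2) (Fin 2) ℤ)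
      * (((κ : SL(2, ℤ)) : Matrix (Fin 2) (Fin 2) ℤ) * P) = P := by
    intro κ
    rw [← mul_assoc, ← Matrix.SpecialLinearGroup.coe_mul, ← Subgroup.coe_mul, inv_mul_cancel,
      Subgroup.coe_one, Matrix.SpecialLinearGroup.coe_one, one_mul]
  rw [h₁, h₂, key, key]

namespace tr43_Data

variable {N q : ℕ} (D : tr43_Data N q)

/-- `w M = M' w` for every integer matrix `M` with lower left entry divisible by `N q`. -/
theorem w_mul (M : Matrix (Fin 2) (Fin 2) ℤ) (hM : ((N * q : ℕ) : ℤ) ∣ M 1 0) :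
    ∃ M' : Matrix (Fin 2) (Fin 2) ℤ,
      D.w * M = M' * D.w ∧ ((N * q : ℕ) : ℤ) ∣ M' 1 0 ∧ M'.det = M.det := by
  have h := D.det
  have hg := tr43_eta M
  generalize M 0 0 = a at hg
  generalize M 0 1 = b at hg
  generalize M 1 0 = c at hg hM
  generalize M 1 1 = d at hg
  subst hg
  obtain ⟨c', rfl⟩ := hM
  refine ⟨!![((q : ℤ) * D.x * a + D.y * ((N : ℤ) * q * c')) * D.t
      - ((q : ℤ) * D.x * b + D.y * d) * ((N : ℤ) * D.z),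
    -(D.x * a * D.y) - D.y ^ 2 * (N : ℤ) * c' + (q : ℤ) * D.x ^ 2 * b + D.x * D.y * d;
    ((N * q : ℕ) : ℤ) * (D.z * a * D.t + (q : ℤ) * c' * D.t ^ 2 - (N : ℤ) * D.z ^ 2 * b
      - D.t * d * D.z),
    -(((N : ℤ) * D.z * a + D.t * ((N : ℤ) * q * c')) * D.y)
      + ((N : ℤ) * D.z * b + D.t * d) * ((q : ℤ) * D.x)], ?_, ?_, ?_⟩
  · rw [w, tr43_mul_of, tr43_mul_of]
    push_cast
    refine lb_mk_eq ?_ ?_ ?_ ?_
    · linear_combination (-((q : ℤ) * D.x * a + D.y * ((N : ℤ) * q * c'))) * h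
    · linear_combination (-((q : ℤ) * D.x * b + D.y * d)) * h
    · linear_combination (-((N : ℤ) * q * D.z * a + (q : ℤ) * D.t * ((N : ℤ) * q * c'))) * h
    · linear_combination (-((N : ℤ) * q * D.z * b + (q : ℤ) * D.t * d)) * h
  · exact dvd_mul_right _ _
  · rw [tr43_det_of, tr43_det_of]
    push_cast
    linear_combination (((q : ℤ) * D.x * D.t - (N : ℤ) * D.y * D.z + 1)
      * (a * d - b * ((N : ℤ) * q * c'))) * h

/-- left cancellation of `w`. -/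
theorem w_cancel (hq : q ≠ 0) {A B : Matrix (Fin 2) (Fin 2) ℤ} (h : D.w * A = D.w * B) :
    A = B := by
  have hq' : (q : ℤ) ≠ 0 := by exact_mod_cast hq
  apply tr43_smul_cancel hq'
  have h1 : ∀ C : Matrix (Fin 2) (Fin 2) ℤ, (q : ℤ) • C = D.inv.w * (D.w * C) := by
    intro C
    rw [← mul_assoc, D.inv_mul_w, Matrix.smul_mul, one_mul]
  rw [h1, h1, h]

/-- `M w = w M'` for every integer matrix `M` with lower left entry divisible by `N q`. -/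
theorem mul_w (hq : q ≠ 0) (M : Matrix (Fin 2) (Fin 2) ℤ) (hM : ((N * q : ℕ) : ℤ) ∣ M 1 0) :
    ∃ M' : Matrix (Fin 2) (Fin 2) ℤ,
      M * D.w = D.w * M' ∧ ((N * q : ℕ) : ℤ) ∣ M' 1 0 ∧ M'.det = M.det := by
  have hq' : (q : ℤ) ≠ 0 := by exact_mod_cast hq
  obtain ⟨M', h1, h2, h3⟩ := D.inv.w_mul M hM
  refine ⟨M', ?_, h2, h3⟩
  apply tr43_smul_cancel hq'
  calc (q : ℤ) • (M * D.w) = (D.w * D.inv.w) * (M * D.w) := by
        rw [D.w_mul_inv, Matrix.smul_mul, one_mul]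
    _ = D.w * ((D.inv.w * M) * D.w) := by simp only [mul_assoc]
    _ = D.w * ((M' * D.inv.w) * D.w) := by rw [h1]
    _ = (D.w * M') * (D.inv.w * D.w) := by simp only [mul_assoc]
    _ = (q : ℤ) • (D.w * M') := by rw [D.inv_mul_w, Matrix.mul_smul, mul_one]

end tr43_Data

section Action3

variable {X : Type*} [MulAction (GL (Fin 2) ℚ) X] {A : Type*} [AddCommGroup A]
variable {N q : ℕ}

/-- `T_ℓ` commutes with the Atkin–Lehner operator `W_q` on `Γ₀(N q)`-invariant functions. -/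
theorem tr43_T_W {ℓ : ℕ} (hℓ : ℓ.Prime) (hℓNq : ¬ ℓ ∣ N * q) (hq : q ≠ 0) (D : tr43_Data N q)
    {Φ : X → A} (hΦ : tr43_Inv (N * q) Φ) :
    tr43_T ℓ (tr43_W D Φ) = tr43_W D (tr43_T ℓ Φ) := by
  have hq' : (q : ℤ) ≠ 0 := by exact_mod_cast hq
  have hw : D.w.det ≠ 0 := by rw [D.w_det]; exact hq'
  have hα : ∀ i, (lbMat ℓ i).det ≠ 0 := tr43_lbMat_det_ne hℓ.ne_zero
  have hL : tr43_T ℓ (tr43_W D Φ) = ∑ i, tr43_sl Φ (D.w * lbMat ℓ i) := by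
    rw [tr43_T]
    exact Finset.sum_congr rfl fun i _ => by rw [tr43_W, tr43_sl_sl Φ hw (hα i)]
  have hR : tr43_W D (tr43_T ℓ Φ) = ∑ i, tr43_sl Φ (lbMat ℓ i * D.w) := by
    rw [tr43_W, tr43_T, tr43_sl_sum]
    exact Finset.sum_congr rfl fun i _ => by rw [tr43_sl_sl Φ (hα i) hw]
  rw [hL, hR]
  refine tr43_sum_reindex hΦ _ _
    (fun j => by rw [Matrix.det_mul]; exact mul_ne_zero (hα j) hw) ?_ ?_
  · intro i
    obtain ⟨M', h1, h2, h3⟩ := D.w_mul (lbMat ℓ i) (by rw [tr43_lbMat_10]; exact dvd_zero _)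
    obtain ⟨j, κ, hκ⟩ := tr43_hnf hℓ hℓNq M' (by rw [h3, tr43_lbMat_det]) h2
    exact ⟨j, κ, by rw [h1, hκ, mul_assoc]⟩
  · intro i₁ i₂ j κ₁ κ₂ e₁ e₂
    have e := tr43_cancel_left κ₁ κ₂ e₁ e₂
    obtain ⟨K₁, k1, -, k1det⟩ := D.mul_w hq _ (lb_Gamma0_dvd (κ₁⁻¹))
    obtain ⟨K₂, k2, -, k2det⟩ := D.mul_w hq _ (lb_Gamma0_dvd (κ₂⁻¹))
    rw [← mul_assoc, ← mul_assoc, k1, k2, mul_assoc, mul_assoc] at e
    have e' := D.w_cancel hq e
    refine (tr43_rdiv_unique hℓ K₁ K₂ ?_ i₁ i₂ e').1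
    rw [k1det, ((κ₁⁻¹ : Gamma0 (N * q)) : SL(2, ℤ)).2]
    exact tr43_not_dvd_one hℓ

/-- `T_ℓ` commutes with the trace from `Γ₀(N q)` to `Γ₀(N)`. -/
theorem tr43_T_tr {ℓ : ℕ} (hℓ : ℓ.Prime) (hℓNq : ¬ ℓ ∣ N * q) (hq : q.Prime)
    (D : tr43_Data N q) {Φ : X → A} (hΦ : tr43_Inv (N * q) Φ) :
    tr43_T ℓ (tr43_tr D Φ) = tr43_tr D (tr43_T ℓ Φ) := by
  have hα : ∀ i, (lbMat ℓ i).det ≠ 0 := tr43_lbMat_det_ne hℓ.ne_zero
  have hL : tr43_T ℓ (tr43_tr D Φ) = ∑ p : Option (Fin ℓ) × Option (Fin q),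
      tr43_sl Φ (((D.rep p.2 : SL(2, ℤ)) : Matrix (Fin 2) (Fin 2) ℤ) * lbMat ℓ p.1) := by
    rw [tr43_T, Fintype.sum_prod_type]
    refine Finset.sum_congr rfl fun i _ => ?_
    rw [tr43_tr, tr43_sl_sum]
    exact Finset.sum_congr rfl fun ρ _ => by rw [tr43_sl_sl Φ (tr43_sl_det_ne _) (hα i)]
  have hR : tr43_tr D (tr43_T ℓ Φ) = ∑ p : Option (Fin ℓ) × Option (Fin q),
      tr43_sl Φ (lbMat ℓ p.1 * ((D.rep p.2 : SL(2, ℤ)) : Matrix (Fin 2) (Fin 2) ℤ)) := by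
    rw [tr43_tr, Fintype.sum_prod_type_right]
    refine Finset.sum_congr rfl fun ρ _ => ?_
    rw [tr43_T, tr43_sl_sum]
    exact Finset.sum_congr rfl fun i _ => by rw [tr43_sl_sl Φ (hα i) (tr43_sl_det_ne _)]
  rw [hL, hR]
  refine tr43_sum_reindex hΦ _ _
    (fun p => by rw [Matrix.det_mul]; exact mul_ne_zero (hα _) (tr43_sl_det_ne _)) ?_ ?_
  · rintro ⟨i, ρ⟩
    have hN : (N : ℤ) ∣ (((D.rep ρ : SL(2, ℤ)) : Matrix (Fin 2) (Fin 2) ℤ) * lbMat ℓ i) 1 0 := by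
      rw [Matrix.mul_apply, Fin.sum_univ_two, tr43_lbMat_10, mul_zero, add_zero]
      exact Dvd.dvd.mul_right (lb_Gamma0_dvd _) _
    obtain ⟨ρ', M', hM', hdvd⟩ := D.rep_exists hq _ hN
    have hdet : M'.det = ℓ := by
      have := congrArg Matrix.det hM'
      rw [Matrix.det_mul, Matrix.det_mul, (D.rep ρ : SL(2, ℤ)).2, (D.rep ρ' : SL(2, ℤ)).2,
        tr43_lbMat_det, one_mul, mul_one] at this
      exact this.symm
    obtain ⟨i', κ, hκ⟩ := tr43_hnf hℓ hℓNq M' hdet hdvd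
    exact ⟨(i', ρ'), κ, by rw [hM', hκ, mul_assoc]⟩
  · rintro ⟨i₁, ρ₁⟩ ⟨i₂, ρ₂⟩ ⟨j, ρ⟩ κ₁ κ₂ e₁ e₂
    have e := tr43_cancel_left κ₁ κ₂ e₁ e₂
    rw [← mul_assoc, ← mul_assoc] at e
    obtain ⟨hi, hK⟩ := tr43_rdiv_unique hℓ _ _ (by
      rw [Matrix.det_mul, ((κ₁⁻¹ : Gamma0 (N * q)) : SL(2, ℤ)).2, (D.rep ρ₁ : SL(2, ℤ)).2,
        mul_one]
      exact tr43_not_dvd_one hℓ) i₁ i₂ e
    have hK' : ((κ₁⁻¹ : Gamma0 (N * q)) : SL(2, ℤ)) * (D.rep ρ₁ : SL(2, ℤ))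
        = ((κ₂⁻¹ : Gamma0 (N * q)) : SL(2, ℤ)) * (D.rep ρ₂ : SL(2, ℤ)) := Subtype.ext hK
    have e₃ : (D.rep ρ₁ : SL(2, ℤ))
        = ((κ₁ * κ₂⁻¹ : Gamma0 (N * q)) : SL(2, ℤ)) * (D.rep ρ₂ : SL(2, ℤ)) := by
      calc (D.rep ρ₁ : SL(2, ℤ))
          = (κ₁ : SL(2, ℤ)) * (((κ₁⁻¹ : Gamma0 (N * q)) : SL(2, ℤ)) * (D.rep ρ₁ : SL(2, ℤ))) := by
            rw [Subgroup.coe_inv, mul_inv_cancel_left]
        _ = (κ₁ : SL(2, ℤ)) * (((κ₂⁻¹ : Gamma0 (N * q)) : SL(2, ℤ)) * (D.rep ρ₂ : SL(2, ℤ))) := by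
            rw [hK']
        _ = ((κ₁ * κ₂⁻¹ : Gamma0 (N * q)) : SL(2, ℤ)) * (D.rep ρ₂ : SL(2, ℤ)) := by
            rw [Subgroup.coe_mul, mul_assoc]
    have hρ : ρ₁ = ρ₂ := by
      refine D.rep_unique hq ρ₁ ρ₂ _ ?_ (congrArg Subtype.val e₃)
      exact (Int.natCast_dvd_natCast.mpr (dvd_mul_left q N)).trans (lb_Gamma0_dvd (κ₁ * κ₂⁻¹))
    rw [hi, hρ]

/-- `T_ℓ` commutes with `U_q` on `Γ₀(M)`-invariant functions (`ℓ ≠ q` primes, `ℓ ∤ M`). -/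
theorem tr43_T_U {M ℓ : ℕ} (hℓ : ℓ.Prime) (hℓM : ¬ ℓ ∣ M) (hq : q.Prime) (hℓq : ℓ ≠ q)
    {Φ : X → A} (hΦ : tr43_Inv M Φ) :
    tr43_T ℓ (tr43_U q Φ) = tr43_U q (tr43_T ℓ Φ) := by
  have hα : ∀ i, (lbMat ℓ i).det ≠ 0 := tr43_lbMat_det_ne hℓ.ne_zero
  have hβ : ∀ i, (lbMat q i).det ≠ 0 := tr43_lbMat_det_ne hq.ne_zero
  have hqℓ : ¬ (q : ℤ) ∣ (ℓ : ℤ) := by
    rw [Int.natCast_dvd_natCast, Nat.prime_dvd_prime_iff_eq hq hℓ]
    exact fun h => hℓq h.symm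
  have hℓq' : ¬ (ℓ : ℤ) ∣ (q : ℤ) := by
    rw [Int.natCast_dvd_natCast, Nat.prime_dvd_prime_iff_eq hℓ hq]
    exact hℓq
  have hL : tr43_T ℓ (tr43_U q Φ) = ∑ p : Option (Fin ℓ) × Fin q,
      tr43_sl Φ (lbMat q (some p.2) * lbMat ℓ p.1) := by
    rw [tr43_T, Fintype.sum_prod_type]
    refine Finset.sum_congr rfl fun i _ => ?_
    rw [tr43_U, tr43_sl_sum]
    exact Finset.sum_congr rfl fun b _ => by rw [tr43_sl_sl Φ (hβ _) (hα i)]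
  have hR : tr43_U q (tr43_T ℓ Φ) = ∑ p : Option (Fin ℓ) × Fin q,
      tr43_sl Φ (lbMat ℓ p.1 * lbMat q (some p.2)) := by
    rw [tr43_U, Fintype.sum_prod_type_right]
    refine Finset.sum_congr rfl fun b _ => ?_
    rw [tr43_T, tr43_sl_sum]
    exact Finset.sum_congr rfl fun i _ => by rw [tr43_sl_sl Φ (hα i) (hβ _)]
  rw [hL, hR]
  refine tr43_sum_reindex hΦ _ _
    (fun p => by rw [Matrix.det_mul]; exact mul_ne_zero (hα _) (hβ _)) ?_ ?_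
  · rintro ⟨i, b⟩
    have h00 : ¬ (q : ℤ) ∣ (lbMat q (some b) * lbMat ℓ i) 0 0 := by
      rw [Matrix.mul_apply, Fin.sum_univ_two, tr43_lbMat_10, mul_zero, add_zero,
        tr43_lbMat_some']
      simp only [Matrix.of_apply, Matrix.cons_val_zero, one_mul]
      rcases tr43_lbMat_00 ℓ i with h | h <;> rw [h]
      · exact hqℓ
      · exact tr43_not_dvd_one hq
    have h10 : (lbMat q (some b) * lbMat ℓ i) 1 0 = 0 := by
      rw [Matrix.mul_apply, Fin.sum_univ_two, tr43_lbMat_10, tr43_lbMat_10, mul_zero, zero_mul,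
        add_zero]
    obtain ⟨b', M', hM', hM10⟩ := tr43_rdiv_some hq (lbMat q (some b) * lbMat ℓ i)
      (by rw [Matrix.det_mul, tr43_lbMat_det]; exact dvd_mul_right _ _) h00
    have hdet : M'.det = ℓ := by
      have := congrArg Matrix.det hM'
      rw [Matrix.det_mul, Matrix.det_mul, tr43_lbMat_det, tr43_lbMat_det, tr43_lbMat_det] at this
      have hq0 : (q : ℤ) ≠ 0 := by exact_mod_cast hq.ne_zero
      exact (mul_right_cancel₀ hq0 (by linear_combination this)).symm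
    obtain ⟨i', κ, hκ⟩ := tr43_hnf hℓ hℓM M' hdet (by rw [hM10, h10]; exact dvd_zero _)
    exact ⟨(i', b'), κ, by rw [hM', hκ, mul_assoc]⟩
  · rintro ⟨i₁, b₁⟩ ⟨i₂, b₂⟩ ⟨j, b⟩ κ₁ κ₂ e₁ e₂
    have e := tr43_cancel_left κ₁ κ₂ e₁ e₂
    rw [← mul_assoc, ← mul_assoc] at e
    obtain ⟨hi, hK⟩ := tr43_rdiv_unique hℓ _ _ (by
      rw [Matrix.det_mul, ((κ₁⁻¹ : Gamma0 M) : SL(2, ℤ)).2, tr43_lbMat_det, one_mul]
      exact hℓq') i₁ i₂ e
    obtain ⟨hb, -⟩ := tr43_rdiv_unique hq _ _ (by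
      rw [((κ₁⁻¹ : Gamma0 M) : SL(2, ℤ)).2]
      exact tr43_not_dvd_one hq) (some b₁) (some b₂) hK
    rw [hi, Option.some.inj hb]

/-- `T_ℓ` and `T_ℓ'` commute on `Γ₀(M)`-invariant functions (`ℓ ≠ ℓ'` primes not dividing `M`). -/
theorem tr43_T_T {M ℓ ℓ' : ℕ} (hℓ : ℓ.Prime) (hℓM : ¬ ℓ ∣ M) (hℓ' : ℓ'.Prime) (hℓ'M : ¬ ℓ' ∣ M)
    (hne : ℓ ≠ ℓ') {Φ : X → A} (hΦ : tr43_Inv M Φ) :
    tr43_T ℓ (tr43_T ℓ' Φ) = tr43_T ℓ' (tr43_T ℓ Φ) := by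
  have hα : ∀ i, (lbMat ℓ i).det ≠ 0 := tr43_lbMat_det_ne hℓ.ne_zero
  have hβ : ∀ i, (lbMat ℓ' i).det ≠ 0 := tr43_lbMat_det_ne hℓ'.ne_zero
  have hℓℓ' : ¬ (ℓ : ℤ) ∣ (ℓ' : ℤ) := by
    rw [Int.natCast_dvd_natCast, Nat.prime_dvd_prime_iff_eq hℓ hℓ']
    exact hne
  have hcop : IsCoprime (M : ℤ) (ℓ' : ℤ) := by
    rw [Int.isCoprime_iff_gcd_eq_one, Int.gcd_natCast_natCast]
    exact ((Nat.Prime.coprime_iff_not_dvd hℓ').mpr hℓ'M).symm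
  have hL : tr43_T ℓ (tr43_T ℓ' Φ) = ∑ p : Option (Fin ℓ) × Option (Fin ℓ'),
      tr43_sl Φ (lbMat ℓ' p.2 * lbMat ℓ p.1) := by
    rw [tr43_T, Fintype.sum_prod_type]
    refine Finset.sum_congr rfl fun i _ => ?_
    rw [tr43_T, tr43_sl_sum]
    exact Finset.sum_congr rfl fun b _ => by rw [tr43_sl_sl Φ (hβ _) (hα i)]
  have hR : tr43_T ℓ' (tr43_T ℓ Φ) = ∑ p : Option (Fin ℓ) × Option (Fin ℓ'),
      tr43_sl Φ (lbMat ℓ p.1 * lbMat ℓ' p.2) := by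
    rw [tr43_T, Fintype.sum_prod_type_right]
    refine Finset.sum_congr rfl fun b _ => ?_
    rw [tr43_T, tr43_sl_sum]
    exact Finset.sum_congr rfl fun i _ => by rw [tr43_sl_sl Φ (hα i) (hβ _)]
  rw [hL, hR]
  refine tr43_sum_reindex hΦ _ _
    (fun p => by rw [Matrix.det_mul]; exact mul_ne_zero (hα _) (hβ _)) ?_ ?_
  · rintro ⟨i, b⟩
    have h10 : (lbMat ℓ' b * lbMat ℓ i) 1 0 = 0 := by
      rw [Matrix.mul_apply, Fin.sum_univ_two, tr43_lbMat_10, tr43_lbMat_10, mul_zero, zero_mul,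
        add_zero]
    obtain ⟨b', M', hM', hM10⟩ := tr43_rdiv hℓ' (lbMat ℓ' b * lbMat ℓ i)
      (by rw [Matrix.det_mul, tr43_lbMat_det]; exact dvd_mul_right _ _)
    have hdet : M'.det = ℓ := by
      have := congrArg Matrix.det hM'
      rw [Matrix.det_mul, Matrix.det_mul, tr43_lbMat_det, tr43_lbMat_det, tr43_lbMat_det] at this
      have hq0 : (ℓ' : ℤ) ≠ 0 := by exact_mod_cast hℓ'.ne_zero
      exact (mul_right_cancel₀ hq0 (by linear_combination this)).symm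
    obtain ⟨i', κ, hκ⟩ := tr43_hnf hℓ hℓM M' hdet
      (hM10 _ hcop (by rw [h10]; exact dvd_zero _))
    exact ⟨(i', b'), κ, by rw [hM', hκ, mul_assoc]⟩
  · rintro ⟨i₁, b₁⟩ ⟨i₂, b₂⟩ ⟨j, b⟩ κ₁ κ₂ e₁ e₂
    have e := tr43_cancel_left κ₁ κ₂ e₁ e₂
    rw [← mul_assoc, ← mul_assoc] at e
    obtain ⟨hi, hK⟩ := tr43_rdiv_unique hℓ _ _ (by
      rw [Matrix.det_mul, ((κ₁⁻¹ : Gamma0 M) : SL(2, ℤ)).2, tr43_lbMat_det, one_mul]
      exact hℓℓ') i₁ i₂ e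
    obtain ⟨hb, -⟩ := tr43_rdiv_unique hℓ' _ _ (by
      rw [((κ₁⁻¹ : Gamma0 M) : SL(2, ℤ)).2]
      exact tr43_not_dvd_one hℓ') b₁ b₂ hK
    rw [hi, hb]

end Action3

end Fermat.Agent.S41
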