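/-
S41 (level raising), link L11 = (H0) (helper2): the eigenform `f` of level `N` occurs in the
space `V N` of `ℂ`-valued modular symbols of level `N` (conventions C1–C6 of the S41 ruling).

* `el2_trace_sq_of_fixed` : an element of `SL(2, ℤ)` fixing a cusp has `trace ^ 2 = 4`;
* `el2_exists_symbol`     : parabolic lift: every parabolic homomorphism `χ : Γ₀(N) → A` is
                            `ν Φ` for a symbol `Φ` of level `N` (any coefficient group `A`);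
* `el2_T`, `el2_nu`       : the Hecke operators `tr43_T ℓ` (`ℓ ∤ N` prime) and `ν = sc71_nu` as
                            linear maps on `slp10_V N K`;
* `el2_H0`                : for a normalised eigenform `f` of level `N` there is `v ≠ 0` in
                            `slp10_V N ℂ` (automatically in the `ℂ`-span of the lattice
                            `slp10_L N ℂ`) with `tr43_T ℓ v = a_ℓ(f) • v` for every prime `ℓ ∤ N`.
-/
import Mathlib
import Fermat.Agent.S41.EigenLift2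
import Fermat.Agent.S41.SymbCore71
import Fermat.Agent.S41.SymbLatticeP10
import Fermat.Agent.S41.Trace43b
import Fermat.Agent.S41.HomIhara88
import Fermat.Agent.S41.EigenBridge67

set_option autoImplicit false

open CongruenceSubgroup ModularCurve ModularCurve.Period ModularFormClass OnePoint
open scoped MatrixGroups

namespace Fermat.Agent.S41

open Fermat.Agent.S16

/-- An element of `SL(2, ℤ)` fixing a cusp has `trace ^ 2 = 4`. -/
theorem el2_trace_sq_of_fixed (γ : SL(2, ℤ)) (c : OnePoint ℚ)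
    (h : Matrix.SpecialLinearGroup.mapGL ℚ γ • c = c) :
    (γ : Matrix (Fin 2) (Fin 2) ℤ).trace ^ 2 = 4 := by
  obtain ⟨σ, hσ⟩ := slq10_trans c
  rw [slq10_rho_apply] at hσ
  set g : SL(2, ℤ) := σ⁻¹ * γ * σ with hg
  have hfix : Matrix.SpecialLinearGroup.mapGL ℚ g • (∞ : OnePoint ℚ) = ∞ := by
    rw [hg, map_mul, map_mul, mul_smul, mul_smul, hσ, h, map_inv, inv_smul_eq_iff, hσ]
  have h10 : (g 1 0 : ℤ) = 0 := by
    have := OnePoint.smul_infty_eq_self_iff.mp hfix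
    rw [sc71_mapGL_apply] at this
    exact_mod_cast this
  have htr : (g : Matrix (Fin 2) (Fin 2) ℤ).trace = (γ : Matrix (Fin 2) (Fin 2) ℤ).trace := by
    have h1 : (g : Matrix (Fin 2) (Fin 2) ℤ) =
        ((σ⁻¹ : SL(2, ℤ)) : Matrix (Fin 2) (Fin 2) ℤ) * (γ : Matrix (Fin 2) (Fin 2) ℤ) *
          (σ : Matrix (Fin 2) (Fin 2) ℤ) := by
      rw [hg, Matrix.SpecialLinearGroup.coe_mul, Matrix.SpecialLinearGroup.coe_mul]
    have h2 : (σ : Matrix (Fin 2) (Fin 2) ℤ) * ((σ⁻¹ : SL(2, ℤ)) : Matrix (Fin 2) (Fin 2) ℤ) =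
        1 := by
      rw [← Matrix.SpecialLinearGroup.coe_mul, mul_inv_cancel, Matrix.SpecialLinearGroup.coe_one]
    rw [h1, Matrix.trace_mul_comm, ← Matrix.mul_assoc, h2, Matrix.one_mul]
  have hdet : (g 0 0 : ℤ) * g 1 1 - g 0 1 * g 1 0 = 1 := by
    have := g.det_coe
    rwa [Matrix.det_fin_two] at this
  rw [h10, mul_zero, sub_zero] at hdet
  rw [← htr, Matrix.trace_fin_two]
  rcases Int.eq_one_or_neg_one_of_mul_eq_one' hdet with ⟨h1, h2⟩ | ⟨h1, h2⟩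
  · show ((g 0 0 : ℤ) + g 1 1) ^ 2 = 4
    rw [h1, h2]; norm_num
  · show ((g 0 0 : ℤ) + g 1 1) ^ 2 = 4
    rw [h1, h2]; norm_num

/-- **Parabolic lift.** Every parabolic homomorphism `χ : Γ₀(N) → A` is the period
homomorphism `ν Φ` of a modular symbol `Φ` of level `N`. -/
theorem el2_exists_symbol {A : Type*} [AddCommGroup A] (N : ℕ) (χ : Additive (Gamma0 N) →+ A)
    (hχ : IsParabolicHom (Gamma0 N) χ) :
    ∃ (Φ : sc71_X → A) (hΦ : sc71_IsSymb Φ) (hinv : tr43_Inv N Φ), sc71_nu N Φ hΦ hinv = χ := by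
  classical
  let f : Gamma0 N →* GL (Fin 2) ℚ :=
    (Matrix.SpecialLinearGroup.mapGL ℚ).comp (Gamma0 N).subtype
  let _ : MulAction (Gamma0 N) (OnePoint ℚ) := MulAction.compHom (OnePoint ℚ) f
  have hsm : ∀ (g : Gamma0 N) (x : OnePoint ℚ),
      g • x = Matrix.SpecialLinearGroup.mapGL ℚ (g : SL(2, ℤ)) • x := fun _ _ => rfl
  obtain ⟨pot, hpot⟩ := hi88_exists_potential (G := Gamma0 N) (X := OnePoint ℚ)
    (fun g => χ (Additive.ofMul g))
    (fun g h => by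
      show χ (Additive.ofMul (g * h)) = _
      rw [ofMul_mul, map_add])
    (fun g x hx => by
      rw [hsm] at hx
      exact hχ g (el2_trace_sq_of_fixed (g : SL(2, ℤ)) x hx))
  have hΦ : sc71_IsSymb (fun x : sc71_X => pot x.2 - pot x.1) := fun a b c => by
    show (pot b - pot a) + (pot c - pot b) = pot c - pot a
    abel
  have hinv : tr43_Inv N (fun x : sc71_X => pot x.2 - pot x.1) := by
    rintro γ ⟨a, b⟩
    show pot (Matrix.SpecialLinearGroup.mapGL ℚ (γ : SL(2, ℤ)) • b) -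
      pot (Matrix.SpecialLinearGroup.mapGL ℚ (γ : SL(2, ℤ)) • a) = pot b - pot a
    rw [← hsm, ← hsm, hpot, hpot]
    abel
  refine ⟨_, hΦ, hinv, ?_⟩
  apply AddMonoidHom.ext
  intro γ
  have h1 := sc71_nu_apply hΦ hinv (Additive.toMul γ) ∞
  rw [ofMul_toMul] at h1
  rw [h1]
  show pot (Matrix.SpecialLinearGroup.mapGL ℚ ((Additive.toMul γ : Gamma0 N) : SL(2, ℤ)) • ∞) -
    pot ∞ = χ γ
  rw [← hsm, hpot]
  show pot ∞ + χ (Additive.ofMul (Additive.toMul γ)) - pot ∞ = χ γ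
  rw [ofMul_toMul]
  abel

section Linear

variable (N : ℕ) (K : Type*) [Field K]

theorem el2_T_smul (ℓ : ℕ) (c : K) (Φ : sc71_X → K) :
    tr43_T ℓ (c • Φ) = c • tr43_T ℓ Φ := by
  funext x
  rw [Pi.smul_apply, tr43_T_apply, tr43_T_apply, smul_eq_mul, Finset.mul_sum]
  rfl

/-- The Hecke operator `T_ℓ` (`ℓ ∤ N` prime) as an endomorphism of the space `slp10_V N K` of
`K`-valued symbols of level `N`. -/
noncomputable def el2_T (ℓ : {ℓ : ℕ // ℓ.Prime ∧ ¬ ℓ ∣ N}) : Module.End K (slp10_V N K) where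
  toFun v := ⟨tr43_T (ℓ : ℕ) (v : sc71_X → K),
    ⟨sc71_IsSymb.T (Φ := (v : sc71_X → K)) v.2.1 ℓ, tr43_T_Inv ℓ.2.1 ℓ.2.2 v.2.2⟩⟩
  map_add' _ _ := Subtype.ext (tr43_T_add _ _ _)
  map_smul' c _ := Subtype.ext (el2_T_smul K _ c _)

theorem el2_T_coe (ℓ : {ℓ : ℕ // ℓ.Prime ∧ ¬ ℓ ∣ N}) (v : slp10_V N K) :
    ((el2_T N K ℓ v : slp10_V N K) : sc71_X → K) = tr43_T (ℓ : ℕ) (v : sc71_X → K) := rfl

theorem el2_T_commute (a b : {ℓ : ℕ // ℓ.Prime ∧ ¬ ℓ ∣ N}) :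
    Commute (el2_T N K a) (el2_T N K b) := by
  by_cases hab : a = b
  · rw [hab]
  · apply LinearMap.ext
    intro v
    apply Subtype.ext
    exact tr43_T_T a.2.1 a.2.2 b.2.1 b.2.2 (fun h => hab (Subtype.ext h)) v.2.2

/-- The period map `ν` (`sc71_nu`) as a linear map on `slp10_V N K`. -/
noncomputable def el2_nu : slp10_V N K →ₗ[K] (Additive (Gamma0 N) →+ K) where
  toFun v := sc71_nu N (v : sc71_X → K) v.2.1 v.2.2
  map_add' _ _ := AddMonoidHom.ext fun _ => rfl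
  map_smul' _ _ := AddMonoidHom.ext fun _ => rfl

theorem el2_nu_apply (v : slp10_V N K) :
    el2_nu N K v = sc71_nu N (v : sc71_X → K) v.2.1 v.2.2 := rfl

theorem el2_nu_T (ℓ : {ℓ : ℕ // ℓ.Prime ∧ ¬ ℓ ∣ N}) (v : slp10_V N K) :
    el2_nu N K (el2_T N K ℓ v) = heckeHom N ℓ K (el2_nu N K v) :=
  sc71_nu_T ℓ.2.1 ℓ.2.2 v.2.1 v.2.2

end Linear

/-- **Link (H0).** A normalised eigenform `f` of level `N` gives a nonzero `ℂ`-valued symbol
`v` of level `N`, in the `ℂ`-span of the integral symbols, which is an eigenvector of every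
`T_ℓ` (`ℓ ∤ N` prime) with eigenvalue `a_ℓ(f)`. -/
theorem el2_H0 (N : ℕ) [NeZero N] {f : CuspForm (Gamma0 N) 2} (hf : f.IsNormalizedEigenform) :
    ∃ v : slp10_V N ℂ, v ≠ 0 ∧ v ∈ Submodule.span ℂ (slp10_L N ℂ : Set (slp10_V N ℂ)) ∧
      ∀ ℓ : ℕ, ℓ.Prime → ¬ ℓ ∣ N →
        tr43_T ℓ (v : sc71_X → ℂ) = qCoeff (⇑f) ℓ • (v : sc71_X → ℂ) := by
  obtain ⟨hpar, hne, heig⟩ := eb67_periodMap_eigen N hf
  obtain ⟨Φ, hΦ, hinv, hν⟩ := el2_exists_symbol N (periodMap N f) hpar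
  let x : slp10_V N ℂ := ⟨Φ, hΦ, hinv⟩
  have hx : el2_nu N ℂ x = periodMap N f := hν
  obtain ⟨v, hv0, hvL, hT⟩ := el2_eigen_lift_lattice (slp10_L N ℂ) (slp10_L_fg N ℂ)
    (slp10_L_span N ℂ) (el2_T N ℂ)
    (fun ℓ : {ℓ : ℕ // ℓ.Prime ∧ ¬ ℓ ∣ N} => heckeHom N (ℓ : ℕ) ℂ)
    (el2_T_commute N ℂ) (el2_nu N ℂ) (el2_nu_T N ℂ) x (by rw [hx]; exact hne)
    (fun ℓ => qCoeff (⇑f) (ℓ : ℕ)) (fun ℓ => by rw [hx]; exact heig ℓ ℓ.2.1)
  refine ⟨v, hv0, hvL, fun ℓ hℓ hℓN => ?_⟩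
  exact congrArg Subtype.val (hT ⟨ℓ, hℓ, hℓN⟩)

end Fermat.Agent.S41
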