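/-
S41 (level raising), link (H0): EIGEN-LIFT (helper2).

The eigenform `f` of level `N` gives a common eigenvector of the Hecke operators only in
`Hom_par(Γ₀(N), ℂ)` (period map).  A symbol `φ` with `ν φ = periodMap f` is an eigen-symbol only
modulo boundary symbols.  The lemmas below produce an honest common eigenvector with the same
eigenvalues upstairs:

* `el2_common_kernel`: pairwise commuting endomorphisms `N a` of a finite-dimensional space
  with `⨆ a, range (N a) ≠ ⊤` have a common kernel vector `v ≠ 0` (Fitting induction; no
  hypothesis on the field, arbitrary index type);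
* `el2_eigen_lift`: if `π : V → V'` intertwines commuting `T a` with `T' a` and `π x ≠ 0` is a
  common eigenvector of the `T' a` with eigenvalues `c a`, then `V` contains a common eigenvector
  `v ≠ 0` of the `T a` with the same eigenvalues;
* `el2_eigen_lift_lattice`: the same with finite-dimensionality given by a finitely generated
  lattice spanning `V` (the `hfg`/`hspan` shape of the level-raising algebra).
-/
import Mathlib

set_option autoImplicit false

namespace Fermat.Agent.S41

universe u v w

section CommonKernel

variable (K : Type u) [Field K]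

/-- Pairwise commuting nilpotent endomorphisms of a nonzero finite-dimensional space have a
common kernel vector. -/
theorem el2_nilpotent_kernel_aux {ι : Type w} :
    ∀ (n : ℕ) (V : Type v) [AddCommGroup V] [Module K V] [FiniteDimensional K V] [Nontrivial V]
      (N : ι → Module.End K V), Module.finrank K V = n →
      (∀ a b, Commute (N a) (N b)) → (∀ a, IsNilpotent (N a)) →
      ∃ v : V, v ≠ 0 ∧ ∀ a, N a v = 0 := by
  intro n
  induction n using Nat.strong_induction_on with
  | _ n ih =>
    intro V _ _ _ _ N hn hc hnil
    by_cases h0 : ∀ a, N a = 0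
    · obtain ⟨v, hv⟩ := exists_ne (0 : V)
      exact ⟨v, hv, fun a => by rw [h0 a]; rfl⟩
    · push Not at h0
      obtain ⟨b, hb⟩ := h0
      have hstab : ∀ a, ∀ x ∈ LinearMap.ker (N b), N a x ∈ LinearMap.ker (N b) := by
        intro a x hx
        rw [LinearMap.mem_ker] at hx ⊢
        have h1 : N b (N a x) = N a (N b x) := by
          have := congrArg (fun f : Module.End K V => f x) (hc b a).eq
          simpa using this
        rw [h1, hx, map_zero]
      have hne : LinearMap.ker (N b) ≠ ⊤ := by
        intro htop
        apply hb
        apply LinearMap.ext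
        intro x
        have : x ∈ LinearMap.ker (N b) := by rw [htop]; trivial
        simpa using this
      have hlt : Module.finrank K (LinearMap.ker (N b)) < n := by
        rw [← hn]
        exact Submodule.finrank_lt hne
      have hnt : Nontrivial (LinearMap.ker (N b)) := by
        rw [Submodule.nontrivial_iff_ne_bot]
        intro hbot
        obtain ⟨k, hk⟩ := hnil b
        have hinj : Function.Injective (N b) := LinearMap.ker_eq_bot.mp hbot
        have hinjk : Function.Injective ((N b) ^ k) := by
          rw [Module.End.coe_pow]
          exact hinj.iterate k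
        obtain ⟨v, hv⟩ := exists_ne (0 : V)
        apply hv
        apply hinjk
        rw [hk]
        simp
      let N0 : ι → Module.End K (LinearMap.ker (N b)) := fun a => (N a).restrict (hstab a)
      have hc0 : ∀ a a', Commute (N0 a) (N0 a') := by
        intro a a'
        apply LinearMap.ext
        intro x
        apply Subtype.ext
        have := congrArg (fun f : Module.End K V => f (x : V)) (hc a a').eq
        simpa [N0] using this
      have hnil0 : ∀ a, IsNilpotent (N0 a) := by
        intro a
        obtain ⟨k, hk⟩ := hnil a
        refine ⟨k, ?_⟩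
        apply LinearMap.ext
        intro x
        apply Subtype.ext
        simp only [N0]
        rw [Module.End.pow_restrict]
        simp [hk]
      obtain ⟨v0, hv0, hv0N⟩ := ih _ hlt (LinearMap.ker (N b)) N0 rfl hc0 hnil0
      refine ⟨v0, fun h => hv0 (Subtype.ext h), fun a => ?_⟩
      have := congrArg Subtype.val (hv0N a)
      simpa [N0] using this

/-- Pairwise commuting endomorphisms of a finite-dimensional space whose ranges do not span
the whole space have a common kernel vector. -/
theorem el2_common_kernel_aux {ι : Type w} :
    ∀ (n : ℕ) (V : Type v) [AddCommGroup V] [Module K V] [FiniteDimensional K V]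
      (N : ι → Module.End K V), Module.finrank K V = n →
      (∀ a b, Commute (N a) (N b)) → (⨆ a, LinearMap.range (N a)) ≠ ⊤ →
      ∃ v : V, v ≠ 0 ∧ ∀ a, N a v = 0 := by
  intro n
  induction n using Nat.strong_induction_on with
  | _ n ih =>
    intro V _ _ _ N hn hc hR
    have hntV : Nontrivial V := by
      by_contra h
      rw [not_nontrivial_iff_subsingleton] at h
      exact hR (Subsingleton.elim _ _)
    by_cases hnil : ∀ a, IsNilpotent (N a)
    · exact el2_nilpotent_kernel_aux K n V N hn hc hnil
    · push Not at hnil
      obtain ⟨b, hb⟩ := hnil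
      obtain ⟨m, hm⟩ := Filter.eventually_atTop.mp
        (LinearMap.eventually_isCompl_ker_pow_range_pow (N b))
      have hm1 := hm (m + 1) (Nat.le_succ m)
      have hstab : ∀ a, ∀ x ∈ LinearMap.ker ((N b) ^ (m + 1)),
          N a x ∈ LinearMap.ker ((N b) ^ (m + 1)) := by
        intro a x hx
        rw [LinearMap.mem_ker] at hx ⊢
        have hcomm : Commute ((N b) ^ (m + 1)) (N a) := (hc b a).pow_left (m + 1)
        have h1 : ((N b) ^ (m + 1)) (N a x) = N a (((N b) ^ (m + 1)) x) := by
          have := congrArg (fun f : Module.End K V => f x) hcomm.eq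
          simpa using this
        rw [h1, hx, map_zero]
      have hne : LinearMap.ker ((N b) ^ (m + 1)) ≠ ⊤ := by
        intro htop
        apply hb
        refine ⟨m + 1, ?_⟩
        apply LinearMap.ext
        intro x
        have : x ∈ LinearMap.ker ((N b) ^ (m + 1)) := by rw [htop]; trivial
        simpa using this
      have hlt : Module.finrank K (LinearMap.ker ((N b) ^ (m + 1))) < n := by
        rw [← hn]
        exact Submodule.finrank_lt hne
      let N0 : ι → Module.End K (LinearMap.ker ((N b) ^ (m + 1))) :=
        fun a => (N a).restrict (hstab a)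
      have hc0 : ∀ a a', Commute (N0 a) (N0 a') := by
        intro a a'
        apply LinearMap.ext
        intro x
        apply Subtype.ext
        have := congrArg (fun f : Module.End K V => f (x : V)) (hc a a').eq
        simpa [N0] using this
      have hR0 : (⨆ a, LinearMap.range (N0 a)) ≠ ⊤ := by
        intro htop
        apply hR
        rw [eq_top_iff]
        have hV0le : LinearMap.ker ((N b) ^ (m + 1)) ≤ ⨆ a, LinearMap.range (N a) := by
          intro x hx
          have hx' : (⟨x, hx⟩ : LinearMap.ker ((N b) ^ (m + 1))) ∈
              ⨆ a, LinearMap.range (N0 a) := by rw [htop]; trivial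
          have h2 : (LinearMap.ker ((N b) ^ (m + 1))).subtype ⟨x, hx⟩ ∈
              Submodule.map (LinearMap.ker ((N b) ^ (m + 1))).subtype
                (⨆ a, LinearMap.range (N0 a)) := Submodule.mem_map_of_mem hx'
          rw [Submodule.map_iSup] at h2
          refine (iSup_mono ?_ : _ ≤ ⨆ a, LinearMap.range (N a)) h2
          intro a
          rintro _ ⟨y, ⟨z, rfl⟩, rfl⟩
          exact ⟨(z : V), rfl⟩
        have hrange : LinearMap.range ((N b) ^ (m + 1)) ≤ ⨆ a, LinearMap.range (N a) := by
          refine le_trans ?_ (le_iSup (fun a => LinearMap.range (N a)) b)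
          rintro _ ⟨y, rfl⟩
          refine ⟨((N b) ^ m) y, ?_⟩
          rw [pow_succ']
          rfl
        calc (⊤ : Submodule K V)
            = LinearMap.ker ((N b) ^ (m + 1)) ⊔ LinearMap.range ((N b) ^ (m + 1)) :=
              hm1.sup_eq_top.symm
          _ ≤ _ := sup_le hV0le hrange
      obtain ⟨v0, hv0, hv0N⟩ := ih _ hlt (LinearMap.ker ((N b) ^ (m + 1))) N0 rfl hc0 hR0
      refine ⟨v0, fun h => hv0 (Subtype.ext h), fun a => ?_⟩
      have := congrArg Subtype.val (hv0N a)
      simpa [N0] using this

end CommonKernel

section Lift

variable {K : Type u} [Field K] {V : Type v} [AddCommGroup V] [Module K V]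
  {V' : Type*} [AddCommGroup V'] [Module K V'] {ι : Type w}

/-- **Common kernel vector.** Pairwise commuting endomorphisms of a finite-dimensional space
whose ranges do not span the whole space have a common kernel vector. -/
theorem el2_common_kernel [FiniteDimensional K V] (N : ι → Module.End K V)
    (hc : ∀ a b, Commute (N a) (N b)) (h : (⨆ a, LinearMap.range (N a)) ≠ ⊤) :
    ∃ v : V, v ≠ 0 ∧ ∀ a, N a v = 0 :=
  el2_common_kernel_aux K _ V N rfl hc h

/-- **Eigen-lift.** `π` intertwines the commuting family `T` on the finite-dimensional space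
`V` with the additive maps `T'` on `V'`; if `π x ≠ 0` is a common eigenvector of the `T' a`
with eigenvalues `c a`, then `V` contains a common eigenvector of the `T a` with the same
eigenvalues. -/
theorem el2_eigen_lift [FiniteDimensional K V] (T : ι → Module.End K V) (T' : ι → V' →+ V')
    (hc : ∀ a b, Commute (T a) (T b)) (π : V →ₗ[K] V')
    (hπ : ∀ a y, π (T a y) = T' a (π y)) (x : V) (hx : π x ≠ 0) (c : ι → K)
    (hc' : ∀ a, T' a (π x) = c a • π x) :
    ∃ v : V, v ≠ 0 ∧ ∀ a, T a v = c a • v := by
  classical
  -- the stable subspace `π⁻¹ (K ∙ π x)`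
  set W0 : Submodule K V := Submodule.comap π (Submodule.span K {π x}) with hW0
  have hker : ∀ a, ∀ w ∈ W0, π (T a w - c a • w) = 0 := by
    intro a w hw
    rw [hW0, Submodule.mem_comap, Submodule.mem_span_singleton] at hw
    obtain ⟨r, hr⟩ := hw
    have hu : π (w - r • x) = 0 := by rw [map_sub, map_smul, hr, sub_self]
    have h1 : π (T a (w - r • x)) = 0 := by rw [hπ, hu, map_zero]
    have h2 : π (T a w) = r • c a • π x := by
      have : T a w = T a (w - r • x) + r • T a x := by
        rw [map_sub, map_smul]; abel
      rw [this, map_add, h1, zero_add, map_smul, hπ, hc']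
    rw [map_sub, h2, map_smul, ← hr, smul_comm]
    exact sub_self _
  have hstab : ∀ a, ∀ w ∈ W0, (T a - c a • (1 : Module.End K V)) w ∈ W0 := by
    intro a w hw
    have h0 : π ((T a - c a • (1 : Module.End K V)) w) = 0 := by
      have := hker a w hw
      simpa using this
    rw [hW0, Submodule.mem_comap, h0]
    exact Submodule.zero_mem _
  let N0 : ι → Module.End K W0 := fun a => (T a - c a • (1 : Module.End K V)).restrict (hstab a)
  have hcN : ∀ a b, Commute (T a - c a • (1 : Module.End K V))
      (T b - c b • (1 : Module.End K V)) := by
    intro a b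
    have h1 : Commute (c a • (1 : Module.End K V)) (T b - c b • (1 : Module.End K V)) :=
      (Commute.one_left _).smul_left _
    have h2 : Commute (T a) (c b • (1 : Module.End K V)) := (Commute.one_right _).smul_right _
    exact ((hc a b).sub_right h2).sub_left h1
  have hc0 : ∀ a b, Commute (N0 a) (N0 b) := by
    intro a b
    apply LinearMap.ext
    intro y
    apply Subtype.ext
    have := congrArg (fun f : Module.End K V => f (y : V)) (hcN a b).eq
    simpa [N0] using this
  have hxW0 : x ∈ W0 := by
    rw [hW0, Submodule.mem_comap]
    exact Submodule.mem_span_singleton_self _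
  have hR0 : (⨆ a, LinearMap.range (N0 a)) ≠ ⊤ := by
    intro htop
    have hle : (⨆ a, LinearMap.range (N0 a)) ≤
        Submodule.comap W0.subtype (LinearMap.ker π) := by
      refine iSup_le fun a => ?_
      rintro _ ⟨w, rfl⟩
      rw [Submodule.mem_comap, LinearMap.mem_ker]
      have := hker a (w : V) w.2
      simpa [N0] using this
    have hxm : (⟨x, hxW0⟩ : W0) ∈ ⨆ a, LinearMap.range (N0 a) := by rw [htop]; trivial
    have := hle hxm
    rw [Submodule.mem_comap, LinearMap.mem_ker] at this
    exact hx this
  obtain ⟨v0, hv0, hv0N⟩ := el2_common_kernel N0 hc0 hR0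
  refine ⟨v0, fun h => hv0 (Subtype.ext h), fun a => ?_⟩
  have := congrArg Subtype.val (hv0N a)
  have h3 : T a (v0 : V) - c a • (v0 : V) = 0 := by simpa [N0] using this
  exact sub_eq_zero.mp h3

/-- A `K`-space spanned by a finitely generated `ℤ`-lattice is finite-dimensional. -/
theorem el2_finiteDimensional_of_lattice (L : Submodule ℤ V) (hfg : L.FG)
    (hspan : Submodule.span K (L : Set V) = ⊤) : FiniteDimensional K V := by
  obtain ⟨S, hS⟩ := hfg
  have h : Submodule.span K (S : Set V) = ⊤ := by
    rw [eq_top_iff, ← hspan]
    apply Submodule.span_le.mpr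
    intro y hy
    rw [← hS] at hy
    exact Submodule.span_subset_span ℤ K _ hy
  exact Module.finite_def.mpr ⟨S, h⟩

/-- **Eigen-lift, lattice form** (finite-dimensionality from a finitely generated spanning
lattice, as in the hypotheses `hfg`, `hspan` of the level-raising algebra). -/
theorem el2_eigen_lift_lattice (L : Submodule ℤ V) (hfg : L.FG)
    (hspan : Submodule.span K (L : Set V) = ⊤)
    (T : ι → Module.End K V) (T' : ι → V' →+ V')
    (hc : ∀ a b, Commute (T a) (T b)) (π : V →ₗ[K] V')
    (hπ : ∀ a y, π (T a y) = T' a (π y)) (x : V) (hx : π x ≠ 0) (c : ι → K)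
    (hc' : ∀ a, T' a (π x) = c a • π x) :
    ∃ v : V, v ≠ 0 ∧ v ∈ Submodule.span K (L : Set V) ∧ ∀ a, T a v = c a • v := by
  have := el2_finiteDimensional_of_lattice L hfg hspan
  obtain ⟨v, hv, hT⟩ := el2_eigen_lift T T' hc π hπ x hx c hc'
  exact ⟨v, hv, by rw [hspan]; trivial, hT⟩

end Lift

end Fermat.Agent.S41
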