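/-
S41 / M2 (helper76): cusp-adapted Hecke representatives for `ℓ ≡ 1 (mod M)`.

For a cusp `c = σ(∞)`, `σ ∈ SL(2, ℤ)`, the `ℓ + 1` integer matrices
`β_j = σ [[1, j (1 - ℓ)], [0, ℓ]] σ⁻¹` (`j < ℓ`) and `β_∞ = σ diag(ℓ, 1) σ⁻¹` have determinant `ℓ`,
lower-left entry divisible by `M` (this uses `ℓ ≡ 1 (mod M)`), are pairwise `Γ₀(M)`-inequivalent,
and all FIX the cusp `c`.  So they form another full system of representatives for `T_ℓ`.

Consequences: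
* `ca76_cusp_fixed`  : every standard representative maps every cusp into its own `Γ₀(M)`-orbit
  (boundary symbols are killed by `T_ℓ - ℓ - 1`);
* `ca76_heckeHom_parabolic` : for EVERY hom `φ : Γ₀(M) → A` and every `γ` with `tr² = 4`,
  `(T_ℓ φ)(γ) = (ℓ + 1) φ(γ)`; hence `T_ℓ - ℓ - 1` maps `Hom(Γ₀(M), A)` into the parabolic homs.
-/
import Mathlib
import Fermat.Agent.S16.HeckeGamma0

set_option autoImplicit false

open CongruenceSubgroup Matrix.SpecialLinearGroup ModularCurve.Period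
open scoped MatrixGroups

namespace Fermat.Agent.S41

open Fermat.Agent.S16

/-- Hermite normal form: an integer matrix of determinant `ℓ` (prime, `ℓ ∤ M`) with lower-left
entry divisible by `M` is `K * rep` for a standard representative and `K ∈ Γ₀(M)`. -/
theorem ca76_hnf {M ℓ : ℕ} (hℓ : ℓ.Prime) (hℓM : ¬ ℓ ∣ M) (B : Matrix (Fin 2) (Fin 2) ℤ)
    (hdet : B.det = ℓ) (hB : (M : ℤ) ∣ B 1 0) :
    ∃ (i : Option (Fin ℓ)) (K : Matrix (Fin 2) (Fin 2) ℤ), K.det = 1 ∧ (M : ℤ) ∣ K 1 0 ∧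
      B = K * hh_repTInt ℓ i := by
  obtain ⟨a, b, c, d, rfl⟩ : ∃ a b c d : ℤ, B = !![a, b; c, d] :=
    ⟨B 0 0, B 0 1, B 1 0, B 1 1, Matrix.eta_fin_two B⟩
  rw [Matrix.det_fin_two_of] at hdet
  have hc : (M : ℤ) ∣ c := by simpa using hB
  have hℓ0 : (ℓ : ℤ) ≠ 0 := by exact_mod_cast hℓ.ne_zero
  have hℓp : Prime (ℓ : ℤ) := Nat.prime_iff_prime_int.mp hℓ
  -- the generic case: a common `j`
  have key : ∀ j : Fin ℓ, (ℓ : ℤ) ∣ b - (j : ℕ) * a → (ℓ : ℤ) ∣ d - (j : ℕ) * c →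
      ∃ (i : Option (Fin ℓ)) (K : Matrix (Fin 2) (Fin 2) ℤ), K.det = 1 ∧ (M : ℤ) ∣ K 1 0 ∧
        !![a, b; c, d] = K * hh_repTInt ℓ i := by
    rintro j ⟨e, he⟩ ⟨f, hf⟩
    refine ⟨some j, !![a, e; c, f], ?_, by simpa using hc, ?_⟩
    · rw [Matrix.det_fin_two_of]
      have h1 : (ℓ : ℤ) * (a * f - e * c) = ℓ * 1 := by
        have : (ℓ : ℤ) * (a * f - e * c) = a * (d - (j : ℕ) * c) - c * (b - (j : ℕ) * a) := by
          rw [he, hf]; ring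
        rw [this]; linarith
      exact mul_left_cancel₀ hℓ0 h1
    · simp only [hh_repTInt, hh_mU]
      ext x y
      fin_cases x <;> fin_cases y <;> simp [Matrix.mul_apply, Fin.sum_univ_two]
      · linear_combination he
      · linear_combination hf
  by_cases hal : (ℓ : ℤ) ∣ a
  · by_cases hcl : (ℓ : ℤ) ∣ c
    · obtain ⟨a', rfl⟩ := hal
      obtain ⟨c', rfl⟩ := hcl
      refine ⟨none, !![a', b; c', d], ?_, ?_, ?_⟩
      · rw [Matrix.det_fin_two_of]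
        have h1 : (ℓ : ℤ) * (a' * d - b * c') = ℓ * 1 := by linarith
        exact mul_left_cancel₀ hℓ0 h1
      · have hcop : IsCoprime (M : ℤ) (ℓ : ℤ) := by
          rw [Int.isCoprime_iff_gcd_eq_one, Int.gcd_natCast_natCast]
          exact (Nat.Coprime.symm ((Nat.Prime.coprime_iff_not_dvd hℓ).mpr hℓM))
        simpa using hcop.dvd_of_dvd_mul_left hc
      · simp only [hh_repTInt, hh_mD]
        ext x y
        fin_cases x <;> fin_cases y <;> simp [Matrix.mul_apply, Fin.sum_univ_two] <;> ring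
    · obtain ⟨j, hj⟩ := hh_exists_fin hℓ c d hcl
      refine key j ?_ hj
      have h1 : (ℓ : ℤ) ∣ c * (b - (j : ℕ) * a) := by
        have : c * (b - (j : ℕ) * a) = a * (d - (j : ℕ) * c) - ℓ := by linarith
        rw [this]
        exact Dvd.dvd.sub (Dvd.dvd.mul_right hal _) (dvd_refl _)
      exact (hℓp.dvd_or_dvd h1).resolve_left hcl
  · obtain ⟨j, hj⟩ := hh_exists_fin hℓ a b hal
    refine key j hj ?_
    have h1 : (ℓ : ℤ) ∣ a * (d - (j : ℕ) * c) := by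
      have : a * (d - (j : ℕ) * c) = ℓ + c * (b - (j : ℕ) * a) := by linarith
      rw [this]
      exact Dvd.dvd.add (dvd_refl _) (Dvd.dvd.mul_left hj _)
    exact (hℓp.dvd_or_dvd h1).resolve_left hal

/-- The integer matrix of an element of `Γ₀(M)`. -/
def ca76_mat {M : ℕ} (γ : Gamma0 M) : Matrix (Fin 2) (Fin 2) ℤ :=
  ((γ : SL(2, ℤ)) : Matrix (Fin 2) (Fin 2) ℤ)

theorem ca76_mat_mul {M : ℕ} (γ δ : Gamma0 M) : ca76_mat (γ * δ) = ca76_mat γ * ca76_mat δ := by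
  simp [ca76_mat]

theorem ca76_mat_one {M : ℕ} : ca76_mat (1 : Gamma0 M) = 1 := by
  simp [ca76_mat]

theorem ca76_mat_inv_mul {M : ℕ} (γ : Gamma0 M) : ca76_mat γ⁻¹ * ca76_mat γ = 1 := by
  rw [← ca76_mat_mul, inv_mul_cancel, ca76_mat_one]

theorem ca76_mat_mk (M : ℕ) (K : Matrix (Fin 2) (Fin 2) ℤ) (hdet : K.det = 1)
    (hK : (M : ℤ) ∣ K 1 0) : ca76_mat (hh_mk M K hdet hK) = K := rfl

theorem ca76_mat_injective {M : ℕ} : Function.Injective (ca76_mat (M := M)) := by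
  intro γ δ h
  apply Subtype.ext
  apply Subtype.ext
  exact h

/-- Independence of the system of representatives, for one element `γ`: if `β j ∈ Γ₀(M) rep (e j)`
is another system (`e` injective) and `β j * γ = κ' j * β (τ j)`, then
`(T_ℓ φ)(γ) = ∑ j, φ (κ' j)`. -/
theorem ca76_op_eq_sum {M ℓ : ℕ} (hℓ : ℓ.Prime) (hℓM : ¬ ℓ ∣ M) {A : Type*} [AddCommGroup A]
    (φ : Additive (Gamma0 M) →+ A) (γ : Gamma0 M)
    (β : Option (Fin ℓ) → Matrix (Fin 2) (Fin 2) ℤ)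
    (g : Option (Fin ℓ) → Gamma0 M) (e : Option (Fin ℓ) → Option (Fin ℓ))
    (hβ : ∀ j, β j = ca76_mat (g j) * hh_repTInt ℓ (e j))
    (he : Function.Injective e)
    (κ' : Option (Fin ℓ) → Gamma0 M) (τ : Option (Fin ℓ) → Option (Fin ℓ))
    (hκ : ∀ j, β j * ca76_mat γ = ca76_mat (κ' j) * β (τ j)) :
    heckeHom M ℓ A φ (Additive.ofMul γ) = ∑ j, φ (Additive.ofMul (κ' j)) := by
  classical
  rw [heckeHom_of_not_dvd hℓ hℓM]
  set R := hh_repsT M ℓ hℓ hℓM with hR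
  rw [HeckeReps.op_apply]
  have key : ∀ j, R.σ γ (e j) = e (τ j) ∧ R.κ (e j) γ = (g j)⁻¹ * κ' j * g (τ j) := by
    intro j
    apply R.unique
    have h1 : hh_IsInt (R.α (e j) * R.incl γ) (hh_repTInt ℓ (e j) * ca76_mat γ) :=
      (hh_isInt_repT hℓ.ne_zero (e j)).mul (hh_isInt_incl M γ)
    have h2 : hh_IsInt (R.incl ((g j)⁻¹ * κ' j * g (τ j)) * R.α (e (τ j)))
        (ca76_mat ((g j)⁻¹ * κ' j * g (τ j)) * hh_repTInt ℓ (e (τ j))) :=
      (hh_isInt_incl M _).mul (hh_isInt_repT hℓ.ne_zero _)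
    refine h1.ext ?_
    have h3 : hh_repTInt ℓ (e j) * ca76_mat γ =
        ca76_mat ((g j)⁻¹ * κ' j * g (τ j)) * hh_repTInt ℓ (e (τ j)) := by
      have e1 : hh_repTInt ℓ (e j) = ca76_mat (g j)⁻¹ * β j := by
        rw [hβ j, ← Matrix.mul_assoc, ca76_mat_inv_mul, Matrix.one_mul]
      rw [e1, Matrix.mul_assoc, hκ j, hβ (τ j), ca76_mat_mul, ca76_mat_mul]
      simp only [Matrix.mul_assoc]
    rw [h3]
    exact h2
  have hbij : Function.Bijective e := Finite.injective_iff_bijective.mp he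
  let ee : Option (Fin ℓ) ≃ Option (Fin ℓ) := Equiv.ofBijective e hbij
  have hτinj : Function.Injective τ := by
    intro j j' hjj
    have h1 := (key j).1
    have h2 := (key j').1
    rw [hjj] at h1
    have h3 : R.σ γ (e j) = R.σ γ (e j') := h1.trans h2.symm
    exact he ((R.σEquiv γ).injective h3)
  have hτbij : Function.Bijective τ := Finite.injective_iff_bijective.mp hτinj
  let τe : Option (Fin ℓ) ≃ Option (Fin ℓ) := Equiv.ofBijective τ hτbij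
  have e1 : ∑ i, φ (Additive.ofMul (R.κ i γ)) = ∑ j, φ (Additive.ofMul (R.κ (e j) γ)) :=
    (Equiv.sum_comp ee (fun i => φ (Additive.ofMul (R.κ i γ)))).symm
  rw [e1]
  have e2 : ∀ j, φ (Additive.ofMul (R.κ (e j) γ)) =
      φ (Additive.ofMul (κ' j)) + (φ (Additive.ofMul (g (τ j))) - φ (Additive.ofMul (g j))) := by
    intro j
    rw [(key j).2, ofMul_mul, ofMul_mul, ofMul_inv, map_add, map_add, map_neg]
    abel
  rw [Finset.sum_congr rfl (fun j _ => e2 j), Finset.sum_add_distrib, Finset.sum_sub_distrib]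
  have e3 : ∑ j, φ (Additive.ofMul (g (τ j))) = ∑ j, φ (Additive.ofMul (g j)) :=
    Equiv.sum_comp τe (fun j => φ (Additive.ofMul (g j)))
  rw [e3, sub_self, add_zero]

/-! ### Conjugates of upper triangular matrices by `σ ∈ SL(2, ℤ)` -/

/-- Coercion `SL(2, ℤ) → M₂(ℤ)` (abbreviation to keep statements readable). -/
abbrev ca76_m (σ : SL(2, ℤ)) : Matrix (Fin 2) (Fin 2) ℤ := (σ : Matrix (Fin 2) (Fin 2) ℤ)

theorem ca76_m_inv_mul (σ : SL(2, ℤ)) : ca76_m σ⁻¹ * ca76_m σ = 1 := by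
  rw [ca76_m, ca76_m, ← Matrix.SpecialLinearGroup.coe_mul, inv_mul_cancel,
    Matrix.SpecialLinearGroup.coe_one]

theorem ca76_m_mul_inv (σ : SL(2, ℤ)) : ca76_m σ * ca76_m σ⁻¹ = 1 := by
  rw [ca76_m, ca76_m, ← Matrix.SpecialLinearGroup.coe_mul, mul_inv_cancel,
    Matrix.SpecialLinearGroup.coe_one]

theorem ca76_m_T_zpow (s : ℤ) : ca76_m (ModularGroup.T ^ s) = !![1, s; 0, 1] :=
  ModularGroup.coe_T_zpow s

/-- The lower-left entry of `σ X σ⁻¹`. -/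
theorem ca76_conj_entry (σ : SL(2, ℤ)) (X : Matrix (Fin 2) (Fin 2) ℤ) :
    (ca76_m σ * X * ca76_m σ⁻¹) 1 0 =
      σ 1 0 * σ 1 1 * (X 0 0 - X 1 1) + σ 1 1 ^ 2 * X 1 0 - σ 1 0 ^ 2 * X 0 1 := by
  rw [ca76_m, ca76_m, Matrix.SpecialLinearGroup.coe_inv, Matrix.adjugate_fin_two]
  simp [Matrix.mul_apply, Fin.sum_univ_two]
  ring

theorem ca76_conj_det (σ : SL(2, ℤ)) (X : Matrix (Fin 2) (Fin 2) ℤ) :
    (ca76_m σ * X * ca76_m σ⁻¹).det = X.det := by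
  rw [Matrix.det_mul, Matrix.det_mul, ca76_m, ca76_m, Matrix.SpecialLinearGroup.det_coe,
    Matrix.SpecialLinearGroup.det_coe, one_mul, mul_one]

/-- The unipotent element `σ T^s σ⁻¹` (it fixes the cusp `σ ∞`). -/
def ca76_P (σ : SL(2, ℤ)) (s : ℤ) : SL(2, ℤ) := σ * ModularGroup.T ^ s * σ⁻¹

theorem ca76_P_add (σ : SL(2, ℤ)) (s s' : ℤ) :
    ca76_P σ (s + s') = ca76_P σ s * ca76_P σ s' := by
  simp only [ca76_P, zpow_add]
  group

theorem ca76_P_zero (σ : SL(2, ℤ)) : ca76_P σ 0 = 1 := by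
  simp [ca76_P]

theorem ca76_m_P (σ : SL(2, ℤ)) (s : ℤ) :
    ca76_m (ca76_P σ s) = ca76_m σ * !![1, s; 0, 1] * ca76_m σ⁻¹ := by
  rw [ca76_P, ca76_m, Matrix.SpecialLinearGroup.coe_mul, Matrix.SpecialLinearGroup.coe_mul]
  rw [show ((ModularGroup.T ^ s : SL(2, ℤ)) : Matrix (Fin 2) (Fin 2) ℤ) = !![1, s; 0, 1] from
    ModularGroup.coe_T_zpow s]

theorem ca76_P_entry (σ : SL(2, ℤ)) (s : ℤ) :
    (ca76_m (ca76_P σ s)) 1 0 = -(σ 1 0 ^ 2 * s) := by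
  rw [ca76_m_P, ca76_conj_entry]
  simp

/-- The unipotent correction: `1` for `none`, `T ^ (-j)` for `some j`. -/
def ca76_c (ℓ : ℕ) : Option (Fin ℓ) → SL(2, ℤ)
  | none => 1
  | some j => ModularGroup.T ^ (-((j : ℕ) : ℤ))

/-- The upper triangular adapted representative `c i * rep i`. -/
def ca76_X (ℓ : ℕ) (i : Option (Fin ℓ)) : Matrix (Fin 2) (Fin 2) ℤ :=
  ca76_m (ca76_c ℓ i) * hh_repTInt ℓ i

theorem ca76_X_none (ℓ : ℕ) : ca76_X ℓ none = !![(ℓ : ℤ), 0; 0, 1] := by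
  simp [ca76_X, ca76_c, hh_repTInt, hh_mD]

theorem ca76_X_some (ℓ : ℕ) (j : Fin ℓ) :
    ca76_X ℓ (some j) = !![1, ((j : ℕ) : ℤ) * (1 - ℓ); 0, (ℓ : ℤ)] := by
  simp only [ca76_X, ca76_c, hh_repTInt, hh_mU]
  rw [ca76_m_T_zpow]
  ext x y
  fin_cases x <;> fin_cases y <;> simp [Matrix.mul_apply, Fin.sum_univ_two]
  ring

/-- The cusp-adapted representatives `σ (c i * rep i) σ⁻¹`. -/
def ca76_β (ℓ : ℕ) (σ : SL(2, ℤ)) (i : Option (Fin ℓ)) : Matrix (Fin 2) (Fin 2) ℤ :=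
  ca76_m σ * ca76_X ℓ i * ca76_m σ⁻¹

theorem ca76_X_det (ℓ : ℕ) (i : Option (Fin ℓ)) : (ca76_X ℓ i).det = ℓ := by
  rcases i with _ | j
  · rw [ca76_X_none, Matrix.det_fin_two_of]; ring
  · rw [ca76_X_some, Matrix.det_fin_two_of]; ring

theorem ca76_β_det (ℓ : ℕ) (σ : SL(2, ℤ)) (i : Option (Fin ℓ)) : (ca76_β ℓ σ i).det = ℓ := by
  rw [ca76_β, ca76_conj_det, ca76_X_det]

theorem ca76_β_dvd {M ℓ : ℕ} (h1 : (M : ℤ) ∣ (ℓ : ℤ) - 1) (σ : SL(2, ℤ)) (i : Option (Fin ℓ)) :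
    (M : ℤ) ∣ (ca76_β ℓ σ i) 1 0 := by
  obtain ⟨k, hk⟩ := h1
  rw [ca76_β, ca76_conj_entry]
  rcases i with _ | j
  · rw [ca76_X_none]
    refine ⟨σ 1 0 * σ 1 1 * k, ?_⟩
    simp
    linear_combination (σ 1 0 * σ 1 1) * hk
  · rw [ca76_X_some]
    refine ⟨-(σ 1 0 * σ 1 1 * k) + σ 1 0 ^ 2 * ((j : ℕ) : ℤ) * k, ?_⟩
    simp
    linear_combination (-(σ 1 0 * σ 1 1) + σ 1 0 ^ 2 * ((j : ℕ) : ℤ)) * hk

/-- The adapted representatives lie in pairwise distinct left `SL(2, ℤ)`-cosets. -/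
theorem ca76_β_inj {ℓ : ℕ} (hℓ : ℓ.Prime) (σ : SL(2, ℤ)) (i i' : Option (Fin ℓ)) (K : SL(2, ℤ))
    (h : ca76_β ℓ σ i = ca76_m K * ca76_β ℓ σ i') : i = i' := by
  -- strip `σ`
  have h1 : ca76_X ℓ i = ca76_m (σ⁻¹ * K * σ) * ca76_X ℓ i' := by
    have e1 : ca76_X ℓ i = ca76_m σ⁻¹ * ca76_β ℓ σ i * ca76_m σ := by
      simp only [ca76_β, Matrix.mul_assoc]
      rw [ca76_m_inv_mul, Matrix.mul_one, ← Matrix.mul_assoc, ca76_m_inv_mul, Matrix.one_mul]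
    rw [e1, h]
    simp only [ca76_β, ca76_m, Matrix.SpecialLinearGroup.coe_mul, Matrix.mul_assoc]
    rw [show ((σ⁻¹ : SL(2, ℤ)) : Matrix (Fin 2) (Fin 2) ℤ) * (σ : Matrix (Fin 2) (Fin 2) ℤ) = 1
      from ca76_m_inv_mul σ, Matrix.mul_one]
  -- strip the unipotent corrections
  have h2 : hh_repTInt ℓ i =
      ca76_m ((ca76_c ℓ i)⁻¹ * (σ⁻¹ * K * σ) * ca76_c ℓ i') * hh_repTInt ℓ i' := by
    have e1 : hh_repTInt ℓ i = ca76_m (ca76_c ℓ i)⁻¹ * ca76_X ℓ i := by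
      rw [ca76_X, ← Matrix.mul_assoc, ca76_m_inv_mul, Matrix.one_mul]
    rw [e1, h1, ca76_X]
    simp only [ca76_m, Matrix.SpecialLinearGroup.coe_mul, Matrix.mul_assoc]
  exact hh_uniqT_int hℓ i i' _ (Matrix.SpecialLinearGroup.det_coe _) h2

/-- The adapted representatives are `Γ₀(M)`-translates of the standard ones, bijectively. -/
theorem ca76_exists_adapted {M ℓ : ℕ} (hℓ : ℓ.Prime) (hℓM : ¬ ℓ ∣ M)
    (h1 : (M : ℤ) ∣ (ℓ : ℤ) - 1) (σ : SL(2, ℤ)) :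
    ∃ (g : Option (Fin ℓ) → Gamma0 M) (e : Option (Fin ℓ) → Option (Fin ℓ)),
      Function.Bijective e ∧ ∀ i, ca76_β ℓ σ i = ca76_mat (g i) * hh_repTInt ℓ (e i) := by
  have hex : ∀ i : Option (Fin ℓ), ∃ (gi : Gamma0 M) (ei : Option (Fin ℓ)),
      ca76_β ℓ σ i = ca76_mat gi * hh_repTInt ℓ ei := by
    intro i
    obtain ⟨ei, K, hdet, hK, h⟩ := ca76_hnf hℓ hℓM (ca76_β ℓ σ i) (ca76_β_det ℓ σ i)
      (ca76_β_dvd h1 σ i)
    exact ⟨hh_mk M K hdet hK, ei, h⟩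
  choose g e hge using hex
  refine ⟨g, e, Finite.injective_iff_bijective.mp ?_, hge⟩
  intro i i' hii
  have h2 : ca76_β ℓ σ i = ca76_m ((g i : SL(2, ℤ)) * (g i' : SL(2, ℤ))⁻¹) * ca76_β ℓ σ i' := by
    rw [hge i, hge i', hii]
    simp only [ca76_m, ca76_mat, Matrix.SpecialLinearGroup.coe_mul, Matrix.mul_assoc]
    rw [← Matrix.mul_assoc (((g i' : SL(2, ℤ))⁻¹ : SL(2, ℤ)) : Matrix (Fin 2) (Fin 2) ℤ),
      show (((g i' : SL(2, ℤ))⁻¹ : SL(2, ℤ)) : Matrix (Fin 2) (Fin 2) ℤ) *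
        ((g i' : SL(2, ℤ)) : Matrix (Fin 2) (Fin 2) ℤ) = 1 from ca76_m_inv_mul _, Matrix.one_mul]
  exact ca76_β_inj hℓ σ i i' _ h2

/-- **Cusp fixing.**  For `ℓ ≡ 1 (mod M)` every standard representative of `T_ℓ` maps every cusp
`(u : v)` into its own `Γ₀(M)`-orbit: `rep i * (u, v) = lam * K * (u, v)` with `K ∈ Γ₀(M)` and
`lam ∈ {1, ℓ}`. -/
theorem ca76_cusp_fixed {M ℓ : ℕ} (hℓ : ℓ.Prime) (hℓM : ¬ ℓ ∣ M) (h1 : (M : ℤ) ∣ (ℓ : ℤ) - 1)
    (i : Option (Fin ℓ)) (u v : ℤ) (huv : IsCoprime u v) :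
    ∃ (K : Gamma0 M) (lam : ℤ), (lam = 1 ∨ lam = ℓ) ∧
      (hh_repTInt ℓ i).mulVec ![u, v] = lam • (ca76_mat K).mulVec ![u, v] := by
  obtain ⟨y, w', hyw⟩ := huv
  -- `σ = [[u, -w'], [v, y]]`, `det = y u + w' v = 1`
  let σ : SL(2, ℤ) := ⟨!![u, -w'; v, y], by rw [Matrix.det_fin_two_of]; linarith⟩
  obtain ⟨g, e, he, hge⟩ := ca76_exists_adapted hℓ hℓM h1 σ
  obtain ⟨i₀, rfl⟩ := he.2 i
  -- `β i₀` fixes `(u, v)` up to the scalar `lam`
  have hσ : (ca76_m σ⁻¹).mulVec ![u, v] = ![1, 0] := by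
    rw [ca76_m, Matrix.SpecialLinearGroup.coe_inv, Matrix.adjugate_fin_two]
    ext x
    fin_cases x <;> simp [σ, Matrix.mulVec, dotProduct, Fin.sum_univ_two] <;> linarith
  have hσ' : (ca76_m σ).mulVec ![1, 0] = ![u, v] := by
    ext x
    fin_cases x <;> simp [σ, ca76_m, Matrix.mulVec, dotProduct, Fin.sum_univ_two]
  have hX : ∃ lam : ℤ, (lam = 1 ∨ lam = ℓ) ∧ (ca76_X ℓ i₀).mulVec ![1, 0] = lam • ![1, 0] := by
    rcases i₀ with _ | j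
    · refine ⟨ℓ, Or.inr rfl, ?_⟩
      rw [ca76_X_none]
      ext x
      fin_cases x <;> simp [Matrix.mulVec, dotProduct, Fin.sum_univ_two]
    · refine ⟨1, Or.inl rfl, ?_⟩
      rw [ca76_X_some]
      ext x
      fin_cases x <;> simp [Matrix.mulVec, dotProduct, Fin.sum_univ_two]
  obtain ⟨lam, hlam, hXl⟩ := hX
  have hβ : (ca76_β ℓ σ i₀).mulVec ![u, v] = lam • ![u, v] := by
    rw [ca76_β, ← Matrix.mulVec_mulVec, hσ, ← Matrix.mulVec_mulVec, hXl, Matrix.mulVec_smul, hσ']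
  refine ⟨(g i₀)⁻¹, lam, hlam, ?_⟩
  have h3 : hh_repTInt ℓ (e i₀) = ca76_mat (g i₀)⁻¹ * ca76_β ℓ σ i₀ := by
    rw [hge i₀, ← Matrix.mul_assoc, ca76_mat_inv_mul, Matrix.one_mul]
  rw [h3, ← Matrix.mulVec_mulVec, hβ, Matrix.mulVec_smul]

/-! ### The Hecke operator on unipotent elements -/

theorem ca76_X_none_mul_T (ℓ : ℕ) (x : ℤ) :
    ca76_X ℓ none * !![1, x; 0, 1] = !![1, (ℓ : ℤ) * x; 0, 1] * ca76_X ℓ none := by
  rw [ca76_X_none]
  ext a b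
  fin_cases a <;> fin_cases b <;> simp [Matrix.mul_apply, Fin.sum_univ_two]

theorem ca76_X_some_mul_T (ℓ : ℕ) (j j' : Fin ℓ) (x s : ℤ)
    (h : x + ((j : ℕ) : ℤ) * (1 - ℓ) = ((j' : ℕ) : ℤ) * (1 - ℓ) + s * ℓ) :
    ca76_X ℓ (some j) * !![1, x; 0, 1] = !![1, s; 0, 1] * ca76_X ℓ (some j') := by
  rw [ca76_X_some, ca76_X_some]
  ext a b
  fin_cases a <;> fin_cases b <;> simp [Matrix.mul_apply, Fin.sum_univ_two]
  linarith

theorem ca76_β_mul_P (ℓ : ℕ) (σ : SL(2, ℤ)) (i i' : Option (Fin ℓ)) (x s : ℤ)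
    (h : ca76_X ℓ i * !![1, x; 0, 1] = !![1, s; 0, 1] * ca76_X ℓ i') :
    ca76_β ℓ σ i * ca76_m (ca76_P σ x) = ca76_m (ca76_P σ s) * ca76_β ℓ σ i' := by
  rw [ca76_m_P, ca76_m_P, ca76_β, ca76_β]
  have e1 : ca76_m σ * ca76_X ℓ i * ca76_m σ⁻¹ * (ca76_m σ * !![1, x; 0, 1] * ca76_m σ⁻¹) =
      ca76_m σ * (ca76_X ℓ i * !![1, x; 0, 1]) * ca76_m σ⁻¹ := by
    simp only [Matrix.mul_assoc]
    rw [← Matrix.mul_assoc (ca76_m σ⁻¹) (ca76_m σ), ca76_m_inv_mul, Matrix.one_mul]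
  have e2 : ca76_m σ * !![1, s; 0, 1] * ca76_m σ⁻¹ * (ca76_m σ * ca76_X ℓ i' * ca76_m σ⁻¹) =
      ca76_m σ * (!![1, s; 0, 1] * ca76_X ℓ i') * ca76_m σ⁻¹ := by
    simp only [Matrix.mul_assoc]
    rw [← Matrix.mul_assoc (ca76_m σ⁻¹) (ca76_m σ), ca76_m_inv_mul, Matrix.one_mul]
  rw [e1, e2, h]

/-- The exponents `s` with `σ T^s σ⁻¹ ∈ Γ₀(M)`. -/
def ca76_S (M : ℕ) (σ : SL(2, ℤ)) : AddSubgroup ℤ where
  carrier := {s | (M : ℤ) ∣ σ 1 0 ^ 2 * s}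
  zero_mem' := by simp
  add_mem' := by
    intro a b ha hb
    show (M : ℤ) ∣ σ 1 0 ^ 2 * (a + b)
    rw [mul_add]
    exact dvd_add ha hb
  neg_mem' := by
    intro a ha
    show (M : ℤ) ∣ σ 1 0 ^ 2 * (-a)
    rw [mul_neg]
    exact (dvd_neg).mpr ha

theorem ca76_mem_S {M : ℕ} {σ : SL(2, ℤ)} {s : ℤ} :
    s ∈ ca76_S M σ ↔ (M : ℤ) ∣ σ 1 0 ^ 2 * s := Iff.rfl

/-- `σ T^s σ⁻¹` as an element of `Γ₀(M)`. -/
def ca76_elt (M : ℕ) (σ : SL(2, ℤ)) (s : ca76_S M σ) : Gamma0 M :=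
  ⟨ca76_P σ s, Gamma0_mem.mpr ((ZMod.intCast_zmod_eq_zero_iff_dvd _ _).mpr (by
    have h := ca76_P_entry σ s
    rw [ca76_m] at h
    rw [h]
    exact (dvd_neg).mpr s.2))⟩

theorem ca76_elt_coe (M : ℕ) (σ : SL(2, ℤ)) (s : ca76_S M σ) :
    ((ca76_elt M σ s : Gamma0 M) : SL(2, ℤ)) = ca76_P σ s := rfl

theorem ca76_mat_elt (M : ℕ) (σ : SL(2, ℤ)) (s : ca76_S M σ) :
    ca76_mat (ca76_elt M σ s) = ca76_m (ca76_P σ s) := rfl

/-- `φ` restricted to the unipotent subgroup `σ T^S σ⁻¹ ∩ Γ₀(M)`, as an additive map. -/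
def ca76_ψ {M : ℕ} {A : Type*} [AddCommGroup A] (φ : Additive (Gamma0 M) →+ A) (σ : SL(2, ℤ)) :
    ca76_S M σ →+ A where
  toFun s := φ (Additive.ofMul (ca76_elt M σ s))
  map_zero' := by
    have : ca76_elt M σ 0 = 1 := Subtype.ext (by
      rw [ca76_elt_coe]; simp [ca76_P_zero])
    rw [this, ofMul_one, map_zero]
  map_add' := by
    intro a b
    have : ca76_elt M σ (a + b) = ca76_elt M σ a * ca76_elt M σ b := Subtype.ext (by
      rw [Subgroup.coe_mul, ca76_elt_coe, ca76_elt_coe, ca76_elt_coe, AddSubgroup.coe_add,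
        ca76_P_add])
    rw [this, ofMul_mul, map_add]

theorem ca76_ψ_apply {M : ℕ} {A : Type*} [AddCommGroup A] (φ : Additive (Gamma0 M) →+ A)
    (σ : SL(2, ℤ)) (s : ca76_S M σ) :
    ca76_ψ φ σ s = φ (Additive.ofMul (ca76_elt M σ s)) := rfl

/-- `j ↦ (j + x) mod ℓ` on `Fin ℓ`. -/
def ca76_shift {ℓ : ℕ} (hℓ : 0 < ℓ) (x : ℤ) (j : Fin ℓ) : Fin ℓ :=
  ⟨((((j : ℕ) : ℤ) + x) % (ℓ : ℤ)).toNat, by
    have h0 : (0 : ℤ) < ℓ := by exact_mod_cast hℓ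
    have h1 := Int.emod_nonneg (((j : ℕ) : ℤ) + x) h0.ne'
    have h2 := Int.emod_lt_of_pos (((j : ℕ) : ℤ) + x) h0
    omega⟩

theorem ca76_shift_coe {ℓ : ℕ} (hℓ : 0 < ℓ) (x : ℤ) (j : Fin ℓ) :
    (((ca76_shift hℓ x j : Fin ℓ) : ℕ) : ℤ) = (((j : ℕ) : ℤ) + x) % (ℓ : ℤ) := by
  have h0 : (0 : ℤ) < ℓ := by exact_mod_cast hℓ
  have h1 := Int.emod_nonneg (((j : ℕ) : ℤ) + x) h0.ne'
  simp only [ca76_shift]
  exact Int.toNat_of_nonneg h1

theorem ca76_shift_injective {ℓ : ℕ} (hℓ : 0 < ℓ) (x : ℤ) :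
    Function.Injective (ca76_shift hℓ x) := by
  intro j j' h
  have h0 : (0 : ℤ) < ℓ := by exact_mod_cast hℓ
  have h1 : (((j : ℕ) : ℤ) + x) % (ℓ : ℤ) = (((j' : ℕ) : ℤ) + x) % (ℓ : ℤ) := by
    rw [← ca76_shift_coe hℓ x j, ← ca76_shift_coe hℓ x j', h]
  have h2 : (ℓ : ℤ) ∣ (((j : ℕ) : ℤ) + x) - (((j' : ℕ) : ℤ) + x) :=
    Int.ModEq.dvd h1.symm
  have h3 : (ℓ : ℤ) ∣ ((j : ℕ) : ℤ) - ((j' : ℕ) : ℤ) := by
    have : (((j : ℕ) : ℤ) + x) - (((j' : ℕ) : ℤ) + x) = ((j : ℕ) : ℤ) - ((j' : ℕ) : ℤ) := by ring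
    rwa [this] at h2
  obtain ⟨k, hk⟩ := h3
  have hj := j.2
  have hj' := j'.2
  have hk0 : k = 0 := by
    by_contra hne
    rcases lt_or_gt_of_ne hne with hlt | hgt
    · have : (ℓ : ℤ) * k ≤ ℓ * (-1) := by nlinarith
      omega
    · have : (ℓ : ℤ) * 1 ≤ ℓ * k := by nlinarith
      omega
  rw [hk0, mul_zero] at hk
  exact Fin.ext (by omega)

/-- The exponent `s_j` with `X_j T^x = T^(s_j) X_(j + x)`. -/
def ca76_s {ℓ : ℕ} (hℓ : 0 < ℓ) (x : ℤ) (j : Fin ℓ) : ℤ :=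
  (((j : ℕ) : ℤ) + x) / (ℓ : ℤ) - ((j : ℕ) : ℤ) + ((ca76_shift hℓ x j : Fin ℓ) : ℕ)

theorem ca76_s_spec {ℓ : ℕ} (hℓ : 0 < ℓ) (x : ℤ) (j : Fin ℓ) :
    x + ((j : ℕ) : ℤ) * (1 - ℓ) =
      (((ca76_shift hℓ x j : Fin ℓ) : ℕ) : ℤ) * (1 - ℓ) + ca76_s hℓ x j * ℓ := by
  have h := Int.emod_add_mul_ediv (((j : ℕ) : ℤ) + x) (ℓ : ℤ)
  rw [ca76_s, ca76_shift_coe]
  linear_combination -h

theorem ca76_sum_s {ℓ : ℕ} (hℓ : 0 < ℓ) (x : ℤ) : ∑ j : Fin ℓ, ca76_s hℓ x j = x := by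
  have h0 : (ℓ : ℤ) ≠ 0 := by exact_mod_cast hℓ.ne'
  have hbij : Function.Bijective (ca76_shift hℓ x) :=
    Finite.injective_iff_bijective.mp (ca76_shift_injective hℓ x)
  have e1 : ∑ j : Fin ℓ, (((ca76_shift hℓ x j : Fin ℓ) : ℕ) : ℤ) = ∑ j : Fin ℓ, ((j : ℕ) : ℤ) :=
    Equiv.sum_comp (Equiv.ofBijective _ hbij) (fun j : Fin ℓ => ((j : ℕ) : ℤ))
  -- multiply by `ℓ`
  have e2 : ∀ j : Fin ℓ, ca76_s hℓ x j * ℓ =
      x + (((j : ℕ) : ℤ) - (((ca76_shift hℓ x j : Fin ℓ) : ℕ) : ℤ)) * (1 - ℓ) := by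
    intro j
    linear_combination -(ca76_s_spec hℓ x j)
  have e3 : (∑ j : Fin ℓ, ca76_s hℓ x j) * ℓ = x * ℓ := by
    rw [Finset.sum_mul, Finset.sum_congr rfl (fun j _ => e2 j), Finset.sum_add_distrib,
      ← Finset.sum_mul, Finset.sum_sub_distrib, e1, sub_self, zero_mul, add_zero]
    simp [mul_comm]
  exact mul_right_cancel₀ h0 e3

/-- **The Hecke operator on unipotent elements.**  For `ℓ ≡ 1 (mod M)`, every hom
`φ : Γ₀(M) → A` and every `γ = σ T^x σ⁻¹ ∈ Γ₀(M)`: `(T_ℓ φ)(γ) = (ℓ + 1) φ(γ)`. -/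
theorem ca76_heckeHom_unipotent {M ℓ : ℕ} (hℓ : ℓ.Prime) (hℓM : ¬ ℓ ∣ M)
    (h1 : (M : ℤ) ∣ (ℓ : ℤ) - 1) {A : Type*} [AddCommGroup A] (φ : Additive (Gamma0 M) →+ A)
    (σ : SL(2, ℤ)) (x : ℤ) (γ : Gamma0 M) (hγ : (γ : SL(2, ℤ)) = ca76_P σ x) :
    heckeHom M ℓ A φ (Additive.ofMul γ) = ((ℓ : ℤ) + 1) • φ (Additive.ofMul γ) := by
  classical
  have hℓ0 : 0 < ℓ := hℓ.pos
  have hcop : IsCoprime (M : ℤ) (ℓ : ℤ) := by
    rw [Int.isCoprime_iff_gcd_eq_one, Int.gcd_natCast_natCast]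
    exact (Nat.Coprime.symm ((Nat.Prime.coprime_iff_not_dvd hℓ).mpr hℓM))
  -- `x ∈ S`
  have hx : x ∈ ca76_S M σ := by
    rw [ca76_mem_S]
    have h := hh_dvd_of_mem γ
    rw [hγ] at h
    have h' := ca76_P_entry σ x
    rw [ca76_m] at h'
    rw [h'] at h
    exact (dvd_neg).mp h
  have hlx : (ℓ : ℤ) * x ∈ ca76_S M σ := by
    rw [ca76_mem_S]
    have : σ 1 0 ^ 2 * ((ℓ : ℤ) * x) = ℓ * (σ 1 0 ^ 2 * x) := by ring
    rw [this]
    exact Dvd.dvd.mul_left hx _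
  have hs : ∀ j : Fin ℓ, ca76_s hℓ0 x j ∈ ca76_S M σ := by
    intro j
    rw [ca76_mem_S]
    obtain ⟨k, hk⟩ := h1
    have e : σ 1 0 ^ 2 * ca76_s hℓ0 x j * ℓ = σ 1 0 ^ 2 * x +
        σ 1 0 ^ 2 * (((j : ℕ) : ℤ) - (((ca76_shift hℓ0 x j : Fin ℓ) : ℕ) : ℤ)) * (1 - ℓ) := by
      linear_combination -(σ 1 0 ^ 2) * (ca76_s_spec hℓ0 x j)
    have h2 : (M : ℤ) ∣ σ 1 0 ^ 2 * ca76_s hℓ0 x j * ℓ := by
      rw [e]
      refine dvd_add hx ?_
      refine Dvd.dvd.mul_left ?_ _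
      exact ⟨-k, by linear_combination -hk⟩
    exact hcop.dvd_of_dvd_mul_right h2
  -- the data
  let κ' : Option (Fin ℓ) → Gamma0 M := fun i =>
    match i with
    | none => ca76_elt M σ ⟨(ℓ : ℤ) * x, hlx⟩
    | some j => ca76_elt M σ ⟨ca76_s hℓ0 x j, hs j⟩
  let τ : Option (Fin ℓ) → Option (Fin ℓ) := fun i =>
    match i with
    | none => none
    | some j => some (ca76_shift hℓ0 x j)
  have hγm : ca76_mat γ = ca76_m (ca76_P σ x) := by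
    rw [ca76_mat, hγ]
  have hκ : ∀ i, ca76_β ℓ σ i * ca76_mat γ = ca76_mat (κ' i) * ca76_β ℓ σ (τ i) := by
    intro i
    rw [hγm]
    rcases i with _ | j
    · exact ca76_β_mul_P ℓ σ none none x _ (ca76_X_none_mul_T ℓ x)
    · exact ca76_β_mul_P ℓ σ (some j) (some (ca76_shift hℓ0 x j)) x _
        (ca76_X_some_mul_T ℓ j _ x _ (ca76_s_spec hℓ0 x j))
  obtain ⟨g, e, he, hge⟩ := ca76_exists_adapted hℓ hℓM h1 σ
  rw [ca76_op_eq_sum hℓ hℓM φ γ (ca76_β ℓ σ) g e hge he.1 κ' τ hκ, Fintype.sum_option]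
  -- rewrite in terms of `ψ`
  have hγe : γ = ca76_elt M σ ⟨x, hx⟩ := Subtype.ext hγ
  have e0 : φ (Additive.ofMul γ) = ca76_ψ φ σ ⟨x, hx⟩ := by rw [ca76_ψ_apply, ← hγe]
  have e1 : φ (Additive.ofMul (κ' none)) = (ℓ : ℤ) • ca76_ψ φ σ ⟨x, hx⟩ := by
    rw [← map_zsmul]
    rfl
  have e2 : ∑ j : Fin ℓ, φ (Additive.ofMul (κ' (some j))) = ca76_ψ φ σ ⟨x, hx⟩ := by
    have : ∀ j : Fin ℓ, φ (Additive.ofMul (κ' (some j))) =
        ca76_ψ φ σ ⟨ca76_s hℓ0 x j, hs j⟩ := fun j => rfl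
    rw [Finset.sum_congr rfl (fun j _ => this j), ← map_sum]
    congr 1
    apply Subtype.ext
    rw [AddSubgroup.val_finsetSum]
    exact ca76_sum_s hℓ0 x
  rw [e1, e2, e0, add_smul, one_smul]

/-! ### Elements of trace `±2` -/

theorem ca76_det_eq (σ : SL(2, ℤ)) : σ 0 0 * σ 1 1 - σ 0 1 * σ 1 0 = 1 := by
  have h := σ.det_coe
  rw [Matrix.det_fin_two] at h
  exact h

theorem ca76_m_P_explicit (σ : SL(2, ℤ)) (s : ℤ) :
    ca76_m (ca76_P σ s) =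
      !![1 - σ 0 0 * σ 1 0 * s, σ 0 0 ^ 2 * s; -(σ 1 0 ^ 2 * s), 1 + σ 0 0 * σ 1 0 * s] := by
  have hdet := ca76_det_eq σ
  rw [ca76_m_P, ca76_m, ca76_m, Matrix.SpecialLinearGroup.coe_inv, Matrix.adjugate_fin_two]
  ext a b
  fin_cases a <;> fin_cases b <;> simp [Matrix.mul_apply, Fin.sum_univ_two]
  · linear_combination hdet
  · ring
  · ring
  · linear_combination hdet

/-- A primitive fixed vector of an integer matrix of trace `2` and determinant `1`. -/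
theorem ca76_exists_fixed (a b c d : ℤ) (h : a + d = 2) (hdet : a * d - b * c = 1) :
    ∃ u v : ℤ, IsCoprime u v ∧ (a - 1) * u + b * v = 0 ∧ c * u + (d - 1) * v = 0 := by
  by_cases hb0 : b = 0
  · refine ⟨0, 1, isCoprime_zero_left.mpr isUnit_one, by simp [hb0], ?_⟩
    have h2 : (d - 1) ^ 2 = -(b * c) := by linear_combination (-1) * hdet + d * h
    rw [hb0, zero_mul, neg_zero] at h2
    have hd1 : d - 1 = 0 := by simpa using h2
    simp [hd1]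
  · have hg : 0 < Int.gcd (a - 1) b := by
      rw [Nat.pos_iff_ne_zero, Ne, Int.gcd_eq_zero_iff]
      tauto
    obtain ⟨g, p', b', hg0, hcop, hp', hb'⟩ := Int.exists_gcd_one' hg
    have hgz : (g : ℤ) ≠ 0 := by exact_mod_cast hg0.ne'
    refine ⟨b', -p', ?_, ?_, ?_⟩
    · exact ((Int.isCoprime_iff_gcd_eq_one.mpr hcop).neg_left).symm
    · rw [hp', hb']; ring
    · have e : (g : ℤ) * (c * b' + (d - 1) * (-p')) = 0 := by
        have : (g : ℤ) * (c * b' + (d - 1) * (-p')) = c * (b' * g) - (d - 1) * (p' * g) := by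
          ring
        rw [this, ← hb', ← hp']
        linear_combination (-1) * hdet + h
      rcases mul_eq_zero.mp e with e | e
      · exact absurd e hgz
      · exact e

/-- Integer form: a matrix of trace `2` and determinant `1` is `1 + x (u, v)ᵗ (-v, u)`. -/
theorem ca76_trace_two_aux (a b c d : ℤ) (h : a + d = 2) (hdet : a * d - b * c = 1) :
    ∃ u w v y x : ℤ, u * y - w * v = 1 ∧ a = 1 - u * v * x ∧ b = u ^ 2 * x ∧
      c = -(v ^ 2 * x) ∧ d = 1 + u * v * x := by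
  obtain ⟨u, v, ⟨y, w', hyw⟩, hk1, hk2⟩ := ca76_exists_fixed a b c d h hdet
  -- `m u = b`, `m v = -(a - 1)`, `n u = d - 1`, `n v = -c`
  obtain ⟨m, hm⟩ : ∃ m : ℤ, m = b * y - (a - 1) * w' := ⟨_, rfl⟩
  obtain ⟨n, hn⟩ : ∃ n : ℤ, n = (d - 1) * y - c * w' := ⟨_, rfl⟩
  have hmu : m * u = b := by rw [hm]; linear_combination b * hyw - w' * hk1
  have hmv : m * v = -(a - 1) := by rw [hm]; linear_combination y * hk1 - (a - 1) * hyw
  have hnu : n * u = d - 1 := by rw [hn]; linear_combination (d - 1) * hyw - w' * hk2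
  have hnv : n * v = -c := by rw [hn]; linear_combination y * hk2 - c * hyw
  obtain ⟨x, hx⟩ : ∃ x : ℤ, x = m * y + n * w' := ⟨_, rfl⟩
  have hxu : x * u = m := by
    rw [hx]; linear_combination m * hyw + w' * hnu - w' * hmv + w' * h
  have hxv : x * v = n := by
    rw [hx]; linear_combination n * hyw + y * hmv - y * hnu - y * h
  refine ⟨u, -w', v, y, x, by linear_combination hyw, ?_, ?_, ?_, ?_⟩
  · linear_combination hmv + v * hxu
  · linear_combination (-1) * hmu - u * hxu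
  · linear_combination hnv + v * hxv
  · linear_combination (-1) * hnu - u * hxv

/-- An element of `SL(2, ℤ)` of trace `2` is `σ T^x σ⁻¹`. -/
theorem ca76_exists_P_of_trace_two (γ : SL(2, ℤ))
    (h : (γ : Matrix (Fin 2) (Fin 2) ℤ).trace = 2) : ∃ (σ : SL(2, ℤ)) (x : ℤ), γ = ca76_P σ x := by
  have hdet := ca76_det_eq γ
  rw [Matrix.trace_fin_two] at h
  obtain ⟨u, w, v, y, x, hσ, ha, hb, hc, hd⟩ := ca76_trace_two_aux _ _ _ _ h hdet
  let σ : SL(2, ℤ) := ⟨!![u, w; v, y], by rw [Matrix.det_fin_two_of]; linarith⟩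
  refine ⟨σ, x, ?_⟩
  apply Subtype.ext
  show (γ : Matrix (Fin 2) (Fin 2) ℤ) = ca76_m (ca76_P σ x)
  rw [ca76_m_P_explicit]
  have hσ00 : σ 0 0 = u := rfl
  have hσ10 : σ 1 0 = v := rfl
  rw [hσ00, hσ10, Matrix.eta_fin_two (γ : Matrix (Fin 2) (Fin 2) ℤ), ← ha, ← hb, ← hc, ← hd]

/-! ### The main statements -/

theorem ca76_dvd_of_modEq {M ℓ : ℕ} (h1 : ℓ ≡ 1 [MOD M]) : (M : ℤ) ∣ (ℓ : ℤ) - 1 := by
  have := (Nat.modEq_iff_dvd.mp h1.symm)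
  simpa using this

theorem ca76_not_dvd_of_modEq {M ℓ : ℕ} (hℓ : ℓ.Prime) (h1 : ℓ ≡ 1 [MOD M]) : ¬ ℓ ∣ M := by
  intro h
  have h2 : (ℓ : ℤ) ∣ (ℓ : ℤ) - 1 := (Int.natCast_dvd_natCast.mpr h).trans (ca76_dvd_of_modEq h1)
  have h3 : (ℓ : ℤ) ∣ 1 := by
    have := Dvd.dvd.sub (dvd_refl (ℓ : ℤ)) h2
    simpa using this
  have h4 := Int.le_of_dvd one_pos h3
  have h5 : (2 : ℤ) ≤ ℓ := by exact_mod_cast hℓ.two_le
  omega

/-- `-1` as an element of `Γ₀(M)`. -/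
def ca76_negOne (M : ℕ) : Gamma0 M := ⟨-1, by rw [Gamma0_mem]; simp⟩

theorem ca76_mat_negOne (M : ℕ) : ca76_mat (ca76_negOne M) = -1 := by
  simp [ca76_mat, ca76_negOne]

theorem ca76_negOne_mul_self (M : ℕ) : ca76_negOne M * ca76_negOne M = 1 := by
  apply ca76_mat_injective
  rw [ca76_mat_mul, ca76_mat_negOne, ca76_mat_one]
  simp

theorem ca76_heckeHom_negOne {M ℓ : ℕ} (hℓ : ℓ.Prime) (hℓM : ¬ ℓ ∣ M) {A : Type*}
    [AddCommGroup A] (φ : Additive (Gamma0 M) →+ A) :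
    heckeHom M ℓ A φ (Additive.ofMul (ca76_negOne M)) =
      ((ℓ : ℤ) + 1) • φ (Additive.ofMul (ca76_negOne M)) := by
  rw [ca76_op_eq_sum hℓ hℓM φ (ca76_negOne M) (hh_repTInt ℓ) (fun _ => 1) id
    (fun j => by rw [ca76_mat_one, Matrix.one_mul]; rfl) Function.injective_id
    (fun _ => ca76_negOne M) id
    (fun j => by rw [ca76_mat_negOne]; simp)]
  rw [Finset.sum_const, Finset.card_univ, Fintype.card_option, Fintype.card_fin,
    ← natCast_zsmul]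
  push_cast
  rfl

/-- **(C)** For `ℓ ≡ 1 (mod M)`, EVERY hom `φ : Γ₀(M) → A` and every `γ ∈ Γ₀(M)` with
`tr(γ)² = 4` (i.e. `γ = ± σ T^x σ⁻¹`, the elements fixing a cusp):
`(T_ℓ φ)(γ) = (ℓ + 1) φ(γ)`. -/
theorem ca76_heckeHom_parabolic {M ℓ : ℕ} (hℓ : ℓ.Prime) (h1 : ℓ ≡ 1 [MOD M]) {A : Type*}
    [AddCommGroup A] (φ : Additive (Gamma0 M) →+ A) (γ : Gamma0 M)
    (hγ : ((γ : SL(2, ℤ)) : Matrix (Fin 2) (Fin 2) ℤ).trace ^ 2 = 4) :
    heckeHom M ℓ A φ (Additive.ofMul γ) = ((ℓ : ℤ) + 1) • φ (Additive.ofMul γ) := by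
  have hℓM := ca76_not_dvd_of_modEq hℓ h1
  have hd := ca76_dvd_of_modEq h1
  have htr : ((γ : SL(2, ℤ)) : Matrix (Fin 2) (Fin 2) ℤ).trace = 2 ∨
      ((γ : SL(2, ℤ)) : Matrix (Fin 2) (Fin 2) ℤ).trace = -2 := by
    have : ((γ : SL(2, ℤ)) : Matrix (Fin 2) (Fin 2) ℤ).trace ^ 2 = 2 ^ 2 := by rw [hγ]; norm_num
    exact sq_eq_sq_iff_eq_or_eq_neg.mp this
  rcases htr with htr | htr
  · obtain ⟨σ, x, hσ⟩ := ca76_exists_P_of_trace_two (γ : SL(2, ℤ)) htr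
    exact ca76_heckeHom_unipotent hℓ hℓM hd φ σ x γ hσ
  · -- `γ = (-1) * γ'` with `tr γ' = 2`
    set γ' : Gamma0 M := ca76_negOne M * γ with hγ'
    have htr' : ((γ' : SL(2, ℤ)) : Matrix (Fin 2) (Fin 2) ℤ).trace = 2 := by
      have e : ((γ' : SL(2, ℤ)) : Matrix (Fin 2) (Fin 2) ℤ) =
          -((γ : SL(2, ℤ)) : Matrix (Fin 2) (Fin 2) ℤ) := by
        have := ca76_mat_mul (ca76_negOne M) γ
        rw [ca76_mat_negOne] at this
        simpa [ca76_mat, hγ'] using this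
      rw [e, Matrix.trace_neg, htr]
      norm_num
    obtain ⟨σ, x, hσ⟩ := ca76_exists_P_of_trace_two (γ' : SL(2, ℤ)) htr'
    have e1 := ca76_heckeHom_unipotent hℓ hℓM hd φ σ x γ' hσ
    have e2 := ca76_heckeHom_negOne hℓ hℓM φ
    have hγeq : γ = ca76_negOne M * γ' := by
      rw [hγ', ← mul_assoc, ca76_negOne_mul_self, one_mul]
    rw [hγeq, ofMul_mul, map_add, map_add, e1, e2, smul_add]

/-- **(C), Prelude form.**  For `ℓ ≡ 1 (mod M)` the operator `T_ℓ - (ℓ + 1)` maps every hom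
`Γ₀(M) → A` to a parabolic hom. -/
theorem ca76_heckeHom_sub_isParabolicHom {M ℓ : ℕ} (hℓ : ℓ.Prime) (h1 : ℓ ≡ 1 [MOD M])
    {A : Type*} [AddCommGroup A] (φ : Additive (Gamma0 M) →+ A) :
    IsParabolicHom (Gamma0 M) (heckeHom M ℓ A φ - ((ℓ : ℤ) + 1) • φ) := by
  intro γ hγ
  rw [AddMonoidHom.sub_apply, AddMonoidHom.smul_apply, ca76_heckeHom_parabolic hℓ h1 φ γ hγ,
    sub_self]

/-- **(K), `MOD` form.** -/
theorem ca76_cusp_fixed' {M ℓ : ℕ} (hℓ : ℓ.Prime) (h1 : ℓ ≡ 1 [MOD M])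
    (i : Option (Fin ℓ)) (u v : ℤ) (huv : IsCoprime u v) :
    ∃ (K : Gamma0 M) (lam : ℤ), (lam = 1 ∨ lam = ℓ) ∧
      (hh_repTInt ℓ i).mulVec ![u, v] = lam • (ca76_mat K).mulVec ![u, v] :=
  ca76_cusp_fixed hℓ (ca76_not_dvd_of_modEq hℓ h1) (ca76_dvd_of_modEq h1) i u v huv

/-! ### Generic potentials: `ν` is onto the homs vanishing on point stabilisers -/

/-- If a hom `χ : G → A` vanishes on every element fixing a point of `X`, then it is the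
"coboundary" of a function on `X`: `a (g • x) = a x + χ g`. -/
theorem ca76_exists_potential {G H X A : Type*} [Group G] [Group H] [MulAction H X]
    [AddCommGroup A] (f : G →* H) (χ : Additive G →+ A)
    (h : ∀ (g : G) (x : X), f g • x = x → χ (Additive.ofMul g) = 0) :
    ∃ a : X → A, ∀ (g : G) (x : X), a (f g • x) = a x + χ (Additive.ofMul g) := by
  classical
  let _inst : MulAction G X := MulAction.compHom X f
  have hsmul : ∀ (g : G) (x : X), g • x = f g • x := fun _ _ => rfl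
  -- a base point in every orbit
  let b : X → X := fun x => Quotient.out (Quotient.mk (MulAction.orbitRel G X) x)
  have hb : ∀ x : X, ∃ t : G, t • b x = x := by
    intro x
    have h1 : (MulAction.orbitRel G X).r (b x) x := Quotient.exact (Quotient.out_eq _)
    have h2 : (MulAction.orbitRel G X).r x (b x) := (MulAction.orbitRel G X).symm h1
    rw [MulAction.orbitRel_apply, MulAction.mem_orbit_iff] at h2
    exact h2
  choose t ht using hb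
  have hbg : ∀ (g : G) (x : X), b (g • x) = b x := by
    intro g x
    have : Quotient.mk (MulAction.orbitRel G X) (g • x) = Quotient.mk (MulAction.orbitRel G X) x :=
      Quotient.sound (by
        show (MulAction.orbitRel G X).r (g • x) x
        rw [MulAction.orbitRel_apply]
        exact MulAction.mem_orbit x g)
    show Quotient.out _ = Quotient.out _
    rw [this]
  refine ⟨fun x => χ (Additive.ofMul (t x)), ?_⟩
  intro g x
  have h1 : ((t (g • x))⁻¹ * g * t x) • b x = b x := by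
    rw [mul_smul, mul_smul, ht x, inv_smul_eq_iff]
    have := ht (g • x)
    rw [hbg g x] at this
    exact this.symm
  have h2 := h ((t (g • x))⁻¹ * g * t x) (b x) h1
  rw [ofMul_mul, ofMul_mul, ofMul_inv, map_add, map_add, map_neg] at h2
  show χ (Additive.ofMul (t (g • x))) = χ (Additive.ofMul (t x)) + χ (Additive.ofMul g)
  have h3 : χ (Additive.ofMul (t (g • x))) =
      χ (Additive.ofMul g) + χ (Additive.ofMul (t x)) := by
    have := congrArg (fun z => z + χ (Additive.ofMul (t (g • x)))) h2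
    simp only [zero_add] at this
    rw [← this]
    abel
  rw [h3, add_comm]

/-! ### `OnePoint ℚ` forms (Mathlib's Möbius action of `GL (Fin 2) ℚ`) -/

/-- The cusp `(x : y)` (junk value `∞` for `x = y = 0`). -/
def ca76_cusp (x y : ℚ) : OnePoint ℚ :=
  if y = 0 then OnePoint.infty else ((x / y : ℚ) : OnePoint ℚ)

theorem ca76_smul_cusp (g : GL (Fin 2) ℚ) (x y : ℚ) (hxy : x ≠ 0 ∨ y ≠ 0) :
    g • ca76_cusp x y = ca76_cusp (g 0 0 * x + g 0 1 * y) (g 1 0 * x + g 1 1 * y) := by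
  unfold ca76_cusp
  by_cases hy : y = 0
  · have hx : x ≠ 0 := by tauto
    rw [if_pos hy, OnePoint.smul_infty_eq_ite]
    subst hy
    simp only [mul_zero, add_zero]
    by_cases hc : g 1 0 = 0
    · simp [hc]
    · rw [if_neg hc, if_neg (mul_ne_zero hc hx), mul_div_mul_right _ _ hx]
  · rw [if_neg hy, OnePoint.smul_some_eq_ite]
    have e : g 1 0 * (x / y) + g 1 1 = (g 1 0 * x + g 1 1 * y) / y := by
      field_simp
    by_cases hc : g 1 0 * x + g 1 1 * y = 0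
    · rw [if_pos (by rw [e, hc, zero_div]), if_pos hc]
    · rw [if_neg (by rw [e]; exact div_ne_zero hc hy), if_neg hc]
      congr 1
      field_simp

theorem ca76_cusp_smul (t x y : ℚ) (ht : t ≠ 0) : ca76_cusp (t * x) (t * y) = ca76_cusp x y := by
  unfold ca76_cusp
  by_cases hy : y = 0
  · simp [hy]
  · rw [if_neg hy, if_neg (mul_ne_zero ht hy), mul_div_mul_left _ _ ht]

theorem ca76_cusp_eq {x y x' y' : ℚ}
    (h : ca76_cusp x y = ca76_cusp x' y') : x * y' = x' * y := by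
  unfold ca76_cusp at h
  by_cases hy : y = 0 <;> by_cases hy' : y' = 0
  · rw [hy, hy']; ring
  · rw [if_pos hy, if_neg hy'] at h
    exact absurd h (OnePoint.infty_ne_coe _)
  · rw [if_neg hy, if_pos hy'] at h
    exact absurd h (OnePoint.coe_ne_infty _)
  · rw [if_neg hy, if_neg hy', OnePoint.coe_eq_coe] at h
    field_simp at h
    linarith

theorem ca76_exists_cusp (c : OnePoint ℚ) :
    ∃ u v : ℤ, IsCoprime u v ∧ c = ca76_cusp u v := by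
  induction c using OnePoint.rec with
  | infty => exact ⟨1, 0, isCoprime_one_left, by simp [ca76_cusp]⟩
  | coe q =>
    refine ⟨q.num, q.den, ?_, ?_⟩
    · rw [Int.isCoprime_iff_gcd_eq_one]
      have := q.reduced
      simpa [Int.gcd, Nat.Coprime] using this
    · have hden : ((q.den : ℤ) : ℚ) ≠ 0 := by
        have := q.den_ne_zero
        exact_mod_cast this
      unfold ca76_cusp
      rw [if_neg hden]
      congr 1
      have := Rat.num_div_den q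
      exact_mod_cast this.symm

theorem ca76_cast_ne_zero {u v : ℤ} (huv : IsCoprime u v) : (u : ℚ) ≠ 0 ∨ (v : ℚ) ≠ 0 := by
  by_contra hcon
  push Not at hcon
  obtain ⟨hu, hv⟩ := hcon
  have hu' : u = 0 := by exact_mod_cast hu
  have hv' : v = 0 := by exact_mod_cast hv
  rw [hu', hv'] at huv
  exact not_isCoprime_zero_zero huv

/-- **(K), `OnePoint ℚ` form.**  For `ℓ ≡ 1 (mod M)`, a standard representative of `T_ℓ`
(as an element `g` of `GL (Fin 2) ℚ`) maps every cusp into its own `Γ₀(M)`-orbit. -/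
theorem ca76_cusp_fixed_onePoint {M ℓ : ℕ} (hℓ : ℓ.Prime) (h1 : ℓ ≡ 1 [MOD M])
    (i : Option (Fin ℓ)) (g : GL (Fin 2) ℚ)
    (hg : ∀ a b : Fin 2, g a b = ((hh_repTInt ℓ i a b : ℤ) : ℚ)) (c : OnePoint ℚ) :
    ∃ K : Gamma0 M, g • c = (mapGL ℚ (K : SL(2, ℤ))) • c := by
  obtain ⟨u, v, huv, rfl⟩ := ca76_exists_cusp c
  obtain ⟨K, lam, hlam, hK⟩ := ca76_cusp_fixed' (M := M) hℓ h1 i u v huv
  have hlam0 : (lam : ℚ) ≠ 0 := by
    rcases hlam with rfl | rfl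
    · norm_num
    · exact_mod_cast hℓ.ne_zero
  have h0 := congrFun hK 0
  have h1' := congrFun hK 1
  simp [Matrix.mulVec, dotProduct, Fin.sum_univ_two] at h0 h1'
  refine ⟨K, ?_⟩
  rw [ca76_smul_cusp _ _ _ (ca76_cast_ne_zero huv), ca76_smul_cusp _ _ _ (ca76_cast_ne_zero huv)]
  have e0 : g 0 0 * (u : ℚ) + g 0 1 * (v : ℚ) =
      (lam : ℚ) * ((mapGL ℚ (K : SL(2, ℤ))) 0 0 * (u : ℚ) + (mapGL ℚ (K : SL(2, ℤ))) 0 1 * (v : ℚ)) := by
    rw [hg, hg]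
    have : ((mapGL ℚ (K : SL(2, ℤ)) : GL (Fin 2) ℚ) 0 0 = (((K : SL(2, ℤ)) 0 0 : ℤ) : ℚ)) ∧
        ((mapGL ℚ (K : SL(2, ℤ)) : GL (Fin 2) ℚ) 0 1 = (((K : SL(2, ℤ)) 0 1 : ℤ) : ℚ)) := ⟨rfl, rfl⟩
    rw [this.1, this.2]
    have := congrArg (fun z : ℤ => (z : ℚ)) h0
    simp only [ca76_mat] at this
    push_cast at this
    linarith
  have e1 : g 1 0 * (u : ℚ) + g 1 1 * (v : ℚ) =
      (lam : ℚ) * ((mapGL ℚ (K : SL(2, ℤ))) 1 0 * (u : ℚ) + (mapGL ℚ (K : SL(2, ℤ))) 1 1 * (v : ℚ)) := by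
    rw [hg, hg]
    have : ((mapGL ℚ (K : SL(2, ℤ)) : GL (Fin 2) ℚ) 1 0 = (((K : SL(2, ℤ)) 1 0 : ℤ) : ℚ)) ∧
        ((mapGL ℚ (K : SL(2, ℤ)) : GL (Fin 2) ℚ) 1 1 = (((K : SL(2, ℤ)) 1 1 : ℤ) : ℚ)) := ⟨rfl, rfl⟩
    rw [this.1, this.2]
    have := congrArg (fun z : ℤ => (z : ℚ)) h1'
    simp only [ca76_mat] at this
    push_cast at this
    linarith
  rw [e0, e1, ca76_cusp_smul _ _ _ hlam0]

/-- **(P), `OnePoint ℚ` form.**  An element of `SL(2, ℤ)` fixing a cusp has `tr² = 4`. -/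
theorem ca76_trace_sq_of_smul_eq (γ : SL(2, ℤ)) (c : OnePoint ℚ)
    (h : (mapGL ℚ γ) • c = c) : (γ : Matrix (Fin 2) (Fin 2) ℤ).trace ^ 2 = 4 := by
  obtain ⟨u, v, huv, rfl⟩ := ca76_exists_cusp c
  have hdet := ca76_det_eq γ
  rw [ca76_smul_cusp _ _ _ (ca76_cast_ne_zero huv)] at h
  have hg : ∀ a b : Fin 2, (mapGL ℚ γ : GL (Fin 2) ℚ) a b = ((γ a b : ℤ) : ℚ) := fun _ _ => rfl
  rw [hg, hg, hg, hg] at h
  have hcross := ca76_cusp_eq h
  have hcross' : (γ 0 0 * u + γ 0 1 * v) * v = u * (γ 1 0 * u + γ 1 1 * v) := by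
    exact_mod_cast hcross
  obtain ⟨y₀, w₀, hyw⟩ := huv
  obtain ⟨lam, hlam⟩ : ∃ lam : ℤ, lam = y₀ * (γ 0 0 * u + γ 0 1 * v) + w₀ * (γ 1 0 * u + γ 1 1 * v) :=
    ⟨_, rfl⟩
  have e1 : (γ 0 0 - lam) * u + γ 0 1 * v = 0 := by
    rw [hlam]; linear_combination (γ 0 0 * u + γ 0 1 * v) * (-1) * hyw + w₀ * hcross'
  have e2 : γ 1 0 * u + (γ 1 1 - lam) * v = 0 := by
    rw [hlam]; linear_combination (γ 1 0 * u + γ 1 1 * v) * (-1) * hyw - y₀ * hcross'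
  have hunit : lam * (γ 0 0 + γ 1 1 - lam) = 1 := by
    linear_combination hdet + (-y₀ * (γ 1 1 - lam) + w₀ * γ 1 0) * e1 +
      (y₀ * γ 0 1 - w₀ * (γ 0 0 - lam)) * e2 +
      ((γ 0 0 - lam) * (γ 1 1 - lam) - γ 0 1 * γ 1 0) * hyw
  rw [Matrix.trace_fin_two]
  rcases Int.eq_one_or_neg_one_of_mul_eq_one' hunit with ⟨hl, hr⟩ | ⟨hl, hr⟩
  · have : γ 0 0 + γ 1 1 = 2 := by linarith
    rw [this]; norm_num
  · have : γ 0 0 + γ 1 1 = -2 := by linarith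
    rw [this]; norm_num

/-- **(S), `OnePoint ℚ` form: `ν` is onto the parabolic homs.**  A parabolic hom `χ` on `Γ₀(M)`
(Prelude `IsParabolicHom`) has a potential on the cusps: `a (γ • c) = a c + χ γ`; so
`Φ(r, s) := a s - a r` is a `Γ₀(M)`-invariant modular symbol with `ν(Φ) = χ`. -/
theorem ca76_exists_potential_onePoint {M : ℕ} {A : Type*} [AddCommGroup A]
    (χ : Additive (Gamma0 M) →+ A) (hχ : IsParabolicHom (Gamma0 M) χ) :
    ∃ a : OnePoint ℚ → A, ∀ (γ : Gamma0 M) (c : OnePoint ℚ),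
      a ((mapGL ℚ (γ : SL(2, ℤ))) • c) = a c + χ (Additive.ofMul γ) :=
  ca76_exists_potential ((mapGL ℚ).comp (Gamma0 M).subtype) χ
    (fun g x h => hχ g (ca76_trace_sq_of_smul_eq _ x h))

end Fermat.Agent.S41
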