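/-
S41 / M1.NU (helper53): the map `ν : Symb → Hom(Γ₀(N), A)`, `ν(Φ)(γ) = Φ(c, γ c)`.

Setting (the one of `Trace43`): `Y` any type with an action of `GL(2, ℚ)` ("cusps"),
`A` an additive commutative group, a *symbol* of level `N` is a function `Φ : Y → Y → A` with
`Φ a b + Φ b c = Φ a c`, invariant under `Γ₀(N)` (`nh53_Symb`).

* `nh53_period` : the period lemma for a Hecke coset system on integer matrices
  (`HeckeReps.op_period` of S16 redone for `LbSys`, for an arbitrary action of the integer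
  matrices of nonzero determinant).
* `nh53_nu` : `ν(Φ) : Additive (Gamma0 N) →+ A`, independent of the base point.
* `nh53_nu_T`, `nh53_nu_U` : `ν (T_ℓ Φ) = heckeHom N ℓ A (ν Φ)` (`ℓ ∤ N`, resp. `ℓ ∣ N`), where
  `T_ℓ`, `U_ℓ` on symbols are the coset sums over the representatives `lbMat ℓ`.
* `nh53_nu_parabolic` : `ν(Φ)` is a parabolic homomorphism.
* compatibility with coefficient maps, with lowering of the level and with the `δ`-twist.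
-/
import Mathlib
import Fermat.Prelude.Def_ModularCurve_PeriodMap
import Fermat.Agent.S16.LB.BridgeHH
import Fermat.Agent.S41.Trace43

set_option autoImplicit false

open CongruenceSubgroup ModularCurve ModularCurve.Period
open scoped MatrixGroups

namespace Fermat.Agent.S41

open Fermat.Agent.S16

/-! ### The period lemma for a coset system -/

section Abstract

variable {Γ : Subgroup SL(2, ℤ)} {Y : Type*} {A : Type*} [AddCommGroup A]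

/-- **Period lemma** for a Hecke coset system `S` of `Γ`, for any action of the integer
matrices of nonzero determinant on a set `Y`: if `F` has periods `φ` under `Γ`, then
`∑ i, F (α i • ·)` has periods `S.coh A φ`. -/
theorem nh53_period (S : LbSys Γ) (act : Matrix (Fin 2) (Fin 2) ℤ → Y → Y)
    (hact : ∀ M M' : Matrix (Fin 2) (Fin 2) ℤ, M.det ≠ 0 → M'.det ≠ 0 →
      ∀ y, act (M * M') y = act M (act M' y))
    (F : Y → A) (φ : Additive Γ →+ A)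
    (hF : ∀ (γ : Γ) (y : Y),
      F (act ((γ : SL(2, ℤ)) : Matrix (Fin 2) (Fin 2) ℤ) y) - F y = φ (Additive.ofMul γ))
    (γ : Γ) (y : Y) :
    (∑ i, F (act (S.mat i) (act ((γ : SL(2, ℤ)) : Matrix (Fin 2) (Fin 2) ℤ) y)))
      - ∑ i, F (act (S.mat i) y) = S.coh A φ (Additive.ofMul γ) := by
  rw [LbSys.coh_apply]
  have hdet : ∀ κ : Γ, ((κ : SL(2, ℤ)) : Matrix (Fin 2) (Fin 2) ℤ).det ≠ 0 := fun κ => by
    rw [(κ : SL(2, ℤ)).2]; exact one_ne_zero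
  have h1 : ∀ i, F (act (S.mat i) (act ((γ : SL(2, ℤ)) : Matrix (Fin 2) (Fin 2) ℤ) y)) =
      φ (Additive.ofMul (S.kap γ i)) + F (act (S.mat (S.perm γ i)) y) := by
    intro i
    rw [← hact _ _ (S.det_pos i).ne' (hdet γ), S.mat_mul γ i,
      hact _ _ (hdet _) (S.det_pos _).ne', ← hF (S.kap γ i)]
    abel
  rw [Finset.sum_congr rfl fun i _ => h1 i, Finset.sum_add_distrib]
  have h2 : ∑ i, F (act (S.mat (S.perm γ i)) y) = ∑ i, F (act (S.mat i) y) :=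
    Equiv.sum_comp (S.permEquiv γ) (fun j => F (act (S.mat j) y))
  rw [h2]
  abel

end Abstract

/-! ### Symbols on a `GL(2, ℚ)`-set -/

section Symbols

variable {Y : Type*} [MulAction (GL (Fin 2) ℚ) Y] {A : Type*} [AddCommGroup A]

/-- the action of integer matrices (through `tr43_gl`) is multiplicative on nonzero
determinants. -/
theorem nh53_act_mul (M M' : Matrix (Fin 2) (Fin 2) ℤ) (h : M.det ≠ 0) (h' : M'.det ≠ 0)
    (y : Y) : tr43_gl (M * M') • y = tr43_gl M • tr43_gl M' • y := by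
  rw [tr43_gl_mul h h', mul_smul]

/-- A modular symbol of level `Γ₀(N)` on `Y` with values in `A`: additive and
`Γ₀(N)`-invariant. -/
def nh53_Symb (N : ℕ) (Φ : Y → Y → A) : Prop :=
  (∀ a b c : Y, Φ a b + Φ b c = Φ a c) ∧
    ∀ (γ : Gamma0 N) (a b : Y),
      Φ (Matrix.SpecialLinearGroup.mapGL ℚ (γ : SL(2, ℤ)) • a)
        (Matrix.SpecialLinearGroup.mapGL ℚ (γ : SL(2, ℤ)) • b) = Φ a b

theorem nh53_Symb.add {N : ℕ} {Φ : Y → Y → A} (hΦ : nh53_Symb N Φ) (a b c : Y) :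
    Φ a b + Φ b c = Φ a c := hΦ.1 a b c

theorem nh53_Symb.inv {N : ℕ} {Φ : Y → Y → A} (hΦ : nh53_Symb N Φ) (γ : Gamma0 N) (a b : Y) :
    Φ (Matrix.SpecialLinearGroup.mapGL ℚ (γ : SL(2, ℤ)) • a)
      (Matrix.SpecialLinearGroup.mapGL ℚ (γ : SL(2, ℤ)) • b) = Φ a b := hΦ.2 γ a b

theorem nh53_Symb.self {N : ℕ} {Φ : Y → Y → A} (hΦ : nh53_Symb N Φ) (a : Y) : Φ a a = 0 := by
  have h := hΦ.add a a a
  exact add_eq_left.mp h

theorem nh53_Symb.swap {N : ℕ} {Φ : Y → Y → A} (hΦ : nh53_Symb N Φ) (a b : Y) :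
    Φ b a = -Φ a b := by
  have h := hΦ.add a b a
  rw [hΦ.self] at h
  exact (neg_eq_of_add_eq_zero_right h).symm

theorem nh53_Symb.sub {N : ℕ} {Φ : Y → Y → A} (hΦ : nh53_Symb N Φ) (c a b : Y) :
    Φ a b = Φ c b - Φ c a := by
  rw [← hΦ.add c a b]; abel

/-- base-point independence of the period. -/
theorem nh53_Symb.period_indep {N : ℕ} {Φ : Y → Y → A} (hΦ : nh53_Symb N Φ) (γ : Gamma0 N)
    (a b : Y) :
    Φ a (Matrix.SpecialLinearGroup.mapGL ℚ (γ : SL(2, ℤ)) • a)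
      = Φ b (Matrix.SpecialLinearGroup.mapGL ℚ (γ : SL(2, ℤ)) • b) := by
  rw [← hΦ.add a b (Matrix.SpecialLinearGroup.mapGL ℚ (γ : SL(2, ℤ)) • a),
    ← hΦ.add b (Matrix.SpecialLinearGroup.mapGL ℚ (γ : SL(2, ℤ)) • b)
      (Matrix.SpecialLinearGroup.mapGL ℚ (γ : SL(2, ℤ)) • a), hΦ.inv γ b a, hΦ.swap a b]
  abel

/-- `ν(Φ)`: the homomorphism `γ ↦ Φ(c, γ c)` attached to a symbol. -/
noncomputable def nh53_nu {N : ℕ} {Φ : Y → Y → A} (hΦ : nh53_Symb N Φ) (c : Y) :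
    Additive (Gamma0 N) →+ A where
  toFun γ := Φ c (Matrix.SpecialLinearGroup.mapGL ℚ ((Additive.toMul γ : Gamma0 N) : SL(2, ℤ)) • c)
  map_zero' := by
    show Φ c (Matrix.SpecialLinearGroup.mapGL ℚ (((1 : Gamma0 N)) : SL(2, ℤ)) • c) = 0
    rw [Subgroup.coe_one, map_one, one_smul, hΦ.self]
  map_add' := by
    intro γ δ
    show Φ c (Matrix.SpecialLinearGroup.mapGL ℚ
        (((Additive.toMul γ * Additive.toMul δ : Gamma0 N)) : SL(2, ℤ)) • c) = _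
    rw [Subgroup.coe_mul, map_mul, mul_smul,
      ← hΦ.add c (Matrix.SpecialLinearGroup.mapGL ℚ ((Additive.toMul γ : Gamma0 N) : SL(2, ℤ)) • c),
      hΦ.inv]

theorem nh53_nu_apply {N : ℕ} {Φ : Y → Y → A} (hΦ : nh53_Symb N Φ) (c : Y) (γ : Gamma0 N) :
    nh53_nu hΦ c (Additive.ofMul γ)
      = Φ c (Matrix.SpecialLinearGroup.mapGL ℚ (γ : SL(2, ℤ)) • c) := rfl

/-- `ν(Φ)` does not depend on the base point. -/
theorem nh53_nu_indep {N : ℕ} {Φ : Y → Y → A} (hΦ : nh53_Symb N Φ) (c c' : Y) :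
    nh53_nu hΦ c = nh53_nu hΦ c' := by
  refine AddMonoidHom.ext fun γ => ?_
  obtain ⟨γ, rfl⟩ := Additive.ofMul.surjective γ
  rw [nh53_nu_apply, nh53_nu_apply]
  exact hΦ.period_indep γ c c'

/-- `ν(Φ)(γ) = Φ(a, γ a)` for every `a`. -/
theorem nh53_nu_apply' {N : ℕ} {Φ : Y → Y → A} (hΦ : nh53_Symb N Φ) (c a : Y) (γ : Gamma0 N) :
    nh53_nu hΦ c (Additive.ofMul γ)
      = Φ a (Matrix.SpecialLinearGroup.mapGL ℚ (γ : SL(2, ℤ)) • a) := by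
  rw [nh53_nu_indep hΦ c a, nh53_nu_apply]

/-! ### Hecke operators on symbols and their compatibility with `ν` -/

/-- the operator attached to a coset system on two-variable functions. -/
noncomputable def nh53_sys {N : ℕ} (S : LbSys (Gamma0 N)) (Φ : Y → Y → A) : Y → Y → A :=
  fun a b => ∑ i, Φ (tr43_gl (S.mat i) • a) (tr43_gl (S.mat i) • b)

theorem nh53_sys_apply {N : ℕ} (S : LbSys (Gamma0 N)) (Φ : Y → Y → A) (a b : Y) :
    nh53_sys S Φ a b = ∑ i, Φ (tr43_gl (S.mat i) • a) (tr43_gl (S.mat i) • b) := rfl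

/-- the operator of a coset system preserves symbols. -/
theorem nh53_sys_symb {N : ℕ} (S : LbSys (Gamma0 N)) {Φ : Y → Y → A} (hΦ : nh53_Symb N Φ) :
    nh53_Symb N (nh53_sys S Φ) := by
  refine ⟨fun a b c => ?_, fun γ a b => ?_⟩
  · simp only [nh53_sys_apply, ← Finset.sum_add_distrib]
    exact Finset.sum_congr rfl fun i _ => hΦ.add _ _ _
  · have hγ : ((γ : SL(2, ℤ)) : Matrix (Fin 2) (Fin 2) ℤ).det ≠ 0 := by
      rw [(γ : SL(2, ℤ)).2]; exact one_ne_zero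
    have hdet : ∀ κ : Gamma0 N, ((κ : SL(2, ℤ)) : Matrix (Fin 2) (Fin 2) ℤ).det ≠ 0 :=
      fun κ => by rw [(κ : SL(2, ℤ)).2]; exact one_ne_zero
    have key : ∀ (i : S.ι) (y : Y),
        tr43_gl (S.mat i) • Matrix.SpecialLinearGroup.mapGL ℚ (γ : SL(2, ℤ)) • y
          = Matrix.SpecialLinearGroup.mapGL ℚ ((S.kap γ i : Gamma0 N) : SL(2, ℤ))
              • tr43_gl (S.mat (S.perm γ i)) • y := by
      intro i y
      rw [← tr43_gl_sl, ← tr43_gl_sl, ← nh53_act_mul _ _ (S.det_pos i).ne' hγ, S.mat_mul γ i,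
        nh53_act_mul _ _ (hdet _) (S.det_pos _).ne']
    simp only [nh53_sys_apply]
    rw [Finset.sum_congr rfl fun i _ => by rw [key i a, key i b, hΦ.inv]]
    exact Equiv.sum_comp (S.permEquiv γ)
      (fun j => Φ (tr43_gl (S.mat j) • a) (tr43_gl (S.mat j) • b))

/-- **`ν` intertwines the symbol operator of a coset system with the transfer operator
`S.coh` on `Hom(Γ₀(N), A)`.** -/
theorem nh53_nu_sys {N : ℕ} (S : LbSys (Gamma0 N)) {Φ : Y → Y → A} (hΦ : nh53_Symb N Φ)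
    (c : Y) : nh53_nu (nh53_sys_symb S hΦ) c = S.coh A (nh53_nu hΦ c) := by
  refine AddMonoidHom.ext fun γ => ?_
  obtain ⟨γ, rfl⟩ := Additive.ofMul.surjective γ
  have hper := nh53_period S (fun M (y : Y) => tr43_gl M • y)
    (fun M M' h h' y => nh53_act_mul M M' h h' y) (fun y => Φ c y) (nh53_nu hΦ c)
    (fun κ y => by
      show Φ c (tr43_gl ((κ : SL(2, ℤ)) : Matrix (Fin 2) (Fin 2) ℤ) • y) - Φ c y = _
      rw [tr43_gl_sl, nh53_nu_apply' hΦ c y κ, hΦ.sub c y])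
    γ c
  rw [← hper, nh53_nu_apply, nh53_sys_apply, ← Finset.sum_sub_distrib]
  refine Finset.sum_congr rfl fun i _ => ?_
  show Φ (tr43_gl (S.mat i) • c) (tr43_gl (S.mat i) • Matrix.SpecialLinearGroup.mapGL ℚ
      (γ : SL(2, ℤ)) • c) = Φ c (tr43_gl (S.mat i) • tr43_gl ((γ : SL(2, ℤ)) :
      Matrix (Fin 2) (Fin 2) ℤ) • c) - Φ c (tr43_gl (S.mat i) • c)
  rw [tr43_gl_sl, hΦ.sub c]

/-- the Hecke operator `T_ℓ` on two-variable functions (representatives `lbMat ℓ`). -/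
noncomputable def nh53_T (ℓ : ℕ) (Φ : Y → Y → A) : Y → Y → A :=
  fun a b => ∑ i : Option (Fin ℓ), Φ (tr43_gl (lbMat ℓ i) • a) (tr43_gl (lbMat ℓ i) • b)

/-- the Hecke operator `U_q` on two-variable functions (representatives `lbMat q (some j)`). -/
noncomputable def nh53_U (q : ℕ) (Φ : Y → Y → A) : Y → Y → A :=
  fun a b => ∑ j : Fin q, Φ (tr43_gl (lbMat q (some j)) • a) (tr43_gl (lbMat q (some j)) • b)

theorem nh53_T_apply (ℓ : ℕ) (Φ : Y → Y → A) (a b : Y) :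
    nh53_T ℓ Φ a b
      = ∑ i : Option (Fin ℓ), Φ (tr43_gl (lbMat ℓ i) • a) (tr43_gl (lbMat ℓ i) • b) := rfl

theorem nh53_U_apply (q : ℕ) (Φ : Y → Y → A) (a b : Y) :
    nh53_U q Φ a b
      = ∑ j : Fin q, Φ (tr43_gl (lbMat q (some j)) • a) (tr43_gl (lbMat q (some j)) • b) := rfl

theorem nh53_T_eq_sys {N ℓ : ℕ} (hℓ : ℓ.Prime) (hℓN : ¬ ℓ ∣ N) (Φ : Y → Y → A) :
    nh53_T ℓ Φ = nh53_sys (lbSysT hℓ hℓN) Φ := rfl

theorem nh53_U_eq_sys {N q : ℕ} (hq : q.Prime) (hqN : q ∣ N) (Φ : Y → Y → A) :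
    nh53_U q Φ = nh53_sys (lbSysU hq hqN) Φ := rfl

/-- `T_ℓ` preserves symbols of level `N` (`ℓ ∤ N`). -/
theorem nh53_T_symb {N ℓ : ℕ} (hℓ : ℓ.Prime) (hℓN : ¬ ℓ ∣ N) {Φ : Y → Y → A}
    (hΦ : nh53_Symb N Φ) : nh53_Symb N (nh53_T ℓ Φ) :=
  nh53_sys_symb (lbSysT hℓ hℓN) hΦ

/-- `U_q` preserves symbols of level `N` (`q ∣ N`). -/
theorem nh53_U_symb {N q : ℕ} (hq : q.Prime) (hqN : q ∣ N) {Φ : Y → Y → A}
    (hΦ : nh53_Symb N Φ) : nh53_Symb N (nh53_U q Φ) :=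
  nh53_sys_symb (lbSysU hq hqN) hΦ

/-- **`ν (T_ℓ Φ) = heckeHom N ℓ A (ν Φ)`** for a prime `ℓ ∤ N`. -/
theorem nh53_nu_T {N ℓ : ℕ} (hℓ : ℓ.Prime) (hℓN : ¬ ℓ ∣ N) {Φ : Y → Y → A}
    (hΦ : nh53_Symb N Φ) (c : Y) :
    nh53_nu (nh53_T_symb hℓ hℓN hΦ) c = heckeHom N ℓ A (nh53_nu hΦ c) := by
  rw [← hh_lbSysT_coh hℓ hℓN A]
  exact nh53_nu_sys (lbSysT hℓ hℓN) hΦ c

/-- **`ν (U_q Φ) = heckeHom N q A (ν Φ)`** for a prime `q ∣ N`. -/
theorem nh53_nu_U {N q : ℕ} (hq : q.Prime) (hqN : q ∣ N) {Φ : Y → Y → A}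
    (hΦ : nh53_Symb N Φ) (c : Y) :
    nh53_nu (nh53_U_symb hq hqN hΦ) c = heckeHom N q A (nh53_nu hΦ c) := by
  rw [← hh_lbSysU_coh hq hqN A]
  exact nh53_nu_sys (lbSysU hq hqN) hΦ c

/-- elementwise form, for any proof that `T_ℓ Φ` is a symbol. -/
theorem nh53_nu_T_apply {N ℓ : ℕ} (hℓ : ℓ.Prime) (hℓN : ¬ ℓ ∣ N) {Φ : Y → Y → A}
    (hΦ : nh53_Symb N Φ) (c : Y) (γ : Gamma0 N) :
    nh53_T ℓ Φ c (Matrix.SpecialLinearGroup.mapGL ℚ (γ : SL(2, ℤ)) • c)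
      = heckeHom N ℓ A (nh53_nu hΦ c) (Additive.ofMul γ) := by
  rw [← nh53_nu_T hℓ hℓN hΦ c, nh53_nu_apply]

/-- elementwise form, for `U_q`. -/
theorem nh53_nu_U_apply {N q : ℕ} (hq : q.Prime) (hqN : q ∣ N) {Φ : Y → Y → A}
    (hΦ : nh53_Symb N Φ) (c : Y) (γ : Gamma0 N) :
    nh53_U q Φ c (Matrix.SpecialLinearGroup.mapGL ℚ (γ : SL(2, ℤ)) • c)
      = heckeHom N q A (nh53_nu hΦ c) (Additive.ofMul γ) := by
  rw [← nh53_nu_U hq hqN hΦ c, nh53_nu_apply]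

/-! ### Parabolicity -/

/-- `ν(Φ)` kills every element of `Γ₀(N)` that fixes a point of `Y`. -/
theorem nh53_nu_of_fix {N : ℕ} {Φ : Y → Y → A} (hΦ : nh53_Symb N Φ) (c : Y) (γ : Gamma0 N)
    (y : Y) (hy : Matrix.SpecialLinearGroup.mapGL ℚ (γ : SL(2, ℤ)) • y = y) :
    nh53_nu hΦ c (Additive.ofMul γ) = 0 := by
  rw [nh53_nu_apply' hΦ c y γ, hy, hΦ.self]

/-- `ν(Φ)` is a parabolic homomorphism as soon as every element of trace `±2` of `Γ₀(N)` has a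
fixed point on `Y` (true for `Y = OnePoint ℚ`, see `nh53_onePoint_fix`). -/
theorem nh53_nu_parabolic {N : ℕ} {Φ : Y → Y → A} (hΦ : nh53_Symb N Φ) (c : Y)
    (hfix : ∀ γ : Gamma0 N, ((γ : SL(2, ℤ)) : Matrix (Fin 2) (Fin 2) ℤ).trace ^ 2 = 4 →
      ∃ y : Y, Matrix.SpecialLinearGroup.mapGL ℚ (γ : SL(2, ℤ)) • y = y) :
    IsParabolicHom (Gamma0 N) (nh53_nu hΦ c) := by
  intro γ hγ
  obtain ⟨y, hy⟩ := hfix γ hγ
  exact nh53_nu_of_fix hΦ c γ y hy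

/-! ### Linear structure and coefficient maps -/

theorem nh53_Symb.zero (N : ℕ) : nh53_Symb N (0 : Y → Y → A) :=
  ⟨fun _ _ _ => add_zero 0, fun _ _ _ => rfl⟩

theorem nh53_Symb.add' {N : ℕ} {Φ Ψ : Y → Y → A} (hΦ : nh53_Symb N Φ) (hΨ : nh53_Symb N Ψ) :
    nh53_Symb N (Φ + Ψ) := by
  refine ⟨fun a b c => ?_, fun γ a b => ?_⟩
  · show Φ a b + Ψ a b + (Φ b c + Ψ b c) = Φ a c + Ψ a c
    rw [← hΦ.add a b c, ← hΨ.add a b c]; abel
  · show Φ _ _ + Ψ _ _ = Φ a b + Ψ a b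
    rw [hΦ.inv, hΨ.inv]

theorem nh53_Symb.neg {N : ℕ} {Φ : Y → Y → A} (hΦ : nh53_Symb N Φ) : nh53_Symb N (-Φ) := by
  refine ⟨fun a b c => ?_, fun γ a b => ?_⟩
  · show -Φ a b + -Φ b c = -Φ a c
    rw [← hΦ.add a b c]; abel
  · show -Φ _ _ = -Φ a b
    rw [hΦ.inv]

theorem nh53_Symb.sub' {N : ℕ} {Φ Ψ : Y → Y → A} (hΦ : nh53_Symb N Φ) (hΨ : nh53_Symb N Ψ) :
    nh53_Symb N (Φ - Ψ) := by
  rw [sub_eq_add_neg]; exact hΦ.add' hΨ.neg

/-- composition with an additive map of the coefficients. -/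
theorem nh53_Symb.comp {N : ℕ} {Φ : Y → Y → A} (hΦ : nh53_Symb N Φ) {B : Type*}
    [AddCommGroup B] (g : A →+ B) : nh53_Symb N (fun a b => g (Φ a b)) := by
  refine ⟨fun a b c => ?_, fun γ a b => ?_⟩
  · show g (Φ a b) + g (Φ b c) = g (Φ a c)
    rw [← map_add, hΦ.add]
  · show g (Φ _ _) = g (Φ a b)
    rw [hΦ.inv]

theorem nh53_Symb.smul {N : ℕ} {Φ : Y → Y → A} (hΦ : nh53_Symb N Φ) {R : Type*} [Monoid R]
    [DistribMulAction R A] (r : R) : nh53_Symb N (r • Φ) :=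
  hΦ.comp (DistribSMul.toAddMonoidHom A r)

theorem nh53_nu_zero (N : ℕ) (c : Y) : nh53_nu (nh53_Symb.zero (Y := Y) (A := A) N) c = 0 :=
  AddMonoidHom.ext fun _ => rfl

theorem nh53_nu_add {N : ℕ} {Φ Ψ : Y → Y → A} (hΦ : nh53_Symb N Φ) (hΨ : nh53_Symb N Ψ)
    (c : Y) : nh53_nu (hΦ.add' hΨ) c = nh53_nu hΦ c + nh53_nu hΨ c :=
  AddMonoidHom.ext fun _ => rfl

theorem nh53_nu_neg {N : ℕ} {Φ : Y → Y → A} (hΦ : nh53_Symb N Φ) (c : Y) :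
    nh53_nu hΦ.neg c = -nh53_nu hΦ c :=
  AddMonoidHom.ext fun _ => rfl

theorem nh53_nu_sub {N : ℕ} {Φ Ψ : Y → Y → A} (hΦ : nh53_Symb N Φ) (hΨ : nh53_Symb N Ψ)
    (c : Y) : nh53_nu (hΦ.sub' hΨ) c = nh53_nu hΦ c - nh53_nu hΨ c :=
  AddMonoidHom.ext fun _ => rfl

theorem nh53_nu_comp {N : ℕ} {Φ : Y → Y → A} (hΦ : nh53_Symb N Φ) {B : Type*}
    [AddCommGroup B] (g : A →+ B) (c : Y) :
    nh53_nu (hΦ.comp g) c = g.comp (nh53_nu hΦ c) :=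
  AddMonoidHom.ext fun _ => rfl

theorem nh53_nu_smul {N : ℕ} {Φ : Y → Y → A} (hΦ : nh53_Symb N Φ) {R : Type*} [Monoid R]
    [DistribMulAction R A] (r : R) (c : Y) :
    nh53_nu (hΦ.smul r) c = r • nh53_nu hΦ c :=
  AddMonoidHom.ext fun _ => rfl

/-- `ν` only depends on the function `Φ` (proof irrelevance, for rewriting). -/
theorem nh53_nu_congr {N : ℕ} {Φ Ψ : Y → Y → A} (hΦ : nh53_Symb N Φ) (hΨ : nh53_Symb N Ψ)
    (h : Φ = Ψ) (c : Y) : nh53_nu hΦ c = nh53_nu hΨ c := by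
  subst h; rfl

/-! ### Lowering the level and twisting -/

theorem nh53_Gamma0_le {N N' : ℕ} (h : N ∣ N') : Gamma0 N' ≤ Gamma0 N := by
  intro γ hγ
  rw [Gamma0_mem] at hγ ⊢
  rw [ZMod.intCast_zmod_eq_zero_iff_dvd] at hγ ⊢
  exact (Int.natCast_dvd_natCast.mpr h).trans hγ

/-- the inclusion `Γ₀(N') → Γ₀(N)` for `N ∣ N'`. -/
def nh53_res {N N' : ℕ} (h : N ∣ N') : Gamma0 N' →* Gamma0 N :=
  Subgroup.inclusion (nh53_Gamma0_le h)

theorem nh53_res_coe {N N' : ℕ} (h : N ∣ N') (γ : Gamma0 N') :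
    ((nh53_res h γ : Gamma0 N) : SL(2, ℤ)) = (γ : SL(2, ℤ)) := rfl

theorem nh53_Symb.of_dvd {N N' : ℕ} (h : N ∣ N') {Φ : Y → Y → A} (hΦ : nh53_Symb N Φ) :
    nh53_Symb N' Φ :=
  ⟨hΦ.1, fun γ a b => hΦ.inv (nh53_res h γ) a b⟩

/-- `ν` at level `N'` of a symbol of level `N ∣ N'` is the restriction of `ν` at level `N`. -/
theorem nh53_nu_of_dvd {N N' : ℕ} (h : N ∣ N') {Φ : Y → Y → A} (hΦ : nh53_Symb N Φ) (c : Y) :
    nh53_nu (hΦ.of_dvd h) c = (nh53_nu hΦ c).comp (MonoidHom.toAdditive (nh53_res h)) :=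
  AddMonoidHom.ext fun _ => rfl

/-- the twist `(a, b) ↦ Φ (M a, M b)` by an integer matrix. -/
noncomputable def nh53_tw (M : Matrix (Fin 2) (Fin 2) ℤ) (Φ : Y → Y → A) : Y → Y → A :=
  fun a b => Φ (tr43_gl M • a) (tr43_gl M • b)

omit [AddCommGroup A] in
theorem nh53_tw_apply (M : Matrix (Fin 2) (Fin 2) ℤ) (Φ : Y → Y → A) (a b : Y) :
    nh53_tw M Φ a b = Φ (tr43_gl M • a) (tr43_gl M • b) := rfl

/-- moving an element of `Γ₀(N')` through `M`. -/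
theorem nh53_tw_smul {N N' : ℕ} {M : Matrix (Fin 2) (Fin 2) ℤ} (hM : M.det ≠ 0)
    {γ : Gamma0 N'} {γ' : Gamma0 N}
    (h : M * ((γ : SL(2, ℤ)) : Matrix (Fin 2) (Fin 2) ℤ)
      = ((γ' : SL(2, ℤ)) : Matrix (Fin 2) (Fin 2) ℤ) * M) (y : Y) :
    tr43_gl M • Matrix.SpecialLinearGroup.mapGL ℚ (γ : SL(2, ℤ)) • y
      = Matrix.SpecialLinearGroup.mapGL ℚ (γ' : SL(2, ℤ)) • tr43_gl M • y := by
  have hγ : ((γ : SL(2, ℤ)) : Matrix (Fin 2) (Fin 2) ℤ).det ≠ 0 := by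
    rw [(γ : SL(2, ℤ)).2]; exact one_ne_zero
  have hγ' : ((γ' : SL(2, ℤ)) : Matrix (Fin 2) (Fin 2) ℤ).det ≠ 0 := by
    rw [(γ' : SL(2, ℤ)).2]; exact one_ne_zero
  rw [← tr43_gl_sl, ← tr43_gl_sl, ← nh53_act_mul _ _ hM hγ, h, nh53_act_mul _ _ hγ' hM]

/-- the twist by `M` of a symbol of level `N` is a symbol of level `N'` if `M Γ₀(N') ⊆ Γ₀(N) M`. -/
theorem nh53_tw_symb {N N' : ℕ} {M : Matrix (Fin 2) (Fin 2) ℤ} (hM : M.det ≠ 0)
    (hconj : ∀ γ : Gamma0 N', ∃ γ' : Gamma0 N,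
      M * ((γ : SL(2, ℤ)) : Matrix (Fin 2) (Fin 2) ℤ)
        = ((γ' : SL(2, ℤ)) : Matrix (Fin 2) (Fin 2) ℤ) * M)
    {Φ : Y → Y → A} (hΦ : nh53_Symb N Φ) : nh53_Symb N' (nh53_tw M Φ) := by
  refine ⟨fun a b c => hΦ.add _ _ _, fun γ a b => ?_⟩
  obtain ⟨γ', h⟩ := hconj γ
  rw [nh53_tw_apply, nh53_tw_smul hM h, nh53_tw_smul hM h, hΦ.inv, nh53_tw_apply]

/-- `ν` of a twisted symbol: `ν(Φ ∘ M)(γ) = ν(Φ)(γ')` whenever `M γ = γ' M`. -/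
theorem nh53_nu_tw {N N' : ℕ} {M : Matrix (Fin 2) (Fin 2) ℤ} (hM : M.det ≠ 0)
    {Φ : Y → Y → A} (hΦ : nh53_Symb N Φ) (hΦ' : nh53_Symb N' (nh53_tw M Φ)) (c : Y)
    {γ : Gamma0 N'} {γ' : Gamma0 N}
    (h : M * ((γ : SL(2, ℤ)) : Matrix (Fin 2) (Fin 2) ℤ)
      = ((γ' : SL(2, ℤ)) : Matrix (Fin 2) (Fin 2) ℤ) * M) :
    nh53_nu hΦ' c (Additive.ofMul γ) = nh53_nu hΦ c (Additive.ofMul γ') := by
  rw [nh53_nu_apply, nh53_tw_apply, nh53_tw_smul hM h, nh53_nu_apply' hΦ c (tr43_gl M • c) γ']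

/-! ### The `δ`-twist, `δ = diag(q, 1)` -/

/-- `δ Γ₀(N q) δ⁻¹ ⊆ Γ₀(N)` for `δ = diag(q, 1) = lbMat q none`, on integer matrices. -/
theorem nh53_delta_conj {N q : ℕ} (γ : Gamma0 (N * q)) :
    ∃ γ' : Gamma0 N, lbMat q none * ((γ : SL(2, ℤ)) : Matrix (Fin 2) (Fin 2) ℤ)
      = ((γ' : SL(2, ℤ)) : Matrix (Fin 2) (Fin 2) ℤ) * lbMat q none := by
  obtain ⟨k, hk⟩ := lb_Gamma0_dvd γ
  have hdet := lb_sl_det (γ : SL(2, ℤ))
  refine ⟨lbMk N ((γ : SL(2, ℤ)) 0 0) ((q : ℤ) * (γ : SL(2, ℤ)) 0 1) ((N : ℤ) * k)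
    ((γ : SL(2, ℤ)) 1 1) ?_ (dvd_mul_right _ _), ?_⟩
  · have h10 : (γ : SL(2, ℤ)) 1 0 = (N : ℤ) * q * k := by rw [hk]; push_cast; ring
    linear_combination hdet + (γ : SL(2, ℤ)) 0 1 * h10
  · rw [lbMk_coe, lbMat_none]
    have h10 : (γ : SL(2, ℤ)) 1 0 = (N : ℤ) * k * q := by rw [hk]; push_cast; ring
    ext i j
    fin_cases i <;> fin_cases j <;>
      simp [Matrix.mul_apply, Fin.sum_univ_two, h10, mul_comm]

/-- an integer matrix relation `M γ = γ' M` with `det M ≠ 0` determines `γ'`. -/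
theorem nh53_conj_unique {N : ℕ} {M K : Matrix (Fin 2) (Fin 2) ℤ} (hM : M.det ≠ 0)
    {γ₁ γ₂ : Gamma0 N}
    (h₁ : K = ((γ₁ : SL(2, ℤ)) : Matrix (Fin 2) (Fin 2) ℤ) * M)
    (h₂ : K = ((γ₂ : SL(2, ℤ)) : Matrix (Fin 2) (Fin 2) ℤ) * M) : γ₁ = γ₂ := by
  have h : ((γ₁ : SL(2, ℤ)) : Matrix (Fin 2) (Fin 2) ℤ) * M
      = ((γ₂ : SL(2, ℤ)) : Matrix (Fin 2) (Fin 2) ℤ) * M := h₁.symm.trans h₂
  have h'' : ((γ₁ : SL(2, ℤ)) : Matrix (Fin 2) (Fin 2) ℤ) * (M * M.adjugate)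
      = ((γ₂ : SL(2, ℤ)) : Matrix (Fin 2) (Fin 2) ℤ) * (M * M.adjugate) := by
    rw [← Matrix.mul_assoc, ← Matrix.mul_assoc, h]
  rw [Matrix.mul_adjugate, Matrix.mul_smul, Matrix.mul_smul, Matrix.mul_one,
    Matrix.mul_one] at h''
  have h3 : ((γ₁ : SL(2, ℤ)) : Matrix (Fin 2) (Fin 2) ℤ)
      = ((γ₂ : SL(2, ℤ)) : Matrix (Fin 2) (Fin 2) ℤ) := by
    ext i j
    have := congrFun (congrFun h'' i) j
    simp only [Matrix.smul_apply, smul_eq_mul] at this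
    exact mul_left_cancel₀ hM this
  exact Subtype.ext (Subtype.ext h3)

/-- conjugation by `δ = diag(q, 1)`: `Γ₀(N q) → Γ₀(N)`, `γ ↦ δ γ δ⁻¹`. -/
noncomputable def nh53_conj (N q : ℕ) [NeZero q] : Gamma0 (N * q) →* Gamma0 N where
  toFun γ := (nh53_delta_conj (N := N) (q := q) γ).choose
  map_one' := by
    have hq : (lbMat q none).det ≠ 0 := tr43_lbMat_det_ne (NeZero.ne q) none
    refine nh53_conj_unique hq (nh53_delta_conj (N := N) (q := q) 1).choose_spec ?_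
    simp
  map_mul' γ δ := by
    have hq : (lbMat q none).det ≠ 0 := tr43_lbMat_det_ne (NeZero.ne q) none
    show (nh53_delta_conj (N := N) (q := q) (γ * δ)).choose
      = (nh53_delta_conj (N := N) (q := q) γ).choose
        * (nh53_delta_conj (N := N) (q := q) δ).choose
    have h1 := (nh53_delta_conj (N := N) (q := q) γ).choose_spec
    have h2 := (nh53_delta_conj (N := N) (q := q) δ).choose_spec
    generalize (nh53_delta_conj (N := N) (q := q) γ).choose = g1 at h1 ⊢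
    generalize (nh53_delta_conj (N := N) (q := q) δ).choose = g2 at h2 ⊢
    refine nh53_conj_unique hq (nh53_delta_conj (N := N) (q := q) (γ * δ)).choose_spec ?_
    rw [Subgroup.coe_mul, Matrix.SpecialLinearGroup.coe_mul, ← Matrix.mul_assoc, h1,
      Matrix.mul_assoc, h2, ← Matrix.mul_assoc, Subgroup.coe_mul,
      Matrix.SpecialLinearGroup.coe_mul]

/-- the defining relation `δ γ = (δ γ δ⁻¹) δ`. -/
theorem nh53_conj_spec (N q : ℕ) [NeZero q] (γ : Gamma0 (N * q)) :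
    lbMat q none * ((γ : SL(2, ℤ)) : Matrix (Fin 2) (Fin 2) ℤ)
      = ((nh53_conj N q γ : SL(2, ℤ)) : Matrix (Fin 2) (Fin 2) ℤ) * lbMat q none :=
  (nh53_delta_conj (N := N) (q := q) γ).choose_spec

/-- the entries of `δ γ δ⁻¹`: `!![a, q b; c / q, d]`. -/
theorem nh53_conj_entries (N q : ℕ) [NeZero q] (γ : Gamma0 (N * q)) :
    (nh53_conj N q γ : SL(2, ℤ)) 0 0 = (γ : SL(2, ℤ)) 0 0 ∧
    (nh53_conj N q γ : SL(2, ℤ)) 0 1 = (q : ℤ) * (γ : SL(2, ℤ)) 0 1 ∧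
    (nh53_conj N q γ : SL(2, ℤ)) 1 0 * (q : ℤ) = (γ : SL(2, ℤ)) 1 0 ∧
    (nh53_conj N q γ : SL(2, ℤ)) 1 1 = (γ : SL(2, ℤ)) 1 1 := by
  have h := nh53_conj_spec N q γ
  have hq : (q : ℤ) ≠ 0 := by exact_mod_cast NeZero.ne q
  rw [lb_none_mul, lb_mul_none] at h
  obtain ⟨h00, h01, h10, h11⟩ := lb_of_eq h
  refine ⟨?_, h01.symm, h10.symm, h11.symm⟩
  have h00' : (q : ℤ) * (nh53_conj N q γ : SL(2, ℤ)) 0 0 = (q : ℤ) * (γ : SL(2, ℤ)) 0 0 := by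
    rw [h00]; ring
  exact mul_left_cancel₀ hq h00'

/-- the `δ`-twist of a symbol of level `N` is a symbol of level `N q`. -/
theorem nh53_delta_symb (N q : ℕ) [NeZero q] {Φ : Y → Y → A} (hΦ : nh53_Symb N Φ) :
    nh53_Symb (N * q) (nh53_tw (lbMat q none) Φ) :=
  nh53_tw_symb (tr43_lbMat_det_ne (NeZero.ne q) none) (fun γ => nh53_delta_conj γ) hΦ

/-- **`ν` of the `δ`-twist is `ν` composed with conjugation by `δ`.** -/
theorem nh53_nu_delta (N q : ℕ) [NeZero q] {Φ : Y → Y → A} (hΦ : nh53_Symb N Φ) (c : Y) :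
    nh53_nu (nh53_delta_symb N q hΦ) c
      = (nh53_nu hΦ c).comp (MonoidHom.toAdditive (nh53_conj N q)) := by
  refine AddMonoidHom.ext fun γ => ?_
  obtain ⟨γ, rfl⟩ := Additive.ofMul.surjective γ
  exact nh53_nu_tw (tr43_lbMat_det_ne (NeZero.ne q) none) hΦ _ c (nh53_conj_spec N q γ)

/-- **`ν` and the degeneracy map.**  For symbols `Φ₁, Φ₂` of level `N`, the symbol
`Φ₁ + Φ₂ ∘ δ` of level `N q` has `ν = ν(Φ₁) ∘ res + ν(Φ₂) ∘ conj_δ`. -/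
theorem nh53_nu_degeneracy (N q : ℕ) [NeZero q] {Φ₁ Φ₂ : Y → Y → A} (hΦ₁ : nh53_Symb N Φ₁)
    (hΦ₂ : nh53_Symb N Φ₂) (c : Y) :
    nh53_nu ((hΦ₁.of_dvd (dvd_mul_right N q)).add' (nh53_delta_symb N q hΦ₂)) c
      = (nh53_nu hΦ₁ c).comp (MonoidHom.toAdditive (nh53_res (dvd_mul_right N q)))
        + (nh53_nu hΦ₂ c).comp (MonoidHom.toAdditive (nh53_conj N q)) := by
  rw [nh53_nu_add (hΦ₁.of_dvd (dvd_mul_right N q)) (nh53_delta_symb N q hΦ₂), nh53_nu_of_dvd,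
    nh53_nu_delta]

/-- on symbols of level `N`, the twist by the Atkin–Lehner matrix `w` of `Trace43` is the
`δ`-twist. -/
theorem nh53_tw_w {N q : ℕ} [NeZero q] (D : tr43_Data N q) {Φ : Y → Y → A}
    (hΦ : nh53_Symb N Φ) : nh53_tw D.w Φ = nh53_tw (lbMat q none) Φ := by
  funext a b
  have hq : (lbMat q none).det ≠ 0 := tr43_lbMat_det_ne (NeZero.ne q) none
  have hγ : ((D.gam' : SL(2, ℤ)) : Matrix (Fin 2) (Fin 2) ℤ).det ≠ 0 := by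
    rw [(D.gam' : SL(2, ℤ)).2]; exact one_ne_zero
  rw [nh53_tw_apply, nh53_tw_apply, D.w_eq, nh53_act_mul _ _ hγ hq, nh53_act_mul _ _ hγ hq,
    tr43_gl_sl, hΦ.inv]

/-! ### Dictionary with the one-variable calculus of `Trace43` on `Y × Y` -/

omit [AddCommGroup A] in
theorem nh53_uncurry_tw (M : Matrix (Fin 2) (Fin 2) ℤ) (Φ : Y → Y → A) :
    Function.uncurry (nh53_tw M Φ) = tr43_sl (Function.uncurry Φ) M := by
  funext ⟨a, b⟩
  rfl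

theorem nh53_uncurry_T (ℓ : ℕ) (Φ : Y → Y → A) :
    Function.uncurry (nh53_T ℓ Φ) = tr43_T ℓ (Function.uncurry Φ) := by
  funext ⟨a, b⟩
  rw [tr43_T_apply]
  rfl

theorem nh53_uncurry_U (q : ℕ) (Φ : Y → Y → A) :
    Function.uncurry (nh53_U q Φ) = tr43_U q (Function.uncurry Φ) := by
  funext ⟨a, b⟩
  rw [tr43_U_apply]
  rfl

theorem nh53_uncurry_inv {N : ℕ} {Φ : Y → Y → A} (hΦ : nh53_Symb N Φ) :
    tr43_Inv N (Function.uncurry Φ) := by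
  rintro γ ⟨a, b⟩
  exact hΦ.inv γ a b

end Symbols

/-! ### The concrete model `Y = OnePoint ℚ` -/

/-- every element of `SL(2, ℤ)` of trace `±2` fixes a point of `ℙ¹(ℚ)`. -/
theorem nh53_onePoint_fix (γ : SL(2, ℤ))
    (hγ : (γ : Matrix (Fin 2) (Fin 2) ℤ).trace ^ 2 = 4) :
    ∃ y : OnePoint ℚ, Matrix.SpecialLinearGroup.mapGL ℚ γ • y = y := by
  have hdet := lb_sl_det γ
  rw [Matrix.trace_fin_two] at hγ
  have e : ∀ i j, ((Matrix.SpecialLinearGroup.mapGL ℚ γ : GL (Fin 2) ℚ) :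
      Matrix (Fin 2) (Fin 2) ℚ) i j = ((γ i j : ℤ) : ℚ) := fun i j => rfl
  by_cases hc : γ 1 0 = 0
  · refine ⟨OnePoint.infty, ?_⟩
    rw [OnePoint.smul_infty_eq_self_iff, e, hc, Int.cast_zero]
  · have hcQ : ((γ 1 0 : ℤ) : ℚ) ≠ 0 := by exact_mod_cast hc
    have htr : (((γ 0 0 : ℤ) : ℚ) + γ 1 1) ^ 2 = 4 := by exact_mod_cast hγ
    have hdetQ : ((γ 0 0 : ℤ) : ℚ) * γ 1 1 - γ 0 1 * γ 1 0 = 1 := by exact_mod_cast hdet
    have htr0 : ((γ 0 0 : ℤ) : ℚ) + γ 1 1 ≠ 0 := by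
      intro h0; rw [h0] at htr; norm_num at htr
    refine ⟨((((γ 0 0 : ℤ) : ℚ) - γ 1 1) / (2 * γ 1 0) : ℚ), ?_⟩
    rw [OnePoint.smul_some_eq_ite, e, e, e, e]
    have hden : ((γ 1 0 : ℤ) : ℚ) * ((((γ 0 0 : ℤ) : ℚ) - γ 1 1) / (2 * γ 1 0)) + γ 1 1
        = (((γ 0 0 : ℤ) : ℚ) + γ 1 1) / 2 := by
      field_simp; ring
    rw [if_neg (by rw [hden]; exact div_ne_zero htr0 two_ne_zero), hden]
    congr 1
    field_simp
    linear_combination htr - 4 * hdetQ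

/-- on `ℙ¹(ℚ)`, `ν(Φ)` is always parabolic. -/
theorem nh53_nu_parabolic_onePoint {A : Type*} [AddCommGroup A] {N : ℕ}
    {Φ : OnePoint ℚ → OnePoint ℚ → A} (hΦ : nh53_Symb N Φ) (c : OnePoint ℚ) :
    IsParabolicHom (Gamma0 N) (nh53_nu hΦ c) :=
  nh53_nu_parabolic hΦ c fun γ hγ => nh53_onePoint_fix (γ : SL(2, ℤ)) hγ

end Fermat.Agent.S41
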