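/-
S41 / M3 (D2): adjointness of restriction and trace for the algebraic cap-product pairing
(abstract group theory, Mathlib only).

Setting: `G` a group, `H` a subgroup with finite quotient `G ⧸ H` (left cosets), `X` a `G`-set
("cusps"), `R` a commutative ring.
* `χ : G → R` additive;
* `pot : X → R` a potential of an `H`-invariant symbol: `pot (h • a) = pot a + ν h` for `h ∈ H`;
* `κ : G → R` with `κ (x * y) = κ x + κ y + ν x * χ y` for `x y ∈ H`.
-/
import Mathlib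

set_option autoImplicit false

namespace Fermat.Agent.S41

open MulAction Subgroup Function

section CapTransfer

variable {G : Type*} [Group G] (H : Subgroup G) {X : Type*} [MulAction G X]
  {R : Type*} [CommRing R]

/-- The cocycle `h(g, q) = s(g • q)⁻¹ * g * s(q)` of the section `s = Quotient.out`. -/
noncomputable def ct77_h (g : G) (q : G ⧸ H) : G := (g • q).out⁻¹ * g * q.out

lemma ct77_h_mem (g : G) (q : G ⧸ H) : ct77_h H g q ∈ H := by
  have h1 : (((g • q).out : G) : G ⧸ H) = ((g * q.out : G) : G ⧸ H) := by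
    rw [QuotientGroup.out_eq']
    conv_lhs => rw [← QuotientGroup.out_eq' q]
    rfl
  have := QuotientGroup.eq.mp h1
  simpa [ct77_h, mul_assoc] using this

lemma ct77_h_one (q : G ⧸ H) : ct77_h H 1 q = 1 := by
  simp [ct77_h]

lemma ct77_h_mul (g g' : G) (q : G ⧸ H) :
    ct77_h H (g * g') q = ct77_h H g (g' • q) * ct77_h H g' q := by
  simp only [ct77_h, mul_smul]
  group

/-- `s(g • q)⁻¹ * g = h(g, q) * s(q)⁻¹`. -/
lemma ct77_out_inv_mul (g : G) (q : G ⧸ H) :
    (g • q).out⁻¹ * g = ct77_h H g q * q.out⁻¹ := by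
  simp [ct77_h]

/-- Potential of the trace of the symbol. -/
noncomputable def ct77_potTr (pot : X → R) (a : X) : R :=
  ∑ᶠ q : G ⧸ H, pot (q.out⁻¹ • a)

/-- Transfer of `ν`. -/
noncomputable def ct77_nuTr (ν : G → R) (g : G) : R :=
  ∑ᶠ q : G ⧸ H, ν (ct77_h H g q)

/-- The Heisenberg lift on `G` built from one on `H`. -/
noncomputable def ct77_kapG (χ ν κ : G → R) (g : G) : R :=
  ∑ᶠ q : G ⧸ H, (κ (ct77_h H g q) - ν (ct77_h H g q) * χ q.out)


section Basic

variable {χ ν κ : G → R} {pot : X → R}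

lemma ct77_chi_one (hχ : ∀ g g', χ (g * g') = χ g + χ g') : χ 1 = 0 := by
  have := hχ 1 1
  rw [mul_one] at this
  linear_combination -this

lemma ct77_chi_inv (hχ : ∀ g g', χ (g * g') = χ g + χ g') (g : G) : χ g⁻¹ = -χ g := by
  have h1 := hχ g g⁻¹
  rw [mul_inv_cancel, ct77_chi_one hχ] at h1
  linear_combination -h1

lemma ct77_chi_pow (hχ : ∀ g g', χ (g * g') = χ g + χ g') (g : G) (n : ℕ) :
    χ (g ^ n) = n * χ g := by
  induction n with
  | zero => simp [ct77_chi_one hχ]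
  | succ n ih => rw [pow_succ, hχ, ih]; push_cast; ring

lemma ct77_nu_one (hν : ∀ x ∈ H, ∀ y ∈ H, ν (x * y) = ν x + ν y) : ν 1 = 0 := by
  have := hν 1 H.one_mem 1 H.one_mem
  rw [mul_one] at this
  linear_combination -this

lemma ct77_kap_one (hχ : ∀ g g', χ (g * g') = χ g + χ g')
    (hκ : ∀ x ∈ H, ∀ y ∈ H, κ (x * y) = κ x + κ y + ν x * χ y) : κ 1 = 0 := by
  have := hκ 1 H.one_mem 1 H.one_mem
  rw [mul_one, ct77_chi_one hχ] at this
  linear_combination -this

/-- additivity of `ν` on `H` follows from the potential property as soon as `X` is nonempty. -/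
lemma ct77_nu_mul_of_pot [Nonempty X] (hpot : ∀ h ∈ H, ∀ a, pot (h • a) = pot a + ν h) :
    ∀ x ∈ H, ∀ y ∈ H, ν (x * y) = ν x + ν y := by
  intro x hx y hy
  obtain ⟨a⟩ := ‹Nonempty X›
  have h1 := hpot (x * y) (H.mul_mem hx hy) a
  rw [mul_smul, hpot x hx, hpot y hy] at h1
  linear_combination -h1

variable [Finite (G ⧸ H)]

/-- (1) `potTr` is a potential of the traced symbol, with `ν`-part `nuTr`. -/
theorem ct77_potTr_smul (hpot : ∀ h ∈ H, ∀ a, pot (h • a) = pot a + ν h) (g : G) (a : X) :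
    ct77_potTr H pot (g • a) = ct77_potTr H pot a + ct77_nuTr H ν g := by
  classical
  cases nonempty_fintype (G ⧸ H)
  simp only [ct77_potTr, ct77_nuTr, finsum_eq_sum_of_fintype]
  rw [← Finset.sum_add_distrib]
  rw [← Equiv.sum_comp (MulAction.toPerm g : G ⧸ H ≃ G ⧸ H)]
  refine Finset.sum_congr rfl fun q _ => ?_
  simp only [MulAction.toPerm_apply]
  rw [← mul_smul, ct77_out_inv_mul, mul_smul, hpot _ (ct77_h_mem H g q)]

/-- (2) the Heisenberg-lift equation for `kapG`. -/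
theorem ct77_kapG_mul (hχ : ∀ g g', χ (g * g') = χ g + χ g')
    (hν : ∀ x ∈ H, ∀ y ∈ H, ν (x * y) = ν x + ν y)
    (hκ : ∀ x ∈ H, ∀ y ∈ H, κ (x * y) = κ x + κ y + ν x * χ y) (g g' : G) :
    ct77_kapG H χ ν κ (g * g') =
      ct77_kapG H χ ν κ g + ct77_kapG H χ ν κ g' + ct77_nuTr H ν g * χ g' := by
  classical
  cases nonempty_fintype (G ⧸ H)
  simp only [ct77_kapG, ct77_nuTr, finsum_eq_sum_of_fintype]
  rw [← Equiv.sum_comp (MulAction.toPerm g' : G ⧸ H ≃ G ⧸ H)
    (fun q => κ (ct77_h H g q) - ν (ct77_h H g q) * χ q.out)]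
  rw [← Equiv.sum_comp (MulAction.toPerm g' : G ⧸ H ≃ G ⧸ H) (fun q => ν (ct77_h H g q))]
  rw [Finset.sum_mul, ← Finset.sum_add_distrib, ← Finset.sum_add_distrib]
  refine Finset.sum_congr rfl fun q _ => ?_
  simp only [MulAction.toPerm_apply]
  rw [ct77_h_mul, hκ _ (ct77_h_mem H g _) _ (ct77_h_mem H g' q),
    hν _ (ct77_h_mem H g _) _ (ct77_h_mem H g' q)]
  have h3 : χ (ct77_h H g' q) = -χ (g' • q).out + χ g' + χ q.out := by
    simp only [ct77_h, hχ, ct77_chi_inv hχ]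
  rw [h3]
  ring

end Basic


section Local

variable {χ ν κ : G → R} {pot : X → R}

/-- The summand over `q : G ⧸ H` of `χ π * potTr c - kapG π`. -/
noncomputable def ct77_term (χ ν κ : G → R) (pot : X → R) (π : G) (c : X) (q : G ⧸ H) : R :=
  χ π * pot (q.out⁻¹ • c) - κ (ct77_h H π q) + ν (ct77_h H π q) * χ q.out

/-- Closed form of the partial sums of `ct77_term` along a `π`-orbit in `G ⧸ H`. -/
lemma ct77_partial (hχ : ∀ g g', χ (g * g') = χ g + χ g')
    (hpot : ∀ h ∈ H, ∀ a, pot (h • a) = pot a + ν h)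
    (hν : ∀ x ∈ H, ∀ y ∈ H, ν (x * y) = ν x + ν y)
    (hκ : ∀ x ∈ H, ∀ y ∈ H, κ (x * y) = κ x + κ y + ν x * χ y)
    (π : G) (c : X) (hπ : π • c = c) (q₀ : G ⧸ H) (n : ℕ) :
    ∑ k ∈ Finset.range n, ct77_term H χ ν κ pot π c (π ^ k • q₀) =
      n * χ π * pot (q₀.out⁻¹ • c) - κ (ct77_h H (π ^ n) q₀)
        + ((n : R) - 1) * χ π * ν (ct77_h H (π ^ n) q₀) + χ q₀.out * ν (ct77_h H (π ^ n) q₀) := by
  induction n with
  | zero =>
    simp [ct77_h_one, ct77_kap_one H hχ hκ, ct77_nu_one H hν]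
  | succ n ih =>
    rw [Finset.sum_range_succ, ih]
    have hpow : ∀ m : ℕ, π ^ m • c = c := by
      intro m
      induction m with
      | zero => simp
      | succ m ihm => rw [pow_succ, mul_smul, hπ, ihm]
    have hmul : ct77_h H (π ^ (n + 1)) q₀ = ct77_h H π (π ^ n • q₀) * ct77_h H (π ^ n) q₀ := by
      rw [pow_succ', ct77_h_mul]
    have hχg : χ (ct77_h H (π ^ n) q₀) = -χ (π ^ n • q₀).out + n * χ π + χ q₀.out := by
      simp only [ct77_h, hχ, ct77_chi_inv hχ, ct77_chi_pow hχ]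
    have hpotn : pot ((π ^ n • q₀).out⁻¹ • c) = pot (q₀.out⁻¹ • c) + ν (ct77_h H (π ^ n) q₀) := by
      rw [← hpot _ (ct77_h_mem H (π ^ n) q₀), ← mul_smul]
      congr 1
      conv_lhs => rw [← hpow n]
      rw [← mul_smul]
      congr 1
      simp [ct77_h]
    rw [hmul, hκ _ (ct77_h_mem H π _) _ (ct77_h_mem H (π ^ n) q₀),
      hν _ (ct77_h_mem H π _) _ (ct77_h_mem H (π ^ n) q₀), hχg]
    simp only [ct77_term]
    rw [hpotn]
    push_cast
    ring


lemma ct77_sum_zmod {M : Type*} [AddCommMonoid M] (n : ℕ) [NeZero n] (f : ℤ → M) :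
    ∑ k : ZMod n, f (ZMod.cast k : ℤ) = ∑ k ∈ Finset.range n, f k := by
  obtain ⟨m, rfl⟩ : ∃ m, n = m + 1 := Nat.exists_eq_succ_of_ne_zero (NeZero.ne n)
  exact Fin.sum_univ_eq_sum_range (fun k => f k) (m + 1)

/-- The element `η = s(q)⁻¹ * π ^ (minimal period of q) * s(q)` of `H`. -/
noncomputable def ct77_eta (π : G) (q : G ⧸ H) : G :=
  q.out⁻¹ * π ^ minimalPeriod (π • ·) q * q.out

lemma ct77_eta_eq (π : G) (q : G ⧸ H) :
    ct77_eta H π q = ct77_h H (π ^ minimalPeriod (π • ·) q) q := by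
  simp only [ct77_eta, ct77_h]
  rw [MulAction.pow_smul_eq_iff_minimalPeriod_dvd.mpr dvd_rfl]

lemma ct77_eta_mem (π : G) (q : G ⧸ H) : ct77_eta H π q ∈ H := by
  rw [ct77_eta_eq]
  exact ct77_h_mem H _ q

lemma ct77_eta_smul (π : G) (c : X) (hπ : π • c = c) (q : G ⧸ H) :
    ct77_eta H π q • (q.out⁻¹ • c) = q.out⁻¹ • c := by
  have hpow : ∀ m : ℕ, π ^ m • c = c := by
    intro m
    induction m with
    | zero => simp
    | succ m ihm => rw [pow_succ, mul_smul, hπ, ihm]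
  rw [ct77_eta, ← mul_smul, mul_assoc, mul_inv_cancel, mul_one, mul_smul, hpow]

/-- (3) LOCAL CUSP IDENTITY. -/
theorem ct77_local [Finite (G ⧸ H)] (hχ : ∀ g g', χ (g * g') = χ g + χ g')
    (hpot : ∀ h ∈ H, ∀ a, pot (h • a) = pot a + ν h)
    (hν : ∀ x ∈ H, ∀ y ∈ H, ν (x * y) = ν x + ν y)
    (hκ : ∀ x ∈ H, ∀ y ∈ H, κ (x * y) = κ x + κ y + ν x * χ y)
    (π : G) (c : X) (hπ : π • c = c) :
    χ π * ct77_potTr H pot c - ct77_kapG H χ ν κ π =
      ∑ᶠ ω : orbitRel.Quotient (zpowers π) (G ⧸ H),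
        (χ (ct77_eta H π ω.out) * pot (ω.out.out⁻¹ • c) - κ (ct77_eta H π ω.out)) := by
  classical
  cases nonempty_fintype (G ⧸ H)
  cases nonempty_fintype (orbitRel.Quotient (zpowers π) (G ⧸ H))
  have h1 : χ π * ct77_potTr H pot c - ct77_kapG H χ ν κ π =
      ∑ q : G ⧸ H, ct77_term H χ ν κ pot π c q := by
    simp only [ct77_potTr, ct77_kapG, finsum_eq_sum_of_fintype, ct77_term]
    rw [Finset.mul_sum, ← Finset.sum_sub_distrib]
    refine Finset.sum_congr rfl fun q _ => ?_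
    ring
  rw [h1, finsum_eq_sum_of_fintype]
  rw [← (quotientEquivSigmaZMod H π).symm.sum_comp, Fintype.sum_sigma]
  refine Finset.sum_congr rfl fun ω _ => ?_
  simp only [quotientEquivSigmaZMod_symm_apply]
  rw [ct77_sum_zmod (minimalPeriod (π • ·) ω.out)
    (fun k => ct77_term H χ ν κ pot π c (π ^ k • ω.out))]
  simp only [zpow_natCast]
  rw [ct77_partial H hχ hpot hν hκ π c hπ ω.out, ← ct77_eta_eq]
  have hν0 : ν (ct77_eta H π ω.out) = 0 := by
    have := hpot _ (ct77_eta_mem H π ω.out) (ω.out.out⁻¹ • c)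
    rw [ct77_eta_smul H π c hπ] at this
    linear_combination -this
  have hχη : χ (ct77_eta H π ω.out) = minimalPeriod (π • ·) ω.out * χ π := by
    simp only [ct77_eta, hχ, ct77_chi_inv hχ, ct77_chi_pow hχ]
    ring
  rw [hν0, hχη]
  ring

end Local


section Global

variable {χ ν κ : G → R} {pot : X → R}

/-- (4a) the cusp summand `F(c) = χ (π c) * pot c - κ (π c)` is invariant under the group. -/
theorem ct77_F_smul (hχ : ∀ g g', χ (g * g') = χ g + χ g')
    (hpot : ∀ h ∈ H, ∀ a, pot (h • a) = pot a + ν h)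
    (hκ : ∀ x ∈ H, ∀ y ∈ H, κ (x * y) = κ x + κ y + ν x * χ y)
    (π : X → G) (hπH : ∀ c, π c ∈ H) (hπ : ∀ c, π c • c = c)
    (hπe : ∀ k ∈ H, ∀ c, π (k • c) = k * π c * k⁻¹) (k : G) (hk : k ∈ H) (c : X) :
    χ (π (k • c)) * pot (k • c) - κ (π (k • c)) = χ (π c) * pot c - κ (π c) := by
  have hν0 : ν (π c) = 0 := by
    have := hpot _ (hπH c) c
    rw [hπ c] at this
    linear_combination -this
  have hk' : k⁻¹ ∈ H := H.inv_mem hk
  have h1 : κ (k * (π c * k⁻¹)) = κ k + κ (π c * k⁻¹) + ν k * χ (π c * k⁻¹) :=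
    hκ _ hk _ (H.mul_mem (hπH c) hk')
  have h2 : κ (π c * k⁻¹) = κ (π c) + κ k⁻¹ + ν (π c) * χ k⁻¹ := hκ _ (hπH c) _ hk'
  have h3 : κ (k * k⁻¹) = κ k + κ k⁻¹ + ν k * χ k⁻¹ := hκ _ hk _ hk'
  rw [mul_inv_cancel, ct77_kap_one H hχ hκ] at h3
  rw [hπe k hk c, hpot k hk c, mul_assoc, h1, h2, hν0]
  simp only [hχ, ct77_chi_inv hχ] at h3 ⊢
  linear_combination h3

/-- the minimal period of the coset `q` under `π` is the minimal period of the base coset under
the conjugate `s(q)⁻¹ * π * s(q)`. -/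
lemma ct77_minimalPeriod_conj (π : G) (q : G ⧸ H) :
    minimalPeriod ((q.out⁻¹ * π * q.out) • ·) ((1 : G) : G ⧸ H) = minimalPeriod (π • ·) q := by
  have key : ∀ n : ℕ, (q.out⁻¹ * π * q.out) ^ n • ((1 : G) : G ⧸ H) = ((1 : G) : G ⧸ H) ↔
      π ^ n • q = q := by
    intro n
    have hconj : (q.out⁻¹ * π * q.out) ^ n = q.out⁻¹ * π ^ n * q.out := by
      have := conj_pow (a := q.out⁻¹) (b := π) (i := n)
      simpa using this
    rw [hconj]
    have hq : π ^ n • q = ((π ^ n * q.out : G) : G ⧸ H) := by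
      conv_lhs => rw [← QuotientGroup.out_eq' q]
      rfl
    have hq2 : q = ((q.out : G) : G ⧸ H) := (QuotientGroup.out_eq' q).symm
    rw [hq]
    conv_rhs => rhs; rw [hq2]
    rw [show (q.out⁻¹ * π ^ n * q.out) • ((1 : G) : G ⧸ H)
      = ((q.out⁻¹ * π ^ n * q.out * 1 : G) : G ⧸ H) from rfl]
    rw [QuotientGroup.eq, QuotientGroup.eq]
    constructor
    · intro h
      simpa [mul_assoc] using h
    · intro h
      simpa [mul_assoc] using h
  apply Nat.dvd_antisymm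
  · rw [← MulAction.pow_smul_eq_iff_minimalPeriod_dvd, key]
    exact MulAction.pow_smul_eq_iff_minimalPeriod_dvd.mpr dvd_rfl
  · rw [← MulAction.pow_smul_eq_iff_minimalPeriod_dvd, ← key]
    exact MulAction.pow_smul_eq_iff_minimalPeriod_dvd.mpr dvd_rfl


/-- `η` for the orbit of `q` is `piH` of the cusp `s(q)⁻¹ • c`. -/
lemma ct77_eta_eq_piH (piG : X → G) (hequiv : ∀ g c, piG (g • c) = g * piG c * g⁻¹)
    (piH : X → G) (hpiH : ∀ c, piH c = piG c ^ minimalPeriod (piG c • ·) ((1 : G) : G ⧸ H))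
    (c : X) (q : G ⧸ H) : ct77_eta H (piG c) q = piH (q.out⁻¹ • c) := by
  rw [hpiH, hequiv, inv_inv, ct77_minimalPeriod_conj, ct77_eta]
  have := conj_pow (a := q.out⁻¹) (b := piG c) (i := minimalPeriod (piG c • ·) q)
  simpa using this.symm

lemma ct77_pow_mem_iff (π : G) (n : ℕ) :
    π ^ n • ((1 : G) : G ⧸ H) = ((1 : G) : G ⧸ H) ↔ π ^ n ∈ H := by
  rw [show π ^ n • ((1 : G) : G ⧸ H) = ((π ^ n * 1 : G) : G ⧸ H) from rfl, QuotientGroup.eq]
  constructor
  · intro h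
    have := H.inv_mem h
    simpa using this
  · intro h
    have := H.inv_mem h
    simpa using this

omit [MulAction G X] in
lemma ct77_piH_mem' (piG : G) : piG ^ minimalPeriod (piG • ·) ((1 : G) : G ⧸ H) ∈ H := by
  rw [← ct77_pow_mem_iff]
  exact MulAction.pow_smul_eq_iff_minimalPeriod_dvd.mpr dvd_rfl

omit [MulAction G X] in
lemma ct77_piH_mem (piG piH : X → G)
    (hpiH : ∀ c, piH c = piG c ^ minimalPeriod (piG c • ·) ((1 : G) : G ⧸ H)) (c : X) :
    piH c ∈ H := by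
  rw [hpiH]
  exact ct77_piH_mem' H (piG c)

lemma ct77_piH_fix (piG piH : X → G) (hfix : ∀ c, piG c • c = c)
    (hpiH : ∀ c, piH c = piG c ^ minimalPeriod (piG c • ·) ((1 : G) : G ⧸ H)) (c : X) :
    piH c • c = c := by
  have hpow : ∀ m : ℕ, piG c ^ m • c = c := by
    intro m
    induction m with
    | zero => simp
    | succ m ihm => rw [pow_succ, mul_smul, hfix, ihm]
  rw [hpiH, hpow]

lemma ct77_piH_equiv (piG piH : X → G) (hequiv : ∀ g c, piG (g • c) = g * piG c * g⁻¹)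
    (hpiH : ∀ c, piH c = piG c ^ minimalPeriod (piG c • ·) ((1 : G) : G ⧸ H))
    (k : G) (hk : k ∈ H) (c : X) : piH (k • c) = k * piH c * k⁻¹ := by
  have key : ∀ n : ℕ, (k * piG c * k⁻¹) ^ n • ((1 : G) : G ⧸ H) = ((1 : G) : G ⧸ H) ↔
      piG c ^ n • ((1 : G) : G ⧸ H) = ((1 : G) : G ⧸ H) := by
    intro n
    rw [ct77_pow_mem_iff, ct77_pow_mem_iff, conj_pow]
    constructor
    · intro h
      have := H.mul_mem (H.mul_mem (H.inv_mem hk) h) hk
      simpa [mul_assoc] using this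
    · intro h
      exact H.mul_mem (H.mul_mem hk h) (H.inv_mem hk)
  have hmp : minimalPeriod ((k * piG c * k⁻¹) • ·) ((1 : G) : G ⧸ H)
      = minimalPeriod (piG c • ·) ((1 : G) : G ⧸ H) := by
    apply Nat.dvd_antisymm
    · rw [← MulAction.pow_smul_eq_iff_minimalPeriod_dvd, key]
      exact MulAction.pow_smul_eq_iff_minimalPeriod_dvd.mpr dvd_rfl
    · rw [← MulAction.pow_smul_eq_iff_minimalPeriod_dvd, ← key]
      exact MulAction.pow_smul_eq_iff_minimalPeriod_dvd.mpr dvd_rfl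
  rw [hpiH, hpiH, hequiv, hmp, conj_pow]

/-- (4) GLOBAL FORM: the cusp sum for `H` (restricted `χ`, symbol with potential `pot`) equals
the cusp sum for `G` (`χ`, traced symbol). -/
theorem ct77_global [Finite (G ⧸ H)] [Finite (orbitRel.Quotient G X)]
    (hχ : ∀ g g', χ (g * g') = χ g + χ g')
    (hpot : ∀ h ∈ H, ∀ a, pot (h • a) = pot a + ν h)
    (hν : ∀ x ∈ H, ∀ y ∈ H, ν (x * y) = ν x + ν y)
    (hκ : ∀ x ∈ H, ∀ y ∈ H, κ (x * y) = κ x + κ y + ν x * χ y)
    (piG : X → G) (hfix : ∀ c, piG c • c = c) (hequiv : ∀ g c, piG (g • c) = g * piG c * g⁻¹)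
    (hstab : ∀ c (g : G), g • c = c → ∀ q : G ⧸ H, ∃ k : ℤ, g • q = piG c ^ k • q)
    (piH : X → G) (hpiH : ∀ c, piH c = piG c ^ minimalPeriod (piG c • ·) ((1 : G) : G ⧸ H)) :
    ∑ᶠ o : orbitRel.Quotient H X, (χ (piH o.out) * pot o.out - κ (piH o.out)) =
      ∑ᶠ o : orbitRel.Quotient G X,
        (χ (piG o.out) * ct77_potTr H pot o.out - ct77_kapG H χ ν κ (piG o.out)) := by
  classical
  set FH : X → R := fun c => χ (piH c) * pot c - κ (piH c) with hFH
  have hFH_inv : ∀ k ∈ H, ∀ c, FH (k • c) = FH c := fun k hk c =>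
    ct77_F_smul H hχ hpot hκ piH (ct77_piH_mem H piG piH hpiH) (ct77_piH_fix H piG piH hfix hpiH)
      (ct77_piH_equiv H piG piH hequiv hpiH) k hk c
  have hloc : ∀ c, χ (piG c) * ct77_potTr H pot c - ct77_kapG H χ ν κ (piG c) =
      ∑ᶠ ω : orbitRel.Quotient (zpowers (piG c)) (G ⧸ H), FH (ω.out.out⁻¹ • c) := by
    intro c
    rw [ct77_local H hχ hpot hν hκ (piG c) c (hfix c)]
    refine finsum_congr fun ω => ?_
    simp only [hFH, ct77_eta_eq_piH H piG hequiv piH hpiH]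
  simp only [hloc]
  let Φ : (Σ o : orbitRel.Quotient G X, orbitRel.Quotient (zpowers (piG o.out)) (G ⧸ H)) →
      orbitRel.Quotient H X := fun x => Quotient.mk'' (x.2.out.out⁻¹ • x.1.out)
  have hpowfix : ∀ (c : X) (k : ℤ), piG c ^ k • c = c := by
    intro c k
    have h1 : ∀ m : ℕ, piG c ^ m • c = c := by
      intro m
      induction m with
      | zero => simp
      | succ m ihm => rw [pow_succ, mul_smul, hfix, ihm]
    cases k with
    | ofNat m => simpa using h1 m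
    | negSucc m =>
      rw [zpow_negSucc, inv_smul_eq_iff, h1]
  have hΦinj : Function.Injective Φ := by
    rintro ⟨o, ω⟩ ⟨o', ω'⟩ h
    have h1 : (orbitRel H X) (ω.out.out⁻¹ • o.out) (ω'.out.out⁻¹ • o'.out) := Quotient.exact' h
    rw [orbitRel_apply, mem_orbit_iff] at h1
    obtain ⟨⟨h0, hh0⟩, hh⟩ := h1
    change h0 • (ω'.out.out⁻¹ • o'.out) = ω.out.out⁻¹ • o.out at hh
    have hoo : o = o' := by
      rw [← Quotient.out_eq' o, ← Quotient.out_eq' o']
      apply Quotient.sound'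
      rw [orbitRel_apply, mem_orbit_iff]
      refine ⟨ω.out.out * h0 * ω'.out.out⁻¹, ?_⟩
      rw [mul_smul, mul_smul, hh, smul_inv_smul]
    subst hoo
    have hg : (ω.out.out * h0 * ω'.out.out⁻¹) • o.out = o.out := by
      rw [mul_smul, mul_smul, hh, smul_inv_smul]
    obtain ⟨k, hk⟩ := hstab o.out _ hg ω'.out
    have h2 : (ω.out.out * h0 * ω'.out.out⁻¹) • ω'.out = ω.out := by
      conv_lhs => rhs; rw [← QuotientGroup.out_eq' ω'.out]
      conv_rhs => rw [← QuotientGroup.out_eq' ω.out]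
      rw [show (ω.out.out * h0 * ω'.out.out⁻¹) • ((ω'.out.out : G) : G ⧸ H)
        = ((ω.out.out * h0 * ω'.out.out⁻¹ * ω'.out.out : G) : G ⧸ H) from rfl]
      rw [QuotientGroup.eq]
      have := H.inv_mem hh0
      simpa [mul_assoc] using this
    have h3 : ω = ω' := by
      rw [← Quotient.out_eq' ω, ← Quotient.out_eq' ω']
      apply Quotient.sound'
      rw [orbitRel_apply, mem_orbit_iff]
      refine ⟨⟨piG o.out ^ k, zpow_mem (mem_zpowers _) k⟩, ?_⟩
      change piG o.out ^ k • ω'.out = ω.out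
      rw [← hk, h2]
    rw [h3]
  have hΦsurj : Function.Surjective Φ := by
    intro o'
    set x := o'.out with hx
    set o : orbitRel.Quotient G X := Quotient.mk'' x with ho
    have h1 : (orbitRel G X) o.out x := Quotient.mk_out' x
    rw [orbitRel_apply, mem_orbit_iff] at h1
    obtain ⟨g, hg⟩ := h1
    -- hg : g • x = o.out
    set ω : orbitRel.Quotient (zpowers (piG o.out)) (G ⧸ H) :=
      Quotient.mk'' ((g : G) : G ⧸ H) with hω
    have h2 : (orbitRel (zpowers (piG o.out)) (G ⧸ H)) ω.out ((g : G) : G ⧸ H) :=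
      Quotient.mk_out' _
    rw [orbitRel_apply, mem_orbit_iff] at h2
    obtain ⟨⟨z, hz⟩, hzg⟩ := h2
    change z • ((g : G) : G ⧸ H) = ω.out at hzg
    obtain ⟨k, rfl⟩ := mem_zpowers_iff.mp hz
    -- ω.out = ⟦π^k g⟧
    have h3 : ((piG o.out ^ k * g : G) : G ⧸ H) = ((ω.out.out : G) : G ⧸ H) := by
      rw [QuotientGroup.out_eq', ← hzg]
      rfl
    rw [QuotientGroup.eq] at h3
    refine ⟨⟨o, ω⟩, ?_⟩
    rw [← Quotient.out_eq' o']
    apply Quotient.sound'
    rw [orbitRel_apply, mem_orbit_iff]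
    refine ⟨⟨_, H.inv_mem h3⟩, ?_⟩
    change ((piG o.out ^ k * g)⁻¹ * ω.out.out)⁻¹ • o'.out = ω.out.out⁻¹ • o.out
    rw [mul_inv_rev, inv_inv, mul_smul, mul_smul, ← hx, hg, hpowfix]
  cases nonempty_fintype (orbitRel.Quotient G X)
  let _ : ∀ o : orbitRel.Quotient G X,
      Fintype (orbitRel.Quotient (zpowers (piG o.out)) (G ⧸ H)) := fun o => Fintype.ofFinite _
  have : Finite (orbitRel.Quotient H X) := Finite.of_surjective Φ hΦsurj
  cases nonempty_fintype (orbitRel.Quotient H X)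
  simp only [finsum_eq_sum_of_fintype]
  rw [← Fintype.sum_sigma']
  symm
  refine Fintype.sum_bijective Φ ⟨hΦinj, hΦsurj⟩ _ _ fun x => ?_
  have h1 : (orbitRel H X) (Φ x).out (x.2.out.out⁻¹ • x.1.out) := Quotient.mk_out' _
  rw [orbitRel_apply, mem_orbit_iff] at h1
  obtain ⟨⟨h0, hh0⟩, hh⟩ := h1
  change h0 • (x.2.out.out⁻¹ • x.1.out) = (Φ x).out at hh
  rw [← hh]
  exact (hFH_inv h0 hh0 _).symm

end Global

end CapTransfer

end Fermat.Agent.S41
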