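/-
S41 / M1 (helper43), dictionary part: `conj_w` as an automorphism of `Γ₀(N q)`, independence of
the trace / of `T_ℓ` from the chosen coset representatives (so that the abstract transfers of the
duality module can be matched with `tr43_tr`, `tr43_T`), independence of `tr43_W`, `tr43_tr` from
the Bézout data.
-/
import Mathlib
import Fermat.Agent.S41.Trace43b

set_option autoImplicit false

open CongruenceSubgroup
open scoped MatrixGroups

namespace Fermat.Agent.S41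

open Fermat.Agent.S16

namespace tr43_Data

variable {N q : ℕ} (D : tr43_Data N q)

/-- right cancellation of `w`. -/
theorem cancel_w (hq : q ≠ 0) {A B : Matrix (Fin 2) (Fin 2) ℤ} (h : A * D.w = B * D.w) :
    A = B := by
  have hq' : (q : ℤ) ≠ 0 := by exact_mod_cast hq
  apply tr43_smul_cancel hq'
  have h1 : ∀ C : Matrix (Fin 2) (Fin 2) ℤ, (q : ℤ) • C = (C * D.w) * D.inv.w := by
    intro C
    rw [mul_assoc, D.w_mul_inv, Matrix.mul_smul, mul_one]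
  rw [h1, h1, h]

/-- conjugation by `w` on `Γ₀(N q)` (as a function): `w κ = conjFun κ w`. -/
noncomputable def conjFun (κ : Gamma0 (N * q)) : Gamma0 (N * q) := (D.w_mul_Gamma0 κ).choose

theorem conjFun_spec (κ : Gamma0 (N * q)) :
    D.w * ((κ : SL(2, ℤ)) : Matrix (Fin 2) (Fin 2) ℤ)
      = ((D.conjFun κ : SL(2, ℤ)) : Matrix (Fin 2) (Fin 2) ℤ) * D.w :=
  (D.w_mul_Gamma0 κ).choose_spec

theorem conjFun_unique (hq : q ≠ 0) {κ κ' : Gamma0 (N * q)}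
    (h : D.w * ((κ : SL(2, ℤ)) : Matrix (Fin 2) (Fin 2) ℤ)
      = ((κ' : SL(2, ℤ)) : Matrix (Fin 2) (Fin 2) ℤ) * D.w) : D.conjFun κ = κ' := by
  apply Subtype.ext
  apply Subtype.ext
  exact D.cancel_w hq ((D.conjFun_spec κ).symm.trans h)

/-- from `w κ = κ' w` to `w' κ' = κ w'` (`w' = adj w`). -/
theorem inv_spec_of_spec (hq : q ≠ 0) {K K' : Matrix (Fin 2) (Fin 2) ℤ}
    (h : D.w * K = K' * D.w) : D.inv.w * K' = K * D.inv.w := by
  have hq' : (q : ℤ) ≠ 0 := by exact_mod_cast hq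
  apply tr43_smul_cancel hq'
  calc (q : ℤ) • (D.inv.w * K') = (D.inv.w * K') * (D.w * D.inv.w) := by
        rw [D.w_mul_inv, Matrix.mul_smul, mul_one]
    _ = D.inv.w * ((K' * D.w) * D.inv.w) := by simp only [mul_assoc]
    _ = D.inv.w * ((D.w * K) * D.inv.w) := by rw [h]
    _ = (D.inv.w * D.w) * (K * D.inv.w) := by simp only [mul_assoc]
    _ = (q : ℤ) • (K * D.inv.w) := by rw [D.inv_mul_w, Matrix.smul_mul, one_mul]

/-- **`conj_w`**: conjugation by the Atkin–Lehner matrix as an automorphism of `Γ₀(N q)`;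
`w κ = conj κ w`. -/
noncomputable def conj (hq : q ≠ 0) : Gamma0 (N * q) ≃* Gamma0 (N * q) where
  toFun := D.conjFun
  invFun := D.inv.conjFun
  left_inv κ := by
    apply D.inv.conjFun_unique hq
    exact D.inv_spec_of_spec hq (D.conjFun_spec κ)
  right_inv κ := by
    apply D.conjFun_unique hq
    have := D.inv.inv_spec_of_spec hq (D.inv.conjFun_spec κ)
    rwa [D.inv_inv] at this
  map_mul' κ₁ κ₂ := by
    apply D.conjFun_unique hq
    rw [Subgroup.coe_mul, Matrix.SpecialLinearGroup.coe_mul, ← mul_assoc, D.conjFun_spec κ₁,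
      mul_assoc, D.conjFun_spec κ₂, ← mul_assoc, Subgroup.coe_mul,
      Matrix.SpecialLinearGroup.coe_mul]

theorem conj_spec (hq : q ≠ 0) (κ : Gamma0 (N * q)) :
    D.w * ((κ : SL(2, ℤ)) : Matrix (Fin 2) (Fin 2) ℤ)
      = ((D.conj hq κ : SL(2, ℤ)) : Matrix (Fin 2) (Fin 2) ℤ) * D.w :=
  D.conjFun_spec κ

theorem conj_unique (hq : q ≠ 0) {κ κ' : Gamma0 (N * q)}
    (h : D.w * ((κ : SL(2, ℤ)) : Matrix (Fin 2) (Fin 2) ℤ)
      = ((κ' : SL(2, ℤ)) : Matrix (Fin 2) (Fin 2) ℤ) * D.w) : D.conj hq κ = κ' :=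
  D.conjFun_unique hq h

theorem conj_symm_apply (hq : q ≠ 0) (κ : Gamma0 (N * q)) :
    (D.conj hq).symm κ = D.inv.conj hq κ := rfl

/-- `conj_w ∘ conj_w` is conjugation by `η` (`w² = q η`). -/
theorem conj_conj (hq : q ≠ 0) (κ : Gamma0 (N * q)) :
    D.conj hq (D.conj hq κ) = D.eta * κ * D.eta⁻¹ := by
  have hq' : (q : ℤ) ≠ 0 := by exact_mod_cast hq
  apply D.conj_unique hq
  apply D.cancel_w hq
  -- `w (conj κ) w = η κ η⁻¹ w w`
  have h1 : D.w * ((D.conj hq κ : SL(2, ℤ)) : Matrix (Fin 2) (Fin 2) ℤ) * D.w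
      = (q : ℤ) • (((D.eta : SL(2, ℤ)) : Matrix (Fin 2) (Fin 2) ℤ)
        * ((κ : SL(2, ℤ)) : Matrix (Fin 2) (Fin 2) ℤ)) := by
    rw [mul_assoc, ← D.conj_spec hq κ, ← mul_assoc, D.w_mul_w, Matrix.smul_mul]
  have h2 : (((D.eta * κ * D.eta⁻¹ : Gamma0 (N * q)) : SL(2, ℤ)) : Matrix (Fin 2) (Fin 2) ℤ)
      * D.w * D.w = (q : ℤ) • (((D.eta : SL(2, ℤ)) : Matrix (Fin 2) (Fin 2) ℤ)
        * ((κ : SL(2, ℤ)) : Matrix (Fin 2) (Fin 2) ℤ)) := by
    rw [mul_assoc, D.w_mul_w, Matrix.mul_smul, ← Matrix.SpecialLinearGroup.coe_mul,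
      ← Subgroup.coe_mul, inv_mul_cancel_right, Subgroup.coe_mul,
      Matrix.SpecialLinearGroup.coe_mul]
  rw [h1, h2]

end tr43_Data

section Action4

variable {X : Type*} [MulAction (GL (Fin 2) ℚ) X] {A : Type*}
variable {N q : ℕ}

/-- `conj_w` at the level of the action: `conj κ • (w • x) = w • (κ • x)`. -/
theorem tr43_conj_smul (hq : q ≠ 0) (D : tr43_Data N q) (κ : Gamma0 (N * q)) (x : X) :
    Matrix.SpecialLinearGroup.mapGL ℚ ((D.conj hq κ : Gamma0 (N * q)) : SL(2, ℤ))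
        • (tr43_gl D.w • x)
      = tr43_gl D.w • (Matrix.SpecialLinearGroup.mapGL ℚ (κ : SL(2, ℤ)) • x) := by
  have hq' : (q : ℤ) ≠ 0 := by exact_mod_cast hq
  have hw : D.w.det ≠ 0 := by rw [D.w_det]; exact hq'
  rw [← tr43_gl_sl, ← tr43_gl_sl, ← mul_smul, ← mul_smul, ← tr43_gl_mul (tr43_sl_det_ne _) hw,
    ← tr43_gl_mul hw (tr43_sl_det_ne _), D.conj_spec hq κ]

/-- `W_q` and `conj_w`: `(W Φ)(κ • x) = Φ (conj κ • w • x)`. -/
theorem tr43_W_smul (hq : q ≠ 0) (D : tr43_Data N q) (Φ : X → A) (κ : Gamma0 (N * q)) (x : X) :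
    tr43_W D Φ (Matrix.SpecialLinearGroup.mapGL ℚ (κ : SL(2, ℤ)) • x)
      = Φ (Matrix.SpecialLinearGroup.mapGL ℚ ((D.conj hq κ : Gamma0 (N * q)) : SL(2, ℤ))
        • (tr43_gl D.w • x)) := by
  rw [tr43_W_apply, tr43_conj_smul]

end Action4

section Action5

variable {X : Type*} [MulAction (GL (Fin 2) ℚ) X] {A : Type*} [AddCommGroup A]
variable {N q : ℕ}

/-- every element of `Γ₀(N)` is `κ * rep ρ` with `κ ∈ Γ₀(N q)`. -/
theorem tr43_rep_decomp (hq : q.Prime) (D : tr43_Data N q) (g : Gamma0 N) :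
    ∃ (ρ : Option (Fin q)) (κ : Gamma0 (N * q)),
      (g : SL(2, ℤ)) = (κ : SL(2, ℤ)) * (D.rep ρ : SL(2, ℤ)) := by
  obtain ⟨ρ, M', hM', hdvd⟩ := D.rep_exists hq _ (lb_Gamma0_dvd g)
  have hdet : M'.det = 1 := by
    have := congrArg Matrix.det hM'
    rw [Matrix.det_mul, (g : SL(2, ℤ)).2, (D.rep ρ : SL(2, ℤ)).2, mul_one] at this
    exact this.symm
  exact ⟨ρ, tr43_mk (N * q) M' hdet hdvd, Subtype.ext hM'⟩

/-- **Independence of the representatives**: the trace can be computed with any system of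
representatives of the right cosets `Γ₀(N q) \ Γ₀(N)`. -/
theorem tr43_tr_eq_sum_reps (hq : q.Prime) (D : tr43_Data N q) {Φ : X → A}
    (hΦ : tr43_Inv (N * q) Φ) {ι : Type*} [Fintype ι] (s : ι → Gamma0 N)
    (hs : ∀ g : Gamma0 N, ∃! i, (g : SL(2, ℤ)) * ((s i : SL(2, ℤ)))⁻¹ ∈ Gamma0 (N * q)) :
    ∑ i, tr43_sl Φ ((s i : SL(2, ℤ)) : Matrix (Fin 2) (Fin 2) ℤ) = tr43_tr D Φ := by
  classical
  choose f κ hf using fun i => tr43_rep_decomp hq D (s i)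
  have hinj : Function.Injective f := by
    intro i i' e
    refine (hs (s i)).unique (by rw [mul_inv_cancel]; exact one_mem _) ?_
    have : (s i : SL(2, ℤ)) * ((s i' : SL(2, ℤ)))⁻¹ = (κ i : SL(2, ℤ)) * ((κ i' : SL(2, ℤ)))⁻¹ := by
      rw [hf i, hf i', e]
      group
    rw [this]
    exact (Gamma0 (N * q)).mul_mem (κ i).2 ((Gamma0 (N * q)).inv_mem (κ i').2)
  have hsurj : Function.Surjective f := by
    intro ρ
    obtain ⟨i, hi, -⟩ := hs (D.rep ρ)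
    refine ⟨i, ?_⟩
    have hK : (D.rep ρ : SL(2, ℤ))
        = ((D.rep ρ : SL(2, ℤ)) * ((s i : SL(2, ℤ)))⁻¹ * (κ i : SL(2, ℤ)))
          * (D.rep (f i) : SL(2, ℤ)) := by
      rw [mul_assoc, ← hf i, inv_mul_cancel_right]
    have hmem : (D.rep ρ : SL(2, ℤ)) * ((s i : SL(2, ℤ)))⁻¹ * (κ i : SL(2, ℤ)) ∈ Gamma0 (N * q) :=
      (Gamma0 (N * q)).mul_mem hi (κ i).2
    refine (D.rep_unique hq ρ (f i) _ ?_ (congrArg Subtype.val hK)).symm
    exact (Int.natCast_dvd_natCast.mpr (dvd_mul_left q N)).trans (lb_Gamma0_dvd ⟨_, hmem⟩)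
  rw [tr43_tr, ← Fintype.sum_bijective f ⟨hinj, hsurj⟩
    (fun i => tr43_sl Φ ((s i : SL(2, ℤ)) : Matrix (Fin 2) (Fin 2) ℤ))
    (fun ρ => tr43_sl Φ ((D.rep ρ : SL(2, ℤ)) : Matrix (Fin 2) (Fin 2) ℤ))]
  intro i
  show tr43_sl Φ (((s i : SL(2, ℤ))).1) = _
  rw [hf i, Matrix.SpecialLinearGroup.coe_mul, tr43_sl_Gamma0_mul hΦ _ (tr43_sl_det_ne _)]

/-- the trace does not depend on the Bézout data. -/
theorem tr43_tr_indep (hq : q.Prime) (D D' : tr43_Data N q) {Φ : X → A}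
    (hΦ : tr43_Inv (N * q) Φ) : tr43_tr D' Φ = tr43_tr D Φ := by
  refine tr43_tr_eq_sum_reps hq D hΦ D'.rep ?_
  intro g
  obtain ⟨ρ, κ, hκ⟩ := tr43_rep_decomp hq D' g
  refine ⟨ρ, ?_, ?_⟩
  · show (g : SL(2, ℤ)) * ((D'.rep ρ : SL(2, ℤ)))⁻¹ ∈ Gamma0 (N * q)
    rw [hκ, mul_inv_cancel_right]
    exact κ.2
  · intro ρ' hρ'
    have hK : (D'.rep ρ' : SL(2, ℤ))
        = (((g : SL(2, ℤ)) * ((D'.rep ρ' : SL(2, ℤ)))⁻¹)⁻¹ * (κ : SL(2, ℤ)))
          * (D'.rep ρ : SL(2, ℤ)) := by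
      rw [mul_assoc, ← hκ]
      group
    have hmem : ((g : SL(2, ℤ)) * ((D'.rep ρ' : SL(2, ℤ)))⁻¹)⁻¹ * (κ : SL(2, ℤ))
        ∈ Gamma0 (N * q) :=
      (Gamma0 (N * q)).mul_mem ((Gamma0 (N * q)).inv_mem hρ') κ.2
    refine D'.rep_unique hq ρ' ρ _ ?_ (congrArg Subtype.val hK)
    exact (Int.natCast_dvd_natCast.mpr (dvd_mul_left q N)).trans (lb_Gamma0_dvd ⟨_, hmem⟩)

/-- the trace in the shape of the abstract transfer: sum over the left cosets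
`Γ₀(N) ⧸ Γ₀(N q)` with the section `Quotient.out`, representatives `(out c)⁻¹`. -/
theorem tr43_tr_eq_finsum_quot (hq : q.Prime) (D : tr43_Data N q) {Φ : X → A}
    (hΦ : tr43_Inv (N * q) Φ) (x : X) :
    ∑ᶠ c : Gamma0 N ⧸ (Gamma0 (N * q)).subgroupOf (Gamma0 N),
        Φ (Matrix.SpecialLinearGroup.mapGL ℚ (((Quotient.out c : Gamma0 N)⁻¹ : Gamma0 N)
          : SL(2, ℤ)) • x)
      = tr43_tr D Φ x := by
  classical
  have hs : ∀ g : Gamma0 N, ∃! c : Gamma0 N ⧸ (Gamma0 (N * q)).subgroupOf (Gamma0 N),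
      (g : SL(2, ℤ)) * ((((Quotient.out c : Gamma0 N)⁻¹ : Gamma0 N) : SL(2, ℤ)))⁻¹
        ∈ Gamma0 (N * q) := by
    intro g
    have key : ∀ c : Gamma0 N ⧸ (Gamma0 (N * q)).subgroupOf (Gamma0 N),
        (g : SL(2, ℤ)) * ((((Quotient.out c : Gamma0 N)⁻¹ : Gamma0 N) : SL(2, ℤ)))⁻¹
          ∈ Gamma0 (N * q) ↔ c = QuotientGroup.mk g⁻¹ := by
      intro c
      have e1 : (g : SL(2, ℤ)) * ((((Quotient.out c : Gamma0 N)⁻¹ : Gamma0 N) : SL(2, ℤ)))⁻¹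
          = ((g * Quotient.out c : Gamma0 N) : SL(2, ℤ)) := by
        rw [Subgroup.coe_inv, inv_inv, Subgroup.coe_mul]
      rw [e1, ← Subgroup.mem_subgroupOf]
      constructor
      · intro h
        have h2 : (QuotientGroup.mk (g⁻¹ : Gamma0 N)
            : Gamma0 N ⧸ (Gamma0 (N * q)).subgroupOf (Gamma0 N))
            = QuotientGroup.mk (Quotient.out c) := by
          rw [QuotientGroup.eq, inv_inv]
          exact h
        rw [h2, QuotientGroup.out_eq']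
      · intro h
        have h2 : (QuotientGroup.mk (g⁻¹ : Gamma0 N)
            : Gamma0 N ⧸ (Gamma0 (N * q)).subgroupOf (Gamma0 N))
            = QuotientGroup.mk (Quotient.out c) := by
          rw [QuotientGroup.out_eq', h]
        rw [QuotientGroup.eq, inv_inv] at h2
        exact h2
    exact ⟨QuotientGroup.mk g⁻¹, (key _).mpr rfl, fun c hc => (key c).mp hc⟩
  have : Finite (Gamma0 N ⧸ (Gamma0 (N * q)).subgroupOf (Gamma0 N)) := by
    refine Finite.of_surjective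
      (fun ρ : Option (Fin q) => (QuotientGroup.mk ((D.rep ρ)⁻¹ : Gamma0 N)
        : Gamma0 N ⧸ (Gamma0 (N * q)).subgroupOf (Gamma0 N))) ?_
    intro c
    obtain ⟨ρ, κ, hκ⟩ := tr43_rep_decomp hq D ((Quotient.out c : Gamma0 N)⁻¹)
    refine ⟨ρ, ?_⟩
    rw [← QuotientGroup.out_eq' c, QuotientGroup.eq, Subgroup.mem_subgroupOf]
    have : (((D.rep ρ)⁻¹⁻¹ * Quotient.out c : Gamma0 N) : SL(2, ℤ)) = ((κ : SL(2, ℤ)))⁻¹ := by
      rw [inv_inv, Subgroup.coe_mul]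
      have h3 : ((Quotient.out c : Gamma0 N) : SL(2, ℤ))
          = ((κ : SL(2, ℤ)) * (D.rep ρ : SL(2, ℤ)))⁻¹ := by
        rw [← hκ, Subgroup.coe_inv, inv_inv]
      rw [h3]
      group
    rw [this]
    exact (Gamma0 (N * q)).inv_mem κ.2
  have : Fintype (Gamma0 N ⧸ (Gamma0 (N * q)).subgroupOf (Gamma0 N)) := Fintype.ofFinite _
  rw [finsum_eq_sum_of_fintype]
  have h := congrFun (tr43_tr_eq_sum_reps hq D hΦ
    (fun c : Gamma0 N ⧸ (Gamma0 (N * q)).subgroupOf (Gamma0 N) =>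
      ((Quotient.out c : Gamma0 N)⁻¹ : Gamma0 N)) hs) x
  rw [← h, Finset.sum_apply]
  refine Finset.sum_congr rfl fun c _ => ?_
  rw [tr43_sl_apply, tr43_gl_sl]

/-- **Independence of the representatives** for `T_ℓ`: any finite system of representatives
of `Γ₀(N) \ {M : det M = ℓ, N ∣ M 1 0}` computes `tr43_T ℓ`. -/
theorem tr43_T_eq_sum_reps {ℓ : ℕ} (hℓ : ℓ.Prime) (hℓN : ¬ ℓ ∣ N) {Φ : X → A}
    (hΦ : tr43_Inv N Φ) {ι : Type*} [Fintype ι] (a : ι → Matrix (Fin 2) (Fin 2) ℤ)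
    (hdet : ∀ i, (a i).det = ℓ) (hN : ∀ i, (N : ℤ) ∣ (a i) 1 0)
    (hinj : ∀ (i i' : ι) (κ : Gamma0 N),
      a i = ((κ : SL(2, ℤ)) : Matrix (Fin 2) (Fin 2) ℤ) * a i' → i = i')
    (hsurj : ∀ j : Option (Fin ℓ), ∃ (i : ι) (κ : Gamma0 N),
      a i = ((κ : SL(2, ℤ)) : Matrix (Fin 2) (Fin 2) ℤ) * lbMat ℓ j) :
    ∑ i, tr43_sl Φ (a i) = tr43_T ℓ Φ := by
  classical
  choose f κ hf using fun i => tr43_hnf hℓ hℓN (a i) (hdet i) (hN i)
  have hfinj : Function.Injective f := by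
    intro i i' e
    have h1 := tr43_cancel_left (κ i) (κ i') (hf i) (e ▸ hf i')
    -- `κ i⁻¹ * a i = κ i'⁻¹ * a i'`
    refine hinj i i' (κ i * (κ i')⁻¹) ?_
    have h2 : a i = ((κ i : SL(2, ℤ)) : Matrix (Fin 2) (Fin 2) ℤ)
        * ((((κ i)⁻¹ : Gamma0 N) : SL(2, ℤ)) : Matrix (Fin 2) (Fin 2) ℤ) * a i := by
      rw [← Matrix.SpecialLinearGroup.coe_mul, ← Subgroup.coe_mul, mul_inv_cancel,
        Subgroup.coe_one, Matrix.SpecialLinearGroup.coe_one, one_mul]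
    rw [h2, mul_assoc, h1, ← mul_assoc, ← Matrix.SpecialLinearGroup.coe_mul, ← Subgroup.coe_mul]
  have hfsurj : Function.Surjective f := by
    intro j
    obtain ⟨i, κ', hi⟩ := hsurj j
    refine ⟨i, ?_⟩
    have h1 : ((κ i : SL(2, ℤ)) : Matrix (Fin 2) (Fin 2) ℤ) * lbMat ℓ (f i)
        = ((κ' : SL(2, ℤ)) : Matrix (Fin 2) (Fin 2) ℤ) * lbMat ℓ j := (hf i).symm.trans hi
    exact (tr43_rdiv_unique hℓ _ _ (by
      rw [(κ i : SL(2, ℤ)).2]; exact tr43_not_dvd_one hℓ) (f i) j h1).1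
  rw [tr43_T, ← Fintype.sum_bijective f ⟨hfinj, hfsurj⟩ (fun i => tr43_sl Φ (a i))
    (fun j => tr43_sl Φ (lbMat ℓ j))]
  intro i
  show tr43_sl Φ (a i) = _
  rw [hf i, tr43_sl_Gamma0_mul hΦ _ (tr43_lbMat_det_ne hℓ.ne_zero _)]

/-- two Bézout data give Atkin–Lehner matrices in the same coset of `Γ₀(N q)`. -/
theorem tr43_w_indep (D D' : tr43_Data N q) :
    ∃ κ : Gamma0 (N * q), D'.w = ((κ : SL(2, ℤ)) : Matrix (Fin 2) (Fin 2) ℤ) * D.w := by
  have h := D.det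
  have h' := D'.det
  refine ⟨lbMk (N * q) ((q : ℤ) * D'.x * D.t - (N : ℤ) * D'.y * D.z)
    (D.x * D'.y - D'.x * D.y) (((N * q : ℕ) : ℤ) * (D'.z * D.t - D'.t * D.z))
    ((q : ℤ) * D'.t * D.x - (N : ℤ) * D'.z * D.y) ?_ (dvd_mul_right _ _), ?_⟩
  · push_cast
    linear_combination ((q : ℤ) * D.x * D.t - (N : ℤ) * D.y * D.z) * h' + h
  · rw [lbMk_coe, tr43_Data.w, tr43_Data.w, tr43_mul_of]
    push_cast
    refine lb_mk_eq ?_ ?_ ?_ ?_
    · linear_combination (-((q : ℤ) * D'.x)) * h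
    · linear_combination (-D'.y) * h
    · linear_combination (-((N : ℤ) * q * D'.z)) * h
    · linear_combination (-((q : ℤ) * D'.t)) * h

omit [AddCommGroup A] in
/-- `W_q` does not depend on the Bézout data. -/
theorem tr43_W_indep (hq : q ≠ 0) (D D' : tr43_Data N q) {Φ : X → A}
    (hΦ : tr43_Inv (N * q) Φ) : tr43_W D' Φ = tr43_W D Φ := by
  have hq' : (q : ℤ) ≠ 0 := by exact_mod_cast hq
  have hw : D.w.det ≠ 0 := by rw [D.w_det]; exact hq'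
  obtain ⟨κ, hκ⟩ := tr43_w_indep D D'
  rw [tr43_W, tr43_W, hκ, tr43_sl_Gamma0_mul hΦ _ hw]

end Action5

end Fermat.Agent.S41
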