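/-
S41 / link L8 (H-id), helper43.  The Hom-side twin of `tr43_tr_W_res`:
the S16 Hecke operator `heckeHom N ℓ` (`ℓ ∤ N` prime) on `Hom(Γ₀(N), A)` is
`cores ∘ conj_w ∘ res` for the pair `Γ₀(N ℓ) ≤ Γ₀(N)`, in the shape of the abstract
transfer `ct77_nuTr` (section `Quotient.out` of the left cosets).
-/
import Mathlib
import Fermat.Agent.S16.HeckeGamma0
import Fermat.Agent.S41.Trace43c
import Fermat.Agent.S41.CapTransfer77

set_option autoImplicit false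

open CongruenceSubgroup
open scoped MatrixGroups

namespace Fermat.Agent.S41

open Fermat.Agent.S16

theorem hid43_repT_eq (ℓ : ℕ) (i : Option (Fin ℓ)) : hh_repTInt ℓ i = lbMat ℓ i := by
  cases i <;> rfl

/-- **Independence of the representatives** for the S16 Hecke operator on `Hom(Γ₀(N), A)`:
for any finite system `a i` of representatives of `Γ₀(N) \ {M : det M = ℓ, N ∣ M 1 0}` and any
cocycle `a i * g = k i * a (τ i)`, `heckeHom N ℓ A χ g = ∑ i, χ (k i)`. -/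
theorem hid43_heckeHom_eq_sum_reps {N ℓ : ℕ} (hℓ : ℓ.Prime) (hℓN : ¬ ℓ ∣ N)
    {A : Type*} [AddCommGroup A] {ι : Type*} [Fintype ι]
    (a : ι → Matrix (Fin 2) (Fin 2) ℤ)
    (hdet : ∀ i, (a i).det = ℓ) (hN : ∀ i, (N : ℤ) ∣ (a i) 1 0)
    (hinj : ∀ (i i' : ι) (κ : Gamma0 N),
      a i = ((κ : SL(2, ℤ)) : Matrix (Fin 2) (Fin 2) ℤ) * a i' → i = i')
    (hsurj : ∀ j : Option (Fin ℓ), ∃ (i : ι) (κ : Gamma0 N),
      a i = ((κ : SL(2, ℤ)) : Matrix (Fin 2) (Fin 2) ℤ) * lbMat ℓ j)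
    (χ : Additive (Gamma0 N) →+ A) (g : Gamma0 N) (τ : ι → ι) (k : ι → Gamma0 N)
    (hk : ∀ i, a i * ((g : SL(2, ℤ)) : Matrix (Fin 2) (Fin 2) ℤ)
        = ((k i : SL(2, ℤ)) : Matrix (Fin 2) (Fin 2) ℤ) * a (τ i)) :
    heckeHom N ℓ A χ (Additive.ofMul g) = ∑ i, χ (Additive.ofMul (k i)) := by
  classical
  choose f κ hf using fun i => tr43_hnf hℓ hℓN (a i) (hdet i) (hN i)
  have hfinj : Function.Injective f := by
    intro i i' e
    have h1 := tr43_cancel_left (κ i) (κ i') (hf i) (e ▸ hf i')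
    refine hinj i i' (κ i * (κ i')⁻¹) ?_
    have h2 : a i = ((κ i : SL(2, ℤ)) : Matrix (Fin 2) (Fin 2) ℤ)
        * ((((κ i)⁻¹ : Gamma0 N) : SL(2, ℤ)) : Matrix (Fin 2) (Fin 2) ℤ) * a i := by
      rw [← Matrix.SpecialLinearGroup.coe_mul, ← Subgroup.coe_mul, mul_inv_cancel,
        Subgroup.coe_one, Matrix.SpecialLinearGroup.coe_one, one_mul]
    rw [h2, mul_assoc, h1, ← mul_assoc, ← Matrix.SpecialLinearGroup.coe_mul, ← Subgroup.coe_mul]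
  have hfsurj : Function.Surjective f := by
    intro j
    obtain ⟨i, κ', hi⟩ := hsurj j
    refine ⟨i, ?_⟩
    have h1 : ((κ i : SL(2, ℤ)) : Matrix (Fin 2) (Fin 2) ℤ) * lbMat ℓ (f i)
        = ((κ' : SL(2, ℤ)) : Matrix (Fin 2) (Fin 2) ℤ) * lbMat ℓ j := (hf i).symm.trans hi
    exact (tr43_rdiv_unique hℓ _ _ (by
      rw [(κ i : SL(2, ℤ)).2]; exact tr43_not_dvd_one hℓ) (f i) j h1).1
  rw [heckeHom_of_not_dvd hℓ hℓN, HeckeReps.op_apply]
  set R := hh_repsT N ℓ hℓ hℓN with hR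
  have key : ∀ i, R.σ g (f i) = f (τ i) ∧ κ i * R.κ (f i) g = k i * κ (τ i) := by
    intro i
    have hint := hh_repsT_int N ℓ hℓ hℓN (f i) g
    rw [hid43_repT_eq, hid43_repT_eq, ← hR] at hint
    have h1 : (((κ i * R.κ (f i) g : Gamma0 N) : SL(2, ℤ)) : Matrix (Fin 2) (Fin 2) ℤ)
          * lbMat ℓ (R.σ g (f i))
        = (((k i * κ (τ i) : Gamma0 N) : SL(2, ℤ)) : Matrix (Fin 2) (Fin 2) ℤ)
          * lbMat ℓ (f (τ i)) := by
      rw [Subgroup.coe_mul, Matrix.SpecialLinearGroup.coe_mul, Subgroup.coe_mul,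
        Matrix.SpecialLinearGroup.coe_mul, mul_assoc, ← hint, ← mul_assoc, ← hf i, hk i,
        mul_assoc, ← hf (τ i)]
    obtain ⟨e1, e2⟩ := tr43_rdiv_unique hℓ _ _ (by
      rw [((κ i * R.κ (f i) g : Gamma0 N) : SL(2, ℤ)).2]; exact tr43_not_dvd_one hℓ) _ _ h1
    exact ⟨e1, Subtype.ext (Subtype.ext e2)⟩
  have hτ : Function.Bijective τ := by
    have hinjτ : Function.Injective τ := by
      intro i i' e
      apply hfinj
      apply (R.σEquiv g).injective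
      rw [R.σEquiv_apply, R.σEquiv_apply, (key i).1, (key i').1, e]
    exact ⟨hinjτ, Finite.injective_iff_surjective.mp hinjτ⟩
  have h2 : ∀ i, χ (Additive.ofMul (R.κ (f i) g))
      = χ (Additive.ofMul (k i)) + (χ (Additive.ofMul (κ (τ i))) - χ (Additive.ofMul (κ i))) := by
    intro i
    have h3 := congrArg (fun u => χ (Additive.ofMul u)) (key i).2
    simp only [ofMul_mul, map_add] at h3
    rw [eq_sub_of_add_eq' h3, add_sub_assoc]
  rw [← Fintype.sum_bijective f ⟨hfinj, hfsurj⟩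
    (fun i => χ (Additive.ofMul (R.κ (f i) g)))
    (fun j => χ (Additive.ofMul (R.κ j g))) (fun i => rfl)]
  rw [Finset.sum_congr rfl fun i _ => h2 i, Finset.sum_add_distrib, Finset.sum_sub_distrib,
    Fintype.sum_bijective τ hτ (fun i => χ (Additive.ofMul (κ (τ i))))
      (fun i => χ (Additive.ofMul (κ i))) (fun i => rfl), sub_self, add_zero]

namespace tr43_Data

variable {N q : ℕ} (D : tr43_Data N q)

/-- `w γ_b = η β_b`. -/
theorem w_mul_gam (b : Fin q) :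
    D.w * ((D.gam ((b : ℕ) : ℤ) : SL(2, ℤ)) : Matrix (Fin 2) (Fin 2) ℤ)
      = ((D.eta : SL(2, ℤ)) : Matrix (Fin 2) (Fin 2) ℤ) * lbMat q (some b) := by
  rw [w, gam, eta, lbMk_coe, lbMk_coe, tr43_mul_of, lb_mul_some']
  exact lb_mk_eq (by ring) (by ring) (by ring) (by ring)

/-- every `lbMat q j` is `κ⁻¹ w r` with `r` one of the representatives. -/
theorem w_mul_rep (j : Option (Fin q)) :
    ∃ κ : Gamma0 N, D.w * ((D.rep j : SL(2, ℤ)) : Matrix (Fin 2) (Fin 2) ℤ)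
      = ((κ : SL(2, ℤ)) : Matrix (Fin 2) (Fin 2) ℤ) * lbMat q j := by
  rcases j with _ | b
  · refine ⟨D.gam', ?_⟩
    show D.w * ((1 : SL(2, ℤ)) : Matrix (Fin 2) (Fin 2) ℤ) = _
    rw [Matrix.SpecialLinearGroup.coe_one, mul_one, ← D.w_eq]
  · refine ⟨⟨(D.eta : SL(2, ℤ)), Gamma0_mem.mpr ?_⟩, D.w_mul_gam b⟩
    have h := lb_Gamma0_dvd D.eta
    rw [ZMod.intCast_zmod_eq_zero_iff_dvd]
    exact (Int.natCast_dvd_natCast.mpr (dvd_mul_right N q)).trans h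

/-- if `w m = κ w` with `m, κ ∈ Γ₀(N)` then `m ∈ Γ₀(N q)`. -/
theorem mem_of_w_mul (m κ : Gamma0 N)
    (h : D.w * ((m : SL(2, ℤ)) : Matrix (Fin 2) (Fin 2) ℤ)
      = ((κ : SL(2, ℤ)) : Matrix (Fin 2) (Fin 2) ℤ) * D.w) :
    (m : SL(2, ℤ)) ∈ Gamma0 (N * q) := by
  have hdet := D.det
  have hc := lb_Gamma0_dvd m
  have hg : ((m : SL(2, ℤ)) : Matrix (Fin 2) (Fin 2) ℤ) = !![_, _; _, _] := Matrix.eta_fin_two _
  have hg' : ((κ : SL(2, ℤ)) : Matrix (Fin 2) (Fin 2) ℤ) = !![_, _; _, _] :=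
    Matrix.eta_fin_two _
  rw [Gamma0_mem, ZMod.intCast_zmod_eq_zero_iff_dvd]
  generalize ((m : SL(2, ℤ)) : Matrix (Fin 2) (Fin 2) ℤ) 0 0 = a at hg
  generalize ((m : SL(2, ℤ)) : Matrix (Fin 2) (Fin 2) ℤ) 0 1 = b at hg
  generalize ((m : SL(2, ℤ)) : Matrix (Fin 2) (Fin 2) ℤ) 1 0 = c at hg hc ⊢
  generalize ((m : SL(2, ℤ)) : Matrix (Fin 2) (Fin 2) ℤ) 1 1 = d at hg
  generalize ((κ : SL(2, ℤ)) : Matrix (Fin 2) (Fin 2) ℤ) 0 0 = a' at hg'
  generalize ((κ : SL(2, ℤ)) : Matrix (Fin 2) (Fin 2) ℤ) 0 1 = b' at hg'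
  generalize ((κ : SL(2, ℤ)) : Matrix (Fin 2) (Fin 2) ℤ) 1 0 = c' at hg'
  generalize ((κ : SL(2, ℤ)) : Matrix (Fin 2) (Fin 2) ℤ) 1 1 = d' at hg'
  rw [hg, hg', w, tr43_mul_of, tr43_mul_of] at h
  obtain ⟨e00, -, -, -⟩ := lb_of_eq h
  have hqc : (q : ℤ) ∣ c := by
    have h1 : (q : ℤ) ∣ D.y * c := ⟨a' * D.x + b' * ((N : ℤ) * D.z) - D.x * a, by
      linear_combination e00⟩
    have h2 : c = (q : ℤ) * (D.x * D.t * c) - (N : ℤ) * D.z * (D.y * c) := by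
      linear_combination (-c) * hdet
    rw [h2]
    exact dvd_sub (dvd_mul_right _ _) (Dvd.dvd.mul_left h1 _)
  push_cast
  exact D.isCoprime.mul_dvd hc hqc

end tr43_Data

section Cores

variable {N ℓ : ℕ}

/-- the quotient `Γ₀(N) ⧸ Γ₀(N ℓ)` is finite. -/
theorem hid43_finite_quot (hℓ : ℓ.Prime) (D : tr43_Data N ℓ) :
    Finite (Gamma0 N ⧸ (Gamma0 (N * ℓ)).subgroupOf (Gamma0 N)) := by
  refine Finite.of_surjective
    (fun ρ : Option (Fin ℓ) => (QuotientGroup.mk ((D.rep ρ)⁻¹ : Gamma0 N)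
      : Gamma0 N ⧸ (Gamma0 (N * ℓ)).subgroupOf (Gamma0 N))) ?_
  intro c
  obtain ⟨ρ, κ, hκ⟩ := tr43_rep_decomp hℓ D ((Quotient.out c : Gamma0 N)⁻¹)
  refine ⟨ρ, ?_⟩
  rw [← QuotientGroup.out_eq' c, QuotientGroup.eq, Subgroup.mem_subgroupOf]
  have : (((D.rep ρ)⁻¹⁻¹ * Quotient.out c : Gamma0 N) : SL(2, ℤ)) = ((κ : SL(2, ℤ)))⁻¹ := by
    rw [inv_inv, Subgroup.coe_mul]
    have h3 : ((Quotient.out c : Gamma0 N) : SL(2, ℤ))
        = ((κ : SL(2, ℤ)) * (D.rep ρ : SL(2, ℤ)))⁻¹ := by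
      rw [← hκ, Subgroup.coe_inv, inv_inv]
    rw [h3]
    group
  rw [this]
  exact (Gamma0 (N * ℓ)).inv_mem κ.2

/-- **(H-id)**: `heckeHom N ℓ = cores ∘ conj_w ∘ res` for `Γ₀(N ℓ) ≤ Γ₀(N)`, in the shape of
the abstract transfer `ct77_nuTr` (any `cw` realising the conjugation by `w`). -/
theorem hid43_heckeHom_cores (hℓ : ℓ.Prime) (hℓN : ¬ ℓ ∣ N) (D : tr43_Data N ℓ)
    {A : Type*} [AddCommGroup A] (cw : Gamma0 (N * ℓ) → Gamma0 N)
    (hcw : ∀ h : Gamma0 (N * ℓ), D.w * ((h : SL(2, ℤ)) : Matrix (Fin 2) (Fin 2) ℤ)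
      = ((cw h : SL(2, ℤ)) : Matrix (Fin 2) (Fin 2) ℤ) * D.w)
    (α : Additive (Gamma0 N) →+ A) (g : Gamma0 N) :
    heckeHom N ℓ A α (Additive.ofMul g)
      = ∑ᶠ q : Gamma0 N ⧸ (Gamma0 (N * ℓ)).subgroupOf (Gamma0 N),
          α (Additive.ofMul (cw ⟨((ct77_h ((Gamma0 (N * ℓ)).subgroupOf (Gamma0 N)) g q
              : Gamma0 N) : SL(2, ℤ)),
            Subgroup.mem_subgroupOf.mp
              (ct77_h_mem ((Gamma0 (N * ℓ)).subgroupOf (Gamma0 N)) g q)⟩)) := by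
  classical
  set H' : Subgroup (Gamma0 N) := (Gamma0 (N * ℓ)).subgroupOf (Gamma0 N) with hH'
  have hfin : Finite (Gamma0 N ⧸ H') := hid43_finite_quot hℓ D
  have : Fintype (Gamma0 N ⧸ H') := Fintype.ofFinite _
  rw [finsum_eq_sum_of_fintype]
  -- the representatives `w * (out q)⁻¹`
  have hrep := hid43_heckeHom_eq_sum_reps hℓ hℓN (A := A)
    (fun q : Gamma0 N ⧸ H' => D.w * ((((Quotient.out q : Gamma0 N)⁻¹ : Gamma0 N) : SL(2, ℤ))
      : Matrix (Fin 2) (Fin 2) ℤ))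
    (fun q => by
      rw [Matrix.det_mul, D.w_det, Matrix.SpecialLinearGroup.det_coe, mul_one])
    (fun q => by
      have hc := lb_Gamma0_dvd ((Quotient.out q : Gamma0 N)⁻¹ : Gamma0 N)
      rw [tr43_Data.w, Matrix.mul_apply, Fin.sum_univ_two]
      simp only [Matrix.of_apply, Matrix.cons_val_one, Matrix.cons_val_zero]
      exact dvd_add (Dvd.dvd.mul_right (Dvd.dvd.mul_right (dvd_mul_right _ _) _) _)
        (Dvd.dvd.mul_left hc _))
    (fun q q' κ h => by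
      rw [← QuotientGroup.out_eq' q, ← QuotientGroup.out_eq' q', QuotientGroup.eq]
      show (Quotient.out q : Gamma0 N)⁻¹ * Quotient.out q'
        ∈ (Gamma0 (N * ℓ)).subgroupOf (Gamma0 N)
      rw [Subgroup.mem_subgroupOf]
      refine D.mem_of_w_mul _ κ ?_
      rw [Subgroup.coe_mul, Matrix.SpecialLinearGroup.coe_mul, ← mul_assoc, h, mul_assoc,
        mul_assoc, ← Matrix.SpecialLinearGroup.coe_mul, ← Subgroup.coe_mul, inv_mul_cancel,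
        Subgroup.coe_one, Matrix.SpecialLinearGroup.coe_one, mul_one])
    (fun j => by
      obtain ⟨κ, hκ⟩ := D.w_mul_rep j
      obtain ⟨h, hh⟩ := QuotientGroup.mk_out_eq_mul H' ((D.rep j)⁻¹ : Gamma0 N)
      refine ⟨QuotientGroup.mk ((D.rep j)⁻¹ : Gamma0 N),
        cw (⟨((h : Gamma0 N) : SL(2, ℤ)), Subgroup.mem_subgroupOf.mp h.2⟩⁻¹) * κ, ?_⟩
      have e : (((Quotient.out (QuotientGroup.mk ((D.rep j)⁻¹ : Gamma0 N) : Gamma0 N ⧸ H')
            : Gamma0 N)⁻¹ : Gamma0 N) : SL(2, ℤ))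
          = ((⟨((h : Gamma0 N) : SL(2, ℤ)), Subgroup.mem_subgroupOf.mp h.2⟩⁻¹
              : Gamma0 (N * ℓ)) : SL(2, ℤ)) * (D.rep j : SL(2, ℤ)) := by
        rw [hh]
        simp [mul_inv_rev]
      show D.w * _ = _
      rw [e, Matrix.SpecialLinearGroup.coe_mul, ← mul_assoc, hcw, mul_assoc, hκ,
        Subgroup.coe_mul, Matrix.SpecialLinearGroup.coe_mul, mul_assoc])
    α g (fun q => g⁻¹ • q)
    (fun q => cw ⟨((ct77_h H' g (g⁻¹ • q) : Gamma0 N) : SL(2, ℤ)),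
      Subgroup.mem_subgroupOf.mp (ct77_h_mem H' g (g⁻¹ • q))⟩)
    (fun q => by
      show D.w * _ * _ = _ * (D.w * _)
      rw [← mul_assoc, ← hcw]
      have e := ct77_out_inv_mul H' g (g⁻¹ • q)
      rw [smul_inv_smul] at e
      have e' := congrArg (fun u : Gamma0 N => ((u : SL(2, ℤ)) : Matrix (Fin 2) (Fin 2) ℤ)) e
      simp only [Subgroup.coe_mul, Matrix.SpecialLinearGroup.coe_mul] at e'
      rw [mul_assoc, mul_assoc, e'])
  rw [hrep]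
  exact Fintype.sum_bijective (fun q : Gamma0 N ⧸ H' => g⁻¹ • q)
    (MulAction.bijective g⁻¹)
    (fun q => α (Additive.ofMul (cw ⟨((ct77_h H' g (g⁻¹ • q) : Gamma0 N) : SL(2, ℤ)),
      Subgroup.mem_subgroupOf.mp (ct77_h_mem H' g (g⁻¹ • q))⟩)))
    (fun q => α (Additive.ofMul (cw ⟨((ct77_h H' g q : Gamma0 N) : SL(2, ℤ)),
      Subgroup.mem_subgroupOf.mp (ct77_h_mem H' g q)⟩)))
    (fun q => rfl)

/-- **(H-id)** with `cw := D.conj`: `heckeHom N ℓ α = cores ((α|Γ₀(Nℓ)) ∘ conj_w)`. -/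
theorem hid43_heckeHom_cores_conj (hℓ : ℓ.Prime) (hℓN : ¬ ℓ ∣ N) (D : tr43_Data N ℓ)
    {A : Type*} [AddCommGroup A] (α : Additive (Gamma0 N) →+ A) (g : Gamma0 N) :
    heckeHom N ℓ A α (Additive.ofMul g)
      = ∑ᶠ q : Gamma0 N ⧸ (Gamma0 (N * ℓ)).subgroupOf (Gamma0 N),
          α (Additive.ofMul (⟨((D.conj hℓ.ne_zero
            ⟨((ct77_h ((Gamma0 (N * ℓ)).subgroupOf (Gamma0 N)) g q : Gamma0 N) : SL(2, ℤ)),
              Subgroup.mem_subgroupOf.mp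
                (ct77_h_mem ((Gamma0 (N * ℓ)).subgroupOf (Gamma0 N)) g q)⟩
            : Gamma0 (N * ℓ)) : SL(2, ℤ)),
            Gamma0_mem.mpr ((ZMod.intCast_zmod_eq_zero_iff_dvd _ N).mpr
              ((Int.natCast_dvd_natCast.mpr (dvd_mul_right N ℓ)).trans
                (lb_Gamma0_dvd _)))⟩ : Gamma0 N)) :=
  hid43_heckeHom_cores hℓ hℓN D
    (fun h => ⟨((D.conj hℓ.ne_zero h : Gamma0 (N * ℓ)) : SL(2, ℤ)),
      Gamma0_mem.mpr ((ZMod.intCast_zmod_eq_zero_iff_dvd _ N).mpr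
        ((Int.natCast_dvd_natCast.mpr (dvd_mul_right N ℓ)).trans (lb_Gamma0_dvd _)))⟩)
    (fun h => D.conj_spec hℓ.ne_zero h) α g

end Cores

end Fermat.Agent.S41
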