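import Mathlib

set_option autoImplicit false

namespace Fermat.Agent.S41

open Finset

section Complex

variable {r : ℕ} [Fact r.Prime]

lemma h42_mulChar_mul_star (ψ : MulChar (ZMod r) ℂ) (t : ZMod r) :
    ψ t * star (ψ t) = if t = 0 then 0 else 1 := by
  split_ifs with h
  · subst h
    simp [MulChar.map_zero]
  · rw [MulChar.star_apply', ← MulChar.mul_apply, mul_inv_cancel]
    exact MulChar.one_apply (isUnit_iff_ne_zero.mpr h)

lemma h42_cross (ψ : MulChar (ZMod r) ℂ) (hψ : ψ ≠ 1) (a : ZMod r) (ha : a ≠ 1) :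
    ∑ w : ZMod r, ψ (1 + (w - 1) * a) * star (ψ w) = - ψ a := by
  have h1 : ∀ w : ZMod r, ψ (1 + (w - 1) * a) * star (ψ w) = ψ ((1 + (w - 1) * a) * w⁻¹) := by
    intro w
    rw [MulChar.star_apply', MulChar.inv_apply', map_mul]
  simp_rw [h1]
  have h2 : ∑ w : ZMod r, ψ ((1 + (w - 1) * a) * w⁻¹)
      = ∑ w : ZMod r, ψ ((1 + (w⁻¹ - 1) * a) * w) := by
    refine Fintype.sum_equiv (Equiv.inv (ZMod r)) _ _ ?_
    intro w
    simp
  rw [h2]
  have h3 : ∀ w : ZMod r, ψ ((1 + (w⁻¹ - 1) * a) * w)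
      = ψ ((1 - a) * w + a) - (if w = 0 then ψ a else 0) := by
    intro w
    split_ifs with hw
    · subst hw
      simp [MulChar.map_zero]
    · rw [sub_zero]
      congr 1
      field_simp
      ring
  simp_rw [h3]
  rw [Finset.sum_sub_distrib]
  have h4 : ∑ w : ZMod r, ψ ((1 - a) * w + a) = 0 := by
    have hne : (1 - a) ≠ 0 := sub_ne_zero.mpr (Ne.symm ha)
    have : ∑ w : ZMod r, ψ ((1 - a) * w + a) = ∑ t : ZMod r, ψ t := by
      refine Fintype.sum_equiv ((Equiv.mulLeft₀ (1 - a) hne).trans (Equiv.addRight a)) _ _ ?_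
      intro w
      simp
    rw [this]
    exact MulChar.sum_eq_zero_of_ne_one hψ
  rw [h4]
  simp

lemma h42_exists_char (H : Subgroup (ZMod r)ˣ) (hH : H ≠ ⊤) :
    ∃ ψ : MulChar (ZMod r) ℂ, ψ ≠ 1 ∧ ∀ h ∈ H, ψ ((h : (ZMod r)ˣ) : ZMod r) = 1 := by
  obtain ⟨a, ha⟩ : ∃ a, a ∉ H := by
    by_contra hcon
    exact hH (eq_top_iff.mpr fun x _ => by_contra fun hx => hcon ⟨x, hx⟩)
  have hne : (QuotientGroup.mk a : (ZMod r)ˣ ⧸ H) ≠ 1 := by
    rwa [Ne, QuotientGroup.eq_one_iff]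
  have : NeZero (Monoid.exponent ((ZMod r)ˣ ⧸ H)) := ⟨Monoid.exponent_ne_zero_of_finite⟩
  obtain ⟨φ, hφ⟩ := CommGroup.exists_apply_ne_one_of_hasEnoughRootsOfUnity ((ZMod r)ˣ ⧸ H) ℂ hne
  refine ⟨MulChar.ofUnitHom (φ.comp (QuotientGroup.mk' H)), ?_, ?_⟩
  · rw [MulChar.ne_one_iff]
    refine ⟨a, ?_⟩
    rw [MulChar.ofUnitHom_coe]
    intro h
    apply hφ
    apply Units.ext
    simpa using h
  · intro h hh
    rw [MulChar.ofUnitHom_coe]
    simp [(QuotientGroup.eq_one_iff h).mpr hh]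

/-- diagonal term -/
lemma h42_diag (ψ : MulChar (ZMod r) ℂ) (g : (ZMod r)ˣ) :
    ∑ z : ZMod r, ψ (1 + z * g) * star (ψ (1 + z * g)) = (r : ℂ) - 1 := by
  simp_rw [h42_mulChar_mul_star]
  have h1 : ∑ z : ZMod r, (if 1 + z * (g : ZMod r) = 0 then (0 : ℂ) else 1)
      = ∑ t : ZMod r, (if t = 0 then (0 : ℂ) else 1) := by
    refine Fintype.sum_equiv ((Equiv.mulRight₀ (g : ZMod r) g.ne_zero).trans (Equiv.addLeft 1)) _ _ ?_
    intro z
    simp
  rw [h1]
  rw [Finset.sum_ite, Finset.sum_const_zero, zero_add, Finset.sum_const, nsmul_eq_mul, mul_one]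
  have h2 : (Finset.univ.filter (fun t : ZMod r => ¬ t = 0)).card = r - 1 := by
    rw [Finset.filter_not, Finset.card_sdiff_of_subset (Finset.subset_univ _)]
    simp [ZMod.card, Finset.filter_eq']
  rw [h2, Nat.cast_sub (Fact.out : r.Prime).one_le]
  simp

/-- off-diagonal term -/
lemma h42_offdiag (ψ : MulChar (ZMod r) ℂ) (hψ : ψ ≠ 1) (g g' : (ZMod r)ˣ) (hgg : g ≠ g')
    (h1 : ψ ((g * g'⁻¹ : (ZMod r)ˣ) : ZMod r) = 1) :
    ∑ z : ZMod r, ψ (1 + z * g) * star (ψ (1 + z * g')) = -1 := by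
  have ha : ((g * g'⁻¹ : (ZMod r)ˣ) : ZMod r) ≠ 1 := by
    intro h
    apply hgg
    have : g * g'⁻¹ = 1 := Units.val_eq_one.mp h
    exact mul_inv_eq_one.mp this
  rw [← h1, ← h42_cross ψ hψ _ ha]
  refine Fintype.sum_equiv ((Equiv.mulRight₀ (g' : ZMod r) g'.ne_zero).trans (Equiv.addLeft 1)) _ _ ?_
  intro z
  have : (1 : ZMod r) + ((1 + z * (g' : ZMod r)) - 1) * ((g * g'⁻¹ : (ZMod r)ˣ) : ZMod r)
      = 1 + z * g := by
    push_cast
    have hg' : (g' : ZMod r) ≠ 0 := g'.ne_zero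
    field_simp
    ring
  simp only [Equiv.trans_apply, Equiv.mulRight₀_apply, Equiv.coe_addLeft]
  rw [this]

lemma h42_second_moment (ψ : MulChar (ZMod r) ℂ) (hψ : ψ ≠ 1) (Q : Finset (ZMod r)ˣ)
    (hQ : ∀ g ∈ Q, ∀ g' ∈ Q, ψ ((g * g'⁻¹ : (ZMod r)ˣ) : ZMod r) = 1) :
    ∑ z : ZMod r, (∑ g ∈ Q, ψ (1 + z * g)) * star (∑ g ∈ Q, ψ (1 + z * g))
      = (Q.card : ℂ) * r - (Q.card : ℂ) ^ 2 := by
  classical
  have h1 : ∀ z : ZMod r, (∑ g ∈ Q, ψ (1 + z * g)) * star (∑ g ∈ Q, ψ (1 + z * g))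
      = ∑ g ∈ Q, ∑ g' ∈ Q, ψ (1 + z * g) * star (ψ (1 + z * g')) := by
    intro z
    rw [star_sum, Finset.sum_mul_sum]
  simp_rw [h1]
  rw [Finset.sum_comm]
  have h2 : ∀ g ∈ Q, ∑ z : ZMod r, ∑ g' ∈ Q, ψ (1 + z * g) * star (ψ (1 + z * g'))
      = ∑ g' ∈ Q, (if g = g' then (r : ℂ) - 1 else -1) := by
    intro g hg
    rw [Finset.sum_comm]
    refine Finset.sum_congr rfl ?_
    intro g' hg'
    split_ifs with h
    · subst h
      exact h42_diag ψ g
    · exact h42_offdiag ψ hψ g g' h (hQ g hg g' hg')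
  rw [Finset.sum_congr rfl h2]
  have h3 : ∀ g ∈ Q, ∑ g' ∈ Q, (if g = g' then (r : ℂ) - 1 else -1) = (r : ℂ) - Q.card := by
    intro g hg
    have : ∀ g' ∈ Q, (if g = g' then (r : ℂ) - 1 else -1) = (if g = g' then (r : ℂ) else 0) - 1 := by
      intro g' _
      split_ifs <;> ring
    rw [Finset.sum_congr rfl this, Finset.sum_sub_distrib, Finset.sum_ite_eq, if_pos hg]
    simp
  rw [Finset.sum_congr rfl h3]
  simp
  ring


/-- `z` is good for `(Q, H)`: some ratio `(1 + z g) / (1 + z)`, `g ∈ Q`, is outside `H`. -/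
def h42_Good (Q H : Subgroup (ZMod r)ˣ) (z : (ZMod r)ˣ) : Prop :=
  (1 + (z : ZMod r) ≠ 0) ∧
    ∃ g ∈ Q, ∃ ρ : (ZMod r)ˣ, ρ ∉ H ∧ (ρ : ZMod r) * (1 + z) = 1 + z * g

lemma h42_normSq_mulChar (ψ : MulChar (ZMod r) ℂ) {t : ZMod r} (ht : t ≠ 0) :
    Complex.normSq (ψ t) = 1 := by
  have h := h42_mulChar_mul_star ψ t
  rw [if_neg ht] at h
  have h2 : ((Complex.normSq (ψ t) : ℝ) : ℂ) = 1 := by
    rw [← Complex.mul_conj]
    exact h
  exact_mod_cast h2

lemma h42_bad_bound (Q H : Subgroup (ZMod r)ˣ) (ψ : MulChar (ZMod r) ℂ)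
    (hψH : ∀ h ∈ H, ψ ((h : (ZMod r)ˣ) : ZMod r) = 1) (Qf : Finset (ZMod r)ˣ)
    (hQf : ∀ g, g ∈ Qf → g ∈ Q) (hcard : 1 ≤ Qf.card) (z : (ZMod r)ˣ)
    (hz : 1 + (z : ZMod r) ≠ 0) (hng : ¬ h42_Good Q H z) :
    ((Qf.card : ℝ) - 1) ^ 2 ≤ Complex.normSq (∑ g ∈ Qf, ψ (1 + z * g)) := by
  classical
  have h1 : ∀ g ∈ Qf, ψ (1 + (z : ZMod r) * g)
      = if 1 + (z : ZMod r) * g = 0 then 0 else ψ (1 + z) := by
    intro g hg
    split_ifs with h0
    · rw [h0, MulChar.map_zero]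
    · set ρ : (ZMod r)ˣ := Units.mk0 ((1 + (z : ZMod r) * g) / (1 + z)) (div_ne_zero h0 hz)
        with hρ
      have hρ1 : (ρ : ZMod r) * (1 + z) = 1 + z * g := by
        simp [hρ, div_mul_cancel₀ _ hz]
      have hρH : ρ ∈ H := by
        by_contra hcon
        exact hng ⟨hz, g, hQf g hg, ρ, hcon, hρ1⟩
      rw [← hρ1, map_mul, hψH ρ hρH, one_mul]
  rw [Finset.sum_congr rfl h1, Finset.sum_ite, Finset.sum_const_zero, zero_add, Finset.sum_const,
    nsmul_eq_mul, Complex.normSq_mul, h42_normSq_mulChar ψ hz, mul_one, Complex.normSq_natCast]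
  have h2 : (Qf.filter (fun g : (ZMod r)ˣ => 1 + (z : ZMod r) * g = 0)).card ≤ 1 := by
    rw [Finset.card_le_one]
    intro a ha b hb
    simp only [Finset.mem_filter] at ha hb
    have : (z : ZMod r) * a = z * b := by linear_combination ha.2 - hb.2
    exact Units.ext (mul_left_cancel₀ z.ne_zero this)
  have h3 := Finset.card_filter_add_card_filter_not (s := Qf)
    (fun g : (ZMod r)ˣ => 1 + (z : ZMod r) * g = 0)
  set A := (Qf.filter (fun g : (ZMod r)ˣ => 1 + (z : ZMod r) * g = 0)).card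
  set B := (Qf.filter (fun g : (ZMod r)ˣ => ¬ 1 + (z : ZMod r) * g = 0)).card
  have hA : (A : ℝ) ≤ 1 := by exact_mod_cast h2
  have hAB : (A : ℝ) + B = Qf.card := by exact_mod_cast h3
  have hc : (1 : ℝ) ≤ Qf.card := by exact_mod_cast hcard
  have hB : (Qf.card : ℝ) - 1 ≤ B := by linarith
  nlinarith

lemma h42_two_good (Q H : Subgroup (ZMod r)ˣ) (hQH : Q ≤ H) (hH : H ≠ ⊤)
    (hQ : 4 ≤ Nat.card Q) :
    ∃ z z' : (ZMod r)ˣ, h42_Good Q H z ∧ h42_Good Q H z' ∧ z * z'⁻¹ ∉ H := by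
  classical
  by_contra hcon
  have hcon' : ∀ z z' : (ZMod r)ˣ, h42_Good Q H z → h42_Good Q H z' → z * z'⁻¹ ∈ H := by
    intro z z' hz hz'
    by_contra h
    exact hcon ⟨z, z', hz, hz', h⟩
  obtain ⟨ψ, hψ1, hψH⟩ := h42_exists_char H hH
  set Qf : Finset (ZMod r)ˣ := Finset.univ.filter (· ∈ Q) with hQfdef
  have hQfmem : ∀ g, g ∈ Qf ↔ g ∈ Q := by
    intro g
    simp [hQfdef]
  have hQfcard : Qf.card = Nat.card Q := by
    rw [Nat.card_eq_fintype_card, Fintype.card_subtype]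
  set n := Qf.card with hn
  have hn4 : 4 ≤ n := by rw [hQfcard]; exact hQ
  have hsm := h42_second_moment ψ hψ1 Qf (fun g hg g' hg' =>
    hψH _ (hQH (Q.mul_mem ((hQfmem g).mp hg) (Q.inv_mem ((hQfmem g').mp hg')))))
  have hsmR : ∑ z : ZMod r, Complex.normSq (∑ g ∈ Qf, ψ (1 + z * g))
      = (n : ℝ) * r - (n : ℝ) ^ 2 := by
    have h1 : ∀ z : ZMod r, (∑ g ∈ Qf, ψ (1 + z * g)) * star (∑ g ∈ Qf, ψ (1 + z * g))
        = ((Complex.normSq (∑ g ∈ Qf, ψ (1 + z * g)) : ℝ) : ℂ) := by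
      intro z
      rw [← Complex.mul_conj]
      rfl
    simp_rw [h1] at hsm
    rw [← Complex.ofReal_sum] at hsm
    exact_mod_cast hsm
  set Gd : Finset (ZMod r)ˣ := Finset.univ.filter (fun z => h42_Good Q H z) with hGddef
  set NG : Finset (ZMod r)ˣ :=
    Finset.univ.filter (fun z : (ZMod r)ˣ => 1 + (z : ZMod r) ≠ 0 ∧ ¬ h42_Good Q H z) with hNGdef
  set Hf : Finset (ZMod r)ˣ := Finset.univ.filter (· ∈ H) with hHfdef
  have hHfcard : Hf.card = Nat.card H := by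
    rw [Nat.card_eq_fintype_card, Fintype.card_subtype]
  -- the good elements fit into one coset of `H`
  have hGd : Gd.card ≤ Nat.card H := by
    rw [← hHfcard]
    by_cases hne : Gd.Nonempty
    · obtain ⟨z₀, hz₀⟩ := hne
      have hz₀' : h42_Good Q H z₀ := by simpa [hGddef] using hz₀
      refine Finset.card_le_card_of_injOn (fun z => z * z₀⁻¹) ?_ ?_
      · intro z hz
        have hz' : h42_Good Q H z := by simpa [hGddef] using hz
        simpa [hHfdef] using hcon' z z₀ hz' hz₀'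
      · intro a _ b _ hab
        exact mul_right_cancel hab
    · rw [Finset.not_nonempty_iff_eq_empty.mp hne]
      simp
  -- a proper subgroup has index at least two
  have hHcard : 2 * Nat.card H ≤ r - 1 := by
    have hcardG : Nat.card (ZMod r)ˣ = r - 1 := by
      rw [Nat.card_eq_fintype_card, ZMod.card_units]
    have hdvd : Nat.card H ∣ r - 1 := hcardG ▸ Subgroup.card_subgroup_dvd_card H
    obtain ⟨k, hk⟩ := hdvd
    have hr1 : 0 < r - 1 := Nat.sub_pos_of_lt (Fact.out : r.Prime).one_lt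
    have hk0 : k ≠ 0 := by
      rintro rfl
      omega
    have hk1 : k ≠ 1 := by
      rintro rfl
      apply hH
      apply Subgroup.eq_top_of_card_eq
      rw [hcardG, hk, mul_one]
    have hk2 : 2 ≤ k := by omega
    calc 2 * Nat.card H ≤ k * Nat.card H := Nat.mul_le_mul_right _ hk2
      _ = r - 1 := by rw [hk, mul_comm]
  -- partition of the units
  have hpart : r - 1 ≤ Gd.card + NG.card + 1 := by
    have hcardG : (Finset.univ : Finset (ZMod r)ˣ).card = r - 1 := by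
      rw [Finset.card_univ, ZMod.card_units]
    set Z : Finset (ZMod r)ˣ := Finset.univ.filter (fun z : (ZMod r)ˣ => 1 + (z : ZMod r) = 0)
      with hZdef
    have hZ : Z.card ≤ 1 := by
      rw [Finset.card_le_one]
      intro a ha b hb
      simp only [hZdef, Finset.mem_filter, Finset.mem_univ, true_and] at ha hb
      exact Units.ext (by linear_combination ha - hb)
    have hsub : (Finset.univ : Finset (ZMod r)ˣ) ⊆ Gd ∪ NG ∪ Z := by
      intro z _
      simp only [hGddef, hNGdef, hZdef, Finset.mem_union, Finset.mem_filter, Finset.mem_univ,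
        true_and]
      by_cases h1 : 1 + (z : ZMod r) = 0
      · exact Or.inr h1
      · by_cases h2 : h42_Good Q H z
        · exact Or.inl (Or.inl h2)
        · exact Or.inl (Or.inr ⟨h1, h2⟩)
    have h1 := Finset.card_le_card hsub
    have h2 := Finset.card_union_le (Gd ∪ NG) Z
    have h3 := Finset.card_union_le Gd NG
    omega
  -- lower bound for the second moment
  have hlow : (n : ℝ) ^ 2 + NG.card * ((n : ℝ) - 1) ^ 2 ≤ (n : ℝ) * r - (n : ℝ) ^ 2 := by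
    rw [← hsmR]
    set T : Finset (ZMod r) := insert 0 (NG.image (fun z : (ZMod r)ˣ => (z : ZMod r))) with hT
    have h0 : (0 : ZMod r) ∉ NG.image (fun z : (ZMod r)ˣ => (z : ZMod r)) := by
      intro h
      obtain ⟨z, _, hz⟩ := Finset.mem_image.mp h
      exact z.ne_zero hz
    calc (n : ℝ) ^ 2 + NG.card * ((n : ℝ) - 1) ^ 2
        ≤ ∑ z ∈ T, Complex.normSq (∑ g ∈ Qf, ψ (1 + z * g)) := by
          rw [hT, Finset.sum_insert h0, Finset.sum_image (fun a _ b _ h => Units.ext h)]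
          have hz0 : Complex.normSq (∑ g ∈ Qf, ψ (1 + (0 : ZMod r) * g)) = (n : ℝ) ^ 2 := by
            simp [Complex.normSq_natCast, hn, sq]
          rw [hz0]
          have hsum : (NG.card : ℝ) * ((n : ℝ) - 1) ^ 2
              ≤ ∑ z ∈ NG, Complex.normSq (∑ g ∈ Qf, ψ (1 + (z : ZMod r) * g)) := by
            rw [← nsmul_eq_mul, ← Finset.sum_const]
            refine Finset.sum_le_sum ?_
            intro z hz
            simp only [hNGdef, Finset.mem_filter, Finset.mem_univ, true_and] at hz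
            exact h42_bad_bound Q H ψ hψH Qf (fun g hg => (hQfmem g).mp hg) (by omega) z hz.1 hz.2
          linarith
      _ ≤ ∑ z : ZMod r, Complex.normSq (∑ g ∈ Qf, ψ (1 + z * g)) := by
          refine Finset.sum_le_sum_of_subset_of_nonneg (Finset.subset_univ _) ?_
          intro z _ _
          exact Complex.normSq_nonneg _
  -- arithmetic contradiction
  have hr1 : 1 ≤ r := (Fact.out : r.Prime).one_le
  have e1 : (Gd.card : ℝ) ≤ Nat.card H := by exact_mod_cast hGd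
  have e2 : 2 * (Nat.card H : ℝ) ≤ (r : ℝ) - 1 := by
    have : ((2 * Nat.card H : ℕ) : ℝ) ≤ ((r - 1 : ℕ) : ℝ) := by exact_mod_cast hHcard
    rw [Nat.cast_sub hr1] at this
    push_cast at this
    linarith
  have e3 : (r : ℝ) - 1 ≤ Gd.card + NG.card + 1 := by
    have : ((r - 1 : ℕ) : ℝ) ≤ ((Gd.card + NG.card + 1 : ℕ) : ℝ) := by exact_mod_cast hpart
    rw [Nat.cast_sub hr1] at this
    push_cast at this
    linarith
  have e4 : (4 : ℝ) ≤ n := by exact_mod_cast hn4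
  have e5 : (0 : ℝ) ≤ r := by positivity
  have e6 : (r : ℝ) - 3 ≤ 2 * NG.card := by linarith
  have e7 : ((r : ℝ) - 3) * ((n : ℝ) - 1) ^ 2 ≤ 2 * NG.card * ((n : ℝ) - 1) ^ 2 :=
    mul_le_mul_of_nonneg_right e6 (sq_nonneg _)
  have e8 : (0 : ℝ) ≤ r * ((n : ℝ) * (n - 4)) := by
    apply mul_nonneg e5
    apply mul_nonneg <;> linarith
  nlinarith

end Complex

section Abstract

variable {G L : Type*} [CommGroup G] [Fintype G] [Field L]

/-- invariance under a `g` with `φ g ≠ 1` kills the `φ`-coefficient -/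
lemma h42_coeff_zero_of_inv (f : G → L) (φ : G →* L) (g : G) (hg : φ g ≠ 1)
    (h : ∀ x, f (g * x) = f x) : ∑ x, f x * φ x⁻¹ = 0 := by
  have h1 : ∑ x, f x * φ x⁻¹ = ∑ x, f (g * x) * φ (g * x)⁻¹ :=
    (Fintype.sum_equiv (Equiv.mulLeft g) _ _ (fun x => rfl)).symm
  have h2 : ∑ x, f (g * x) * φ (g * x)⁻¹ = φ g⁻¹ * ∑ x, f x * φ x⁻¹ := by
    rw [Finset.mul_sum]
    refine Finset.sum_congr rfl ?_
    intro x _
    rw [h, mul_inv, map_mul]
    ring
  have h3 : φ g⁻¹ ≠ 1 := by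
    intro h3
    apply hg
    have : φ g * φ g⁻¹ = 1 := by rw [← map_mul, mul_inv_cancel, map_one]
    rw [h3, mul_one] at this
    exact this
  have h4 : (1 - φ g⁻¹) * ∑ x, f x * φ x⁻¹ = 0 := by
    rw [sub_mul, one_mul, ← h2, ← h1, sub_self]
  rcases mul_eq_zero.mp h4 with h5 | h5
  · exact absurd (sub_eq_zero.mp h5).symm h3
  · exact h5

/-- the relation for one good `z` -/
lemma h42_coeff_rel (f : G → L) (φ : G →* L) (z ρ : G) (hρ : φ ρ ≠ 1)
    (h : ∀ x, f x + f (x⁻¹ * z) = f (x * ρ⁻¹) + f (x⁻¹ * z * ρ)) :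
    (∑ x, f x * φ x⁻¹) + φ z⁻¹ * (∑ x, f x * φ x) = 0 := by
  have hB : ∑ x, f (x⁻¹ * z) * φ x⁻¹ = φ z⁻¹ * ∑ x, f x * φ x := by
    rw [Finset.mul_sum]
    refine Fintype.sum_equiv ((Equiv.inv G).trans (Equiv.mulRight z)) _ _ ?_
    intro x
    simp only [Equiv.trans_apply, Equiv.inv_apply, Equiv.coe_mulRight]
    rw [show φ x⁻¹ = φ (x⁻¹ * z) * φ z⁻¹ by
      rw [← map_mul]; congr 1; rw [mul_assoc, mul_inv_cancel, mul_one]]
    ring
  have hC : ∑ x, f (x * ρ⁻¹) * φ x⁻¹ = φ ρ⁻¹ * ∑ x, f x * φ x⁻¹ := by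
    rw [Finset.mul_sum]
    refine Fintype.sum_equiv (Equiv.mulRight ρ⁻¹) _ _ ?_
    intro x
    simp only [Equiv.coe_mulRight]
    rw [show φ x⁻¹ = φ (x * ρ⁻¹)⁻¹ * φ ρ⁻¹ by
      rw [← map_mul]; congr 1; rw [mul_inv, inv_inv, mul_assoc, mul_inv_cancel, mul_one]]
    ring
  have hD : ∑ x, f (x⁻¹ * z * ρ) * φ x⁻¹ = φ ρ⁻¹ * (φ z⁻¹ * ∑ x, f x * φ x) := by
    rw [Finset.mul_sum, Finset.mul_sum]
    refine Fintype.sum_equiv ((Equiv.inv G).trans (Equiv.mulRight (z * ρ))) _ _ ?_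
    intro x
    simp only [Equiv.trans_apply, Equiv.inv_apply, Equiv.coe_mulRight]
    rw [show x⁻¹ * z * ρ = x⁻¹ * (z * ρ) by rw [mul_assoc]]
    rw [show φ x⁻¹ = φ (x⁻¹ * (z * ρ)) * φ z⁻¹ * φ ρ⁻¹ by
      rw [← map_mul, ← map_mul]; congr 1
      rw [mul_assoc x⁻¹, mul_assoc x⁻¹, mul_assoc (z * ρ), ← mul_inv, mul_inv_cancel, mul_one]]
    ring
  have hsum : (∑ x, f x * φ x⁻¹) + ∑ x, f (x⁻¹ * z) * φ x⁻¹
      = (∑ x, f (x * ρ⁻¹) * φ x⁻¹) + ∑ x, f (x⁻¹ * z * ρ) * φ x⁻¹ := by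
    rw [← Finset.sum_add_distrib, ← Finset.sum_add_distrib]
    refine Finset.sum_congr rfl ?_
    intro x _
    rw [← add_mul, ← add_mul, h x]
  rw [hB, hC, hD] at hsum
  have h3 : φ ρ⁻¹ ≠ 1 := by
    intro h3
    apply hρ
    have : φ ρ * φ ρ⁻¹ = 1 := by rw [← map_mul, mul_inv_cancel, map_one]
    rw [h3, mul_one] at this
    exact this
  have h4 : (1 - φ ρ⁻¹) * ((∑ x, f x * φ x⁻¹) + φ z⁻¹ * (∑ x, f x * φ x)) = 0 := by
    linear_combination hsum
  rcases mul_eq_zero.mp h4 with h5 | h5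
  · exact absurd (sub_eq_zero.mp h5).symm h3
  · exact h5

/-- two good `z` with different character values kill the coefficient -/
lemma h42_coeff_zero_of_two (f : G → L) (φ : G →* L) (z z' : G) (hzz : φ (z * z'⁻¹) ≠ 1)
    (h1 : (∑ x, f x * φ x⁻¹) + φ z⁻¹ * (∑ x, f x * φ x) = 0)
    (h2 : (∑ x, f x * φ x⁻¹) + φ z'⁻¹ * (∑ x, f x * φ x) = 0) :
    ∑ x, f x * φ x⁻¹ = 0 := by
  have hne : φ z⁻¹ - φ z'⁻¹ ≠ 0 := by
    intro h
    apply hzz
    have h' : φ z⁻¹ = φ z'⁻¹ := sub_eq_zero.mp h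
    have e1 : φ z * φ z⁻¹ = 1 := by rw [← map_mul, mul_inv_cancel, map_one]
    rw [map_mul, ← h', e1]
  have h3 : (φ z⁻¹ - φ z'⁻¹) * (∑ x, f x * φ x) = 0 := by linear_combination h1 - h2
  have h4 : (∑ x, f x * φ x) = 0 := by
    rcases mul_eq_zero.mp h3 with h5 | h5
    · exact absurd h5 hne
    · exact h5
  rw [h4, mul_zero, add_zero] at h1
  exact h1

end Abstract

section Final

variable {K : Type*} [Field K]

/-- **Finite lemma.** A function on `𝔽_r^×` invariant under a subgroup `Q` with at least four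
elements and satisfying the four-term relation for all ratios `(1 + z g) / (1 + z)`, `g ∈ Q`,
is constant, provided `r - 1` is invertible in the field of values. -/
theorem h42_finite_const (r : ℕ) [Fact r.Prime] (hK : ((r - 1 : ℕ) : K) ≠ 0)
    (Q : Subgroup (ZMod r)ˣ) (hQ : 4 ≤ Nat.card Q) (F : (ZMod r)ˣ → K)
    (hinv : ∀ g ∈ Q, ∀ x, F (g * x) = F x)
    (hrel : ∀ x y g ρ : (ZMod r)ˣ, g ∈ Q → 1 + (x : ZMod r) * y ≠ 0 →
      (ρ : ZMod r) * (1 + x * y) = 1 + x * y * g → F x + F y = F (x * ρ⁻¹) + F (y * ρ)) :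
    ∀ x, F x = F 1 := by
  classical
  let L := AlgebraicClosure K
  have hexp : NeZero ((Monoid.exponent (ZMod r)ˣ : ℕ) : K) := by
    refine ⟨fun h0 => hK ?_⟩
    have hdvd : Monoid.exponent (ZMod r)ˣ ∣ r - 1 := by
      have := Group.exponent_dvd_card (G := (ZMod r)ˣ)
      rwa [ZMod.card_units] at this
    obtain ⟨k, hk⟩ := hdvd
    rw [hk, Nat.cast_mul, h0, zero_mul]
  have hroots : HasEnoughRootsOfUnity L (Monoid.exponent (ZMod r)ˣ) :=
    AlgebraicClosure.hasEnoughRootsOfUnity K _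
  set f : (ZMod r)ˣ → L := fun x => algebraMap K L (F x) with hf
  let φ : DirichletCharacter L r → ((ZMod r)ˣ →* L) :=
    fun ξ => (Units.coeHom L).comp ξ.toUnitHom
  have hφ : ∀ (ξ : DirichletCharacter L r) (x : (ZMod r)ˣ), φ ξ x = ξ (x : ZMod r) :=
    fun ξ x => MulChar.coe_toUnitHom ξ x
  -- all nontrivial coefficients vanish
  have hT0 : ∀ ξ : DirichletCharacter L r, ξ ≠ 1 → ∑ x, f x * φ ξ x⁻¹ = 0 := by
    intro ξ hξ
    by_cases hcase : ∃ g ∈ Q, φ ξ g ≠ 1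
    · obtain ⟨g, hgQ, hg⟩ := hcase
      exact h42_coeff_zero_of_inv f (φ ξ) g hg (fun x => by simp only [hf, hinv g hgQ x])
    · have hcase' : ∀ g ∈ Q, φ ξ g = 1 := by
        intro g hg
        by_contra h
        exact hcase ⟨g, hg, h⟩
      set H : Subgroup (ZMod r)ˣ := ξ.toUnitHom.ker with hH
      have hmem : ∀ x : (ZMod r)ˣ, x ∈ H ↔ φ ξ x = 1 := by
        intro x
        rw [hH, MonoidHom.mem_ker, hφ, ← MulChar.coe_toUnitHom, Units.val_eq_one]
      have hQH : Q ≤ H := fun g hg => (hmem g).mpr (hcase' g hg)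
      have hHtop : H ≠ ⊤ := by
        obtain ⟨a, ha⟩ := MulChar.ne_one_iff.mp hξ
        intro htop
        apply ha
        rw [← hφ]
        exact (hmem a).mp (htop ▸ Subgroup.mem_top a)
      obtain ⟨z, z', hz, hz', hzz⟩ := h42_two_good Q H hQH hHtop hQ
      have key : ∀ z : (ZMod r)ˣ, h42_Good Q H z →
          (∑ x, f x * φ ξ x⁻¹) + φ ξ z⁻¹ * (∑ x, f x * φ ξ x) = 0 := by
        intro z hz
        obtain ⟨hz1, g, hgQ, ρ, hρH, hρ⟩ := hz
        refine h42_coeff_rel f (φ ξ) z ρ (fun h => hρH ((hmem ρ).mpr h)) ?_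
        intro x
        have hxz : (x : ZMod r) * ((x⁻¹ * z : (ZMod r)ˣ) : ZMod r) = z := by
          rw [← Units.val_mul, mul_inv_cancel_left]
        have := hrel x (x⁻¹ * z) g ρ hgQ (by rw [hxz]; exact hz1) (by rw [hxz]; exact hρ)
        simp only [hf, ← map_add, this]
      exact h42_coeff_zero_of_two f (φ ξ) z z' (fun h => hzz ((hmem _).mpr h)) (key z hz)
        (key z' hz')
  -- Fourier inversion
  have hinvF : ∀ x : (ZMod r)ˣ,
      ∑ ξ : DirichletCharacter L r, (∑ y, f y * φ ξ y⁻¹) * ξ (x : ZMod r)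
        = (r.totient : L) * f x := by
    intro x
    have h1 : ∀ ξ : DirichletCharacter L r, (∑ y, f y * φ ξ y⁻¹) * ξ (x : ZMod r)
        = ∑ y : (ZMod r)ˣ, f y * (ξ ((y : ZMod r))⁻¹ * ξ (x : ZMod r)) := by
      intro ξ
      rw [Finset.sum_mul]
      refine Finset.sum_congr rfl ?_
      intro y _
      rw [hφ, Units.val_inv_eq_inv_val, mul_assoc]
    simp_rw [h1]
    rw [Finset.sum_comm]
    have h2 : ∀ y : (ZMod r)ˣ,
        ∑ ξ : DirichletCharacter L r, f y * (ξ ((y : ZMod r))⁻¹ * ξ (x : ZMod r))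
          = if y = x then f y * (r.totient : L) else 0 := by
      intro y
      rw [← Finset.mul_sum, DirichletCharacter.sum_char_inv_mul_char_eq L y.isUnit (x : ZMod r)]
      by_cases hyx : y = x
      · rw [if_pos hyx, if_pos (by rw [hyx])]
      · rw [if_neg hyx, if_neg (fun h => hyx (Units.ext h)), mul_zero]
    simp_rw [h2]
    rw [Finset.sum_ite_eq' Finset.univ x, if_pos (Finset.mem_univ x), mul_comm]
  have hconst : ∀ x : (ZMod r)ˣ, (r.totient : L) * f x = ∑ y, f y * φ 1 y⁻¹ := by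
    intro x
    rw [← hinvF x, Finset.sum_eq_single (1 : DirichletCharacter L r)]
    · rw [MulChar.one_apply_coe, mul_one]
    · intro ξ _ hξ
      rw [hT0 ξ hξ, zero_mul]
    · intro h
      exact absurd (Finset.mem_univ _) h
  have htot : (r.totient : L) ≠ 0 := by
    rw [Nat.totient_prime (Fact.out : r.Prime)]
    intro h
    apply hK
    have : algebraMap K L ((r - 1 : ℕ) : K) = 0 := by rw [map_natCast]; exact h
    exact (map_eq_zero (algebraMap K L)).mp this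
  intro x
  have h1 : (r.totient : L) * f x = (r.totient : L) * f 1 := by rw [hconst x, hconst 1]
  have h2 : f x = f 1 := mul_left_cancel₀ htot h1
  exact (algebraMap K L).injective h2

end Final

end Fermat.Agent.S41
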