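import Mathlib
import Fermat.Agent.S41.CSPFinite

set_option autoImplicit false

namespace Fermat.Agent.S41

lemma h42_isCoprime_of_modEq {a b n : ℤ} (h : a ≡ b [ZMOD n]) (hb : IsCoprime b n) :
    IsCoprime a n := by
  obtain ⟨k, hk⟩ := (Int.modEq_iff_dvd.mp h)
  have : a = b + n * (-k) := by linear_combination -hk
  rw [this]
  exact hb.add_mul_left_left (-k)

lemma h42_crt2 {m n : ℤ} (hmn : IsCoprime m n) (a b : ℤ) :
    ∃ A : ℤ, A ≡ a [ZMOD m] ∧ A ≡ b [ZMOD n] := by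
  obtain ⟨u, v, huv⟩ := hmn
  refine ⟨a * (v * n) + b * (u * m), ?_, ?_⟩
  · rw [Int.modEq_iff_dvd]
    exact ⟨(a - b) * u, by linear_combination (-a) * huv⟩
  · rw [Int.modEq_iff_dvd]
    exact ⟨(b - a) * v, by linear_combination (-b) * huv⟩

/-- Dirichlet with three coprime moduli. -/
lemma h42_dirichlet3 (n₁ n₂ n₃ : ℕ) (h1 : n₁ ≠ 0) (h2 : n₂ ≠ 0) (h3 : n₃ ≠ 0)
    (h12 : Nat.Coprime n₁ n₂) (h13 : Nat.Coprime n₁ n₃) (h23 : Nat.Coprime n₂ n₃)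
    (a₁ a₂ a₃ : ℤ) (c1 : IsCoprime a₁ (n₁ : ℤ)) (c2 : IsCoprime a₂ (n₂ : ℤ))
    (c3 : IsCoprime a₃ (n₃ : ℤ)) (B : ℕ) :
    ∃ l : ℕ, B < l ∧ l.Prime ∧ (l : ℤ) ≡ a₁ [ZMOD n₁] ∧ (l : ℤ) ≡ a₂ [ZMOD n₂] ∧
      (l : ℤ) ≡ a₃ [ZMOD n₃] := by
  have i12 : IsCoprime (n₁ : ℤ) (n₂ : ℤ) := Nat.isCoprime_iff_coprime.mpr h12
  have i13 : IsCoprime (n₁ : ℤ) (n₃ : ℤ) := Nat.isCoprime_iff_coprime.mpr h13
  have i23 : IsCoprime (n₂ : ℤ) (n₃ : ℤ) := Nat.isCoprime_iff_coprime.mpr h23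
  obtain ⟨A₀, hA1, hA2⟩ := h42_crt2 i12 a₁ a₂
  have i123 : IsCoprime ((n₁ : ℤ) * n₂) (n₃ : ℤ) := IsCoprime.mul_left i13 i23
  obtain ⟨A, hA12, hA3⟩ := h42_crt2 i123 A₀ a₃
  have hA1' : A ≡ a₁ [ZMOD n₁] := (hA12.of_mul_right _).trans hA1
  have hA2' : A ≡ a₂ [ZMOD n₂] := (hA12.of_mul_left _).trans hA2
  have hcop : IsCoprime A ((n₁ * n₂ * n₃ : ℕ) : ℤ) := by
    push_cast
    exact IsCoprime.mul_right (IsCoprime.mul_right (h42_isCoprime_of_modEq hA1' c1)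
      (h42_isCoprime_of_modEq hA2' c2)) (h42_isCoprime_of_modEq hA3 c3)
  have hne : n₁ * n₂ * n₃ ≠ 0 := Nat.mul_ne_zero (Nat.mul_ne_zero h1 h2) h3
  obtain ⟨l, hl, hlp, hlA⟩ := Nat.forall_exists_prime_gt_and_zmodEq B hne hcop
  push_cast at hlA
  refine ⟨l, hl, hlp, ?_, ?_, ?_⟩
  · exact ((hlA.of_mul_right _).of_mul_right _).trans hA1'
  · exact ((hlA.of_mul_right _).of_mul_left _).trans hA2'
  · exact (hlA.of_mul_left _).trans hA3


section Symbol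

variable {K : Type*} [Field K]

/-- The axioms of an abstract symbol `m c d` (`N ∣ c`, `c`, `d` coprime): it behaves like
`χ(g)` for a homomorphism `χ` on `Γ₀(N)` read on the bottom row `(c, d)` of `g`. -/
def h42_IsSym (N q E : ℕ) (m : ℤ → ℤ → K) : Prop :=
  (∀ c d a' b' c' d' : ℤ, (N : ℤ) ∣ c → IsCoprime c d → (N : ℤ) ∣ c' → a' * d' - b' * c' = 1 →
      m (c * a' + d * c') (c * b' + d * d') = m c d + m c' d') ∧
  (∀ c : ℤ, (N : ℤ) ∣ c → m c 1 = 0) ∧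
  (∀ c d : ℤ, (N : ℤ) ∣ c → IsCoprime ((q : ℤ) ^ (2 * E) * c) d →
      m ((q : ℤ) ^ (2 * E) * c) d = m c d) ∧
  (∀ c d : ℤ, (N : ℤ) ∣ c → IsCoprime c ((q : ℤ) ^ (2 * E) * d) →
      m c ((q : ℤ) ^ (2 * E) * d) = m c d)

variable {N q E : ℕ} {m : ℤ → ℤ → K}

lemma h42_sym_P1 (h : h42_IsSym N q E m) {c d : ℤ} (hc : (N : ℤ) ∣ c) (hcd : IsCoprime c d)
    (x : ℤ) : m c (d + c * x) = m c d := by
  have h1 := h.1 c d 1 x 0 1 hc hcd (dvd_zero _) (by ring)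
  have h0 := h.2.1 0 (dvd_zero _)
  rw [h0, add_zero] at h1
  rw [← h1]
  congr 1 <;> ring

lemma h42_sym_P1' (h : h42_IsSym N q E m) {c d d' : ℤ} (hc : (N : ℤ) ∣ c) (hcd : IsCoprime c d)
    (hd : d' ≡ d [ZMOD c]) : m c d' = m c d := by
  obtain ⟨k, hk⟩ := Int.modEq_iff_dvd.mp hd
  have : d' = d + c * (-k) := by linear_combination -hk
  rw [this]
  exact h42_sym_P1 h hc hcd (-k)

lemma h42_sym_P2 (h : h42_IsSym N q E m) {c d : ℤ} (hc : (N : ℤ) ∣ c) (hcd : IsCoprime c d)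
    (y : ℤ) : m (c + N * y * d) d = m c d := by
  have h1 := h.1 c d 1 0 (N * y) 1 hc hcd (dvd_mul_right _ _) (by ring)
  have h0 := h.2.1 (N * y) (dvd_mul_right _ _)
  rw [h0, add_zero] at h1
  rw [← h1]
  congr 1 <;> ring

lemma h42_sym_Q4_iter (h : h42_IsSym N q E m) {c d : ℤ} (hc : (N : ℤ) ∣ c) (k : ℕ)
    (hcd : IsCoprime ((q : ℤ) ^ (2 * E * k) * c) d) :
    m ((q : ℤ) ^ (2 * E * k) * c) d = m c d := by
  induction k with
  | zero => simp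
  | succ k ih =>
    have e : (q : ℤ) ^ (2 * E * (k + 1)) * c = (q : ℤ) ^ (2 * E) * ((q : ℤ) ^ (2 * E * k) * c) := by
      rw [mul_add, mul_one, pow_add]
      ring
    rw [e] at hcd ⊢
    rw [h.2.2.1 _ d (dvd_mul_of_dvd_right hc _) hcd]
    exact ih (IsCoprime.of_mul_left_right hcd)

lemma h42_sym_key (h : h42_IsSym N q E m) {c s D v w x y : ℤ} (hc : (N : ℤ) ∣ c)
    (hsw : s * w = 1 + D * v) (hdet : x * w - y * (c * v) = 1)
    (hcop : IsCoprime c (D * x - c * s * y)) :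
    m (c * s) D = m c (D * x - c * s * y) + m (c * v) w := by
  have h1 := h.1 c (D * x - c * s * y) x y (c * v) w hc hcop (dvd_mul_of_dvd_left hc v) hdet
  rw [← h1]
  congr 1
  · linear_combination (-(c * s)) * hdet + (c * x) * hsw
  · linear_combination (-D) * hdet + (c * y) * hsw

end Symbol

section Level

variable {K : Type*} [Field K] {N q E r : ℕ} {m : ℤ → ℤ → K}

/-- the integer lift of a class mod `r` that is `1` mod `N` -/
noncomputable def h42_lift (N r : ℕ) (x : ZMod r) : ℤ :=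
  1 + N * (((x - 1) * (N : ZMod r)⁻¹).val : ℤ)

lemma h42_lift_modEq (x : ZMod r) : h42_lift N r x ≡ 1 [ZMOD N] := by
  rw [Int.modEq_iff_dvd]
  exact ⟨-((((x - 1) * (N : ZMod r)⁻¹).val : ℕ) : ℤ), by unfold h42_lift; ring⟩

lemma h42_lift_cast [Fact r.Prime] (hrN : (N : ZMod r) ≠ 0) (x : ZMod r) :
    ((h42_lift N r x : ℤ) : ZMod r) = x := by
  unfold h42_lift
  push_cast
  rw [ZMod.natCast_zmod_val]
  field_simp
  ring

lemma h42_lift_one [Fact r.Prime] : h42_lift N r (1 : ZMod r) = 1 := by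
  unfold h42_lift
  simp

lemma h42_coprime_level [Fact r.Prime] {d : ℤ} (hd1 : d ≡ 1 [ZMOD N])
    (hdr : (d : ZMod r) ≠ 0) : IsCoprime ((N : ℤ) * r) d := by
  have hr : Nat.Prime r := Fact.out
  refine IsCoprime.mul_left ?_ ?_
  · exact (h42_isCoprime_of_modEq hd1 isCoprime_one_left).symm
  · rw [(Nat.prime_iff_prime_int.mp hr).coprime_iff_not_dvd]
    intro hdvd
    exact hdr ((ZMod.intCast_zmod_eq_zero_iff_dvd d r).mpr hdvd)

/-- the level-`N r` symbol as a function on `(ZMod r)ˣ` -/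
noncomputable def h42_F (N r : ℕ) (m : ℤ → ℤ → K) (x : (ZMod r)ˣ) : K :=
  m ((N : ℤ) * r) (h42_lift N r (x : ZMod r))

lemma h42_F_eq (h : h42_IsSym N q E m) [Fact r.Prime] (hrN : (N : ZMod r) ≠ 0) {d : ℤ}
    (hd1 : d ≡ 1 [ZMOD N]) (x : (ZMod r)ˣ) (hdx : (d : ZMod r) = x) :
    m ((N : ℤ) * r) d = h42_F N r m x := by
  have hr : Nat.Prime r := Fact.out
  unfold h42_F
  have hcop : IsCoprime ((N : ℤ) * r) (h42_lift N r (x : ZMod r)) :=
    h42_coprime_level (h42_lift_modEq _) (by rw [h42_lift_cast hrN]; exact x.ne_zero)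
  refine h42_sym_P1' h (dvd_mul_right _ _) hcop ?_
  have hNr : Nat.Coprime N r := by
    rw [Nat.coprime_comm, hr.coprime_iff_not_dvd]
    intro hdvd
    exact hrN ((ZMod.natCast_eq_zero_iff N r).mpr hdvd)
  rw [← Int.modEq_and_modEq_iff_modEq_mul (by simpa using hNr)]
  refine ⟨hd1.trans (h42_lift_modEq _).symm, ?_⟩
  rw [← ZMod.intCast_eq_intCast_iff, hdx, h42_lift_cast hrN]

lemma h42_F_one (h : h42_IsSym N q E m) [Fact r.Prime] : h42_F N r m 1 = 0 := by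
  unfold h42_F
  rw [Units.val_one, h42_lift_one]
  exact h.2.1 _ (dvd_mul_right _ _)

lemma h42_pow_modEq_one (hEN : q ^ E ≡ 1 [MOD N]) : (q : ℤ) ^ (2 * E) ≡ 1 [ZMOD N] := by
  have h1 : ((q ^ E : ℕ) : ℤ) ≡ ((1 : ℕ) : ℤ) [ZMOD N] := Int.natCast_modEq_iff.mpr hEN
  push_cast at h1
  have h2 := h1.pow 2
  rw [one_pow, ← pow_mul, mul_comm] at h2
  exact h2

lemma h42_F_inv_gen (h : h42_IsSym N q E m) [Fact r.Prime] (hrN : (N : ZMod r) ≠ 0)
    (hEN : q ^ E ≡ 1 [MOD N]) (g₀ : (ZMod r)ˣ) (hg₀ : (g₀ : ZMod r) = (q : ZMod r) ^ (2 * E))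
    (x : (ZMod r)ˣ) : h42_F N r m (g₀ * x) = h42_F N r m x := by
  set d := h42_lift N r (x : ZMod r) with hd
  have hd1 : (q : ℤ) ^ (2 * E) * d ≡ 1 [ZMOD N] := by
    have := (h42_pow_modEq_one hEN).mul (h42_lift_modEq (N := N) (x : ZMod r))
    rwa [one_mul] at this
  have hdx : (((q : ℤ) ^ (2 * E) * d : ℤ) : ZMod r) = ((g₀ * x : (ZMod r)ˣ) : ZMod r) := by
    push_cast
    rw [hg₀, hd, h42_lift_cast hrN]
  have hcop : IsCoprime ((N : ℤ) * r) ((q : ℤ) ^ (2 * E) * d) :=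
    h42_coprime_level hd1 (by rw [hdx]; exact (g₀ * x).ne_zero)
  rw [← h42_F_eq h hrN hd1 (g₀ * x) hdx, h.2.2.2 _ d (dvd_mul_right _ _) hcop]
  rfl

lemma h42_F_inv (h : h42_IsSym N q E m) [Fact r.Prime] (hrN : (N : ZMod r) ≠ 0)
    (hEN : q ^ E ≡ 1 [MOD N]) (g₀ : (ZMod r)ˣ) (hg₀ : (g₀ : ZMod r) = (q : ZMod r) ^ (2 * E)) :
    ∀ g ∈ Subgroup.zpowers g₀, ∀ x, h42_F N r m (g * x) = h42_F N r m x := by
  intro g hg
  obtain ⟨k, rfl⟩ := Subgroup.mem_zpowers_iff.mp hg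
  induction k using Int.induction_on with
  | zero => intro x; simp
  | succ k ih =>
    intro x
    rw [zpow_add_one, mul_assoc, ih (Subgroup.zpow_mem_zpowers _ _), h42_F_inv_gen h hrN hEN g₀ hg₀]
  | pred k ih =>
    intro x
    rw [← h42_F_inv_gen h hrN hEN g₀ hg₀ (g₀ ^ (-(k : ℤ) - 1) * x), ← mul_assoc, ← zpow_one_add]
    have : (1 : ℤ) + (-(k : ℤ) - 1) = -(k : ℤ) := by ring
    rw [this]
    exact ih (Subgroup.zpow_mem_zpowers _ _) x

lemma h42_sq_modEq (N : ℕ) (a : ℤ) (ha : a ≡ 1 [ZMOD N]) :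
    a ^ 2 ≡ 1 [ZMOD ((Nat.gcd 2 N : ℕ) : ℤ) * N] := by
  rcases Nat.even_or_odd N with ⟨N', hN'⟩ | hodd
  · have hg : Nat.gcd 2 N = 2 := Nat.gcd_eq_left ⟨N', by omega⟩
    obtain ⟨t, ht⟩ := Int.modEq_iff_dvd.mp ha
    rw [hg, Int.modEq_iff_dvd]
    refine ⟨t - N' * t ^ 2, ?_⟩
    have ha' : a = 1 - N * t := by linear_combination -ht
    have hN'' : (N : ℤ) = N' + N' := by exact_mod_cast hN'
    rw [ha']
    push_cast
    rw [hN'']
    ring
  · have hg : Nat.gcd 2 N = 1 := Nat.coprime_two_left.mpr hodd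
    rw [hg]
    have := ha.pow 2
    simpa using this

/-- `v = q^(4E(l-1)j)` is `1` modulo `gcd(2,N) * l * N`. -/
lemma h42_v_modEq (hEN : q ^ E ≡ 1 [MOD N]) {l : ℕ} (hl : l.Prime) (hlq : ¬ l ∣ q)
    (hlN : Nat.Coprime l (Nat.gcd 2 N * N)) (j : ℕ) :
    (q : ℤ) ^ (4 * E * (l - 1) * j) ≡ 1 [ZMOD ((Nat.gcd 2 N * l : ℕ) : ℤ) * N] := by
  have h1 : q ^ (4 * E * (l - 1) * j) ≡ 1 [MOD l] := by
    have hcop : Nat.Coprime q l := ((Nat.Prime.coprime_iff_not_dvd hl).mpr hlq).symm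
    have h2 := Nat.ModEq.pow_totient hcop
    rw [Nat.totient_prime hl] at h2
    have h3 := h2.pow (4 * E * j)
    rw [one_pow, ← pow_mul] at h3
    have e : 4 * E * (l - 1) * j = (l - 1) * (4 * E * j) := by ring
    rw [e]
    exact h3
  have h2 : q ^ (4 * E * (l - 1) * j) ≡ 1 [MOD Nat.gcd 2 N * N] := by
    have h3 : ((q ^ E : ℕ) : ℤ) ≡ ((1 : ℕ) : ℤ) [ZMOD N] := Int.natCast_modEq_iff.mpr hEN
    have h4 := h42_sq_modEq N _ (by simpa using h3)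
    have h5 : ((((q ^ E) ^ 2 : ℕ) : ℤ)) ≡ ((1 : ℕ) : ℤ) [ZMOD ((Nat.gcd 2 N * N : ℕ) : ℤ)] := by
      push_cast
      exact h4
    have h6 : (q ^ E) ^ 2 ≡ 1 [MOD Nat.gcd 2 N * N] := Int.natCast_modEq_iff.mp h5
    have h7 := h6.pow (2 * (l - 1) * j)
    rw [one_pow, ← pow_mul, ← pow_mul] at h7
    have e : 4 * E * (l - 1) * j = E * (2 * (2 * (l - 1) * j)) := by ring
    rw [e]
    exact h7
  have h3 : q ^ (4 * E * (l - 1) * j) ≡ 1 [MOD l * (Nat.gcd 2 N * N)] :=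
    (Nat.modEq_and_modEq_iff_modEq_mul hlN).mp ⟨h1, h2⟩
  have h4 := Int.natCast_modEq_iff.mpr h3
  push_cast at h4 ⊢
  have e : (l : ℤ) * (((Nat.gcd 2 N : ℕ) : ℤ) * N) = ((Nat.gcd 2 N : ℕ) : ℤ) * l * N := by ring
  rw [e] at h4
  exact h4

lemma h42_rel_of_prime (h : h42_IsSym N q E m) [Fact r.Prime] (hrN : (N : ZMod r) ≠ 0)
    (hEN : q ^ E ≡ 1 [MOD N]) {l : ℕ} (hl : l.Prime) (hlq : ¬ l ∣ q)
    (hlN : Nat.Coprime l (Nat.gcd 2 N * N))
    (hlN2 : ((Nat.gcd 2 N * l : ℕ) : ℤ) ≡ 2 [ZMOD N])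
    (x y : (ZMod r)ˣ) (hxy : 1 + (x : ZMod r) * y ≠ 0)
    (hly : ((Nat.gcd 2 N * l : ℕ) : ZMod r) * y = 1 + x * y)
    (j : ℕ) (ρ : (ZMod r)ˣ)
    (hρ : (ρ : ZMod r) * (1 + x * y) = 1 + x * y * (q : ZMod r) ^ (4 * E * (l - 1) * j)) :
    m ((N : ℤ) * r * ((Nat.gcd 2 N * l : ℕ) : ℤ))
        (((Nat.gcd 2 N * l : ℕ) : ℤ) * h42_lift N r (y : ZMod r) - 1)
      = h42_F N r m (x * ρ⁻¹) + h42_F N r m (y * ρ) := by
  set s : ℤ := ((Nat.gcd 2 N * l : ℕ) : ℤ) with hs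
  set w : ℤ := h42_lift N r (y : ZMod r) with hw
  set D : ℤ := s * w - 1 with hD
  set v : ℤ := (q : ℤ) ^ (4 * E * (l - 1) * j) with hv
  have hv1 : v ≡ 1 [ZMOD s * N] := h42_v_modEq hEN hl hlq hlN j
  obtain ⟨k, hk⟩ := Int.modEq_iff_dvd.mp hv1
  set wv : ℤ := w * v + N * k with hwv
  have hsw : s * wv = 1 + D * v := by
    rw [hwv, hD]
    linear_combination (-1 : ℤ) * hk
  have hw1 : w ≡ 1 [ZMOD N] := h42_lift_modEq _
  have hvN : v ≡ 1 [ZMOD N] := hv1.of_mul_left _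
  have hwv1 : wv ≡ 1 [ZMOD N] := by
    have h1 := hw1.mul hvN
    have h2 : (N : ℤ) * k ≡ 0 [ZMOD N] := Int.modEq_zero_iff_dvd.mpr (dvd_mul_right _ _)
    have h3 := h1.add h2
    have e : (1 : ℤ) * 1 + 0 = 1 := by norm_num
    rw [e] at h3
    exact h3
  have hwc : ((w : ℤ) : ZMod r) = y := h42_lift_cast hrN _
  have hsc : ((s : ℤ) : ZMod r) * y = 1 + x * y := by
    rw [hs, Int.cast_natCast]
    exact hly
  have hDc : ((D : ℤ) : ZMod r) = x * y := by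
    rw [hD]
    push_cast
    rw [hwc, hsc]
    ring
  have hvc : ((v : ℤ) : ZMod r) = (q : ZMod r) ^ (4 * E * (l - 1) * j) := by
    rw [hv]
    push_cast
    rfl
  have hs0 : ((s : ℤ) : ZMod r) ≠ 0 := by
    intro h0
    apply hxy
    rw [← hsc, h0, zero_mul]
  have hwvc : ((wv : ℤ) : ZMod r) = ρ * y := by
    have h1 : ((s : ℤ) : ZMod r) * ((wv : ℤ) : ZMod r) = 1 + ((D : ℤ) : ZMod r) * ((v : ℤ) : ZMod r) := by
      exact_mod_cast congrArg (Int.cast : ℤ → ZMod r) hsw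
    rw [hDc, hvc, ← hρ, ← hsc] at h1
    apply mul_left_cancel₀ hs0
    rw [h1]
    ring
  have hcop1 : IsCoprime ((N : ℤ) * r) wv :=
    h42_coprime_level hwv1 (by rw [hwvc]; exact mul_ne_zero ρ.ne_zero y.ne_zero)
  have hcop2 : IsCoprime v wv := ⟨-D, s, by linear_combination hsw⟩
  have hcop : IsCoprime ((N : ℤ) * r * v) wv := IsCoprime.mul_left hcop1 hcop2
  obtain ⟨a, b, hab⟩ := id hcop
  have hdet : b * wv - (-a) * ((N : ℤ) * r * v) = 1 := by linear_combination hab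
  set dX : ℤ := D * b - (N : ℤ) * r * s * (-a) with hdX
  have hD1 : D ≡ 1 [ZMOD N] := by
    have h1 := hlN2.mul hw1
    have h2 := h1.sub (Int.ModEq.refl 1)
    have e : (2 : ℤ) * 1 - 1 = 1 := by norm_num
    rw [e] at h2
    exact h2
  have hb1 : b ≡ 1 [ZMOD N] := by
    have h1 : b * wv ≡ 1 [ZMOD N] := by
      rw [Int.modEq_iff_dvd]
      exact ⟨a * r * v, by linear_combination (-1 : ℤ) * hab⟩
    have h2 : b * wv ≡ b * 1 [ZMOD N] := (Int.ModEq.refl b).mul hwv1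
    rw [mul_one] at h2
    exact h2.symm.trans h1
  have hdX1 : dX ≡ 1 [ZMOD N] := by
    have h1 := hD1.mul hb1
    have h2 : (N : ℤ) * r * s * (-a) ≡ 0 [ZMOD N] :=
      Int.modEq_zero_iff_dvd.mpr ⟨r * s * (-a), by ring⟩
    have h3 := h1.sub h2
    simpa [hdX] using h3
  have hrr : ((r : ℤ) : ZMod r) = 0 := by simp
  have hbc : ((b : ℤ) : ZMod r) * (ρ * y) = 1 := by
    have h1 := congrArg (Int.cast : ℤ → ZMod r) hab
    push_cast at h1
    rw [hwvc] at h1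
    simpa using h1
  have hdXc : ((dX : ℤ) : ZMod r) = ((x * ρ⁻¹ : (ZMod r)ˣ) : ZMod r) := by
    rw [Units.val_mul, Units.eq_mul_inv_iff_mul_eq, hdX]
    push_cast
    rw [hDc]
    simp only [ZMod.natCast_self, mul_zero, zero_mul, sub_zero]
    linear_combination (x : ZMod r) * hbc
  have hcopX : IsCoprime ((N : ℤ) * r) dX :=
    h42_coprime_level hdX1 (by rw [hdXc]; exact Units.ne_zero _)
  have key := h42_sym_key h (c := (N : ℤ) * r) (s := s) (D := D) (v := v) (w := wv) (x := b)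
    (y := -a) (dvd_mul_right _ _) hsw hdet hcopX
  rw [key, h42_F_eq h hrN hdX1 (x * ρ⁻¹) hdXc]
  congr 1
  have e : (N : ℤ) * r * v = (q : ℤ) ^ (2 * E * (2 * (l - 1) * j)) * ((N : ℤ) * r) := by
    rw [hv]
    have e' : 2 * E * (2 * (l - 1) * j) = 4 * E * (l - 1) * j := by ring
    rw [e']
    ring
  rw [e, h42_sym_Q4_iter h (dvd_mul_right _ _) _ (by rw [← e]; exact hcop)]
  exact h42_F_eq h hrN hwv1 (y * ρ) (by rw [hwvc]; push_cast; ring)

lemma h42_coprime_prime [Fact r.Prime] {d : ℤ} (hdr : (d : ZMod r) ≠ 0) :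
    IsCoprime d (r : ℤ) := by
  have hr : Nat.Prime r := Fact.out
  rw [isCoprime_comm, (Nat.prime_iff_prime_int.mp hr).coprime_iff_not_dvd]
  intro hdvd
  exact hdr ((ZMod.intCast_zmod_eq_zero_iff_dvd d r).mpr hdvd)

lemma h42_F_rel (h : h42_IsSym N q E m) (hN : 0 < N) (hq : 0 < q) [Fact r.Prime]
    (hrN : (N : ZMod r) ≠ 0) (hr2 : (2 : ZMod r) ≠ 0)
    (hEN : q ^ E ≡ 1 [MOD N]) (g₀ : (ZMod r)ˣ) (hg₀ : (g₀ : ZMod r) = (q : ZMod r) ^ (2 * E))
    (hodd : Odd (orderOf g₀)) (hnN : Nat.Coprime (orderOf g₀) N) :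
    ∀ x y g ρ : (ZMod r)ˣ, g ∈ Subgroup.zpowers g₀ → 1 + (x : ZMod r) * y ≠ 0 →
      (ρ : ZMod r) * (1 + x * y) = 1 + x * y * g →
      h42_F N r m x + h42_F N r m y = h42_F N r m (x * ρ⁻¹) + h42_F N r m (y * ρ) := by
  intro x y g ρ hg hxy hρ
  have hr : Nat.Prime r := Fact.out
  set n₁ := orderOf g₀ with hn₁
  have hn₁pos : 0 < n₁ := orderOf_pos g₀
  set ε := Nat.gcd 2 N with hε
  have hε12 : (ε = 2 ∧ Even N) ∨ (ε = 1 ∧ Odd N) := by
    rcases Nat.even_or_odd N with hev | hod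
    · left
      exact ⟨Nat.gcd_eq_left hev.two_dvd, hev⟩
    · right
      exact ⟨Nat.coprime_two_left.mpr hod, hod⟩
  have hεr : (ε : ZMod r) ≠ 0 := by
    rcases hε12 with ⟨h2, _⟩ | ⟨h1, _⟩
    · rw [h2]
      exact_mod_cast hr2
    · rw [h1]
      simp
  set a₁ : ℤ := if Even N then 1 else 2 with ha₁
  have hεa : (ε : ℤ) * a₁ = 2 := by
    rcases hε12 with ⟨h2, hev⟩ | ⟨h1, hod⟩
    · rw [ha₁, if_pos hev, h2]
      norm_num
    · rw [ha₁, if_neg (Nat.not_even_iff_odd.mpr hod), h1]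
      norm_num
  have c1 : IsCoprime a₁ (N : ℤ) := by
    rcases hε12 with ⟨h2, hev⟩ | ⟨h1, hod⟩
    · rw [ha₁, if_pos hev]
      exact isCoprime_one_left
    · rw [ha₁, if_neg (Nat.not_even_iff_odd.mpr hod)]
      have : Nat.Coprime 2 N := Nat.coprime_two_left.mpr hod
      exact_mod_cast Nat.isCoprime_iff_coprime.mpr this
  set u : ZMod r := (1 + (x : ZMod r) * y) * ((ε : ZMod r) * y)⁻¹ with hu
  have hu0 : u ≠ 0 := mul_ne_zero hxy (inv_ne_zero (mul_ne_zero hεr y.ne_zero))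
  have c2 : IsCoprime ((u.val : ℕ) : ℤ) (r : ℤ) := by
    apply h42_coprime_prime
    rw [Int.cast_natCast, ZMod.natCast_zmod_val]
    exact hu0
  have c3 : IsCoprime (2 : ℤ) (n₁ : ℤ) := by
    have : Nat.Coprime 2 n₁ := Nat.coprime_two_left.mpr hodd
    exact_mod_cast Nat.isCoprime_iff_coprime.mpr this
  have hNr : Nat.Coprime N r := by
    rw [Nat.coprime_comm, hr.coprime_iff_not_dvd]
    intro hdvd
    exact hrN ((ZMod.natCast_eq_zero_iff N r).mpr hdvd)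
  have hn₁r : Nat.Coprime r n₁ := by
    rw [hr.coprime_iff_not_dvd]
    intro hdvd
    have h1 : n₁ ∣ r - 1 := by
      have := orderOf_dvd_card (x := g₀)
      rwa [ZMod.card_units] at this
    have h2 : n₁ ≤ r - 1 := Nat.le_of_dvd (Nat.sub_pos_of_lt hr.one_lt) h1
    have h3 : r ≤ n₁ := Nat.le_of_dvd hn₁pos hdvd
    have := hr.one_lt
    omega
  obtain ⟨l, hlB, hl, hl1, hl2, hl3⟩ := h42_dirichlet3 N r n₁ hN.ne' hr.ne_zero hn₁pos.ne' hNr
    hnN.symm hn₁r a₁ (u.val : ℕ) 2 c1 c2 c3 (q + 2 * N)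
  have hlq : ¬ l ∣ q := Nat.not_dvd_of_pos_of_lt hq (by omega)
  have hε2 : ε ≤ 2 := by
    rcases hε12 with ⟨h2, _⟩ | ⟨h1, _⟩ <;> omega
  have hε0 : 0 < ε := by
    rcases hε12 with ⟨h2, _⟩ | ⟨h1, _⟩ <;> omega
  have hlN : Nat.Coprime l (ε * N) := by
    rw [hl.coprime_iff_not_dvd]
    apply Nat.not_dvd_of_pos_of_lt (Nat.mul_pos hε0 hN)
    calc ε * N ≤ 2 * N := Nat.mul_le_mul_right N hε2
      _ < l := by omega
  have hlN2 : ((ε * l : ℕ) : ℤ) ≡ 2 [ZMOD N] := by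
    push_cast
    have := (Int.ModEq.refl (ε : ℤ)).mul hl1
    rwa [hεa] at this
  have hlu : (l : ZMod r) = u := by
    have := (ZMod.intCast_eq_intCast_iff _ _ r).mpr hl2
    simpa using this
  have hly : ((ε * l : ℕ) : ZMod r) * y = 1 + x * y := by
    push_cast
    rw [hlu, hu]
    have hy0 : (y : ZMod r) ≠ 0 := y.ne_zero
    field_simp
  have hcopu : Nat.Coprime (2 * (l - 1)) n₁ := by
    apply Nat.Coprime.mul_left (Nat.coprime_two_left.mpr hodd)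
    have h1 : ((l - 1 : ℕ) : ℤ) ≡ 1 [ZMOD n₁] := by
      rw [Nat.cast_sub hl.one_le]
      push_cast
      have := hl3.sub (Int.ModEq.refl 1)
      norm_num at this
      exact this
    exact Nat.isCoprime_iff_coprime.mp (h42_isCoprime_of_modEq h1 isCoprime_one_left)
  obtain ⟨j, hj⟩ : ∃ j : ℕ, g = g₀ ^ (2 * (l - 1) * j) := by
    have hcard : Nat.card (Subgroup.zpowers g₀) = n₁ := Nat.card_zpowers g₀
    have hc' : (Nat.card (Subgroup.zpowers g₀)).Coprime (2 * (l - 1)) := by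
      rw [hcard]
      exact hcopu.symm
    obtain ⟨g', hg'⟩ := (powCoprime hc').surjective ⟨g, hg⟩
    obtain ⟨j, hj⟩ := mem_powers_iff_mem_zpowers.mpr g'.2
    refine ⟨j, ?_⟩
    have h1 : ((g' ^ (2 * (l - 1)) : Subgroup.zpowers g₀) : (ZMod r)ˣ) = g :=
      congrArg Subtype.val hg'
    rw [← h1, Subgroup.coe_pow, ← hj, ← pow_mul, mul_comm]
  have hgc : (g : ZMod r) = (q : ZMod r) ^ (4 * E * (l - 1) * j) := by
    rw [hj, Units.val_pow_eq_pow_val, hg₀, ← pow_mul]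
    congr 1
    ring
  rw [hgc] at hρ
  have R1 := h42_rel_of_prime h hrN hEN hl hlq hlN hlN2 x y hxy hly j ρ hρ
  have R0 := h42_rel_of_prime h hrN hEN hl hlq hlN hlN2 x y hxy hly 0 1 (by simp)
  rw [inv_one, mul_one, mul_one] at R0
  rw [← R0, ← R1]

/-- At a suitable prime level `N r` the symbol vanishes on `d ≡ 1 mod N`. -/
lemma h42_level_zero (h : h42_IsSym N q E m) (hN : 0 < N) (hq : 2 ≤ q) (hE : 0 < E)
    (hEN : q ^ E ≡ 1 [MOD N]) [Fact r.Prime] (hK : ((r - 1 : ℕ) : K) ≠ 0) (hr4 : r % 4 = 3)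
    (hrbig : N * q ^ (6 * E) < r)
    (hrN' : ∀ t : ℕ, t.Prime → t ≠ 2 → t ∣ N → ¬ t ∣ r - 1)
    {d : ℤ} (hd1 : d ≡ 1 [ZMOD N]) (hdr : (d : ZMod r) ≠ 0) : m ((N : ℤ) * r) d = 0 := by
  have hr : Nat.Prime r := Fact.out
  have hq6 : 1 ≤ q ^ (6 * E) := Nat.one_le_pow _ _ (by omega)
  have hNr' : N < r := lt_of_le_of_lt (Nat.le_mul_of_pos_right N (by omega)) hrbig
  have hq6r : q ^ (6 * E) < r := lt_of_le_of_lt (Nat.le_mul_of_pos_left _ hN) hrbig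
  have hrN : (N : ZMod r) ≠ 0 := by
    intro h0
    have := Nat.le_of_dvd hN ((ZMod.natCast_eq_zero_iff N r).mp h0)
    omega
  have hqr : (q : ZMod r) ≠ 0 := by
    intro h0
    have h1 := Nat.le_of_dvd (by omega) ((ZMod.natCast_eq_zero_iff q r).mp h0)
    have h2 : q ≤ q ^ (6 * E) := by
      calc q = q ^ 1 := (pow_one q).symm
        _ ≤ q ^ (6 * E) := Nat.pow_le_pow_right (by omega) (by omega)
    omega
  have hr2 : (2 : ZMod r) ≠ 0 := by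
    intro h0
    have h1 : ((2 : ℕ) : ZMod r) = 0 := by exact_mod_cast h0
    have h2 := Nat.le_of_dvd (by norm_num) ((ZMod.natCast_eq_zero_iff 2 r).mp h1)
    have h3 := hr.two_le
    have h4 : r = 2 := by omega
    omega
  set g₀ : (ZMod r)ˣ := Units.mk0 ((q : ZMod r) ^ (2 * E)) (pow_ne_zero _ hqr) with hg₀def
  have hg₀ : (g₀ : ZMod r) = (q : ZMod r) ^ (2 * E) := rfl
  set n₁ := orderOf g₀ with hn₁
  have hn₁pos : 0 < n₁ := orderOf_pos g₀
  have hn₁dvd : n₁ ∣ (r - 1) / 2 := by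
    apply orderOf_dvd_of_pow_eq_one
    set a : (ZMod r)ˣ := Units.mk0 ((q : ZMod r) ^ E) (pow_ne_zero _ hqr) with ha
    have hga : g₀ = a ^ 2 := by
      apply Units.ext
      rw [hg₀, Units.val_pow_eq_pow_val, ha, Units.val_mk0, ← pow_mul, mul_comm]
    have hcard : a ^ (r - 1) = 1 := by
      have := pow_card_eq_one (G := (ZMod r)ˣ) (x := a)
      rwa [ZMod.card_units] at this
    have h2 : 2 * ((r - 1) / 2) = r - 1 := by omega
    rw [hga, ← pow_mul, h2, hcard]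
  have hodd : Odd n₁ := by
    have h1 : Odd ((r - 1) / 2) := by
      rw [Nat.odd_iff]
      omega
    exact Odd.of_dvd_nat h1 hn₁dvd
  have hn₁r : n₁ ∣ r - 1 := dvd_trans hn₁dvd (Nat.div_dvd_of_dvd (by omega))
  have hnN : Nat.Coprime n₁ N := by
    apply Nat.coprime_of_dvd
    intro t ht htn htN
    have ht2 : t ≠ 2 := by
      rintro rfl
      exact (Nat.not_even_iff_odd.mpr hodd) (even_iff_two_dvd.mpr htn)
    exact hrN' t ht ht2 htN (dvd_trans htn hn₁r)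
  have hn4 : 4 ≤ n₁ := by
    by_contra hlt
    have hle : n₁ ≤ 3 := by omega
    have h1 : g₀ ^ n₁ = 1 := pow_orderOf_eq_one g₀
    have h2 : ((q ^ (2 * E * n₁) : ℕ) : ZMod r) = ((1 : ℕ) : ZMod r) := by
      have := congrArg (fun u : (ZMod r)ˣ => (u : ZMod r)) h1
      simp only [Units.val_pow_eq_pow_val, Units.val_one, hg₀] at this
      push_cast
      rw [pow_mul]
      exact this
    have h3 : q ^ (2 * E * n₁) ≡ 1 [MOD r] := (ZMod.natCast_eq_natCast_iff _ _ _).mp h2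
    have h4 : 1 < q ^ (2 * E * n₁) := Nat.one_lt_pow (by positivity) (by omega)
    have h5 : r ∣ q ^ (2 * E * n₁) - 1 := (Nat.modEq_iff_dvd' h4.le).mp h3.symm
    have h6 : r ≤ q ^ (2 * E * n₁) - 1 := Nat.le_of_dvd (by omega) h5
    have h7 : q ^ (2 * E * n₁) ≤ q ^ (6 * E) := Nat.pow_le_pow_right (by omega) (by nlinarith)
    omega
  have hcard : 4 ≤ Nat.card (Subgroup.zpowers g₀) := by
    rw [Nat.card_zpowers]
    exact hn4
  have hconst := h42_finite_const r hK (Subgroup.zpowers g₀) hcard (h42_F N r m)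
    (h42_F_inv h hrN hEN g₀ hg₀)
    (h42_F_rel h hN (by omega) hrN hr2 hEN g₀ hg₀ hodd hnN)
  rw [h42_F_eq h hrN hd1 (Units.mk0 (d : ZMod r) hdr) rfl, hconst, h42_F_one h]

end Level

section Main

variable {K : Type*} [Field K]

/-- **Abelian congruence subgroup property for `Γ₀(N)[1/q]`, matrix-free form.**
A symbol `m c d` on bottom rows of `Γ₀(N)` that is additive (`hmul`), vanishes on `(c, 1)`
and is invariant under `c ↦ q^(2E) c` and `d ↦ q^(2E) d` vanishes whenever `d ≡ 1 mod N`. -/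
@[nolint unusedArguments]
theorem h42_csp_abstract (p : ℕ) [Fact p.Prime] [CharP K p] (hp2 : p ≠ 2)
    (N q E : ℕ) (hN : 0 < N) (hq : 2 ≤ q) (_hqN : Nat.Coprime q N) (hE : 0 < E)
    (hEN : q ^ E ≡ 1 [MOD N]) (m : ℤ → ℤ → K)
    (hmul : ∀ c d a' b' c' d' : ℤ, (N : ℤ) ∣ c → IsCoprime c d → (N : ℤ) ∣ c' →
      a' * d' - b' * c' = 1 → m (c * a' + d * c') (c * b' + d * d') = m c d + m c' d')
    (hone : ∀ c : ℤ, (N : ℤ) ∣ c → m c 1 = 0)
    (hQ4 : ∀ c d : ℤ, (N : ℤ) ∣ c → IsCoprime ((q : ℤ) ^ (2 * E) * c) d →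
      m ((q : ℤ) ^ (2 * E) * c) d = m c d)
    (hQ3 : ∀ c d : ℤ, (N : ℤ) ∣ c → IsCoprime c ((q : ℤ) ^ (2 * E) * d) →
      m c ((q : ℤ) ^ (2 * E) * d) = m c d) :
    ∀ c d : ℤ, (N : ℤ) ∣ c → IsCoprime c d → d ≡ 1 [ZMOD N] → m c d = 0 := by
  have hp : Nat.Prime p := Fact.out
  have h : h42_IsSym N q E m := ⟨hmul, hone, hQ4, hQ3⟩
  -- the case `c ≠ 0`
  have main : ∀ c d : ℤ, c ≠ 0 → (N : ℤ) ∣ c → IsCoprime c d → d ≡ 1 [ZMOD N] → m c d = 0 := by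
    intro c d hc0 hc hcd hd1
    -- a large prime `d' ≡ d mod c`
    have hcn : c.natAbs ≠ 0 := Int.natAbs_ne_zero.mpr hc0
    have hcd' : IsCoprime d (c.natAbs : ℤ) := by
      rcases Int.natAbs_eq c with h1 | h1
      · rw [← h1]
        exact hcd.symm
      · have : (c.natAbs : ℤ) = -c := by omega
        rw [this]
        exact hcd.symm.neg_right
    obtain ⟨d', hd'B, hd'p, hd'c⟩ := Nat.forall_exists_prime_gt_and_zmodEq (4 * N * p) hcn hcd'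
    have hd'c' : (d' : ℤ) ≡ d [ZMOD c] := by
      rw [Int.modEq_iff_dvd] at hd'c ⊢
      exact Int.natAbs_dvd.mp hd'c
    have e1 : m c d' = m c d := h42_sym_P1' h hc hcd hd'c'
    have hcd'' : IsCoprime c (d' : ℤ) := (h42_isCoprime_of_modEq hd'c' hcd.symm).symm
    have hd'1 : (d' : ℤ) ≡ 1 [ZMOD N] := (Int.ModEq.of_dvd hc hd'c').trans hd1
    obtain ⟨c₀, hc₀⟩ := hc
    have hc₀d : IsCoprime c₀ (d' : ℤ) := by
      rw [hc₀] at hcd''
      exact IsCoprime.of_mul_left_right hcd''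
    -- the prime `r`
    have hNp : N * p ≠ 0 := Nat.mul_ne_zero hN.ne' hp.ne_zero
    set M := ordCompl[2] (N * p) with hM
    have hMpos : 0 < M := Nat.ordCompl_pos 2 hNp
    have hModd : ¬ 2 ∣ M := Nat.not_dvd_ordCompl Nat.prime_two hNp
    have hMle : M ≤ N * p := Nat.ordCompl_le _ _
    have hM2 : Nat.Coprime 2 M := (Nat.Prime.coprime_iff_not_dvd Nat.prime_two).mpr hModd
    have h4M : Nat.Coprime 4 M := by
      have : Nat.Coprime (2 ^ 2) M := Nat.Coprime.pow_left 2 hM2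
      simpa using this
    have hN1 : 1 ≤ N := hN
    have hp1 : 2 ≤ p := hp.two_le
    have hNp1 : N ≤ N * p := Nat.le_mul_of_pos_right N (by omega)
    have h4N : 4 * N ≤ 4 * N * p := Nat.le_mul_of_pos_right _ (by omega)
    have hNp4 : N * p ≤ 4 * N * p := by nlinarith
    have h4d : Nat.Coprime 4 d' := by
      rw [Nat.coprime_comm, hd'p.coprime_iff_not_dvd]
      exact Nat.not_dvd_of_pos_of_lt (by norm_num) (by omega)
    have hMd : Nat.Coprime M d' := by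
      rw [Nat.coprime_comm, hd'p.coprime_iff_not_dvd]
      exact Nat.not_dvd_of_pos_of_lt hMpos (by omega)
    have c1 : IsCoprime (3 : ℤ) ((4 : ℕ) : ℤ) := by
      have : Nat.Coprime 3 4 := by decide
      exact_mod_cast Nat.isCoprime_iff_coprime.mpr this
    have c2 : IsCoprime (2 : ℤ) (M : ℤ) := by
      exact_mod_cast Nat.isCoprime_iff_coprime.mpr hM2
    obtain ⟨r, hrB, hr, hr4, hrM, hrd⟩ := h42_dirichlet3 4 M d' (by norm_num) hMpos.ne'
      hd'p.ne_zero h4M h4d hMd 3 2 c₀ c1 c2 hc₀d (N * q ^ (6 * E))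
    have : Fact r.Prime := ⟨hr⟩
    -- odd primes dividing `N p` do not divide `r - 1`
    have hodd : ∀ t : ℕ, t.Prime → t ≠ 2 → t ∣ N * p → ¬ t ∣ r - 1 := by
      intro t ht ht2 htNp htr
      have h2t : ¬ 2 ∣ t := by
        intro h2
        exact ht2 ((Nat.prime_dvd_prime_iff_eq Nat.prime_two ht).mp h2).symm
      have htM : t ∣ M := Nat.dvd_ordCompl_of_dvd_not_dvd htNp h2t
      have h1 : (r : ℤ) ≡ 2 [ZMOD t] := Int.ModEq.of_dvd (Int.natCast_dvd_natCast.mpr htM) hrM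
      have h2 : (t : ℤ) ∣ (r : ℤ) - 1 := by
        have : ((r - 1 : ℕ) : ℤ) = (r : ℤ) - 1 := by
          rw [Nat.cast_sub hr.one_le]
          simp
        rw [← this]
        exact Int.natCast_dvd_natCast.mpr htr
      have h3 : (t : ℤ) ∣ 2 - (r : ℤ) := Int.modEq_iff_dvd.mp h1
      have h4 : (t : ℤ) ∣ 1 := by
        have := dvd_add h2 h3
        have e : (r : ℤ) - 1 + (2 - (r : ℤ)) = 1 := by ring
        rwa [e] at this
      have h5 : t ∣ 1 := Int.natCast_dvd_natCast.mp (by simpa using h4)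
      exact ht.one_lt.ne' (Nat.dvd_one.mp h5)
    have hK : ((r - 1 : ℕ) : K) ≠ 0 := by
      intro h0
      have hdvd : p ∣ r - 1 := (CharP.cast_eq_zero_iff K p (r - 1)).mp h0
      exact hodd p hp hp2 (dvd_mul_left p N) hdvd
    have hr4' : r % 4 = 3 := by
      have h1 : (r : ℤ) % 4 = 3 % 4 := hr4
      omega
    -- move to level `N r`
    obtain ⟨k, hk⟩ := Int.modEq_iff_dvd.mp hrd
    have e2 : m ((N : ℤ) * r) d' = m c d' := by
      have := h42_sym_P2 h (c := c) (d := (d' : ℤ)) ⟨c₀, hc₀⟩ hcd'' (-k)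
      rw [← this]
      congr 1
      rw [hc₀]
      linear_combination (-(N : ℤ)) * hk
    have hdr : (((d' : ℕ) : ℤ) : ZMod r) ≠ 0 := by
      intro h0
      have h1 : (r : ℤ) ∣ (d' : ℤ) := (ZMod.intCast_zmod_eq_zero_iff_dvd _ r).mp h0
      have h2 : r ∣ d' := Int.natCast_dvd_natCast.mp h1
      have h3 : r = d' := (Nat.prime_dvd_prime_iff_eq hr hd'p).mp h2
      have h4 : (d' : ℤ) ∣ c₀ := by
        have h5 : (d' : ℤ) ∣ c₀ - r := ⟨k, hk⟩
        have h6 : (d' : ℤ) ∣ (r : ℤ) := by rw [h3]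
        have := dvd_add h5 h6
        simpa using this
      have h7 : IsUnit (d' : ℤ) := hc₀d.isUnit_of_dvd' h4 dvd_rfl
      have h8 : (d' : ℤ).natAbs = 1 := Int.isUnit_iff_natAbs_eq.mp h7
      have h9 : d' = 1 := by simpa using h8
      exact hd'p.one_lt.ne' h9
    have e3 : m ((N : ℤ) * r) d' = 0 :=
      h42_level_zero h hN hq hE hEN hK hr4' hrB
        (fun t ht ht2 htN => hodd t ht ht2 (dvd_mul_of_dvd_left htN p)) hd'1 hdr
    rw [← e1, ← e2, e3]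
  -- the general case
  intro c d hc hcd hd1
  by_cases hc0 : c = 0
  · subst hc0
    have hdu : IsUnit d := isCoprime_zero_left.mp hcd
    have hd0 : d ≠ 0 := hdu.ne_zero
    have e := h42_sym_P2 h (c := (0 : ℤ)) (d := d) (dvd_zero _) hcd 1
    rw [← e]
    have hcop : IsCoprime ((0 : ℤ) + N * 1 * d) d := by
      obtain ⟨u, hu⟩ := hdu
      exact ⟨0, ((u⁻¹ : ℤˣ) : ℤ), by rw [← hu]; simp⟩
    refine main _ d ?_ ⟨1 * d, by ring⟩ hcop hd1
    simp only [zero_add, mul_one]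
    exact mul_ne_zero (by exact_mod_cast hN.ne') hd0
  · exact main c d hc0 hc hcd hd1

end Main

end Fermat.Agent.S41
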