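import Mathlib

/-!
# S41 / M4 (i)+(ii): symbol calculus for characters of `Γ₀(I) ⊆ SL₂(R)` killing unipotents

`R` is an arbitrary commutative ring, `I` an ideal, `G = {g ∈ SL₂(R) | g₁₀ ∈ I}`.
A "character" is a function `χ : SL₂(R) → A` which is additive on `G`, kills the upper unipotents
`U x` and the lower unipotents `L y` (`y ∈ I`).  Then `χ g` only depends on the bottom row of `g`;
this gives the symbol `sy71_m χ c d` with the rules P1–P4 and the level-mixing key relation of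
report #1066.
-/

namespace Fermat.Agent.S41

open Matrix MatrixGroups

variable {R : Type*} [CommRing R]

/-- upper unipotent `(1 x; 0 1)` -/
def sy71_U (x : R) : SL(2, R) := ⟨!![1, x; 0, 1], by simp [Matrix.det_fin_two_of]⟩

/-- lower unipotent `(1 0; y 1)` -/
def sy71_L (y : R) : SL(2, R) := ⟨!![1, 0; y, 1], by simp [Matrix.det_fin_two_of]⟩

/-- torus element `diag(u, u⁻¹)` -/
def sy71_T (u : Rˣ) : SL(2, R) :=
  ⟨!![(u : R), 0; 0, ((u⁻¹ : Rˣ) : R)], by simp [Matrix.det_fin_two_of]⟩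

/-- matrix with prescribed entries -/
def sy71_mk (a b c d : R) (h : a * d - b * c = 1) : SL(2, R) :=
  ⟨!![a, b; c, d], by rw [Matrix.det_fin_two_of]; exact h⟩

theorem sy71_det (g : SL(2, R)) : g 0 0 * g 1 1 - g 0 1 * g 1 0 = 1 := by
  have := g.det_coe
  rwa [Matrix.det_fin_two] at this

theorem sy71_mul_apply (g h : SL(2, R)) (i j : Fin 2) :
    (g * h) i j = g i 0 * h 0 j + g i 1 * h 1 j := by
  rw [Matrix.SpecialLinearGroup.coe_mul, Matrix.mul_apply, Fin.sum_univ_two]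

theorem sy71_inv_apply (g : SL(2, R)) :
    (g⁻¹) 0 0 = g 1 1 ∧ (g⁻¹) 0 1 = -g 0 1 ∧ (g⁻¹) 1 0 = -g 1 0 ∧ (g⁻¹) 1 1 = g 0 0 := by
  rw [Matrix.SpecialLinearGroup.coe_inv, Matrix.adjugate_fin_two]
  simp

theorem sy71_isCoprime_row (g : SL(2, R)) : IsCoprime (g 1 0) (g 1 1) :=
  ⟨-g 0 1, g 0 0, by linear_combination sy71_det g⟩

theorem sy71_ext {g h : SL(2, R)} (h00 : g 0 0 = h 0 0) (h01 : g 0 1 = h 0 1)
    (h10 : g 1 0 = h 1 0) (h11 : g 1 1 = h 1 1) : g = h := by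
  apply Subtype.ext
  ext i j
  fin_cases i <;> fin_cases j <;> assumption

@[simp] theorem sy71_U_apply (x : R) :
    (sy71_U x) 0 0 = 1 ∧ (sy71_U x) 0 1 = x ∧ (sy71_U x) 1 0 = 0 ∧ (sy71_U x) 1 1 = 1 := by
  simp [sy71_U]

@[simp] theorem sy71_L_apply (y : R) :
    (sy71_L y) 0 0 = 1 ∧ (sy71_L y) 0 1 = 0 ∧ (sy71_L y) 1 0 = y ∧ (sy71_L y) 1 1 = 1 := by
  simp [sy71_L]

@[simp] theorem sy71_T_apply (u : Rˣ) :
    (sy71_T u) 0 0 = u ∧ (sy71_T u) 0 1 = 0 ∧ (sy71_T u) 1 0 = 0 ∧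
      (sy71_T u) 1 1 = ((u⁻¹ : Rˣ) : R) := by
  simp [sy71_T]

@[simp] theorem sy71_mk_apply (a b c d : R) (h : a * d - b * c = 1) :
    (sy71_mk a b c d h) 0 0 = a ∧ (sy71_mk a b c d h) 0 1 = b ∧ (sy71_mk a b c d h) 1 0 = c ∧
      (sy71_mk a b c d h) 1 1 = d := by
  simp [sy71_mk]

/-- `χ` is additive on `G = {g | g 1 0 ∈ I}` and kills `U x` (all `x`) and `L y` (`y ∈ I`). -/
def sy71_IsChar (I : Ideal R) {A : Type*} [AddCommGroup A] (χ : SL(2, R) → A) : Prop :=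
  (∀ g h : SL(2, R), g 1 0 ∈ I → h 1 0 ∈ I → χ (g * h) = χ g + χ h) ∧
    (∀ x : R, χ (sy71_U x) = 0) ∧ (∀ y ∈ I, χ (sy71_L y) = 0)

variable {A : Type*} [AddCommGroup A] {I : Ideal R} {χ : SL(2, R) → A}

theorem sy71_IsChar.map_mul (hχ : sy71_IsChar I χ) (g h : SL(2, R)) (hg : g 1 0 ∈ I)
    (hh : h 1 0 ∈ I) : χ (g * h) = χ g + χ h := hχ.1 g h hg hh

theorem sy71_IsChar.map_U (hχ : sy71_IsChar I χ) (x : R) : χ (sy71_U x) = 0 := hχ.2.1 x

theorem sy71_IsChar.map_L (hχ : sy71_IsChar I χ) (y : R) (hy : y ∈ I) : χ (sy71_L y) = 0 :=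
  hχ.2.2 y hy

theorem sy71_one_mem (I : Ideal R) : (1 : SL(2, R)) 1 0 ∈ I := by simp

theorem sy71_mul_mem {g h : SL(2, R)} (hg : g 1 0 ∈ I) (hh : h 1 0 ∈ I) : (g * h) 1 0 ∈ I := by
  rw [sy71_mul_apply]
  exact I.add_mem (I.mul_mem_right _ hg) (I.mul_mem_left _ hh)

theorem sy71_inv_mem {g : SL(2, R)} (hg : g 1 0 ∈ I) : (g⁻¹) 1 0 ∈ I := by
  rw [(sy71_inv_apply g).2.2.1]
  exact I.neg_mem hg

theorem sy71_U_mem (I : Ideal R) (x : R) : (sy71_U x) 1 0 ∈ I := by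
  rw [(sy71_U_apply x).2.2.1]; exact I.zero_mem

theorem sy71_L_mem {y : R} (hy : y ∈ I) : (sy71_L y) 1 0 ∈ I := by
  rw [(sy71_L_apply y).2.2.1]; exact hy

theorem sy71_T_mem (I : Ideal R) (u : Rˣ) : (sy71_T u) 1 0 ∈ I := by
  rw [(sy71_T_apply u).2.2.1]; exact I.zero_mem

theorem sy71_IsChar.map_one (hχ : sy71_IsChar I χ) : χ 1 = 0 := by
  have h := hχ.map_mul 1 1 (sy71_one_mem I) (sy71_one_mem I)
  rw [mul_one] at h
  exact left_eq_add.mp h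

theorem sy71_IsChar.map_inv (hχ : sy71_IsChar I χ) (g : SL(2, R)) (hg : g 1 0 ∈ I) :
    χ g⁻¹ = -χ g := by
  have h := hχ.map_mul g g⁻¹ hg (sy71_inv_mem hg)
  rw [mul_inv_cancel, hχ.map_one] at h
  exact eq_neg_of_add_eq_zero_right h.symm

/-- `χ g` only depends on the bottom row of `g`. -/
theorem sy71_IsChar.row (hχ : sy71_IsChar I χ) (g g' : SL(2, R)) (hg : g 1 0 ∈ I)
    (h0 : g' 1 0 = g 1 0) (h1 : g' 1 1 = g 1 1) : χ g' = χ g := by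
  have key : g' = sy71_U (g' 0 1 * g 0 0 - g' 0 0 * g 0 1) * g := by
    have d := sy71_det g
    have d' := sy71_det g'
    rw [h0, h1] at d'
    apply sy71_ext
    · rw [sy71_mul_apply, (sy71_U_apply _).1, (sy71_U_apply _).2.1]
      linear_combination (-(g' 0 0)) * d + (g 0 0) * d'
    · rw [sy71_mul_apply, (sy71_U_apply _).1, (sy71_U_apply _).2.1]
      linear_combination (-(g' 0 1)) * d + (g 0 1) * d'
    · rw [sy71_mul_apply, (sy71_U_apply _).2.2.1, (sy71_U_apply _).2.2.2, h0]; ring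
    · rw [sy71_mul_apply, (sy71_U_apply _).2.2.1, (sy71_U_apply _).2.2.2, h1]; ring
  rw [key, hχ.map_mul _ _ (sy71_U_mem I _) hg, hχ.map_U, zero_add]

/-- the symbol: `χ` of any matrix with bottom row `(c, d)` (junk value `0` if there is none). -/
noncomputable def sy71_m (χ : SL(2, R) → A) (c d : R) : A :=
  open Classical in
  if h : ∃ g : SL(2, R), g 1 0 = c ∧ g 1 1 = d then χ h.choose else 0

theorem sy71_m_eq (hχ : sy71_IsChar I χ) (g : SL(2, R)) (hg : g 1 0 ∈ I) :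
    sy71_m χ (g 1 0) (g 1 1) = χ g := by
  have h : ∃ g' : SL(2, R), g' 1 0 = g 1 0 ∧ g' 1 1 = g 1 1 := ⟨g, rfl, rfl⟩
  rw [sy71_m, dif_pos h]
  exact hχ.row g _ hg h.choose_spec.1 h.choose_spec.2

theorem sy71_m_eq' (hχ : sy71_IsChar I χ) (g : SL(2, R)) {c d : R} (hc : c ∈ I)
    (h0 : g 1 0 = c) (h1 : g 1 1 = d) : sy71_m χ c d = χ g := by
  subst h0 h1
  exact sy71_m_eq hχ g hc

theorem sy71_exists_row {c d : R} (h : IsCoprime c d) :
    ∃ g : SL(2, R), g 1 0 = c ∧ g 1 1 = d := by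
  obtain ⟨a, b, hab⟩ := h
  exact ⟨sy71_mk b (-a) c d (by linear_combination hab), (sy71_mk_apply _ _ _ _ _).2.2.1,
    (sy71_mk_apply _ _ _ _ _).2.2.2⟩

/-- P1: `m(c, d + c x) = m(c, d)`. -/
theorem sy71_m_add_mul (hχ : sy71_IsChar I χ) {c d : R} (hc : c ∈ I) (h : IsCoprime c d)
    (x : R) : sy71_m χ c (d + c * x) = sy71_m χ c d := by
  obtain ⟨g, h0, h1⟩ := sy71_exists_row h
  have hg : g 1 0 ∈ I := h0 ▸ hc
  rw [sy71_m_eq' hχ g hc h0 h1,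
    sy71_m_eq' hχ (g * sy71_U x) hc
      (by rw [sy71_mul_apply, (sy71_U_apply x).1, (sy71_U_apply x).2.2.1, h0]; ring)
      (by rw [sy71_mul_apply, (sy71_U_apply x).2.1, (sy71_U_apply x).2.2.2, h0, h1]; ring),
    hχ.map_mul _ _ hg (sy71_U_mem I x), hχ.map_U, add_zero]

/-- P2: `m(c + y d, d) = m(c, d)` for `y ∈ I`. -/
theorem sy71_m_add_mul_left (hχ : sy71_IsChar I χ) {c d : R} (hc : c ∈ I) (h : IsCoprime c d)
    {y : R} (hy : y ∈ I) : sy71_m χ (c + y * d) d = sy71_m χ c d := by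
  obtain ⟨g, h0, h1⟩ := sy71_exists_row h
  have hg : g 1 0 ∈ I := h0 ▸ hc
  rw [sy71_m_eq' hχ g hc h0 h1,
    sy71_m_eq' hχ (g * sy71_L y) (I.add_mem hc (I.mul_mem_right _ hy))
      (by rw [sy71_mul_apply, (sy71_L_apply y).1, (sy71_L_apply y).2.2.1, h0, h1]; ring)
      (by rw [sy71_mul_apply, (sy71_L_apply y).2.1, (sy71_L_apply y).2.2.2, h1]; ring),
    hχ.map_mul _ _ hg (sy71_L_mem hy), hχ.map_L y hy, add_zero]

theorem sy71_T_inv (u : Rˣ) : sy71_T u⁻¹ = (sy71_T u)⁻¹ := by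
  obtain ⟨i00, i01, i10, i11⟩ := sy71_inv_apply (sy71_T u)
  apply sy71_ext
  · rw [i00, (sy71_T_apply _).1, (sy71_T_apply _).2.2.2]
  · rw [i01, (sy71_T_apply _).2.1, (sy71_T_apply _).2.1, neg_zero]
  · rw [i10, (sy71_T_apply _).2.2.1, (sy71_T_apply _).2.2.1, neg_zero]
  · rw [i11, (sy71_T_apply _).1, (sy71_T_apply _).2.2.2, inv_inv]

/-- P4: `m(t² c, d) = m(c, d)` for units `t`. -/
theorem sy71_m_sq_mul (hχ : sy71_IsChar I χ) {c d : R} (hc : c ∈ I) (h : IsCoprime c d)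
    (t : Rˣ) : sy71_m χ ((t : R) ^ 2 * c) d = sy71_m χ c d := by
  obtain ⟨g, h0, h1⟩ := sy71_exists_row h
  have hg : g 1 0 ∈ I := h0 ▸ hc
  have hT : (sy71_T t⁻¹ * g) 1 0 ∈ I := sy71_mul_mem (sy71_T_mem I _) hg
  have ht : (t : R) * ((t⁻¹ : Rˣ) : R) = 1 := by simp
  rw [sy71_m_eq' hχ g hc h0 h1,
    sy71_m_eq' hχ (sy71_T t⁻¹ * g * sy71_T t) (I.mul_mem_left _ hc)
      (by
        rw [sy71_mul_apply, sy71_mul_apply, sy71_mul_apply, (sy71_T_apply t).1,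
          (sy71_T_apply t).2.2.1, (sy71_T_apply _).2.2.1, (sy71_T_apply _).2.2.2, inv_inv, h0]
        ring)
      (by
        rw [sy71_mul_apply, sy71_mul_apply, sy71_mul_apply, (sy71_T_apply t).2.1,
          (sy71_T_apply t).2.2.2, (sy71_T_apply _).2.2.1, (sy71_T_apply _).2.2.2, inv_inv, h1]
        linear_combination d * ht),
    hχ.map_mul _ _ hT (sy71_T_mem I t), hχ.map_mul _ _ (sy71_T_mem I _) hg, sy71_T_inv,
    hχ.map_inv _ (sy71_T_mem I t)]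
  abel

/-- Whitehead: `diag(u, u⁻¹) = L(u⁻¹ - 1) U(1) L(u - 1) U(-u⁻¹)`. -/
theorem sy71_T_eq (u : Rˣ) :
    sy71_T u = sy71_L (((u⁻¹ : Rˣ) : R) - 1) * sy71_U 1 * sy71_L ((u : R) - 1) *
      sy71_U (-((u⁻¹ : Rˣ) : R)) := by
  have hu : (u : R) * ((u⁻¹ : Rˣ) : R) = 1 := by simp
  apply sy71_ext
  · simp only [sy71_mul_apply, sy71_U_apply, sy71_L_apply, sy71_T_apply]; ring
  · simp only [sy71_mul_apply, sy71_U_apply, sy71_L_apply, sy71_T_apply]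
    linear_combination hu
  · simp only [sy71_mul_apply, sy71_U_apply, sy71_L_apply, sy71_T_apply]
    linear_combination -hu
  · simp only [sy71_mul_apply, sy71_U_apply, sy71_L_apply, sy71_T_apply]
    linear_combination ((u⁻¹ : Rˣ) : R) * hu

theorem sy71_inv_sub_one_mem {u : Rˣ} (hu : (u : R) - 1 ∈ I) : ((u⁻¹ : Rˣ) : R) - 1 ∈ I := by
  have h : ((u⁻¹ : Rˣ) : R) - 1 = -((u⁻¹ : Rˣ) : R) * ((u : R) - 1) := by
    have hu' : ((u⁻¹ : Rˣ) : R) * (u : R) = 1 := by simp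
    linear_combination hu'
  rw [h]
  exact I.mul_mem_left _ hu

/-- `χ` kills `diag(u, u⁻¹)` for units `u ≡ 1 mod I`. -/
theorem sy71_IsChar.map_T (hχ : sy71_IsChar I χ) {u : Rˣ} (hu : (u : R) - 1 ∈ I) :
    χ (sy71_T u) = 0 := by
  have h1 := sy71_L_mem (sy71_inv_sub_one_mem hu)
  have h2 := sy71_mul_mem h1 (sy71_U_mem I 1)
  have h3 := sy71_mul_mem h2 (sy71_L_mem hu)
  rw [sy71_T_eq, hχ.map_mul _ _ h3 (sy71_U_mem I _), hχ.map_mul _ _ h2 (sy71_L_mem hu),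
    hχ.map_mul _ _ h1 (sy71_U_mem I 1), hχ.map_U, hχ.map_U, hχ.map_L _ hu,
    hχ.map_L _ (sy71_inv_sub_one_mem hu)]
  simp

/-- torus rule: `m(c u, d u⁻¹) = m(c, d)` for units `u ≡ 1 mod I`. -/
theorem sy71_m_torus (hχ : sy71_IsChar I χ) {c d : R} (hc : c ∈ I) (h : IsCoprime c d)
    {u : Rˣ} (hu : (u : R) - 1 ∈ I) :
    sy71_m χ (c * (u : R)) (d * ((u⁻¹ : Rˣ) : R)) = sy71_m χ c d := by
  obtain ⟨g, h0, h1⟩ := sy71_exists_row h
  have hg : g 1 0 ∈ I := h0 ▸ hc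
  rw [sy71_m_eq' hχ g hc h0 h1,
    sy71_m_eq' hχ (g * sy71_T u) (I.mul_mem_right _ hc)
      (by rw [sy71_mul_apply, (sy71_T_apply u).1, (sy71_T_apply u).2.2.1, h0]; ring)
      (by rw [sy71_mul_apply, (sy71_T_apply u).2.1, (sy71_T_apply u).2.2.2, h1]; ring),
    hχ.map_mul _ _ hg (sy71_T_mem I u), hχ.map_T hu, add_zero]

/-- P3: `m(c, t² d) = m(c, d)` for units `t` with `t² ≡ 1 mod I`. -/
theorem sy71_m_mul_sq (hχ : sy71_IsChar I χ) {c d : R} (hc : c ∈ I) (h : IsCoprime c d)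
    (t : Rˣ) (ht : (t : R) ^ 2 - 1 ∈ I) : sy71_m χ c ((t : R) ^ 2 * d) = sy71_m χ c d := by
  have hu : (((t ^ 2)⁻¹ : Rˣ) : R) - 1 ∈ I := by
    apply sy71_inv_sub_one_mem
    simpa using ht
  have h1 := sy71_m_torus hχ hc h hu
  have hcop : IsCoprime (c * (((t ^ 2)⁻¹ : Rˣ) : R)) (d * ((((t ^ 2)⁻¹)⁻¹ : Rˣ) : R)) := by
    exact (isCoprime_mul_unit_right_left (Units.isUnit _) _ _).mpr
      ((isCoprime_mul_unit_right_right (Units.isUnit _) _ _).mpr h)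
  have h2 := sy71_m_sq_mul hχ (I.mul_mem_right _ hc) hcop t
  have e1 : (t : R) ^ 2 * (c * (((t ^ 2)⁻¹ : Rˣ) : R)) = c := by
    have : (t : R) ^ 2 * (((t ^ 2)⁻¹ : Rˣ) : R) = 1 := by
      rw [← Units.val_pow_eq_pow_val, ← Units.val_mul, mul_inv_cancel, Units.val_one]
    linear_combination c * this
  have e2 : d * ((((t ^ 2)⁻¹)⁻¹ : Rˣ) : R) = (t : R) ^ 2 * d := by
    rw [inv_inv, Units.val_pow_eq_pow_val]; ring
  rw [e1, e2] at h2
  rw [h2, ← e2, h1]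

/-- `m(c, 1) = 0` for `c ∈ I`. -/
theorem sy71_m_one (hχ : sy71_IsChar I χ) {c : R} (hc : c ∈ I) : sy71_m χ c 1 = 0 := by
  rw [sy71_m_eq' hχ (sy71_L c) hc (sy71_L_apply c).2.2.1 (sy71_L_apply c).2.2.2, hχ.map_L c hc]

/-- KEY RELATION (#1066 (2)), general form: for `c ∈ I`, rows `(c s, D)` and `(c v, w)` with
`s w = 1 + D v`, any `d'` with `d' w ≡ D mod c`, and the invariance `m(c v, w) = m(c, w)`
(P4 when `v` is a square unit, or a hypothesis (Q4) of the consumer):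
`m(c s, D) = m(c, d') + m(c, w)`. -/
theorem sy71_m_key_of (hχ : sy71_IsChar I χ) {c : R} (hc : c ∈ I) (s D w d' v : R)
    (hB : IsCoprime (c * s) D) (hY : IsCoprime (c * v) w)
    (hsw : s * w = 1 + D * v) (hd' : ∃ k : R, d' * w - D = c * k)
    (hv : sy71_m χ (c * v) w = sy71_m χ c w) :
    sy71_m χ (c * s) D = sy71_m χ c d' + sy71_m χ c w := by
  obtain ⟨B, hB0, hB1⟩ := sy71_exists_row hB
  obtain ⟨Y, hY0, hY1⟩ := sy71_exists_row hY
  obtain ⟨k, hk⟩ := hd'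
  have hBm : B 1 0 ∈ I := hB0 ▸ I.mul_mem_right _ hc
  have hYm : Y 1 0 ∈ I := hY0 ▸ I.mul_mem_right _ hc
  obtain ⟨i00, i01, i10, i11⟩ := sy71_inv_apply Y
  have hdY := sy71_det Y
  rw [hY0, hY1] at hdY
  -- bottom row of `B * Y⁻¹`
  have r0 : (B * Y⁻¹) 1 0 = c := by
    rw [sy71_mul_apply, i00, i10, hB0, hB1, hY0, hY1]
    linear_combination c * hsw
  have r1 : (B * Y⁻¹) 1 1 = D * Y 0 0 - c * s * Y 0 1 := by
    rw [sy71_mul_apply, i01, i11, hB0, hB1]; ring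
  have hBY : (B * Y⁻¹) 1 0 ∈ I := r0 ▸ hc
  have hcop : IsCoprime c (D * Y 0 0 - c * s * Y 0 1) := by
    have := sy71_isCoprime_row (B * Y⁻¹)
    rwa [r0, r1] at this
  -- `χ B = χ (B Y⁻¹) + χ Y`
  have e1 : χ B = χ (B * Y⁻¹) + χ Y := by
    rw [← hχ.map_mul _ _ hBY hYm, inv_mul_cancel_right]
  have e2 : sy71_m χ (c * s) D = χ B := sy71_m_eq' hχ B (I.mul_mem_right _ hc) hB0 hB1
  have e3 : sy71_m χ c w = χ Y := by
    rw [← hv]
    exact sy71_m_eq' hχ Y (I.mul_mem_right _ hc) hY0 hY1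
  have e4 : sy71_m χ c (D * Y 0 0 - c * s * Y 0 1) = χ (B * Y⁻¹) :=
    sy71_m_eq' hχ (B * Y⁻¹) hc r0 r1
  have e5 : sy71_m χ c d' = sy71_m χ c (D * Y 0 0 - c * s * Y 0 1) := by
    rw [← sy71_m_add_mul hχ hc hcop (s * Y 0 1 + k * Y 0 0 - d' * Y 0 1 * v)]
    congr 1
    linear_combination (-d') * hdY + (Y 0 0) * hk
  rw [e2, e1, e5, e4, e3]

/-- KEY RELATION (#1066 (2)) with `v = t²` a square unit. -/
theorem sy71_m_key (hχ : sy71_IsChar I χ) {c : R} (hc : c ∈ I) (s D w d' : R) (t : Rˣ)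
    (hB : IsCoprime (c * s) D) (hY : IsCoprime (c * (t : R) ^ 2) w)
    (hsw : s * w = 1 + D * (t : R) ^ 2) (hd' : ∃ k : R, d' * w - D = c * k) :
    sy71_m χ (c * s) D = sy71_m χ c d' + sy71_m χ c w := by
  refine sy71_m_key_of hχ hc s D w d' _ hB hY hsw hd' ?_
  rw [mul_comm c, sy71_m_sq_mul hχ hc (IsCoprime.of_mul_left_left hY) t]

/-! ### Adapter: homomorphisms on the subgroup `G` -/

/-- `G = {g ∈ SL₂(R) | g 1 0 ∈ I}` as a subgroup. -/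
def sy71_G (I : Ideal R) : Subgroup SL(2, R) where
  carrier := {g | g 1 0 ∈ I}
  one_mem' := sy71_one_mem I
  mul_mem' := fun hg hh => sy71_mul_mem hg hh
  inv_mem' := fun hg => sy71_inv_mem hg

theorem sy71_mem_G {g : SL(2, R)} : g ∈ sy71_G I ↔ g 1 0 ∈ I := Iff.rfl

/-- extension by zero of an additive character of `G` -/
noncomputable def sy71_ext0 (φ : Additive (sy71_G I) →+ A) (g : SL(2, R)) : A :=
  open Classical in
  if h : g ∈ sy71_G I then φ (Additive.ofMul ⟨g, h⟩) else 0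

theorem sy71_ext0_apply (φ : Additive (sy71_G I) →+ A) (g : sy71_G I) :
    sy71_ext0 φ (g : SL(2, R)) = φ (Additive.ofMul g) := by
  rw [sy71_ext0, dif_pos g.2]

theorem sy71_isChar_ext0 (φ : Additive (sy71_G I) →+ A)
    (hU : ∀ x : R, φ (Additive.ofMul ⟨sy71_U x, sy71_U_mem I x⟩) = 0)
    (hL : ∀ (y : R) (hy : y ∈ I), φ (Additive.ofMul ⟨sy71_L y, sy71_L_mem hy⟩) = 0) :
    sy71_IsChar I (sy71_ext0 φ) := by
  refine ⟨fun g h hg hh => ?_, fun x => ?_, fun y hy => ?_⟩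
  · have hgh : g * h ∈ sy71_G I := sy71_mul_mem hg hh
    rw [sy71_ext0, dif_pos hgh, sy71_ext0, dif_pos (show g ∈ sy71_G I from hg), sy71_ext0,
      dif_pos (show h ∈ sy71_G I from hh), ← map_add]
    rfl
  · rw [sy71_ext0, dif_pos (show sy71_U x ∈ sy71_G I from sy71_U_mem I x)]
    exact hU x
  · rw [sy71_ext0, dif_pos (show sy71_L y ∈ sy71_G I from sy71_L_mem hy)]
    exact hL y hy

end Fermat.Agent.S41
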