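import Mathlib
import Fermat.Agent.S41.Symbol71
import Fermat.Agent.S41.CSPCore

/-!
# S41 / M4.4: glue between the symbol layer (`Symbol71`) and the matrix-free core (`CSPCore`)

* `gl71_csp_int`   : elementwise integer form (G1): `χ : SL(2,ℤ) → K` additive on `Γ₀(N)`, killing
  `U x`, `L (N y)`, with the invariances (Q3), (Q4)  ⟹  `χ g = 0` whenever `g₁₁ ≡ 1 mod N`.
* `gl71_csp_gamma0`: the same for `φ : Additive (Gamma0 N) →+ K`.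
* `gl71_csp_rat`   : wrapper (G2) for a subgroup `Δ ≤ SL(2,ℚ)` containing `Γ₀(N)`, `U(a/q^k)`,
  `L(N a/q^k)` and a function `χ` additive on `Δ` killing those unipotents.
-/

namespace Fermat.Agent.S41

open Matrix MatrixGroups

/-- two matrices with the same bottom row differ by an upper unipotent on the left -/
theorem gl71_eq_U_mul {R : Type*} [CommRing R] (g g' : SL(2, R)) (h0 : g' 1 0 = g 1 0)
    (h1 : g' 1 1 = g 1 1) : g' = sy71_U (g' 0 1 * g 0 0 - g' 0 0 * g 0 1) * g := by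
  have d := sy71_det g
  have d' := sy71_det g'
  rw [h0, h1] at d'
  apply sy71_ext
  · rw [sy71_mul_apply, (sy71_U_apply _).1, (sy71_U_apply _).2.1]
    linear_combination (-(g' 0 0)) * d + (g 0 0) * d'
  · rw [sy71_mul_apply, (sy71_U_apply _).1, (sy71_U_apply _).2.1]
    linear_combination (-(g' 0 1)) * d + (g 0 1) * d'
  · rw [sy71_mul_apply, (sy71_U_apply _).2.2.1, (sy71_U_apply _).2.2.2, h0]; ring
  · rw [sy71_mul_apply, (sy71_U_apply _).2.2.1, (sy71_U_apply _).2.2.2, h1]; ring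

theorem gl71_mem_span {N : ℕ} {c : ℤ} : c ∈ Ideal.span {(N : ℤ)} ↔ (N : ℤ) ∣ c :=
  Ideal.mem_span_singleton

/-- (G1), elementwise integer form. -/
theorem gl71_csp_int {K : Type*} [Field K] (p : ℕ) [Fact p.Prime] [CharP K p] (hp2 : p ≠ 2)
    (N q E : ℕ) (hN : 0 < N) (hq : 2 ≤ q) (hqN : Nat.Coprime q N) (hE : 0 < E)
    (hEN : q ^ E ≡ 1 [MOD N]) (χ : SL(2, ℤ) → K)
    (hχ : sy71_IsChar (Ideal.span {(N : ℤ)}) χ)
    (hQ4 : ∀ g g' : SL(2, ℤ), (N : ℤ) ∣ g 1 0 → g' 1 0 = (q : ℤ) ^ (2 * E) * g 1 0 →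
      g' 1 1 = g 1 1 → χ g' = χ g)
    (hQ3 : ∀ g g' : SL(2, ℤ), (N : ℤ) ∣ g 1 0 → g' 1 0 = g 1 0 →
      g' 1 1 = (q : ℤ) ^ (2 * E) * g 1 1 → χ g' = χ g) :
    ∀ g : SL(2, ℤ), (N : ℤ) ∣ g 1 0 → g 1 1 ≡ 1 [ZMOD N] → χ g = 0 := by
  have key := h42_csp_abstract p hp2 N q E hN hq hqN hE hEN (sy71_m χ) ?_ ?_ ?_ ?_
  · intro g hg hg1
    rw [← sy71_m_eq hχ g (gl71_mem_span.mpr hg)]
    exact key _ _ hg (sy71_isCoprime_row g) hg1
  · -- hmul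
    intro c d a' b' c' d' hc hcd hc' hdet
    obtain ⟨g, h0, h1⟩ := sy71_exists_row hcd
    have hg : g 1 0 ∈ Ideal.span {(N : ℤ)} := h0 ▸ gl71_mem_span.mpr hc
    have hh : (sy71_mk a' b' c' d' hdet) 1 0 ∈ Ideal.span {(N : ℤ)} := by
      rw [(sy71_mk_apply _ _ _ _ _).2.2.1]; exact gl71_mem_span.mpr hc'
    have e0 : (g * sy71_mk a' b' c' d' hdet) 1 0 = c * a' + d * c' := by
      rw [sy71_mul_apply, (sy71_mk_apply _ _ _ _ _).1, (sy71_mk_apply _ _ _ _ _).2.2.1, h0, h1]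
    have e1 : (g * sy71_mk a' b' c' d' hdet) 1 1 = c * b' + d * d' := by
      rw [sy71_mul_apply, (sy71_mk_apply _ _ _ _ _).2.1, (sy71_mk_apply _ _ _ _ _).2.2.2, h0, h1]
    rw [sy71_m_eq' hχ (g * sy71_mk a' b' c' d' hdet) (e0 ▸ sy71_mul_mem hg hh) e0 e1,
      hχ.map_mul _ _ hg hh, sy71_m_eq' hχ g (gl71_mem_span.mpr hc) h0 h1,
      sy71_m_eq' hχ (sy71_mk a' b' c' d' hdet) (gl71_mem_span.mpr hc')
        (sy71_mk_apply _ _ _ _ _).2.2.1 (sy71_mk_apply _ _ _ _ _).2.2.2]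
  · -- hone
    intro c hc
    exact sy71_m_one hχ (gl71_mem_span.mpr hc)
  · -- hQ4
    intro c d hc hcd
    have hcd' : IsCoprime c d := IsCoprime.of_mul_left_right hcd
    obtain ⟨g, h0, h1⟩ := sy71_exists_row hcd'
    obtain ⟨g', h0', h1'⟩ := sy71_exists_row hcd
    rw [sy71_m_eq' hχ g (gl71_mem_span.mpr hc) h0 h1,
      sy71_m_eq' hχ g' (gl71_mem_span.mpr (Dvd.dvd.mul_left hc _)) h0' h1']
    exact hQ4 g g' (h0 ▸ hc) (by rw [h0', h0]) (by rw [h1', h1])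
  · -- hQ3
    intro c d hc hcd
    have hcd' : IsCoprime c d := IsCoprime.of_mul_right_right hcd
    obtain ⟨g, h0, h1⟩ := sy71_exists_row hcd'
    obtain ⟨g', h0', h1'⟩ := sy71_exists_row hcd
    rw [sy71_m_eq' hχ g (gl71_mem_span.mpr hc) h0 h1,
      sy71_m_eq' hχ g' (gl71_mem_span.mpr hc) h0' h1']
    exact hQ3 g g' (h0 ▸ hc) (by rw [h0', h0]) (by rw [h1', h1])

/-! ### (G1) for an additive character of `Γ₀(N)` -/

theorem gl71_gamma0_iff {N : ℕ} {g : SL(2, ℤ)} :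
    g ∈ CongruenceSubgroup.Gamma0 N ↔ (N : ℤ) ∣ g 1 0 := by
  rw [CongruenceSubgroup.Gamma0_mem, ZMod.intCast_zmod_eq_zero_iff_dvd]

/-- (G1) for `φ : Additive (Gamma0 N) →+ K` killing the elements with bottom row `(0, 1)`
(the `U x`) and the elements with top row `(1, 0)` (the `L (N y)`), with (Q3), (Q4). -/
theorem gl71_csp_gamma0 {K : Type*} [Field K] (p : ℕ) [Fact p.Prime] [CharP K p] (hp2 : p ≠ 2)
    (N q E : ℕ) (hN : 0 < N) (hq : 2 ≤ q) (hqN : Nat.Coprime q N) (hE : 0 < E)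
    (hEN : q ^ E ≡ 1 [MOD N]) (φ : Additive (CongruenceSubgroup.Gamma0 N) →+ K)
    (hU : ∀ g : CongruenceSubgroup.Gamma0 N, (g : SL(2, ℤ)) 1 0 = 0 → (g : SL(2, ℤ)) 1 1 = 1 →
      φ (Additive.ofMul g) = 0)
    (hL : ∀ g : CongruenceSubgroup.Gamma0 N, (g : SL(2, ℤ)) 0 1 = 0 → (g : SL(2, ℤ)) 0 0 = 1 →
      φ (Additive.ofMul g) = 0)
    (hQ4 : ∀ g g' : CongruenceSubgroup.Gamma0 N,
      (g' : SL(2, ℤ)) 1 0 = (q : ℤ) ^ (2 * E) * (g : SL(2, ℤ)) 1 0 →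
      (g' : SL(2, ℤ)) 1 1 = (g : SL(2, ℤ)) 1 1 → φ (Additive.ofMul g') = φ (Additive.ofMul g))
    (hQ3 : ∀ g g' : CongruenceSubgroup.Gamma0 N, (g' : SL(2, ℤ)) 1 0 = (g : SL(2, ℤ)) 1 0 →
      (g' : SL(2, ℤ)) 1 1 = (q : ℤ) ^ (2 * E) * (g : SL(2, ℤ)) 1 1 →
      φ (Additive.ofMul g') = φ (Additive.ofMul g)) :
    ∀ g : CongruenceSubgroup.Gamma0 N, (g : SL(2, ℤ)) 1 1 ≡ 1 [ZMOD N] →
      φ (Additive.ofMul g) = 0 := by
  classical
  set χ : SL(2, ℤ) → K := fun g =>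
    if h : g ∈ CongruenceSubgroup.Gamma0 N then φ (Additive.ofMul ⟨g, h⟩) else 0 with hχdef
  have hχ_apply : ∀ (g : SL(2, ℤ)) (h : g ∈ CongruenceSubgroup.Gamma0 N),
      χ g = φ (Additive.ofMul ⟨g, h⟩) := fun g h => by rw [hχdef]; exact dif_pos h
  have hχ : sy71_IsChar (Ideal.span {(N : ℤ)}) χ := by
    refine ⟨fun g h hg hh => ?_, fun x => ?_, fun y hy => ?_⟩
    · have hg' : g ∈ CongruenceSubgroup.Gamma0 N := gl71_gamma0_iff.mpr (gl71_mem_span.mp hg)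
      have hh' : h ∈ CongruenceSubgroup.Gamma0 N := gl71_gamma0_iff.mpr (gl71_mem_span.mp hh)
      rw [hχ_apply _ (mul_mem hg' hh'), hχ_apply _ hg', hχ_apply _ hh', ← map_add]
      rfl
    · have hx : sy71_U x ∈ CongruenceSubgroup.Gamma0 N :=
        gl71_gamma0_iff.mpr (by rw [(sy71_U_apply x).2.2.1]; exact dvd_zero _)
      rw [hχ_apply _ hx]
      exact hU ⟨_, hx⟩ (sy71_U_apply x).2.2.1 (sy71_U_apply x).2.2.2
    · have hy' : sy71_L y ∈ CongruenceSubgroup.Gamma0 N :=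
        gl71_gamma0_iff.mpr (by rw [(sy71_L_apply y).2.2.1]; exact gl71_mem_span.mp hy)
      rw [hχ_apply _ hy']
      exact hL ⟨_, hy'⟩ (sy71_L_apply y).2.1 (sy71_L_apply y).1
  have main := gl71_csp_int p hp2 N q E hN hq hqN hE hEN χ hχ ?_ ?_
  · intro g hg
    have := main g (gl71_gamma0_iff.mp g.2) hg
    rwa [hχ_apply _ g.2] at this
  · intro g g' hg h0 h1
    have hg0 : g ∈ CongruenceSubgroup.Gamma0 N := gl71_gamma0_iff.mpr hg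
    have hg0' : g' ∈ CongruenceSubgroup.Gamma0 N :=
      gl71_gamma0_iff.mpr (by rw [h0]; exact Dvd.dvd.mul_left hg _)
    rw [hχ_apply _ hg0, hχ_apply _ hg0']
    exact hQ4 ⟨g, hg0⟩ ⟨g', hg0'⟩ h0 h1
  · intro g g' hg h0 h1
    have hg0 : g ∈ CongruenceSubgroup.Gamma0 N := gl71_gamma0_iff.mpr hg
    have hg0' : g' ∈ CongruenceSubgroup.Gamma0 N := gl71_gamma0_iff.mpr (by rw [h0]; exact hg)
    rw [hχ_apply _ hg0, hχ_apply _ hg0']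
    exact hQ3 ⟨g, hg0⟩ ⟨g', hg0'⟩ h0 h1

/-! ### (G2): wrapper for subgroups of `SL(2, ℚ)` -/

theorem gl71_map_apply (g : SL(2, ℤ)) (i j : Fin 2) :
    (Matrix.SpecialLinearGroup.map (Int.castRingHom ℚ) g) i j = ((g i j : ℤ) : ℚ) := by
  simp

/-- entries of `diag(u, u⁻¹) * g * diag(v, v⁻¹)` -/
theorem gl71_T_mul_mul_T_apply {R : Type*} [CommRing R] (u v : Rˣ) (g : SL(2, R)) :
    (sy71_T u * g * sy71_T v) 0 0 = (u : R) * g 0 0 * (v : R) ∧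
    (sy71_T u * g * sy71_T v) 0 1 = (u : R) * g 0 1 * ((v⁻¹ : Rˣ) : R) ∧
    (sy71_T u * g * sy71_T v) 1 0 = ((u⁻¹ : Rˣ) : R) * g 1 0 * (v : R) ∧
    (sy71_T u * g * sy71_T v) 1 1 = ((u⁻¹ : Rˣ) : R) * g 1 1 * ((v⁻¹ : Rˣ) : R) := by
  refine ⟨?_, ?_, ?_, ?_⟩ <;>
  · rw [sy71_mul_apply, sy71_mul_apply, sy71_mul_apply]
    simp only [sy71_T_apply]
    ring

/-- (G2): `Δ ≤ SL(2,ℚ)` contains `Γ₀(N)`, all `U(a/q^k)` and all `L(N a/q^k)`; `χ` is additive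
on `Δ` and kills those unipotents.  Then `χ γ = 0` for every integral `γ ∈ Γ₀(N)` with
`γ₁₁ ≡ 1 mod N`. -/
theorem gl71_csp_rat {K : Type*} [Field K] (p : ℕ) [Fact p.Prime] [CharP K p] (hp2 : p ≠ 2)
    (N q : ℕ) (hN : 0 < N) (hq : 2 ≤ q) (hqN : Nat.Coprime q N)
    (Δ : Subgroup SL(2, ℚ)) (χ : SL(2, ℚ) → K)
    (hmul : ∀ g h : SL(2, ℚ), g ∈ Δ → h ∈ Δ → χ (g * h) = χ g + χ h)
    (hΓ : ∀ γ : SL(2, ℤ), (N : ℤ) ∣ γ 1 0 →
      Matrix.SpecialLinearGroup.map (Int.castRingHom ℚ) γ ∈ Δ)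
    (hU : ∀ (a : ℤ) (k : ℕ), sy71_U ((a : ℚ) / (q : ℚ) ^ k) ∈ Δ ∧
      χ (sy71_U ((a : ℚ) / (q : ℚ) ^ k)) = 0)
    (hL : ∀ (a : ℤ) (k : ℕ), sy71_L ((N : ℚ) * a / (q : ℚ) ^ k) ∈ Δ ∧
      χ (sy71_L ((N : ℚ) * a / (q : ℚ) ^ k)) = 0) :
    ∀ γ : SL(2, ℤ), (N : ℤ) ∣ γ 1 0 → γ 1 1 ≡ 1 [ZMOD N] →
      χ (Matrix.SpecialLinearGroup.map (Int.castRingHom ℚ) γ) = 0 := by
  have hq0 : (q : ℚ) ≠ 0 := by
    have : 0 < q := by omega
    exact_mod_cast this.ne'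
  set E : ℕ := Nat.totient N with hEdef
  have hE : 0 < E := Nat.totient_pos.mpr hN
  have hEN : q ^ E ≡ 1 [MOD N] := Nat.ModEq.pow_totient hqN
  obtain ⟨a₁, ha₁⟩ : ∃ a₁ : ℤ, (1 : ℤ) - (q : ℤ) ^ E = N * a₁ := by
    have := (Nat.modEq_iff_dvd.mp hEN)
    obtain ⟨a₁, h⟩ := this
    exact ⟨a₁, by rw [← h]; push_cast; ring⟩
  have ha₁' : (1 : ℚ) - (q : ℚ) ^ E = N * a₁ := by exact_mod_cast ha₁
  have ht0 : (q : ℚ) ^ E ≠ 0 := pow_ne_zero _ hq0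
  set u : ℚˣ := Units.mk0 ((q : ℚ) ^ E)⁻¹ (inv_ne_zero ht0) with hudef
  have hu : (u : ℚ) = ((q : ℚ) ^ E)⁻¹ := rfl
  have hu' : ((u⁻¹ : ℚˣ) : ℚ) = (q : ℚ) ^ E := by
    rw [Units.val_inv_eq_inv_val, hu, inv_inv]
  have hχ1 : χ 1 = 0 := by
    have h := hmul 1 1 Δ.one_mem Δ.one_mem
    rw [mul_one] at h
    exact left_eq_add.mp h
  have hχinv : ∀ g : SL(2, ℚ), g ∈ Δ → χ g⁻¹ = -χ g := by
    intro g hg
    have h := hmul g g⁻¹ hg (Δ.inv_mem hg)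
    rw [mul_inv_cancel, hχ1] at h
    exact eq_neg_of_add_eq_zero_right h.symm
  -- the torus element `D = diag(t⁻¹, t)`, `t = q ^ E`, lies in `Δ` and is killed by `χ`
  have hD : sy71_T u ∈ Δ ∧ χ (sy71_T u) = 0 := by
    have e1 : ((u⁻¹ : ℚˣ) : ℚ) - 1 = (N : ℚ) * ((-a₁ : ℤ) : ℚ) / (q : ℚ) ^ 0 := by
      rw [hu', pow_zero, div_one]; push_cast; linarith
    have e2 : (1 : ℚ) = ((1 : ℤ) : ℚ) / (q : ℚ) ^ 0 := by simp
    have e3 : (u : ℚ) - 1 = (N : ℚ) * ((a₁ : ℤ) : ℚ) / (q : ℚ) ^ E := by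
      rw [hu, ← ha₁']; field_simp
    have e4 : -((u⁻¹ : ℚˣ) : ℚ) = ((-(q : ℤ) ^ E : ℤ) : ℚ) / (q : ℚ) ^ 0 := by
      rw [hu']; push_cast; simp
    have h1 := hL (-a₁) 0
    have h2 := hU 1 0
    have h3 := hL a₁ E
    have h4 := hU (-(q : ℤ) ^ E) 0
    rw [← e1] at h1
    rw [← e2] at h2
    rw [← e3] at h3
    rw [← e4] at h4
    have m12 := Δ.mul_mem h1.1 h2.1
    have m123 := Δ.mul_mem m12 h3.1
    rw [sy71_T_eq u]
    refine ⟨Δ.mul_mem m123 h4.1, ?_⟩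
    rw [hmul _ _ m123 h4.1, hmul _ _ m12 h3.1, hmul _ _ h1.1 h2.1, h1.2, h2.2, h3.2, h4.2]
    simp
  have hDinv : sy71_T u⁻¹ ∈ Δ ∧ χ (sy71_T u⁻¹) = 0 := by
    rw [sy71_T_inv]
    exact ⟨Δ.inv_mem hD.1, by rw [hχinv _ hD.1, hD.2, neg_zero]⟩
  -- the integral character
  set χ' : SL(2, ℤ) → K := fun γ => χ (Matrix.SpecialLinearGroup.map (Int.castRingHom ℚ) γ)
    with hχ'def
  have hχ' : sy71_IsChar (Ideal.span {(N : ℤ)}) χ' := by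
    refine ⟨fun g h hg hh => ?_, fun x => ?_, fun y hy => ?_⟩
    · show χ _ = χ _ + χ _
      rw [map_mul]
      exact hmul _ _ (hΓ g (gl71_mem_span.mp hg)) (hΓ h (gl71_mem_span.mp hh))
    · show χ _ = 0
      have e : Matrix.SpecialLinearGroup.map (Int.castRingHom ℚ) (sy71_U x) =
          sy71_U ((x : ℚ) / (q : ℚ) ^ 0) := by
        apply sy71_ext <;> simp [gl71_map_apply, sy71_U_apply]
      rw [e]
      exact (hU x 0).2
    · show χ _ = 0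
      obtain ⟨a, rfl⟩ := gl71_mem_span.mp hy
      have e : Matrix.SpecialLinearGroup.map (Int.castRingHom ℚ) (sy71_L ((N : ℤ) * a)) =
          sy71_L ((N : ℚ) * a / (q : ℚ) ^ 0) := by
        apply sy71_ext <;> simp [gl71_map_apply, sy71_L_apply]
      rw [e]
      exact (hL a 0).2
  refine gl71_csp_int p hp2 N q E hN hq hqN hE hEN χ' hχ' ?_ ?_
  · -- (Q4): conjugation by `D`
    intro g g' hg h0 h1
    show χ _ = χ _
    set ιg := Matrix.SpecialLinearGroup.map (Int.castRingHom ℚ) g with hιg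
    set ιg' := Matrix.SpecialLinearGroup.map (Int.castRingHom ℚ) g' with hιg'
    have hgΔ : ιg ∈ Δ := hΓ g hg
    obtain ⟨A00, A01, A10, A11⟩ := gl71_T_mul_mul_T_apply u u⁻¹ ιg
    have hAΔ : sy71_T u * ιg * sy71_T u⁻¹ ∈ Δ := Δ.mul_mem (Δ.mul_mem hD.1 hgΔ) hDinv.1
    have hχA : χ (sy71_T u * ιg * sy71_T u⁻¹) = χ ιg := by
      rw [hmul _ _ (Δ.mul_mem hD.1 hgΔ) hDinv.1, hmul _ _ hD.1 hgΔ, hD.2, hDinv.2]
      simp
    have r0 : ιg' 1 0 = (sy71_T u * ιg * sy71_T u⁻¹) 1 0 := by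
      rw [A10, hu', hιg', hιg, gl71_map_apply, gl71_map_apply, h0]
      push_cast; ring
    have r1 : ιg' 1 1 = (sy71_T u * ιg * sy71_T u⁻¹) 1 1 := by
      rw [A11, inv_inv, hu', hu, hιg', hιg, gl71_map_apply, gl71_map_apply, h1]
      field_simp
    have key := gl71_eq_U_mul (sy71_T u * ιg * sy71_T u⁻¹) ιg' r0 r1
    have ex : ιg' 0 1 * (sy71_T u * ιg * sy71_T u⁻¹) 0 0 -
        ιg' 0 0 * (sy71_T u * ιg * sy71_T u⁻¹) 0 1 =
        ((g' 0 1 * g 0 0 * (q : ℤ) ^ (2 * E) - g' 0 0 * g 0 1 : ℤ) : ℚ) / (q : ℚ) ^ (2 * E) := by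
      rw [A00, A01, inv_inv, hu', hu, hιg', hιg, gl71_map_apply, gl71_map_apply, gl71_map_apply,
        gl71_map_apply]
      push_cast
      field_simp
      ring
    rw [ex] at key
    rw [key, hmul _ _ (hU _ _).1 hAΔ, (hU _ _).2, zero_add, hχA]
  · -- (Q3): two-sided multiplication by `D`
    intro g g' hg h0 h1
    show χ _ = χ _
    set ιg := Matrix.SpecialLinearGroup.map (Int.castRingHom ℚ) g with hιg
    set ιg' := Matrix.SpecialLinearGroup.map (Int.castRingHom ℚ) g' with hιg'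
    have hgΔ : ιg ∈ Δ := hΓ g hg
    obtain ⟨A00, A01, A10, A11⟩ := gl71_T_mul_mul_T_apply u u ιg
    have hAΔ : sy71_T u * ιg * sy71_T u ∈ Δ := Δ.mul_mem (Δ.mul_mem hD.1 hgΔ) hD.1
    have hχA : χ (sy71_T u * ιg * sy71_T u) = χ ιg := by
      rw [hmul _ _ (Δ.mul_mem hD.1 hgΔ) hD.1, hmul _ _ hD.1 hgΔ, hD.2]
      simp
    have r0 : ιg' 1 0 = (sy71_T u * ιg * sy71_T u) 1 0 := by
      rw [A10, hu', hu, hιg', hιg, gl71_map_apply, gl71_map_apply, h0]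
      field_simp
    have r1 : ιg' 1 1 = (sy71_T u * ιg * sy71_T u) 1 1 := by
      rw [A11, hu', hιg', hιg, gl71_map_apply, gl71_map_apply, h1]
      push_cast; ring
    have key := gl71_eq_U_mul (sy71_T u * ιg * sy71_T u) ιg' r0 r1
    have ex : ιg' 0 1 * (sy71_T u * ιg * sy71_T u) 0 0 -
        ιg' 0 0 * (sy71_T u * ιg * sy71_T u) 0 1 =
        ((g' 0 1 * g 0 0 - g' 0 0 * g 0 1 * (q : ℤ) ^ (2 * E) : ℤ) : ℚ) / (q : ℚ) ^ (2 * E) := by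
      rw [A00, A01, hu', hu, hιg', hιg, gl71_map_apply, gl71_map_apply, gl71_map_apply,
        gl71_map_apply]
      push_cast
      field_simp
      ring
    rw [ex] at key
    rw [key, hmul _ _ (hU _ _).1 hAΔ, (hU _ _).2, zero_add, hχA]

end Fermat.Agent.S41
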