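import Mathlib
import Fermat.Agent.S16.HeckeGamma0
import Fermat.Agent.S41.CSPGlue71

/-!
# S41 / M4.4: the conclusion of the CSP step in "Shimura character" form

A character of `Γ₀(N)` which kills every `γ` with `d(γ) ≡ 1 mod N` is of the form
`shimuraHom N θ` (S16), so that `heckeHom_shimuraHom_T` applies to it verbatim:
`T_ℓ φ = (ℓ + 1) φ` for every prime `ℓ ∤ N`.
-/

namespace Fermat.Agent.S41

open Matrix MatrixGroups CongruenceSubgroup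
open Fermat.Agent.S16

/-- `d mod N : Γ₀(N) → (ZMod N)ˣ` is surjective. -/
theorem sh71_toHomUnits_surjective (N : ℕ) (hN : 0 < N) :
    Function.Surjective ((Gamma0Map N).toHomUnits) := by
  intro u
  have : NeZero N := ⟨hN.ne'⟩
  have hdu : (((u : ZMod N).val : ℕ) : ZMod N) = u := ZMod.natCast_zmod_val _
  have hcop : Nat.Coprime (u : ZMod N).val N := by
    rw [← ZMod.isUnit_iff_coprime, hdu]; exact u.isUnit
  have hc : IsCoprime (N : ℤ) ((u : ZMod N).val : ℤ) :=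
    (Nat.isCoprime_iff_coprime.mpr hcop).symm
  obtain ⟨g, h0, h1⟩ := sy71_exists_row hc
  have hg : g ∈ Gamma0 N := gl71_gamma0_iff.mpr (by rw [h0])
  refine ⟨⟨g, hg⟩, Units.ext ?_⟩
  rw [hh_coe_toHomUnits]
  show (((g 1 1 : ℤ)) : ZMod N) = u
  rw [h1]; push_cast; exact hdu

/-- A character of `Γ₀(N)` killing every `γ` with `d(γ) ≡ 1 mod N` is a Shimura character. -/
theorem sh71_exists_shimura {A : Type*} [AddCommGroup A] (N : ℕ) (hN : 0 < N)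
    (φ : Additive (Gamma0 N) →+ A)
    (hφ : ∀ g : Gamma0 N, (g : SL(2, ℤ)) 1 1 ≡ 1 [ZMOD N] → φ (Additive.ofMul g) = 0) :
    ∃ θ : (ZMod N)ˣ →* Multiplicative A, φ = shimuraHom N θ := by
  have hker : ((Gamma0Map N).toHomUnits).ker ≤ (AddMonoidHom.toMultiplicativeRight φ).ker := by
    intro γ hγ
    rw [MonoidHom.mem_ker] at hγ ⊢
    have h1 : (((γ : SL(2, ℤ)) 1 1 : ℤ) : ZMod N) = 1 := by
      have := congrArg Units.val hγ
      rw [hh_coe_toHomUnits, Units.val_one] at this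
      exact this
    have h2 : (γ : SL(2, ℤ)) 1 1 ≡ 1 [ZMOD N] := by
      rw [← ZMod.intCast_eq_intCast_iff]; simpa using h1
    show Multiplicative.ofAdd (φ (Additive.ofMul γ)) = 1
    rw [hφ γ h2]; rfl
  refine ⟨((Gamma0Map N).toHomUnits).liftOfSurjective (sh71_toHomUnits_surjective N hN)
    ⟨AddMonoidHom.toMultiplicativeRight φ, hker⟩, ?_⟩
  refine AddMonoidHom.ext fun γ => ?_
  obtain ⟨γ, rfl⟩ := Additive.ofMul.surjective γ
  rw [shimuraHom_apply]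
  have := MonoidHom.liftOfRightInverse_comp_apply ((Gamma0Map N).toHomUnits) _
    (Function.rightInverse_surjInv (sh71_toHomUnits_surjective N hN))
    ⟨AddMonoidHom.toMultiplicativeRight φ, hker⟩ γ
  rw [this]; rfl

/-- (G1) in Shimura form. -/
theorem sh71_csp_gamma0 {K : Type*} [Field K] (p : ℕ) [Fact p.Prime] [CharP K p] (hp2 : p ≠ 2)
    (N q E : ℕ) (hN : 0 < N) (hq : 2 ≤ q) (hqN : Nat.Coprime q N) (hE : 0 < E)
    (hEN : q ^ E ≡ 1 [MOD N]) (φ : Additive (Gamma0 N) →+ K)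
    (hU : ∀ g : Gamma0 N, (g : SL(2, ℤ)) 1 0 = 0 → (g : SL(2, ℤ)) 1 1 = 1 →
      φ (Additive.ofMul g) = 0)
    (hL : ∀ g : Gamma0 N, (g : SL(2, ℤ)) 0 1 = 0 → (g : SL(2, ℤ)) 0 0 = 1 →
      φ (Additive.ofMul g) = 0)
    (hQ4 : ∀ g g' : Gamma0 N,
      (g' : SL(2, ℤ)) 1 0 = (q : ℤ) ^ (2 * E) * (g : SL(2, ℤ)) 1 0 →
      (g' : SL(2, ℤ)) 1 1 = (g : SL(2, ℤ)) 1 1 → φ (Additive.ofMul g') = φ (Additive.ofMul g))
    (hQ3 : ∀ g g' : Gamma0 N, (g' : SL(2, ℤ)) 1 0 = (g : SL(2, ℤ)) 1 0 →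
      (g' : SL(2, ℤ)) 1 1 = (q : ℤ) ^ (2 * E) * (g : SL(2, ℤ)) 1 1 →
      φ (Additive.ofMul g') = φ (Additive.ofMul g)) :
    ∃ θ : (ZMod N)ˣ →* Multiplicative K, φ = shimuraHom N θ :=
  sh71_exists_shimura N hN φ (gl71_csp_gamma0 p hp2 N q E hN hq hqN hE hEN φ hU hL hQ4 hQ3)

/-- (G2) in Shimura form: the restriction to `Γ₀(N)` of a character of `Δ ≤ SL(2,ℚ)` killing the
unipotents `U(a/q^k)`, `L(N a/q^k)` is a Shimura character. -/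
theorem sh71_csp_rat {K : Type*} [Field K] (p : ℕ) [Fact p.Prime] [CharP K p] (hp2 : p ≠ 2)
    (N q : ℕ) (hN : 0 < N) (hq : 2 ≤ q) (hqN : Nat.Coprime q N)
    (Δ : Subgroup SL(2, ℚ)) (χ : SL(2, ℚ) → K)
    (hmul : ∀ g h : SL(2, ℚ), g ∈ Δ → h ∈ Δ → χ (g * h) = χ g + χ h)
    (hΓ : ∀ γ : SL(2, ℤ), (N : ℤ) ∣ γ 1 0 →
      Matrix.SpecialLinearGroup.map (Int.castRingHom ℚ) γ ∈ Δ)
    (hU : ∀ (a : ℤ) (k : ℕ), sy71_U ((a : ℚ) / (q : ℚ) ^ k) ∈ Δ ∧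
      χ (sy71_U ((a : ℚ) / (q : ℚ) ^ k)) = 0)
    (hL : ∀ (a : ℤ) (k : ℕ), sy71_L ((N : ℚ) * a / (q : ℚ) ^ k) ∈ Δ ∧
      χ (sy71_L ((N : ℚ) * a / (q : ℚ) ^ k)) = 0) :
    ∃ θ : (ZMod N)ˣ →* Multiplicative K, ∀ γ : Gamma0 N,
      χ (Matrix.SpecialLinearGroup.map (Int.castRingHom ℚ) (γ : SL(2, ℤ))) =
        shimuraHom N θ (Additive.ofMul γ) := by
  have hmem : ∀ γ : Gamma0 N,
      Matrix.SpecialLinearGroup.map (Int.castRingHom ℚ) (γ : SL(2, ℤ)) ∈ Δ :=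
    fun γ => hΓ _ (gl71_gamma0_iff.mp γ.2)
  let φ : Additive (Gamma0 N) →+ K :=
    AddMonoidHom.mk' (fun γ => χ (Matrix.SpecialLinearGroup.map (Int.castRingHom ℚ)
      ((Additive.toMul γ : Gamma0 N) : SL(2, ℤ)))) (by
      intro a b
      show χ (Matrix.SpecialLinearGroup.map (Int.castRingHom ℚ)
        (((Additive.toMul a * Additive.toMul b : Gamma0 N)) : SL(2, ℤ))) = _
      rw [Subgroup.coe_mul, map_mul]
      exact hmul _ _ (hmem _) (hmem _))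
  obtain ⟨θ, hθ⟩ := sh71_exists_shimura N hN φ (fun g hg =>
    gl71_csp_rat p hp2 N q hN hq hqN Δ χ hmul hΓ hU hL g (gl71_gamma0_iff.mp g.2) hg)
  exact ⟨θ, fun γ => by rw [← hθ]; rfl⟩

end Fermat.Agent.S41
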