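import Mathlib
import Fermat.Agent.S41.CSPShimura71

/-!
# S41 / M4.5: Ihara's lemma for symbols (model-agnostic)

`X` is any set with an action of `SL(2, ℚ)` (a model of `ℙ¹(ℚ)`), `cinf`, `c0` two points fixed by
the upper, resp. lower, unipotents.  A function `φ : X → X → K` with `φ a b + φ b c = φ a c`
(a "modular symbol") which is invariant under `Γ₀(N)` and under `δ⁻¹ Γ₀(N) δ` (or `δ Γ₀(N) δ⁻¹`),
`δ = diag(q, 1)`, is invariant under `diag(q, 1/q)`, hence under all `U(a/q^k)`, `L(N a/q^k)`; by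
the abelian congruence subgroup property (`sh71_csp_rat`) its period character
`γ ↦ φ cinf (γ • cinf)` on `Γ₀(N)` is a Shimura character `γ ↦ θ (d(γ) mod N)`.

Main statements:
* `ih42_D_mem`, `ih42_D_mem'`: `diag(q, 1/q) ∈ Δ` for a subgroup `Δ ≤ SL(2, ℚ)` containing `Γ₀(N)`
  and one of its two `δ`-conjugates;
* `ih42_U_mem`, `ih42_L_mem`: then `U(a/q^k)`, `L(N a/q^k) ∈ Δ`;
* `ih42_shimura_of_D`, `ih42_shimura`, `ih42_shimura'`: the period character is Shimura;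
* `ih42_shimura_pair`: the kernel of the degeneracy map on pairs of symbols of level `N`
  (`φ₁ + δ^* φ₂ = 0`): both period characters are Shimura.
-/

set_option autoImplicit false

namespace Fermat.Agent.S41

open Matrix MatrixGroups CongruenceSubgroup
open Fermat.Agent.S16

/-- `g = δ⁻¹ h δ`, `δ = diag(q, 1)` (entrywise), i.e. `δ g = h δ`. -/
def ih42_Conj (q : ℕ) (h g : SL(2, ℚ)) : Prop :=
  g 0 0 = h 0 0 ∧ g 0 1 = h 0 1 / q ∧ g 1 0 = (q : ℚ) * h 1 0 ∧ g 1 1 = h 1 1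

/-- `diag(q, 1/q) ∈ Δ` if `Δ ⊇ Γ₀(N) ∪ δ⁻¹ Γ₀(N) δ`. -/
theorem ih42_D_mem (N q : ℕ) (hq : 2 ≤ q) (hqN : Nat.Coprime q N) (Δ : Subgroup SL(2, ℚ))
    (hG : ∀ γ : SL(2, ℤ), (N : ℤ) ∣ γ 1 0 →
      Matrix.SpecialLinearGroup.map (Int.castRingHom ℚ) γ ∈ Δ)
    (hG' : ∀ (γ : SL(2, ℤ)) (g : SL(2, ℚ)), (N : ℤ) ∣ γ 1 0 →
      ih42_Conj q (Matrix.SpecialLinearGroup.map (Int.castRingHom ℚ) γ) g → g ∈ Δ)
    (u : ℚˣ) (hu : (u : ℚ) = q) : sy71_T u ∈ Δ := by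
  have hq0 : (q : ℚ) ≠ 0 := by
    have : 0 < q := by omega
    exact_mod_cast this.ne'
  have huinv : ((u⁻¹ : ℚˣ) : ℚ) = (q : ℚ)⁻¹ := by
    rw [Units.val_inv_eq_inv_val, hu]
  have hcop : IsCoprime (N : ℤ) ((q : ℤ) ^ 2) := by
    have h1 : Nat.Coprime N (q ^ 2) := (Nat.Coprime.pow_left 2 hqN).symm
    exact_mod_cast Nat.isCoprime_iff_coprime.mpr h1
  obtain ⟨s, v, hsv⟩ := hcop
  have hsvQ : (s : ℚ) * N + v * (q : ℚ) ^ 2 = 1 := by
    exact_mod_cast congrArg (Int.cast : ℤ → ℚ) hsv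
  -- `g₀ = (q, -s; N, q v)`, `g₂ = (q², -s; N, v)`, `c₀ = δ⁻¹ g₀ δ = (q, -s/q; q N, q v)`
  have hmem₀ : sy71_mk (q : ℚ) (-(s : ℚ) / q) ((q : ℚ) * N) ((q : ℚ) * v) (by
      field_simp
      linear_combination hsvQ) ∈ Δ := by
    refine hG' (sy71_mk (q : ℤ) (-s) (N : ℤ) ((q : ℤ) * v) (by linear_combination hsv)) _ ?_ ?_
    · simp
    · refine ⟨?_, ?_, ?_, ?_⟩ <;> simp
  have hmem₂ := hG (sy71_mk ((q : ℤ) ^ 2) (-s) (N : ℤ) v (by linear_combination hsv)) (by simp)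
  have key : Matrix.SpecialLinearGroup.map (Int.castRingHom ℚ)
      (sy71_mk ((q : ℤ) ^ 2) (-s) (N : ℤ) v (by linear_combination hsv)) =
      sy71_T u * sy71_mk (q : ℚ) (-(s : ℚ) / q) ((q : ℚ) * N) ((q : ℚ) * v) (by
        field_simp
        linear_combination hsvQ) := by
    apply sy71_ext
    · simp [sy71_mul_apply, hu]; ring
    · simp [sy71_mul_apply, hu]; field_simp
    · simp [sy71_mul_apply, huinv]; field_simp
    · simp [sy71_mul_apply, huinv]; field_simp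
  have h3 := Δ.mul_mem hmem₂ (Δ.inv_mem hmem₀)
  rw [key, mul_inv_cancel_right] at h3
  exact h3

/-- `diag(q, 1/q) ∈ Δ` if `Δ ⊇ Γ₀(N) ∪ δ Γ₀(N) δ⁻¹`. -/
theorem ih42_D_mem' (N q : ℕ) (hq : 2 ≤ q) (hqN : Nat.Coprime q N) (Δ : Subgroup SL(2, ℚ))
    (hG : ∀ γ : SL(2, ℤ), (N : ℤ) ∣ γ 1 0 →
      Matrix.SpecialLinearGroup.map (Int.castRingHom ℚ) γ ∈ Δ)
    (hG' : ∀ (γ : SL(2, ℤ)) (g : SL(2, ℚ)), (N : ℤ) ∣ γ 1 0 →
      ih42_Conj q g (Matrix.SpecialLinearGroup.map (Int.castRingHom ℚ) γ) → g ∈ Δ)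
    (u : ℚˣ) (hu : (u : ℚ) = q) : sy71_T u ∈ Δ := by
  have hq0 : (q : ℚ) ≠ 0 := by
    have : 0 < q := by omega
    exact_mod_cast this.ne'
  have huinv : ((u⁻¹ : ℚˣ) : ℚ) = (q : ℚ)⁻¹ := by
    rw [Units.val_inv_eq_inv_val, hu]
  have hcop : IsCoprime (q : ℤ) (N : ℤ) := by
    exact_mod_cast Nat.isCoprime_iff_coprime.mpr hqN
  obtain ⟨a, b, hab⟩ := hcop
  have habQ : (a : ℚ) * q + b * (N : ℚ) = 1 := by
    exact_mod_cast congrArg (Int.cast : ℤ → ℚ) hab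
  -- `γ₀ = (a, -b; N, q)`, `γ₂ = (a q, -b; N, 1)`, `c = δ γ₀ δ⁻¹ = (a, -q b; N/q, q)`
  have hmem₀ : sy71_mk (a : ℚ) (-((q : ℚ) * b)) ((N : ℚ) / q) (q : ℚ) (by
      field_simp
      linear_combination habQ) ∈ Δ := by
    refine hG' (sy71_mk a (-b) (N : ℤ) (q : ℤ) (by linear_combination hab)) _ ?_ ?_
    · simp
    · refine ⟨?_, ?_, ?_, ?_⟩ <;> simp <;> field_simp
  have hmem₂ := hG (sy71_mk (a * (q : ℤ)) (-b) (N : ℤ) 1 (by linear_combination hab)) (by simp)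
  have key : Matrix.SpecialLinearGroup.map (Int.castRingHom ℚ)
      (sy71_mk (a * (q : ℤ)) (-b) (N : ℤ) 1 (by linear_combination hab)) =
      sy71_mk (a : ℚ) (-((q : ℚ) * b)) ((N : ℚ) / q) (q : ℚ) (by
        field_simp
        linear_combination habQ) * sy71_T u := by
    apply sy71_ext
    · simp [sy71_mul_apply, hu]
    · simp [sy71_mul_apply, huinv]; field_simp
    · simp [sy71_mul_apply, hu]; field_simp
    · simp [sy71_mul_apply, huinv]; field_simp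
  have h3 := Δ.mul_mem (Δ.inv_mem hmem₀) hmem₂
  rw [key, inv_mul_cancel_left] at h3
  exact h3

/-- a subgroup containing `Γ₀(N)` and `diag(q, 1/q)` contains all `U(a/q^k)` -/
theorem ih42_U_mem (N q : ℕ) (hq : 2 ≤ q) (Δ : Subgroup SL(2, ℚ))
    (hG : ∀ γ : SL(2, ℤ), (N : ℤ) ∣ γ 1 0 →
      Matrix.SpecialLinearGroup.map (Int.castRingHom ℚ) γ ∈ Δ)
    (u : ℚˣ) (hu : (u : ℚ) = q) (hD : sy71_T u ∈ Δ) (a : ℤ) (k : ℕ) :
    sy71_U ((a : ℚ) / (q : ℚ) ^ k) ∈ Δ := by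
  have hq0 : (q : ℚ) ≠ 0 := by
    have : 0 < q := by omega
    exact_mod_cast this.ne'
  have huinv : ((u⁻¹ : ℚˣ) : ℚ) = (q : ℚ)⁻¹ := by
    rw [Units.val_inv_eq_inv_val, hu]
  have hDinv : sy71_T u⁻¹ ∈ Δ := by
    rw [sy71_T_inv]; exact Δ.inv_mem hD
  have step : ∀ x : ℚ, sy71_U x ∈ Δ → sy71_U (x / (q : ℚ) ^ 2) ∈ Δ := by
    intro x hx
    have h := Δ.mul_mem (Δ.mul_mem hDinv hx) hD
    have e : sy71_U (x / (q : ℚ) ^ 2) = sy71_T u⁻¹ * sy71_U x * sy71_T u := by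
      apply sy71_ext
      · rw [(gl71_T_mul_mul_T_apply _ _ _).1]; simp [hu, huinv, hq0]
      · rw [(gl71_T_mul_mul_T_apply _ _ _).2.1]; simp [huinv]; field_simp
      · rw [(gl71_T_mul_mul_T_apply _ _ _).2.2.1]; simp
      · rw [(gl71_T_mul_mul_T_apply _ _ _).2.2.2]; simp [hu, huinv, hq0]
    rw [e]; exact h
  have all : ∀ (k : ℕ) (a : ℤ), sy71_U ((a : ℚ) / (q : ℚ) ^ (2 * k)) ∈ Δ := by
    intro k
    induction k with
    | zero =>
      intro a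
      have h := hG (sy71_U a) (by simp)
      have e : sy71_U ((a : ℚ) / (q : ℚ) ^ (2 * 0)) =
          Matrix.SpecialLinearGroup.map (Int.castRingHom ℚ) (sy71_U a) := by
        apply sy71_ext <;> simp
      rw [e]; exact h
    | succ k ih =>
      intro a
      have h := step _ (ih a)
      have e : (a : ℚ) / (q : ℚ) ^ (2 * (k + 1)) = (a : ℚ) / (q : ℚ) ^ (2 * k) / (q : ℚ) ^ 2 := by
        rw [div_div, ← pow_add, Nat.mul_succ]
      rw [e]; exact h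
  have h := all k (a * (q : ℤ) ^ k)
  have e : (a : ℚ) / (q : ℚ) ^ k = ((a * (q : ℤ) ^ k : ℤ) : ℚ) / (q : ℚ) ^ (2 * k) := by
    push_cast
    rw [two_mul, pow_add]
    field_simp
  rw [e]; exact h

/-- a subgroup containing `Γ₀(N)` and `diag(q, 1/q)` contains all `L(N a/q^k)` -/
theorem ih42_L_mem (N q : ℕ) (hq : 2 ≤ q) (Δ : Subgroup SL(2, ℚ))
    (hG : ∀ γ : SL(2, ℤ), (N : ℤ) ∣ γ 1 0 →
      Matrix.SpecialLinearGroup.map (Int.castRingHom ℚ) γ ∈ Δ)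
    (u : ℚˣ) (hu : (u : ℚ) = q) (hD : sy71_T u ∈ Δ) (a : ℤ) (k : ℕ) :
    sy71_L ((N : ℚ) * a / (q : ℚ) ^ k) ∈ Δ := by
  have hq0 : (q : ℚ) ≠ 0 := by
    have : 0 < q := by omega
    exact_mod_cast this.ne'
  have huinv : ((u⁻¹ : ℚˣ) : ℚ) = (q : ℚ)⁻¹ := by
    rw [Units.val_inv_eq_inv_val, hu]
  have hDinv : sy71_T u⁻¹ ∈ Δ := by
    rw [sy71_T_inv]; exact Δ.inv_mem hD
  have step : ∀ y : ℚ, sy71_L y ∈ Δ → sy71_L (y / (q : ℚ) ^ 2) ∈ Δ := by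
    intro y hy
    have h := Δ.mul_mem (Δ.mul_mem hD hy) hDinv
    have e : sy71_L (y / (q : ℚ) ^ 2) = sy71_T u * sy71_L y * sy71_T u⁻¹ := by
      apply sy71_ext
      · rw [(gl71_T_mul_mul_T_apply _ _ _).1]; simp [hu, huinv, hq0]
      · rw [(gl71_T_mul_mul_T_apply _ _ _).2.1]; simp
      · rw [(gl71_T_mul_mul_T_apply _ _ _).2.2.1]; simp [huinv]; field_simp
      · rw [(gl71_T_mul_mul_T_apply _ _ _).2.2.2]; simp [hu, huinv, hq0]
    rw [e]; exact h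
  have all : ∀ (k : ℕ) (a : ℤ), sy71_L ((N : ℚ) * a / (q : ℚ) ^ (2 * k)) ∈ Δ := by
    intro k
    induction k with
    | zero =>
      intro a
      have h := hG (sy71_L ((N : ℤ) * a)) (by simp)
      have e : sy71_L ((N : ℚ) * a / (q : ℚ) ^ (2 * 0)) =
          Matrix.SpecialLinearGroup.map (Int.castRingHom ℚ) (sy71_L ((N : ℤ) * a)) := by
        apply sy71_ext <;> simp
      rw [e]; exact h
    | succ k ih =>
      intro a
      have h := step _ (ih a)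
      have e : (N : ℚ) * a / (q : ℚ) ^ (2 * (k + 1)) =
          (N : ℚ) * a / (q : ℚ) ^ (2 * k) / (q : ℚ) ^ 2 := by
        rw [div_div, ← pow_add, Nat.mul_succ]
      rw [e]; exact h
  have h := all k (a * (q : ℤ) ^ k)
  have e : (N : ℚ) * a / (q : ℚ) ^ k =
      (N : ℚ) * ((a * (q : ℤ) ^ k : ℤ) : ℚ) / (q : ℚ) ^ (2 * k) := by
    push_cast
    rw [two_mul, pow_add]
    field_simp
  rw [e]; exact h

section Symbols

variable {X : Type*} [MulAction SL(2, ℚ) X] {K : Type*}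

/-- the stabiliser in `SL(2, ℚ)` of a function of two points -/
def ih42_stab (φ : X → X → K) : Subgroup SL(2, ℚ) where
  carrier := {g | ∀ a b, φ (g • a) (g • b) = φ a b}
  mul_mem' := by
    intro g h hg hh a b
    rw [mul_smul, mul_smul, hg, hh]
  one_mem' := by
    intro a b
    rw [one_smul, one_smul]
  inv_mem' := by
    intro g hg a b
    have := hg (g⁻¹ • a) (g⁻¹ • b)
    rw [smul_inv_smul, smul_inv_smul] at this
    exact this.symm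

theorem ih42_mem_stab {φ : X → X → K} {g : SL(2, ℚ)} :
    g ∈ ih42_stab φ ↔ ∀ a b, φ (g • a) (g • b) = φ a b := Iff.rfl

omit [MulAction SL(2, ℚ) X] in
/-- a symbol vanishes on the diagonal -/
theorem ih42_self [AddGroup K] (φ : X → X → K) (hadd : ∀ a b c, φ a b + φ b c = φ a c) (a : X) :
    φ a a = 0 := by
  have h := hadd a a a
  exact left_eq_add.mp h.symm

/-- the period `φ a (g • a)` of a `g`-invariant symbol does not depend on the base point -/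
theorem ih42_period_indep [AddCommGroup K] (φ : X → X → K)
    (hadd : ∀ a b c, φ a b + φ b c = φ a c) {g : SL(2, ℚ)} (hg : g ∈ ih42_stab φ) (a b : X) :
    φ a (g • a) = φ b (g • b) := by
  have h1 := hadd a b (g • b)
  have h2 := hadd a (g • a) (g • b)
  have h3 := hg a b
  rw [h3] at h2
  -- `φ a b + φ b (g b) = φ a (g b) = φ a (g a) + φ a b`
  have : φ a b + φ b (g • b) = φ a (g • a) + φ a b := by rw [h1, h2]
  rw [add_comm (φ a (g • a))] at this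
  exact (add_left_cancel this).symm

/-- the period map `g ↦ φ c (g • c)` is additive on the stabiliser -/
theorem ih42_period_mul [AddCommGroup K] (φ : X → X → K)
    (hadd : ∀ a b c, φ a b + φ b c = φ a c) (c : X) {g h : SL(2, ℚ)} (hg : g ∈ ih42_stab φ) :
    φ c ((g * h) • c) = φ c (g • c) + φ c (h • c) := by
  rw [mul_smul, ← hadd c (g • c) (g • h • c), hg c (h • c)]

/-- **Ihara for symbols, torus form**: if the stabiliser of the symbol `φ` contains `Γ₀(N)` and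
`diag(q, 1/q)`, then the period character of `φ` on `Γ₀(N)` is a Shimura character. -/
theorem ih42_shimura_of_D [Field K] (p : ℕ) [Fact p.Prime] [CharP K p] (hp2 : p ≠ 2)
    (N q : ℕ) (hN : 0 < N) (hq : 2 ≤ q) (hqN : Nat.Coprime q N)
    (φ : X → X → K) (cinf c0 : X)
    (hadd : ∀ a b c, φ a b + φ b c = φ a c)
    (hUinf : ∀ x : ℚ, sy71_U x • cinf = cinf)
    (hL0 : ∀ y : ℚ, sy71_L y • c0 = c0)
    (hG : ∀ γ : SL(2, ℤ), (N : ℤ) ∣ γ 1 0 →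
      Matrix.SpecialLinearGroup.map (Int.castRingHom ℚ) γ ∈ ih42_stab φ)
    (u : ℚˣ) (hu : (u : ℚ) = q) (hD : sy71_T u ∈ ih42_stab φ) :
    ∃ θ : (ZMod N)ˣ →* Multiplicative K, ∀ γ : Gamma0 N,
      φ cinf (Matrix.SpecialLinearGroup.map (Int.castRingHom ℚ) (γ : SL(2, ℤ)) • cinf) =
        shimuraHom N θ (Additive.ofMul γ) := by
  refine sh71_csp_rat p hp2 N q hN hq hqN (ih42_stab φ) (fun g => φ cinf (g • cinf)) ?_ hG ?_ ?_
  · intro g h hg _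
    exact ih42_period_mul φ hadd cinf hg
  · intro a k
    refine ⟨ih42_U_mem N q hq _ hG u hu hD a k, ?_⟩
    show φ cinf (sy71_U ((a : ℚ) / (q : ℚ) ^ k) • cinf) = 0
    rw [hUinf, ih42_self φ hadd]
  · intro a k
    have hmem := ih42_L_mem N q hq _ hG u hu hD a k
    refine ⟨hmem, ?_⟩
    show φ cinf (sy71_L ((N : ℚ) * a / (q : ℚ) ^ k) • cinf) = 0
    rw [ih42_period_indep φ hadd hmem cinf c0, hL0, ih42_self φ hadd]

/-- **Ihara for symbols**: a symbol invariant under `Γ₀(N)` and `δ⁻¹ Γ₀(N) δ`, `δ = diag(q, 1)`,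
has a Shimura period character. -/
theorem ih42_shimura [Field K] (p : ℕ) [Fact p.Prime] [CharP K p] (hp2 : p ≠ 2)
    (N q : ℕ) (hN : 0 < N) (hq : 2 ≤ q) (hqN : Nat.Coprime q N)
    (φ : X → X → K) (cinf c0 : X)
    (hadd : ∀ a b c, φ a b + φ b c = φ a c)
    (hUinf : ∀ x : ℚ, sy71_U x • cinf = cinf)
    (hL0 : ∀ y : ℚ, sy71_L y • c0 = c0)
    (hG : ∀ γ : SL(2, ℤ), (N : ℤ) ∣ γ 1 0 →
      Matrix.SpecialLinearGroup.map (Int.castRingHom ℚ) γ ∈ ih42_stab φ)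
    (hG' : ∀ (γ : SL(2, ℤ)) (g : SL(2, ℚ)), (N : ℤ) ∣ γ 1 0 →
      ih42_Conj q (Matrix.SpecialLinearGroup.map (Int.castRingHom ℚ) γ) g → g ∈ ih42_stab φ) :
    ∃ θ : (ZMod N)ˣ →* Multiplicative K, ∀ γ : Gamma0 N,
      φ cinf (Matrix.SpecialLinearGroup.map (Int.castRingHom ℚ) (γ : SL(2, ℤ)) • cinf) =
        shimuraHom N θ (Additive.ofMul γ) := by
  have hq0 : (q : ℚ) ≠ 0 := by
    have : 0 < q := by omega
    exact_mod_cast this.ne'
  exact ih42_shimura_of_D p hp2 N q hN hq hqN φ cinf c0 hadd hUinf hL0 hG (Units.mk0 (q : ℚ) hq0)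
    rfl (ih42_D_mem N q hq hqN _ hG hG' _ rfl)

/-- **Ihara for symbols**, other conjugate: a symbol invariant under `Γ₀(N)` and `δ Γ₀(N) δ⁻¹`,
`δ = diag(q, 1)`, has a Shimura period character. -/
theorem ih42_shimura' [Field K] (p : ℕ) [Fact p.Prime] [CharP K p] (hp2 : p ≠ 2)
    (N q : ℕ) (hN : 0 < N) (hq : 2 ≤ q) (hqN : Nat.Coprime q N)
    (φ : X → X → K) (cinf c0 : X)
    (hadd : ∀ a b c, φ a b + φ b c = φ a c)
    (hUinf : ∀ x : ℚ, sy71_U x • cinf = cinf)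
    (hL0 : ∀ y : ℚ, sy71_L y • c0 = c0)
    (hG : ∀ γ : SL(2, ℤ), (N : ℤ) ∣ γ 1 0 →
      Matrix.SpecialLinearGroup.map (Int.castRingHom ℚ) γ ∈ ih42_stab φ)
    (hG' : ∀ (γ : SL(2, ℤ)) (g : SL(2, ℚ)), (N : ℤ) ∣ γ 1 0 →
      ih42_Conj q g (Matrix.SpecialLinearGroup.map (Int.castRingHom ℚ) γ) → g ∈ ih42_stab φ) :
    ∃ θ : (ZMod N)ˣ →* Multiplicative K, ∀ γ : Gamma0 N,
      φ cinf (Matrix.SpecialLinearGroup.map (Int.castRingHom ℚ) (γ : SL(2, ℤ)) • cinf) =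
        shimuraHom N θ (Additive.ofMul γ) := by
  have hq0 : (q : ℚ) ≠ 0 := by
    have : 0 < q := by omega
    exact_mod_cast this.ne'
  exact ih42_shimura_of_D p hp2 N q hN hq hqN φ cinf c0 hadd hUinf hL0 hG (Units.mk0 (q : ℚ) hq0)
    rfl (ih42_D_mem' N q hq hqN _ hG hG' _ rfl)

/-- **Ihara for symbols, kernel of the degeneracy map**: `φ₁`, `φ₂` symbols of level `N` with
`φ₁ + δ^* φ₂ = 0`, where `δ : X → X` is a surjection with `δ (g • x) = h • δ x` whenever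
`δ g = h δ` as matrices (`δ = diag(q, 1)`).  Then both period characters are Shimura. -/
theorem ih42_shimura_pair [Field K] (p : ℕ) [Fact p.Prime] [CharP K p] (hp2 : p ≠ 2)
    (N q : ℕ) (hN : 0 < N) (hq : 2 ≤ q) (hqN : Nat.Coprime q N)
    (φ₁ φ₂ : X → X → K) (cinf c0 : X) (δ : X → X)
    (hadd₁ : ∀ a b c, φ₁ a b + φ₁ b c = φ₁ a c)
    (hadd₂ : ∀ a b c, φ₂ a b + φ₂ b c = φ₂ a c)
    (hUinf : ∀ x : ℚ, sy71_U x • cinf = cinf)
    (hL0 : ∀ y : ℚ, sy71_L y • c0 = c0)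
    (hG₁ : ∀ γ : SL(2, ℤ), (N : ℤ) ∣ γ 1 0 →
      Matrix.SpecialLinearGroup.map (Int.castRingHom ℚ) γ ∈ ih42_stab φ₁)
    (hG₂ : ∀ γ : SL(2, ℤ), (N : ℤ) ∣ γ 1 0 →
      Matrix.SpecialLinearGroup.map (Int.castRingHom ℚ) γ ∈ ih42_stab φ₂)
    (hδ : ∀ h g : SL(2, ℚ), ih42_Conj q h g → ∀ x, δ (g • x) = h • δ x)
    (hδsurj : Function.Surjective δ)
    (h12 : ∀ a b, φ₁ a b + φ₂ (δ a) (δ b) = 0) :
    (∃ θ : (ZMod N)ˣ →* Multiplicative K, ∀ γ : Gamma0 N,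
      φ₁ cinf (Matrix.SpecialLinearGroup.map (Int.castRingHom ℚ) (γ : SL(2, ℤ)) • cinf) =
        shimuraHom N θ (Additive.ofMul γ)) ∧
    (∃ θ : (ZMod N)ˣ →* Multiplicative K, ∀ γ : Gamma0 N,
      φ₂ cinf (Matrix.SpecialLinearGroup.map (Int.castRingHom ℚ) (γ : SL(2, ℤ)) • cinf) =
        shimuraHom N θ (Additive.ofMul γ)) := by
  have e1 : ∀ a b, φ₁ a b = -φ₂ (δ a) (δ b) := fun a b => eq_neg_of_add_eq_zero_left (h12 a b)
  refine ⟨ih42_shimura p hp2 N q hN hq hqN φ₁ cinf c0 hadd₁ hUinf hL0 hG₁ ?_,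
    ih42_shimura' p hp2 N q hN hq hqN φ₂ cinf c0 hadd₂ hUinf hL0 hG₂ ?_⟩
  · intro γ g hγ hc a b
    rw [e1, e1, hδ _ g hc, hδ _ g hc, hG₂ γ hγ]
  · intro γ g hγ hc a b
    obtain ⟨a', rfl⟩ := hδsurj a
    obtain ⟨b', rfl⟩ := hδsurj b
    have h1 := e1 (Matrix.SpecialLinearGroup.map (Int.castRingHom ℚ) γ • a')
      (Matrix.SpecialLinearGroup.map (Int.castRingHom ℚ) γ • b')
    rw [hδ g _ hc, hδ g _ hc, hG₁ γ hγ, e1] at h1
    exact (neg_injective h1).symm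

end Symbols

end Fermat.Agent.S41
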