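import Mathlib
import Fermat.Agent.S41.IharaSymb42
import Fermat.Agent.S41.Trace43

/-!
# S41 / M4.6 (link L6 of ruling #1357): the first Ihara lemma on the concrete symbol lattice

Setting of `Trace43`: `P` a type with an action of `GL(2, ℚ)` (a model of `ℙ¹(ℚ)`), symbols are
plain functions `Φ : P × P → A` with `Φ (a, b) + Φ (b, c) = Φ (a, c)` (`ic42_IsSymb`), invariant
under `Γ₀(N)` (`tr43_Inv N`); Hecke operators `tr43_T ℓ`, Atkin–Lehner `tr43_W D`.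

`ic42_E ℓ Φ = T_ℓ Φ - (ℓ + 1) Φ`.  Main statements:

* `ic42_period` : the period computation for `tr43_T ℓ` against `heckeHom N ℓ A` (S16);
* `ic42_nu_E` : if the period character of `Φ` is a `(ℓ+1)`-eigenvector of `heckeHom N ℓ A` then
  the period character of `E Φ` vanishes;
* `ic42_E_boundary` : a symbol of level `N` with vanishing period character is killed by `E`
  (`ℓ` moves every point inside its `Γ₀(N)`-orbit: hypothesis `hmove`, true for `ℓ ≡ 1 mod N`);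
* `ic42_H1_field` : over a field of characteristic `p ≠ 2`: `φ₁ + W_q φ₂ = 0 ⟹ E (E φ_k) = 0`;
* `ic42_H1` : integral form = hypothesis `(ha)` of the level-raising algebra with exponent `2`:
  `p ∣ φ₁ + W_q φ₂` pointwise `⟹ p ∣ E (E φ_k)` pointwise.
-/

set_option autoImplicit false

namespace Fermat.Agent.S41

open Matrix MatrixGroups CongruenceSubgroup
open Fermat.Agent.S16

section Basic

variable {P : Type*} [MulAction (GL (Fin 2) ℚ) P] {A : Type*} [AddCommGroup A]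

/-- additivity of a two-point function -/
def ic42_IsSymb (Φ : P × P → A) : Prop := ∀ a b c : P, Φ (a, b) + Φ (b, c) = Φ (a, c)

/-- `E_ℓ = T_ℓ - (ℓ + 1)` on functions -/
noncomputable def ic42_E (ℓ : ℕ) (Φ : P × P → A) : P × P → A := tr43_T ℓ Φ - (ℓ + 1) • Φ

theorem ic42_E_apply (ℓ : ℕ) (Φ : P × P → A) (x : P × P) :
    ic42_E ℓ Φ x = (∑ i : Option (Fin ℓ), Φ (tr43_gl (lbMat ℓ i) • x)) - (ℓ + 1) • Φ x := by
  rw [ic42_E, Pi.sub_apply, tr43_T_apply, Pi.smul_apply]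

omit [MulAction (GL (Fin 2) ℚ) P] in
theorem ic42_IsSymb.self {Φ : P × P → A} (h : ic42_IsSymb Φ) (a : P) : Φ (a, a) = 0 := by
  have := h a a a
  exact left_eq_add.mp this.symm

omit [MulAction (GL (Fin 2) ℚ) P] in
theorem ic42_IsSymb.sub {Φ : P × P → A} (h : ic42_IsSymb Φ) (c a b : P) :
    Φ (a, b) = Φ (c, b) - Φ (c, a) := by
  rw [← h c a b]; abel

theorem ic42_IsSymb.T {Φ : P × P → A} (h : ic42_IsSymb Φ) (ℓ : ℕ) : ic42_IsSymb (tr43_T ℓ Φ) := by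
  intro a b c
  rw [tr43_T_apply, tr43_T_apply, tr43_T_apply, ← Finset.sum_add_distrib]
  exact Finset.sum_congr rfl fun i _ => h _ _ _

theorem ic42_IsSymb.E {Φ : P × P → A} (h : ic42_IsSymb Φ) (ℓ : ℕ) : ic42_IsSymb (ic42_E ℓ Φ) := by
  intro a b c
  rw [ic42_E, Pi.sub_apply, Pi.sub_apply, Pi.sub_apply, Pi.smul_apply, Pi.smul_apply,
    Pi.smul_apply, ← h.T ℓ a b c, ← h a b c, smul_add]
  abel

theorem ic42_E_Inv {N ℓ : ℕ} (hℓ : ℓ.Prime) (hℓN : ¬ ℓ ∣ N) {Φ : P × P → A}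
    (hΦ : tr43_Inv N Φ) : tr43_Inv N (ic42_E ℓ Φ) := by
  intro γ x
  rw [ic42_E, Pi.sub_apply, Pi.sub_apply, Pi.smul_apply, Pi.smul_apply,
    tr43_T_Inv hℓ hℓN hΦ γ x, hΦ γ x]

/-- coefficient change commutes with `E` -/
theorem ic42_E_comp {B : Type*} [AddCommGroup B] (g : A →+ B) (ℓ : ℕ) (Φ : P × P → A)
    (x : P × P) : ic42_E ℓ (fun y => g (Φ y)) x = g (ic42_E ℓ Φ x) := by
  rw [ic42_E_apply, ic42_E_apply, map_sub, map_sum, map_nsmul]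

theorem ic42_repT_eq (ℓ : ℕ) (i : Option (Fin ℓ)) : hh_repTInt ℓ i = lbMat ℓ i := by
  cases i <;> rfl

/-- **Period computation** for `T_ℓ` (`ℓ ∤ N`) in the `tr43` model against S16's `heckeHom`. -/
theorem ic42_period {N ℓ : ℕ} (hℓ : ℓ.Prime) (hℓN : ¬ ℓ ∣ N) (F : P → A)
    (χ : Additive (Gamma0 N) →+ A)
    (hF : ∀ (γ : Gamma0 N) (z : P),
      F (Matrix.SpecialLinearGroup.mapGL ℚ (γ : SL(2, ℤ)) • z) - F z = χ (Additive.ofMul γ))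
    (γ : Gamma0 N) (z : P) :
    (∑ i : Option (Fin ℓ),
        F (tr43_gl (lbMat ℓ i) • Matrix.SpecialLinearGroup.mapGL ℚ (γ : SL(2, ℤ)) • z)) -
      ∑ i : Option (Fin ℓ), F (tr43_gl (lbMat ℓ i) • z) =
      heckeHom N ℓ A χ (Additive.ofMul γ) := by
  rw [heckeHom_of_not_dvd hℓ hℓN, HeckeReps.op_apply]
  set R := hh_repsT N ℓ hℓ hℓN with hR
  have hdet : ∀ i : Option (Fin ℓ), (lbMat ℓ i).det ≠ 0 := fun i =>
    (lbMat_det_pos hℓ.pos i).ne'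
  have h1 : ∀ i, F (tr43_gl (lbMat ℓ i) • Matrix.SpecialLinearGroup.mapGL ℚ (γ : SL(2, ℤ)) • z) =
      χ (Additive.ofMul (R.κ i γ)) + F (tr43_gl (lbMat ℓ (R.σ γ i)) • z) := by
    intro i
    have hint := hh_repsT_int N ℓ hℓ hℓN i γ
    rw [ic42_repT_eq, ic42_repT_eq] at hint
    have e : tr43_gl (lbMat ℓ i) * Matrix.SpecialLinearGroup.mapGL ℚ (γ : SL(2, ℤ)) =
        Matrix.SpecialLinearGroup.mapGL ℚ ((R.κ i γ : Gamma0 N) : SL(2, ℤ)) *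
          tr43_gl (lbMat ℓ (R.σ γ i)) := by
      rw [← tr43_gl_sl, ← tr43_gl_sl, ← tr43_gl_mul (hdet i) (tr43_sl_det_ne _), hint,
        tr43_gl_mul (tr43_sl_det_ne _) (hdet _)]
    rw [← mul_smul, e, mul_smul, ← hF (R.κ i γ) (tr43_gl (lbMat ℓ (R.σ γ i)) • z)]
    abel
  rw [Finset.sum_congr rfl (fun i _ => h1 i), Finset.sum_add_distrib]
  have h2 : ∑ i, F (tr43_gl (lbMat ℓ (R.σ γ i)) • z) = ∑ i, F (tr43_gl (lbMat ℓ i) • z) :=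
    Equiv.sum_comp (R.σEquiv γ) (fun j => F (tr43_gl (lbMat ℓ j) • z))
  rw [h2]
  abel

/-- the period of an invariant symbol does not depend on the base point -/
theorem ic42_period_indep {N : ℕ} {Φ : P × P → A} (hs : ic42_IsSymb Φ) (hΦ : tr43_Inv N Φ)
    (γ : Gamma0 N) (a b : P) :
    Φ (a, Matrix.SpecialLinearGroup.mapGL ℚ (γ : SL(2, ℤ)) • a) =
      Φ (b, Matrix.SpecialLinearGroup.mapGL ℚ (γ : SL(2, ℤ)) • b) := by
  set g := Matrix.SpecialLinearGroup.mapGL ℚ (γ : SL(2, ℤ)) with hg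
  have h1 := hs a b (g • b)
  have h2 := hs a (g • a) (g • b)
  have h3 : Φ (g • a, g • b) = Φ (a, b) := hΦ γ (a, b)
  rw [h3] at h2
  have : Φ (a, b) + Φ (b, g • b) = Φ (a, g • a) + Φ (a, b) := by rw [h1, h2]
  rw [add_comm (Φ (a, g • a))] at this
  exact (add_left_cancel this).symm

/-- if the period character of the symbol `Φ` is `χ` and `T_ℓ χ = (ℓ + 1) χ`, then the period
character of `E Φ` vanishes. -/
theorem ic42_nu_E {N ℓ : ℕ} (hℓ : ℓ.Prime) (hℓN : ¬ ℓ ∣ N) {Φ : P × P → A}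
    (hs : ic42_IsSymb Φ) (hΦ : tr43_Inv N Φ) (cinf : P) (χ : Additive (Gamma0 N) →+ A)
    (hχ : ∀ γ : Gamma0 N,
      Φ (cinf, Matrix.SpecialLinearGroup.mapGL ℚ (γ : SL(2, ℤ)) • cinf) = χ (Additive.ofMul γ))
    (hT : heckeHom N ℓ A χ = (ℓ + 1) • χ) (γ : Gamma0 N) :
    ic42_E ℓ Φ (cinf, Matrix.SpecialLinearGroup.mapGL ℚ (γ : SL(2, ℤ)) • cinf) = 0 := by
  have hF : ∀ (γ : Gamma0 N) (z : P),
      Φ (cinf, Matrix.SpecialLinearGroup.mapGL ℚ (γ : SL(2, ℤ)) • z) - Φ (cinf, z) =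
        χ (Additive.ofMul γ) := by
    intro γ z
    rw [← hχ γ, ic42_period_indep hs hΦ γ cinf z, ← hs cinf z _]
    abel
  have hper := ic42_period hℓ hℓN (fun z => Φ (cinf, z)) χ hF γ cinf
  rw [ic42_E_apply]
  have h1 : ∀ i : Option (Fin ℓ),
      Φ (tr43_gl (lbMat ℓ i) • (cinf, Matrix.SpecialLinearGroup.mapGL ℚ (γ : SL(2, ℤ)) • cinf)) =
      Φ (cinf, tr43_gl (lbMat ℓ i) • Matrix.SpecialLinearGroup.mapGL ℚ (γ : SL(2, ℤ)) • cinf) -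
        Φ (cinf, tr43_gl (lbMat ℓ i) • cinf) := by
    intro i
    exact hs.sub cinf _ _
  rw [Finset.sum_congr rfl (fun i _ => h1 i), Finset.sum_sub_distrib, hper, hT, hχ γ]
  rw [AddMonoidHom.smul_apply, sub_self]

/-- a symbol of level `N` whose period character vanishes is a boundary symbol, hence killed by
`E_ℓ` as soon as the `T_ℓ`-representatives move every point inside its `Γ₀(N)`-orbit. -/
theorem ic42_E_boundary {N ℓ : ℕ} {Ξ : P × P → A} (hs : ic42_IsSymb Ξ) (hΞ : tr43_Inv N Ξ)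
    (cinf : P)
    (h0 : ∀ γ : Gamma0 N, Ξ (cinf, Matrix.SpecialLinearGroup.mapGL ℚ (γ : SL(2, ℤ)) • cinf) = 0)
    (hmove : ∀ (i : Option (Fin ℓ)) (x : P), ∃ γ : Gamma0 N,
      tr43_gl (lbMat ℓ i) • x = Matrix.SpecialLinearGroup.mapGL ℚ (γ : SL(2, ℤ)) • x)
    (x : P × P) : ic42_E ℓ Ξ x = 0 := by
  obtain ⟨a, b⟩ := x
  -- `β z = Ξ (cinf, z)` is `Γ₀(N)`-invariant
  have hβ : ∀ (γ : Gamma0 N) (z : P),
      Ξ (cinf, Matrix.SpecialLinearGroup.mapGL ℚ (γ : SL(2, ℤ)) • z) = Ξ (cinf, z) := by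
    intro γ z
    have h1 := hs cinf (Matrix.SpecialLinearGroup.mapGL ℚ (γ : SL(2, ℤ)) • cinf)
      (Matrix.SpecialLinearGroup.mapGL ℚ (γ : SL(2, ℤ)) • z)
    have h2 : Ξ (Matrix.SpecialLinearGroup.mapGL ℚ (γ : SL(2, ℤ)) • cinf,
        Matrix.SpecialLinearGroup.mapGL ℚ (γ : SL(2, ℤ)) • z) = Ξ (cinf, z) := hΞ γ (cinf, z)
    rw [h0 γ, zero_add, h2] at h1
    exact h1.symm
  have hβ' : ∀ (i : Option (Fin ℓ)) (z : P), Ξ (cinf, tr43_gl (lbMat ℓ i) • z) = Ξ (cinf, z) := by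
    intro i z
    obtain ⟨γ, hγ⟩ := hmove i z
    rw [hγ, hβ]
  rw [ic42_E_apply]
  have h1 : ∀ i : Option (Fin ℓ), Ξ (tr43_gl (lbMat ℓ i) • (a, b)) = Ξ (a, b) := by
    intro i
    have e : tr43_gl (lbMat ℓ i) • (a, b) = (tr43_gl (lbMat ℓ i) • a, tr43_gl (lbMat ℓ i) • b) :=
      rfl
    rw [e, hs.sub cinf, hβ', hβ', ← hs.sub cinf]
  rw [Finset.sum_congr rfl (fun i _ => h1 i), Finset.sum_const, Finset.card_univ,
    Fintype.card_option, Fintype.card_fin, sub_self]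

end Basic

section Field

variable {P : Type*} [MulAction (GL (Fin 2) ℚ) P] {K : Type*} [Field K]

/-- **First Ihara lemma over a field of characteristic `p ≠ 2`** (concrete symbols): if
`φ₁ + W_q φ₂ = 0` for symbols `φ₁`, `φ₂` of level `N`, then `E (E φ₁) = 0 = E (E φ₂)`, where
`E = T_ℓ - (ℓ + 1)` for a prime `ℓ ∤ N` moving every point inside its `Γ₀(N)`-orbit. -/
theorem ic42_H1_field (p : ℕ) [Fact p.Prime] [CharP K p] (hp2 : p ≠ 2) {N q : ℕ} (hN : 0 < N)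
    (hq : q.Prime) (hqN : ¬ q ∣ N) (D : tr43_Data N q) {ℓ : ℕ} (hℓ : ℓ.Prime) (hℓN : ¬ ℓ ∣ N)
    (cinf c0 : P)
    (hUinf : ∀ x : ℚ, (Matrix.SpecialLinearGroup.toGL (sy71_U x) : GL (Fin 2) ℚ) • cinf = cinf)
    (hL0 : ∀ y : ℚ, (Matrix.SpecialLinearGroup.toGL (sy71_L y) : GL (Fin 2) ℚ) • c0 = c0)
    (hmove : ∀ (i : Option (Fin ℓ)) (x : P), ∃ γ : Gamma0 N,
      tr43_gl (lbMat ℓ i) • x = Matrix.SpecialLinearGroup.mapGL ℚ (γ : SL(2, ℤ)) • x)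
    (ψ₁ ψ₂ : P × P → K) (hs₁ : ic42_IsSymb ψ₁) (hs₂ : ic42_IsSymb ψ₂)
    (hi₁ : tr43_Inv N ψ₁) (hi₂ : tr43_Inv N ψ₂)
    (h12 : ∀ x, ψ₁ x + tr43_W D ψ₂ x = 0) :
    (∀ x, ic42_E ℓ (ic42_E ℓ ψ₁) x = 0) ∧ (∀ x, ic42_E ℓ (ic42_E ℓ ψ₂) x = 0) := by
  let _ : MulAction SL(2, ℚ) P :=
    MulAction.compHom P (Matrix.SpecialLinearGroup.toGL : SL(2, ℚ) →* GL (Fin 2) ℚ)
  have hsmul : ∀ (g : SL(2, ℚ)) (x : P),
      g • x = (Matrix.SpecialLinearGroup.toGL g : GL (Fin 2) ℚ) • x := fun _ _ => rfl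
  have hcast : ∀ (γ : SL(2, ℤ)) (x : P),
      Matrix.SpecialLinearGroup.map (Int.castRingHom ℚ) γ • x =
        Matrix.SpecialLinearGroup.mapGL ℚ γ • x := fun _ _ => rfl
  have hq0 : q ≠ 0 := hq.ne_zero
  have hqQ : (q : ℚ) ≠ 0 := by exact_mod_cast hq0
  have hdetq : (lbMat q none).det ≠ 0 := (lbMat_det_pos hq.pos none).ne'
  -- the stabiliser hypotheses
  have hG : ∀ {ψ : P × P → K}, tr43_Inv N ψ → ∀ γ : SL(2, ℤ), (N : ℤ) ∣ γ 1 0 →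
      Matrix.SpecialLinearGroup.map (Int.castRingHom ℚ) γ ∈ ih42_stab (fun a b => ψ (a, b)) := by
    intro ψ hψ γ hγ a b
    show ψ (_, _) = ψ (a, b)
    rw [hcast, hcast]
    exact hψ ⟨γ, gl71_gamma0_iff.mpr hγ⟩ (a, b)
  -- `δ = diag(q, 1)`
  have hδ : ∀ h g : SL(2, ℚ), ih42_Conj q h g → ∀ x : P,
      tr43_gl (lbMat q none) • (g • x) = h • (tr43_gl (lbMat q none) • x) := by
    intro h g hc x
    rw [hsmul, hsmul, ← mul_smul, ← mul_smul]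
    congr 1
    apply Units.ext
    rw [Units.val_mul, Units.val_mul, tr43_gl_coe hdetq]
    obtain ⟨h00, h01, h10, h11⟩ := hc
    ext i j
    fin_cases i <;> fin_cases j <;>
      simp [Matrix.mul_apply, Fin.sum_univ_two, lbMat, h00, h01, h10, h11] <;> field_simp
  have hδsurj : Function.Surjective (fun x : P => tr43_gl (lbMat q none) • x) :=
    fun x => ⟨(tr43_gl (lbMat q none))⁻¹ • x, smul_inv_smul _ _⟩
  have h12' : ∀ a b : P, ψ₁ (a, b) +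
      ψ₂ (tr43_gl (lbMat q none) • a, tr43_gl (lbMat q none) • b) = 0 := by
    intro a b
    have h := h12 (a, b)
    have e : tr43_W D ψ₂ = tr43_sl ψ₂ (lbMat q none) := by
      rw [tr43_W, D.w_eq, tr43_sl_Gamma0_mul hi₂ _ hdetq]
    rw [e] at h
    exact h
  obtain ⟨⟨θ₁, hθ₁⟩, ⟨θ₂, hθ₂⟩⟩ := ih42_shimura_pair p hp2 N q hN hq.two_le
    ((Nat.Prime.coprime_iff_not_dvd hq).mpr hqN) (fun a b => ψ₁ (a, b)) (fun a b => ψ₂ (a, b))
    cinf c0 (fun x => tr43_gl (lbMat q none) • x) (fun a b c => hs₁ a b c)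
    (fun a b c => hs₂ a b c) (fun x => hUinf x) (fun y => hL0 y) (hG hi₁) (hG hi₂) hδ hδsurj h12'
  have key : ∀ {ψ : P × P → K}, ic42_IsSymb ψ → tr43_Inv N ψ →
      ∀ θ : (ZMod N)ˣ →* Multiplicative K,
      (∀ γ : Gamma0 N, ψ (cinf, Matrix.SpecialLinearGroup.mapGL ℚ (γ : SL(2, ℤ)) • cinf) =
        shimuraHom N θ (Additive.ofMul γ)) → ∀ x, ic42_E ℓ (ic42_E ℓ ψ) x = 0 := by
    intro ψ hs hi θ hθ x
    refine ic42_E_boundary (hs.E ℓ) (ic42_E_Inv hℓ hℓN hi) cinf ?_ hmove x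
    exact ic42_nu_E hℓ hℓN hs hi cinf (shimuraHom N θ) hθ (heckeHom_shimuraHom_T hℓ hℓN θ)
  exact ⟨key hs₁ hi₁ θ₁ (fun γ => hθ₁ γ), key hs₂ hi₂ θ₂ (fun γ => hθ₂ γ)⟩

/-- **First Ihara lemma, integral form** (`(ha)` of the level-raising algebra, exponent `2`):
integer-valued symbols `φ₁`, `φ₂` of level `N` with `p ∣ φ₁ + W_q φ₂` pointwise satisfy
`p ∣ E (E φ₁)` and `p ∣ E (E φ₂)` pointwise. -/
theorem ic42_H1 (p : ℕ) (hp : p.Prime) (hp2 : p ≠ 2) {N q : ℕ} (hN : 0 < N)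
    (hq : q.Prime) (hqN : ¬ q ∣ N) (D : tr43_Data N q) {ℓ : ℕ} (hℓ : ℓ.Prime) (hℓN : ¬ ℓ ∣ N)
    (cinf c0 : P)
    (hUinf : ∀ x : ℚ, (Matrix.SpecialLinearGroup.toGL (sy71_U x) : GL (Fin 2) ℚ) • cinf = cinf)
    (hL0 : ∀ y : ℚ, (Matrix.SpecialLinearGroup.toGL (sy71_L y) : GL (Fin 2) ℚ) • c0 = c0)
    (hmove : ∀ (i : Option (Fin ℓ)) (x : P), ∃ γ : Gamma0 N,
      tr43_gl (lbMat ℓ i) • x = Matrix.SpecialLinearGroup.mapGL ℚ (γ : SL(2, ℤ)) • x)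
    (φ₁ φ₂ : P × P → ℤ) (hs₁ : ic42_IsSymb φ₁) (hs₂ : ic42_IsSymb φ₂)
    (hi₁ : tr43_Inv N φ₁) (hi₂ : tr43_Inv N φ₂)
    (h12 : ∀ x, (p : ℤ) ∣ φ₁ x + tr43_W D φ₂ x) :
    (∀ x, (p : ℤ) ∣ ic42_E ℓ (ic42_E ℓ φ₁) x) ∧ (∀ x, (p : ℤ) ∣ ic42_E ℓ (ic42_E ℓ φ₂) x) := by
  have : Fact p.Prime := ⟨hp⟩
  set c : ℤ →+ ZMod p := Int.castAddHom (ZMod p) with hc
  have hcs : ∀ {φ : P × P → ℤ}, ic42_IsSymb φ → ic42_IsSymb (fun y => c (φ y)) := by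
    intro φ hφ a b d
    show c _ + c _ = c _
    rw [← map_add, hφ a b d]
  have hci : ∀ {φ : P × P → ℤ}, tr43_Inv N φ → tr43_Inv N (fun y => c (φ y)) := by
    intro φ hφ γ x
    show c _ = c _
    rw [hφ γ x]
  have h12' : ∀ x, (fun y => c (φ₁ y)) x + tr43_W D (fun y => c (φ₂ y)) x = 0 := by
    intro x
    show c (φ₁ x) + c (tr43_W D φ₂ x) = 0
    rw [← map_add]
    exact (ZMod.intCast_zmod_eq_zero_iff_dvd _ p).mpr (h12 x)
  obtain ⟨r₁, r₂⟩ := ic42_H1_field (K := ZMod p) p hp2 hN hq hqN D hℓ hℓN cinf c0 hUinf hL0 hmove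
    (fun y => c (φ₁ y)) (fun y => c (φ₂ y)) (hcs hs₁) (hcs hs₂) (hci hi₁) (hci hi₂) h12'
  have fin : ∀ {φ : P × P → ℤ}, (∀ x, ic42_E ℓ (ic42_E ℓ (fun y => c (φ y))) x = 0) →
      ∀ x, (p : ℤ) ∣ ic42_E ℓ (ic42_E ℓ φ) x := by
    intro φ h x
    have h1 := h x
    have e : ic42_E ℓ (fun y => c (φ y)) = fun y => c (ic42_E ℓ φ y) :=
      funext fun y => ic42_E_comp c ℓ φ y
    rw [e, ic42_E_comp c ℓ (ic42_E ℓ φ) x] at h1
    exact (ZMod.intCast_zmod_eq_zero_iff_dvd _ p).mp h1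
  exact ⟨fin r₁, fin r₂⟩

end Field

end Fermat.Agent.S41
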