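/-
S41 / L13 = M6.OUT (helper60).  From a level-raised eigen-symbol to the new eigenform.

Conventions C1-C6 of the S41 architecture ruling: symbols are plain functions
`Φ : OnePoint ℚ × OnePoint ℚ → A` (`sc71_X`, `sc71_IsSymb`, `tr43_Inv`), operators are those
of `Trace43` (`tr43_T`, `tr43_U`, `tr43_W`, `tr43_tr`), `ν = sc71_nu`.

* `out60_boundary_T` : a symbol `Φ` of level `M` with `ν Φ = 0` satisfies
  `T_ℓ Φ = (ℓ + 1) • Φ` as soon as the representatives of `T_ℓ` move every cusp inside its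
  `Γ₀(M)`-orbit (hypothesis `hmove`; true for `ℓ ≡ 1 mod M`).
* `out60_nu_ne_zero` : a nonzero `ℂ`-valued eigen-symbol whose `T_ℓ`-eigenvalue is not `ℓ + 1`
  has `ν Φ ≠ 0`.
* `out60_newform` / `out60_newform_idx` : a nonzero `ℂ`-valued symbol `y` of level `N q`,
  killed by the two traces to level `N`, eigenvector of the `T_ℓ` (`ℓ` in a set of primes not
  dividing `N q`), non-Eisenstein at one prime `l0`, gives a normalised eigenform of level
  `N q` with the same eigenvalues, new at `q`.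
-/
import Mathlib
import Fermat.Agent.S41.SymbCore71
import Fermat.Agent.S41.ESTransfer60

set_option autoImplicit false

open Matrix MatrixGroups CongruenceSubgroup OnePoint ModularCurve ModularCurve.Period
open Fermat.Agent.S16

namespace Fermat.Agent.S41

section Boundary

variable {A : Type*} [AddCommGroup A]

/-- A symbol is the difference of its potential `x ↦ Φ (∞, x)`. -/
theorem out60_eq_potential {Φ : sc71_X → A} (hΦ : sc71_IsSymb Φ) (a b : OnePoint ℚ) :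
    Φ (a, b) = Φ (∞, b) - Φ (∞, a) := by
  rw [← hΦ ∞ a b]
  abel

/-- **Boundary symbols are Eisenstein.**  If `ν Φ = 0` and the representatives of `T_ℓ` move
every cusp inside its `Γ₀(M)`-orbit, then `T_ℓ Φ = (ℓ + 1) • Φ`. -/
theorem out60_boundary_T {M ℓ : ℕ} {Φ : sc71_X → A} (hΦ : sc71_IsSymb Φ)
    (hinv : tr43_Inv M Φ) (hν : sc71_nu M Φ hΦ hinv = 0)
    (hmove : ∀ (i : Option (Fin ℓ)) (x : OnePoint ℚ), ∃ γ : Gamma0 M,
      tr43_gl (lbMat ℓ i) • x = Matrix.SpecialLinearGroup.mapGL ℚ (γ : SL(2, ℤ)) • x) :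
    tr43_T ℓ Φ = (ℓ + 1) • Φ := by
  have hb := (sc71_nu_eq_zero_iff hΦ hinv ∞).1 hν
  have hβ : ∀ (i : Option (Fin ℓ)) (x : OnePoint ℚ),
      Φ (∞, tr43_gl (lbMat ℓ i) • x) = Φ (∞, x) := by
    intro i x
    obtain ⟨γ, hγ⟩ := hmove i x
    rw [hγ, hb γ x]
  funext x
  obtain ⟨a, b⟩ := x
  rw [tr43_T_apply]
  have h1 : ∀ i : Option (Fin ℓ), Φ (tr43_gl (lbMat ℓ i) • ((a, b) : sc71_X)) = Φ (a, b) := by
    intro i
    rw [Prod.smul_mk, out60_eq_potential hΦ, hβ i b, hβ i a, ← out60_eq_potential hΦ]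
  rw [Finset.sum_congr rfl fun i _ => h1 i, Finset.sum_const, Finset.card_univ,
    Fintype.card_option, Fintype.card_fin]
  rfl

end Boundary

section Complex

/-- A nonzero `ℂ`-valued symbol of level `M` which is an eigenvector of `T_ℓ` with eigenvalue
different from `ℓ + 1` (for an `ℓ` whose representatives move the cusps inside their
`Γ₀(M)`-orbits) is not a boundary symbol: `ν Φ ≠ 0`. -/
theorem out60_nu_ne_zero {M ℓ : ℕ} {Φ : sc71_X → ℂ} (hΦ : sc71_IsSymb Φ)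
    (hinv : tr43_Inv M Φ) (hΦ0 : Φ ≠ 0) {c : ℂ} (heig : tr43_T ℓ Φ = c • Φ)
    (hc : c ≠ (ℓ : ℂ) + 1)
    (hmove : ∀ (i : Option (Fin ℓ)) (x : OnePoint ℚ), ∃ γ : Gamma0 M,
      tr43_gl (lbMat ℓ i) • x = Matrix.SpecialLinearGroup.mapGL ℚ (γ : SL(2, ℤ)) • x) :
    sc71_nu M Φ hΦ hinv ≠ 0 := by
  intro hν
  apply hΦ0
  have h1 := out60_boundary_T hΦ hinv hν hmove
  rw [heig] at h1
  funext x
  have h2 := congrFun h1 x
  simp only [Pi.smul_apply, smul_eq_mul, nsmul_eq_mul, Nat.cast_add, Nat.cast_one] at h2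
  have h3 : (c - ((ℓ : ℂ) + 1)) * Φ x = 0 := by linear_combination h2
  rcases mul_eq_zero.1 h3 with h4 | h4
  · exact absurd (sub_eq_zero.1 h4) hc
  · exact h4

/-- `ν` of a scalar multiple. -/
theorem out60_nu_smul {M : ℕ} {Φ : sc71_X → ℂ} (hΦ : sc71_IsSymb Φ) (hinv : tr43_Inv M Φ)
    (c : ℂ) (hΦ' : sc71_IsSymb (c • Φ)) (hinv' : tr43_Inv M (c • Φ)) :
    sc71_nu M (c • Φ) hΦ' hinv' = c • sc71_nu M Φ hΦ hinv := by
  refine AddMonoidHom.ext fun γ => ?_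
  rfl

/-- `ν` only depends on the underlying function. -/
theorem out60_nu_congr {M : ℕ} {A : Type*} [AddCommGroup A] {Φ Ψ : sc71_X → A} (h : Φ = Ψ)
    (hΦ : sc71_IsSymb Φ) (hinv : tr43_Inv M Φ) (hΨ : sc71_IsSymb Ψ) (hinv' : tr43_Inv M Ψ) :
    sc71_nu M Φ hΦ hinv = sc71_nu M Ψ hΨ hinv' := by
  subst h
  rfl

variable {N q : ℕ} [NeZero (N * q)]

/-- **S41 / L13.**  Let `y` be a nonzero `ℂ`-valued symbol of level `N q` which is killed by
the two traces to level `N`, is an eigenvector of `T_ℓ` with eigenvalue `lam ℓ` for every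
`ℓ ∈ S` (primes not dividing `N q`), and is non-Eisenstein at some `l0 ∈ S` whose Hecke
representatives move the cusps inside their `Γ₀(N q)`-orbits (`l0 ≡ 1 mod N q`).  Then there
is a normalised eigenform of level `N q` with `a_ℓ = lam ℓ` for `ℓ ∈ S`, new at `q`. -/
theorem out60_newform (hq : q.Prime) (D : tr43_Data N q) (S : Set ℕ)
    (hS : ∀ ℓ ∈ S, ℓ.Prime ∧ ¬ ℓ ∣ N * q)
    (y : sc71_X → ℂ) (hy : sc71_IsSymb y) (hinv : tr43_Inv (N * q) y) (hy0 : y ≠ 0)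
    (h1 : tr43_tr D y = 0) (h2 : tr43_tr D (tr43_W D y) = 0)
    (lam : ℕ → ℂ) (heig : ∀ ℓ ∈ S, tr43_T ℓ y = lam ℓ • y)
    (l0 : ℕ) (hl0 : l0 ∈ S) (hlam : lam l0 ≠ (l0 : ℂ) + 1)
    (hmove : ∀ (i : Option (Fin l0)) (x : OnePoint ℚ), ∃ γ : Gamma0 (N * q),
      tr43_gl (lbMat l0 i) • x = Matrix.SpecialLinearGroup.mapGL ℚ (γ : SL(2, ℤ)) • x) :
    ∃ g : CuspForm (Gamma0 (N * q)) 2, g.IsNormalizedEigenform ∧
      (∀ ℓ ∈ S, ModularFormClass.qCoeff g ℓ = lam ℓ) ∧ g.IsNewAt q := by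
  have hqNq : q ∣ N * q := dvd_mul_left q N
  -- the class `ν y`
  set v : Additive (Gamma0 (N * q)) →+ ℂ := sc71_nu (N * q) y hy hinv with hv
  have hpar : v ∈ parabolicHoms ℂ (Gamma0 (N * q)) ℂ :=
    (mem_parabolicHoms_iff (R := ℂ)).2 (sc71_nu_parabolic hy hinv)
  have hv0 : v ≠ 0 := out60_nu_ne_zero hy hinv hy0 (heig l0 hl0) hlam hmove
  -- Hecke eigen-equations
  have hveig : ∀ ℓ ∈ S, ℓ.Prime → heckeHom (N * q) ℓ ℂ v = lam ℓ • v := by
    intro ℓ hℓ hℓp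
    have hℓNq := (hS ℓ hℓ).2
    rw [hv, ← sc71_nu_T hℓp hℓNq hy hinv,
      ← out60_nu_smul hy hinv (lam ℓ) (by rw [← heig ℓ hℓ]; exact hy.T ℓ)
        (by rw [← heig ℓ hℓ]; exact tr43_T_Inv hℓp hℓNq hinv)]
    exact out60_nu_congr (heig ℓ hℓ) _ _ _ _
  -- `U_q ^ 2 = 1`
  have hUU : tr43_U q (tr43_U q y) = y := tr43_U_U sc71_scalarTriv hq.ne_zero D hinv h1 h2
  have hUinv : tr43_Inv (N * q) (tr43_U q y) := tr43_U_Inv hq hqNq hinv
  have hvU : heckeHom (N * q) q ℂ (heckeHom (N * q) q ℂ v) = v := by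
    rw [hv, ← sc71_nu_U hq hqNq hy hinv, ← sc71_nu_U hq hqNq (hy.U q) hUinv]
    exact out60_nu_congr hUU _ _ _ _
  obtain ⟨g, hg, hg1, hg2⟩ := es60_newform_of_eigenhom hq S v hpar hv0 lam hveig hvU
  exact ⟨g, hg, fun ℓ hℓ => hg1 ℓ hℓ (hS ℓ hℓ).1, hg2⟩

/-- **S41 / L13, indexed form** (index type `ι`, e.g. the subtype of good primes, `pr` the
underlying prime): same statement with eigenvalues `lam : ι → ℂ`. -/
theorem out60_newform_idx (hq : q.Prime) (D : tr43_Data N q) {ι : Type*} (pr : ι → ℕ)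
    (hpr : ∀ t, (pr t).Prime ∧ ¬ pr t ∣ N * q)
    (y : sc71_X → ℂ) (hy : sc71_IsSymb y) (hinv : tr43_Inv (N * q) y) (hy0 : y ≠ 0)
    (h1 : tr43_tr D y = 0) (h2 : tr43_tr D (tr43_W D y) = 0)
    (lam : ι → ℂ) (heig : ∀ t, tr43_T (pr t) y = lam t • y)
    (t0 : ι) (hlam : lam t0 ≠ (pr t0 : ℂ) + 1)
    (hmove : ∀ (i : Option (Fin (pr t0))) (x : OnePoint ℚ), ∃ γ : Gamma0 (N * q),
      tr43_gl (lbMat (pr t0) i) • x = Matrix.SpecialLinearGroup.mapGL ℚ (γ : SL(2, ℤ)) • x) :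
    ∃ g : CuspForm (Gamma0 (N * q)) 2, g.IsNormalizedEigenform ∧
      (∀ t, ModularFormClass.qCoeff g (pr t) = lam t) ∧ g.IsNewAt q := by
  classical
  -- eigenvalues only depend on the prime
  have hwd : ∀ t t', pr t = pr t' → lam t = lam t' := by
    intro t t' htt
    have e1 := heig t
    rw [htt, heig t'] at e1
    by_contra hne
    apply hy0
    funext x
    have e2 := congrFun e1 x
    simp only [Pi.smul_apply, smul_eq_mul] at e2
    have e3 : (lam t - lam t') * y x = 0 := by linear_combination -e2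
    rcases mul_eq_zero.1 e3 with h | h
    · exact absurd (sub_eq_zero.1 h) hne
    · exact h
  let lam' : ℕ → ℂ := fun ℓ => if h : ∃ t, pr t = ℓ then lam h.choose else 0
  have hlam' : ∀ t, lam' (pr t) = lam t := by
    intro t
    have h : ∃ t', pr t' = pr t := ⟨t, rfl⟩
    show (if h : ∃ t', pr t' = pr t then lam h.choose else 0) = lam t
    rw [dif_pos h]
    exact hwd _ _ h.choose_spec
  obtain ⟨g, hg, hg1, hg2⟩ := out60_newform hq D (Set.range pr)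
    (by rintro _ ⟨t, rfl⟩; exact hpr t) y hy hinv hy0 h1 h2 lam'
    (by rintro _ ⟨t, rfl⟩; rw [hlam' t]; exact heig t)
    (pr t0) ⟨t0, rfl⟩ (by rw [hlam' t0]; exact hlam) hmove
  exact ⟨g, hg, fun t => by rw [hg1 (pr t) ⟨t, rfl⟩, hlam' t], hg2⟩

end Complex

end Fermat.Agent.S41
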