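/-
S41 (level raising), abstract algebra core, part 4 (helper52).

`lr52_ds`: Deligne–Serre lifting for a commuting family with a common eigenvector mod `p`
in a lattice (wrapper around `Fermat.Agent.S49.exists_eigenvector_of_lattice`).
-/
import Mathlib
import Fermat.Agent.S49.Algebra

set_option autoImplicit false

namespace Fermat.Agent.S41

section DS

variable {K : Type*} [Field K] [IsAlgClosed K] {V : Type*} [AddCommGroup V] [Module K V]

open scoped IsMulCommutative in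
theorem lr52_ds {ι : Type*} (T : ι → Module.End K V) (hcomm : ∀ l l', Commute (T l) (T l'))
    (L : Submodule ℤ V) (hfg : L.FG) (hspan : Submodule.span K (L : Set V) = ⊤)
    (hTL : ∀ l, ∀ x ∈ L, T l x ∈ L) (p : ℕ) (t : ι → ℤ)
    (y0 : V) (hy0L : y0 ∈ L) (hy0 : ¬ ∃ z ∈ L, y0 = (p : ℤ) • z)
    (hy0T : ∀ l, ∃ z ∈ L, T l y0 - t l • y0 = (p : ℤ) • z) :
    ∃ (w : V) (lam : ι → integralClosure ℤ K) (Q : Ideal (integralClosure ℤ K)),
      w ≠ 0 ∧ (∀ l, T l w = (lam l : K) • w) ∧ Q.IsMaximal ∧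
      (p : integralClosure ℤ K) ∈ Q ∧ ∀ l, lam l - (t l : integralClosure ℤ K) ∈ Q := by
  classical
  have hcomm' : ∀ x ∈ Set.range T, ∀ y ∈ Set.range T, x * y = y * x := by
    rintro _ ⟨l, rfl⟩ _ ⟨l', rfl⟩
    exact (hcomm l l').eq
  let A : Subalgebra ℤ (Module.End K V) := Algebra.adjoin ℤ (Set.range T)
  have hAc : IsMulCommutative A := Algebra.isMulCommutative_adjoin ℤ hcomm'
  let ρ : A →+* Module.End K V := A.val.toRingHom
  have hρ : Function.Injective ρ := Subtype.val_injective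
  have hL : ∀ r : A, ∀ x ∈ L, ρ r x ∈ L := by
    rintro ⟨r, hr⟩
    show ∀ x ∈ L, r x ∈ L
    induction hr using Algebra.adjoin_induction with
    | mem r hr =>
      obtain ⟨l, rfl⟩ := hr
      exact hTL l
    | algebraMap n =>
      intro x hx
      rw [Module.algebraMap_end_apply]
      exact L.smul_mem n hx
    | add r₁ r₂ _ _ h₁ h₂ =>
      intro x hx
      rw [LinearMap.add_apply]
      exact L.add_mem (h₁ x hx) (h₂ x hx)
    | mul r₁ r₂ _ _ h₁ h₂ =>
      intro x hx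
      rw [Module.End.mul_apply]
      exact h₁ _ (h₂ x hx)
  let gen : ι → A := fun l => ⟨T l, Algebra.subset_adjoin ⟨l, rfl⟩⟩
  let I : Ideal A := Ideal.span ({(p : A)} ∪ Set.range (fun l => gen l - (t l : A)))
  have hρgen : ∀ l, ρ (gen l) = T l := fun l => rfl
  have hIy : ∀ r ∈ I, ∃ z ∈ L, ρ r y0 = (p : ℤ) • z := by
    intro r hr
    induction hr using Submodule.span_induction with
    | mem r hr =>
      rcases hr with hr | ⟨l, rfl⟩
      · rw [Set.mem_singleton_iff] at hr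
        subst hr
        refine ⟨y0, hy0L, ?_⟩
        rw [map_natCast, ← Int.cast_natCast, ← Int.cast_smul_eq_zsmul (Module.End K V)]
        simp
      · obtain ⟨z, hz, hzz⟩ := hy0T l
        refine ⟨z, hz, ?_⟩
        rw [map_sub, map_intCast, hρgen, LinearMap.sub_apply, ← hzz]
        congr 1
    | zero => exact ⟨0, L.zero_mem, by simp⟩
    | add r₁ r₂ _ _ h₁ h₂ =>
      obtain ⟨z₁, hz₁, e₁⟩ := h₁
      obtain ⟨z₂, hz₂, e₂⟩ := h₂
      exact ⟨z₁ + z₂, L.add_mem hz₁ hz₂, by rw [map_add, LinearMap.add_apply, e₁, e₂, smul_add]⟩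
    | smul a r _ h =>
      obtain ⟨z, hz, e⟩ := h
      refine ⟨ρ a z, hL a z hz, ?_⟩
      rw [smul_eq_mul, map_mul, Module.End.mul_apply, e, map_zsmul]
  have hI : I ≠ ⊤ := by
    intro htop
    have h1 : (1 : A) ∈ I := by rw [htop]; exact Submodule.mem_top
    obtain ⟨z, hz, e⟩ := hIy 1 h1
    apply hy0
    refine ⟨z, hz, ?_⟩
    rw [← e, map_one, Module.End.one_apply]
  obtain ⟨w, χ, Q, hw0, hχ, hQ, hIQ⟩ :=
    Fermat.Agent.S49.exists_eigenvector_of_lattice ρ hρ L hfg hspan hL I hI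
  refine ⟨w, fun l => χ (gen l), Q, hw0, fun l => ?_, hQ, ?_, fun l => ?_⟩
  · rw [← hχ, hρgen]
  · have h1 : (p : A) ∈ I := Ideal.subset_span (Or.inl rfl)
    have h2 := hIQ _ h1
    rwa [map_natCast] at h2
  · have h1 : gen l - (t l : A) ∈ I := Ideal.subset_span (Or.inr ⟨l, rfl⟩)
    have h2 := hIQ _ h1
    rwa [map_sub, map_intCast] at h2

end DS

end Fermat.Agent.S41
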