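/-
S41 (level raising), abstract algebra core, part 2 (helper52).

`lr52_lift`: `X` a finitely generated abelian group, `i : X → Y`, `j : Y → X` commuting with
operators `PX`, `PY`; if `coker (j mod p)` is killed by `PX ^ n` and `x` is an eigenvector of
`PX` mod `p` with eigenvalue a unit `u` mod `p` and `j (i x) ∈ p X`, then `i x` is congruent
mod `p` to an element of `ker j`.
-/
import Mathlib

set_option autoImplicit false

namespace Fermat.Agent.S41

section Lift

variable {X Y : Type*} [AddCommGroup X] [AddCommGroup Y]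

theorem lr52_chain [Module.Finite ℤ X] (J : Submodule ℤ X) (p : ℤ) :
    ∃ e : ℕ, ∀ k, e ≤ k → ∀ w : X, p ^ (k + 1) • w ∈ J → p ^ k • w ∈ J := by
  let f : ℕ →o Submodule ℤ X :=
    { toFun := fun k => J.comap (LinearMap.lsmul ℤ X (p ^ k))
      monotone' := by
        intro a b hab w hw
        have hw' : p ^ a • w ∈ J := hw
        show p ^ b • w ∈ J
        obtain ⟨c, rfl⟩ := Nat.exists_eq_add_of_le hab
        rw [pow_add, mul_comm, mul_smul]
        exact J.smul_mem _ hw' }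
  obtain ⟨e, he⟩ := monotone_stabilizes_iff_noetherian.mpr
    (inferInstance : IsNoetherian ℤ X) f
  refine ⟨e, fun k hk w hw => ?_⟩
  have h1 : w ∈ f (k + 1) := hw
  rw [← he (k + 1) (by omega), he k hk] at h1
  exact h1

theorem lr52_pow_eigen (PX : X →ₗ[ℤ] X) (p u : ℤ) (x : X)
    (hx : ∃ x', PX x = u • x + p • x') :
    ∀ m : ℕ, ∃ x', (PX ^ m) x = u ^ m • x + p • x' := by
  intro m
  induction m with
  | zero => exact ⟨0, by simp⟩
  | succ m ih =>
    obtain ⟨x', hx'⟩ := ih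
    obtain ⟨x'', hx''⟩ := hx
    refine ⟨u ^ m • x'' + PX x', ?_⟩
    rw [pow_succ', Module.End.mul_apply, hx', map_add, map_smul, map_smul, hx'']
    rw [smul_add, smul_add, smul_smul, smul_smul, smul_smul, pow_succ]
    rw [mul_comm p (u ^ m)]
    abel

theorem lr52_lift [Module.Finite ℤ X] (i : X →ₗ[ℤ] Y) (j : Y →ₗ[ℤ] X)
    (PX : X →ₗ[ℤ] X) (PY : Y →ₗ[ℤ] Y)
    (hj : ∀ y, j (PY y) = PX (j y)) (hi : ∀ x, i (PX x) = PY (i x))
    (p : ℕ) (hp : p.Prime) (u : ℤ) (hu : ¬ (p : ℤ) ∣ u)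
    (n : ℕ) (hb : ∀ x : X, ∃ y : Y, ∃ x' : X, (PX ^ n) x = j y + (p : ℤ) • x')
    (x : X) (hx : ∃ x', PX x = u • x + (p : ℤ) • x') (hji : ∃ x', j (i x) = (p : ℤ) • x') :
    ∃ y : Y, j y = 0 ∧ ∃ y', y = i x + (p : ℤ) • y' := by
  -- powers of PX on x
  have hpowX : ∀ m : ℕ, ∃ x', (PX ^ m) x = u ^ m • x + (p : ℤ) • x' := by
    intro m
    induction m with
    | zero => exact ⟨0, by simp⟩
    | succ m ih =>
      obtain ⟨x', hx'⟩ := ih
      obtain ⟨x'', hx''⟩ := hx
      refine ⟨u ^ m • x'' + PX x', ?_⟩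
      rw [pow_succ', Module.End.mul_apply, hx', map_add, map_smul, map_smul, hx'']
      rw [smul_add, smul_add, smul_smul, smul_smul, smul_smul, pow_succ]
      rw [mul_comm (p : ℤ) (u ^ m)]
      abel
  have hPY : ∀ m : ℕ, (PY ^ m) (i x) = i ((PX ^ m) x) := by
    intro m
    induction m with
    | zero => simp
    | succ m ih =>
      rw [pow_succ', Module.End.mul_apply, ih, pow_succ', Module.End.mul_apply, hi]
  have hjpow : ∀ m : ℕ, ∀ y, j ((PY ^ m) y) = (PX ^ m) (j y) := by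
    intro m
    induction m with
    | zero => intro y; simp
    | succ m ih =>
      intro y
      rw [pow_succ', Module.End.mul_apply, hj, ih, pow_succ', Module.End.mul_apply]
  -- the iteration
  have key : ∀ k : ℕ, ∃ yk : Y, ∃ xk : X, ∃ y' : Y,
      j yk = (p : ℤ) ^ (k + 1) • xk ∧ yk = (PY ^ (n * k)) (i x) + (p : ℤ) • y' := by
    intro k
    induction k with
    | zero =>
      obtain ⟨x', hx'⟩ := hji
      exact ⟨i x, x', 0, by simpa using hx', by simp⟩
    | succ k ih =>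
      obtain ⟨yk, xk, y', h1, h2⟩ := ih
      obtain ⟨y'', x'', h3⟩ := hb xk
      refine ⟨(PY ^ n) yk - (p : ℤ) ^ (k + 1) • y'', x'',
        (PY ^ n) y' - (p : ℤ) ^ k • y'', ?_, ?_⟩
      · rw [map_sub, hjpow, h1, map_smul, map_smul, h3, smul_add, add_sub_cancel_left,
          smul_smul, ← pow_succ]
      · rw [h2, map_add, map_smul, ← Module.End.mul_apply, ← pow_add, smul_sub, smul_smul,
          ← pow_succ', Nat.mul_succ, add_comm n (n * k)]
        abel
  obtain ⟨e, he⟩ := lr52_chain (LinearMap.range j) (p : ℤ)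
  obtain ⟨yk, xk, y', h1, h2⟩ := key e
  have h3 : (p : ℤ) ^ e • xk ∈ LinearMap.range j := by
    apply he e le_rfl
    rw [← h1]
    exact ⟨yk, rfl⟩
  obtain ⟨ys, hys⟩ := h3
  obtain ⟨x', hx'⟩ := hpowX (n * e)
  have hcop : IsCoprime (u ^ (n * e)) (p : ℤ) := by
    apply IsCoprime.pow_left
    rw [isCoprime_comm]
    exact (Nat.prime_iff_prime_int.mp hp).coprime_iff_not_dvd.mpr hu
  obtain ⟨a, b, hab⟩ := hcop
  refine ⟨a • (yk - (p : ℤ) • ys), ?_, a • (i x' + y' - ys) - b • i x, ?_⟩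
  · rw [map_smul, map_sub, map_smul, hys, h1, smul_smul, ← pow_succ', sub_self, smul_zero]
  · have h4 : i x = (a * u ^ (n * e) + b * (p : ℤ)) • i x := by rw [hab, one_smul]
    rw [h2, hPY, hx', map_add, map_smul, map_smul]
    calc a • (u ^ (n * e) • i x + (p : ℤ) • i x' + (p : ℤ) • y' - (p : ℤ) • ys)
        = (a * u ^ (n * e) + b * (p : ℤ)) • i x
            + (p : ℤ) • (a • (i x' + y' - ys) - b • i x) := by module
      _ = i x + (p : ℤ) • (a • (i x' + y' - ys) - b • i x) := by rw [← h4]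

end Lift

end Fermat.Agent.S41
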