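/-
S41 (level raising), abstract algebra core, part 3 (helper52).

`lr52_red`: reduction of an eigensystem.  `L` a finitely generated `ℤ`-lattice in a `K`-vector
space (`K` of characteristic `0`), `T a` a commuting family of endomorphisms preserving `L`,
`v ≠ 0` in the `K`-span of `L` a common eigenvector with eigenvalues `c a` congruent to
integers `t a` modulo a proper ideal `𝔪 ∋ p` of the ring of algebraic integers.  Then there is
`x ∈ L`, `x ∉ p L`, with `(T a - t a) x ∈ p L` for all `a`.
-/
import Mathlib
import Fermat.Agent.S41.LRFin52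

set_option autoImplicit false

namespace Fermat.Agent.S41

section Red

variable {K : Type*} [Field K] {V : Type*} [AddCommGroup V] [Module K V]

/-- An eigenvalue (with eigenvector in the span of `L`) of an endomorphism preserving the
finitely generated lattice `L` is integral over `ℤ`. -/
theorem lr52_integral_eigen (L : Submodule ℤ V) (hfg : L.FG) (F : Module.End K V)
    (hF : ∀ x ∈ L, F x ∈ L) (v : V) (hv0 : v ≠ 0)
    (hvL : v ∈ Submodule.span K (L : Set V)) (μ : K) (hμ : F v = μ • v) :
    IsIntegral ℤ μ := by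
  have : Module.Finite ℤ L := Module.Finite.iff_fg.mpr hfg
  let FL : Module.End ℤ L := (F.restrictScalars ℤ).restrict hF
  obtain ⟨g, hgm, hg⟩ := (Algebra.IsIntegral.isIntegral FL : IsIntegral ℤ FL)
  have hFLpow : ∀ (n : ℕ) (x : L), ((FL ^ n) x : V) = (F ^ n) (x : V) := by
    intro n
    induction n with
    | zero => intro x; simp
    | succ n ih =>
      intro x
      rw [pow_succ, Module.End.mul_apply, ih, pow_succ, Module.End.mul_apply]
      rfl
  -- evaluation of an integer polynomial at F, on L
  have hev : ∀ (q : Polynomial ℤ) (x : L),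
      ((Polynomial.aeval FL q) x : V) = (Polynomial.aeval F q) (x : V) := by
    intro q
    induction q using Polynomial.induction_on' with
    | add q₁ q₂ h₁ h₂ =>
      intro x
      simp only [map_add, LinearMap.add_apply, Submodule.coe_add, h₁, h₂]
    | monomial n a =>
      intro x
      simp only [Polynomial.aeval_monomial, Module.End.mul_apply]
      rw [Module.algebraMap_end_apply, Module.algebraMap_end_apply, Submodule.coe_smul, hFLpow]
  have hevv : ∀ (q : Polynomial ℤ), (Polynomial.aeval F q) v = (Polynomial.aeval μ q) • v := by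
    have hpow : ∀ n : ℕ, (F ^ n) v = μ ^ n • v := by
      intro n
      induction n with
      | zero => simp
      | succ n ih => rw [pow_succ', Module.End.mul_apply, ih, map_smul, hμ, smul_smul, pow_succ]
    intro q
    induction q using Polynomial.induction_on' with
    | add q₁ q₂ h₁ h₂ => simp only [map_add, LinearMap.add_apply, h₁, h₂, add_smul]
    | monomial n a =>
      simp only [Polynomial.aeval_monomial, Module.End.mul_apply]
      rw [Module.algebraMap_end_apply, hpow, mul_smul, eq_intCast, Int.cast_smul_eq_zsmul]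
  have hkill : ∀ x ∈ L, (Polynomial.aeval F g) x = 0 := by
    intro x hx
    have h1 := hev g ⟨x, hx⟩
    have hg' : Polynomial.aeval FL g = 0 := hg
    rw [hg'] at h1
    simpa using h1.symm
  have hkillv : (Polynomial.aeval F g) v = 0 := by
    have hle : Submodule.span K (L : Set V) ≤ LinearMap.ker (Polynomial.aeval F g) := by
      rw [Submodule.span_le]
      intro x hx
      exact LinearMap.mem_ker.mpr (hkill x hx)
    exact LinearMap.mem_ker.mp (hle hvL)
  rw [hevv] at hkillv
  have h0 : Polynomial.aeval μ g = 0 := by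
    rcases smul_eq_zero.mp hkillv with h | h
    · exact h
    · exact absurd h hv0
  exact ⟨g, hgm, h0⟩

end Red

end Fermat.Agent.S41

namespace Fermat.Agent.S41

section Bar

variable {K : Type*} [Field K] {V : Type*} [AddCommGroup V] [Module K V]

/-- The endomorphisms of `V` preserving the lattice `L`. -/
def lr52_stab (L : Submodule ℤ V) : Subalgebra ℤ (Module.End K V) where
  carrier := {F | ∀ x ∈ L, F x ∈ L}
  mul_mem' := fun {F G} hF hG x hx => by
    rw [Module.End.mul_apply]; exact hF _ (hG x hx)
  add_mem' := fun {F G} hF hG x hx => by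
    rw [LinearMap.add_apply]; exact L.add_mem (hF x hx) (hG x hx)
  algebraMap_mem' := fun n x hx => by
    rw [Module.algebraMap_end_apply]; exact L.smul_mem n hx

theorem lr52_mem_stab (L : Submodule ℤ V) (F : Module.End K V) :
    F ∈ lr52_stab (K := K) L ↔ ∀ x ∈ L, F x ∈ L := Iff.rfl

/-- `p L` as a submodule of `L`. -/
def lr52_pL (p : ℕ) (L : Submodule ℤ V) : Submodule ℤ L :=
  LinearMap.range (LinearMap.lsmul ℤ L (p : ℤ))

theorem lr52_mem_pL (p : ℕ) (L : Submodule ℤ V) (x : L) :
    x ∈ lr52_pL p L ↔ ∃ z : L, (p : ℤ) • z = x := Iff.rfl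

/-- Restriction to the lattice. -/
def lr52_res (L : Submodule ℤ V) (F : lr52_stab (K := K) L) : Module.End ℤ L :=
  ((F : Module.End K V).restrictScalars ℤ).restrict F.2

theorem lr52_res_apply (L : Submodule ℤ V) (F : lr52_stab (K := K) L) (x : L) :
    ((lr52_res L F x : L) : V) = (F : Module.End K V) (x : V) := rfl

theorem lr52_res_le (p : ℕ) (L : Submodule ℤ V) (F : lr52_stab (K := K) L) :
    lr52_pL p L ≤ (lr52_pL p L).comap (lr52_res L F) := by
  rintro _ ⟨x, rfl⟩
  exact ⟨lr52_res L F x, by simp⟩

/-- The action on `L / p L`. -/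
def lr52_bar (p : ℕ) (L : Submodule ℤ V) :
    lr52_stab (K := K) L →+* Module.End ℤ (L ⧸ lr52_pL p L) where
  toFun F := (lr52_pL p L).mapQ (lr52_pL p L) (lr52_res L F) (lr52_res_le p L F)
  map_one' := by
    apply LinearMap.ext
    intro x
    obtain ⟨x, rfl⟩ := Submodule.mkQ_surjective _ x
    rfl
  map_mul' F G := by
    apply LinearMap.ext
    intro x
    obtain ⟨x, rfl⟩ := Submodule.mkQ_surjective _ x
    rfl
  map_zero' := by
    apply LinearMap.ext
    intro x
    obtain ⟨x, rfl⟩ := Submodule.mkQ_surjective _ x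
    simp only [Submodule.mkQ_apply, Submodule.mapQ_apply, LinearMap.zero_apply]
    rw [Submodule.Quotient.mk_eq_zero]
    exact ⟨0, by ext; simp [lr52_res_apply]⟩
  map_add' F G := by
    apply LinearMap.ext
    intro x
    obtain ⟨x, rfl⟩ := Submodule.mkQ_surjective _ x
    rfl

theorem lr52_bar_mk (p : ℕ) (L : Submodule ℤ V) (F : lr52_stab (K := K) L) (x : L) :
    lr52_bar p L F (Submodule.Quotient.mk x) = Submodule.Quotient.mk (lr52_res L F x) := rfl

theorem lr52_finite_quot (p : ℕ) (hp : p.Prime) (L : Submodule ℤ V) (hfg : L.FG) :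
    Finite (L ⧸ lr52_pL p L) := by
  have : Module.Finite ℤ L := Module.Finite.iff_fg.mpr hfg
  apply Module.finite_of_fg_torsion
  intro x
  obtain ⟨x, rfl⟩ := Submodule.mkQ_surjective _ x
  refine ⟨⟨(p : ℤ), ?_⟩, ?_⟩
  · rw [mem_nonZeroDivisors_iff_ne_zero]
    exact_mod_cast hp.ne_zero
  · show (p : ℤ) • (Submodule.Quotient.mk x : L ⧸ lr52_pL p L) = 0
    rw [← Submodule.Quotient.mk_smul, Submodule.Quotient.mk_eq_zero]
    exact ⟨x, rfl⟩

end Bar

end Fermat.Agent.S41

namespace Fermat.Agent.S41

section RedMain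

variable {K : Type*} [Field K] [CharZero K] {V : Type*} [AddCommGroup V] [Module K V]

/-- **Reduction of an eigensystem** to the lattice mod `p`. -/
theorem lr52_red (L : Submodule ℤ V) (hfg : L.FG) {κ : Type*} (T : κ → Module.End K V)
    (hT : ∀ a, ∀ x ∈ L, T a x ∈ L) (hcomm : ∀ a b, Commute (T a) (T b))
    (p : ℕ) (hp : p.Prime) (t : κ → ℤ) (v : V) (hv0 : v ≠ 0)
    (hvL : v ∈ Submodule.span K (L : Set V))
    (c : κ → integralClosure ℤ K) (hc : ∀ a, T a v = (c a : K) • v)
    (𝔪 : Ideal (integralClosure ℤ K)) (h𝔪 : 𝔪 ≠ ⊤) (hp𝔪 : (p : integralClosure ℤ K) ∈ 𝔪)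
    (hct : ∀ a, c a - (t a : integralClosure ℤ K) ∈ 𝔪) :
    ∃ x ∈ L, (¬ ∃ x' ∈ L, x = (p : ℤ) • x') ∧
      ∀ a, ∃ x' ∈ L, T a x - t a • x = (p : ℤ) • x' := by
  classical
  have hpK : (p : K) ≠ 0 := by exact_mod_cast hp.ne_zero
  -- the shifted operators, as elements of the stabiliser algebra
  have hnmem : ∀ a, T a - t a • (1 : Module.End K V) ∈ lr52_stab (K := K) L := by
    intro a x hx
    simp only [LinearMap.sub_apply, LinearMap.smul_apply, Module.End.one_apply]
    exact L.sub_mem (hT a x hx) (L.smul_mem _ hx)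
  let n : κ → lr52_stab (K := K) L := fun a => ⟨T a - t a • (1 : Module.End K V), hnmem a⟩
  have hncomm : ∀ a b, Commute (n a) (n b) := by
    intro a b
    apply Subtype.ext
    have h1 : Commute (T a) (t b • (1 : Module.End K V)) := (Commute.one_right _).smul_right _
    have h2 : Commute (t a • (1 : Module.End K V)) (T b) := (Commute.one_left _).smul_left _
    have h3 : Commute (t a • (1 : Module.End K V)) (t b • (1 : Module.End K V)) :=
      ((Commute.one_left _).smul_left _).smul_right _
    exact (((hcomm a b).sub_right h1).sub_left (h2.sub_right h3)).eq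
  let Nbar : κ → Module.End ℤ (L ⧸ lr52_pL p L) := fun a => lr52_bar p L (n a)
  have hNcomm : ∀ a b, Commute (Nbar a) (Nbar b) := fun a b => (hncomm a b).map (lr52_bar p L)
  have hfin : Finite (L ⧸ lr52_pL p L) := lr52_finite_quot p hp L hfg
  -- eigenvalue of n a on v
  have hnv : ∀ a, (n a : Module.End K V) v = ((c a - (t a : integralClosure ℤ K) :
      integralClosure ℤ K) : K) • v := by
    intro a
    show (T a - t a • (1 : Module.End K V)) v = _
    simp only [LinearMap.sub_apply, LinearMap.smul_apply, Module.End.one_apply, hc]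
    rw [← Int.cast_smul_eq_zsmul K (t a) v, ← sub_smul]
    congr 1
  rcases lr52_finKer Nbar hNcomm _ ⊤ rfl (fun _ _ _ => Submodule.mem_top) with
    ⟨xbar, -, hne, hk⟩ | ⟨e, he, hkill⟩
  · obtain ⟨x, rfl⟩ := Submodule.mkQ_surjective _ xbar
    refine ⟨(x : V), x.2, ?_, fun a => ?_⟩
    · rintro ⟨x', hx', hxx'⟩
      apply hne
      rw [Submodule.mkQ_apply, Submodule.Quotient.mk_eq_zero]
      exact ⟨⟨x', hx'⟩, Subtype.ext hxx'.symm⟩
    · have h1 := hk a
      rw [Submodule.mkQ_apply] at h1
      change lr52_bar p L (n a) (Submodule.Quotient.mk x) = 0 at h1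
      rw [lr52_bar_mk, Submodule.Quotient.mk_eq_zero] at h1
      obtain ⟨z, hz⟩ := h1
      refine ⟨(z : V), z.2, ?_⟩
      have h2 := congrArg (Subtype.val : L → V) hz
      have h3 : (p : ℤ) • (z : V) = (T a - t a • (1 : Module.End K V)) (x : V) := h2
      rw [h3]
      simp only [LinearMap.sub_apply, LinearMap.smul_apply, Module.End.one_apply]
  · exfalso
    -- lift e to the stabiliser algebra, with control of its eigenvalue on v
    have hA : ∀ e ∈ lr52_S Nbar, ∃ E : lr52_stab (K := K) L, lr52_bar p L E = e ∧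
        ∃ s : integralClosure ℤ K, (E : Module.End K V) v = (s : K) • v ∧ s - 1 ∈ 𝔪 := by
      intro e he
      induction he using Submonoid.closure_induction with
      | mem y hy =>
        obtain ⟨a, m, rfl⟩ := hy
        refine ⟨1 - n a ^ (m + 1), by simp [Nbar], 1 - (c a - (t a : integralClosure ℤ K)) ^ (m + 1),
          ?_, ?_⟩
        · have hpow : ∀ k : ℕ, ((n a ^ k : lr52_stab (K := K) L) : Module.End K V) v
              = (((c a - (t a : integralClosure ℤ K)) ^ k : integralClosure ℤ K) : K) • v := by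
            intro k
            induction k with
            | zero => simp
            | succ k ih =>
              rw [pow_succ', Subalgebra.coe_mul, Module.End.mul_apply, ih, map_smul, hnv,
                smul_smul, pow_succ]
              congr 1
          rw [Subalgebra.coe_sub, LinearMap.sub_apply, Subalgebra.coe_one, Module.End.one_apply,
            hpow]
          push_cast
          rw [sub_smul, one_smul]
        · have : (c a - (t a : integralClosure ℤ K)) ^ (m + 1) ∈ 𝔪 :=
            Ideal.pow_mem_of_mem _ (hct a) _ (Nat.succ_pos m)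
          have h2 : (1 : integralClosure ℤ K) - (c a - (t a : integralClosure ℤ K)) ^ (m + 1) - 1
              = -((c a - (t a : integralClosure ℤ K)) ^ (m + 1)) := by ring
          rw [h2]
          exact 𝔪.neg_mem this
      | one => exact ⟨1, map_one _, 1, by simp, by simp⟩
      | mul y z _ _ hy hz =>
        obtain ⟨E₁, rfl, s₁, hs₁, hs₁m⟩ := hy
        obtain ⟨E₂, rfl, s₂, hs₂, hs₂m⟩ := hz
        refine ⟨E₁ * E₂, map_mul _ _ _, s₁ * s₂, ?_, ?_⟩
        · rw [Subalgebra.coe_mul, Module.End.mul_apply, hs₂, map_smul, hs₁, smul_smul]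
          congr 1
          push_cast
          ring
        · have h2 : s₁ * s₂ - 1 = s₁ * (s₂ - 1) + (s₁ - 1) := by ring
          rw [h2]
          exact 𝔪.add_mem (𝔪.mul_mem_left _ hs₂m) hs₁m
    obtain ⟨E, rfl, s, hEs, hsm⟩ := hA e he
    -- E maps L into p L
    have hEp : ∀ x ∈ L, ∃ z ∈ L, (E : Module.End K V) x = (p : ℤ) • z := by
      intro x hx
      have h1 := hkill (Submodule.Quotient.mk ⟨x, hx⟩) Submodule.mem_top
      rw [lr52_bar_mk, Submodule.Quotient.mk_eq_zero] at h1
      obtain ⟨z, hz⟩ := h1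
      refine ⟨(z : V), z.2, ?_⟩
      have h2 := congrArg (Subtype.val : L → V) hz
      have h3 : (p : ℤ) • (z : V) = (E : Module.End K V) x := h2
      exact h3.symm
    -- E / p preserves L, so s / p is integral
    have hint : IsIntegral ℤ ((p : K)⁻¹ * (s : K)) := by
      refine lr52_integral_eigen L hfg ((p : K)⁻¹ • (E : Module.End K V)) ?_ v hv0 hvL _ ?_
      · intro x hx
        obtain ⟨z, hz, hxz⟩ := hEp x hx
        rw [LinearMap.smul_apply, hxz, ← Int.cast_smul_eq_zsmul K, smul_smul]
        have : (p : K)⁻¹ * ((p : ℤ) : K) = 1 := by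
          rw [Int.cast_natCast]; exact inv_mul_cancel₀ hpK
        rw [this, one_smul]
        exact hz
      · rw [LinearMap.smul_apply, hEs, smul_smul]
    have hs : s = (p : integralClosure ℤ K) * ⟨(p : K)⁻¹ * (s : K), hint⟩ := by
      apply Subtype.ext
      push_cast
      rw [← mul_assoc, mul_inv_cancel₀ hpK, one_mul]
    have hs𝔪 : s ∈ 𝔪 := by
      rw [hs]
      exact 𝔪.mul_mem_right _ hp𝔪
    apply h𝔪
    rw [Ideal.eq_top_iff_one]
    have : (1 : integralClosure ℤ K) = s - (s - 1) := by ring
    rw [this]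
    exact 𝔪.sub_mem hs𝔪 hsm

end RedMain

end Fermat.Agent.S41
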