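/-
S41 (level raising), abstract algebra core (helper52).

`lr52_core`: lattices `LX ⊂ VX`, `LY ⊂ VY` with commuting Hecke families `TX`, `TY`,
equivariant lattice maps `i : VX → VY`, `j : VY → VX`.  Suppose, for one auxiliary index `l0`
and an integer `c0` with `t l0 ≢ c0 mod p`:
  (a) `ker (i mod p)` is killed by a power of `TX l0 - c0`              [Ihara],
  (b) `coker (j mod p)` is killed by a power of `TX l0 - c0`            [dual Ihara],
and `v ∈ VX` is a common eigenvector with eigenvalues `≡ t l` modulo `𝔪 ∋ p`, on which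
`j ∘ i` acts by a scalar in `𝔪`.  Then `ker j` contains a common eigenvector of the `TY l`
whose eigenvalues are `≡ t l` modulo a maximal ideal `Q ∋ p`.
-/
import Mathlib
import Fermat.Agent.S41.LRLift52
import Fermat.Agent.S41.LRRed52
import Fermat.Agent.S41.LRDS52

set_option autoImplicit false

namespace Fermat.Agent.S41

section Core

theorem lr52_zsmul_eq_zero (K : Type*) [Field K] [CharZero K] {V : Type*} [AddCommGroup V]
    [Module K V] (p : ℕ) (hp : p ≠ 0) (w : V) (h : (p : ℤ) • w = 0) : w = 0 := by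
  rw [← Int.cast_smul_eq_zsmul K] at h
  rcases smul_eq_zero.mp h with h | h
  · exact absurd h (by exact_mod_cast hp)
  · exact h

variable {K : Type*} [Field K] [IsAlgClosed K] [CharZero K]
  {VX VY : Type*} [AddCommGroup VX] [Module K VX] [AddCommGroup VY] [Module K VY]

theorem lr52_core
    (LX : Submodule ℤ VX) (LY : Submodule ℤ VY) (hXfg : LX.FG) (hYfg : LY.FG)
    {ι : Type*} (TX : ι → Module.End K VX) (TY : ι → Module.End K VY)
    (hTX : ∀ l, ∀ x ∈ LX, TX l x ∈ LX) (hTY : ∀ l, ∀ y ∈ LY, TY l y ∈ LY)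
    (hcX : ∀ l l', Commute (TX l) (TX l')) (hcY : ∀ l l', Commute (TY l) (TY l'))
    (i : VX →ₗ[K] VY) (j : VY →ₗ[K] VX)
    (hiL : ∀ x ∈ LX, i x ∈ LY) (hjL : ∀ y ∈ LY, j y ∈ LX)
    (hiT : ∀ l x, i (TX l x) = TY l (i x)) (hjT : ∀ l y, j (TY l y) = TX l (j y))
    (p : ℕ) (hp : p.Prime) (t : ι → ℤ) (l0 : ι) (c0 : ℤ) (hne : ¬ (p : ℤ) ∣ t l0 - c0)
    (ha : ∀ x ∈ LX, (∃ y ∈ LY, i x = (p : ℤ) • y) →
      ∃ n : ℕ, ∃ x' ∈ LX, ((TX l0 - c0 • (1 : Module.End K VX)) ^ n) x = (p : ℤ) • x')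
    (hb : ∃ n : ℕ, ∀ x ∈ LX, ∃ y ∈ LY, ∃ x' ∈ LX,
      ((TX l0 - c0 • (1 : Module.End K VX)) ^ n) x = j y + (p : ℤ) • x')
    (v : VX) (hv0 : v ≠ 0) (hvL : v ∈ Submodule.span K (LX : Set VX))
    (a : ι → integralClosure ℤ K) (hva : ∀ l, TX l v = (a l : K) • v)
    (s : integralClosure ℤ K) (hvs : j (i v) = (s : K) • v)
    (𝔪 : Ideal (integralClosure ℤ K)) (h𝔪 : 𝔪 ≠ ⊤) (hp𝔪 : (p : integralClosure ℤ K) ∈ 𝔪)
    (hat : ∀ l, a l - (t l : integralClosure ℤ K) ∈ 𝔪) (hs : s ∈ 𝔪) :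
    ∃ (y : VY) (lam : ι → integralClosure ℤ K) (Q : Ideal (integralClosure ℤ K)),
      y ≠ 0 ∧ j y = 0 ∧ (∀ l, TY l y = (lam l : K) • y) ∧ Q.IsMaximal ∧
      (p : integralClosure ℤ K) ∈ Q ∧ ∀ l, lam l - (t l : integralClosure ℤ K) ∈ Q := by
  classical
  obtain ⟨n, hb⟩ := hb
  -- Step 1: a common eigenvector mod p in LX, killed by j ∘ i mod p
  let T' : Option ι → Module.End K VX := fun o => o.elim (j.comp i) TX
  let t' : Option ι → ℤ := fun o => o.elim 0 t
  let c' : Option ι → integralClosure ℤ K := fun o => o.elim s a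
  have hji_comm : ∀ l, Commute (j.comp i : Module.End K VX) (TX l) := by
    intro l
    apply LinearMap.ext
    intro x
    show j (i (TX l x)) = TX l (j (i x))
    rw [hiT, hjT]
  have hT' : ∀ o, ∀ x ∈ LX, T' o x ∈ LX := by
    rintro (_ | l) x hx
    · exact hjL _ (hiL x hx)
    · exact hTX l x hx
  have hcomm' : ∀ o o', Commute (T' o) (T' o') := by
    rintro (_ | l) (_ | l')
    · exact Commute.refl _
    · exact hji_comm l'
    · exact (hji_comm l).symm
    · exact hcX l l'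
  have hc' : ∀ o, T' o v = (c' o : K) • v := by
    rintro (_ | l)
    · exact hvs
    · exact hva l
  have hct' : ∀ o, c' o - (t' o : integralClosure ℤ K) ∈ 𝔪 := by
    rintro (_ | l)
    · simpa [c', t'] using hs
    · exact hat l
  obtain ⟨x, hxL, hxp, hxT⟩ :=
    lr52_red LX hXfg T' hT' hcomm' p hp t' v hv0 hvL c' hc' 𝔪 h𝔪 hp𝔪 hct'
  have hxT0 : ∃ x' ∈ LX, j (i x) = (p : ℤ) • x' := by
    obtain ⟨x', hx', e⟩ := hxT none
    refine ⟨x', hx', ?_⟩
    have e' : j (i x) - (0 : ℤ) • x = (p : ℤ) • x' := e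
    simpa using e'
  have hxTl : ∀ l, ∃ x' ∈ LX, TX l x - t l • x = (p : ℤ) • x' := fun l => hxT (some l)
  -- the operators P = T l0 - c0
  set PX : Module.End K VX := TX l0 - c0 • (1 : Module.End K VX) with hPXdef
  set PY : Module.End K VY := TY l0 - c0 • (1 : Module.End K VY) with hPYdef
  have hPXapp : ∀ x, PX x = TX l0 x - c0 • x := fun x => by
    simp [PX]
  have hPYapp : ∀ y, PY y = TY l0 y - c0 • y := fun y => by
    simp [PY]
  have hPXL : ∀ x ∈ LX, PX x ∈ LX := fun x hx => by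
    rw [hPXapp]; exact LX.sub_mem (hTX l0 x hx) (LX.smul_mem _ hx)
  have hPYL : ∀ y ∈ LY, PY y ∈ LY := fun y hy => by
    rw [hPYapp]; exact LY.sub_mem (hTY l0 y hy) (LY.smul_mem _ hy)
  have hPj : ∀ y, j (PY y) = PX (j y) := fun y => by
    rw [hPYapp, hPXapp, map_sub, map_zsmul, hjT]
  have hPi : ∀ x, i (PX x) = PY (i x) := fun x => by
    rw [hPYapp, hPXapp, map_sub, map_zsmul, hiT]
  -- restricted maps
  let iL : LX →ₗ[ℤ] LY := (i.restrictScalars ℤ).restrict hiL
  let jL : LY →ₗ[ℤ] LX := (j.restrictScalars ℤ).restrict hjL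
  let PXL : LX →ₗ[ℤ] LX := (PX.restrictScalars ℤ).restrict hPXL
  let PYL : LY →ₗ[ℤ] LY := (PY.restrictScalars ℤ).restrict hPYL
  have hPXLpow : ∀ (m : ℕ) (z : LX), ((PXL ^ m) z : VX) = (PX ^ m) (z : VX) := by
    intro m
    induction m with
    | zero => intro z; simp
    | succ m ih =>
      intro z
      rw [pow_succ, Module.End.mul_apply, ih, pow_succ, Module.End.mul_apply]
      rfl
  have hfinX : Module.Finite ℤ LX := Module.Finite.iff_fg.mpr hXfg
  set u : ℤ := t l0 - c0 with hu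
  have hx1 : ∃ x' : LX, PXL ⟨x, hxL⟩ = u • (⟨x, hxL⟩ : LX) + (p : ℤ) • x' := by
    obtain ⟨x', hx', e⟩ := hxTl l0
    refine ⟨⟨x', hx'⟩, Subtype.ext ?_⟩
    show PX x = u • x + (p : ℤ) • x'
    have h1 : TX l0 x = t l0 • x + (p : ℤ) • x' := by rw [← e]; abel
    rw [hPXapp, h1, hu, sub_smul]
    abel
  have hx2 : ∃ x' : LX, jL (iL ⟨x, hxL⟩) = (p : ℤ) • x' := by
    obtain ⟨x', hx', e⟩ := hxT0
    exact ⟨⟨x', hx'⟩, Subtype.ext e⟩
  have hbL : ∀ z : LX, ∃ y : LY, ∃ x' : LX, (PXL ^ n) z = jL y + (p : ℤ) • x' := by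
    intro z
    obtain ⟨y, hy, x', hx', e⟩ := hb z z.2
    refine ⟨⟨y, hy⟩, ⟨x', hx'⟩, Subtype.ext ?_⟩
    rw [hPXLpow]
    exact e
  obtain ⟨y, hjy, y', hyy'⟩ := lr52_lift iL jL PXL PYL (fun y => Subtype.ext (hPj y))
    (fun x => Subtype.ext (hPi x)) p hp u hne n hbL ⟨x, hxL⟩ hx1 hx2
  have hy_eq : (y : VY) = i x + (p : ℤ) • (y' : VY) := congrArg Subtype.val hyy'
  have hjy' : j (y : VY) = 0 := congrArg Subtype.val hjy
  -- Step 2: y is not in p LY
  have hyp : ¬ ∃ z ∈ LY, (y : VY) = (p : ℤ) • z := by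
    rintro ⟨z, hz, e⟩
    have hix : ∃ y ∈ LY, i x = (p : ℤ) • y := by
      refine ⟨z - y', LY.sub_mem hz y'.2, ?_⟩
      rw [smul_sub, ← e, hy_eq]
      abel
    obtain ⟨m, x'', hx'', e2⟩ := ha x hxL hix
    obtain ⟨x3, e3⟩ := lr52_pow_eigen PXL (p : ℤ) u ⟨x, hxL⟩ hx1 m
    have e3' : (PX ^ m) x = u ^ m • x + (p : ℤ) • (x3 : VX) := by
      have h := congrArg Subtype.val e3
      rw [hPXLpow] at h
      exact h
    have hcop : IsCoprime (u ^ m) (p : ℤ) := by
      apply IsCoprime.pow_left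
      rw [isCoprime_comm]
      exact (Nat.prime_iff_prime_int.mp hp).coprime_iff_not_dvd.mpr hne
    obtain ⟨a', b', hab⟩ := hcop
    apply hxp
    refine ⟨a' • (x'' - x3) + b' • x,
      LX.add_mem (LX.smul_mem _ (LX.sub_mem hx'' x3.2)) (LX.smul_mem _ hxL), ?_⟩
    have h5 : u ^ m • x = (p : ℤ) • (x'' - (x3 : VX)) := by
      rw [smul_sub, ← e2, e3']
      abel
    calc x = (a' * u ^ m + b' * (p : ℤ)) • x := by rw [hab, one_smul]
      _ = a' • (u ^ m • x) + (b' * (p : ℤ)) • x := by rw [add_smul, mul_smul]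
      _ = (p : ℤ) • (a' • (x'' - (x3 : VX)) + b' • x) := by rw [h5]; module
  -- Step 3: y is a common eigenvector mod p inside ker j
  have hyT : ∀ l, ∃ z ∈ LY, j z = 0 ∧ TY l (y : VY) - t l • (y : VY) = (p : ℤ) • z := by
    intro l
    obtain ⟨x', hx', e⟩ := hxTl l
    have h1 : TX l x = t l • x + (p : ℤ) • x' := by rw [← e]; abel
    have hz : i x' + TY l (y' : VY) - t l • (y' : VY) ∈ LY :=
      LY.sub_mem (LY.add_mem (hiL x' hx') (hTY l _ y'.2)) (LY.smul_mem _ y'.2)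
    have hze : TY l (y : VY) - t l • (y : VY)
        = (p : ℤ) • (i x' + TY l (y' : VY) - t l • (y' : VY)) := by
      rw [hy_eq, map_add, map_zsmul, ← hiT, h1, map_add, map_zsmul, map_zsmul]
      module
    refine ⟨_, hz, ?_, hze⟩
    apply lr52_zsmul_eq_zero K p hp.ne_zero
    rw [← map_zsmul, ← hze, map_sub, map_zsmul, hjT, hjy', map_zero, smul_zero, sub_zero]
  -- Step 4: Deligne–Serre on the span of LY ∩ ker j
  let LK : Submodule ℤ VY := LY ⊓ (LinearMap.ker j).restrictScalars ℤ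
  have hLK : ∀ z, z ∈ LK ↔ z ∈ LY ∧ j z = 0 := fun z => by
    simp [LK]
  let V' : Submodule K VY := Submodule.span K (LK : Set VY)
  have hV'ker : V' ≤ LinearMap.ker j :=
    Submodule.span_le.mpr (fun z hz => LinearMap.mem_ker.mpr ((hLK z).1 hz).2)
  have hTLK : ∀ l, ∀ z ∈ LK, TY l z ∈ LK := fun l z hz => by
    rw [hLK] at hz ⊢
    exact ⟨hTY l z hz.1, by rw [hjT, hz.2, map_zero]⟩
  have hTV' : ∀ l, ∀ w ∈ V', TY l w ∈ V' := by
    intro l w hw
    induction hw using Submodule.span_induction with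
    | mem z hz => exact Submodule.subset_span (hTLK l z hz)
    | zero => rw [map_zero]; exact V'.zero_mem
    | add a b _ _ ha hb => rw [map_add]; exact V'.add_mem ha hb
    | smul c a _ ha => rw [map_smul]; exact V'.smul_mem c ha
  let T'' : ι → Module.End K V' := fun l => (TY l).restrict (hTV' l)
  have hcomm'' : ∀ l l', Commute (T'' l) (T'' l') := by
    intro l l'
    apply LinearMap.ext
    intro w
    apply Subtype.ext
    show TY l (TY l' w) = TY l' (TY l w)
    exact congrArg (fun F : Module.End K VY => F (w : VY)) (hcY l l').eq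
  let L' : Submodule ℤ V' := LK.comap (V'.subtype.restrictScalars ℤ)
  have hLKfg : LK.FG := by
    have hN : IsNoetherian ℤ LY := isNoetherian_of_fg_of_noetherian LY hYfg
    have h1 : (LK.comap LY.subtype).FG := IsNoetherian.noetherian _
    have h2 : LK = (LK.comap LY.subtype).map LY.subtype := by
      rw [Submodule.map_comap_subtype]
      exact (inf_eq_right.mpr inf_le_left).symm
    rw [h2]
    exact h1.map _
  have hfg' : L'.FG := by
    apply Submodule.fg_of_fg_map_injective (V'.subtype.restrictScalars ℤ) Subtype.val_injective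
    have h2 : L'.map (V'.subtype.restrictScalars ℤ) = LK := by
      apply le_antisymm
      · rintro _ ⟨w, hw, rfl⟩
        exact hw
      · intro z hz
        exact ⟨⟨z, Submodule.subset_span hz⟩, hz, rfl⟩
    rw [h2]
    exact hLKfg
  have hspan' : Submodule.span K (L' : Set V') = ⊤ := by
    rw [eq_top_iff]
    rintro ⟨w, hw⟩ -
    induction hw using Submodule.span_induction with
    | mem z hz => exact Submodule.subset_span (show (⟨z, _⟩ : V') ∈ L' from hz)
    | zero => exact Submodule.zero_mem _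
    | add a b ha hb iha ihb => exact Submodule.add_mem _ iha ihb
    | smul c a ha iha => exact Submodule.smul_mem _ c iha
  have hTL' : ∀ l, ∀ w ∈ L', T'' l w ∈ L' := fun l w hw => hTLK l _ hw
  have hyLK : (y : VY) ∈ LK := (hLK _).2 ⟨y.2, hjy'⟩
  obtain ⟨w, lam, Q, hw0, hw, hQ, hpQ, hlamQ⟩ := lr52_ds T'' hcomm'' L' hfg' hspan' hTL' p t
    (⟨(y : VY), Submodule.subset_span hyLK⟩ : V') hyLK
    (by
      rintro ⟨z, hz, e⟩
      exact hyp ⟨(z : VY), ((hLK _).1 hz).1, congrArg Subtype.val e⟩)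
    (by
      intro l
      obtain ⟨z, hz, hjz, e⟩ := hyT l
      have hzLK : z ∈ LK := (hLK z).2 ⟨hz, hjz⟩
      exact ⟨⟨z, Submodule.subset_span hzLK⟩, hzLK, Subtype.ext e⟩)
  refine ⟨(w : VY), lam, Q, ?_, ?_, ?_, hQ, hpQ, hlamQ⟩
  · intro h
    exact hw0 (Subtype.ext h)
  · exact LinearMap.mem_ker.mp (hV'ker w.2)
  · intro l
    exact congrArg Subtype.val (hw l)

end Core

end Fermat.Agent.S41
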