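/-
S41 (level raising), TOP-DOWN SKELETON (helper28).

`sk28_main` proves the conclusion of the frozen statement S41 verbatim from an ABSTRACT
"lattice model" of the two levels `N` and `N q`:

* `VN`, `VQ` complex vector spaces with finitely generated lattices `LN`, `LQ`
  (think: modular symbols / cohomology of `Γ₀(N)`, `Γ₀(N q)` with `ℂ`- resp. `ℤ`-coefficients),
* Hecke families `TN`, `TQ : ℕ → End`,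
* the two degeneracy maps `i₁ i₂ : VN → VQ` and the two trace maps `j₁ j₂ : VQ → VN` with
  `j ∘ i = [[q + 1, T_q], [T_q, q + 1]]`, and `U_q ^ 2 = 1` on `ker j₁ ∩ ker j₂`,
* one auxiliary good prime `ℓ₀` with `p ∤ ℓ₀ + 1 - a_{ℓ₀}(W)` for which Ihara's lemma
  (`hIh`: the kernel of `i mod p` is killed by a power of `T_{ℓ₀} - ℓ₀ - 1`) and its dual
  (`hDI`: the cokernel of `j mod p` is killed by a power of `T_{ℓ₀} - ℓ₀ - 1`) hold,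
* an eigenvector `vf` of level `N` with the eigenvalues of `f`,
* a Hecke equivariant map `Φ : VQ → Hom(Γ₀(N q), ℂ)` with parabolic values whose kernel is
  killed by `T_{ℓ₀} - ℓ₀ - 1`.

The proof combines `lr52_core` (helper52: abstract level raising on lattices) with
`es60_newform_of_eigenhom` (helper60: Eichler–Shimura transfer).

`sk28_exists_eigen` produces the eigenvector `vf` from the period homomorphism of `f` when the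
level `N` model comes with a Hecke equivariant map `ν : VN → Hom(Γ₀(N), ℂ)` whose image contains
the period homomorphism of `f` and whose kernel is killed by `T_{ℓ₀} - ℓ₀ - 1`; `sk28_main'`
is `sk28_main` with this input.
-/
import Mathlib
import Fermat.Prelude.Def_FLTPrelim_ModularRep
import Fermat.Prelude.Def_FreyPackage_LevelRaising
import Fermat.Agent.S41.LRCore52
import Fermat.Agent.S41.ESTransfer60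
import Fermat.Agent.S41.EigenBridge67

set_option autoImplicit false

open CongruenceSubgroup ModularCurve ModularCurve.Period
open scoped MatrixGroups

namespace Fermat.Agent.S41

open Fermat.Agent.S16 Fermat.Agent.S21

section Algebra

variable {V : Type*} [AddCommGroup V] [Module ℂ V]

/-- Powers of a diagonal operator on `V × V`. -/
theorem sk28_prodMap_pow (B : Module.End ℂ V) (n : ℕ) (x : V × V) :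
    (((B.prodMap B : Module.End ℂ (V × V))) ^ n) x = ((B ^ n) x.1, (B ^ n) x.2) := by
  induction n generalizing x with
  | zero => rfl
  | succ n ih =>
    rw [pow_succ, Module.End.mul_apply, ih]
    simp only [pow_succ, Module.End.mul_apply]
    rfl

/-- Powers of `T × T - c` on `V × V`. -/
theorem sk28_prodMap_sub_pow (A : Module.End ℂ V) (c : ℤ) (n : ℕ) (x : V × V) :
    (((A.prodMap A : Module.End ℂ (V × V)) - c • (1 : Module.End ℂ (V × V))) ^ n) x =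
      (((A - c • (1 : Module.End ℂ V)) ^ n) x.1, ((A - c • (1 : Module.End ℂ V)) ^ n) x.2) := by
  have h : (A.prodMap A : Module.End ℂ (V × V)) - c • (1 : Module.End ℂ (V × V)) =
      (A - c • (1 : Module.End ℂ V)).prodMap (A - c • (1 : Module.End ℂ V)) := by
    apply LinearMap.ext
    rintro ⟨x₁, x₂⟩
    rfl
  rw [h, sk28_prodMap_pow]

/-- The `ℂ`-span of `L × L` contains `span L × span L`. -/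
theorem sk28_span_prod (L : Submodule ℤ V) {x₁ x₂ : V}
    (h₁ : x₁ ∈ Submodule.span ℂ (L : Set V)) (h₂ : x₂ ∈ Submodule.span ℂ (L : Set V)) :
    (x₁, x₂) ∈ Submodule.span ℂ ((L.prod L : Submodule ℤ (V × V)) : Set (V × V)) := by
  have hl : Submodule.span ℂ (L : Set V) ≤
      (Submodule.span ℂ ((L.prod L : Submodule ℤ (V × V)) : Set (V × V))).comap
        (LinearMap.inl ℂ V V) := by
    refine Submodule.span_le.mpr fun x hx => ?_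
    exact Submodule.subset_span ⟨hx, L.zero_mem⟩
  have hr : Submodule.span ℂ (L : Set V) ≤
      (Submodule.span ℂ ((L.prod L : Submodule ℤ (V × V)) : Set (V × V))).comap
        (LinearMap.inr ℂ V V) := by
    refine Submodule.span_le.mpr fun x hx => ?_
    exact Submodule.subset_span ⟨L.zero_mem, hx⟩
  have e : (x₁, x₂) = LinearMap.inl ℂ V V x₁ + LinearMap.inr ℂ V V x₂ := by
    simp
  rw [e]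
  exact Submodule.add_mem _ (hl h₁) (hr h₂)

/-- An integer prime to `p` is a unit modulo any proper ideal containing `p`. -/
theorem sk28_not_mem_of_not_dvd {R : Type*} [CommRing R] (Q : Ideal R) (hQ : Q ≠ ⊤) (p : ℕ)
    (hp : p.Prime) (hpQ : (p : R) ∈ Q) (u : ℤ) (hu : ¬ (p : ℤ) ∣ u) : (u : R) ∉ Q := by
  intro huQ
  have hcop : IsCoprime (p : ℤ) u :=
    (Prime.coprime_iff_not_dvd (Nat.prime_iff_prime_int.mp hp)).mpr hu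
  obtain ⟨a, b, hab⟩ := hcop
  apply hQ
  rw [Ideal.eq_top_iff_one]
  have h1 : ((a * (p : ℤ) + b * u : ℤ) : R) = 1 := by
    rw [hab]; simp
  rw [← h1]
  push_cast
  exact Q.add_mem (Q.mul_mem_left _ hpQ) (Q.mul_mem_left _ huQ)

end Algebra

section Main

variable {VN VQ : Type*} [AddCommGroup VN] [Module ℂ VN] [AddCommGroup VQ] [Module ℂ VQ]

/-- **S41 skeleton.**  The conclusion of the frozen statement S41 from an abstract lattice model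
of the levels `N` and `N q` (see the file header for the dictionary). -/
theorem sk28_main
    {W : WeierstrassCurve ℤ} {p N q : ℕ} [NeZero (N * q)] (hp : p.Prime) (hq : q.Prime)
    (hqN : ¬ q ∣ N)
    (f : CuspForm (Gamma0 N) 2) (𝔪 : Ideal (integralClosure ℤ ℂ))
    (hmax : 𝔪.IsMaximal) (hpm : (p : integralClosure ℤ ℂ) ∈ 𝔪)
    (hcong : ∀ ℓ : ℕ, ℓ.Prime → W.IsGoodPrimeFor ℓ → ¬ ℓ ∣ N → ℓ ≠ p →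
      ∃ a : integralClosure ℤ ℂ, (a : ℂ) = ModularFormClass.qCoeff f ℓ ∧
        a - ((W.apOfModel ℓ : ℤ) : integralClosure ℤ ℂ) ∈ 𝔪)
    (hLR : ∃ a : integralClosure ℤ ℂ, (a : ℂ) = ModularFormClass.qCoeff f q ∧
      a ^ 2 - ((q : integralClosure ℤ ℂ) + 1) ^ 2 ∈ 𝔪)
    -- the lattices and the Hecke operators
    (LN : Submodule ℤ VN) (LQ : Submodule ℤ VQ) (hNfg : LN.FG) (hQfg : LQ.FG)
    (TN : ℕ → Module.End ℂ VN) (TQ : ℕ → Module.End ℂ VQ)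
    (hTN : ∀ ℓ : ℕ, ℓ.Prime → ¬ ℓ ∣ N * q → ∀ x ∈ LN, TN ℓ x ∈ LN)
    (hTQ : ∀ ℓ : ℕ, ℓ.Prime → ¬ ℓ ∣ N * q → ∀ y ∈ LQ, TQ ℓ y ∈ LQ)
    (hcN : ∀ ℓ ℓ' : ℕ, ℓ.Prime → ℓ'.Prime → ¬ ℓ ∣ N * q → ¬ ℓ' ∣ N * q →
      Commute (TN ℓ) (TN ℓ'))
    (hcQ : ∀ ℓ ℓ' : ℕ, ℓ.Prime → ℓ'.Prime → ¬ ℓ ∣ N * q → ¬ ℓ' ∣ N * q →
      Commute (TQ ℓ) (TQ ℓ'))
    -- degeneracy maps and traces
    (i₁ i₂ : VN →ₗ[ℂ] VQ) (j₁ j₂ : VQ →ₗ[ℂ] VN)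
    (hi₁L : ∀ x ∈ LN, i₁ x ∈ LQ) (hi₂L : ∀ x ∈ LN, i₂ x ∈ LQ)
    (hj₁L : ∀ y ∈ LQ, j₁ y ∈ LN) (hj₂L : ∀ y ∈ LQ, j₂ y ∈ LN)
    (hi₁T : ∀ ℓ : ℕ, ℓ.Prime → ¬ ℓ ∣ N * q → ∀ x, i₁ (TN ℓ x) = TQ ℓ (i₁ x))
    (hi₂T : ∀ ℓ : ℕ, ℓ.Prime → ¬ ℓ ∣ N * q → ∀ x, i₂ (TN ℓ x) = TQ ℓ (i₂ x))
    (hj₁T : ∀ ℓ : ℕ, ℓ.Prime → ¬ ℓ ∣ N * q → ∀ y, j₁ (TQ ℓ y) = TN ℓ (j₁ y))
    (hj₂T : ∀ ℓ : ℕ, ℓ.Prime → ¬ ℓ ∣ N * q → ∀ y, j₂ (TQ ℓ y) = TN ℓ (j₂ y))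
    (h11 : ∀ x, j₁ (i₁ x) = ((q : ℂ) + 1) • x) (h12 : ∀ x, j₁ (i₂ x) = TN q x)
    (h21 : ∀ x, j₂ (i₁ x) = TN q x) (h22 : ∀ x, j₂ (i₂ x) = ((q : ℂ) + 1) • x)
    (hU2 : ∀ y, j₁ y = 0 → j₂ y = 0 → TQ q (TQ q y) = y)
    -- the auxiliary prime: non-Eisenstein, Ihara, dual Ihara
    (ℓ₀ : ℕ) (hℓ₀ : ℓ₀.Prime) (hℓ₀g : W.IsGoodPrimeFor ℓ₀) (hℓ₀Nq : ¬ ℓ₀ ∣ N * q)
    (hℓ₀p : ℓ₀ ≠ p) (hne : ¬ (p : ℤ) ∣ (ℓ₀ : ℤ) + 1 - W.apOfModel ℓ₀)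
    (hIh : ∀ x₁ ∈ LN, ∀ x₂ ∈ LN, (∃ y ∈ LQ, i₁ x₁ + i₂ x₂ = (p : ℤ) • y) →
      ∃ n : ℕ,
        (∃ x' ∈ LN, ((TN ℓ₀ - ((ℓ₀ : ℤ) + 1) • (1 : Module.End ℂ VN)) ^ n) x₁ = (p : ℤ) • x') ∧
        (∃ x' ∈ LN, ((TN ℓ₀ - ((ℓ₀ : ℤ) + 1) • (1 : Module.End ℂ VN)) ^ n) x₂ = (p : ℤ) • x'))
    (hDI : ∃ n : ℕ, ∀ x₁ ∈ LN, ∀ x₂ ∈ LN, ∃ y ∈ LQ, ∃ x₁' ∈ LN, ∃ x₂' ∈ LN,
      ((TN ℓ₀ - ((ℓ₀ : ℤ) + 1) • (1 : Module.End ℂ VN)) ^ n) x₁ = j₁ y + (p : ℤ) • x₁' ∧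
      ((TN ℓ₀ - ((ℓ₀ : ℤ) + 1) • (1 : Module.End ℂ VN)) ^ n) x₂ = j₂ y + (p : ℤ) • x₂')
    -- the eigenvector of level `N`
    (vf : VN) (hvf0 : vf ≠ 0) (hvfL : vf ∈ Submodule.span ℂ (LN : Set VN))
    (hvf : ∀ ℓ : ℕ, ℓ.Prime → ¬ ℓ ∣ N → TN ℓ vf = ModularFormClass.qCoeff f ℓ • vf)
    -- the comparison with `Hom(Γ₀(N q), ℂ)`
    (Φ : VQ →ₗ[ℂ] (Additive (Gamma0 (N * q)) →+ ℂ))
    (hΦpar : ∀ y, Φ y ∈ parabolicHoms ℂ (Gamma0 (N * q)) ℂ)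
    (hΦT : ∀ ℓ : ℕ, ℓ.Prime → ∀ y, Φ (TQ ℓ y) = heckeHom (N * q) ℓ ℂ (Φ y))
    (hΦker : ∀ y, Φ y = 0 → TQ ℓ₀ y = ((ℓ₀ : ℂ) + 1) • y) :
    ∃ (g : CuspForm (Gamma0 (N * q)) 2) (𝔪' : Ideal (integralClosure ℤ ℂ)),
      g.IsNormalizedEigenform ∧ 𝔪'.IsMaximal ∧ (p : integralClosure ℤ ℂ) ∈ 𝔪' ∧
      (∀ ℓ : ℕ, ℓ.Prime → W.IsGoodPrimeFor ℓ → ¬ ℓ ∣ N * q → ℓ ≠ p →
        ∃ a : integralClosure ℤ ℂ, (a : ℂ) = ModularFormClass.qCoeff g ℓ ∧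
          a - ((W.apOfModel ℓ : ℤ) : integralClosure ℤ ℂ) ∈ 𝔪') ∧
      g.IsNewAt q := by
  classical
  have hdvdN : ∀ ℓ : ℕ, ¬ ℓ ∣ N * q → ¬ ℓ ∣ N := fun ℓ h h' => h (Dvd.dvd.mul_right h' q)
  -- the sign
  obtain ⟨aq, haq, haq2⟩ := hLR
  have hprime : 𝔪.IsPrime := hmax.isPrime
  obtain ⟨e, he2, hes⟩ : ∃ e : integralClosure ℤ ℂ, e * e = 1 ∧
      ((q : integralClosure ℤ ℂ) + 1) + e * aq ∈ 𝔪 := by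
    have hfac : (aq - ((q : integralClosure ℤ ℂ) + 1)) * (aq + ((q : integralClosure ℤ ℂ) + 1))
        ∈ 𝔪 := by
      have : (aq - ((q : integralClosure ℤ ℂ) + 1)) * (aq + ((q : integralClosure ℤ ℂ) + 1)) =
          aq ^ 2 - ((q : integralClosure ℤ ℂ) + 1) ^ 2 := by ring
      rw [this]; exact haq2
    rcases hprime.mem_or_mem hfac with h | h
    · refine ⟨-1, by ring, ?_⟩
      have : ((q : integralClosure ℤ ℂ) + 1) + (-1) * aq =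
          -(aq - ((q : integralClosure ℤ ℂ) + 1)) := by ring
      rw [this]; exact 𝔪.neg_mem h
    · refine ⟨1, by ring, ?_⟩
      have : ((q : integralClosure ℤ ℂ) + 1) + 1 * aq =
          aq + ((q : integralClosure ℤ ℂ) + 1) := by ring
      rw [this]; exact h
  have he2' : (e : ℂ) * (e : ℂ) = 1 := by
    have := congrArg (fun z : integralClosure ℤ ℂ => (z : ℂ)) he2
    simpa using this
  -- the index set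
  let ι : Type := {ℓ : ℕ // ℓ.Prime ∧ W.IsGoodPrimeFor ℓ ∧ ¬ ℓ ∣ N * q ∧ ℓ ≠ p}
  let TX : ι → Module.End ℂ (VN × VN) := fun l => (TN l.1).prodMap (TN l.1)
  let TY : ι → Module.End ℂ VQ := fun l => TQ l.1
  let LX : Submodule ℤ (VN × VN) := LN.prod LN
  let i : VN × VN →ₗ[ℂ] VQ := i₁.coprod i₂
  let j : VQ →ₗ[ℂ] VN × VN := j₁.prod j₂
  let t : ι → ℤ := fun l => W.apOfModel l.1
  let l0 : ι := ⟨ℓ₀, hℓ₀, hℓ₀g, hℓ₀Nq, hℓ₀p⟩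
  have hch : ∀ l : ι, ∃ a : integralClosure ℤ ℂ, (a : ℂ) = ModularFormClass.qCoeff f l.1 ∧
      a - ((W.apOfModel l.1 : ℤ) : integralClosure ℤ ℂ) ∈ 𝔪 := fun l =>
    hcong l.1 l.2.1 l.2.2.1 (hdvdN _ l.2.2.2.1) l.2.2.2.2
  choose a ha1 ha2 using hch
  have hne' : ¬ (p : ℤ) ∣ t l0 - ((ℓ₀ : ℤ) + 1) := by
    intro h
    apply hne
    have : (ℓ₀ : ℤ) + 1 - W.apOfModel ℓ₀ = -(t l0 - ((ℓ₀ : ℤ) + 1)) := by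
      show (ℓ₀ : ℤ) + 1 - W.apOfModel ℓ₀ = -(W.apOfModel ℓ₀ - ((ℓ₀ : ℤ) + 1))
      ring
    rw [this]
    exact (dvd_neg).mpr h
  have hvq : TN q vf = (aq : ℂ) • vf := by rw [haq]; exact hvf q hq hqN
  obtain ⟨y, lam, Q, hy0, hjy, hlam, hQmax, hpQ, hlamQ⟩ :=
    lr52_core (K := ℂ) LX LQ (hNfg.prod hNfg) hQfg TX TY
      (fun l x hx => ⟨hTN l.1 l.2.1 l.2.2.2.1 _ hx.1, hTN l.1 l.2.1 l.2.2.2.1 _ hx.2⟩)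
      (fun l y hy => hTQ l.1 l.2.1 l.2.2.2.1 y hy)
      (fun l l' => by
        have h := hcN l.1 l'.1 l.2.1 l'.2.1 l.2.2.2.1 l'.2.2.2.1
        apply LinearMap.ext
        rintro ⟨x₁, x₂⟩
        show (TN l.1 (TN l'.1 x₁), TN l.1 (TN l'.1 x₂)) =
          (TN l'.1 (TN l.1 x₁), TN l'.1 (TN l.1 x₂))
        have h' : ∀ x, TN l.1 (TN l'.1 x) = TN l'.1 (TN l.1 x) := fun x =>
          congrArg (fun F : Module.End ℂ VN => F x) h.eq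
        rw [h', h'])
      (fun l l' => hcQ l.1 l'.1 l.2.1 l'.2.1 l.2.2.2.1 l'.2.2.2.1)
      i j
      (fun x hx => by
        show i₁ x.1 + i₂ x.2 ∈ LQ
        exact LQ.add_mem (hi₁L _ hx.1) (hi₂L _ hx.2))
      (fun y hy => ⟨hj₁L y hy, hj₂L y hy⟩)
      (fun l x => by
        show i₁ (TN l.1 x.1) + i₂ (TN l.1 x.2) = TQ l.1 (i₁ x.1 + i₂ x.2)
        rw [map_add, hi₁T l.1 l.2.1 l.2.2.2.1, hi₂T l.1 l.2.1 l.2.2.2.1])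
      (fun l y => by
        show (j₁ (TQ l.1 y), j₂ (TQ l.1 y)) = (TN l.1 (j₁ y), TN l.1 (j₂ y))
        rw [hj₁T l.1 l.2.1 l.2.2.2.1, hj₂T l.1 l.2.1 l.2.2.2.1])
      p hp t l0 ((ℓ₀ : ℤ) + 1) hne'
      (by
        rintro ⟨x₁, x₂⟩ ⟨hx₁, hx₂⟩ hy
        obtain ⟨n, ⟨x₁', hx₁', e₁⟩, ⟨x₂', hx₂', e₂⟩⟩ := hIh x₁ hx₁ x₂ hx₂ hy
        refine ⟨n, (x₁', x₂'), ⟨hx₁', hx₂'⟩, ?_⟩
        show ((((TN ℓ₀).prodMap (TN ℓ₀) : Module.End ℂ (VN × VN)) -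
          ((ℓ₀ : ℤ) + 1) • (1 : Module.End ℂ (VN × VN))) ^ n) (x₁, x₂) = (p : ℤ) • (x₁', x₂')
        rw [sk28_prodMap_sub_pow, e₁, e₂]
        rfl)
      (by
        obtain ⟨n, hn⟩ := hDI
        refine ⟨n, ?_⟩
        rintro ⟨x₁, x₂⟩ ⟨hx₁, hx₂⟩
        obtain ⟨y, hy, x₁', hx₁', x₂', hx₂', e₁, e₂⟩ := hn x₁ hx₁ x₂ hx₂
        refine ⟨y, hy, (x₁', x₂'), ⟨hx₁', hx₂'⟩, ?_⟩
        show ((((TN ℓ₀).prodMap (TN ℓ₀) : Module.End ℂ (VN × VN)) -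
          ((ℓ₀ : ℤ) + 1) • (1 : Module.End ℂ (VN × VN))) ^ n) (x₁, x₂) =
            (j₁ y, j₂ y) + (p : ℤ) • (x₁', x₂')
        rw [sk28_prodMap_sub_pow, e₁, e₂]
        rfl)
      (vf, (e : ℂ) • vf)
      (by
        intro h
        exact hvf0 (congrArg Prod.fst h))
      (sk28_span_prod LN hvfL (Submodule.smul_mem _ _ hvfL))
      a
      (fun l => by
        show (TN l.1 vf, TN l.1 ((e : ℂ) • vf)) = (a l : ℂ) • (vf, (e : ℂ) • vf)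
        rw [map_smul, hvf l.1 l.2.1 (hdvdN _ l.2.2.2.1), ha1 l, Prod.smul_mk, smul_comm])
      (((q : integralClosure ℤ ℂ) + 1) + e * aq)
      (by
        show (j₁ (i₁ vf + i₂ ((e : ℂ) • vf)), j₂ (i₁ vf + i₂ ((e : ℂ) • vf))) =
          ((((q : integralClosure ℤ ℂ) + 1) + e * aq : integralClosure ℤ ℂ) : ℂ) •
            (vf, (e : ℂ) • vf)
        rw [map_add, map_add, h11, h12, h21, h22, map_smul, hvq, Prod.smul_mk]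
        have hc : ((((q : integralClosure ℤ ℂ) + 1) + e * aq : integralClosure ℤ ℂ) : ℂ) =
            ((q : ℂ) + 1) + (e : ℂ) * (aq : ℂ) := by
          push_cast; ring
        rw [hc]
        refine Prod.ext ?_ ?_
        · show ((q : ℂ) + 1) • vf + (e : ℂ) • (aq : ℂ) • vf =
            (((q : ℂ) + 1) + (e : ℂ) * (aq : ℂ)) • vf
          module
        · show (aq : ℂ) • vf + ((q : ℂ) + 1) • (e : ℂ) • vf =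
            (((q : ℂ) + 1) + (e : ℂ) * (aq : ℂ)) • (e : ℂ) • vf
          have h1 : (((q : ℂ) + 1) + (e : ℂ) * (aq : ℂ)) • (e : ℂ) • vf =
              ((q : ℂ) + 1) • (e : ℂ) • vf + (aq : ℂ) • ((e : ℂ) * (e : ℂ)) • vf := by module
          rw [h1, he2', one_smul, add_comm])
      𝔪 hmax.ne_top hpm (fun l => ha2 l) hes
  have hj₁y : j₁ y = 0 := congrArg Prod.fst hjy
  have hj₂y : j₂ y = 0 := congrArg Prod.snd hjy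
  -- `Φ y ≠ 0`
  have hΦy : Φ y ≠ 0 := by
    intro h0
    have h1 := hΦker y h0
    have h2 : TQ ℓ₀ y = (lam l0 : ℂ) • y := hlam l0
    rw [h2] at h1
    have h3 : ((lam l0 : ℂ) - ((ℓ₀ : ℂ) + 1)) • y = 0 := by
      rw [sub_smul, h1, sub_self]
    rcases smul_eq_zero.mp h3 with h4 | h4
    · have h5 : lam l0 = ((((ℓ₀ : ℤ) + 1 : ℤ)) : integralClosure ℤ ℂ) := by
        apply Subtype.ext
        have : (lam l0 : ℂ) = (ℓ₀ : ℂ) + 1 := sub_eq_zero.mp h4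
        rw [this]
        push_cast
        rfl
      have h6 := hlamQ l0
      rw [h5] at h6
      have h7 : ((((ℓ₀ : ℤ) + 1 - W.apOfModel ℓ₀ : ℤ)) : integralClosure ℤ ℂ) ∈ Q := by
        have : ((((ℓ₀ : ℤ) + 1 - W.apOfModel ℓ₀ : ℤ)) : integralClosure ℤ ℂ) =
            ((((ℓ₀ : ℤ) + 1 : ℤ)) : integralClosure ℤ ℂ) - ((t l0 : ℤ) : integralClosure ℤ ℂ) := by
          push_cast; rfl
        rw [this]; exact h6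
      exact sk28_not_mem_of_not_dvd Q hQmax.ne_top p hp hpQ _ hne h7
    · exact hy0 h4
  -- transfer to cusp forms
  let μ : ℕ → ℂ := fun ℓ =>
    if h : ℓ.Prime ∧ W.IsGoodPrimeFor ℓ ∧ ¬ ℓ ∣ N * q ∧ ℓ ≠ p then (lam ⟨ℓ, h⟩ : ℂ) else 0
  obtain ⟨g, hg, hg1, hg2⟩ := es60_newform_of_eigenhom (M := N * q) hq
    {ℓ | W.IsGoodPrimeFor ℓ ∧ ¬ ℓ ∣ N * q ∧ ℓ ≠ p} (Φ y) (hΦpar y) hΦy μ
    (fun ℓ hℓS hℓ => by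
      have h : ℓ.Prime ∧ W.IsGoodPrimeFor ℓ ∧ ¬ ℓ ∣ N * q ∧ ℓ ≠ p := ⟨hℓ, hℓS⟩
      have hμ : μ ℓ = (lam ⟨ℓ, h⟩ : ℂ) := dif_pos h
      rw [← hΦT ℓ hℓ, hμ]
      have : TQ ℓ y = (lam ⟨ℓ, h⟩ : ℂ) • y := hlam ⟨ℓ, h⟩
      rw [this, map_smul])
    (by rw [← hΦT q hq, ← hΦT q hq, hU2 y hj₁y hj₂y])
  refine ⟨g, Q, hg, hQmax, hpQ, fun ℓ hℓ hℓg hℓNq hℓp => ?_, hg2⟩
  have h : ℓ.Prime ∧ W.IsGoodPrimeFor ℓ ∧ ¬ ℓ ∣ N * q ∧ ℓ ≠ p := ⟨hℓ, hℓg, hℓNq, hℓp⟩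
  refine ⟨lam ⟨ℓ, h⟩, ?_, hlamQ ⟨ℓ, h⟩⟩
  rw [hg1 ℓ ⟨hℓg, hℓNq, hℓp⟩ hℓ]
  have hμ : μ ℓ = (lam ⟨ℓ, h⟩ : ℂ) := dif_pos h
  exact hμ.symm

/-- **The eigenvector of level `N`.**  If `ν : VN → Hom(Γ₀(N), ℂ)` is Hecke equivariant, its
image contains the period homomorphism of the normalised eigenform `f`, and its kernel is killed
by `T_{ℓ₀} - c` with `c ≠ a_{ℓ₀}(f)`, then `VN` contains an eigenvector with the eigenvalues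
of `f` (namely `(T_{ℓ₀} - c) x` for any lift `x` of the period homomorphism). -/
theorem sk28_exists_eigen {N : ℕ} [NeZero N] (f : CuspForm (Gamma0 N) 2)
    (hf : f.IsNormalizedEigenform) (TN : ℕ → Module.End ℂ VN)
    (ν : VN →ₗ[ℂ] (Additive (Gamma0 N) →+ ℂ))
    (hνT : ∀ ℓ : ℕ, ℓ.Prime → ¬ ℓ ∣ N → ∀ x, ν (TN ℓ x) = heckeHom N ℓ ℂ (ν x))
    (hνf : ∃ x, ν x = periodMap N f)
    (ℓ₀ : ℕ) (hℓ₀ : ℓ₀.Prime) (hℓ₀N : ¬ ℓ₀ ∣ N) (c : ℂ)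
    (hc : ModularFormClass.qCoeff f ℓ₀ ≠ c)
    (hcomm : ∀ ℓ : ℕ, ℓ.Prime → ¬ ℓ ∣ N → Commute (TN ℓ) (TN ℓ₀))
    (hνker : ∀ x, ν x = 0 → TN ℓ₀ x = c • x) :
    ∃ vf : VN, vf ≠ 0 ∧
      ∀ ℓ : ℕ, ℓ.Prime → ¬ ℓ ∣ N → TN ℓ vf = ModularFormClass.qCoeff f ℓ • vf := by
  obtain ⟨hpar, hne, heig⟩ := eb67_periodMap_eigen (M := N) hf
  obtain ⟨x, hx⟩ := hνf
  refine ⟨TN ℓ₀ x - c • x, ?_, fun ℓ hℓ hℓN => ?_⟩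
  · intro h0
    have h1 : ν (TN ℓ₀ x - c • x) = (ModularFormClass.qCoeff f ℓ₀ - c) • periodMap N f := by
      rw [map_sub, map_smul, hνT ℓ₀ hℓ₀ hℓ₀N, hx, heig ℓ₀ hℓ₀, sub_smul]
    rw [h0, map_zero] at h1
    rcases smul_eq_zero.mp h1.symm with h2 | h2
    · exact hc (sub_eq_zero.mp h2)
    · exact hne h2
  · -- `β = T_ℓ x - a_ℓ x` lies in the kernel of `ν`
    have hβ : ν (TN ℓ x - ModularFormClass.qCoeff f ℓ • x) = 0 := by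
      rw [map_sub, map_smul, hνT ℓ hℓ hℓN, hx, heig ℓ hℓ, sub_self]
    have hk := hνker _ hβ
    have hcm : ∀ z, TN ℓ (TN ℓ₀ z) = TN ℓ₀ (TN ℓ z) := fun z =>
      congrArg (fun F : Module.End ℂ VN => F z) (hcomm ℓ hℓ hℓN).eq
    rw [map_sub, map_smul] at hk
    rw [map_sub, map_smul, hcm, smul_sub]
    -- hk : T₀ (T x) - a • T₀ x = c • (T x - a • x)
    have e1 : TN ℓ₀ (TN ℓ x) =
        ModularFormClass.qCoeff f ℓ • TN ℓ₀ x + c • (TN ℓ x - ModularFormClass.qCoeff f ℓ • x) := by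
      rw [← hk]; abel
    rw [e1, smul_sub, smul_comm c (ModularFormClass.qCoeff f ℓ) x]
    abel

/-- **S41 skeleton, second form.**  As `sk28_main`, with the eigenvector of level `N` produced
from a comparison map `ν : VN → Hom(Γ₀(N), ℂ)` (Hecke equivariant, onto the parabolic
homomorphisms, kernel killed by `T_{ℓ₀} - ℓ₀ - 1`) and `span_ℂ LN = VN`. -/
theorem sk28_main'
    {W : WeierstrassCurve ℤ} {p N q : ℕ} [NeZero N] [NeZero (N * q)] (hp : p.Prime)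
    (hq : q.Prime) (hqN : ¬ q ∣ N)
    (f : CuspForm (Gamma0 N) 2) (𝔪 : Ideal (integralClosure ℤ ℂ))
    (hf : f.IsNormalizedEigenform)
    (hmax : 𝔪.IsMaximal) (hpm : (p : integralClosure ℤ ℂ) ∈ 𝔪)
    (hcong : ∀ ℓ : ℕ, ℓ.Prime → W.IsGoodPrimeFor ℓ → ¬ ℓ ∣ N → ℓ ≠ p →
      ∃ a : integralClosure ℤ ℂ, (a : ℂ) = ModularFormClass.qCoeff f ℓ ∧
        a - ((W.apOfModel ℓ : ℤ) : integralClosure ℤ ℂ) ∈ 𝔪)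
    (hLR : ∃ a : integralClosure ℤ ℂ, (a : ℂ) = ModularFormClass.qCoeff f q ∧
      a ^ 2 - ((q : integralClosure ℤ ℂ) + 1) ^ 2 ∈ 𝔪)
    -- the lattices and the Hecke operators
    (LN : Submodule ℤ VN) (LQ : Submodule ℤ VQ) (hNfg : LN.FG) (hQfg : LQ.FG)
    (hNspan : Submodule.span ℂ (LN : Set VN) = ⊤)
    (TN : ℕ → Module.End ℂ VN) (TQ : ℕ → Module.End ℂ VQ)
    (hTN : ∀ ℓ : ℕ, ℓ.Prime → ¬ ℓ ∣ N * q → ∀ x ∈ LN, TN ℓ x ∈ LN)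
    (hTQ : ∀ ℓ : ℕ, ℓ.Prime → ¬ ℓ ∣ N * q → ∀ y ∈ LQ, TQ ℓ y ∈ LQ)
    (hcN : ∀ ℓ ℓ' : ℕ, ℓ.Prime → ℓ'.Prime → ¬ ℓ ∣ N → ¬ ℓ' ∣ N → Commute (TN ℓ) (TN ℓ'))
    (hcQ : ∀ ℓ ℓ' : ℕ, ℓ.Prime → ℓ'.Prime → ¬ ℓ ∣ N * q → ¬ ℓ' ∣ N * q →
      Commute (TQ ℓ) (TQ ℓ'))
    -- degeneracy maps and traces
    (i₁ i₂ : VN →ₗ[ℂ] VQ) (j₁ j₂ : VQ →ₗ[ℂ] VN)
    (hi₁L : ∀ x ∈ LN, i₁ x ∈ LQ) (hi₂L : ∀ x ∈ LN, i₂ x ∈ LQ)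
    (hj₁L : ∀ y ∈ LQ, j₁ y ∈ LN) (hj₂L : ∀ y ∈ LQ, j₂ y ∈ LN)
    (hi₁T : ∀ ℓ : ℕ, ℓ.Prime → ¬ ℓ ∣ N * q → ∀ x, i₁ (TN ℓ x) = TQ ℓ (i₁ x))
    (hi₂T : ∀ ℓ : ℕ, ℓ.Prime → ¬ ℓ ∣ N * q → ∀ x, i₂ (TN ℓ x) = TQ ℓ (i₂ x))
    (hj₁T : ∀ ℓ : ℕ, ℓ.Prime → ¬ ℓ ∣ N * q → ∀ y, j₁ (TQ ℓ y) = TN ℓ (j₁ y))
    (hj₂T : ∀ ℓ : ℕ, ℓ.Prime → ¬ ℓ ∣ N * q → ∀ y, j₂ (TQ ℓ y) = TN ℓ (j₂ y))
    (h11 : ∀ x, j₁ (i₁ x) = ((q : ℂ) + 1) • x) (h12 : ∀ x, j₁ (i₂ x) = TN q x)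
    (h21 : ∀ x, j₂ (i₁ x) = TN q x) (h22 : ∀ x, j₂ (i₂ x) = ((q : ℂ) + 1) • x)
    (hU2 : ∀ y, j₁ y = 0 → j₂ y = 0 → TQ q (TQ q y) = y)
    -- the auxiliary prime: non-Eisenstein, Ihara, dual Ihara
    (ℓ₀ : ℕ) (hℓ₀ : ℓ₀.Prime) (hℓ₀g : W.IsGoodPrimeFor ℓ₀) (hℓ₀Nq : ¬ ℓ₀ ∣ N * q)
    (hℓ₀p : ℓ₀ ≠ p) (hne : ¬ (p : ℤ) ∣ (ℓ₀ : ℤ) + 1 - W.apOfModel ℓ₀)
    (hIh : ∀ x₁ ∈ LN, ∀ x₂ ∈ LN, (∃ y ∈ LQ, i₁ x₁ + i₂ x₂ = (p : ℤ) • y) →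
      ∃ n : ℕ,
        (∃ x' ∈ LN, ((TN ℓ₀ - ((ℓ₀ : ℤ) + 1) • (1 : Module.End ℂ VN)) ^ n) x₁ = (p : ℤ) • x') ∧
        (∃ x' ∈ LN, ((TN ℓ₀ - ((ℓ₀ : ℤ) + 1) • (1 : Module.End ℂ VN)) ^ n) x₂ = (p : ℤ) • x'))
    (hDI : ∃ n : ℕ, ∀ x₁ ∈ LN, ∀ x₂ ∈ LN, ∃ y ∈ LQ, ∃ x₁' ∈ LN, ∃ x₂' ∈ LN,
      ((TN ℓ₀ - ((ℓ₀ : ℤ) + 1) • (1 : Module.End ℂ VN)) ^ n) x₁ = j₁ y + (p : ℤ) • x₁' ∧
      ((TN ℓ₀ - ((ℓ₀ : ℤ) + 1) • (1 : Module.End ℂ VN)) ^ n) x₂ = j₂ y + (p : ℤ) • x₂')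
    -- the comparison with `Hom(Γ₀(N), ℂ)`
    (ν : VN →ₗ[ℂ] (Additive (Gamma0 N) →+ ℂ))
    (hνT : ∀ ℓ : ℕ, ℓ.Prime → ¬ ℓ ∣ N → ∀ x, ν (TN ℓ x) = heckeHom N ℓ ℂ (ν x))
    (hνsurj : ∀ χ ∈ parabolicHoms ℂ (Gamma0 N) ℂ, ∃ x, ν x = χ)
    (hνker : ∀ x, ν x = 0 → TN ℓ₀ x = ((ℓ₀ : ℂ) + 1) • x)
    -- the comparison with `Hom(Γ₀(N q), ℂ)`
    (Φ : VQ →ₗ[ℂ] (Additive (Gamma0 (N * q)) →+ ℂ))
    (hΦpar : ∀ y, Φ y ∈ parabolicHoms ℂ (Gamma0 (N * q)) ℂ)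
    (hΦT : ∀ ℓ : ℕ, ℓ.Prime → ∀ y, Φ (TQ ℓ y) = heckeHom (N * q) ℓ ℂ (Φ y))
    (hΦker : ∀ y, Φ y = 0 → TQ ℓ₀ y = ((ℓ₀ : ℂ) + 1) • y) :
    ∃ (g : CuspForm (Gamma0 (N * q)) 2) (𝔪' : Ideal (integralClosure ℤ ℂ)),
      g.IsNormalizedEigenform ∧ 𝔪'.IsMaximal ∧ (p : integralClosure ℤ ℂ) ∈ 𝔪' ∧
      (∀ ℓ : ℕ, ℓ.Prime → W.IsGoodPrimeFor ℓ → ¬ ℓ ∣ N * q → ℓ ≠ p →
        ∃ a : integralClosure ℤ ℂ, (a : ℂ) = ModularFormClass.qCoeff g ℓ ∧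
          a - ((W.apOfModel ℓ : ℤ) : integralClosure ℤ ℂ) ∈ 𝔪') ∧
      g.IsNewAt q := by
  have hdvdN : ∀ ℓ : ℕ, ¬ ℓ ∣ N * q → ¬ ℓ ∣ N := fun ℓ h h' => h (Dvd.dvd.mul_right h' q)
  have hℓ₀N : ¬ ℓ₀ ∣ N := hdvdN ℓ₀ hℓ₀Nq
  -- `a_{ℓ₀}(f) ≠ ℓ₀ + 1`
  have hc : ModularFormClass.qCoeff f ℓ₀ ≠ (ℓ₀ : ℂ) + 1 := by
    intro h
    obtain ⟨a, ha1, ha2⟩ := hcong ℓ₀ hℓ₀ hℓ₀g hℓ₀N hℓ₀p
    have h5 : a = ((((ℓ₀ : ℤ) + 1 : ℤ)) : integralClosure ℤ ℂ) := by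
      apply Subtype.ext
      rw [ha1, h]
      push_cast
      rfl
    rw [h5] at ha2
    have h7 : ((((ℓ₀ : ℤ) + 1 - W.apOfModel ℓ₀ : ℤ)) : integralClosure ℤ ℂ) ∈ 𝔪 := by
      have : ((((ℓ₀ : ℤ) + 1 - W.apOfModel ℓ₀ : ℤ)) : integralClosure ℤ ℂ) =
          ((((ℓ₀ : ℤ) + 1 : ℤ)) : integralClosure ℤ ℂ) -
            ((W.apOfModel ℓ₀ : ℤ) : integralClosure ℤ ℂ) := by
        push_cast; rfl
      rw [this]; exact ha2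
    exact sk28_not_mem_of_not_dvd 𝔪 hmax.ne_top p hp hpm _ hne h7
  obtain ⟨vf, hvf0, hvf⟩ := sk28_exists_eigen f hf TN ν hνT
    (hνsurj _ (eb67_periodMap_eigen (M := N) hf).1) ℓ₀ hℓ₀ hℓ₀N ((ℓ₀ : ℂ) + 1) hc
    (fun ℓ hℓ hℓN => hcN ℓ ℓ₀ hℓ hℓ₀ hℓN hℓ₀N) hνker
  exact sk28_main hp hq hqN f 𝔪 hmax hpm hcong hLR LN LQ hNfg hQfg TN TQ hTN hTQ
    (fun ℓ ℓ' hℓ hℓ' hℓN hℓ'N => hcN ℓ ℓ' hℓ hℓ' (hdvdN ℓ hℓN) (hdvdN ℓ' hℓ'N)) hcQ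
    i₁ i₂ j₁ j₂ hi₁L hi₂L hj₁L hj₂L hi₁T hi₂T hj₁T hj₂T h11 h12 h21 h22 hU2
    ℓ₀ hℓ₀ hℓ₀g hℓ₀Nq hℓ₀p hne hIh hDI vf hvf0 (by rw [hNspan]; exact Submodule.mem_top) hvf
    Φ hΦpar hΦT hΦker

end Main

end Fermat.Agent.S41
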