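/-
S41 (level raising), CONCRETE ASSEMBLY (helper28, link L14 of the architecture ruling).

The abstract skeleton `sk28_main'` (Skeleton28.lean) is instantiated with the concrete model
fixed by the conventions C1–C6:

* cusps `OnePoint ℚ`, symbols = plain functions `Φ : sc71_X → A` (`sc71_X = P × P`),
* `V M = slp10_V M ℂ` (the `ℂ`-valued symbols of level `M`), `L M = slp10_L M ℂ`
  (the integer valued ones),
* Hecke operators `as28_T M ℓ` (`tr43_T ℓ` if `ℓ ∤ M`, `tr43_U ℓ` if `ℓ ∣ M`),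
* `i₁ = as28_res` (inclusion), `i₂ = as28_resW D` (`W_q ∘` inclusion),
  `j₁ = as28_tr D` (trace), `j₂ = as28_trW D` (trace `∘ W_q`),
* `ν = as28_nu M` (`sc71_nu` as a linear map).

`as28_main` proves the conclusion of S41 from
* the auxiliary prime `ℓ₀` (good, `∤ N q`, `≠ p`, non-Eisenstein: `p ∤ ℓ₀ + 1 - a_{ℓ₀}`),
  whose Hecke representatives move every cusp inside its `Γ₀(N q)`-orbit (`hmove`; true for
  `ℓ₀ ≡ 1 mod N q`),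
* the dual Ihara lemma `hDI` in plain-function form on integer valued symbols.
Everything else (lattice facts, commutations, `j ∘ i`, `U_q ^ 2 = 1` on `ker j`, Ihara's lemma
`ic42_H1`, the eigenvector of `f`, the transfer to cusp forms) is discharged here from the
modules on main.
-/
import Mathlib
import Fermat.Agent.S41.Skeleton28
import Fermat.Agent.S41.SymbCore71
import Fermat.Agent.S41.SymbLatticeP10
import Fermat.Agent.S41.Trace43b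
import Fermat.Agent.S41.IharaConc42
import Fermat.Agent.S41.CuspAdapted76
import Fermat.Agent.S41.Out60

set_option autoImplicit false

open Matrix MatrixGroups CongruenceSubgroup OnePoint ModularCurve ModularCurve.Period
open Fermat.Agent.S16

namespace Fermat.Agent.S41

/-! ### the operators as linear maps on functions -/

/-- precomposition with an integer matrix, as a `ℂ`-linear map on functions -/
noncomputable def as28_sl (M : Matrix (Fin 2) (Fin 2) ℤ) :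
    (sc71_X → ℂ) →ₗ[ℂ] (sc71_X → ℂ) where
  toFun Φ := tr43_sl Φ M
  map_add' _ _ := rfl
  map_smul' _ _ := rfl

@[simp] theorem as28_sl_apply (M : Matrix (Fin 2) (Fin 2) ℤ) (Φ : sc71_X → ℂ) :
    as28_sl M Φ = tr43_sl Φ M := rfl

/-- `T_ℓ` as a linear map on functions -/
noncomputable def as28_Tlin (ℓ : ℕ) : (sc71_X → ℂ) →ₗ[ℂ] (sc71_X → ℂ) :=
  ∑ i : Option (Fin ℓ), as28_sl (lbMat ℓ i)

theorem as28_Tlin_apply (ℓ : ℕ) (Φ : sc71_X → ℂ) : as28_Tlin ℓ Φ = tr43_T ℓ Φ := by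
  rw [as28_Tlin, LinearMap.sum_apply]
  rfl

/-- `U_q` as a linear map on functions -/
noncomputable def as28_Ulin (q : ℕ) : (sc71_X → ℂ) →ₗ[ℂ] (sc71_X → ℂ) :=
  ∑ b : Fin q, as28_sl (lbMat q (Option.some b))

theorem as28_Ulin_apply (q : ℕ) (Φ : sc71_X → ℂ) : as28_Ulin q Φ = tr43_U q Φ := by
  rw [as28_Ulin, LinearMap.sum_apply]
  rfl

/-- the trace as a linear map on functions -/
noncomputable def as28_trlin {N q : ℕ} (D : tr43_Data N q) :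
    (sc71_X → ℂ) →ₗ[ℂ] (sc71_X → ℂ) :=
  ∑ i : Option (Fin q), as28_sl ((D.rep i : SL(2, ℤ)) : Matrix (Fin 2) (Fin 2) ℤ)

theorem as28_trlin_apply {N q : ℕ} (D : tr43_Data N q) (Φ : sc71_X → ℂ) :
    as28_trlin D Φ = tr43_tr D Φ := by
  rw [as28_trlin, LinearMap.sum_apply]
  rfl

/-! ### restriction to the spaces of symbols -/

open Classical in
/-- a linear operator on functions, restricted to symbols of level `M` with values in symbols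
of level `M'` (zero if it does not preserve symbols) -/
noncomputable def as28_op (M M' : ℕ) (F : (sc71_X → ℂ) →ₗ[ℂ] (sc71_X → ℂ)) :
    slp10_V M ℂ →ₗ[ℂ] slp10_V M' ℂ :=
  if h : ∀ Φ ∈ slp10_V M ℂ, F Φ ∈ slp10_V M' ℂ then F.restrict h else 0

theorem as28_op_coe {M M' : ℕ} {F : (sc71_X → ℂ) →ₗ[ℂ] (sc71_X → ℂ)}
    (h : ∀ Φ ∈ slp10_V M ℂ, F Φ ∈ slp10_V M' ℂ) (v : slp10_V M ℂ) :
    ((as28_op M M' F v : slp10_V M' ℂ) : sc71_X → ℂ) = F (v : sc71_X → ℂ) := by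
  rw [as28_op, dif_pos h]
  rfl

theorem as28_mem_V {M : ℕ} {Φ : sc71_X → ℂ} :
    Φ ∈ slp10_V M ℂ ↔ sc71_IsSymb Φ ∧ tr43_Inv M Φ := Iff.rfl

theorem as28_isSymb {M : ℕ} (v : slp10_V M ℂ) : sc71_IsSymb (v : sc71_X → ℂ) := v.2.1

theorem as28_inv {M : ℕ} (v : slp10_V M ℂ) : tr43_Inv M (v : sc71_X → ℂ) := v.2.2

open Classical in
/-- the Hecke operator at `ℓ` on symbols of level `M`: `T_ℓ` if `ℓ ∤ M`, `U_ℓ` if `ℓ ∣ M`. -/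
noncomputable def as28_T (M ℓ : ℕ) : Module.End ℂ (slp10_V M ℂ) :=
  if ℓ ∣ M then as28_op M M (as28_Ulin ℓ) else as28_op M M (as28_Tlin ℓ)

theorem as28_T_coe {M ℓ : ℕ} (hℓ : ℓ.Prime) (hℓM : ¬ ℓ ∣ M) (v : slp10_V M ℂ) :
    ((as28_T M ℓ v : slp10_V M ℂ) : sc71_X → ℂ) = tr43_T ℓ (v : sc71_X → ℂ) := by
  rw [as28_T, if_neg hℓM, as28_op_coe, as28_Tlin_apply]
  intro Φ hΦ
  rw [as28_Tlin_apply]
  exact ⟨sc71_IsSymb.T hΦ.1 ℓ, tr43_T_Inv hℓ hℓM hΦ.2⟩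

theorem as28_T_coe_dvd {M ℓ : ℕ} (hℓ : ℓ.Prime) (hℓM : ℓ ∣ M) (v : slp10_V M ℂ) :
    ((as28_T M ℓ v : slp10_V M ℂ) : sc71_X → ℂ) = tr43_U ℓ (v : sc71_X → ℂ) := by
  rw [as28_T, if_pos hℓM, as28_op_coe, as28_Ulin_apply]
  intro Φ hΦ
  rw [as28_Ulin_apply]
  exact ⟨sc71_IsSymb.U hΦ.1 ℓ, tr43_U_Inv hℓ hℓM hΦ.2⟩

/-- `i₁`: the inclusion of level `N` into level `N q`. -/
noncomputable def as28_res (N q : ℕ) : slp10_V N ℂ →ₗ[ℂ] slp10_V (N * q) ℂ :=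
  as28_op N (N * q) LinearMap.id

theorem as28_res_coe {N q : ℕ} (v : slp10_V N ℂ) :
    ((as28_res N q v : slp10_V (N * q) ℂ) : sc71_X → ℂ) = (v : sc71_X → ℂ) := by
  rw [as28_res, as28_op_coe]
  · rfl
  · intro Φ hΦ
    exact ⟨hΦ.1, tr43_Inv_of_dvd (dvd_mul_right N q) hΦ.2⟩

/-- `i₂`: `W_q ∘` inclusion. -/
noncomputable def as28_resW {N q : ℕ} (D : tr43_Data N q) :
    slp10_V N ℂ →ₗ[ℂ] slp10_V (N * q) ℂ :=
  as28_op N (N * q) (as28_sl D.w)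

theorem as28_resW_coe {N q : ℕ} (hq : q ≠ 0) (D : tr43_Data N q) (v : slp10_V N ℂ) :
    ((as28_resW D v : slp10_V (N * q) ℂ) : sc71_X → ℂ) = tr43_W D (v : sc71_X → ℂ) := by
  rw [as28_resW, as28_op_coe]
  · rfl
  · intro Φ hΦ
    exact ⟨sc71_IsSymb.W D hΦ.1, tr43_W_Inv hq D (tr43_Inv_of_dvd (dvd_mul_right N q) hΦ.2)⟩

/-- `j₁`: the trace from level `N q` to level `N`. -/
noncomputable def as28_tr {N q : ℕ} (D : tr43_Data N q) :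
    slp10_V (N * q) ℂ →ₗ[ℂ] slp10_V N ℂ :=
  as28_op (N * q) N (as28_trlin D)

theorem as28_tr_coe {N q : ℕ} (hq : q.Prime) (D : tr43_Data N q) (v : slp10_V (N * q) ℂ) :
    ((as28_tr D v : slp10_V N ℂ) : sc71_X → ℂ) = tr43_tr D (v : sc71_X → ℂ) := by
  rw [as28_tr, as28_op_coe, as28_trlin_apply]
  intro Φ hΦ
  rw [as28_trlin_apply]
  exact ⟨sc71_IsSymb.tr D hΦ.1, tr43_tr_Inv hq D hΦ.2⟩

/-- `j₂`: the trace `∘ W_q`. -/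
noncomputable def as28_trW {N q : ℕ} (D : tr43_Data N q) :
    slp10_V (N * q) ℂ →ₗ[ℂ] slp10_V N ℂ :=
  as28_op (N * q) N ((as28_trlin D).comp (as28_sl D.w))

theorem as28_trW_coe {N q : ℕ} (hq : q.Prime) (D : tr43_Data N q) (v : slp10_V (N * q) ℂ) :
    ((as28_trW D v : slp10_V N ℂ) : sc71_X → ℂ) = tr43_tr D (tr43_W D (v : sc71_X → ℂ)) := by
  have key : ∀ Φ : sc71_X → ℂ, ((as28_trlin D).comp (as28_sl D.w)) Φ = tr43_tr D (tr43_W D Φ) :=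
    fun Φ => by
      rw [LinearMap.comp_apply, as28_trlin_apply]
      rfl
  rw [as28_trW, as28_op_coe, key]
  intro Φ hΦ
  rw [key]
  exact ⟨sc71_IsSymb.tr D (sc71_IsSymb.W D hΦ.1), tr43_tr_Inv hq D (tr43_W_Inv hq.ne_zero D hΦ.2)⟩

/-- `ν`: the period homomorphism, as a linear map. -/
noncomputable def as28_nu (M : ℕ) : slp10_V M ℂ →ₗ[ℂ] (Additive (Gamma0 M) →+ ℂ) where
  toFun v := sc71_nu M (v : sc71_X → ℂ) v.2.1 v.2.2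
  map_add' _ _ := AddMonoidHom.ext fun _ => rfl
  map_smul' _ _ := AddMonoidHom.ext fun _ => rfl

theorem as28_nu_apply {M : ℕ} (v : slp10_V M ℂ) :
    as28_nu M v = sc71_nu M (v : sc71_X → ℂ) v.2.1 v.2.2 := rfl

theorem as28_nu_eq {M : ℕ} (v : slp10_V M ℂ) {Φ : sc71_X → ℂ} (h : (v : sc71_X → ℂ) = Φ)
    (hΦ : sc71_IsSymb Φ) (hinv : tr43_Inv M Φ) : as28_nu M v = sc71_nu M Φ hΦ hinv := by
  subst h
  rfl

/-! ### lattice stability -/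

theorem as28_int_sum {ι : Type*} (s : Finset ι) (f : ι → ℂ)
    (h : ∀ i ∈ s, ∃ n : ℤ, f i = (n : ℂ)) : ∃ n : ℤ, ∑ i ∈ s, f i = (n : ℂ) := by
  classical
  induction s using Finset.induction_on with
  | empty => exact ⟨0, by simp⟩
  | insert i s hi ih =>
    obtain ⟨a, ha⟩ := h i (Finset.mem_insert_self i s)
    obtain ⟨b, hb⟩ := ih fun j hj => h j (Finset.mem_insert_of_mem hj)
    exact ⟨a + b, by rw [Finset.sum_insert hi, ha, hb]; push_cast; rfl⟩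

theorem as28_T_mem_L {M ℓ : ℕ} (hℓ : ℓ.Prime) (hℓM : ¬ ℓ ∣ M) {v : slp10_V M ℂ}
    (hv : v ∈ slp10_L M ℂ) : as28_T M ℓ v ∈ slp10_L M ℂ := by
  intro x
  rw [as28_T_coe hℓ hℓM, tr43_T_apply]
  exact as28_int_sum _ _ fun i _ => hv _

theorem as28_res_mem_L {N q : ℕ} {v : slp10_V N ℂ} (hv : v ∈ slp10_L N ℂ) :
    as28_res N q v ∈ slp10_L (N * q) ℂ := by
  intro x
  rw [as28_res_coe]
  exact hv x

theorem as28_resW_mem_L {N q : ℕ} (hq : q ≠ 0) (D : tr43_Data N q) {v : slp10_V N ℂ}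
    (hv : v ∈ slp10_L N ℂ) : as28_resW D v ∈ slp10_L (N * q) ℂ := by
  intro x
  rw [as28_resW_coe hq, tr43_W_apply]
  exact hv _

theorem as28_tr_mem_L {N q : ℕ} (hq : q.Prime) (D : tr43_Data N q) {v : slp10_V (N * q) ℂ}
    (hv : v ∈ slp10_L (N * q) ℂ) : as28_tr D v ∈ slp10_L N ℂ := by
  intro x
  rw [as28_tr_coe hq, tr43_tr_apply]
  exact as28_int_sum _ _ fun i _ => hv _

theorem as28_trW_mem_L {N q : ℕ} (hq : q.Prime) (D : tr43_Data N q) {v : slp10_V (N * q) ℂ}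
    (hv : v ∈ slp10_L (N * q) ℂ) : as28_trW D v ∈ slp10_L N ℂ := by
  intro x
  rw [as28_trW_coe hq, tr43_tr_apply]
  refine as28_int_sum _ _ fun i _ => ?_
  rw [tr43_W_apply]
  exact hv _

/-! ### commutations and equivariance -/

theorem as28_T_comm {M ℓ ℓ' : ℕ} (hℓ : ℓ.Prime) (hℓ' : ℓ'.Prime) (hℓM : ¬ ℓ ∣ M)
    (hℓ'M : ¬ ℓ' ∣ M) : Commute (as28_T M ℓ) (as28_T M ℓ') := by
  by_cases hne : ℓ = ℓ'
  · subst hne
    exact Commute.refl _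
  · apply LinearMap.ext
    intro v
    apply Subtype.ext
    show ((as28_T M ℓ (as28_T M ℓ' v) : slp10_V M ℂ) : sc71_X → ℂ) =
      ((as28_T M ℓ' (as28_T M ℓ v) : slp10_V M ℂ) : sc71_X → ℂ)
    rw [as28_T_coe hℓ hℓM, as28_T_coe hℓ' hℓ'M, as28_T_coe hℓ' hℓ'M, as28_T_coe hℓ hℓM]
    exact tr43_T_T hℓ hℓM hℓ' hℓ'M hne v.2.2

theorem as28_res_T {N q ℓ : ℕ} (hℓ : ℓ.Prime) (hℓNq : ¬ ℓ ∣ N * q) (v : slp10_V N ℂ) :
    as28_res N q (as28_T N ℓ v) = as28_T (N * q) ℓ (as28_res N q v) := by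
  have hℓN : ¬ ℓ ∣ N := fun h => hℓNq (Dvd.dvd.mul_right h q)
  apply Subtype.ext
  rw [as28_res_coe, as28_T_coe hℓ hℓN, as28_T_coe hℓ hℓNq, as28_res_coe]

theorem as28_resW_T {N q ℓ : ℕ} (hq : q ≠ 0) (D : tr43_Data N q) (hℓ : ℓ.Prime)
    (hℓNq : ¬ ℓ ∣ N * q) (v : slp10_V N ℂ) :
    as28_resW D (as28_T N ℓ v) = as28_T (N * q) ℓ (as28_resW D v) := by
  have hℓN : ¬ ℓ ∣ N := fun h => hℓNq (Dvd.dvd.mul_right h q)
  apply Subtype.ext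
  rw [as28_resW_coe hq, as28_T_coe hℓ hℓN, as28_T_coe hℓ hℓNq, as28_resW_coe hq]
  exact (tr43_T_W hℓ hℓNq hq D (tr43_Inv_of_dvd (dvd_mul_right N q) v.2.2)).symm

theorem as28_tr_T {N q ℓ : ℕ} (hq : q.Prime) (D : tr43_Data N q) (hℓ : ℓ.Prime)
    (hℓNq : ¬ ℓ ∣ N * q) (v : slp10_V (N * q) ℂ) :
    as28_tr D (as28_T (N * q) ℓ v) = as28_T N ℓ (as28_tr D v) := by
  have hℓN : ¬ ℓ ∣ N := fun h => hℓNq (Dvd.dvd.mul_right h q)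
  apply Subtype.ext
  rw [as28_tr_coe hq, as28_T_coe hℓ hℓNq, as28_T_coe hℓ hℓN, as28_tr_coe hq]
  exact (tr43_T_tr hℓ hℓNq hq D v.2.2).symm

theorem as28_trW_T {N q ℓ : ℕ} (hq : q.Prime) (D : tr43_Data N q) (hℓ : ℓ.Prime)
    (hℓNq : ¬ ℓ ∣ N * q) (v : slp10_V (N * q) ℂ) :
    as28_trW D (as28_T (N * q) ℓ v) = as28_T N ℓ (as28_trW D v) := by
  have hℓN : ¬ ℓ ∣ N := fun h => hℓNq (Dvd.dvd.mul_right h q)
  apply Subtype.ext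
  rw [as28_trW_coe hq, as28_T_coe hℓ hℓNq, as28_T_coe hℓ hℓN, as28_trW_coe hq,
    ← tr43_T_W hℓ hℓNq hq.ne_zero D v.2.2]
  exact (tr43_T_tr hℓ hℓNq hq D (tr43_W_Inv hq.ne_zero D v.2.2)).symm

/-! ### `j ∘ i` and `U_q ^ 2 = 1` on `ker j` -/

theorem as28_nsmul_fun (n : ℕ) (Φ : sc71_X → ℂ) : n • Φ = (n : ℂ) • Φ :=
  (Nat.cast_smul_eq_nsmul ℂ n Φ).symm

theorem as28_tr_res {N q : ℕ} (hq : q.Prime) (D : tr43_Data N q) (v : slp10_V N ℂ) :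
    as28_tr D (as28_res N q v) = ((q : ℂ) + 1) • v := by
  apply Subtype.ext
  rw [as28_tr_coe hq, as28_res_coe, tr43_tr_res D v.2.2, as28_nsmul_fun]
  push_cast
  rfl

theorem as28_tr_resW {N q : ℕ} (hq : q.Prime) (hqN : ¬ q ∣ N) (D : tr43_Data N q)
    (v : slp10_V N ℂ) : as28_tr D (as28_resW D v) = as28_T N q v := by
  apply Subtype.ext
  rw [as28_tr_coe hq, as28_resW_coe hq.ne_zero, as28_T_coe hq hqN]
  exact tr43_tr_W_res sc71_scalarTriv hq.ne_zero D v.2.2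

theorem as28_trW_res {N q : ℕ} (hq : q.Prime) (hqN : ¬ q ∣ N) (D : tr43_Data N q)
    (v : slp10_V N ℂ) : as28_trW D (as28_res N q v) = as28_T N q v := by
  apply Subtype.ext
  rw [as28_trW_coe hq, as28_res_coe, as28_T_coe hq hqN]
  exact tr43_tr_W_res sc71_scalarTriv hq.ne_zero D v.2.2

theorem as28_trW_resW {N q : ℕ} (hq : q.Prime) (D : tr43_Data N q) (v : slp10_V N ℂ) :
    as28_trW D (as28_resW D v) = ((q : ℂ) + 1) • v := by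
  apply Subtype.ext
  rw [as28_trW_coe hq, as28_resW_coe hq.ne_zero,
    tr43_W_W sc71_scalarTriv hq.ne_zero D (tr43_Inv_of_dvd (dvd_mul_right N q) v.2.2),
    tr43_tr_res D v.2.2, as28_nsmul_fun]
  push_cast
  rfl

theorem as28_U_U {N q : ℕ} (hq : q.Prime) (D : tr43_Data N q) (y : slp10_V (N * q) ℂ)
    (h1 : as28_tr D y = 0) (h2 : as28_trW D y = 0) :
    as28_T (N * q) q (as28_T (N * q) q y) = y := by
  have hqNq : q ∣ N * q := dvd_mul_left q N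
  have e1 : tr43_tr D (y : sc71_X → ℂ) = 0 := by
    rw [← as28_tr_coe hq, h1]; rfl
  have e2 : tr43_tr D (tr43_W D (y : sc71_X → ℂ)) = 0 := by
    rw [← as28_trW_coe hq, h2]; rfl
  apply Subtype.ext
  rw [as28_T_coe_dvd hq hqNq, as28_T_coe_dvd hq hqNq]
  exact tr43_U_U sc71_scalarTriv hq.ne_zero D y.2.2 e1 e2

/-! ### the period map `ν` -/

theorem as28_nu_hecke {M ℓ : ℕ} (hℓ : ℓ.Prime) (v : slp10_V M ℂ) :
    as28_nu M (as28_T M ℓ v) = heckeHom M ℓ ℂ (as28_nu M v) := by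
  by_cases hℓM : ℓ ∣ M
  · rw [as28_nu_eq _ (as28_T_coe_dvd hℓ hℓM v) (sc71_IsSymb.U v.2.1 ℓ)
      (tr43_U_Inv hℓ hℓM v.2.2), sc71_nu_U hℓ hℓM v.2.1 v.2.2]
    rfl
  · rw [as28_nu_eq _ (as28_T_coe hℓ hℓM v) (sc71_IsSymb.T v.2.1 ℓ)
      (tr43_T_Inv hℓ hℓM v.2.2), sc71_nu_T hℓ hℓM v.2.1 v.2.2]
    rfl

theorem as28_nu_mem {M : ℕ} (v : slp10_V M ℂ) :
    as28_nu M v ∈ parabolicHoms ℂ (Gamma0 M) ℂ :=
  (mem_parabolicHoms_iff (R := ℂ)).2 (sc71_nu_parabolic v.2.1 v.2.2)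

/-- `ν` is onto the parabolic homomorphisms. -/
theorem as28_nu_surj {M : ℕ} (χ : Additive (Gamma0 M) →+ ℂ)
    (hχ : χ ∈ parabolicHoms ℂ (Gamma0 M) ℂ) : ∃ v : slp10_V M ℂ, as28_nu M v = χ := by
  obtain ⟨a, ha⟩ := ca76_exists_potential_onePoint χ ((mem_parabolicHoms_iff (R := ℂ)).1 hχ)
  let Φ : sc71_X → ℂ := fun x => a x.2 - a x.1
  have hΦ : sc71_IsSymb Φ := fun r s t => by
    show (a s - a r) + (a t - a s) = a t - a r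
    ring
  have hinv : tr43_Inv M Φ := fun γ x => by
    obtain ⟨x₁, x₂⟩ := x
    show a (Matrix.SpecialLinearGroup.mapGL ℚ (γ : SL(2, ℤ)) • x₂) -
      a (Matrix.SpecialLinearGroup.mapGL ℚ (γ : SL(2, ℤ)) • x₁) = a x₂ - a x₁
    rw [ha, ha]
    ring
  refine ⟨⟨Φ, hΦ, hinv⟩, ?_⟩
  refine AddMonoidHom.ext fun γ => ?_
  obtain ⟨γ, rfl⟩ := Additive.ofMul.surjective γ
  rw [as28_nu_apply, sc71_nu_apply hΦ hinv γ ∞]
  show a (Matrix.SpecialLinearGroup.mapGL ℚ (γ : SL(2, ℤ)) • ∞) - a ∞ = χ (Additive.ofMul γ)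
  rw [ha]
  ring

/-- boundary symbols are Eisenstein at primes whose Hecke representatives move every cusp
inside its `Γ₀(M)`-orbit. -/
theorem as28_nu_ker {M ℓ : ℕ} (hℓ : ℓ.Prime) (hℓM : ¬ ℓ ∣ M)
    (hmove : ∀ (i : Option (Fin ℓ)) (x : OnePoint ℚ), ∃ γ : Gamma0 M,
      tr43_gl (lbMat ℓ i) • x = Matrix.SpecialLinearGroup.mapGL ℚ (γ : SL(2, ℤ)) • x)
    (v : slp10_V M ℂ) (hv : as28_nu M v = 0) : as28_T M ℓ v = ((ℓ : ℂ) + 1) • v := by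
  apply Subtype.ext
  rw [as28_T_coe hℓ hℓM, out60_boundary_T v.2.1 v.2.2 hv hmove, as28_nsmul_fun]
  push_cast
  rfl

theorem as28_move_of_dvd {M M' ℓ : ℕ} (h : M ∣ M')
    (hmove : ∀ (i : Option (Fin ℓ)) (x : OnePoint ℚ), ∃ γ : Gamma0 M',
      tr43_gl (lbMat ℓ i) • x = Matrix.SpecialLinearGroup.mapGL ℚ (γ : SL(2, ℤ)) • x)
    (i : Option (Fin ℓ)) (x : OnePoint ℚ) : ∃ γ : Gamma0 M,
      tr43_gl (lbMat ℓ i) • x = Matrix.SpecialLinearGroup.mapGL ℚ (γ : SL(2, ℤ)) • x := by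
  obtain ⟨γ, hγ⟩ := hmove i x
  have hγ' : (γ : SL(2, ℤ)) ∈ Gamma0 M := by
    rw [Gamma0_mem]
    have h1 := lb_Gamma0_dvd γ
    rw [ZMod.intCast_zmod_eq_zero_iff_dvd]
    exact (Int.natCast_dvd_natCast.mpr h).trans h1
  exact ⟨⟨_, hγ'⟩, hγ⟩

/-! ### integer valued symbols and the operator `E = T_ℓ - (ℓ + 1)` -/

/-- the element of `V M` attached to a `ℤ`-valued symbol -/
noncomputable def as28_cast {M : ℕ} (φ : sc71_X → ℤ) (hφ : slp10_IsSymb M φ) : slp10_V M ℂ :=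
  ⟨fun x => (φ x : ℂ), hφ.comp (Int.castAddHom ℂ)⟩

theorem as28_cast_coe {M : ℕ} (φ : sc71_X → ℤ) (hφ : slp10_IsSymb M φ) :
    ((as28_cast φ hφ : slp10_V M ℂ) : sc71_X → ℂ) = fun x => (φ x : ℂ) := rfl

theorem as28_cast_mem {M : ℕ} (φ : sc71_X → ℤ) (hφ : slp10_IsSymb M φ) :
    as28_cast φ hφ ∈ slp10_L M ℂ := fun x => ⟨φ x, rfl⟩

theorem as28_exists_cast {M : ℕ} {v : slp10_V M ℂ} (hv : v ∈ slp10_L M ℂ) :
    ∃ (φ : sc71_X → ℤ) (hφ : slp10_IsSymb M φ), v = as28_cast φ hφ := by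
  obtain ⟨φ, hφ, h⟩ := slp10_exists_int v.2 hv
  exact ⟨φ, hφ, Subtype.ext (funext h)⟩

/-- powers of `T_ℓ - (ℓ + 1)` on `V M` in terms of `ic42_E`. -/
theorem as28_E_pow_coe {M ℓ : ℕ} (hℓ : ℓ.Prime) (hℓM : ¬ ℓ ∣ M) (n : ℕ) (v : slp10_V M ℂ) :
    ((((as28_T M ℓ - ((ℓ : ℤ) + 1) • (1 : Module.End ℂ (slp10_V M ℂ))) ^ n) v : slp10_V M ℂ) :
      sc71_X → ℂ) = (ic42_E ℓ)^[n] (v : sc71_X → ℂ) := by
  induction n generalizing v with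
  | zero => rfl
  | succ n ih =>
    rw [pow_succ, Module.End.mul_apply, ih, Function.iterate_succ_apply]
    congr 1
    show ((as28_T M ℓ v : slp10_V M ℂ) : sc71_X → ℂ) - ((ℓ : ℤ) + 1) • (v : sc71_X → ℂ) =
      ic42_E ℓ (v : sc71_X → ℂ)
    rw [as28_T_coe hℓ hℓM, ic42_E]
    congr 1

/-- `E` commutes with the coefficient map `ℤ → ℂ`. -/
theorem as28_E_iter_cast (ℓ n : ℕ) (φ : sc71_X → ℤ) :
    (ic42_E ℓ)^[n] (fun x => (φ x : ℂ)) = fun x => (((ic42_E ℓ)^[n] φ) x : ℂ) := by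
  induction n generalizing φ with
  | zero => rfl
  | succ n ih =>
    rw [Function.iterate_succ_apply, Function.iterate_succ_apply, ← ih]
    congr 1
    funext x
    exact ic42_E_comp (Int.castAddHom ℂ) ℓ φ x

theorem as28_E_iter_isSymb {M ℓ : ℕ} (hℓ : ℓ.Prime) (hℓM : ¬ ℓ ∣ M) (n : ℕ)
    {φ : sc71_X → ℤ} (hφ : slp10_IsSymb M φ) : slp10_IsSymb M ((ic42_E ℓ)^[n] φ) := by
  induction n generalizing φ with
  | zero => exact hφ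
  | succ n ih =>
    rw [Function.iterate_succ_apply]
    exact ih ⟨ic42_IsSymb.E hφ.1 ℓ, ic42_E_Inv hℓ hℓM hφ.2⟩

theorem as28_toGL_apply (g : SL(2, ℚ)) (i j : Fin 2) :
    (Matrix.SpecialLinearGroup.toGL g : GL (Fin 2) ℚ) i j = g i j := rfl

theorem as28_U_infty (x : ℚ) :
    (Matrix.SpecialLinearGroup.toGL (sy71_U x) : GL (Fin 2) ℚ) • (∞ : OnePoint ℚ) = ∞ := by
  rw [OnePoint.smul_infty_eq_self_iff, as28_toGL_apply]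
  simp [sy71_U]

theorem as28_L_zero (y : ℚ) :
    (Matrix.SpecialLinearGroup.toGL (sy71_L y) : GL (Fin 2) ℚ) • ((0 : ℚ) : OnePoint ℚ) =
      ((0 : ℚ) : OnePoint ℚ) := by
  rw [OnePoint.smul_some_eq_ite]
  simp only [as28_toGL_apply]
  simp [sy71_L]

/-- **Ihara's lemma** in the shape of `sk28_main` (exponent `2`), from `ic42_H1`. -/
theorem as28_ihara {p N q ℓ : ℕ} (hp : p.Prime) (hp2 : p ≠ 2) (hN : 0 < N) (hq : q.Prime)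
    (hqN : ¬ q ∣ N) (D : tr43_Data N q) (hℓ : ℓ.Prime) (hℓN : ¬ ℓ ∣ N)
    (hmove : ∀ (i : Option (Fin ℓ)) (x : OnePoint ℚ), ∃ γ : Gamma0 N,
      tr43_gl (lbMat ℓ i) • x = Matrix.SpecialLinearGroup.mapGL ℚ (γ : SL(2, ℤ)) • x)
    (x₁ : slp10_V N ℂ) (hx₁ : x₁ ∈ slp10_L N ℂ) (x₂ : slp10_V N ℂ) (hx₂ : x₂ ∈ slp10_L N ℂ)
    (h : ∃ y ∈ slp10_L (N * q) ℂ, as28_res N q x₁ + as28_resW D x₂ = (p : ℤ) • y) :
    ∃ n : ℕ,
      (∃ x' ∈ slp10_L N ℂ,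
        ((as28_T N ℓ - ((ℓ : ℤ) + 1) • (1 : Module.End ℂ (slp10_V N ℂ))) ^ n) x₁ = (p : ℤ) • x') ∧
      (∃ x' ∈ slp10_L N ℂ,
        ((as28_T N ℓ - ((ℓ : ℤ) + 1) • (1 : Module.End ℂ (slp10_V N ℂ))) ^ n) x₂ = (p : ℤ) • x') := by
  obtain ⟨φ₁, hφ₁, rfl⟩ := as28_exists_cast hx₁
  obtain ⟨φ₂, hφ₂, rfl⟩ := as28_exists_cast hx₂
  obtain ⟨y, hy, hxy⟩ := h
  have hp0 : (p : ℤ) ≠ 0 := by exact_mod_cast hp.ne_zero
  have h12 : ∀ x, (p : ℤ) ∣ φ₁ x + tr43_W D φ₂ x := by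
    intro x
    obtain ⟨n, hn⟩ := hy x
    have e := congrFun (congrArg (fun v : slp10_V (N * q) ℂ => (v : sc71_X → ℂ)) hxy) x
    have e' : ((φ₁ x : ℤ) : ℂ) + ((tr43_W D φ₂ x : ℤ) : ℂ) = (p : ℤ) • (y : sc71_X → ℂ) x := by
      have e1 : ((as28_res N q (as28_cast φ₁ hφ₁) + as28_resW D (as28_cast φ₂ hφ₂) :
          slp10_V (N * q) ℂ) : sc71_X → ℂ) x = ((φ₁ x : ℤ) : ℂ) + ((tr43_W D φ₂ x : ℤ) : ℂ) := by
        show ((as28_res N q (as28_cast φ₁ hφ₁) : slp10_V (N * q) ℂ) : sc71_X → ℂ) x +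
          ((as28_resW D (as28_cast φ₂ hφ₂) : slp10_V (N * q) ℂ) : sc71_X → ℂ) x = _
        rw [as28_res_coe, as28_resW_coe hq.ne_zero]
        rfl
      rw [← e1]
      exact e
    rw [hn, zsmul_eq_mul] at e'
    refine ⟨n, ?_⟩
    have e'' : (((φ₁ x + tr43_W D φ₂ x : ℤ)) : ℂ) = (((p : ℤ) * n : ℤ) : ℂ) := by
      push_cast
      exact e'
    exact_mod_cast e''
  obtain ⟨hd₁, hd₂⟩ := ic42_H1 p hp hp2 hN hq hqN D hℓ hℓN ∞ ((0 : ℚ) : OnePoint ℚ)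
    as28_U_infty as28_L_zero hmove φ₁ φ₂ hφ₁.1 hφ₂.1 hφ₁.2 hφ₂.2 h12
  have key : ∀ (φ : sc71_X → ℤ) (hφ : slp10_IsSymb N φ),
      (∀ x, (p : ℤ) ∣ ic42_E ℓ (ic42_E ℓ φ) x) → ∃ x' ∈ slp10_L N ℂ,
        ((as28_T N ℓ - ((ℓ : ℤ) + 1) • (1 : Module.End ℂ (slp10_V N ℂ))) ^ 2) (as28_cast φ hφ) =
          (p : ℤ) • x' := by
    intro φ hφ hd
    have hs : slp10_IsSymb N ((ic42_E ℓ)^[2] φ) := as28_E_iter_isSymb hℓ hℓN 2 hφ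
    obtain ⟨Ψ, hΨ, hΨe⟩ := slp10_div hp0 hs hd
    refine ⟨as28_cast Ψ hΨ, as28_cast_mem Ψ hΨ, ?_⟩
    apply Subtype.ext
    rw [as28_E_pow_coe hℓ hℓN, as28_cast_coe, as28_E_iter_cast]
    funext x
    show ((((ic42_E ℓ)^[2] φ) x : ℤ) : ℂ) = (p : ℤ) • ((Ψ x : ℤ) : ℂ)
    rw [hΨe x, zsmul_eq_mul]
    push_cast
    rfl
  exact ⟨2, key φ₁ hφ₁ hd₁, key φ₂ hφ₂ hd₂⟩

/-- **Dual Ihara** in the shape of `sk28_main`, from its plain-function form on integer valued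
symbols. -/
theorem as28_dual_ihara {p N q ℓ : ℕ} (hq : q.Prime) (D : tr43_Data N q) (hℓ : ℓ.Prime)
    (hℓN : ¬ ℓ ∣ N)
    (hDI : ∃ n : ℕ, ∀ φ₁ φ₂ : sc71_X → ℤ, slp10_IsSymb N φ₁ → slp10_IsSymb N φ₂ →
      ∃ Ψ : sc71_X → ℤ, slp10_IsSymb (N * q) Ψ ∧ ∃ ψ₁ ψ₂ : sc71_X → ℤ,
        slp10_IsSymb N ψ₁ ∧ slp10_IsSymb N ψ₂ ∧
        ∀ x, (ic42_E ℓ)^[n] φ₁ x = tr43_tr D Ψ x + (p : ℤ) * ψ₁ x ∧
          (ic42_E ℓ)^[n] φ₂ x = tr43_tr D (tr43_W D Ψ) x + (p : ℤ) * ψ₂ x) :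
    ∃ n : ℕ, ∀ x₁ ∈ slp10_L N ℂ, ∀ x₂ ∈ slp10_L N ℂ, ∃ y ∈ slp10_L (N * q) ℂ,
      ∃ x₁' ∈ slp10_L N ℂ, ∃ x₂' ∈ slp10_L N ℂ,
      ((as28_T N ℓ - ((ℓ : ℤ) + 1) • (1 : Module.End ℂ (slp10_V N ℂ))) ^ n) x₁ =
        as28_tr D y + (p : ℤ) • x₁' ∧
      ((as28_T N ℓ - ((ℓ : ℤ) + 1) • (1 : Module.End ℂ (slp10_V N ℂ))) ^ n) x₂ =
        as28_trW D y + (p : ℤ) • x₂' := by
  obtain ⟨n, hn⟩ := hDI
  refine ⟨n, fun x₁ hx₁ x₂ hx₂ => ?_⟩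
  obtain ⟨φ₁, hφ₁, rfl⟩ := as28_exists_cast hx₁
  obtain ⟨φ₂, hφ₂, rfl⟩ := as28_exists_cast hx₂
  obtain ⟨Ψ, hΨ, ψ₁, ψ₂, hψ₁, hψ₂, he⟩ := hn φ₁ φ₂ hφ₁ hφ₂
  refine ⟨as28_cast Ψ hΨ, as28_cast_mem Ψ hΨ, as28_cast ψ₁ hψ₁, as28_cast_mem ψ₁ hψ₁,
    as28_cast ψ₂ hψ₂, as28_cast_mem ψ₂ hψ₂, ?_, ?_⟩
  · apply Subtype.ext
    rw [as28_E_pow_coe hℓ hℓN, as28_cast_coe, as28_E_iter_cast]
    funext x
    show ((((ic42_E ℓ)^[n] φ₁) x : ℤ) : ℂ) =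
      ((as28_tr D (as28_cast Ψ hΨ) : slp10_V N ℂ) : sc71_X → ℂ) x + (p : ℤ) • ((ψ₁ x : ℤ) : ℂ)
    rw [as28_tr_coe hq, (he x).1, as28_cast_coe, tr43_tr_apply, tr43_tr_apply, zsmul_eq_mul]
    push_cast
    rfl
  · apply Subtype.ext
    rw [as28_E_pow_coe hℓ hℓN, as28_cast_coe, as28_E_iter_cast]
    funext x
    show ((((ic42_E ℓ)^[n] φ₂) x : ℤ) : ℂ) =
      ((as28_trW D (as28_cast Ψ hΨ) : slp10_V N ℂ) : sc71_X → ℂ) x + (p : ℤ) • ((ψ₂ x : ℤ) : ℂ)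
    rw [as28_trW_coe hq, (he x).2, as28_cast_coe, tr43_tr_apply, tr43_tr_apply, zsmul_eq_mul]
    push_cast
    rfl

/-! ### the assembly -/

/-- **S41, concrete assembly.**  The conclusion of the frozen statement S41 from the auxiliary
prime `ℓ₀` (with `hmove`) and the dual Ihara lemma in plain-function form. -/
theorem as28_main
    {W : WeierstrassCurve ℤ} {p N q : ℕ} (hp : p.Prime) (hp2 : p ≠ 2) (hN : 0 < N)
    (hq : q.Prime) (hqN : ¬ q ∣ N)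
    (f : CuspForm (Gamma0 N) 2) (𝔪 : Ideal (integralClosure ℤ ℂ))
    (hf : f.IsNormalizedEigenform) (hmax : 𝔪.IsMaximal) (hpm : (p : integralClosure ℤ ℂ) ∈ 𝔪)
    (hcong : ∀ ℓ : ℕ, ℓ.Prime → W.IsGoodPrimeFor ℓ → ¬ ℓ ∣ N → ℓ ≠ p →
      ∃ a : integralClosure ℤ ℂ, (a : ℂ) = ModularFormClass.qCoeff f ℓ ∧
        a - ((W.apOfModel ℓ : ℤ) : integralClosure ℤ ℂ) ∈ 𝔪)
    (hLR : ∃ a : integralClosure ℤ ℂ, (a : ℂ) = ModularFormClass.qCoeff f q ∧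
      a ^ 2 - ((q : integralClosure ℤ ℂ) + 1) ^ 2 ∈ 𝔪)
    (D : tr43_Data N q)
    (ℓ₀ : ℕ) (hℓ₀ : ℓ₀.Prime) (hℓ₀g : W.IsGoodPrimeFor ℓ₀) (hℓ₀Nq : ¬ ℓ₀ ∣ N * q)
    (hℓ₀p : ℓ₀ ≠ p) (hne : ¬ (p : ℤ) ∣ (ℓ₀ : ℤ) + 1 - W.apOfModel ℓ₀)
    (hmove : ∀ (i : Option (Fin ℓ₀)) (x : OnePoint ℚ), ∃ γ : Gamma0 (N * q),
      tr43_gl (lbMat ℓ₀ i) • x = Matrix.SpecialLinearGroup.mapGL ℚ (γ : SL(2, ℤ)) • x)
    (hDI : ∃ n : ℕ, ∀ φ₁ φ₂ : sc71_X → ℤ, slp10_IsSymb N φ₁ → slp10_IsSymb N φ₂ →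
      ∃ Ψ : sc71_X → ℤ, slp10_IsSymb (N * q) Ψ ∧ ∃ ψ₁ ψ₂ : sc71_X → ℤ,
        slp10_IsSymb N ψ₁ ∧ slp10_IsSymb N ψ₂ ∧
        ∀ x, (ic42_E ℓ₀)^[n] φ₁ x = tr43_tr D Ψ x + (p : ℤ) * ψ₁ x ∧
          (ic42_E ℓ₀)^[n] φ₂ x = tr43_tr D (tr43_W D Ψ) x + (p : ℤ) * ψ₂ x) :
    ∃ (g : CuspForm (Gamma0 (N * q)) 2) (𝔪' : Ideal (integralClosure ℤ ℂ)),
      g.IsNormalizedEigenform ∧ 𝔪'.IsMaximal ∧ (p : integralClosure ℤ ℂ) ∈ 𝔪' ∧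
      (∀ ℓ : ℕ, ℓ.Prime → W.IsGoodPrimeFor ℓ → ¬ ℓ ∣ N * q → ℓ ≠ p →
        ∃ a : integralClosure ℤ ℂ, (a : ℂ) = ModularFormClass.qCoeff g ℓ ∧
          a - ((W.apOfModel ℓ : ℤ) : integralClosure ℤ ℂ) ∈ 𝔪') ∧
      g.IsNewAt q := by
  haveI : NeZero N := ⟨hN.ne'⟩
  haveI : NeZero (N * q) := ⟨Nat.mul_ne_zero hN.ne' hq.ne_zero⟩
  have hℓ₀N : ¬ ℓ₀ ∣ N := fun h => hℓ₀Nq (Dvd.dvd.mul_right h q)
  have hmoveN := as28_move_of_dvd (dvd_mul_right N q) hmove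
  exact sk28_main' hp hq hqN f 𝔪 hf hmax hpm hcong hLR
    (slp10_L N ℂ) (slp10_L (N * q) ℂ) (slp10_L_fg N ℂ) (slp10_L_fg (N * q) ℂ)
    (slp10_L_span N ℂ) (as28_T N) (as28_T (N * q))
    (fun ℓ hℓ hℓNq x hx => as28_T_mem_L hℓ (fun h => hℓNq (Dvd.dvd.mul_right h q)) hx)
    (fun ℓ hℓ hℓNq y hy => as28_T_mem_L hℓ hℓNq hy)
    (fun ℓ ℓ' hℓ hℓ' hℓN hℓ'N => as28_T_comm hℓ hℓ' hℓN hℓ'N)
    (fun ℓ ℓ' hℓ hℓ' hℓN hℓ'N => as28_T_comm hℓ hℓ' hℓN hℓ'N)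
    (as28_res N q) (as28_resW D) (as28_tr D) (as28_trW D)
    (fun x hx => as28_res_mem_L hx) (fun x hx => as28_resW_mem_L hq.ne_zero D hx)
    (fun y hy => as28_tr_mem_L hq D hy) (fun y hy => as28_trW_mem_L hq D hy)
    (fun ℓ hℓ hℓNq x => as28_res_T hℓ hℓNq x)
    (fun ℓ hℓ hℓNq x => as28_resW_T hq.ne_zero D hℓ hℓNq x)
    (fun ℓ hℓ hℓNq y => as28_tr_T hq D hℓ hℓNq y)
    (fun ℓ hℓ hℓNq y => as28_trW_T hq D hℓ hℓNq y)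
    (as28_tr_res hq D) (as28_tr_resW hq hqN D) (as28_trW_res hq hqN D) (as28_trW_resW hq D)
    (as28_U_U hq D)
    ℓ₀ hℓ₀ hℓ₀g hℓ₀Nq hℓ₀p hne
    (fun x₁ hx₁ x₂ hx₂ h => as28_ihara hp hp2 hN hq hqN D hℓ₀ hℓ₀N hmoveN x₁ hx₁ x₂ hx₂ h)
    (as28_dual_ihara hq D hℓ₀ hℓ₀N hDI)
    (as28_nu N) (fun ℓ hℓ _ x => as28_nu_hecke hℓ x) (fun χ hχ => as28_nu_surj χ hχ)
    (fun x hx => as28_nu_ker hℓ₀ hℓ₀N hmoveN x hx)
    (as28_nu (N * q)) (fun y => as28_nu_mem y) (fun ℓ hℓ y => as28_nu_hecke hℓ y)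
    (fun y hy => as28_nu_ker hℓ₀ hℓ₀Nq hmove y hy)

end Fermat.Agent.S41
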