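/-
S41 / M5 (non-Eisenstein from irreducibility): the group theory.

`gt92_dichotomy`     : a multiplicatively closed set of endomorphisms of a 2-dimensional space,
                       each with a nonzero fixed vector, has a common nonzero fixed vector or a
                       common nonzero invariant functional.
`gt92_exists_stable` : `G` (possibly infinite) acting linearly on a 2-dimensional space, `H` a normal
                       subgroup containing all commutators, every `h ∈ H` with a nonzero fixed
                       vector, and an involution `c` that is neither `1` nor `-1`: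
                       there is a proper nonzero `G`-stable subspace.
`gt92_not_irreducible` : the same in the shape of the prelude's `GaloisRepIsIrreducible`.
-/
import Mathlib
import Fermat.Prelude.Def_FLTPrelim_GaloisRep

set_option autoImplicit false

namespace Fermat.Agent.S41

open Module

section Core

variable {k : Type*} [Field k] {V : Type*} [AddCommGroup V] [Module k V]

/-- the "eigenvalue one" equation of a `2 × 2` matrix, in coordinates -/
theorem gt92_coord_eq (b : Basis (Fin 2) k V) (a : V →ₗ[k] V)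
    (ha : ∃ v, v ≠ 0 ∧ a v = v) :
    (LinearMap.toMatrix b b a 0 0 - 1) * (LinearMap.toMatrix b b a 1 1 - 1)
      - LinearMap.toMatrix b b a 0 1 * LinearMap.toMatrix b b a 1 0 = 0 := by
  obtain ⟨v, hv0, hv⟩ := ha
  have hdet : (LinearMap.toMatrix b b a - 1).det = 0 := by
    rw [← Matrix.exists_mulVec_eq_zero_iff]
    refine ⟨b.repr v, ?_, ?_⟩
    · intro h
      apply hv0
      have h' : b.repr v = 0 := DFunLike.coe_injective h
      exact b.repr.map_eq_zero_iff.mp h'
    · rw [Matrix.sub_mulVec, Matrix.one_mulVec, LinearMap.toMatrix_mulVec_repr, hv, sub_self]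
  rw [Matrix.det_fin_two] at hdet
  simp only [Matrix.sub_apply, Matrix.one_apply_eq, Matrix.one_apply_ne, ne_eq, zero_ne_one,
    one_ne_zero, not_false_eq_true, sub_zero, Fin.isValue] at hdet
  linear_combination hdet

theorem gt92_fix_of_col (b : Basis (Fin 2) k V) (a : V →ₗ[k] V)
    (h00 : LinearMap.toMatrix b b a 0 0 = 1) (h10 : LinearMap.toMatrix b b a 1 0 = 0) :
    a (b 0) = b 0 := by
  have h := b.sum_repr (a (b 0))
  rw [Fin.sum_univ_two] at h
  rw [LinearMap.toMatrix_apply] at h00 h10
  rw [h00, h10] at h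
  rw [← h]
  simp

theorem gt92_coord_inv (b : Basis (Fin 2) k V) (a : V →ₗ[k] V) (i : Fin 2)
    (hrow : ∀ j, LinearMap.toMatrix b b a i j = if j = i then 1 else 0) (v : V) :
    b.coord i (a v) = b.coord i v := by
  have h := congrFun (LinearMap.toMatrix_mulVec_repr b b a v) i
  rw [Matrix.mulVec, dotProduct, Fin.sum_univ_two, hrow 0, hrow 1] at h
  rw [Basis.coord_apply, Basis.coord_apply, ← h]
  fin_cases i <;> simp

/-- an adapted basis for a non-identity endomorphism with a fixed vector -/
theorem gt92_adapted (hV : finrank k V = 2) (a : V →ₗ[k] V) (ha : a ≠ LinearMap.id)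
    (hfix : ∃ v, v ≠ 0 ∧ a v = v) :
    ∃ b : Basis (Fin 2) k V, LinearMap.toMatrix b b a 0 0 = 1 ∧ LinearMap.toMatrix b b a 1 0 = 0 ∧
      ((LinearMap.toMatrix b b a 1 1 = 1 ∧ LinearMap.toMatrix b b a 0 1 ≠ 0) ∨
        (LinearMap.toMatrix b b a 1 1 ≠ 1 ∧ LinearMap.toMatrix b b a 0 1 = 0)) := by
  have : FiniteDimensional k V := Module.finite_of_finrank_pos (by omega)
  obtain ⟨e₁, he₁, hae₁⟩ := hfix
  obtain ⟨e₂, hli⟩ := exists_linearIndependent_pair_of_one_lt_finrank (R := k) (by omega) he₁
  have hcard : Fintype.card (Fin 2) = finrank k V := by simp [hV]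
  let b := basisOfLinearIndependentOfCardEqFinrank hli hcard
  have hb : ⇑b = ![e₁, e₂] := coe_basisOfLinearIndependentOfCardEqFinrank hli hcard
  have hb0 : b 0 = e₁ := by rw [hb]; rfl
  have hb1 : b 1 = e₂ := by rw [hb]; rfl
  have h00 : LinearMap.toMatrix b b a 0 0 = 1 := by
    rw [LinearMap.toMatrix_apply, hb0, hae₁, ← hb0, b.repr_self]; simp
  have h10 : LinearMap.toMatrix b b a 1 0 = 0 := by
    rw [LinearMap.toMatrix_apply, hb0, hae₁, ← hb0, b.repr_self]; simp
  by_cases hs : LinearMap.toMatrix b b a 1 1 = 1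
  · refine ⟨b, h00, h10, Or.inl ⟨hs, ?_⟩⟩
    intro h01
    apply ha
    apply (LinearMap.toMatrix b b).injective
    rw [LinearMap.toMatrix_id]
    ext i j
    fin_cases i <;> fin_cases j <;> simp [h00, h10, hs, h01]
  · -- eigenvector for the second eigenvalue
    set α := LinearMap.toMatrix b b a 0 1 with hα
    set s := LinearMap.toMatrix b b a 1 1 with hs'
    have hs1 : s - 1 ≠ 0 := sub_ne_zero.mpr hs
    have hae₂ : a e₂ = α • e₁ + s • e₂ := by
      have h := b.sum_repr (a (b 1))
      rw [Fin.sum_univ_two, ← LinearMap.toMatrix_apply, ← LinearMap.toMatrix_apply, hb0, hb1] at h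
      exact h.symm
    set e₂' := e₂ + (α / (s - 1)) • e₁ with he₂'
    have hae₂' : a e₂' = s • e₂' := by
      rw [he₂', map_add, map_smul, hae₁, hae₂, smul_add, smul_smul]
      have : α • e₁ + s • e₂ + (α / (s - 1)) • e₁ = s • e₂ + (α + α / (s - 1)) • e₁ := by
        rw [add_smul]; abel
      rw [this]
      congr 2
      field_simp
      ring
    have hli' : LinearIndependent k ![e₁, e₂'] := by
      rw [LinearIndependent.pair_iff] at hli ⊢
      intro x y hxy
      have h := hli (x + y * (α / (s - 1))) y (by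
        rw [← hxy, he₂', smul_add, smul_smul, add_smul]; abel)
      obtain ⟨h1, h2⟩ := h
      rw [h2, zero_mul, add_zero] at h1
      exact ⟨h1, h2⟩
    let b' := basisOfLinearIndependentOfCardEqFinrank hli' hcard
    have hb' : ⇑b' = ![e₁, e₂'] := coe_basisOfLinearIndependentOfCardEqFinrank hli' hcard
    have hb'0 : b' 0 = e₁ := by rw [hb']; rfl
    have hb'1 : b' 1 = e₂' := by rw [hb']; rfl
    refine ⟨b', ?_, ?_, Or.inr ⟨?_, ?_⟩⟩
    · rw [LinearMap.toMatrix_apply, hb'0, hae₁, ← hb'0, b'.repr_self]; simp
    · rw [LinearMap.toMatrix_apply, hb'0, hae₁, ← hb'0, b'.repr_self]; simp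
    · rw [LinearMap.toMatrix_apply, hb'1, hae₂', ← hb'1, map_smul, b'.repr_self]
      simpa using hs
    · rw [LinearMap.toMatrix_apply, hb'1, hae₂', ← hb'1, map_smul, b'.repr_self]
      simp

/-- **Dichotomy.** A multiplicatively closed set of endomorphisms of a two-dimensional space, each
of which has a nonzero fixed vector, has a common nonzero fixed vector or a common nonzero
invariant functional. -/
theorem gt92_dichotomy (hV : finrank k V = 2) (S : Set (V →ₗ[k] V))
    (hmul : ∀ a ∈ S, ∀ b ∈ S, a ∘ₗ b ∈ S)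
    (hfix : ∀ a ∈ S, ∃ v, v ≠ 0 ∧ a v = v) :
    (∃ v, v ≠ 0 ∧ ∀ a ∈ S, a v = v) ∨
      (∃ φ : V →ₗ[k] k, φ ≠ 0 ∧ ∀ a ∈ S, ∀ v, φ (a v) = φ v) := by
  have : FiniteDimensional k V := Module.finite_of_finrank_pos (by omega)
  have : Nontrivial V := Module.nontrivial_of_finrank_pos (R := k) (by omega)
  by_cases hall : ∀ a ∈ S, a = LinearMap.id
  · left
    obtain ⟨v, hv⟩ := exists_ne (0 : V)
    exact ⟨v, hv, fun a ha => by rw [hall a ha]; rfl⟩
  push Not at hall
  obtain ⟨a₀, ha₀S, ha₀⟩ := hall
  obtain ⟨b, h00, h10, hcase⟩ := gt92_adapted hV a₀ ha₀ (hfix a₀ ha₀S)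
  have hb0 : b 0 ≠ 0 := b.ne_zero 0
  have hcoord : ∀ i, b.coord i ≠ 0 := fun i h => by
    have := congrArg (fun φ => φ (b i)) h
    simp at this
  -- the matrix entries of a product with `a₀`
  have hprod : ∀ h : V →ₗ[k] V, ∀ i j, LinearMap.toMatrix b b (a₀ ∘ₗ h) i j =
      LinearMap.toMatrix b b a₀ i 0 * LinearMap.toMatrix b b h 0 j +
        LinearMap.toMatrix b b a₀ i 1 * LinearMap.toMatrix b b h 1 j := by
    intro h i j
    rw [LinearMap.toMatrix_comp b b b, Matrix.mul_apply, Fin.sum_univ_two]
  have hprod' : ∀ h h' : V →ₗ[k] V, ∀ i j, LinearMap.toMatrix b b (h ∘ₗ h') i j =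
      LinearMap.toMatrix b b h i 0 * LinearMap.toMatrix b b h' 0 j +
        LinearMap.toMatrix b b h i 1 * LinearMap.toMatrix b b h' 1 j := by
    intro h h' i j
    rw [LinearMap.toMatrix_comp b b b, Matrix.mul_apply, Fin.sum_univ_two]
  rcases hcase with ⟨h11, h01⟩ | ⟨h11, h01⟩
  · -- `a₀ = [[1, α], [0, 1]]`, `α ≠ 0`
    have key : ∀ h ∈ S, LinearMap.toMatrix b b h 1 0 = 0 := by
      intro h hh
      have e1 := gt92_coord_eq b h (hfix h hh)
      have e2 := gt92_coord_eq b (a₀ ∘ₗ h) (hfix _ (hmul a₀ ha₀S h hh))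
      rw [hprod, hprod, hprod, hprod, h00, h10, h11] at e2
      have : LinearMap.toMatrix b b a₀ 0 1 * LinearMap.toMatrix b b h 1 0 = 0 := by
        linear_combination e1 - e2
      exact (mul_eq_zero.mp this).resolve_left h01
    have key2 : ∀ h ∈ S, (LinearMap.toMatrix b b h 0 0 - 1) *
        (LinearMap.toMatrix b b h 1 1 - 1) = 0 := by
      intro h hh
      have e1 := gt92_coord_eq b h (hfix h hh)
      rw [key h hh] at e1
      linear_combination e1
    by_cases hall0 : ∀ h ∈ S, LinearMap.toMatrix b b h 0 0 = 1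
    · left
      exact ⟨b 0, hb0, fun h hh => gt92_fix_of_col b h (hall0 h hh) (key h hh)⟩
    · right
      push Not at hall0
      obtain ⟨h', hh'S, hh'⟩ := hall0
      have h'11 : LinearMap.toMatrix b b h' 1 1 = 1 := by
        rcases mul_eq_zero.mp (key2 h' hh'S) with h | h
        · exact absurd (sub_eq_zero.mp h) hh'
        · exact sub_eq_zero.mp h
      have all11 : ∀ h ∈ S, LinearMap.toMatrix b b h 1 1 = 1 := by
        intro h hh
        by_contra hne
        have h00' : LinearMap.toMatrix b b h 0 0 = 1 := by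
          rcases mul_eq_zero.mp (key2 h hh) with h | h
          · exact sub_eq_zero.mp h
          · exact absurd (sub_eq_zero.mp h) hne
        have e := key2 (h ∘ₗ h') (hmul h hh h' hh'S)
        rw [hprod', hprod', key h hh, key h' hh'S, h00', h'11] at e
        have e' : (LinearMap.toMatrix b b h' 0 0 - 1) * (LinearMap.toMatrix b b h 1 1 - 1) = 0 := by
          linear_combination e
        rcases mul_eq_zero.mp e' with h | h
        · exact hh' (sub_eq_zero.mp h)
        · exact hne (sub_eq_zero.mp h)
      refine ⟨b.coord 1, hcoord 1, fun h hh v => gt92_coord_inv b h 1 ?_ v⟩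
      intro j
      fin_cases j
      · simpa using key h hh
      · simpa using all11 h hh
  · -- `a₀ = diag(1, s)`, `s ≠ 1`
    have key : ∀ h ∈ S, LinearMap.toMatrix b b h 0 0 = 1 ∧
        LinearMap.toMatrix b b h 0 1 * LinearMap.toMatrix b b h 1 0 = 0 := by
      intro h hh
      have e1 := gt92_coord_eq b h (hfix h hh)
      have e2 := gt92_coord_eq b (a₀ ∘ₗ h) (hfix _ (hmul a₀ ha₀S h hh))
      rw [hprod, hprod, hprod, hprod, h00, h10, h01] at e2
      have e3 : (LinearMap.toMatrix b b h 0 0 - 1) * (LinearMap.toMatrix b b a₀ 1 1 - 1) = 0 := by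
        linear_combination e2 - LinearMap.toMatrix b b a₀ 1 1 * e1
      have e4 : LinearMap.toMatrix b b h 0 0 = 1 := by
        rcases mul_eq_zero.mp e3 with h | h
        · exact sub_eq_zero.mp h
        · exact absurd (sub_eq_zero.mp h) h11
      refine ⟨e4, ?_⟩
      rw [e4] at e1
      linear_combination -e1
    by_cases hall0 : ∀ h ∈ S, LinearMap.toMatrix b b h 1 0 = 0
    · left
      exact ⟨b 0, hb0, fun h hh => gt92_fix_of_col b h (key h hh).1 (hall0 h hh)⟩
    · right
      push Not at hall0
      obtain ⟨h', hh'S, hh'⟩ := hall0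
      have all01 : ∀ h ∈ S, LinearMap.toMatrix b b h 0 1 = 0 := by
        intro h hh
        have e := (key (h ∘ₗ h') (hmul h hh h' hh'S)).1
        rw [hprod', (key h hh).1, (key h' hh'S).1] at e
        have e' : LinearMap.toMatrix b b h 0 1 * LinearMap.toMatrix b b h' 1 0 = 0 := by
          linear_combination e
        exact (mul_eq_zero.mp e').resolve_right hh'
      refine ⟨b.coord 0, hcoord 0, fun h hh v => gt92_coord_inv b h 0 ?_ v⟩
      intro j
      fin_cases j
      · simpa using (key h hh).1
      · simpa using all01 h hh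

end Core

section Stable

variable {k : Type*} [Field k] {V : Type*} [AddCommGroup V] [Module k V]
variable {G : Type*} [Group G] [DistribMulAction G V]

/-- the linear map of a group element -/
def gt92_lin (hlin : ∀ (g : G) (a : k) (v : V), g • a • v = a • g • v) (g : G) : V →ₗ[k] V where
  toFun v := g • v
  map_add' := smul_add g
  map_smul' := hlin g

@[simp]
theorem gt92_lin_apply (hlin : ∀ (g : G) (a : k) (v : V), g • a • v = a • g • v) (g : G) (v : V) :
    gt92_lin hlin g v = g • v := rfl

/-- **Stable line.** `G` acts linearly on a two-dimensional space `V`; `H` is a normal subgroup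
containing all commutators; every element of `H` has a nonzero fixed vector; `c ∈ G` is an
involution on `V` which is neither `1` nor `-1`. Then `V` has a proper nonzero `G`-stable
subspace. (`G` need not be finite.) -/
theorem gt92_exists_stable (hlin : ∀ (g : G) (a : k) (v : V), g • a • v = a • g • v)
    (hV : finrank k V = 2) (H : Subgroup G) [hH : H.Normal]
    (hab : ∀ g g' : G, g * g' * g⁻¹ * g'⁻¹ ∈ H)
    (hfix : ∀ h ∈ H, ∃ v : V, v ≠ 0 ∧ h • v = v)
    (c : G) (hcc : ∀ v : V, c • c • v = v) (hc1 : ∃ v : V, c • v ≠ v)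
    (hc2 : ∃ v : V, c • v ≠ -v) :
    ∃ N : Submodule k V, N ≠ ⊥ ∧ N ≠ ⊤ ∧ ∀ g : G, ∀ v ∈ N, g • v ∈ N := by
  have hnt : Nontrivial V := Module.nontrivial_of_finrank_pos (R := k) (by omega)
  -- the invariants of `H`
  let N₁ : Submodule k V :=
    { carrier := {v | ∀ h ∈ H, h • v = v}
      add_mem' := fun {a b} ha hb h hh => by rw [smul_add, ha h hh, hb h hh]
      zero_mem' := fun h _ => smul_zero h
      smul_mem' := fun a v hv h hh => by rw [hlin, hv h hh] }
  have hN₁ : ∀ g : G, ∀ v ∈ N₁, g • v ∈ N₁ := by
    intro g v hv h hh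
    have h1 : g⁻¹ * h * g ∈ H := by
      have := hH.conj_mem h hh g⁻¹
      simpa using this
    have h2 := hv _ h1
    calc h • g • v = g • (g⁻¹ * h * g) • v := by
          rw [← mul_smul, ← mul_smul]; congr 1; group
      _ = g • v := by rw [h2]
  -- the augmentation submodule of `H`
  let N₂ : Submodule k V := Submodule.span k {w | ∃ h ∈ H, ∃ v : V, w = h • v - v}
  have hN₂ : ∀ g : G, ∀ v ∈ N₂, g • v ∈ N₂ := by
    intro g v hv
    induction hv using Submodule.span_induction with
    | mem w hw =>
      obtain ⟨h, hh, u, rfl⟩ := hw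
      apply Submodule.subset_span
      refine ⟨g * h * g⁻¹, hH.conj_mem h hh g, g • u, ?_⟩
      rw [smul_sub, ← mul_smul, ← mul_smul]
      congr 2
      group
    | zero => rw [smul_zero]; exact Submodule.zero_mem _
    | add x y _ _ hx hy => rw [smul_add]; exact Submodule.add_mem _ hx hy
    | smul a x _ hx => rw [hlin]; exact Submodule.smul_mem _ a hx
  by_cases hbot : N₂ = ⊥
  · -- `H` acts trivially, `G` acts through an abelian quotient
    have htriv : ∀ h ∈ H, ∀ v : V, h • v = v := by
      intro h hh v
      have : h • v - v ∈ N₂ := Submodule.subset_span ⟨h, hh, v, rfl⟩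
      rw [hbot, Submodule.mem_bot] at this
      exact sub_eq_zero.mp this
    have hcomm : ∀ g g' : G, ∀ v : V, g • g' • v = g' • g • v := by
      intro g g' v
      have h := htriv _ (hab g g') (g' • g • v)
      rw [← h, ← mul_smul, ← mul_smul, ← mul_smul]
      congr 1
      group
    let N : Submodule k V :=
      { carrier := {v | c • v = v}
        add_mem' := fun {a b} ha hb => by
          show c • (a + b) = a + b
          rw [smul_add, ha, hb]
        zero_mem' := smul_zero c
        smul_mem' := fun a v hv => by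
          show c • a • v = a • v
          rw [hlin, hv] }
    refine ⟨N, ?_, ?_, ?_⟩
    · obtain ⟨v, hv⟩ := hc2
      intro hN
      have hmem : v + c • v ∈ N := by
        show c • (v + c • v) = v + c • v
        rw [smul_add, hcc, add_comm]
      rw [hN, Submodule.mem_bot] at hmem
      exact hv (by rw [eq_neg_iff_add_eq_zero, add_comm]; exact hmem)
    · obtain ⟨v, hv⟩ := hc1
      intro hN
      have hmem : v ∈ N := by rw [hN]; exact Submodule.mem_top
      exact hv hmem
    · intro g v hv
      show c • g • v = g • v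
      rw [hcomm c g v, hv]
  · by_cases htop : N₂ = ⊤
    · -- then `H` has no nonzero invariant functional, so it has a common fixed vector
      refine ⟨N₁, ?_, ?_, hN₁⟩
      · have hd := gt92_dichotomy hV (Set.range fun h : H => gt92_lin hlin (h : G)) (by
            rintro _ ⟨a, rfl⟩ _ ⟨b, rfl⟩
            refine ⟨a * b, ?_⟩
            ext v
            simp [mul_smul]) (by
            rintro _ ⟨a, rfl⟩
            exact hfix a a.2)
        rcases hd with ⟨v, hv0, hv⟩ | ⟨φ, hφ0, hφ⟩
        · intro hN
          have hmem : v ∈ N₁ := fun h hh => hv _ ⟨⟨h, hh⟩, rfl⟩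
          rw [hN, Submodule.mem_bot] at hmem
          exact hv0 hmem
        · exfalso
          apply hφ0
          have hle : N₂ ≤ LinearMap.ker φ := by
            apply Submodule.span_le.mpr
            rintro w ⟨h, hh, v, rfl⟩
            have := hφ _ ⟨⟨h, hh⟩, rfl⟩ v
            simp only [gt92_lin_apply] at this
            simp [this]
          rw [htop, top_le_iff, LinearMap.ker_eq_top] at hle
          exact hle
      · intro hN
        apply hbot
        apply (Submodule.eq_bot_iff _).mpr
        intro w hw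
        induction hw using Submodule.span_induction with
        | mem w hw =>
          obtain ⟨h, hh, u, rfl⟩ := hw
          have hu : u ∈ N₁ := by rw [hN]; exact Submodule.mem_top
          rw [hu h hh, sub_self]
        | zero => rfl
        | add x y _ _ hx hy => rw [hx, hy, add_zero]
        | smul a x _ hx => rw [hx, smul_zero]
    · exact ⟨N₂, hbot, htop, hN₂⟩

end Stable

section Prelude

open WeierstrassCurve WeierstrassCurve.Affine WeierstrassCurve.Affine.Point

universe r s v

variable {R : Type r} {S : Type s} {K : Type v} [CommRing R] [CommRing S] [Field K]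
  [DecidableEq K] [Algebra R S] [Algebra R K] [Algebra S K] [IsScalarTower R S K]

/-- **Stable line, prelude shape.** If the `p`-torsion of `W'` over `K` has exactly `p ^ 2`
elements, `H` is a normal subgroup of `K ≃ₐ[S] K` containing all commutators whose elements all
fix a nonzero `p`-torsion point, and `c` is an involution which is neither `1` nor `-1` on the
`p`-torsion, then the Galois representation on the `p`-torsion is not irreducible. -/
theorem gt92_not_irreducible (W' : Affine R) (p : ℕ) [hp : Fact p.Prime]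
    (hcard : Nat.card (Submodule.torsionBy ℤ (W'⁄K).Point p) = p ^ 2)
    (H : Subgroup (K ≃ₐ[S] K)) [H.Normal]
    (hab : ∀ g g' : K ≃ₐ[S] K, g * g' * g⁻¹ * g'⁻¹ ∈ H)
    (hfix : ∀ h ∈ H, ∃ P : Submodule.torsionBy ℤ (W'⁄K).Point p, P ≠ 0 ∧ h • P = P)
    (c : K ≃ₐ[S] K) (hcc : c * c = 1)
    (hc1 : ∃ P : Submodule.torsionBy ℤ (W'⁄K).Point p, c • P ≠ P)
    (hc2 : ∃ P : Submodule.torsionBy ℤ (W'⁄K).Point p, c • P ≠ -P) :
    ¬ GaloisRepIsIrreducible (K := K) S W' p := by
  rintro ⟨-, hirr⟩
  have hfin : Finite (Submodule.torsionBy ℤ (W'⁄K).Point p) :=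
    Nat.finite_of_card_ne_zero (by rw [hcard]; exact pow_ne_zero 2 hp.out.ne_zero)
  have hmf : Module.Finite (ZMod p) (Submodule.torsionBy ℤ (W'⁄K).Point p) :=
    Module.Finite.of_finite
  have hV : finrank (ZMod p) (Submodule.torsionBy ℤ (W'⁄K).Point p) = 2 := by
    have h := Module.natCard_eq_pow_finrank (K := ZMod p)
      (V := Submodule.torsionBy ℤ (W'⁄K).Point p)
    rw [hcard, Nat.card_zmod] at h
    exact (Nat.pow_right_injective hp.out.two_le h).symm
  have hlin : ∀ (g : K ≃ₐ[S] K) (a : ZMod p) (v : Submodule.torsionBy ℤ (W'⁄K).Point p),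
      g • a • v = a • g • v := fun g a v =>
    (AddMonoidHom.toZModLinearMap p
      (DistribSMul.toAddMonoidHom (Submodule.torsionBy ℤ (W'⁄K).Point p) g)).map_smul a v
  obtain ⟨N, hN0, hN1, hN⟩ := gt92_exists_stable hlin hV H hab hfix c
    (fun v => by rw [← mul_smul, hcc, one_smul]) hc1 hc2
  rcases hirr N (fun σ x hx => hN σ x hx) with h | h
  · exact hN0 h
  · exact hN1 h

end Prelude

end Fermat.Agent.S41
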