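/-
S41 / M5 (G2): oddness.  Complex conjugation is not a scalar on `E[p]`.

Core: a finite subgroup of `E(K)` killed by an odd integer whose points have "real"
`x`-coordinates and `η² = (2y + a₁x + a₃)²` of constant sign is cyclic (extremal-`x` argument
based on the single identity
`(x₂ - x(P+Q)) (x₂ - x(P-Q)) (x₁ - x₂)² = -η(Q)² (x₁ - x(2Q))`).

Exports (namespace `Fermat.Agent.S41`):
* `ro82_cyclic_core`        : abstract extremal argument;
* `ro82_cyclic_of_embedding`: Weierstrass curve over a field with a ring hom to `ℂ`;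
* `ro82_cyclic_of_conj`     : finite subgroups of `E(ℚ̄)` killed by an odd integer on which the
                              Prelude `complexConjugation` is `+1` (or `-1`) are cyclic;
* `ro82_not_scalar`         : `p` odd, `p < #E[p]` ⟹ `complexConjugation` is neither `+1`
                              nor `-1` on `E[p]`;
* `ro82_exists_not_commute` : irreducible + `p < #E[p]` ⟹ some `σ` does not commute with
                              `complexConjugation` on `E[p]`.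
-/
import Mathlib
import Fermat.Prelude.Def_FLTPrelim_GaloisRep
import Fermat.Prelude.Def_GaloisRep_ComplexConjugation

set_option autoImplicit false

namespace Fermat.Agent.S41

section Identity

/-- polynomial form of the key identity -/
theorem ro82_identity_poly {K : Type*} [CommRing K] (a₁ a₂ a₃ a₄ a₆ x₁ y₁ x₂ y₂ : K)
    (h₁ : y₁ ^ 2 + a₁ * x₁ * y₁ + a₃ * y₁ = x₁ ^ 3 + a₂ * x₁ ^ 2 + a₄ * x₁ + a₆)
    (h₂ : y₂ ^ 2 + a₁ * x₂ * y₂ + a₃ * y₂ = x₂ ^ 3 + a₂ * x₂ ^ 2 + a₄ * x₂ + a₆) :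
    ((x₁ - x₂) ^ 2 * (x₁ + a₂ + 2 * x₂) - (y₁ - y₂) ^ 2 - a₁ * (y₁ - y₂) * (x₁ - x₂)) *
      ((x₁ - x₂) ^ 2 * (x₁ + a₂ + 2 * x₂) - (y₁ - (-y₂ - a₁ * x₂ - a₃)) ^ 2 -
        a₁ * (y₁ - (-y₂ - a₁ * x₂ - a₃)) * (x₁ - x₂)) =
    -((x₁ - x₂) ^ 2 * (y₂ - (-y₂ - a₁ * x₂ - a₃)) ^ 2 * (x₁ + a₂ + 2 * x₂) -
        ((x₁ - x₂) * (3 * x₂ ^ 2 + 2 * a₂ * x₂ + a₄ - a₁ * y₂)) ^ 2 -
        a₁ * (y₂ - (-y₂ - a₁ * x₂ - a₃)) * (x₁ - x₂) *
          ((x₁ - x₂) * (3 * x₂ ^ 2 + 2 * a₂ * x₂ + a₄ - a₁ * y₂))) := by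
  have hN : (x₁ - x₂) * (3 * x₂ ^ 2 + 2 * a₂ * x₂ + a₄ - a₁ * y₂) =
      (x₁ - x₂) * (3 * x₂ ^ 2 + 2 * a₂ * x₂ - a₁ * y₂) +
        ((y₁ ^ 2 + a₁ * x₁ * y₁ + a₃ * y₁ - x₁ ^ 3 - a₂ * x₁ ^ 2) -
          (y₂ ^ 2 + a₁ * x₂ * y₂ + a₃ * y₂ - x₂ ^ 3 - a₂ * x₂ ^ 2)) := by
    linear_combination h₂ - h₁
  linear_combination
    (-1 : K) * (((x₁ - x₂) * (3 * x₂ ^ 2 + 2 * a₂ * x₂ + a₄ - a₁ * y₂) +
      ((x₁ - x₂) * (3 * x₂ ^ 2 + 2 * a₂ * x₂ - a₁ * y₂) +
        ((y₁ ^ 2 + a₁ * x₁ * y₁ + a₃ * y₁ - x₁ ^ 3 - a₂ * x₁ ^ 2) -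
          (y₂ ^ 2 + a₁ * x₂ * y₂ + a₃ * y₂ - x₂ ^ 3 - a₂ * x₂ ^ 2)))) +
      a₁ * (y₂ - (-y₂ - a₁ * x₂ - a₃)) * (x₁ - x₂)) * hN

/-- The key identity as a statement about field elements. -/
theorem ro82_identity_field {K : Type*} [Field K] (a₁ a₂ a₃ a₄ a₆ x₁ y₁ x₂ y₂ : K)
    (h₁ : y₁ ^ 2 + a₁ * x₁ * y₁ + a₃ * y₁ = x₁ ^ 3 + a₂ * x₁ ^ 2 + a₄ * x₁ + a₆)
    (h₂ : y₂ ^ 2 + a₁ * x₂ * y₂ + a₃ * y₂ = x₂ ^ 3 + a₂ * x₂ ^ 2 + a₄ * x₂ + a₆)
    (hx : x₁ - x₂ ≠ 0) (hη : y₂ - (-y₂ - a₁ * x₂ - a₃) ≠ 0) :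
    (x₂ - (((y₁ - y₂) / (x₁ - x₂)) ^ 2 + a₁ * ((y₁ - y₂) / (x₁ - x₂)) - a₂ - x₁ - x₂)) *
        (x₂ - (((y₁ - (-y₂ - a₁ * x₂ - a₃)) / (x₁ - x₂)) ^ 2 +
          a₁ * ((y₁ - (-y₂ - a₁ * x₂ - a₃)) / (x₁ - x₂)) - a₂ - x₁ - x₂)) * (x₁ - x₂) ^ 2 =
      -(y₂ - (-y₂ - a₁ * x₂ - a₃)) ^ 2 *
        (x₁ - (((3 * x₂ ^ 2 + 2 * a₂ * x₂ + a₄ - a₁ * y₂) / (y₂ - (-y₂ - a₁ * x₂ - a₃))) ^ 2 +
          a₁ * ((3 * x₂ ^ 2 + 2 * a₂ * x₂ + a₄ - a₁ * y₂) / (y₂ - (-y₂ - a₁ * x₂ - a₃))) -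
            a₂ - x₂ - x₂)) := by
  have key := ro82_identity_poly a₁ a₂ a₃ a₄ a₆ x₁ y₁ x₂ y₂ h₁ h₂
  generalize x₁ - x₂ = d at *
  generalize y₂ - (-y₂ - a₁ * x₂ - a₃) = η at *
  generalize y₁ - (-y₂ - a₁ * x₂ - a₃) = m at *
  generalize 3 * x₂ ^ 2 + 2 * a₂ * x₂ + a₄ - a₁ * y₂ = n at *
  generalize y₁ - y₂ = u at *
  have e1 : x₂ - ((u / d) ^ 2 + a₁ * (u / d) - a₂ - x₁ - x₂) =
      (d ^ 2 * (x₁ + a₂ + 2 * x₂) - u ^ 2 - a₁ * u * d) / d ^ 2 := by
    field_simp; ring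
  have e2 : x₂ - ((m / d) ^ 2 + a₁ * (m / d) - a₂ - x₁ - x₂) =
      (d ^ 2 * (x₁ + a₂ + 2 * x₂) - m ^ 2 - a₁ * m * d) / d ^ 2 := by
    field_simp; ring
  have e3 : -η ^ 2 * (x₁ - ((n / η) ^ 2 + a₁ * (n / η) - a₂ - x₂ - x₂)) =
      -(η ^ 2 * (x₁ + a₂ + 2 * x₂) - n ^ 2 - a₁ * η * n) := by
    field_simp; ring
  rw [e1, e2, e3]
  have hd2 : d ^ 2 ≠ 0 := pow_ne_zero 2 hx
  rw [div_mul_div_comm, div_mul_eq_mul_div, div_eq_iff (mul_ne_zero hd2 hd2), key]
  field_simp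

end Identity

section Core

/-- Abstract extremal argument: a finite subgroup killed by an odd integer, carrying a
"height" `X` with values in a linear order that separates points up to sign and satisfies the
ascent property, is cyclic. -/
theorem ro82_cyclic_core {G L : Type*} [AddCommGroup G] [LinearOrder L] (A : AddSubgroup G)
    [Finite A] (n : ℕ) (hn : Odd n) (hnA : ∀ Q ∈ A, n • Q = 0) (X : G → L)
    (hX : ∀ P ∈ A, ∀ Q ∈ A, P ≠ 0 → Q ≠ 0 → X P = X Q → P = Q ∨ P = -Q)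
    (hstep : ∀ P ∈ A, ∀ Q ∈ A, P ≠ 0 → Q ≠ 0 → P ≠ Q → P ≠ -Q → Q + Q ≠ 0 →
      X (Q + Q) < X P → X Q < X (P + Q) ∨ X Q < X (P - Q)) :
    ∃ P ∈ A, ∀ Q ∈ A, Q ∈ AddSubgroup.zmultiples P := by
  classical
  obtain ⟨k, hk⟩ := hn
  -- halving
  have hhalf : ∀ Q ∈ A, (k + 1) • (Q + Q) = Q := by
    intro Q hQ
    have h1 : (k + 1) • (Q + Q) = n • Q + Q := by
      rw [hk]
      module
    rw [h1, hnA Q hQ, zero_add]
  have h2tors : ∀ Q ∈ A, Q + Q = 0 → Q = 0 := by
    intro Q hQ h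
    rw [← hhalf Q hQ, h, nsmul_zero]
  by_cases htriv : ∀ Q ∈ A, Q = 0
  · refine ⟨0, A.zero_mem, fun Q hQ => ?_⟩
    rw [htriv Q hQ]
    exact AddSubgroup.zero_mem _
  push Not at htriv
  obtain ⟨Q₀, hQ₀A, hQ₀⟩ := htriv
  have : Nonempty {Q : A // (Q : G) ≠ 0} := ⟨⟨⟨Q₀, hQ₀A⟩, hQ₀⟩⟩
  obtain ⟨⟨⟨P, hPA⟩, hP0⟩, hPmax⟩ :=
    Finite.exists_max (fun Q : {Q : A // (Q : G) ≠ 0} => X (Q : G))
  have hmax : ∀ Q ∈ A, Q ≠ 0 → X Q ≤ X P := fun Q hQ hQ0 => hPmax ⟨⟨Q, hQ⟩, hQ0⟩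
  refine ⟨P, hPA, ?_⟩
  -- well-founded induction along increasing `X`
  let r : A → A → Prop := fun a b => X (b : G) < X (a : G)
  have : IsTrans A r := ⟨fun a b c h1 h2 => lt_trans h2 h1⟩
  have : Std.Irrefl r := ⟨fun a => lt_irrefl _⟩
  have hwf : WellFounded r := Finite.wellFounded_of_trans_of_irrefl r
  have key : ∀ Q : A, (Q : G) ∈ AddSubgroup.zmultiples P := by
    intro Q
    induction Q using hwf.induction with
    | _ Q ih =>
    obtain ⟨Q, hQ⟩ := Q
    show Q ∈ AddSubgroup.zmultiples P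
    have hPz : P ∈ AddSubgroup.zmultiples P := AddSubgroup.mem_zmultiples P
    by_cases hQ0 : Q = 0
    · rw [hQ0]; exact AddSubgroup.zero_mem _
    by_cases hQP : P = Q
    · rw [← hQP]; exact hPz
    by_cases hQP' : P = -Q
    · have : Q = -P := by rw [hQP', neg_neg]
      rw [this]; exact AddSubgroup.neg_mem _ hPz
    have hQQ : Q + Q ≠ 0 := fun h => hQ0 (h2tors Q hQ h)
    have hQQA : Q + Q ∈ A := A.add_mem hQ hQ
    by_cases hd : P = Q + Q
    · rw [← hhalf Q hQ, ← hd]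
      exact AddSubgroup.nsmul_mem _ hPz _
    by_cases hd' : P = -(Q + Q)
    · have : Q + Q = -P := by rw [hd', neg_neg]
      rw [← hhalf Q hQ, this]
      exact AddSubgroup.nsmul_mem _ (AddSubgroup.neg_mem _ hPz) _
    have hlt : X (Q + Q) < X P := by
      refine lt_of_le_of_ne (hmax _ hQQA hQQ) fun h => ?_
      rcases hX P hPA (Q + Q) hQQA hP0 hQQ h.symm with h | h
      · exact hd h
      · exact hd' h
    rcases hstep P hPA Q hQ hP0 hQ0 hQP hQP' hQQ hlt with h | h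
    · have := ih ⟨P + Q, A.add_mem hPA hQ⟩ h
      have h3 : Q = (P + Q) - P := by abel
      rw [h3]
      exact AddSubgroup.sub_mem _ this hPz
    · have := ih ⟨P - Q, A.sub_mem hPA hQ⟩ h
      have h3 : Q = P - (P - Q) := by abel
      rw [h3]
      exact AddSubgroup.sub_mem _ hPz this
  exact fun Q hQ => key ⟨Q, hQ⟩

end Core

open WeierstrassCurve WeierstrassCurve.Affine

section Affine

variable {K : Type*} [Field K] [DecidableEq K] (W : Affine K)

/-- The `x`-coordinate of a point (junk value `0` at infinity). -/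
def ro82_x : W.Point → K
  | .zero => 0
  | .some x _ _ => x

/-- `η = y - negY x y = 2y + a₁x + a₃` (junk value `0` at infinity). -/
def ro82_eta : W.Point → K
  | .zero => 0
  | .some x y _ => y - W.negY x y

theorem ro82_identity {x₁ y₁ x₂ y₂ : K} (h₁ : W.Equation x₁ y₁) (h₂ : W.Equation x₂ y₂)
    (hx : x₁ ≠ x₂) (hy : y₂ ≠ W.negY x₂ y₂) :
    (x₂ - W.addX x₁ x₂ (W.slope x₁ x₂ y₁ y₂)) *
        (x₂ - W.addX x₁ x₂ (W.slope x₁ x₂ y₁ (W.negY x₂ y₂))) * (x₁ - x₂) ^ 2 =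
      -(y₂ - W.negY x₂ y₂) ^ 2 * (x₁ - W.addX x₂ x₂ (W.slope x₂ x₂ y₂ y₂)) := by
  rw [slope_of_X_ne hx, slope_of_X_ne hx, slope_of_Y_ne rfl hy]
  rw [equation_iff] at h₁ h₂
  exact ro82_identity_field W.a₁ W.a₂ W.a₃ W.a₄ W.a₆ x₁ y₁ x₂ y₂ h₁ h₂ (sub_ne_zero.mpr hx)
    (sub_ne_zero.mpr hy)

theorem ro82_point_identity (P Q : W.Point) (hP : P ≠ 0) (hQ : Q ≠ 0) (hPQ : P ≠ Q)
    (hPQ' : P ≠ -Q) (hQQ : Q + Q ≠ 0) :
    ro82_x W P ≠ ro82_x W Q ∧ ro82_eta W Q ≠ 0 ∧
      (ro82_x W Q - ro82_x W (P + Q)) * (ro82_x W Q - ro82_x W (P - Q)) *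
          (ro82_x W P - ro82_x W Q) ^ 2 =
        -(ro82_eta W Q) ^ 2 * (ro82_x W P - ro82_x W (Q + Q)) := by
  rcases P with _ | ⟨x₁, y₁, h₁⟩
  · exact absurd rfl hP
  rcases Q with _ | ⟨x₂, y₂, h₂⟩
  · exact absurd rfl hQ
  have hx : x₁ ≠ x₂ := fun h => (Point.X_eq_iff.mp h).elim hPQ hPQ'
  have hy : y₂ ≠ W.negY x₂ y₂ := fun h => hQQ (Point.add_self_of_Y_eq h)
  have e2 : Point.some x₁ y₁ h₁ - Point.some x₂ y₂ h₂ =
      Point.some x₁ y₁ h₁ + Point.some x₂ (W.negY x₂ y₂) ((nonsingular_neg ..).mpr h₂) := by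
    rw [sub_eq_add_neg, Point.neg_some]
  rw [e2, Point.add_of_X_ne hx, Point.add_of_X_ne hx, Point.add_self_of_Y_ne hy]
  exact ⟨hx, sub_ne_zero.mpr hy, ro82_identity W h₁.1 h₂.1 hx hy⟩

theorem ro82_cyclic_of_embedding (ι : K →+* ℂ) (A : AddSubgroup W.Point) [Finite A]
    (n : ℕ) (hn : Odd n) (hnA : ∀ Q ∈ A, n • Q = 0) (ε : ℝ) (hε : ε = 1 ∨ ε = -1)
    (hx : ∀ P ∈ A, (ι (ro82_x W P)).im = 0)
    (hη : ∀ P ∈ A, ∃ t : ℝ, ι (ro82_eta W P) ^ 2 = ((ε * t ^ 2 : ℝ) : ℂ)) :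
    ∃ P ∈ A, ∀ Q ∈ A, Q ∈ AddSubgroup.zmultiples P := by
  have hε0 : ε ≠ 0 := by rcases hε with rfl | rfl <;> norm_num
  have hr : ∀ R ∈ A, ι (ro82_x W R) = (((ι (ro82_x W R)).re : ℝ) : ℂ) := fun R hR =>
    Complex.ext rfl (by simp [hx R hR])
  apply ro82_cyclic_core A n hn hnA (fun P => ε * (ι (ro82_x W P)).re)
  · intro P hP Q hQ hP0 hQ0 h
    have h1 : (ι (ro82_x W P)).re = (ι (ro82_x W Q)).re := mul_left_cancel₀ hε0 h
    have h2 : ι (ro82_x W P) = ι (ro82_x W Q) := Complex.ext h1 (by rw [hx P hP, hx Q hQ])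
    have h3 := ι.injective h2
    rcases P with _ | ⟨x₁, y₁, h₁⟩
    · exact absurd rfl hP0
    rcases Q with _ | ⟨x₂, y₂, h₂⟩
    · exact absurd rfl hQ0
    exact Point.X_eq_iff.mp h3
  · intro P hP Q hQ hP0 hQ0 hPQ hPQ' hQQ hlt
    obtain ⟨hxne, hη0, hid⟩ := ro82_point_identity W P Q hP0 hQ0 hPQ hPQ' hQQ
    obtain ⟨t, ht⟩ := hη Q hQ
    have hPQA := A.add_mem hP hQ
    have hPQA' := A.sub_mem hP hQ
    have hQQA := A.add_mem hQ hQ
    have hid' := congrArg ι hid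
    simp only [map_mul, map_sub, map_pow, map_neg] at hid'
    rw [ht, hr P hP, hr Q hQ, hr _ hPQA, hr _ hPQA', hr _ hQQA] at hid'
    have hreal : ((ι (ro82_x W Q)).re - (ι (ro82_x W (P + Q))).re) *
        ((ι (ro82_x W Q)).re - (ι (ro82_x W (P - Q))).re) *
          ((ι (ro82_x W P)).re - (ι (ro82_x W Q)).re) ^ 2 =
        -(ε * t ^ 2) * ((ι (ro82_x W P)).re - (ι (ro82_x W (Q + Q))).re) := by
      exact_mod_cast hid'
    have ht0 : t ≠ 0 := by
      rintro rfl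
      have h0 : ι (ro82_eta W Q) ^ 2 = 0 := by rw [ht]; simp
      exact hη0 (ι.injective (by rw [map_zero]; exact pow_eq_zero_iff (two_ne_zero) |>.mp h0))
    have hne : (ι (ro82_x W P)).re - (ι (ro82_x W Q)).re ≠ 0 := by
      intro h
      apply hxne
      apply ι.injective
      rw [hr P hP, hr Q hQ, sub_eq_zero.mp h]
    have hd2 : 0 < ((ι (ro82_x W P)).re - (ι (ro82_x W Q)).re) ^ 2 := by positivity
    have ht2 : 0 < t ^ 2 := by positivity
    by_contra hcon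
    push Not at hcon
    obtain ⟨hc1, hc2⟩ := hcon
    generalize (ι (ro82_x W P)).re = r₁ at *
    generalize (ι (ro82_x W Q)).re = r₂ at *
    generalize (ι (ro82_x W (P + Q))).re = rp at *
    generalize (ι (ro82_x W (P - Q))).re = rm at *
    generalize (ι (ro82_x W (Q + Q))).re = rd at *
    rcases hε with rfl | rfl
    · have ha : 0 ≤ r₂ - rp := by linarith
      have hb : 0 ≤ r₂ - rm := by linarith
      have he : 0 < r₁ - rd := by linarith
      have h1 : 0 ≤ (r₂ - rp) * (r₂ - rm) * (r₁ - r₂) ^ 2 :=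
        mul_nonneg (mul_nonneg ha hb) hd2.le
      have h2 : 0 < t ^ 2 * (r₁ - rd) := mul_pos ht2 he
      linarith
    · have ha : r₂ - rp ≤ 0 := by linarith
      have hb : r₂ - rm ≤ 0 := by linarith
      have he : 0 < rd - r₁ := by linarith
      have h1 : 0 ≤ (r₂ - rp) * (r₂ - rm) * (r₁ - r₂) ^ 2 :=
        mul_nonneg (mul_nonneg_of_nonpos_of_nonpos ha hb) hd2.le
      have h2 : 0 < t ^ 2 * (rd - r₁) := mul_pos ht2 he
      linarith

end Affine

local notation "ℚbar" => AlgebraicClosure ℚ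

section Conj

theorem ro82_im_eq_zero {x : ℚbar} (h : complexConjugation x = x) :
    (complexEmbedding x).im = 0 := by
  have := complexEmbedding_complexConjugation x
  rw [h] at this
  exact Complex.conj_eq_iff_im.mp this.symm

theorem ro82_re_eq_zero {x : ℚbar} (h : complexConjugation x = -x) :
    (complexEmbedding x).re = 0 := by
  have := complexEmbedding_complexConjugation x
  rw [h, map_neg] at this
  have h2 := congrArg Complex.re this
  simp only [Complex.neg_re, Complex.conj_re] at h2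
  linarith

theorem ro82_sq_of_im {z : ℂ} (hz : z.im = 0) : z ^ 2 = ((1 * z.re ^ 2 : ℝ) : ℂ) := by
  apply Complex.ext <;> simp [pow_two, hz]

theorem ro82_sq_of_re {z : ℂ} (hz : z.re = 0) : z ^ 2 = (((-1) * z.im ^ 2 : ℝ) : ℂ) := by
  apply Complex.ext <;> simp [pow_two, hz]

variable (E : Affine ℚ)

theorem ro82_smul_some (σ : ℚbar ≃ₐ[ℚ] ℚbar) {x y : ℚbar} (h : (E⁄ℚbar).Nonsingular x y) :
    ∃ h', σ • (Point.some x y h : (E⁄ℚbar).Point) = Point.some (σ x) (σ y) h' :=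
  ⟨_, rfl⟩

theorem ro82_negY_map (σ : ℚbar ≃ₐ[ℚ] ℚbar) (x y : ℚbar) :
    σ ((E⁄ℚbar).negY x y) = (E⁄ℚbar).negY (σ x) (σ y) :=
  (Affine.baseChange_negY (W' := E) σ.toAlgHom x y).symm

/-- Finite subgroups of `E(ℚ̄)` killed by an odd integer on which complex conjugation acts as
`+1` (or as `-1`) are cyclic. -/
theorem ro82_cyclic_of_conj (A : AddSubgroup (E⁄ℚbar).Point) [Finite A]
    (n : ℕ) (hn : Odd n) (hnA : ∀ Q ∈ A, n • Q = 0)
    (h : (∀ P ∈ A, complexConjugation • P = P) ∨ (∀ P ∈ A, complexConjugation • P = -P)) :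
    ∃ P ∈ A, ∀ Q ∈ A, Q ∈ AddSubgroup.zmultiples P := by
  rcases h with h | h
  · apply ro82_cyclic_of_embedding (E⁄ℚbar) complexEmbedding.toRingHom A n hn hnA 1 (Or.inl rfl)
    · intro P hP
      rcases P with _ | ⟨x, y, hxy⟩
      · simp [ro82_x]
      · obtain ⟨h', he⟩ := ro82_smul_some E complexConjugation hxy
        have h1 := h _ hP
        rw [he, Point.some.injEq] at h1
        exact ro82_im_eq_zero h1.1
    · intro P hP
      rcases P with _ | ⟨x, y, hxy⟩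
      · exact ⟨0, by simp [ro82_eta]⟩
      · obtain ⟨h', he⟩ := ro82_smul_some E complexConjugation hxy
        have h1 := h _ hP
        rw [he, Point.some.injEq] at h1
        have h2 : complexConjugation (y - (E⁄ℚbar).negY x y) = y - (E⁄ℚbar).negY x y := by
          rw [map_sub, ro82_negY_map, h1.1, h1.2]
        have h3 := ro82_im_eq_zero h2
        refine ⟨(complexEmbedding (y - (E⁄ℚbar).negY x y)).re, ?_⟩
        exact ro82_sq_of_im h3
  · apply ro82_cyclic_of_embedding (E⁄ℚbar) complexEmbedding.toRingHom A n hn hnA (-1)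
      (Or.inr rfl)
    · intro P hP
      rcases P with _ | ⟨x, y, hxy⟩
      · simp [ro82_x]
      · obtain ⟨h', he⟩ := ro82_smul_some E complexConjugation hxy
        have h1 := h _ hP
        rw [he, Point.neg_some, Point.some.injEq] at h1
        exact ro82_im_eq_zero h1.1
    · intro P hP
      rcases P with _ | ⟨x, y, hxy⟩
      · exact ⟨0, by simp [ro82_eta]⟩
      · obtain ⟨h', he⟩ := ro82_smul_some E complexConjugation hxy
        have h1 := h _ hP
        rw [he, Point.neg_some, Point.some.injEq] at h1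
        have h2 : complexConjugation (y - (E⁄ℚbar).negY x y) = -(y - (E⁄ℚbar).negY x y) := by
          rw [map_sub, ro82_negY_map, h1.1, h1.2, negY_negY]
          ring
        have h3 := ro82_re_eq_zero h2
        refine ⟨(complexEmbedding (y - (E⁄ℚbar).negY x y)).im, ?_⟩
        exact ro82_sq_of_re h3

end Conj

section Torsion

theorem ro82_card_le_of_cyclic {G : Type*} [AddCommGroup G] (A : AddSubgroup G) {p : ℕ}
    (hp0 : 0 < p) (hpA : ∀ Q ∈ A, p • Q = 0)
    (hcyc : ∃ P ∈ A, ∀ Q ∈ A, Q ∈ AddSubgroup.zmultiples P) : Nat.card A ≤ p := by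
  obtain ⟨P, hP, hgen⟩ := hcyc
  have hA : A = AddSubgroup.zmultiples P :=
    le_antisymm hgen (AddSubgroup.zmultiples_le.mpr hP)
  rw [hA, Nat.card_zmultiples]
  exact Nat.le_of_dvd hp0 (addOrderOf_dvd_of_nsmul_eq_zero (hpA P hP))

variable (E : Affine ℚ) {p : ℕ}

/-- **Oddness.** If `p` is odd and `E[p]` has more than `p` elements, complex conjugation acts
on `E[p]` neither as `+1` nor as `-1`. -/
theorem ro82_not_scalar (hp : Odd p) (hp0 : 0 < p)
    (hcard : p < Nat.card (Submodule.torsionBy ℤ (E⁄ℚbar).Point p)) :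
    (¬ ∀ v : Submodule.torsionBy ℤ (E⁄ℚbar).Point p, complexConjugation • v = v) ∧
      (¬ ∀ v : Submodule.torsionBy ℤ (E⁄ℚbar).Point p, complexConjugation • v = -v) := by
  have hfin : Finite (Submodule.torsionBy ℤ (E⁄ℚbar).Point p) :=
    Nat.finite_of_card_ne_zero (by omega)
  have hfin' : Finite (Submodule.torsionBy ℤ (E⁄ℚbar).Point p).toAddSubgroup := hfin
  have hpA : ∀ Q ∈ (Submodule.torsionBy ℤ (E⁄ℚbar).Point p).toAddSubgroup, p • Q = 0 := by
    intro Q hQ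
    have := (Submodule.mem_torsionBy_iff _ _).mp hQ
    rwa [natCast_zsmul] at this
  have hcard' : p < Nat.card (Submodule.torsionBy ℤ (E⁄ℚbar).Point p).toAddSubgroup := hcard
  constructor
  · intro h
    have hcyc := ro82_cyclic_of_conj E (Submodule.torsionBy ℤ (E⁄ℚbar).Point p).toAddSubgroup p hp
      hpA (Or.inl fun P hP => congrArg Subtype.val (h ⟨P, hP⟩))
    have := ro82_card_le_of_cyclic _ hp0 hpA hcyc
    omega
  · intro h
    have hcyc := ro82_cyclic_of_conj E (Submodule.torsionBy ℤ (E⁄ℚbar).Point p).toAddSubgroup p hp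
      hpA (Or.inr fun P hP => congrArg Subtype.val (h ⟨P, hP⟩))
    have := ro82_card_le_of_cyclic _ hp0 hpA hcyc
    omega

/-- If the mod `p` representation is irreducible and `E[p]` has more than `p` elements, then
complex conjugation is not central in the image of Galois: some `σ` does not commute with it
on `E[p]`. -/
theorem ro82_exists_not_commute (hp : p.Prime) (hp2 : p ≠ 2)
    (hirr : Point.GaloisRepIsIrreducible (K := ℚbar) ℚ E p)
    (hcard : p < Nat.card (Submodule.torsionBy ℤ (E⁄ℚbar).Point p)) :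
    ∃ (σ : ℚbar ≃ₐ[ℚ] ℚbar) (v : Submodule.torsionBy ℤ (E⁄ℚbar).Point p),
      σ • (complexConjugation • v) ≠ complexConjugation • (σ • v) := by
  by_contra hcon
  push Not at hcon
  obtain ⟨hodd1, hodd2⟩ := ro82_not_scalar E (hp.odd_of_ne_two hp2) hp.pos hcard
  let Vp : AddSubgroup (Submodule.torsionBy ℤ (E⁄ℚbar).Point p) :=
    { carrier := {v | complexConjugation • v = v}
      zero_mem' := smul_zero _
      add_mem' := fun {a b} ha hb => by
        show complexConjugation • (a + b) = a + b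
        rw [smul_add, show complexConjugation • a = a from ha,
          show complexConjugation • b = b from hb]
      neg_mem' := fun {a} ha => by
        show complexConjugation • (-a) = -a
        rw [smul_neg, show complexConjugation • a = a from ha] }
  let Vm : AddSubgroup (Submodule.torsionBy ℤ (E⁄ℚbar).Point p) :=
    { carrier := {v | complexConjugation • v = -v}
      zero_mem' := by
        show complexConjugation • (0 : Submodule.torsionBy ℤ (E⁄ℚbar).Point p) = -0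
        rw [smul_zero, neg_zero]
      add_mem' := fun {a b} ha hb => by
        show complexConjugation • (a + b) = -(a + b)
        rw [smul_add, show complexConjugation • a = -a from ha,
          show complexConjugation • b = -b from hb, neg_add]
      neg_mem' := fun {a} ha => by
        show complexConjugation • (-a) = - -a
        rw [smul_neg, show complexConjugation • a = -a from ha] }
  have hVp : Point.IsGaloisStable ℚ (AddSubgroup.toZModSubmodule p Vp) := by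
    intro σ x hx
    show complexConjugation • (σ • x) = σ • x
    rw [← hcon σ x, show complexConjugation • x = x from hx]
  have hVm : Point.IsGaloisStable ℚ (AddSubgroup.toZModSubmodule p Vm) := by
    intro σ x hx
    show complexConjugation • (σ • x) = -(σ • x)
    rw [← hcon σ x, show complexConjugation • x = -x from hx, smul_neg]
  rcases hirr.2 _ hVp with h1 | h1
  · rcases hirr.2 _ hVm with h2 | h2
    · have hnt := hirr.1
      obtain ⟨v, hv⟩ := exists_ne (0 : Submodule.torsionBy ℤ (E⁄ℚbar).Point p)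
      have hcc : complexConjugation • complexConjugation • v = v := by
        rw [← mul_smul, complexConjugation_mul_self, one_smul]
      have h3 : v + complexConjugation • v ∈ AddSubgroup.toZModSubmodule p Vp := by
        show complexConjugation • (v + complexConjugation • v) = v + complexConjugation • v
        rw [smul_add, hcc, add_comm]
      have h4 : v - complexConjugation • v ∈ AddSubgroup.toZModSubmodule p Vm := by
        show complexConjugation • (v - complexConjugation • v) = -(v - complexConjugation • v)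
        rw [smul_sub, hcc, neg_sub]
      rw [h1, Submodule.mem_bot] at h3
      rw [h2, Submodule.mem_bot] at h4
      have h5 : v + v = 0 := by
        have : v + v = (v + complexConjugation • v) + (v - complexConjugation • v) := by abel
        rw [this, h3, h4, add_zero]
      obtain ⟨k, hk⟩ := hp.odd_of_ne_two hp2
      have h6 : ((p : ℕ) : ℤ) • v = 0 := Submodule.smul_torsionBy _ v
      have hpz : ((p : ℕ) : ℤ) = 2 * (k : ℤ) + 1 := by exact_mod_cast hk
      have h7 : ∀ m : ℤ, m = 2 * (k : ℤ) + 1 → m • v = (k : ℤ) • (v + v) + v := by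
        intro m hm
        rw [hm]
        module
      rw [h7 _ hpz, h5, smul_zero, zero_add] at h6
      exact hv h6
    · apply hodd2
      intro v
      have : v ∈ AddSubgroup.toZModSubmodule p Vm := by rw [h2]; trivial
      exact this
  · apply hodd1
    intro v
    have : v ∈ AddSubgroup.toZModSubmodule p Vp := by rw [h1]; trivial
    exact this

end Torsion

end Fermat.Agent.S41
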