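/-
S41 / M5 (G2 route): consumer forms of the oddness statement of `RealOdd82.lean`, in the exact
shape used by `gt92_not_irreducible` (`GroupTheory92.lean`).

* `ro82_exists_conj`          : `p` odd, `p < #E[p]` ⟹ there is an involution `c` of `ℚ̄/ℚ`
                                which is neither `1` nor `-1` on `E[p]`;
* `ro82_not_fix_of_irreducible` : **abelian corner.**  `p` odd prime, `#E[p] = p²`, the mod `p`
                                representation irreducible, `H` a normal subgroup of `Gal(ℚ̄/ℚ)`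
                                containing all commutators ⟹ some `h ∈ H` fixes no nonzero point
                                of `E[p]`.
-/
import Mathlib
import Fermat.Agent.S41.RealOdd82
import Fermat.Agent.S41.GroupTheory92

set_option autoImplicit false

namespace Fermat.Agent.S41

open WeierstrassCurve WeierstrassCurve.Affine

local notation "ℚbar" => AlgebraicClosure ℚ

/-- Oddness in the shape consumed by `gt92_not_irreducible`. -/
theorem ro82_exists_conj (E : Affine ℚ) {p : ℕ} (hp : Odd p) (hp0 : 0 < p)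
    (hcard : p < Nat.card (Submodule.torsionBy ℤ (E⁄ℚbar).Point p)) :
    ∃ c : ℚbar ≃ₐ[ℚ] ℚbar, c * c = 1 ∧
      (∃ P : Submodule.torsionBy ℤ (E⁄ℚbar).Point p, c • P ≠ P) ∧
      (∃ P : Submodule.torsionBy ℤ (E⁄ℚbar).Point p, c • P ≠ -P) := by
  obtain ⟨h1, h2⟩ := ro82_not_scalar E hp hp0 hcard
  exact ⟨complexConjugation, complexConjugation_mul_self, not_forall.mp h1, not_forall.mp h2⟩

/-- **Abelian corner.** If the mod `p` representation of `E` is irreducible, `p` is an odd prime
and `#E[p] = p²`, then no normal subgroup `H` of `Gal(ℚ̄/ℚ)` containing all commutators can have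
the property that each of its elements fixes a nonzero point of `E[p]`. -/
theorem ro82_not_fix_of_irreducible (E : Affine ℚ) {p : ℕ} (hp : p.Prime) (hp2 : p ≠ 2)
    (hirr : Point.GaloisRepIsIrreducible (K := ℚbar) ℚ E p)
    (hcard : Nat.card (Submodule.torsionBy ℤ (E⁄ℚbar).Point p) = p ^ 2)
    (H : Subgroup (ℚbar ≃ₐ[ℚ] ℚbar)) [H.Normal]
    (hab : ∀ g g' : ℚbar ≃ₐ[ℚ] ℚbar, g * g' * g⁻¹ * g'⁻¹ ∈ H) :
    ∃ h ∈ H, ∀ P : Submodule.torsionBy ℤ (E⁄ℚbar).Point p, h • P = P → P = 0 := by
  by_contra hcon
  push Not at hcon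
  have : Fact p.Prime := ⟨hp⟩
  have hlt : p < Nat.card (Submodule.torsionBy ℤ (E⁄ℚbar).Point p) := by
    rw [hcard]
    nlinarith [hp.two_le]
  obtain ⟨c, hcc, hc1, hc2⟩ := ro82_exists_conj E (hp.odd_of_ne_two hp2) hp.pos hlt
  refine gt92_not_irreducible (S := ℚ) (K := ℚbar) E p hcard H hab (fun h hh => ?_) c hcc hc1 hc2
    hirr
  obtain ⟨P, hP, hP0⟩ := hcon h hh
  exact ⟨P, hP0, hP⟩

end Fermat.Agent.S41
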