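/-
S41 / M5: the "abelian corner" with no torsion hypothesis left (helper82).

`co82_corner`: for an elliptic curve `E / ℚ`, `p` an odd prime with irreducible mod `p`
representation, every normal subgroup `H` of `Gal(ℚ̄/ℚ)` containing all commutators has an
element without nonzero fixed point on `E[p]`.  (G1 `#E[p] = p²` from `TorsCardE82`, oddness G2
from `RealOdd82`, group theory from `GroupTheory92`.)
-/
import Mathlib
import Fermat.Agent.S41.RealOddUse82
import Fermat.Agent.S41.TorsCardE82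

set_option autoImplicit false

namespace Fermat.Agent.S41

open WeierstrassCurve WeierstrassCurve.Affine

/-- **Abelian corner, final form.** -/
theorem co82_corner (E : WeierstrassCurve ℚ) [E.IsElliptic] {p : ℕ} (hp : p.Prime)
    (hp2 : p ≠ 2)
    (hirr : Point.GaloisRepIsIrreducible (K := AlgebraicClosure ℚ) ℚ E p)
    (H : Subgroup (AlgebraicClosure ℚ ≃ₐ[ℚ] AlgebraicClosure ℚ)) [H.Normal]
    (hab : ∀ g g' : AlgebraicClosure ℚ ≃ₐ[ℚ] AlgebraicClosure ℚ, g * g' * g⁻¹ * g'⁻¹ ∈ H) :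
    ∃ h ∈ H, ∀ P : Submodule.torsionBy ℤ (E⁄(AlgebraicClosure ℚ)).Point p, h • P = P → P = 0 :=
  ro82_not_fix_of_irreducible E hp hp2 hirr (tc82_card_torsionBy_elliptic E hp hp2).2 H hab

/-- Variant: for every abelian-quotient normal subgroup `H`, it is *not* the case that every
element of `H` fixes a nonzero point of `E[p]`. -/
theorem co82_corner' (E : WeierstrassCurve ℚ) [E.IsElliptic] {p : ℕ} (hp : p.Prime)
    (hp2 : p ≠ 2)
    (hirr : Point.GaloisRepIsIrreducible (K := AlgebraicClosure ℚ) ℚ E p)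
    (H : Subgroup (AlgebraicClosure ℚ ≃ₐ[ℚ] AlgebraicClosure ℚ)) [H.Normal]
    (hab : ∀ g g' : AlgebraicClosure ℚ ≃ₐ[ℚ] AlgebraicClosure ℚ, g * g' * g⁻¹ * g'⁻¹ ∈ H) :
    ¬ ∀ h ∈ H, ∃ P : (E⁄(AlgebraicClosure ℚ)).Point, P ≠ 0 ∧ p • P = 0 ∧ h • P = P := by
  intro hall
  obtain ⟨h, hh, hfix⟩ := co82_corner E hp hp2 hirr H hab
  obtain ⟨P, hP0, hpP, hhP⟩ := hall h hh
  have hmem : P ∈ Submodule.torsionBy ℤ (E⁄(AlgebraicClosure ℚ)).Point p := by
    rw [Submodule.mem_torsionBy_iff, natCast_zsmul]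
    exact hpP
  have := hfix ⟨P, hmem⟩ (Subtype.ext hhP)
  exact hP0 (congrArg Subtype.val this)

end Fermat.Agent.S41
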