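/-
S41 / M5: group theory for the "twist count" corner route (no complex conjugation).

`gt92c_trivial_of_irreducible` : `G` acts linearly and irreducibly on `V`, `finrank V ≤ 2`, `H` a
    normal subgroup all of whose elements have a nonzero fixed vector: `H` acts trivially.
`gt92c_corner` : if moreover all commutators of `G` lie in `H` and `τ * τ ∈ H`, then `τ` acts as
    `+1` or as `-1`.
-/
import Mathlib
import Fermat.Agent.S41.GroupTheory92

set_option autoImplicit false

namespace Fermat.Agent.S41

open Module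

section

variable {k : Type*} [Field k] {V : Type*} [AddCommGroup V] [Module k V]
variable {G : Type*} [Group G] [DistribMulAction G V]

/-- the invariants of a normal subgroup form a `G`-stable submodule -/
def gt92c_inv (hlin : ∀ (g : G) (a : k) (v : V), g • a • v = a • g • v) (H : Subgroup G) :
    Submodule k V where
  carrier := {v | ∀ h ∈ H, h • v = v}
  add_mem' := fun {a b} ha hb h hh => by rw [smul_add, ha h hh, hb h hh]
  zero_mem' := fun h _ => smul_zero h
  smul_mem' := fun a v hv h hh => by rw [hlin, hv h hh]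

theorem gt92c_mem_inv (hlin : ∀ (g : G) (a : k) (v : V), g • a • v = a • g • v) (H : Subgroup G)
    (v : V) : v ∈ gt92c_inv hlin H ↔ ∀ h ∈ H, h • v = v := Iff.rfl

theorem gt92c_inv_stable (hlin : ∀ (g : G) (a : k) (v : V), g • a • v = a • g • v)
    (H : Subgroup G) [hH : H.Normal] (g : G) (v : V) (hv : v ∈ gt92c_inv hlin H) :
    g • v ∈ gt92c_inv hlin H := by
  intro h hh
  have h1 : g⁻¹ * h * g ∈ H := by
    have := hH.conj_mem h hh g⁻¹
    simpa using this
  have h2 := hv _ h1
  calc h • g • v = g • (g⁻¹ * h * g) • v := by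
        rw [← mul_smul, ← mul_smul]; congr 1; group
    _ = g • v := by rw [h2]

/-- the augmentation submodule of a subgroup -/
def gt92c_aug (k : Type*) [Field k] {V : Type*} [AddCommGroup V] [Module k V]
    {G : Type*} [Group G] [DistribMulAction G V] (H : Subgroup G) : Submodule k V :=
  Submodule.span k {w | ∃ h ∈ H, ∃ v : V, w = h • v - v}

theorem gt92c_aug_stable (hlin : ∀ (g : G) (a : k) (v : V), g • a • v = a • g • v)
    (H : Subgroup G) [hH : H.Normal] (g : G) (v : V) (hv : v ∈ gt92c_aug k H) :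
    g • v ∈ gt92c_aug k H := by
  unfold gt92c_aug at hv ⊢
  induction hv using Submodule.span_induction with
  | mem w hw =>
    obtain ⟨h, hh, u, rfl⟩ := hw
    apply Submodule.subset_span
    refine ⟨g * h * g⁻¹, hH.conj_mem h hh g, g • u, ?_⟩
    rw [smul_sub, ← mul_smul, ← mul_smul]
    congr 2
    group
  | zero => rw [smul_zero]; exact Submodule.zero_mem _
  | add x y _ _ hx hy => rw [smul_add]; exact Submodule.add_mem _ hx hy
  | smul a x _ hx => rw [hlin]; exact Submodule.smul_mem _ a hx

theorem gt92c_trivial_of_aug_eq_bot (H : Subgroup G) (hbot : gt92c_aug k (V := V) H = ⊥) :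
    ∀ h ∈ H, ∀ v : V, h • v = v := by
  intro h hh v
  have : h • v - v ∈ gt92c_aug k H := Submodule.subset_span ⟨h, hh, v, rfl⟩
  rw [hbot, Submodule.mem_bot] at this
  exact sub_eq_zero.mp this

/-- **`H` acts trivially.** -/
theorem gt92c_trivial_of_irreducible [FiniteDimensional k V]
    (hlin : ∀ (g : G) (a : k) (v : V), g • a • v = a • g • v)
    (hV : finrank k V ≤ 2)
    (hirr : ∀ N : Submodule k V, (∀ g : G, ∀ v ∈ N, g • v ∈ N) → N = ⊥ ∨ N = ⊤)
    (H : Subgroup G) [hH : H.Normal]
    (hfix : ∀ h ∈ H, ∃ v : V, v ≠ 0 ∧ h • v = v) :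
    ∀ h ∈ H, ∀ v : V, h • v = v := by
  rcases hirr (gt92c_aug k H) (gt92c_aug_stable hlin H) with hbot | htop
  · exact gt92c_trivial_of_aug_eq_bot H hbot
  rcases hirr (gt92c_inv hlin H) (gt92c_inv_stable hlin H) with hibot | hitop
  · -- invariants are zero and the augmentation submodule is everything: impossible
    exfalso
    have h2 : finrank k V = 0 ∨ finrank k V = 1 ∨ finrank k V = 2 := by omega
    rcases h2 with h0 | h1 | h2
    · -- `V = 0`
      have hsub : Subsingleton V := Module.finrank_zero_iff.mp h0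
      -- then any `h ∈ H` (e.g. `1`) would have a nonzero fixed vector
      obtain ⟨v, hv, -⟩ := hfix 1 H.one_mem
      exact hv (Subsingleton.elim v 0)
    · -- `dim V = 1`: the fixed vector of `h` spans, so `h` is trivial; then `aug = ⊥`
      have htriv : ∀ h ∈ H, ∀ w : V, h • w = w := by
        intro h hh w
        obtain ⟨v, hv0, hv⟩ := hfix h hh
        obtain ⟨c, rfl⟩ := (finrank_eq_one_iff_of_nonzero' v hv0).mp h1 w
        rw [hlin, hv]
      have hv : ∃ v : V, v ≠ 0 := by
        obtain ⟨v, hv0, -⟩ := hfix 1 H.one_mem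
        exact ⟨v, hv0⟩
      obtain ⟨v, hv0⟩ := hv
      have hmem : v ∈ gt92c_inv hlin H := fun h hh => htriv h hh v
      rw [hibot, Submodule.mem_bot] at hmem
      exact hv0 hmem
    · have hd := gt92_dichotomy h2 (Set.range fun h : H => gt92_lin hlin (h : G)) (by
          rintro _ ⟨a, rfl⟩ _ ⟨b, rfl⟩
          refine ⟨a * b, ?_⟩
          ext v
          simp [mul_smul]) (by
          rintro _ ⟨a, rfl⟩
          exact hfix a a.2)
      rcases hd with ⟨v, hv0, hv⟩ | ⟨φ, hφ0, hφ⟩
      · have hmem : v ∈ gt92c_inv hlin H := fun h hh => hv _ ⟨⟨h, hh⟩, rfl⟩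
        rw [hibot, Submodule.mem_bot] at hmem
        exact hv0 hmem
      · apply hφ0
        have hle : gt92c_aug k H ≤ LinearMap.ker φ := by
          apply Submodule.span_le.mpr
          rintro w ⟨h, hh, v, rfl⟩
          have := hφ _ ⟨⟨h, hh⟩, rfl⟩ v
          simp only [gt92_lin_apply] at this
          simp [this]
        rw [htop, top_le_iff, LinearMap.ker_eq_top] at hle
        exact hle
  · intro h hh v
    have hmem : v ∈ gt92c_inv hlin H := by rw [hitop]; exact Submodule.mem_top
    exact hmem h hh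

/-- **Corner.** If `H` acts trivially, contains all commutators, and `τ * τ ∈ H`, then an
irreducible action forces `τ = 1` or `τ = -1` on `V`. -/
theorem gt92c_corner_of_trivial
    (hlin : ∀ (g : G) (a : k) (v : V), g • a • v = a • g • v)
    (hirr : ∀ N : Submodule k V, (∀ g : G, ∀ v ∈ N, g • v ∈ N) → N = ⊥ ∨ N = ⊤)
    (H : Subgroup G) (hab : ∀ g g' : G, g * g' * g⁻¹ * g'⁻¹ ∈ H)
    (htriv : ∀ h ∈ H, ∀ v : V, h • v = v)
    (τ : G) (hτ : τ * τ ∈ H) :
    (∀ v : V, τ • v = v) ∨ (∀ v : V, τ • v = -v) := by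
  have hcomm : ∀ g g' : G, ∀ v : V, g • g' • v = g' • g • v := by
    intro g g' v
    have h := htriv _ (hab g g') (g' • g • v)
    rw [← h, ← mul_smul, ← mul_smul, ← mul_smul]
    congr 1
    group
  have hττ : ∀ v : V, τ • τ • v = v := fun v => by rw [← mul_smul]; exact htriv _ hτ v
  let N : Submodule k V :=
    { carrier := {v | τ • v = v}
      add_mem' := fun {a b} ha hb => by
        show τ • (a + b) = a + b
        rw [smul_add, ha, hb]
      zero_mem' := smul_zero τ
      smul_mem' := fun a v hv => by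
        show τ • a • v = a • v
        rw [hlin, hv] }
  have hN : ∀ g : G, ∀ v ∈ N, g • v ∈ N := by
    intro g v hv
    show τ • g • v = g • v
    rw [hcomm τ g v, hv]
  rcases hirr N hN with hbot | htop
  · right
    intro v
    have hmem : v + τ • v ∈ N := by
      show τ • (v + τ • v) = v + τ • v
      rw [smul_add, hττ, add_comm]
    rw [hbot, Submodule.mem_bot] at hmem
    rw [eq_neg_iff_add_eq_zero, add_comm]
    exact hmem
  · left
    intro v
    have hmem : v ∈ N := by rw [htop]; exact Submodule.mem_top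
    exact hmem

theorem gt92c_corner [FiniteDimensional k V]
    (hlin : ∀ (g : G) (a : k) (v : V), g • a • v = a • g • v)
    (hV : finrank k V ≤ 2)
    (hirr : ∀ N : Submodule k V, (∀ g : G, ∀ v ∈ N, g • v ∈ N) → N = ⊥ ∨ N = ⊤)
    (H : Subgroup G) [hH : H.Normal] (hab : ∀ g g' : G, g * g' * g⁻¹ * g'⁻¹ ∈ H)
    (hfix : ∀ h ∈ H, ∃ v : V, v ≠ 0 ∧ h • v = v)
    (τ : G) (hτ : τ * τ ∈ H) :
    (∀ v : V, τ • v = v) ∨ (∀ v : V, τ • v = -v) :=
  gt92c_corner_of_trivial hlin hirr H hab
    (gt92c_trivial_of_irreducible hlin hV hirr H hfix) τ hτ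

end

end Fermat.Agent.S41
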