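/-
S41 / M5 bridging lemmas (generic): the subgroup fixing the m-th roots of unity, roots of unity
modulo a valuation subring, from a Frobenius congruence on the ring of integers of a number field
to a valuation subring of an overfield, and the congruence form of the prelude Frobenius.
-/
import Mathlib
import Fermat.Prelude.Def_FLTPrelim_Ramification
import Fermat.Prelude.Def_EllipticCurve_FrobeniusTrace
import Fermat.Agent.S18.Descent68

set_option autoImplicit false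

namespace Fermat.Agent.S41

section RootsOfUnity

variable {K L : Type*} [Field K] [Field L] [Algebra K L]

/-- the subgroup of automorphisms fixing all `m`-th roots of unity -/
def nb92_H (K L : Type*) [Field K] [Field L] [Algebra K L] (m : ℕ) : Subgroup (L ≃ₐ[K] L) where
  carrier := {σ | ∀ ζ : L, ζ ^ m = 1 → σ ζ = ζ}
  mul_mem' := fun {a b} ha hb ζ hζ => by rw [AlgEquiv.mul_apply, hb ζ hζ, ha ζ hζ]
  one_mem' := fun ζ _ => rfl
  inv_mem' := fun {a} ha ζ hζ => by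
    have h := ha ζ hζ
    calc a⁻¹ ζ = a⁻¹ (a ζ) := by rw [h]
      _ = ζ := a.symm_apply_apply ζ

theorem nb92_mem_H (m : ℕ) (σ : L ≃ₐ[K] L) :
    σ ∈ nb92_H K L m ↔ ∀ ζ : L, ζ ^ m = 1 → σ ζ = ζ := Iff.rfl

instance nb92_H_normal (m : ℕ) : (nb92_H K L m).Normal where
  conj_mem := by
    intro σ hσ g ζ hζ
    have h1 : (g⁻¹ ζ) ^ m = 1 := by rw [← map_pow, hζ, map_one]
    have h2 := hσ _ h1
    show g (σ (g⁻¹ ζ)) = ζ
    rw [h2]
    exact g.apply_symm_apply ζ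

theorem nb92_commutator_mem {m : ℕ} [NeZero m] {ζ₀ : L} (hζ₀ : IsPrimitiveRoot ζ₀ m)
    (g g' : L ≃ₐ[K] L) : g * g' * g⁻¹ * g'⁻¹ ∈ nb92_H K L m := by
  -- any two automorphisms commute on roots of unity
  have hcomm : ∀ a b : L ≃ₐ[K] L, ∀ ζ : L, ζ ^ m = 1 → a (b ζ) = b (a ζ) := by
    intro a b ζ hζ
    obtain ⟨i, -, rfl⟩ := hζ₀.eq_pow_of_pow_eq_one hζ
    obtain ⟨ia, -, ha⟩ := hζ₀.eq_pow_of_pow_eq_one (ξ := a ζ₀) (by rw [← map_pow, hζ₀.pow_eq_one, map_one])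
    obtain ⟨ib, -, hb⟩ := hζ₀.eq_pow_of_pow_eq_one (ξ := b ζ₀) (by rw [← map_pow, hζ₀.pow_eq_one, map_one])
    simp only [map_pow]
    rw [← hb, ← ha, map_pow, map_pow, ← ha, ← hb]
    ring
  intro ζ hζ
  have h1 : (g'⁻¹ ζ) ^ m = 1 := by rw [← map_pow, hζ, map_one]
  have h2 : (g⁻¹ (g'⁻¹ ζ)) ^ m = 1 := by rw [← map_pow, h1, map_one]
  show g (g' (g⁻¹ (g'⁻¹ ζ))) = ζ
  rw [hcomm g g' _ h2]
  have h3 : g (g⁻¹ (g'⁻¹ ζ)) = g'⁻¹ ζ := g.apply_symm_apply _
  rw [h3]
  exact g'.apply_symm_apply ζ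

/-- roots of unity lie in every valuation subring -/
theorem nb92_root_mem (A : ValuationSubring L) {m : ℕ} (hm : m ≠ 0) {ζ : L} (hζ : ζ ^ m = 1) :
    ζ ∈ A := by
  rcases A.mem_or_inv_mem ζ with h | h
  · exact h
  · have hζ0 : ζ ≠ 0 := by
      rintro rfl
      rw [zero_pow hm] at hζ
      exact zero_ne_one hζ
    have h1 : ζ * ζ ^ (m - 1) = 1 := by
      rw [← pow_succ', Nat.sub_add_cancel (Nat.pos_of_ne_zero hm), hζ]
    have h2 : ζ⁻¹ ^ (m - 1) * ζ ^ (m - 1) = 1 := by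
      rw [← mul_pow, inv_mul_cancel₀ hζ0, one_pow]
    have h3 : ζ = ζ⁻¹ ^ (m - 1) :=
      mul_right_cancel₀ (pow_ne_zero (m - 1) hζ0) (h1.trans h2.symm)
    rw [h3]
    exact pow_mem h _

/-- distinct roots of unity stay distinct modulo the maximal ideal of a valuation subring of
residue characteristic prime to `m` -/
theorem nb92_pow_eq_of_sub_mem (A : ValuationSubring L) {m : ℕ} [NeZero m] {ζ : L}
    (hζ : IsPrimitiveRoot ζ m) {ℓ : ℕ} (hℓA : (ℓ : L) ∈ A.nonunits) (hcop : Nat.Coprime ℓ m)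
    {ξ₁ ξ₂ : L} (h₁ : ξ₁ ^ m = 1) (h₂ : ξ₂ ^ m = 1) (hsub : ξ₁ - ξ₂ ∈ A.nonunits) : ξ₁ = ξ₂ := by
  by_contra hne
  have hm : m ≠ 0 := NeZero.ne m
  have hξ₂0 : ξ₂ ≠ 0 := by
    rintro rfl
    rw [zero_pow hm] at h₂
    exact zero_ne_one h₂
  set ξ := ξ₁ * ξ₂⁻¹ with hξ
  have hξm : ξ ^ m = 1 := by rw [hξ, mul_pow, inv_pow, h₁, h₂, inv_one, mul_one]
  have hξ1 : ξ ≠ 1 := by
    intro h
    apply hne
    rw [hξ] at h
    field_simp at h
    exact h
  obtain ⟨i, hi, hiξ⟩ := hζ.eq_pow_of_pow_eq_one hξm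
  have hi0 : i ≠ 0 := by
    rintro rfl
    rw [pow_zero] at hiξ
    exact hξ1 hiξ.symm
  have hv₂ : A.valuation ξ₂ = 1 := by
    have ha : A.valuation ξ₂ ≤ 1 := (A.valuation_le_one_iff _).mpr (nb92_root_mem A hm h₂)
    have hb : A.valuation ξ₂⁻¹ ≤ 1 :=
      (A.valuation_le_one_iff _).mpr (nb92_root_mem A hm (by rw [inv_pow, h₂, inv_one]))
    rw [map_inv₀] at hb
    have h0 : A.valuation ξ₂ ≠ 0 := (Valuation.ne_zero_iff _).mpr hξ₂0
    exact le_antisymm ha ((inv_le_one₀ (zero_lt_iff.mpr h0)).mp hb)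
  have hv1 : A.valuation (1 - ξ) < 1 := by
    have e : ξ₁ - ξ₂ = -(ξ₂ * (1 - ξ)) := by
      rw [hξ]
      field_simp
      ring
    have h : A.valuation (ξ₁ - ξ₂) < 1 := hsub
    rw [e, Valuation.map_neg, map_mul, hv₂, one_mul] at h
    exact h
  obtain ⟨n, rfl⟩ : ∃ n, m = n + 1 := ⟨m - 1, by omega⟩
  have hprod := hζ.prod_one_sub_pow_eq_order
  have hvm : A.valuation ((n + 1 : ℕ) : L) < 1 := by
    have hmem : i - 1 ∈ Finset.range n := by
      rw [Finset.mem_range]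
      omega
    have e : i - 1 + 1 = i := by omega
    have hcast : ((n + 1 : ℕ) : L) = (n : L) + 1 := by push_cast; ring
    rw [hcast, ← hprod, ← Finset.mul_prod_erase _ _ hmem, map_mul, e, hiξ]
    have hrest : A.valuation (∏ x ∈ (Finset.range n).erase (i - 1), (1 - ζ ^ (x + 1))) ≤ 1 := by
      rw [A.valuation_le_one_iff]
      exact prod_mem fun k _ => sub_mem A.one_mem (pow_mem (nb92_root_mem A hm hζ.pow_eq_one) _)
    calc A.valuation (1 - ξ) * A.valuation (∏ x ∈ (Finset.range n).erase (i - 1), (1 - ζ ^ (x + 1)))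
        ≤ A.valuation (1 - ξ) * 1 := by gcongr
      _ < 1 := by rw [mul_one]; exact hv1
  have hℓ : A.valuation (ℓ : L) < 1 := hℓA
  have hcop' : IsCoprime (ℓ : ℤ) ((n + 1 : ℕ) : ℤ) := Nat.isCoprime_iff_coprime.mpr hcop
  obtain ⟨a, b, hab⟩ := hcop'
  have hint : ∀ c : ℤ, A.valuation (c : L) ≤ 1 := fun c =>
    (A.valuation_le_one_iff _).mpr (intCast_mem A c)
  have h1 : A.valuation (1 : L) < 1 := by
    have e : (1 : L) = (a : L) * (ℓ : L) + (b : L) * ((n + 1 : ℕ) : L) := by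
      have := congrArg (fun z : ℤ => (z : L)) hab
      simp only [Int.cast_add, Int.cast_mul, Int.cast_natCast, Int.cast_one] at this
      exact this.symm
    rw [e]
    apply Valuation.map_add_lt
    · rw [map_mul]
      calc A.valuation (a : L) * A.valuation (ℓ : L) ≤ 1 * A.valuation (ℓ : L) := by
            gcongr
            exact hint a
        _ < 1 := by rw [one_mul]; exact hℓ
    · rw [map_mul]
      calc A.valuation (b : L) * A.valuation ((n + 1 : ℕ) : L)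
          ≤ 1 * A.valuation ((n + 1 : ℕ) : L) := by
            gcongr
            exact hint b
        _ < 1 := by rw [one_mul]; exact hvm
  rw [map_one] at h1
  exact lt_irrefl _ h1

end RootsOfUnity

section Bridge

open NumberField IsDedekindDomain

/-- **Bridge.** A prime `P` of a number field `K` and an automorphism `τ'` of `K` with the
Frobenius congruence on `𝓞 K` give a valuation subring `A` of any extension `L` of `K`, lying over
`ℓ`, such that `τ'` satisfies the Frobenius congruence on all of `A ∩ K`. -/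
theorem nb92_bridge {K : Type*} [Field K] [NumberField K] {L : Type*} [Field L] [Algebra K L]
    {ℓ : ℕ} (hℓ : ℓ ≠ 0) (P : Ideal (𝓞 K)) [hP : P.IsPrime] (hℓP : (ℓ : 𝓞 K) ∈ P)
    (τ' : K ≃ₐ[ℚ] K)
    (hτ' : ∀ x : 𝓞 K, ∃ y ∈ P, τ' (algebraMap (𝓞 K) K x) - (algebraMap (𝓞 K) K x) ^ ℓ =
      algebraMap (𝓞 K) K y) :
    ∃ A : ValuationSubring L, (ℓ : L) ∈ A.nonunits ∧
      (∀ x : 𝓞 K, algebraMap K L (algebraMap (𝓞 K) K x) ∈ A) ∧
      (∀ x : 𝓞 K, x ∈ P → algebraMap K L (algebraMap (𝓞 K) K x) ∈ A.nonunits) ∧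
      (∀ x : K, algebraMap K L x ∈ A → algebraMap K L (τ' x - x ^ ℓ) ∈ A.nonunits) := by
  have hP0 : P ≠ ⊥ := by
    intro h
    rw [h, Ideal.mem_bot] at hℓP
    exact hℓ (by exact_mod_cast hℓP)
  let v : HeightOneSpectrum (𝓞 K) := ⟨P, hP, hP0⟩
  obtain ⟨A, hA⟩ := Fermat.Agent.S18.ds68_exists_comap_eq (algebraMap K L) (v.valuation K).valuationSubring
  have hmem : ∀ x : K, algebraMap K L x ∈ A ↔ v.valuation K x ≤ 1 := fun x => by
    rw [← ValuationSubring.mem_comap, hA, Valuation.mem_valuationSubring_iff]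
  have hnon : ∀ x : K, v.valuation K x < 1 → algebraMap K L x ∈ A.nonunits := by
    intro x hx
    show A.valuation (algebraMap K L x) < 1
    by_cases hx0 : x = 0
    · subst hx0
      simp
    · by_contra hge
      rw [not_lt] at hge
      have h1 : A.valuation (algebraMap K L x)⁻¹ ≤ 1 := by
        rw [map_inv₀]
        exact inv_le_one_of_one_le₀ hge
      rw [A.valuation_le_one_iff, ← map_inv₀, hmem, map_inv₀] at h1
      have h0 : v.valuation K x ≠ 0 := (Valuation.ne_zero_iff _).mpr hx0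
      exact absurd ((inv_le_one₀ (zero_lt_iff.mpr h0)).mp h1) (not_le.mpr hx)
  have hvP : ∀ r : 𝓞 K, r ∈ P → v.valuation K (algebraMap (𝓞 K) K r) < 1 := fun r hr =>
    (v.valuation_lt_one_iff_mem r).mpr hr
  have hvnP : ∀ r : 𝓞 K, r ∉ P → v.valuation K (algebraMap (𝓞 K) K r) = 1 := fun r hr =>
    v.valuation_eq_one_iff_notMem.mpr hr
  refine ⟨A, ?_, ?_, ?_, ?_⟩
  · have e : (ℓ : L) = algebraMap K L (algebraMap (𝓞 K) K (ℓ : 𝓞 K)) := by simp
    rw [e]
    exact hnon _ (hvP _ hℓP)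
  · intro x
    rw [hmem]
    exact v.valuation_le_one x
  · intro x hx
    exact hnon _ (hvP x hx)
  · intro x hx
    apply hnon
    rw [hmem] at hx
    obtain ⟨n, d, hnd⟩ := v.exists_primeCompl_mul_eq_of_integer x hx
    obtain ⟨yd, hyd, hd⟩ := hτ' d
    obtain ⟨yn, hyn, hn⟩ := hτ' n
    have hdP : (d : 𝓞 K) ∉ P := d.2
    have hdℓ : (d : 𝓞 K) ^ ℓ ∉ P := fun h => hdP (hP.mem_of_pow_mem ℓ h)
    have hd' : (d : 𝓞 K) ^ ℓ + yd ∉ P := fun h => hdℓ (by
      have := P.sub_mem h hyd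
      simpa using this)
    have hτd : τ' (algebraMap (𝓞 K) K d) = algebraMap (𝓞 K) K ((d : 𝓞 K) ^ ℓ + yd) := by
      rw [map_add, map_pow, ← hd]; ring
    have hτn : τ' (algebraMap (𝓞 K) K n) = algebraMap (𝓞 K) K (n ^ ℓ + yn) := by
      rw [map_add, map_pow, ← hn]; ring
    have hτx : τ' x * τ' (algebraMap (𝓞 K) K d) = τ' (algebraMap (𝓞 K) K n) := by
      rw [← map_mul, hnd]
    have key : (τ' x - x ^ ℓ) * algebraMap (𝓞 K) K ((d : 𝓞 K) ^ ℓ + yd) *
        algebraMap (𝓞 K) K ((d : 𝓞 K) ^ ℓ) =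
        algebraMap (𝓞 K) K (yn * (d : 𝓞 K) ^ ℓ - n ^ ℓ * yd) := by
      rw [hτd, hτn] at hτx
      have hnd' : x ^ ℓ * (algebraMap (𝓞 K) K d) ^ ℓ = (algebraMap (𝓞 K) K n) ^ ℓ := by
        rw [← mul_pow, hnd]
      simp only [map_add, map_pow, map_sub, map_mul] at hτx ⊢
      linear_combination (algebraMap (𝓞 K) K d) ^ ℓ * hτx -
        ((algebraMap (𝓞 K) K d) ^ ℓ + algebraMap (𝓞 K) K yd) * hnd'
    have hlt : v.valuation K (algebraMap (𝓞 K) K (yn * (d : 𝓞 K) ^ ℓ - n ^ ℓ * yd)) < 1 :=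
      hvP _ (P.sub_mem (P.mul_mem_right _ hyn) (P.mul_mem_left _ hyd))
    rw [← key, map_mul, map_mul, hvnP _ hd', hvnP _ hdℓ, mul_one, mul_one] at hlt
    exact hlt

end Bridge

section Frob

variable {K L : Type*} [Field K] [Field L] [Algebra K L]

/-- a Frobenius element in the prelude's sense satisfies the Frobenius congruence -/
theorem nb92_congr_of_isFrobeniusAt (A : ValuationSubring L) (σ : L ≃ₐ[K] L) (q : ℕ)
    (h : A.IsFrobeniusAt σ q) (x : L) (hx : x ∈ A) : σ x - x ^ q ∈ A.nonunits := by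
  have h1 := h.smul_residue_eq (IsLocalRing.residue A ⟨x, hx⟩)
  rw [← IsLocalRing.ResidueField.residue_smul, ← map_pow, ← sub_eq_zero, ← map_sub,
    IsLocalRing.residue_eq_zero_iff] at h1
  rw [ValuationSubring.mem_nonunits_iff_exists_mem_maximalIdeal]
  exact ⟨_, h1⟩

end Frob

end Fermat.Agent.S41
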