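/-
S41 / M5.NE (helper92): assembly of the non-Eisenstein prime statement.

`ne92_core` (twist-count corner) and `ne92_core_conj` (complex-conjugation corner) reduce
"there is a prime l = 1 mod m outside S, good for the model W, with p not dividing
l + 1 - a_l(W)" to: irreducibility of E[p], a cardinality bound for E[p], the finite-level
Frobenius existence statement (hF1), the reduction link (hF3), and one corner hypothesis.
-/
import Mathlib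
import Fermat.Prelude.Def_FLTPrelim_GaloisRep
import Fermat.Prelude.Def_FLTPrelim_Modularity
import Fermat.Prelude.Def_FLTPrelim_Ramification
import Fermat.Prelude.Def_EllipticCurve_FrobeniusTrace
import Fermat.Agent.S41.Corner92
import Fermat.Agent.S41.FrobBridge92
import Fermat.Agent.S54.Helper96Frob

set_option autoImplicit false

open WeierstrassCurve WeierstrassCurve.Affine WeierstrassCurve.Affine.Point

namespace Fermat.Agent.S41

local notation "Qb" => AlgebraicClosure ℚ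
local notation "GQ" => (AlgebraicClosure ℚ ≃ₐ[ℚ] AlgebraicClosure ℚ)

attribute [local instance] Fermat.Agent.S54.h96_isAlgClosure_rat

theorem ne92_isAlgebraic : Algebra.IsAlgebraic ℚ Qb := IsAlgClosure.isAlgebraic

attribute [local instance] ne92_isAlgebraic

theorem ne92_normal : Normal ℚ Qb := IsAlgClosure.normal ℚ Qb

attribute [local instance] ne92_normal

theorem ne92_isGalois : IsGalois ℚ Qb := inferInstance

attribute [local instance] ne92_isGalois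

section Field

/-- the coordinates of a point -/
def ne92_coords {F : Type*} [Field F] {W' : Affine F} : W'.Point → Set F
  | .zero => ∅
  | .some x y _ => {x, y}

theorem ne92_coords_finite {F : Type*} [Field F] {W' : Affine F} (P : W'.Point) :
    (ne92_coords P).Finite := by
  cases P with
  | zero => exact Set.finite_empty
  | some x y h => exact Set.toFinite {x, y}

variable (E : WeierstrassCurve ℚ) (p : ℕ)

/-- the set of coordinates of the `p`-torsion points, together with one more element -/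
def ne92_gens (ζ₀ : Qb) : Set Qb :=
  (⋃ P : Submodule.torsionBy ℤ (E⁄Qb).Point p, ne92_coords (P : (E⁄Qb).Point)) ∪ {ζ₀}

theorem ne92_gens_finite [Finite (Submodule.torsionBy ℤ (E⁄Qb).Point p)] (ζ₀ : Qb) :
    (ne92_gens E p ζ₀).Finite :=
  (Set.finite_iUnion fun _ => ne92_coords_finite _).union (Set.finite_singleton ζ₀)

/-- the field generated by the coordinates of the `p`-torsion and `ζ₀` -/
noncomputable def ne92_K0 (ζ₀ : Qb) : IntermediateField ℚ Qb :=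
  IntermediateField.adjoin ℚ (ne92_gens E p ζ₀)

/-- its normal closure (taken with the intermediate-field algebra structure on `K0`) -/
noncomputable def ne92_K (ζ₀ : Qb) : IntermediateField ℚ Qb :=
  @IntermediateField.normalClosure ℚ (ne92_K0 E p ζ₀) Qb _ _ _
    (IntermediateField.algebra' (ne92_K0 E p ζ₀)) _

theorem ne92_K_finiteDimensional [Finite (Submodule.torsionBy ℤ (E⁄Qb).Point p)] (ζ₀ : Qb) :
    FiniteDimensional ℚ (ne92_K E p ζ₀) := by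
  have hfin : Finite (ne92_gens E p ζ₀) := (ne92_gens_finite E p ζ₀).to_subtype
  have h0 : @FiniteDimensional ℚ (ne92_K0 E p ζ₀) _ _
      (IntermediateField.algebra' (ne92_K0 E p ζ₀)).toModule :=
    IntermediateField.finiteDimensional_adjoin fun x _ =>
      (Algebra.IsAlgebraic.isAlgebraic x).isIntegral
  have h : @FiniteDimensional ℚ (ne92_K E p ζ₀) _ _
      (IntermediateField.algebra' (ne92_K E p ζ₀)).toModule := by
    unfold ne92_K
    exact @normalClosure.is_finiteDimensional ℚ (ne92_K0 E p ζ₀) Qb _ _ _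
      (IntermediateField.algebra' (ne92_K0 E p ζ₀)) _ h0
  convert h

theorem ne92_K_normal (ζ₀ : Qb) : Normal ℚ (ne92_K E p ζ₀) := by
  have h : @Normal ℚ (ne92_K E p ζ₀) _ _ (IntermediateField.algebra' (ne92_K E p ζ₀)) := by
    unfold ne92_K
    exact @normalClosure.normal ℚ (ne92_K0 E p ζ₀) Qb _ _ _
      (IntermediateField.algebra' (ne92_K0 E p ζ₀)) _ _
  convert h
  exact Subsingleton.elim _ _

theorem ne92_K0_le_K (ζ₀ : Qb) : ne92_K0 E p ζ₀ ≤ ne92_K E p ζ₀ :=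
  IntermediateField.le_normalClosure _

theorem ne92_mem_K_of_mem_gens (ζ₀ : Qb) {x : Qb} (hx : x ∈ ne92_gens E p ζ₀) :
    x ∈ ne92_K E p ζ₀ :=
  ne92_K0_le_K E p ζ₀ (IntermediateField.subset_adjoin ℚ _ hx)

theorem ne92_zeta_mem_K (ζ₀ : Qb) : ζ₀ ∈ ne92_K E p ζ₀ :=
  ne92_mem_K_of_mem_gens E p ζ₀ (Or.inr rfl)

/-- an automorphism fixing `K` pointwise fixes every `p`-torsion point -/
theorem ne92_smul_eq_of_fix (ζ₀ : Qb) (g : GQ) (hg : ∀ x ∈ ne92_K E p ζ₀, g x = x)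
    (P : Submodule.torsionBy ℤ (E⁄Qb).Point p) : g • P = P := by
  apply Subtype.ext
  show g • (P : (E⁄Qb).Point) = (P : (E⁄Qb).Point)
  have hc : ∀ x ∈ ne92_coords (P : (E⁄Qb).Point), g x = x := fun x hx =>
    hg x (ne92_mem_K_of_mem_gens E p ζ₀ (Or.inl (Set.mem_iUnion.mpr ⟨P, hx⟩)))
  revert hc
  generalize (P : (E⁄Qb).Point) = Q
  intro hc
  cases Q with
  | zero => rfl
  | some x y h =>
    have hx : g x = x := hc x (by simp [ne92_coords])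
    have hy : g y = y := hc y (by simp [ne92_coords])
    rw [algEquiv_smul_def, Point.map_some]
    rw [Point.some.injEq]
    exact ⟨hx, hy⟩

end Field

section Assembly

open NumberField

variable (E : WeierstrassCurve ℚ) (p : ℕ)

/-- the Frobenius congruence for `τ` at `A`, on the field of definition of the `p`-torsion -/
def ne92_FrobOn (A : ValuationSubring Qb) (τ : GQ) (ℓ : ℕ) : Prop :=
  ∀ x ∈ A, (∀ g : GQ, (∀ P : Submodule.torsionBy ℤ (E⁄Qb).Point p, g • P = P) → g x = x) →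
    τ x - x ^ ℓ ∈ A.nonunits

/-- **Frobenius step.** From the finite-level Frobenius existence theorem: for `σ` fixing the
`m`-th roots of unity there are a prime `ℓ ≡ 1 mod m` outside a given finite set, a valuation
subring `A` of `ℚ̄` over `ℓ` and `τ` satisfying the Frobenius congruence at `A` on the field of
definition of `E[p]`, such that `σ` fixes every `p`-torsion point fixed by `τ`. -/
theorem ne92_exists_frob_data [Finite (Submodule.torsionBy ℤ (E⁄Qb).Point p)]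
    (m : ℕ) [NeZero m] (ζ₀ : Qb) (hζ₀ : IsPrimitiveRoot ζ₀ m)
    (hF1 : ∀ (K : Type) [Field K] [NumberField K] [IsGalois ℚ K] (σ : K ≃ₐ[ℚ] K) (S : Finset ℕ),
      ∃ (ℓ : ℕ) (P : Ideal (𝓞 K)) (τ : K ≃ₐ[ℚ] K), ℓ.Prime ∧ ℓ ∉ S ∧ P.IsPrime ∧
        (ℓ : 𝓞 K) ∈ P ∧ Subgroup.zpowers τ = Subgroup.zpowers σ ∧
        ∀ x : 𝓞 K, ∃ y ∈ P, τ (algebraMap (𝓞 K) K x) - (algebraMap (𝓞 K) K x) ^ ℓ =
          algebraMap (𝓞 K) K y)
    (σ : GQ) (hσ : σ ∈ nb92_H ℚ Qb m) (S : Finset ℕ) (hS : ∀ q ∈ m.primeFactors, q ∈ S) :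
    ∃ (ℓ : ℕ) (A : ValuationSubring Qb) (τ : GQ), ℓ.Prime ∧ ℓ ∉ S ∧ A.LiesOverPrime ℓ ∧
      ne92_FrobOn E p A τ ℓ ∧ ℓ ≡ 1 [MOD m] ∧
      ∀ P : Submodule.torsionBy ℤ (E⁄Qb).Point p, τ • P = P → σ • P = P := by
  classical
  set K := ne92_K E p ζ₀ with hK
  have : FiniteDimensional ℚ K := ne92_K_finiteDimensional E p ζ₀
  have : Normal ℚ K := ne92_K_normal E p ζ₀
  have : NumberField K := { to_charZero := inferInstance, to_finiteDimensional := inferInstance }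
  have : IsGalois ℚ K := { }
  set σK : K ≃ₐ[ℚ] K := AlgEquiv.restrictNormalHom K σ with hσK
  obtain ⟨ℓ, P, τ', hℓ, hℓS, hP, hℓP, hz, hfrob⟩ := hF1 K σK S
  have := hP
  obtain ⟨A, hA1, -, -, hA4⟩ := nb92_bridge (L := Qb) hℓ.ne_zero P hℓP τ' hfrob
  set τ : GQ := τ'.liftNormal Qb with hτ
  have hτK : ∀ x : K, τ (algebraMap K Qb x) = algebraMap K Qb (τ' x) :=
    τ'.liftNormal_commutes Qb
  have hresτ : AlgEquiv.restrictNormalHom K τ = τ' := τ'.restrict_liftNormal Qb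
  have hζK : ζ₀ ∈ K := ne92_zeta_mem_K E p ζ₀
  have hcop : Nat.Coprime ℓ m := by
    rw [Nat.Prime.coprime_iff_not_dvd hℓ]
    intro hdvd
    exact hℓS (hS ℓ (Nat.mem_primeFactors.mpr ⟨hℓ, hdvd, NeZero.ne m⟩))
  refine ⟨ℓ, A, τ, hℓ, hℓS, hA1, ?_, ?_, ?_⟩
  · intro x hxA hxfix
    have hxK : x ∈ K := by
      rw [← InfiniteGalois.fixedField_fixingSubgroup K, IntermediateField.mem_fixedField_iff]
      intro g hg
      exact hxfix g (fun P => ne92_smul_eq_of_fix E p ζ₀ g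
        ((IntermediateField.mem_fixingSubgroup_iff K g).mp hg) P)
    have h := hA4 ⟨x, hxK⟩ hxA
    rw [map_sub, map_pow, ← hτK] at h
    exact h
  · have hσζ : σK ⟨ζ₀, hζK⟩ = ⟨ζ₀, hζK⟩ := by
      apply Subtype.ext
      have h := AlgEquiv.restrictNormal_commutes σ K ⟨ζ₀, hζK⟩
      exact h.trans (hσ ζ₀ hζ₀.pow_eq_one)
    have hτ'ζ : τ' ⟨ζ₀, hζK⟩ = ⟨ζ₀, hζK⟩ := by
      have hmem : τ' ∈ Subgroup.zpowers σK := by
        rw [← hz]
        exact Subgroup.mem_zpowers τ'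
      have hstab : σK ∈ MulAction.stabilizer (K ≃ₐ[ℚ] K) (⟨ζ₀, hζK⟩ : K) := hσζ
      have h2 : Subgroup.zpowers σK ≤ MulAction.stabilizer (K ≃ₐ[ℚ] K) (⟨ζ₀, hζK⟩ : K) :=
        (Subgroup.zpowers_le).mpr hstab
      exact h2 hmem
    have hsub : ζ₀ ^ 1 - ζ₀ ^ ℓ ∈ A.nonunits := by
      have h := hA4 ⟨ζ₀, hζK⟩ (nb92_root_mem A (NeZero.ne m) hζ₀.pow_eq_one)
      rw [hτ'ζ] at h
      simpa using h
    have heq := nb92_pow_eq_of_sub_mem A hζ₀ hA1 hcop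
      (by rw [pow_one]; exact hζ₀.pow_eq_one)
      (by rw [← pow_mul, mul_comm, pow_mul, hζ₀.pow_eq_one, one_pow]) hsub
    have hζ0 : ζ₀ ≠ 0 := hζ₀.ne_zero (NeZero.ne m)
    have h1 : ζ₀ ^ (ℓ - 1) = 1 := by
      have h2 : ζ₀ ^ (ℓ - 1) * ζ₀ = 1 * ζ₀ := by
        rw [← pow_succ, Nat.sub_add_cancel hℓ.one_le, one_mul, ← heq, pow_one]
      exact mul_right_cancel₀ hζ0 h2
    have h3 : m ∣ ℓ - 1 := (hζ₀.pow_eq_one_iff_dvd _).mp h1
    exact ((Nat.modEq_iff_dvd' hℓ.one_le).mpr h3).symm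
  · intro P0 hτP0
    have hmem : σK ∈ Subgroup.zpowers τ' := by
      rw [hz]
      exact Subgroup.mem_zpowers σK
    obtain ⟨n, hn⟩ := Subgroup.mem_zpowers_iff.mp hmem
    set g : GQ := (τ ^ n)⁻¹ * σ with hg
    have hgK : AlgEquiv.restrictNormalHom K g = 1 := by
      rw [hg, map_mul, map_inv, map_zpow, hresτ, hn]
      exact inv_mul_cancel σK
    have hgfix : ∀ x ∈ K, g x = x := by
      intro x hx
      have h := AlgEquiv.restrictNormal_commutes g K ⟨x, hx⟩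
      have h' : g.restrictNormal K = 1 := hgK
      rw [h'] at h
      exact h.symm
    have hgP := ne92_smul_eq_of_fix E p ζ₀ g hgfix P0
    have hσ' : σ = τ ^ n * g := by
      rw [hg]
      group
    rw [hσ', mul_smul, hgP]
    have hstab : τ ∈ MulAction.stabilizer GQ P0 := hτP0
    exact (Subgroup.zpow_mem _ hstab n : τ ^ n ∈ MulAction.stabilizer GQ P0)

theorem ne92_card_eq (W : WeierstrassCurve ℤ) (ℓ : ℕ) (hℓ : ℓ ≠ 0) :
    (ℓ : ℤ) + 1 - W.apOfModel ℓ = ((W.reductionMod ℓ).card : ℤ) := by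
  have : NeZero ℓ := ⟨hℓ⟩
  unfold WeierstrassCurve.apOfModel WeierstrassCurve.traceOfFrobenius
  rw [Nat.card_zmod]
  ring

/-- **Step 1.** If no prime as in the conclusion exists, every `σ` fixing the `m`-th roots of
unity fixes a nonzero `p`-torsion point. -/
theorem ne92_fix_of_forall_dvd {W : WeierstrassCurve ℤ} (hΔ : W.Δ ≠ 0)
    [hfin : Finite (Submodule.torsionBy ℤ (E⁄Qb).Point p)]
    (hF1 : ∀ (K : Type) [Field K] [NumberField K] [IsGalois ℚ K] (σ : K ≃ₐ[ℚ] K) (S : Finset ℕ),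
      ∃ (ℓ : ℕ) (P : Ideal (𝓞 K)) (τ : K ≃ₐ[ℚ] K), ℓ.Prime ∧ ℓ ∉ S ∧ P.IsPrime ∧
        (ℓ : 𝓞 K) ∈ P ∧ Subgroup.zpowers τ = Subgroup.zpowers σ ∧
        ∀ x : 𝓞 K, ∃ y ∈ P, τ (algebraMap (𝓞 K) K x) - (algebraMap (𝓞 K) K x) ^ ℓ =
          algebraMap (𝓞 K) K y)
    (S₀ : Finset ℕ)
    (hF3 : ∀ ℓ : ℕ, ℓ.Prime → ℓ ∉ S₀ → ∀ A : ValuationSubring Qb, A.LiesOverPrime ℓ →
      ∀ τ : GQ, ne92_FrobOn E p A τ ℓ → p ∣ (W.reductionMod ℓ).card →
        ∃ P : Submodule.torsionBy ℤ (E⁄Qb).Point p, P ≠ 0 ∧ τ • P = P)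
    (m : ℕ) [NeZero m] (ζ₀ : Qb) (hζ₀ : IsPrimitiveRoot ζ₀ m) (S : Finset ℕ)
    (hneg : ∀ ℓ : ℕ, ℓ.Prime → ℓ ∉ S → ℓ ≡ 1 [MOD m] → W.IsGoodPrimeFor ℓ →
      (p : ℤ) ∣ (ℓ : ℤ) + 1 - W.apOfModel ℓ) :
    ∀ σ ∈ nb92_H ℚ Qb m,
      ∃ P : Submodule.torsionBy ℤ (E⁄Qb).Point p, P ≠ 0 ∧ σ • P = P := by
  classical
  intro σ hσ
  obtain ⟨ℓ, A, τ, hℓ, hℓS', hA, hFrob, hℓm, htrans⟩ :=
    ne92_exists_frob_data E p m ζ₀ hζ₀ hF1 σ hσ
      (S ∪ S₀ ∪ m.primeFactors ∪ W.Δ.natAbs.primeFactors)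
      (fun q hq => Finset.mem_union_left _ (Finset.mem_union_right _ hq))
  have hℓS : ℓ ∉ S := fun h => hℓS' (Finset.mem_union_left _ (Finset.mem_union_left _
    (Finset.mem_union_left _ h)))
  have hℓS₀ : ℓ ∉ S₀ := fun h => hℓS' (Finset.mem_union_left _ (Finset.mem_union_left _
    (Finset.mem_union_right _ h)))
  have hgood : W.IsGoodPrimeFor ℓ := by
    intro hdvd
    apply hℓS'
    apply Finset.mem_union_right
    rw [Nat.mem_primeFactors]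
    exact ⟨hℓ, Int.natCast_dvd.mp hdvd, Int.natAbs_ne_zero.mpr hΔ⟩
  have hdiv : p ∣ (W.reductionMod ℓ).card := by
    have h := hneg ℓ hℓ hℓS hℓm hgood
    rw [ne92_card_eq W ℓ hℓ.ne_zero] at h
    exact_mod_cast h
  obtain ⟨P0, hP0, hτP0⟩ := hF3 ℓ hℓ hℓS₀ A hA τ hFrob hdiv
  exact ⟨P0, hP0, htrans P0 hτP0⟩

/-- **Non-Eisenstein prime, core (twist-count corner).** Inputs: finiteness and the bound
`≤ p ^ 2` for `E[p]`, Frobenius existence at finite level (`hF1`), the reduction link (`hF3`) and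
the twist corner (`hTW`), the last two for primes outside a finite set `S₀`. -/
theorem ne92_core {W : WeierstrassCurve ℤ} (hΔ : W.Δ ≠ 0) [hp : Fact p.Prime]
    (hirr : GaloisRepIsIrreducible (K := Qb) ℚ E p)
    (hfin : Finite (Submodule.torsionBy ℤ (E⁄Qb).Point p))
    (hcard : Nat.card (Submodule.torsionBy ℤ (E⁄Qb).Point p) ≤ p ^ 2)
    (hF1 : ∀ (K : Type) [Field K] [NumberField K] [IsGalois ℚ K] (σ : K ≃ₐ[ℚ] K) (S : Finset ℕ),
      ∃ (ℓ : ℕ) (P : Ideal (𝓞 K)) (τ : K ≃ₐ[ℚ] K), ℓ.Prime ∧ ℓ ∉ S ∧ P.IsPrime ∧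
        (ℓ : 𝓞 K) ∈ P ∧ Subgroup.zpowers τ = Subgroup.zpowers σ ∧
        ∀ x : 𝓞 K, ∃ y ∈ P, τ (algebraMap (𝓞 K) K x) - (algebraMap (𝓞 K) K x) ^ ℓ =
          algebraMap (𝓞 K) K y)
    (S₀ : Finset ℕ)
    (hF3 : ∀ ℓ : ℕ, ℓ.Prime → ℓ ∉ S₀ → ∀ A : ValuationSubring Qb, A.LiesOverPrime ℓ →
      ∀ τ : GQ, ne92_FrobOn E p A τ ℓ → p ∣ (W.reductionMod ℓ).card →
        ∃ P : Submodule.torsionBy ℤ (E⁄Qb).Point p, P ≠ 0 ∧ τ • P = P)
    (hTW : ∀ ℓ : ℕ, ℓ.Prime → ℓ ∉ S₀ → ∀ A : ValuationSubring Qb, A.LiesOverPrime ℓ →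
      ∀ τ : GQ, ne92_FrobOn E p A τ ℓ →
        ((∀ P : Submodule.torsionBy ℤ (E⁄Qb).Point p, τ • P = P) ∨
          (∀ P : Submodule.torsionBy ℤ (E⁄Qb).Point p, τ • P = -P)) → ¬ p ∣ 2 * ℓ + 2)
    (m : ℕ) (hm : 0 < m) (S : Finset ℕ) :
    ∃ ℓ : ℕ, ℓ.Prime ∧ ℓ ∉ S ∧ ℓ ≡ 1 [MOD m] ∧ W.IsGoodPrimeFor ℓ ∧
      ¬ (p : ℤ) ∣ (ℓ : ℤ) + 1 - W.apOfModel ℓ := by
  classical
  by_contra hneg
  push Not at hneg
  have hm0 : NeZero m := ⟨hm.ne'⟩
  have hmQ : NeZero (m : Qb) := ⟨by exact_mod_cast hm.ne'⟩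
  obtain ⟨ζ₀, hζ₀⟩ := HasEnoughRootsOfUnity.exists_primitiveRoot Qb m
  have hfix := ne92_fix_of_forall_dvd E p hΔ hF1 S₀ hF3 m ζ₀ hζ₀ S hneg
  -- the corner prime `ℓ' ≡ -1 mod lcm(m, p)`
  set M := Nat.lcm m p with hM
  have hM0 : M ≠ 0 := Nat.lcm_ne_zero hm.ne' hp.out.ne_zero
  have hcopM : (M - 1).Coprime M := by
    have h1 : M - 1 + 1 = M := Nat.sub_add_cancel (Nat.pos_of_ne_zero hM0)
    have h2 : (M - 1).Coprime (M - 1 + 1) := by simp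
    rwa [h1] at h2
  obtain ⟨ℓ', hgt, hℓ', hmod⟩ := Nat.forall_exists_prime_gt_and_modEq (S₀.sup id) hM0 hcopM
  have hℓ'S₀ : ℓ' ∉ S₀ := fun h => by
    have : ℓ' ≤ S₀.sup id := Finset.le_sup (f := id) h
    omega
  have hMdvd : M ∣ ℓ' + 1 := by
    have h1 : ℓ' + 1 ≡ M - 1 + 1 [MOD M] := hmod.add_right 1
    rw [Nat.sub_add_cancel (Nat.pos_of_ne_zero hM0)] at h1
    exact (Nat.modEq_zero_iff_dvd.mp (h1.trans (by simp [Nat.ModEq])))
  have hmdvd : m ∣ ℓ' + 1 := (Nat.dvd_lcm_left m p).trans hMdvd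
  have hpdvd : p ∣ ℓ' + 1 := (Nat.dvd_lcm_right m p).trans hMdvd
  have hcop : Nat.Coprime ℓ' m := by
    have h1 : Nat.Coprime ℓ' (ℓ' + 1) := by simp
    exact Nat.Coprime.coprime_dvd_right hmdvd h1
  obtain ⟨A, τ, hA, hτ⟩ := Fermat.Agent.S54.exists_isFrobeniusAt ℓ' hℓ'
  have hcongr := nb92_congr_of_isFrobeniusAt A τ ℓ' hτ
  have hττ : τ * τ ∈ nb92_H ℚ Qb m := by
    intro ζ hζ
    have hτζ : τ ζ = ζ ^ ℓ' :=
      nb92_pow_eq_of_sub_mem A hζ₀ hA hcop (by rw [← map_pow, hζ, map_one])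
        (by rw [← pow_mul, mul_comm, pow_mul, hζ, one_pow])
        (hcongr ζ (nb92_root_mem A hm.ne' hζ))
    have hinv : ζ ^ ℓ' = ζ⁻¹ := by
      obtain ⟨k, hk⟩ := hmdvd
      have h1 : ζ ^ ℓ' * ζ = 1 := by rw [← pow_succ, hk, pow_mul, hζ, one_pow]
      exact eq_inv_of_mul_eq_one_left h1
    show τ (τ ζ) = ζ
    rw [hτζ, hinv, map_inv₀, hτζ, hinv, inv_inv]
  have hmf : Module.Finite (ZMod p) (Submodule.torsionBy ℤ (E⁄Qb).Point p) :=
    Module.Finite.of_finite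
  have hdim : Module.finrank (ZMod p) (Submodule.torsionBy ℤ (E⁄Qb).Point p) ≤ 2 := by
    have h := Module.natCard_eq_pow_finrank (K := ZMod p)
      (V := Submodule.torsionBy ℤ (E⁄Qb).Point p)
    rw [Nat.card_zmod] at h
    rw [h] at hcard
    exact (Nat.pow_le_pow_iff_right hp.out.one_lt).mp hcard
  have hlin : ∀ (g : GQ) (a : ZMod p) (v : Submodule.torsionBy ℤ (E⁄Qb).Point p),
      g • a • v = a • g • v := fun g a v => smul_comm g a v
  have hc := gt92c_corner hlin hdim (fun N hN => hirr.2 N hN) (nb92_H ℚ Qb m)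
    (nb92_commutator_mem hζ₀) hfix τ hττ
  refine hTW ℓ' hℓ' hℓ'S₀ A hA τ (fun x hx _ => hcongr x hx) hc ?_
  obtain ⟨k, hk⟩ := hpdvd
  exact ⟨2 * k, by rw [show 2 * ℓ' + 2 = 2 * (ℓ' + 1) by ring, hk]; ring⟩

/-- **Non-Eisenstein prime, core (complex-conjugation corner).** Same as `ne92_core`, with the
twist corner replaced by: `E[p]` has exactly `p ^ 2` points and some involution `c` of `ℚ̄` is
neither `1` nor `-1` on it. -/
theorem ne92_core_conj {W : WeierstrassCurve ℤ} (hΔ : W.Δ ≠ 0) [hp : Fact p.Prime]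
    (hirr : GaloisRepIsIrreducible (K := Qb) ℚ E p)
    (hcard : Nat.card (Submodule.torsionBy ℤ (E⁄Qb).Point p) = p ^ 2)
    (hF1 : ∀ (K : Type) [Field K] [NumberField K] [IsGalois ℚ K] (σ : K ≃ₐ[ℚ] K) (S : Finset ℕ),
      ∃ (ℓ : ℕ) (P : Ideal (𝓞 K)) (τ : K ≃ₐ[ℚ] K), ℓ.Prime ∧ ℓ ∉ S ∧ P.IsPrime ∧
        (ℓ : 𝓞 K) ∈ P ∧ Subgroup.zpowers τ = Subgroup.zpowers σ ∧
        ∀ x : 𝓞 K, ∃ y ∈ P, τ (algebraMap (𝓞 K) K x) - (algebraMap (𝓞 K) K x) ^ ℓ =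
          algebraMap (𝓞 K) K y)
    (S₀ : Finset ℕ)
    (hF3 : ∀ ℓ : ℕ, ℓ.Prime → ℓ ∉ S₀ → ∀ A : ValuationSubring Qb, A.LiesOverPrime ℓ →
      ∀ τ : GQ, ne92_FrobOn E p A τ ℓ → p ∣ (W.reductionMod ℓ).card →
        ∃ P : Submodule.torsionBy ℤ (E⁄Qb).Point p, P ≠ 0 ∧ τ • P = P)
    (c : GQ) (hcc : c * c = 1)
    (hc1 : ∃ P : Submodule.torsionBy ℤ (E⁄Qb).Point p, c • P ≠ P)
    (hc2 : ∃ P : Submodule.torsionBy ℤ (E⁄Qb).Point p, c • P ≠ -P)
    (m : ℕ) (hm : 0 < m) (S : Finset ℕ) :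
    ∃ ℓ : ℕ, ℓ.Prime ∧ ℓ ∉ S ∧ ℓ ≡ 1 [MOD m] ∧ W.IsGoodPrimeFor ℓ ∧
      ¬ (p : ℤ) ∣ (ℓ : ℤ) + 1 - W.apOfModel ℓ := by
  classical
  by_contra hneg
  push Not at hneg
  have hm0 : NeZero m := ⟨hm.ne'⟩
  have hmQ : NeZero (m : Qb) := ⟨by exact_mod_cast hm.ne'⟩
  obtain ⟨ζ₀, hζ₀⟩ := HasEnoughRootsOfUnity.exists_primitiveRoot Qb m
  have hfin : Finite (Submodule.torsionBy ℤ (E⁄Qb).Point p) :=
    Nat.finite_of_card_ne_zero (by rw [hcard]; exact pow_ne_zero 2 hp.out.ne_zero)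
  have hfix := ne92_fix_of_forall_dvd E p hΔ hF1 S₀ hF3 m ζ₀ hζ₀ S hneg
  exact gt92_not_irreducible (S := ℚ) (K := Qb) E p hcard (nb92_H ℚ Qb m)
    (nb92_commutator_mem hζ₀) hfix c hcc hc1 hc2 hirr

end Assembly

end Fermat.Agent.S41
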