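/-
S41 / M5.F3 (helper74), file 1 of 3: Frey-model core of the reduction link.

Part A: the two basic facts about the Frey model `Y² = X (X - A) (X + B)` over an arbitrary
field in which `2 ≠ 0` (the versions in `S13/Torsion.lean` assume characteristic zero):
* `rl74_exists_point_of_ptX`   : every `r` is the normalised `X`-coordinate of a nonzero point
                                 (algebraically closed field);
* `rl74_smul_eq_zero_iff_ladG` : `(2m+1) • P = 0 ↔ (ladG A B m)(ptX P) = 0`.

Part B: the abstract reduction core.  `R` is a commutative ring, `ι : R →+* L` an injective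
ring homomorphism into an algebraically closed field such that roots in `L` of monic polynomials
over `R` come from `R` (`rl74_IntClosed`), and `π : R →+* k` a ring homomorphism to a field in
which `2`, `2m+1`, `a`, `b`, `a + b` do not vanish.  For Frey models over `L` and `k` with
parameters `ι a, ι b` and `π a, π b`:
* `rl74_coords_mem`       : nonzero `(2m+1)`-torsion points over `L` have coordinates in `ι R`;
* `rl74_ptY_res_ne_zero`  : the residue of their `Y`-coordinate is nonzero;
* `rl74_inj`              : two such points with the same residues are equal;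
* `rl74_lift`             : every nonzero `(2m+1)`-torsion point over `k` lifts.
-/
import Mathlib
import Fermat.Agent.S05.Defs
import Fermat.Agent.S05.FreyModel
import Fermat.Agent.S13.Ladder

set_option autoImplicit false

open Polynomial WeierstrassCurve WeierstrassCurve.Affine

namespace Fermat.Agent.S41

open Fermat.Agent.S05 Fermat.Agent.S13

section PartA

variable {K : Type*} [Field K] [DecidableEq K] {W : WeierstrassCurve K} {A B : K}

/-- every `r` is the normalised `X`-coordinate of a nonzero point (alg. closed field, `2 ≠ 0`). -/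
theorem rl74_exists_point_of_ptX [IsAlgClosed K] (h2 : (2 : K) ≠ 0) (hW : IsFreyModel W A B)
    (hA : A ≠ 0) (hB : B ≠ 0) (hAB : A + B ≠ 0) (r : K) :
    ∃ P : W.toAffine.Point, P ≠ 0 ∧ ptX P = r := by
  have h4 : (4 : K) ≠ 0 := by
    have : (4 : K) = 2 * 2 := by norm_num
    rw [this]; exact mul_ne_zero h2 h2
  have h8 : (8 : K) ≠ 0 := by
    have : (8 : K) = 2 * 4 := by norm_num
    rw [this]; exact mul_ne_zero h2 h4
  have h64 : (64 : K) ≠ 0 := by
    have : (64 : K) = 8 * 8 := by norm_num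
    rw [this]; exact mul_ne_zero h8 h8
  obtain ⟨Y, hY⟩ := IsAlgClosed.exists_pow_nat_eq (r * (r - A) * (r + B)) (n := 2) (by norm_num)
  obtain ⟨x, hx⟩ : ∃ x : K, 4 * x = r := ⟨r / 4, by field_simp⟩
  subst hx
  obtain ⟨y, hy⟩ : ∃ y : K, 8 * y + 4 * x = Y := ⟨(Y - 4 * x) / 8, by field_simp; ring⟩
  subst hy
  have ha₂ := hW.a₂
  have ha₄ := hW.a₄
  have heq : W.toAffine.Equation x y := by
    rw [Affine.equation_iff, hW.a₁, hW.a₃, hW.a₆]
    apply mul_left_cancel₀ h64
    linear_combination hY - 16 * x ^ 2 * ha₂ - 4 * x * ha₄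
  have hns : W.toAffine.Nonsingular x y := by
    rw [Affine.nonsingular_iff]
    refine ⟨heq, ?_⟩
    by_cases hY0 : 8 * y + 4 * x = 0
    · left
      rw [hW.a₁]
      intro h
      have hf' : 3 * (4 * x) ^ 2 + 2 * (B - A) * (4 * x) - A * B = 0 := by
        linear_combination (-16 : K) * h + 2 * hY0 - 8 * x * ha₂ - ha₄
      have hf : (4 * x) * (4 * x - A) * (4 * x + B) = 0 := by rw [← hY, hY0]; ring
      rcases mul_eq_zero.mp hf with hf | hf
      · rcases mul_eq_zero.mp hf with hf | hf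
        · rw [hf] at hf'
          exact mul_ne_zero hA hB (by linear_combination -hf')
        · have hr : 4 * x = A := by linear_combination hf
          rw [hr] at hf'
          exact mul_ne_zero hA hAB (by linear_combination hf')
      · have hr : 4 * x = -B := by linear_combination hf
        rw [hr] at hf'
        exact mul_ne_zero hB hAB (by linear_combination hf')
    · right
      rw [hW.a₁, hW.a₃]
      intro h
      apply hY0
      linear_combination (4 : K) * h
  exact ⟨Point.some _ _ hns, Point.some_ne_zero hns, rfl⟩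

/-- `(2m+1)`-torsion is cut out by `ladG A B m` (any field with `2 ≠ 0`). -/
theorem rl74_smul_eq_zero_iff_ladG (h2 : (2 : K) ≠ 0) (hW : IsFreyModel W A B) (hA : A ≠ 0)
    (hB : B ≠ 0) (hAB : A + B ≠ 0) {m : ℕ} (hm : 1 ≤ m) {P : W.toAffine.Point} (hP : P ≠ 0) :
    (2 * m + 1) • P = 0 ↔ (ladG A B m).eval (ptX P) = 0 := by
  rw [(lad_spec hW h2 hA hB hAB hP (2 * m + 1)).2.1, ladQ_odd A B hm, eval_pow]
  exact pow_eq_zero_iff (by norm_num)

/-- a point killed by `2` and by `2m+1` is zero. -/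
theorem rl74_eq_zero_of_two_of_odd {G : Type*} [AddCommGroup G] {P : G} {m : ℕ}
    (h2 : P + P = 0) (hm : (2 * m + 1) • P = 0) : P = 0 := by
  have e : (2 * m + 1) • P = m • (P + P) + P := by
    rw [add_nsmul, one_nsmul, ← two_nsmul, ← mul_nsmul, mul_comm]
  rw [e, h2, nsmul_zero, zero_add] at hm
  exact hm

end PartA

section PartB

variable {R L k : Type*} [CommRing R] [Field L] [DecidableEq L] [Field k] [DecidableEq k]

/-- roots in `L` of monic polynomials over `R` come from `R`. -/
def rl74_IntClosed (ι : R →+* L) : Prop :=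
  ∀ f : R[X], f.Monic → ∀ x : L, f.eval₂ ι x = 0 → ∃ r : R, ι r = x

variable {ι : R →+* L} {π : R →+* k}

omit [DecidableEq L] in
/-- a root of a polynomial over `R` with unit top coefficient comes from `R`. -/
theorem rl74_root_mem (hint : rl74_IntClosed ι) {G : R[X]} {D : ℕ} {c u : R} (hG : LeadIs G D c)
    (hu : u * c = 1) {x : L} (hx : (G.map ι).eval x = 0) : ∃ r : R, ι r = x := by
  refine hint (C u * G) ?_ x ?_
  · exact monic_of_natDegree_le_of_coeff_eq_one D ((natDegree_C_mul_le u G).trans hG.1)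
      (by rw [coeff_C_mul, hG.2, hu])
  · rw [eval₂_mul, eval₂_C, ← eval_map, hx, mul_zero]

/-- nonzero `(2m+1)`-torsion points of the Frey model over `L` have coordinates in `ι R`. -/
theorem rl74_coords_mem (hint : rl74_IntClosed ι) {W : WeierstrassCurve L} {a b : R}
    (hW : IsFreyModel W (ι a) (ι b)) (h2 : (2 : L) ≠ 0) (ha : ι a ≠ 0) (hb : ι b ≠ 0)
    (hab : ι a + ι b ≠ 0) {m : ℕ} (hm : 1 ≤ m) {u : R} (hu : u * (-((2 * m + 1 : ℕ) : R)) = 1)
    {P : W.toAffine.Point} (hP : P ≠ 0) (hPt : (2 * m + 1) • P = 0) :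
    ∃ ξ η : R, ptX P = ι ξ ∧ ptY P = ι η := by
  have hroot := (rl74_smul_eq_zero_iff_ladG h2 hW ha hb hab hm hP).mp hPt
  rw [ladG_map ι a b m] at hroot
  obtain ⟨ξ, hξ⟩ := rl74_root_mem hint (ladG_lead a b hm) hu hroot
  obtain ⟨η, hη⟩ := hint (X ^ 2 - C (ξ * (ξ - a) * (ξ + b))) (monic_X_pow_sub_C _ two_ne_zero)
    (ptY P) (by
      rw [eval₂_sub, eval₂_pow, eval₂_X, eval₂_C, ptY_sq hW P, ← hξ]
      simp only [map_mul, map_sub, map_add]
      ring)
  exact ⟨ξ, η, hξ.symm, hη.symm⟩


omit [DecidableEq L] [DecidableEq k] in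
/-- nonvanishing transfers from `k` to `L`. -/
theorem rl74_ne_zero_of_res {x : R} (hx : π x ≠ 0) (hι : Function.Injective ι) : ι x ≠ 0 := by
  intro h
  apply hx
  have : x = 0 := hι (by rw [h, map_zero])
  rw [this, map_zero]

omit [DecidableEq k] in
/-- the residue of the `Y`-coordinate of a nonzero `(2m+1)`-torsion point is nonzero. -/
theorem rl74_ptY_res_ne_zero (hint : rl74_IntClosed ι) (hι : Function.Injective ι)
    {W : WeierstrassCurve L} {a b : R} (hW : IsFreyModel W (ι a) (ι b))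
    (h2k : (2 : k) ≠ 0) (hak : π a ≠ 0) (hbk : π b ≠ 0) (habk : π a + π b ≠ 0)
    {m : ℕ} (hm : 1 ≤ m) {u : R} (hu : u * (-((2 * m + 1 : ℕ) : R)) = 1)
    {P : W.toAffine.Point} (hP : P ≠ 0) (hPt : (2 * m + 1) • P = 0)
    {ξ η : R} (hξ : ptX P = ι ξ) (hη : ptY P = ι η) : π η ≠ 0 := by
  have h2 : (2 : L) ≠ 0 := by
    have := rl74_ne_zero_of_res (ι := ι) (π := π) (x := 2) (by rwa [map_ofNat]) hι
    rwa [map_ofNat] at this
  have ha : ι a ≠ 0 := rl74_ne_zero_of_res hak hι
  have hb : ι b ≠ 0 := rl74_ne_zero_of_res hbk hι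
  have hab : ι a + ι b ≠ 0 := by
    have e : ι a + ι b = ι (a + b) := (map_add ι a b).symm
    rw [e]; exact rl74_ne_zero_of_res (π := π) (x := a + b) (by rw [map_add]; exact habk) hι
  intro h0
  have hY0 : ptY P ≠ 0 := by
    intro hy
    exact hP (rl74_eq_zero_of_two_of_odd (add_self_eq_zero_of_ptY_eq_zero hW h2 hy) hPt)
  obtain ⟨hPP, hdbl⟩ := ptX_two_mul hW hP hY0
  have tPP : (2 * m + 1) • (P + P) = 0 := by rw [nsmul_add, hPt, add_zero]
  obtain ⟨ζ, -, hζ, -⟩ := rl74_coords_mem hint hW h2 ha hb hab hm hu hPP tPP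
  have hsq := ptY_sq hW P
  have e1 : η ^ 2 = ξ * (ξ - a) * (ξ + b) := hι (by
    simp only [map_pow, map_mul, map_sub, map_add]
    rw [← hξ, ← hη]; exact hsq)
  have e2 : ζ * (4 * η ^ 2) = (ξ ^ 2 + a * b) ^ 2 := hι (by
    simp only [map_pow, map_mul, map_add, map_ofNat]
    rw [← hξ, ← hη, ← hζ]; exact hdbl)
  have f1 := congrArg π e1
  have f2 := congrArg π e2
  simp only [map_pow, map_mul, map_sub, map_add, map_ofNat, h0] at f1 f2
  have g2 : π ξ ^ 2 + π a * π b = 0 := by
    have : (π ξ ^ 2 + π a * π b) ^ 2 = 0 := by rw [← f2]; ring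
    exact (pow_eq_zero_iff two_ne_zero).mp this
  have g1 : π ξ * (π ξ - π a) * (π ξ + π b) = 0 := by rw [← f1]; ring
  rcases mul_eq_zero.mp g1 with h | h
  · rcases mul_eq_zero.mp h with h | h
    · rw [h] at g2
      exact mul_ne_zero hak hbk (by linear_combination g2)
    · have h' : π ξ = π a := by linear_combination h
      rw [h'] at g2
      exact mul_ne_zero hak habk (by linear_combination g2)
  · have h' : π ξ = -π b := by linear_combination h
    rw [h'] at g2
    exact mul_ne_zero hbk habk (by linear_combination g2)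

omit [DecidableEq k] in
/-- **Injectivity of reduction on `(2m+1)`-torsion**: two nonzero `(2m+1)`-torsion points of the
Frey model over `L` whose normalised coordinates have the same residues are equal. -/
theorem rl74_inj (hint : rl74_IntClosed ι) (hι : Function.Injective ι)
    {W : WeierstrassCurve L} {a b : R} (hW : IsFreyModel W (ι a) (ι b))
    (h2k : (2 : k) ≠ 0) (hak : π a ≠ 0) (hbk : π b ≠ 0) (habk : π a + π b ≠ 0)
    {m : ℕ} (hm : 1 ≤ m) {u : R} (hu : u * (-((2 * m + 1 : ℕ) : R)) = 1)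
    {P₁ P₂ : W.toAffine.Point} (h₁ : P₁ ≠ 0) (h₂ : P₂ ≠ 0)
    (t₁ : (2 * m + 1) • P₁ = 0) (t₂ : (2 * m + 1) • P₂ = 0)
    {ξ₁ ξ₂ η₁ η₂ : R} (hξ₁ : ptX P₁ = ι ξ₁) (hξ₂ : ptX P₂ = ι ξ₂)
    (hη₁ : ptY P₁ = ι η₁) (hη₂ : ptY P₂ = ι η₂)
    (hX : π ξ₁ = π ξ₂) (hY : π η₁ = π η₂) : P₁ = P₂ := by
  have h2 : (2 : L) ≠ 0 := by
    have := rl74_ne_zero_of_res (ι := ι) (π := π) (x := 2) (by rwa [map_ofNat]) hι
    rwa [map_ofNat] at this
  have ha : ι a ≠ 0 := rl74_ne_zero_of_res hak hι
  have hb : ι b ≠ 0 := rl74_ne_zero_of_res hbk hι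
  have hab : ι a + ι b ≠ 0 := by
    have e : ι a + ι b = ι (a + b) := (map_add ι a b).symm
    rw [e]; exact rl74_ne_zero_of_res (π := π) (x := a + b) (by rw [map_add]; exact habk) hι
  have hη₁0 : π η₁ ≠ 0 :=
    rl74_ptY_res_ne_zero hint hι hW h2k hak hbk habk hm hu h₁ t₁ hξ₁ hη₁
  have hXX : ptX P₁ = ptX P₂ := by
    by_contra hne
    obtain ⟨hD, hsub⟩ := ptX_sub_mul hW h₁ h₂ hne
    have tD : (2 * m + 1) • (P₁ - P₂) = 0 := by rw [nsmul_sub, t₁, t₂, sub_zero]
    obtain ⟨ζ, -, hζ, -⟩ := rl74_coords_mem hint hW h2 ha hb hab hm hu hD tD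
    have e : ζ * (ξ₁ - ξ₂) ^ 2 = (η₁ + η₂) ^ 2 - (b - a + ξ₁ + ξ₂) * (ξ₁ - ξ₂) ^ 2 := hι (by
      simp only [map_pow, map_mul, map_sub, map_add]
      rw [← hξ₁, ← hξ₂, ← hη₁, ← hη₂, ← hζ]; exact hsub)
    have f := congrArg π e
    simp only [map_pow, map_mul, map_sub, map_add, hX, ← hY] at f
    have g : (2 * π η₁) ^ 2 = 0 := by linear_combination -f
    exact mul_ne_zero h2k hη₁0 ((pow_eq_zero_iff two_ne_zero).mp g)
  rcases eq_or_eq_neg_of_ptX_eq h2 h₁ h₂ hXX with h | h
  · exact h
  · exfalso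
    have e : η₁ = -η₂ := hι (by rw [map_neg, ← hη₁, ← hη₂, h, ptY_neg hW])
    have f := congrArg π e
    rw [map_neg, ← hY] at f
    exact mul_ne_zero h2k hη₁0 (by linear_combination f)

/-- **Lifting of `(2m+1)`-torsion**: every nonzero `(2m+1)`-torsion point of the reduced Frey
model over `k` is the reduction of a nonzero `(2m+1)`-torsion point over `L`. -/
theorem rl74_lift [IsAlgClosed L] (hint : rl74_IntClosed ι) (hι : Function.Injective ι)
    {WL : WeierstrassCurve L} {Wk : WeierstrassCurve k} {a b : R}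
    (hWL : IsFreyModel WL (ι a) (ι b)) (hWk : IsFreyModel Wk (π a) (π b))
    (h2k : (2 : k) ≠ 0) (hak : π a ≠ 0) (hbk : π b ≠ 0) (habk : π a + π b ≠ 0)
    {m : ℕ} (hm : 1 ≤ m) {u : R} (hu : u * (-((2 * m + 1 : ℕ) : R)) = 1)
    {Q : Wk.toAffine.Point} (hQ : Q ≠ 0) (hQt : (2 * m + 1) • Q = 0) :
    ∃ (P : WL.toAffine.Point) (ξ η : R), P ≠ 0 ∧ (2 * m + 1) • P = 0 ∧
      ptX P = ι ξ ∧ ptY P = ι η ∧ π ξ = ptX Q ∧ π η = ptY Q := by
  classical
  have h2 : (2 : L) ≠ 0 := by
    have := rl74_ne_zero_of_res (ι := ι) (π := π) (x := 2) (by rwa [map_ofNat]) hι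
    rwa [map_ofNat] at this
  have ha : ι a ≠ 0 := rl74_ne_zero_of_res hak hι
  have hb : ι b ≠ 0 := rl74_ne_zero_of_res hbk hι
  have hab : ι a + ι b ≠ 0 := by
    have e : ι a + ι b = ι (a + b) := (map_add ι a b).symm
    rw [e]; exact rl74_ne_zero_of_res (π := π) (x := a + b) (by rw [map_add]; exact habk) hι
  have hroot := (rl74_smul_eq_zero_iff_ladG h2k hWk hak hbk habk hm hQ).mp hQt
  rw [ladG_map π a b m] at hroot
  -- the polynomial and its factorisation over `L`
  set G : R[X] := ladG a b m with hGdef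
  set c : R := -((2 * m + 1 : ℕ) : R) with hcdef
  have hG : LeadIs G (2 * m ^ 2 + 2 * m) c := ladG_lead a b hm
  have hcL : ι c ≠ 0 := by
    intro h
    have := congrArg ι hu
    rw [map_mul, h, mul_zero, map_one] at this
    exact zero_ne_one this
  have hck : π c ≠ 0 := by
    intro h
    have := congrArg π hu
    rw [map_mul, h, mul_zero, map_one] at this
    exact zero_ne_one this
  have hdegL : (G.map ι).natDegree = 2 * m ^ 2 + 2 * m :=
    le_antisymm ((natDegree_map_le).trans hG.1)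
      (le_natDegree_of_ne_zero (by rw [coeff_map, hG.2]; exact hcL))
  have hlcL : (G.map ι).leadingCoeff = ι c := by
    rw [leadingCoeff, hdegL, coeff_map, hG.2]
  have hsplit := (IsAlgClosed.splits (G.map ι)).eq_prod_roots
  rw [hlcL] at hsplit
  -- lift the roots to `R`
  have hmem : ∀ x ∈ (G.map ι).roots, ∃ r : R, ι r = x := by
    intro x hx
    exact rl74_root_mem hint hG hu ((mem_roots'.mp hx).2)
  obtain ⟨s, hs⟩ : ∃ s : Multiset R, s.map ι = (G.map ι).roots := by
    let g : L → R := fun x => if h : ∃ r : R, ι r = x then h.choose else 0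
    have hg : ∀ x ∈ (G.map ι).roots, ι (g x) = x := by
      intro x hx
      have h := hmem x hx
      simp only [g, dif_pos h]
      exact h.choose_spec
    refine ⟨(G.map ι).roots.map g, ?_⟩
    rw [Multiset.map_map]
    conv_rhs => rw [← Multiset.map_id (G.map ι).roots]
    exact Multiset.map_congr rfl (fun x hx => hg x hx)
  have hfac : G = C c * (s.map (fun r => X - C r)).prod := by
    apply Polynomial.map_injective ι hι
    rw [Polynomial.map_mul, map_C, Polynomial.map_multiset_prod, Multiset.map_map]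
    conv_lhs => rw [hsplit, ← hs, Multiset.map_map]
    congr 2
    apply Multiset.map_congr rfl
    intro r _
    simp
  -- reduce the factorisation
  have hfack : G.map π = C (π c) * ((s.map π).map (fun r => X - C r)).prod := by
    conv_lhs => rw [hfac]
    rw [Polynomial.map_mul, map_C, Polynomial.map_multiset_prod, Multiset.map_map,
      Multiset.map_map]
    congr 2
    apply Multiset.map_congr rfl
    intro r _
    simp
  rw [hfack, eval_mul, eval_C, eval_multiset_prod, Multiset.map_map] at hroot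
  have hprod := (mul_eq_zero.mp hroot).resolve_left hck
  rw [Multiset.prod_eq_zero_iff, Multiset.mem_map] at hprod
  obtain ⟨xb, hxbs, hxb⟩ := hprod
  rw [Multiset.mem_map] at hxbs
  obtain ⟨ξ, hξs, rfl⟩ := hxbs
  have hξres : π ξ = ptX Q := by
    simp only [Function.comp_apply, eval_sub, eval_X, eval_C] at hxb
    linear_combination -hxb
  have hξroot : (G.map ι).eval (ι ξ) = 0 := by
    have : ι ξ ∈ (G.map ι).roots := by
      rw [← hs]; exact Multiset.mem_map_of_mem ι hξs
    exact (mem_roots'.mp this).2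
  -- the point over `L`
  obtain ⟨P, hP, hPX⟩ := rl74_exists_point_of_ptX h2 hWL ha hb hab (ι ξ)
  have hPt : (2 * m + 1) • P = 0 := by
    rw [rl74_smul_eq_zero_iff_ladG h2 hWL ha hb hab hm hP, hPX, ladG_map ι a b m]
    exact hξroot
  obtain ⟨ξ', η, hξ', hη⟩ := rl74_coords_mem hint hWL h2 ha hb hab hm hu hP hPt
  have e1 : η ^ 2 = ξ * (ξ - a) * (ξ + b) := hι (by
    simp only [map_pow, map_mul, map_sub, map_add]
    rw [← hPX, ← hη]; exact ptY_sq hWL P)
  have f1 := congrArg π e1
  simp only [map_pow, map_mul, map_sub, map_add, hξres] at f1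
  rw [← ptY_sq hWk Q] at f1
  have hcases : (π η - ptY Q) * (π η + ptY Q) = 0 := by linear_combination f1
  rcases mul_eq_zero.mp hcases with h | h
  · exact ⟨P, ξ, η, hP, hPt, hPX, hη, hξres, by linear_combination h⟩
  · refine ⟨-P, ξ, -η, neg_ne_zero.mpr hP, by rw [neg_nsmul, hPt, neg_zero], by rw [ptX_neg, hPX], by rw [ptY_neg hWL, hη, map_neg], hξres, ?_⟩
    rw [map_neg]; linear_combination -h

end PartB

end Fermat.Agent.S41
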