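/-
S41 / M5.F3 (helper74), file 2 of 2: the reduction link for a general integral Weierstrass
model at a good prime.

`rl74_frob_fixed`: `W` a Weierstrass curve over `ℤ`, `p ≠ 2` and `ℓ ≠ 2, p` primes, `ℓ ∤ Δ(W)`,
`p ∣ #W(𝔽_ℓ)`; `L` an algebraically closed field, `O` a valuation subring of `L` with `ℓ` in its
maximal ideal, `τ : L →+* L` acting as `x ↦ x ^ ℓ` modulo the maximal ideal on the (integral)
coordinates of the `p`-torsion points of `W` over `L`.  Then `τ` fixes both coordinates of some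
affine (hence nonzero) `p`-torsion point of `W` over `L`.

Method: over `O` (where `2` is a unit) the curve is brought to Frey shape
`y² + xy = x³ + ((b-1-a)/4) x² - (ab/16) x` by a translation `(x, y) ↦ (x + e, y + s x + t)`;
`a, b, a + b` are units because `256 Δ = (a b (a + b))²`.  The abstract core of `RedFrey74.lean`
(lifting and injectivity of reduction on `p`-torsion of Frey models) and the point transport of
`VarChange83.lean` then give the statement.
-/
import Mathlib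
import Fermat.Prelude.Def_FLTPrelim_Modularity
import Fermat.Agent.S41.RedFrey74
import Fermat.Agent.S41.VarChange83

set_option autoImplicit false

open Polynomial WeierstrassCurve WeierstrassCurve.Affine

namespace Fermat.Agent.S41

open Fermat.Agent.S05 Fermat.Agent.S13

section Model

variable {R : Type*} [CommRing R]

/-- the translation bringing `W` to Frey shape (`h = 1/2`, `e` a root of the `2`-division cubic) -/
def rl74_C (W : WeierstrassCurve R) (h e : R) : WeierstrassCurve.VariableChange R :=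
  ⟨1, e, (1 - W.a₁) * h, -(W.a₁ * e + W.a₃) * h⟩

theorem rl74_C_a₁ (W : WeierstrassCurve R) {h : R} (e : R) (hh : 2 * h = 1) :
    (rl74_C W h e • W).a₁ = 1 := by
  simp only [variableChange_a₁, rl74_C, inv_one, Units.val_one, one_mul]
  linear_combination (1 - W.a₁) * hh

theorem rl74_C_a₃ (W : WeierstrassCurve R) {h : R} (e : R) (hh : 2 * h = 1) :
    (rl74_C W h e • W).a₃ = 0 := by
  simp only [variableChange_a₃, rl74_C, inv_one, Units.val_one, one_pow, one_mul]
  linear_combination (-(W.a₁ * e + W.a₃)) * hh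

theorem rl74_C_a₆ (W : WeierstrassCurve R) {h e : R} (hh : 2 * h = 1)
    (he : 4 * e ^ 3 + W.b₂ * e ^ 2 + 2 * W.b₄ * e + W.b₆ = 0) :
    (rl74_C W h e • W).a₆ = 0 := by
  have h4 : 4 * h ^ 2 = 1 := by linear_combination (2 * h + 1) * hh
  have e4 : 4 * (rl74_C W h e • W).a₆ = 0 := by
    simp only [variableChange_a₆, rl74_C, inv_one, Units.val_one, one_pow, one_mul]
    simp only [b₂, b₄, b₆] at he
    linear_combination he - (W.a₁ * e + W.a₃) ^ 2 * (2 * h - 1) * hh
  calc (rl74_C W h e • W).a₆ = (4 * h ^ 2) * (rl74_C W h e • W).a₆ := by rw [h4, one_mul]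
    _ = h ^ 2 * (4 * (rl74_C W h e • W).a₆) := by ring
    _ = 0 := by rw [e4, mul_zero]

theorem rl74_C_Δ (W : WeierstrassCurve R) (h e : R) : (rl74_C W h e • W).Δ = W.Δ := by
  rw [variableChange_Δ]
  simp [rl74_C]

/-- discriminant of a curve in Frey shape -/
theorem rl74_frey_Δ (W' : WeierstrassCurve R) {a b : R} (h1 : W'.a₁ = 1)
    (h2 : 4 * W'.a₂ = b - 1 - a) (h3 : W'.a₃ = 0) (h4 : 16 * W'.a₄ = -(a * b))
    (h6 : W'.a₆ = 0) : 256 * W'.Δ = (a * b * (a + b)) ^ 2 := by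
  rw [WeierstrassCurve.Δ, b₂, b₄, b₆, b₈, h1, h3, h6]
  linear_combination ((1 + 4 * W'.a₂) + (b - a)) * (16 * W'.a₄) ^ 2 * h2 +
    ((b - a) ^ 2 * (16 * W'.a₄ + -(a * b)) - 4 * ((16 * W'.a₄) ^ 2 + (16 * W'.a₄) * (-(a * b))
      + (-(a * b)) ^ 2)) * h4

/-- a curve in Frey shape over a ring maps to a Frey model over a field -/
theorem rl74_isFreyModel_map {F : Type*} [Field F] (φ : R →+* F) {W' : WeierstrassCurve R}
    {a b : R} (h1 : W'.a₁ = 1) (h2 : 4 * W'.a₂ = b - 1 - a) (h3 : W'.a₃ = 0)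
    (h4 : 16 * W'.a₄ = -(a * b)) (h6 : W'.a₆ = 0) : IsFreyModel (W'.map φ) (φ a) (φ b) where
  a₁ := by rw [map_a₁, h1, map_one]
  a₂ := by
    have := congrArg φ h2
    simpa only [map_a₂, map_mul, map_sub, map_one, map_ofNat] using this
  a₃ := by rw [map_a₃, h3, map_zero]
  a₄ := by
    have := congrArg φ h4
    simpa only [map_a₄, map_mul, map_neg, map_ofNat] using this
  a₆ := by rw [map_a₆, h6, map_zero]

end Model

section Roots

variable {R L : Type*} [CommRing R] [Field L] [IsAlgClosed L] {ι : R →+* L}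

/-- a monic nonconstant polynomial over `R` has a root in `R`. -/
theorem rl74_exists_root (hint : rl74_IntClosed ι) (hι : Function.Injective ι) (f : R[X])
    (hf : f.Monic) (hd : f.natDegree ≠ 0) : ∃ r : R, f.eval r = 0 := by
  have hdeg : (f.map ι).degree ≠ 0 := by
    rw [degree_eq_natDegree (hf.map ι).ne_zero, hf.natDegree_map ι]
    exact_mod_cast hd
  obtain ⟨x, hx⟩ := IsAlgClosed.exists_root (f.map ι) hdeg
  rw [IsRoot.def, eval_map] at hx
  obtain ⟨r, rfl⟩ := hint f hf x hx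
  refine ⟨r, hι ?_⟩
  rw [map_zero, ← hx, eval₂_at_apply]

end Roots

section VS

variable {L : Type*} [Field L] (O : ValuationSubring L)

theorem rl74_vs_intClosed : rl74_IntClosed O.subtype := by
  intro f hf x hx
  have hint : IsIntegral ↥O x := ⟨f, hf, hx⟩
  obtain ⟨y, hy⟩ := IsIntegrallyClosed.isIntegral_iff.mp hint
  exact ⟨y, hy⟩

theorem rl74_res_eq_zero_iff (x : ↥O) :
    IsLocalRing.residue ↥O x = 0 ↔ (x : L) ∈ O.nonunits := by
  rw [IsLocalRing.residue_eq_zero_iff]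
  exact (ValuationSubring.coe_mem_nonunits_iff).symm

end VS


section Setup

variable {R L k : Type*} [CommRing R] [Field L] [IsAlgClosed L] [Field k]
  {ι : R →+* L} {π : R →+* k}

/-- **Frey shape.**  Over a ring `R` with `2` invertible, integrally closed in the algebraically
closed field `L`, every Weierstrass curve is a translate of a curve in Frey shape; if moreover
`Δ` and `2` survive in the field `k`, so do `a`, `b`, `a + b`. -/
theorem rl74_setup (hint : rl74_IntClosed ι) (hι : Function.Injective ι) (WR : WeierstrassCurve R)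
    {h : R} (hh : 2 * h = 1) (h2k : (2 : k) ≠ 0) (hΔk : π WR.Δ ≠ 0) :
    ∃ (CO : WeierstrassCurve.VariableChange R) (a b : R), CO.u = 1 ∧
      (∀ {WL : WeierstrassCurve L}, WL = WR.map ι → IsFreyModel ((CO.map ι) • WL) (ι a) (ι b)) ∧
      (∀ {Wk : WeierstrassCurve k}, Wk = WR.map π → IsFreyModel ((CO.map π) • Wk) (π a) (π b)) ∧
      π a ≠ 0 ∧ π b ≠ 0 ∧ π a + π b ≠ 0 := by
  have h4 : 4 * h ^ 2 = 1 := by linear_combination (2 * h + 1) * hh
  have : Nontrivial R := ⟨⟨0, 1, fun h01 => by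
    have := congrArg ι h01
    rw [map_zero, map_one] at this
    exact zero_ne_one this⟩⟩
  -- a root of the 2-division cubic
  obtain ⟨e, he⟩ : ∃ e : R, 4 * e ^ 3 + WR.b₂ * e ^ 2 + 2 * WR.b₄ * e + WR.b₆ = 0 := by
    have hlt : (C (WR.b₂ * h ^ 2) * X ^ 2 + C (2 * WR.b₄ * h ^ 2) * X +
        C (WR.b₆ * h ^ 2) : R[X]).degree < ((3 : ℕ) : WithBot ℕ) :=
      lt_of_le_of_lt degree_quadratic_le (by exact_mod_cast (by norm_num : (2 : ℕ) < 3))
    have hmon : (X ^ 3 + (C (WR.b₂ * h ^ 2) * X ^ 2 + C (2 * WR.b₄ * h ^ 2) * X +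
        C (WR.b₆ * h ^ 2)) : R[X]).Monic := monic_X_pow_add hlt
    have hdeg : (X ^ 3 + (C (WR.b₂ * h ^ 2) * X ^ 2 + C (2 * WR.b₄ * h ^ 2) * X +
        C (WR.b₆ * h ^ 2)) : R[X]).natDegree ≠ 0 := by
      rw [natDegree_add_eq_left_of_degree_lt (by rw [degree_X_pow]; exact hlt), natDegree_X_pow]
      norm_num
    obtain ⟨e, he⟩ := rl74_exists_root hint hι _ hmon hdeg
    refine ⟨e, ?_⟩
    simp only [eval_add, eval_mul, eval_pow, eval_X, eval_C] at he
    linear_combination 4 * he - (WR.b₂ * e ^ 2 + 2 * WR.b₄ * e + WR.b₆) * h4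
  obtain ⟨CO, hCO⟩ : ∃ CO : WeierstrassCurve.VariableChange R, CO = rl74_C WR h e := ⟨_, rfl⟩
  have h1 : (CO • WR).a₁ = 1 := by rw [hCO]; exact rl74_C_a₁ WR e hh
  have h3 : (CO • WR).a₃ = 0 := by rw [hCO]; exact rl74_C_a₃ WR e hh
  have h6 : (CO • WR).a₆ = 0 := by rw [hCO]; exact rl74_C_a₆ WR hh he
  have hΔ' : (CO • WR).Δ = WR.Δ := by rw [hCO]; exact rl74_C_Δ WR h e
  have hCu : CO.u = 1 := by rw [hCO]; rfl
  -- a root of the quadratic
  obtain ⟨a, ha⟩ : ∃ a : R, a ^ 2 + (4 * (CO • WR).a₂ + 1) * a + 16 * (CO • WR).a₄ = 0 := by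
    have hlt : (C (4 * (CO • WR).a₂ + 1) * X + C (16 * (CO • WR).a₄) : R[X]).degree <
        ((2 : ℕ) : WithBot ℕ) :=
      lt_of_le_of_lt degree_linear_le (by exact_mod_cast (by norm_num : (1 : ℕ) < 2))
    have hmon : (X ^ 2 + (C (4 * (CO • WR).a₂ + 1) * X + C (16 * (CO • WR).a₄)) : R[X]).Monic :=
      monic_X_pow_add hlt
    have hdeg : (X ^ 2 + (C (4 * (CO • WR).a₂ + 1) * X + C (16 * (CO • WR).a₄)) :
        R[X]).natDegree ≠ 0 := by
      rw [natDegree_add_eq_left_of_degree_lt (by rw [degree_X_pow]; exact hlt), natDegree_X_pow]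
      norm_num
    obtain ⟨a, ha⟩ := rl74_exists_root hint hι _ hmon hdeg
    refine ⟨a, ?_⟩
    simp only [eval_add, eval_mul, eval_pow, eval_X, eval_C] at ha
    linear_combination ha
  obtain ⟨b, hb⟩ : ∃ b : R, b = a + (4 * (CO • WR).a₂ + 1) := ⟨_, rfl⟩
  have hA2 : 4 * (CO • WR).a₂ = b - 1 - a := by rw [hb]; ring
  have hA4 : 16 * (CO • WR).a₄ = -(a * b) := by rw [hb]; linear_combination ha
  have hΔ : 256 * WR.Δ = (a * b * (a + b)) ^ 2 := by
    rw [← hΔ']; exact rl74_frey_Δ _ h1 hA2 h3 hA4 h6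
  have hprod : π a * π b * (π a + π b) ≠ 0 := by
    intro h0
    apply hΔk
    have e1 := congrArg π hΔ
    simp only [map_mul, map_pow, map_add, map_ofNat] at e1
    rw [h0] at e1
    have h256 : (256 : k) ≠ 0 := by
      have : (256 : k) = 2 ^ 8 := by norm_num
      rw [this]; exact pow_ne_zero 8 h2k
    exact (mul_eq_zero.mp (by rw [e1]; ring : (256 : k) * π WR.Δ = 0)).resolve_left h256
  refine ⟨CO, a, b, hCu, ?_, ?_, left_ne_zero_of_mul (left_ne_zero_of_mul hprod),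
    right_ne_zero_of_mul (left_ne_zero_of_mul hprod), right_ne_zero_of_mul hprod⟩
  · intro WL hWL
    subst hWL
    rw [map_variableChange]
    exact rl74_isFreyModel_map ι h1 hA2 h3 hA4 h6
  · intro Wk hWk
    subst hWk
    rw [map_variableChange]
    exact rl74_isFreyModel_map π h1 hA2 h3 hA4 h6

end Setup


section Transfer

/-- normalised coordinates of the preimage of an affine point under a translation (`u = 1`). -/
theorem rl74_transfer_coords {F : Type*} [Field F] [DecidableEq F] {W₁ W₂ : WeierstrassCurve F}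
    (C : WeierstrassCurve.VariableChange F) (hu : C.u = 1) (h : W₂ = C • W₁) {x y : F}
    (hns : W₁.toAffine.Nonsingular x y) :
    (vc83_addEquiv C h).symm (Point.some x y hns) ≠ 0 ∧
    ptX ((vc83_addEquiv C h).symm (Point.some x y hns)) = 4 * (x - C.r) ∧
    ptY ((vc83_addEquiv C h).symm (Point.some x y hns)) =
      8 * (y - C.s * (x - C.r) - C.t) + 4 * (x - C.r) := by
  have key : vc83_addEquiv C h ((vc83_addEquiv C h).symm (Point.some x y hns)) =
      Point.some x y hns := AddEquiv.apply_symm_apply _ _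
  generalize (vc83_addEquiv C h).symm (Point.some x y hns) = P' at key
  rcases P' with _ | ⟨x', y', h'⟩
  · exact absurd key (by simp [vc83_addEquiv_apply, vc83_map])
  · rw [vc83_addEquiv_apply, vc83_map_some] at key
    simp only [Point.some.injEq] at key
    obtain ⟨hx, hy⟩ := key
    simp only [vc83_X, vc83_Y, hu, Units.val_one, one_pow, one_mul] at hx hy
    refine ⟨Point.some_ne_zero _, ?_, ?_⟩
    · show 4 * x' = _
      rw [← hx]; ring
    · show 8 * y' + 4 * x' = _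
      rw [← hx, ← hy]; ring

/-- solving the normalised coordinates for the original ones. -/
theorem rl74_solve_coords {F : Type*} [CommRing F] {x y r s t c ξ η : F} (h4 : 4 * c ^ 2 = 1)
    (h8 : 8 * c ^ 3 = 1) (hX : ξ = 4 * (x - r))
    (hY : η = 8 * (y - s * (x - r) - t) + 4 * (x - r)) :
    x = c ^ 2 * ξ + r ∧ y = c ^ 3 * (η - ξ) + s * (c ^ 2 * ξ) + t := by
  subst hX; subst hY
  constructor
  · linear_combination (-(x - r)) * h4
  · linear_combination (-(y - s * (x - r) - t)) * h8 + (-(s * (x - r))) * h4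

end Transfer


section Good

variable {R L k : Type*} [CommRing R] [Field L] [DecidableEq L] [IsAlgClosed L] [Field k]
  [DecidableEq k] {ι : R →+* L} {π : R →+* k}

omit [DecidableEq k] in
/-- **Integrality of torsion.**  Affine `(2m+1)`-torsion points of `WL = WR.map ι` have
coordinates in `ι R`. -/
theorem rl74_good_coords_mem (hint : rl74_IntClosed ι) (hι : Function.Injective ι)
    (WR : WeierstrassCurve R) {h : R} (hh : 2 * h = 1) (h2k : (2 : k) ≠ 0) (hΔk : π WR.Δ ≠ 0)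
    {m : ℕ} (hm : 1 ≤ m) {u : R} (hu : u * (-((2 * m + 1 : ℕ) : R)) = 1)
    {WL : WeierstrassCurve L} (hWL : WL = WR.map ι) {x y : L}
    (hns : WL.toAffine.Nonsingular x y)
    (ht : (2 * m + 1) • (Point.some x y hns : WL.toAffine.Point) = 0) :
    ∃ X Y : R, x = ι X ∧ y = ι Y := by
  obtain ⟨CO, a, b, hCu, hFL, -, hak, hbk, habk⟩ := rl74_setup (π := π) hint hι WR hh h2k hΔk
  have hFL' := hFL hWL
  have h2 : (2 : L) ≠ 0 := by
    have := rl74_ne_zero_of_res (ι := ι) (π := π) (x := 2) (by rwa [map_ofNat]) hι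
    rwa [map_ofNat] at this
  have ha : ι a ≠ 0 := rl74_ne_zero_of_res hak hι
  have hb : ι b ≠ 0 := rl74_ne_zero_of_res hbk hι
  have hab : ι a + ι b ≠ 0 := by
    have e : ι a + ι b = ι (a + b) := (map_add ι a b).symm
    rw [e]; exact rl74_ne_zero_of_res (π := π) (x := a + b) (by rw [map_add]; exact habk) hι
  have hCLu : (CO.map ι).u = 1 := by
    rw [WeierstrassCurve.VariableChange.map_u, hCu, map_one]
  obtain ⟨hP'0, hPX, hPY⟩ := rl74_transfer_coords (CO.map ι) hCLu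
    (rfl : (CO.map ι) • WL = (CO.map ι) • WL) hns
  have hP't : (2 * m + 1) • (vc83_addEquiv (CO.map ι)
      (rfl : (CO.map ι) • WL = (CO.map ι) • WL)).symm (Point.some x y hns) = 0 := by
    rw [← map_nsmul, ht, map_zero]
  obtain ⟨ξ, η, hξ, hη⟩ := rl74_coords_mem hint hFL' h2 ha hb hab hm hu hP'0 hP't
  rw [hξ] at hPX
  rw [hη] at hPY
  simp only [WeierstrassCurve.VariableChange.map_r, WeierstrassCurve.VariableChange.map_s,
    WeierstrassCurve.VariableChange.map_t] at hPX hPY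
  have h4 : 4 * h ^ 2 = 1 := by linear_combination (2 * h + 1) * hh
  have h8 : 8 * h ^ 3 = 1 := by linear_combination (4 * h ^ 2 + 2 * h + 1) * hh
  have h4L : 4 * ι h ^ 2 = 1 := by
    have := congrArg ι h4
    simpa only [map_mul, map_pow, map_ofNat, map_one] using this
  have h8L : 8 * ι h ^ 3 = 1 := by
    have := congrArg ι h8
    simpa only [map_mul, map_pow, map_ofNat, map_one] using this
  obtain ⟨hx, hy⟩ := rl74_solve_coords h4L h8L hPX hPY
  refine ⟨h ^ 2 * ξ + CO.r, h ^ 3 * (η - ξ) + CO.s * (h ^ 2 * ξ) + CO.t, ?_, ?_⟩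
  · rw [hx]; simp only [map_add, map_mul, map_pow]
  · rw [hy]; simp only [map_add, map_mul, map_pow, map_sub]

omit [DecidableEq k] in
/-- **Injectivity of reduction on torsion.**  Two affine `(2m+1)`-torsion points of
`WL = WR.map ι` with the same residues are equal. -/
theorem rl74_good_inj (hint : rl74_IntClosed ι) (hι : Function.Injective ι)
    (WR : WeierstrassCurve R) {h : R} (hh : 2 * h = 1) (h2k : (2 : k) ≠ 0) (hΔk : π WR.Δ ≠ 0)
    {m : ℕ} (hm : 1 ≤ m) {u : R} (hu : u * (-((2 * m + 1 : ℕ) : R)) = 1)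
    {WL : WeierstrassCurve L} (hWL : WL = WR.map ι) {X₁ Y₁ X₂ Y₂ : R}
    (h₁ : WL.toAffine.Nonsingular (ι X₁) (ι Y₁)) (h₂ : WL.toAffine.Nonsingular (ι X₂) (ι Y₂))
    (t₁ : (2 * m + 1) • (Point.some _ _ h₁ : WL.toAffine.Point) = 0)
    (t₂ : (2 * m + 1) • (Point.some _ _ h₂ : WL.toAffine.Point) = 0)
    (hX : π X₁ = π X₂) (hY : π Y₁ = π Y₂) : X₁ = X₂ ∧ Y₁ = Y₂ := by
  obtain ⟨CO, a, b, hCu, hFL, -, hak, hbk, habk⟩ := rl74_setup (π := π) hint hι WR hh h2k hΔk
  have hFL' := hFL hWL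
  have hCLu : (CO.map ι).u = 1 := by
    rw [WeierstrassCurve.VariableChange.map_u, hCu, map_one]
  obtain ⟨hP₁0, hPX₁, hPY₁⟩ := rl74_transfer_coords (CO.map ι) hCLu
    (rfl : (CO.map ι) • WL = (CO.map ι) • WL) h₁
  obtain ⟨hP₂0, hPX₂, hPY₂⟩ := rl74_transfer_coords (CO.map ι) hCLu
    (rfl : (CO.map ι) • WL = (CO.map ι) • WL) h₂
  have hP₁t : (2 * m + 1) • (vc83_addEquiv (CO.map ι)
      (rfl : (CO.map ι) • WL = (CO.map ι) • WL)).symm (Point.some _ _ h₁) = 0 := by
    rw [← map_nsmul, t₁, map_zero]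
  have hP₂t : (2 * m + 1) • (vc83_addEquiv (CO.map ι)
      (rfl : (CO.map ι) • WL = (CO.map ι) • WL)).symm (Point.some _ _ h₂) = 0 := by
    rw [← map_nsmul, t₂, map_zero]
  simp only [WeierstrassCurve.VariableChange.map_r, WeierstrassCurve.VariableChange.map_s,
    WeierstrassCurve.VariableChange.map_t] at hPX₁ hPY₁ hPX₂ hPY₂
  have e := rl74_inj (π := π) hint hι hFL' h2k hak hbk habk hm hu hP₁0 hP₂0 hP₁t hP₂t
    (ξ₁ := 4 * (X₁ - CO.r)) (ξ₂ := 4 * (X₂ - CO.r))
    (η₁ := 8 * (Y₁ - CO.s * (X₁ - CO.r) - CO.t) + 4 * (X₁ - CO.r))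
    (η₂ := 8 * (Y₂ - CO.s * (X₂ - CO.r) - CO.t) + 4 * (X₂ - CO.r))
    (by rw [hPX₁]; simp only [map_mul, map_sub, map_ofNat])
    (by rw [hPX₂]; simp only [map_mul, map_sub, map_ofNat])
    (by rw [hPY₁]; simp only [map_mul, map_sub, map_add, map_ofNat])
    (by rw [hPY₂]; simp only [map_mul, map_sub, map_add, map_ofNat])
    (by simp only [map_mul, map_sub, map_ofNat, hX])
    (by simp only [map_mul, map_sub, map_add, map_ofNat, hX, hY])
  have e' := (vc83_addEquiv (CO.map ι)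
    (rfl : (CO.map ι) • WL = (CO.map ι) • WL)).symm.injective e
  simp only [Point.some.injEq] at e'
  exact ⟨hι e'.1, hι e'.2⟩

/-- **Lifting of torsion.**  Every affine `(2m+1)`-torsion point of `Wk = WR.map π` is the
reduction of an affine `(2m+1)`-torsion point of `WL = WR.map ι`. -/
theorem rl74_good_lift (hint : rl74_IntClosed ι) (hι : Function.Injective ι)
    (WR : WeierstrassCurve R) {h : R} (hh : 2 * h = 1) (h2k : (2 : k) ≠ 0) (hΔk : π WR.Δ ≠ 0)
    {m : ℕ} (hm : 1 ≤ m) {u : R} (hu : u * (-((2 * m + 1 : ℕ) : R)) = 1)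
    {WL : WeierstrassCurve L} (hWL : WL = WR.map ι) {Wk : WeierstrassCurve k}
    (hWk : Wk = WR.map π) {x₀ y₀ : k} (h₀ : Wk.toAffine.Nonsingular x₀ y₀)
    (t₀ : (2 * m + 1) • (Point.some x₀ y₀ h₀ : Wk.toAffine.Point) = 0) :
    ∃ (X Y : R) (hns : WL.toAffine.Nonsingular (ι X) (ι Y)),
      (2 * m + 1) • (Point.some _ _ hns : WL.toAffine.Point) = 0 ∧ π X = x₀ ∧ π Y = y₀ := by
  obtain ⟨CO, a, b, hCu, hFL, hFk, hak, hbk, habk⟩ :=
    rl74_setup (π := π) hint hι WR hh h2k hΔk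
  have hFL' := hFL hWL
  have hFk' := hFk hWk
  have hCLu : (CO.map ι).u = 1 := by
    rw [WeierstrassCurve.VariableChange.map_u, hCu, map_one]
  have hCku : (CO.map π).u = 1 := by
    rw [WeierstrassCurve.VariableChange.map_u, hCu, map_one]
  obtain ⟨hQ'0, hQX, hQY⟩ := rl74_transfer_coords (CO.map π) hCku
    (rfl : (CO.map π) • Wk = (CO.map π) • Wk) h₀
  have hQ't : (2 * m + 1) • (vc83_addEquiv (CO.map π)
      (rfl : (CO.map π) • Wk = (CO.map π) • Wk)).symm (Point.some x₀ y₀ h₀) = 0 := by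
    rw [← map_nsmul, t₀, map_zero]
  obtain ⟨P', ξ, η, hP'0, hP't, hξ, hη, hξk, hηk⟩ :=
    rl74_lift hint hι hFL' hFk' h2k hak hbk habk hm hu hQ'0 hQ't
  rw [hQX] at hξk
  rw [hQY] at hηk
  simp only [WeierstrassCurve.VariableChange.map_r, WeierstrassCurve.VariableChange.map_s,
    WeierstrassCurve.VariableChange.map_t] at hξk hηk
  -- back to `WL`
  have hP0 : vc83_addEquiv (CO.map ι) (rfl : (CO.map ι) • WL = (CO.map ι) • WL) P' ≠ 0 := by
    intro h0
    exact hP'0 ((AddEquiv.map_eq_zero_iff _).mp h0)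
  have hPt : (2 * m + 1) • vc83_addEquiv (CO.map ι)
      (rfl : (CO.map ι) • WL = (CO.map ι) • WL) P' = 0 := by
    rw [← map_nsmul, hP't, map_zero]
  have hsymm : (vc83_addEquiv (CO.map ι) (rfl : (CO.map ι) • WL = (CO.map ι) • WL)).symm
      (vc83_addEquiv (CO.map ι) (rfl : (CO.map ι) • WL = (CO.map ι) • WL) P') = P' :=
    AddEquiv.symm_apply_apply _ _
  generalize vc83_addEquiv (CO.map ι) (rfl : (CO.map ι) • WL = (CO.map ι) • WL) P' = P
    at hP0 hPt hsymm
  rcases P with _ | ⟨x, y, hns⟩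
  · exact absurd rfl hP0
  obtain ⟨-, hPX, hPY⟩ := rl74_transfer_coords (CO.map ι) hCLu
    (rfl : (CO.map ι) • WL = (CO.map ι) • WL) hns
  rw [hsymm, hξ] at hPX
  rw [hsymm, hη] at hPY
  simp only [WeierstrassCurve.VariableChange.map_r, WeierstrassCurve.VariableChange.map_s,
    WeierstrassCurve.VariableChange.map_t] at hPX hPY
  have h4 : 4 * h ^ 2 = 1 := by linear_combination (2 * h + 1) * hh
  have h8 : 8 * h ^ 3 = 1 := by linear_combination (4 * h ^ 2 + 2 * h + 1) * hh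
  have h4L : 4 * ι h ^ 2 = 1 := by
    have := congrArg ι h4
    simpa only [map_mul, map_pow, map_ofNat, map_one] using this
  have h8L : 8 * ι h ^ 3 = 1 := by
    have := congrArg ι h8
    simpa only [map_mul, map_pow, map_ofNat, map_one] using this
  have h4k : 4 * π h ^ 2 = 1 := by
    have := congrArg π h4
    simpa only [map_mul, map_pow, map_ofNat, map_one] using this
  have h8k : 8 * π h ^ 3 = 1 := by
    have := congrArg π h8
    simpa only [map_mul, map_pow, map_ofNat, map_one] using this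
  obtain ⟨hx, hy⟩ := rl74_solve_coords h4L h8L hPX hPY
  obtain ⟨hx₀, hy₀⟩ := rl74_solve_coords h4k h8k hξk hηk
  have hx' : x = ι (h ^ 2 * ξ + CO.r) := by
    rw [hx]; simp only [map_add, map_mul, map_pow]
  have hy' : y = ι (h ^ 3 * (η - ξ) + CO.s * (h ^ 2 * ξ) + CO.t) := by
    rw [hy]; simp only [map_add, map_mul, map_pow, map_sub]
  subst hx'
  subst hy'
  refine ⟨_, _, hns, hPt, ?_, ?_⟩
  · rw [hx₀]; simp only [map_add, map_mul, map_pow]
  · rw [hy₀]; simp only [map_add, map_mul, map_pow, map_sub]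

end Good


section Final

variable {L : Type*} [Field L] [IsAlgClosed L] [DecidableEq L]

/-- **Reduction link (M5.F3).**  `W` a Weierstrass curve over `ℤ`, `p ≠ 2` and `ℓ ≠ 2, p` primes
with `ℓ ∤ Δ(W)` and `p ∣ #W(𝔽_ℓ)`.  `L` is an algebraically closed field, `O` a valuation subring
of `L` whose maximal ideal contains `ℓ`, and `τ : L →+* L` satisfies `τ x ≡ x ^ ℓ` modulo the
maximal ideal of `O` on the coordinates (automatically in `O`) of the affine `p`-torsion points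
of `W` over `L`.  Then `τ` fixes both coordinates of some affine `p`-torsion point. -/
theorem rl74_frob_fixed (W : WeierstrassCurve ℤ) {p ℓ : ℕ} (hp : p.Prime) (hp2 : p ≠ 2)
    (hℓ : ℓ.Prime) (hℓ2 : ℓ ≠ 2) (hℓp : ℓ ≠ p) (hgood : ¬ (ℓ : ℤ) ∣ W.Δ)
    (hdiv : p ∣ (W.reductionMod ℓ).card)
    {WL : WeierstrassCurve L} (hWL : WL = W.map (Int.castRingHom L))
    (O : ValuationSubring L) (hO : (ℓ : L) ∈ O.nonunits) (τ : L →+* L)
    (hτ : ∀ (x y : L) (h : WL.toAffine.Nonsingular x y),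
      p • (Point.some x y h : WL.toAffine.Point) = 0 → x ∈ O → y ∈ O →
        τ x - x ^ ℓ ∈ O.nonunits ∧ τ y - y ^ ℓ ∈ O.nonunits) :
    ∃ (x y : L) (h : WL.toAffine.Nonsingular x y),
      p • (Point.some x y h : WL.toAffine.Point) = 0 ∧ τ x = x ∧ τ y = y := by
  classical
  have : Fact ℓ.Prime := ⟨hℓ⟩
  have : NeZero ℓ := ⟨hℓ.ne_zero⟩
  have hι : Function.Injective O.subtype := Subtype.coe_injective
  have hint : rl74_IntClosed O.subtype := rl74_vs_intClosed O
  have hπ := rl74_res_eq_zero_iff O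
  -- `ℓ = 0` in the residue field, integers prime to `ℓ` are nonzero there
  have hℓk : ((ℓ : ℕ) : IsLocalRing.ResidueField ↥O) = 0 := by
    have h1 : IsLocalRing.residue ↥O ((ℓ : ℕ) : ↥O) = 0 := (hπ _).mpr (by push_cast; exact hO)
    rwa [map_natCast] at h1
  have hunit : ∀ n : ℤ, ¬ (ℓ : ℤ) ∣ n → (n : IsLocalRing.ResidueField ↥O) ≠ 0 := by
    intro n hn h0
    have hcop : IsCoprime (ℓ : ℤ) n :=
      (Nat.prime_iff_prime_int.mp hℓ).coprime_iff_not_dvd.mpr hn
    obtain ⟨a, b, hab⟩ := hcop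
    have e := congrArg (Int.cast : ℤ → IsLocalRing.ResidueField ↥O) hab
    push_cast at e
    rw [hℓk, h0, mul_zero, mul_zero, add_zero] at e
    exact zero_ne_one e
  have h2k : (2 : IsLocalRing.ResidueField ↥O) ≠ 0 := by
    have := hunit 2 (by
      intro h
      have h' : ℓ ∣ 2 := by exact_mod_cast h
      exact hℓ2 ((Nat.prime_dvd_prime_iff_eq hℓ Nat.prime_two).mp h'))
    exact_mod_cast this
  -- `p = 2m+1`
  obtain ⟨m, rfl⟩ : ∃ m, p = 2 * m + 1 := hp.eq_two_or_odd'.resolve_left hp2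
  have hm : 1 ≤ m := by have := hp.two_le; omega
  have : Fact (2 * m + 1).Prime := ⟨hp⟩
  have hpk : (((2 * m + 1 : ℕ) : ℤ) : IsLocalRing.ResidueField ↥O) ≠ 0 := hunit _ (by
    intro h
    have h' : ℓ ∣ 2 * m + 1 := by exact_mod_cast h
    exact hℓp ((Nat.prime_dvd_prime_iff_eq hℓ hp).mp h'))
  -- inverses in `O`
  obtain ⟨u, hu⟩ : ∃ u : ↥O, u * (-((2 * m + 1 : ℕ) : ↥O)) = 1 := by
    have hunit' : IsUnit (-((2 * m + 1 : ℕ) : ↥O)) := by
      rw [← IsLocalRing.residue_ne_zero_iff_isUnit, map_neg, map_natCast, neg_ne_zero]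
      exact_mod_cast hpk
    obtain ⟨v, hv⟩ := hunit'.exists_left_inv
    exact ⟨v, hv⟩
  obtain ⟨h, hh⟩ : ∃ h : ↥O, 2 * h = 1 := by
    have hunit' : IsUnit (2 : ↥O) := by
      rw [← IsLocalRing.residue_ne_zero_iff_isUnit, map_ofNat]
      exact h2k
    obtain ⟨v, hv⟩ := hunit'.exists_right_inv
    exact ⟨v, hv⟩
  -- the curve over `O`, `L` and the residue field
  obtain ⟨WR, hWR⟩ : ∃ WR : WeierstrassCurve ↥O, WR = W.map (Int.castRingHom ↥O) := ⟨_, rfl⟩
  have hWL' : WL = WR.map O.subtype := by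
    have e : O.subtype.comp (Int.castRingHom ↥O) = Int.castRingHom L := RingHom.ext_int _ _
    rw [hWL, hWR, WeierstrassCurve.map_map, e]
  have hWk : W.baseChange (IsLocalRing.ResidueField ↥O) = WR.map (IsLocalRing.residue ↥O) := by
    have e : (IsLocalRing.residue ↥O).comp (Int.castRingHom ↥O) =
        algebraMap ℤ (IsLocalRing.ResidueField ↥O) := RingHom.ext_int _ _
    rw [hWR, WeierstrassCurve.map_map, e]
    rfl
  have hΔk : IsLocalRing.residue ↥O WR.Δ ≠ 0 := by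
    rw [hWR, map_Δ, eq_intCast, map_intCast]
    exact hunit W.Δ hgood
  -- a point of order `p` over `𝔽_ℓ`
  have hdiv' : (2 * m + 1) ∣ Nat.card (W.baseChange (ZMod ℓ)).toAffine.Point := hdiv
  obtain ⟨Q₀, hQ₀⟩ := exists_prime_addOrderOf_dvd_card' (2 * m + 1) hdiv'
  have hQ₀0 : Q₀ ≠ 0 := by
    intro h0
    rw [h0, addOrderOf_zero] at hQ₀
    omega
  have hQ₀t : (2 * m + 1) • Q₀ = 0 := by rw [← hQ₀]; exact addOrderOf_nsmul_eq_zero Q₀
  rcases Q₀ with _ | ⟨x₀, y₀, h₀⟩
  · exact absurd rfl hQ₀0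
  -- its image over the residue field
  have : CharP (IsLocalRing.ResidueField ↥O) ℓ := (CharP.charP_iff_prime_eq_zero hℓ).mpr hℓk
  obtain ⟨f, -⟩ : ∃ f : ZMod ℓ →ₐ[ℤ] IsLocalRing.ResidueField ↥O, True :=
    ⟨(ZMod.castHom (dvd_refl ℓ) (IsLocalRing.ResidueField ↥O)).toIntAlgHom, trivial⟩
  have hQt := congrArg (Point.map (W' := W) f) hQ₀t
  rw [map_nsmul, map_zero, Point.map_some] at hQt
  -- lift
  obtain ⟨X, Y, hns, ht, hXk, hYk⟩ :=
    rl74_good_lift hint hι WR hh h2k hΔk hm hu hWL' hWk _ hQt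
  -- Frobenius
  obtain ⟨hτx, hτy⟩ := hτ _ _ hns ht X.2 Y.2
  have hτXmem : τ (X : L) ∈ O := by
    have := O.add_mem _ _ (O.nonunits_subset hτx) (pow_mem X.2 ℓ)
    simpa using this
  have hτYmem : τ (Y : L) ∈ O := by
    have := O.add_mem _ _ (O.nonunits_subset hτy) (pow_mem Y.2 ℓ)
    simpa using this
  have hTXk : IsLocalRing.residue ↥O ⟨τ (X : L), hτXmem⟩ = IsLocalRing.residue ↥O X := by
    have h1 : IsLocalRing.residue ↥O (⟨τ (X : L), hτXmem⟩ - X ^ ℓ) = 0 :=
      (hπ _).mpr (by push_cast; exact hτx)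
    rw [map_sub, map_pow, sub_eq_zero] at h1
    rw [h1, hXk, ← map_pow, ZMod.pow_card]
  have hTYk : IsLocalRing.residue ↥O ⟨τ (Y : L), hτYmem⟩ = IsLocalRing.residue ↥O Y := by
    have h1 : IsLocalRing.residue ↥O (⟨τ (Y : L), hτYmem⟩ - Y ^ ℓ) = 0 :=
      (hπ _).mpr (by push_cast; exact hτy)
    rw [map_sub, map_pow, sub_eq_zero] at h1
    rw [h1, hYk, ← map_pow, ZMod.pow_card]
  -- the image point under `τ`
  subst hWL
  have hτt : (2 * m + 1) • (Point.map (W' := W) τ.toIntAlgHom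
      (Point.some (O.subtype X) (O.subtype Y) hns)) = 0 :=
    (map_nsmul (Point.map (W' := W) τ.toIntAlgHom) (2 * m + 1) (Point.some _ _ hns)).symm.trans
      ((congrArg (Point.map (W' := W) τ.toIntAlgHom) ht).trans (map_zero _))
  obtain ⟨e1, e2⟩ := rl74_good_inj hint hι WR hh h2k hΔk hm hu hWL'
    (X₁ := ⟨τ (X : L), hτXmem⟩) (Y₁ := ⟨τ (Y : L), hτYmem⟩) (X₂ := X) (Y₂ := Y) _ hns hτt ht
    hTXk hTYk
  exact ⟨_, _, hns, ht, congrArg Subtype.val e1, congrArg Subtype.val e2⟩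

end Final

end Fermat.Agent.S41
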