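/-
S41 / M5.NE (helper92): the non-Eisenstein prime, final form.

`ne92_exists_good_prime`: for an elliptic curve `E / ℚ` with integral model `W`, an odd prime `p`
with irreducible mod `p` representation, every `m > 0` and every finite set `S` of primes there is
a prime `l = 1 mod m` outside `S`, good for `W`, with `p` not dividing `l + 1 - a_l(W)`.

Inputs: `ne92_fix_of_forall_dvd` (NonEis92), Frobenius existence `fe8_exists_frob_coe`
(FrobExist8), the reduction link `rl74_frob_fixed` (RedLink74), the point transport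
`vc83_galEquiv` (VarChange83) and the abelian corner `co82_corner'` (Corner82).
-/
import Mathlib
import Fermat.Prelude.Def_FLTPrelim_GaloisRep
import Fermat.Prelude.Def_FLTPrelim_Modularity
import Fermat.Prelude.Def_FLTPrelim_Ramification
import Fermat.Agent.S41.NonEis92
import Fermat.Agent.S41.RedLink74
import Fermat.Agent.S41.VarChange83
import Fermat.Agent.S41.Corner82
import Fermat.Agent.S41.FrobExist8

set_option autoImplicit false

open WeierstrassCurve WeierstrassCurve.Affine WeierstrassCurve.Affine.Point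

namespace Fermat.Agent.S41

local notation "Qb" => AlgebraicClosure ℚ
local notation "GQ" => (AlgebraicClosure ℚ ≃ₐ[ℚ] AlgebraicClosure ℚ)

/-- the discriminant of an integral model of an elliptic curve is nonzero -/
theorem ne92_Δ_ne_zero (E : WeierstrassCurve ℚ) [E.IsElliptic] {W : WeierstrassCurve ℤ}
    (hW : W.IsIntegralModelOf E) : W.Δ ≠ 0 := by
  obtain ⟨C, hC⟩ := hW
  intro h0
  have h1 : (W.map (Int.castRingHom ℚ)).Δ = 0 := by rw [map_Δ, h0, _root_.map_zero]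
  rw [← hC, variableChange_Δ] at h1
  rcases mul_eq_zero.mp h1 with h | h
  · exact (pow_ne_zero 12 (Units.ne_zero _)) h
  · exact E.isUnit_Δ.ne_zero h

/-- **Reduction link, `E`-form.** For a prime `ℓ ∤ 2 p Δ(W)`, a valuation subring `A` of `ℚ̄` over
`ℓ` and `τ` satisfying the Frobenius congruence at `A` on the field of definition of `E[p]`:
if `p` divides the number of points of `W` mod `ℓ`, then `τ` fixes a nonzero point of `E[p]`. -/
theorem ne92_redlink (E : WeierstrassCurve ℚ) {W : WeierstrassCurve ℤ}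
    (hW : W.IsIntegralModelOf E) (hΔ : W.Δ ≠ 0) {p : ℕ} (hp : p.Prime) (hp2 : p ≠ 2) :
    ∀ ℓ : ℕ, ℓ.Prime → ℓ ∉ (({2, p} : Finset ℕ) ∪ W.Δ.natAbs.primeFactors) →
      ∀ A : ValuationSubring Qb, A.LiesOverPrime ℓ →
      ∀ τ : GQ, ne92_FrobOn E p A τ ℓ → p ∣ (W.reductionMod ℓ).card →
        ∃ P : Submodule.torsionBy ℤ (E⁄Qb).Point p, P ≠ 0 ∧ τ • P = P := by
  obtain ⟨C, hC⟩ := hW
  intro ℓ hℓ hℓS A hA τ hFrob hdiv
  have hℓ2 : ℓ ≠ 2 := fun h => hℓS (by simp [h])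
  have hℓp : ℓ ≠ p := fun h => hℓS (by simp [h])
  have hgood : ¬ (ℓ : ℤ) ∣ W.Δ := by
    intro hdvd
    apply hℓS
    apply Finset.mem_union_right
    rw [Nat.mem_primeFactors]
    exact ⟨hℓ, Int.natCast_dvd.mp hdvd, Int.natAbs_ne_zero.mpr hΔ⟩
  -- the rational model and the equivariant comparison of points
  obtain ⟨Wℚ, hWℚ⟩ : ∃ Wℚ : WeierstrassCurve ℚ, Wℚ = W.map (Int.castRingHom ℚ) := ⟨_, rfl⟩
  rw [← hWℚ] at hC
  obtain ⟨φ, hφ⟩ : ∃ φ : (Wℚ⁄Qb).Point ≃+ (E⁄Qb).Point,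
      ∀ (σ : GQ) (P : (Wℚ⁄Qb).Point), φ (σ • P) = σ • φ P :=
    ⟨vc83_galEquiv Qb C hC.symm, fun σ P => vc83_galEquiv_smul C hC.symm σ P⟩
  have hWL : (Wℚ⁄Qb) = W.map (Int.castRingHom Qb) := by
    show Wℚ.map (algebraMap ℚ Qb) = _
    rw [hWℚ, WeierstrassCurve.map_map]
    exact congrArg W.map (RingHom.ext_int _ _)
  have hmem : ∀ (x y : Qb) (h : (Wℚ⁄Qb).toAffine.Nonsingular x y),
      p • (Point.some x y h : (Wℚ⁄Qb).toAffine.Point) = 0 →
        φ (Point.some x y h) ∈ Submodule.torsionBy ℤ (E⁄Qb).Point p := by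
    intro x y h hpP
    rw [Submodule.mem_torsionBy_iff, natCast_zsmul, ← map_nsmul, hpP, _root_.map_zero]
  have hτ : ∀ (x y : Qb) (h : (Wℚ⁄Qb).toAffine.Nonsingular x y),
      p • (Point.some x y h : (Wℚ⁄Qb).toAffine.Point) = 0 → x ∈ A → y ∈ A →
        (τ : Qb →+* Qb) x - x ^ ℓ ∈ A.nonunits ∧ (τ : Qb →+* Qb) y - y ^ ℓ ∈ A.nonunits := by
    intro x y h hpP hx hy
    have hfix : ∀ g : GQ, (∀ P : Submodule.torsionBy ℤ (E⁄Qb).Point p, g • P = P) →
        g x = x ∧ g y = y := by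
      intro g hg
      have h1 : g • φ (Point.some x y h) = φ (Point.some x y h) :=
        congrArg Subtype.val (hg ⟨_, hmem x y h hpP⟩)
      have h2 : g • (Point.some x y h : (Wℚ⁄Qb).Point) = Point.some x y h := by
        apply φ.injective
        rw [hφ]
        exact h1
      rw [algEquiv_smul_def, Point.map_some, Point.some.injEq] at h2
      exact h2
    exact ⟨hFrob x hx (fun g hg => (hfix g hg).1), hFrob y hy (fun g hg => (hfix g hg).2)⟩
  obtain ⟨x, y, h, hpP, hτx, hτy⟩ :=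
    rl74_frob_fixed W hp hp2 hℓ hℓ2 hℓp hgood hdiv hWL A hA (τ : Qb →+* Qb) hτ
  refine ⟨⟨_, hmem x y h hpP⟩, ?_, ?_⟩
  · intro h0
    have h1 : φ (Point.some x y h) = 0 := congrArg Subtype.val h0
    rw [AddEquiv.map_eq_zero_iff] at h1
    exact Point.some_ne_zero h h1
  · apply Subtype.ext
    show τ • φ (Point.some x y h) = φ (Point.some x y h)
    rw [← hφ]
    congr 1
    rw [algEquiv_smul_def, Point.map_some, Point.some.injEq]
    exact ⟨hτx, hτy⟩

/-- **Non-Eisenstein prime (M5).** `E / ℚ` an elliptic curve with integral model `W`, `p` an odd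
prime such that `E[p]` is irreducible. For every `m > 0` and every finite set `S` there is a prime
`ℓ ∉ S`, `ℓ ≡ 1 mod m`, of good reduction for `W`, with `p ∤ ℓ + 1 - a_ℓ(W) = #W(𝔽_ℓ)`. -/
theorem ne92_exists_good_prime (E : WeierstrassCurve ℚ) [E.IsElliptic] {W : WeierstrassCurve ℤ}
    (hW : W.IsIntegralModelOf E) {p : ℕ} (hp : p.Prime) (hp2 : p ≠ 2)
    (hirr : GaloisRepIsIrreducible (K := AlgebraicClosure ℚ) ℚ E p) (m : ℕ) (hm : 0 < m)
    (S : Finset ℕ) :
    ∃ ℓ : ℕ, ℓ.Prime ∧ ℓ ∉ S ∧ ℓ ≡ 1 [MOD m] ∧ W.IsGoodPrimeFor ℓ ∧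
      ¬ (p : ℤ) ∣ (ℓ : ℤ) + 1 - W.apOfModel ℓ := by
  by_contra hneg
  push Not at hneg
  have hΔ := ne92_Δ_ne_zero E hW
  have hm0 : NeZero m := ⟨hm.ne'⟩
  have hmQ : NeZero (m : Qb) := ⟨by exact_mod_cast hm.ne'⟩
  obtain ⟨ζ₀, hζ₀⟩ := HasEnoughRootsOfUnity.exists_primitiveRoot Qb m
  have hfin : Finite (Submodule.torsionBy ℤ (E⁄Qb).Point p) :=
    (tc82_card_torsionBy_elliptic E hp hp2).1
  have hfix := ne92_fix_of_forall_dvd E p hΔ (fun K _ _ _ σ S => fe8_exists_frob_coe K σ S) _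
    (ne92_redlink E hW hΔ hp hp2) m ζ₀ hζ₀ S hneg
  refine co82_corner' E hp hp2 hirr (nb92_H ℚ Qb m) (nb92_commutator_mem hζ₀) ?_
  intro h hh
  obtain ⟨P, hP0, hhP⟩ := hfix h hh
  refine ⟨P, fun h0 => hP0 (Subtype.ext h0), ?_, congrArg Subtype.val hhP⟩
  have h1 := P.2
  rw [Submodule.mem_torsionBy_iff, natCast_zsmul] at h1
  exact h1

end Fermat.Agent.S41
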