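/-
S41 (level raising), module M2.BH (helper88): the cusp-move lemma (pure integer arithmetic).

For a prime `ℓ ≡ 1 (mod M)` the Hecke representatives `[[1, j], [0, ℓ]]`, `[[ℓ, 0], [0, 1]]`
move every cusp (primitive vector `(a, c)`) inside its `Γ₀(M)`-orbit:
`α (a, c) = lam • γ (a, c)` with `γ ∈ Γ₀(M)` and `lam ∈ {1, ℓ}`; exactly one representative
has `lam = ℓ`.

* `cm88_move`      : primitive vectors congruent mod `M` are conjugate under `Γ(M)`.
* `cm88_move_some` : the representative `[[1, j], [0, ℓ]]`.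
* `cm88_move_none` : the representative `[[ℓ, 0], [0, 1]]`.
* `cm88_count`     : exactly one of the `ℓ + 1` representatives maps `(a, c)` into `ℓ ℤ²`.
* `cm88_boundary`  : a `Γ₀(M)`-invariant function on cusps (given as a projective function of
  integer vectors) is an eigenfunction of `T_ℓ` with eigenvalue `ℓ + 1`.
-/
import Mathlib

set_option autoImplicit false

open scoped MatrixGroups

namespace Fermat.Agent.S41

/-- Primitive integer vectors which are congruent modulo `M` are conjugate under the principal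
congruence subgroup `Γ(M)`. -/
theorem cm88_move {M : ℕ} {a c w₁ w₂ : ℤ} (hv : IsCoprime a c) (hw : IsCoprime w₁ w₂)
    (h1 : (M : ℤ) ∣ w₁ - a) (h2 : (M : ℤ) ∣ w₂ - c) :
    ∃ g : SL(2, ℤ), (M : ℤ) ∣ g 0 0 - 1 ∧ (M : ℤ) ∣ g 0 1 ∧ (M : ℤ) ∣ g 1 0 ∧
      (M : ℤ) ∣ g 1 1 - 1 ∧
      g 0 0 * a + g 0 1 * c = w₁ ∧ g 1 0 * a + g 1 1 * c = w₂ := by
  obtain ⟨x, y, hxy⟩ := hv
  obtain ⟨x', y', hxy'⟩ := hw
  -- `hxy : x * a + y * c = 1`, `hxy' : x' * w₁ + y' * w₂ = 1`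
  have e1 : ((w₁ : ℤ) : ZMod M) = (a : ZMod M) := by
    have := (ZMod.intCast_zmod_eq_zero_iff_dvd (w₁ - a) M).mpr h1
    push_cast at this
    exact sub_eq_zero.mp this
  have e2 : ((w₂ : ℤ) : ZMod M) = (c : ZMod M) := by
    have := (ZMod.intCast_zmod_eq_zero_iff_dvd (w₂ - c) M).mpr h2
    push_cast at this
    exact sub_eq_zero.mp this
  have E : (x : ZMod M) * a + y * c = 1 := by exact_mod_cast congrArg (Int.cast : ℤ → ZMod M) hxy
  have E' : (x' : ZMod M) * a + y' * c = 1 := by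
    have := congrArg (Int.cast : ℤ → ZMod M) hxy'
    push_cast at this
    rw [e1, e2] at this
    exact this
  set n : ℤ := x * y' - x' * y with hn
  refine ⟨⟨!![w₁ * x - c * (n * w₁ - y'), w₁ * y + a * (n * w₁ - y');
      w₂ * x - c * (n * w₂ + x'), w₂ * y + a * (n * w₂ + x')], ?_⟩, ?_, ?_, ?_, ?_, ?_, ?_⟩
  · rw [Matrix.det_fin_two_of]
    linear_combination (x' * w₁ + y' * w₂) * hxy + hxy'
  · show (M : ℤ) ∣ w₁ * x - c * (n * w₁ - y') - 1
    rw [← ZMod.intCast_zmod_eq_zero_iff_dvd]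
    push_cast
    rw [e1, hn]
    push_cast
    linear_combination (1 - (a : ZMod M) * x) * E' + ((a : ZMod M) * x') * E
  · show (M : ℤ) ∣ w₁ * y + a * (n * w₁ - y')
    rw [← ZMod.intCast_zmod_eq_zero_iff_dvd]
    push_cast
    rw [e1, hn]
    push_cast
    linear_combination ((a : ZMod M) * y') * E - ((a : ZMod M) * y) * E'
  · show (M : ℤ) ∣ w₂ * x - c * (n * w₂ + x')
    rw [← ZMod.intCast_zmod_eq_zero_iff_dvd]
    push_cast
    rw [e2, hn]
    push_cast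
    linear_combination ((c : ZMod M) * x') * E - ((c : ZMod M) * x) * E'
  · show (M : ℤ) ∣ w₂ * y + a * (n * w₂ + x') - 1
    rw [← ZMod.intCast_zmod_eq_zero_iff_dvd]
    push_cast
    rw [e2, hn]
    push_cast
    linear_combination (1 - (a : ZMod M) * x') * E + ((a : ZMod M) * x) * E'
  · show (w₁ * x - c * (n * w₁ - y')) * a + (w₁ * y + a * (n * w₁ - y')) * c = w₁
    linear_combination w₁ * hxy
  · show (w₂ * x - c * (n * w₂ + x')) * a + (w₂ * y + a * (n * w₂ + x')) * c = w₂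
    linear_combination w₂ * hxy

/-- The translation `[[1, j], [0, 1]]`. -/
def cm88_T (j : ℤ) : SL(2, ℤ) := ⟨!![1, j; 0, 1], by rw [Matrix.det_fin_two_of]; ring⟩

/-- Cusp move for the representative `[[1, j], [0, ℓ]]`: `(a + j c, ℓ c) = lam • γ (a, c)`. -/
theorem cm88_move_some {M ℓ : ℕ} (hℓ : ℓ.Prime) (hℓM : (M : ℤ) ∣ (ℓ : ℤ) - 1) {a c : ℤ}
    (hac : IsCoprime a c) (j : ℤ) :
    ∃ (g : SL(2, ℤ)) (lam : ℤ), (M : ℤ) ∣ g 1 0 ∧
      ((lam = 1 ∧ ¬ (ℓ : ℤ) ∣ a + j * c) ∨ (lam = ℓ ∧ (ℓ : ℤ) ∣ a + j * c)) ∧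
      a + j * c = lam * (g 0 0 * a + g 0 1 * c) ∧
      (ℓ : ℤ) * c = lam * (g 1 0 * a + g 1 1 * c) := by
  have hpp : Prime (ℓ : ℤ) := Nat.prime_iff_prime_int.mp hℓ
  have hac' : IsCoprime (a + j * c) c := by
    have := hac.add_mul_right_left j
    simpa [mul_comm] using this
  by_cases hdiv : (ℓ : ℤ) ∣ a + j * c
  · obtain ⟨m, hm⟩ := hdiv
    have hmc : IsCoprime m c := by
      rw [hm] at hac'
      exact hac'.of_mul_left_right
    obtain ⟨g₀, -, -, hg10, -, hg1, hg2⟩ := cm88_move (M := M) hac' hmc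
      (by
        obtain ⟨k, hk⟩ := hℓM
        exact ⟨-(k * m), by rw [hm]; linear_combination (-m) * hk⟩)
      (by simp)
    refine ⟨g₀ * cm88_T j, ℓ, ?_, Or.inr ⟨rfl, ⟨m, hm⟩⟩, ?_, ?_⟩
    · have : (g₀ * cm88_T j) 1 0 = g₀ 1 0 := by
        simp [cm88_T, Matrix.SpecialLinearGroup.coe_mul, Matrix.mul_apply, Fin.sum_univ_two]
      rw [this]; exact hg10
    · have h00 : (g₀ * cm88_T j) 0 0 = g₀ 0 0 := by
        simp [cm88_T, Matrix.SpecialLinearGroup.coe_mul, Matrix.mul_apply, Fin.sum_univ_two]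
      have h01 : (g₀ * cm88_T j) 0 1 = g₀ 0 0 * j + g₀ 0 1 := by
        simp [cm88_T, Matrix.SpecialLinearGroup.coe_mul, Matrix.mul_apply, Fin.sum_univ_two]
      rw [h00, h01, hm]
      linear_combination (-(ℓ : ℤ)) * hg1
    · have h10 : (g₀ * cm88_T j) 1 0 = g₀ 1 0 := by
        simp [cm88_T, Matrix.SpecialLinearGroup.coe_mul, Matrix.mul_apply, Fin.sum_univ_two]
      have h11 : (g₀ * cm88_T j) 1 1 = g₀ 1 0 * j + g₀ 1 1 := by
        simp [cm88_T, Matrix.SpecialLinearGroup.coe_mul, Matrix.mul_apply, Fin.sum_univ_two]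
      rw [h10, h11]
      linear_combination (-(ℓ : ℤ)) * hg2
  · have hcop : IsCoprime (a + j * c) ((ℓ : ℤ) * c) := by
      refine IsCoprime.mul_right ?_ hac'
      exact ((hpp.coprime_iff_not_dvd).mpr hdiv).symm
    obtain ⟨g₀, -, -, hg10, -, hg1, hg2⟩ := cm88_move (M := M) hac' hcop (by simp)
      (by
        obtain ⟨k, hk⟩ := hℓM
        exact ⟨k * c, by linear_combination c * hk⟩)
    refine ⟨g₀ * cm88_T j, 1, ?_, Or.inl ⟨rfl, hdiv⟩, ?_, ?_⟩
    · have : (g₀ * cm88_T j) 1 0 = g₀ 1 0 := by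
        simp [cm88_T, Matrix.SpecialLinearGroup.coe_mul, Matrix.mul_apply, Fin.sum_univ_two]
      rw [this]; exact hg10
    · have h00 : (g₀ * cm88_T j) 0 0 = g₀ 0 0 := by
        simp [cm88_T, Matrix.SpecialLinearGroup.coe_mul, Matrix.mul_apply, Fin.sum_univ_two]
      have h01 : (g₀ * cm88_T j) 0 1 = g₀ 0 0 * j + g₀ 0 1 := by
        simp [cm88_T, Matrix.SpecialLinearGroup.coe_mul, Matrix.mul_apply, Fin.sum_univ_two]
      rw [h00, h01]
      linear_combination (-1 : ℤ) * hg1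
    · have h10 : (g₀ * cm88_T j) 1 0 = g₀ 1 0 := by
        simp [cm88_T, Matrix.SpecialLinearGroup.coe_mul, Matrix.mul_apply, Fin.sum_univ_two]
      have h11 : (g₀ * cm88_T j) 1 1 = g₀ 1 0 * j + g₀ 1 1 := by
        simp [cm88_T, Matrix.SpecialLinearGroup.coe_mul, Matrix.mul_apply, Fin.sum_univ_two]
      rw [h10, h11]
      linear_combination (-1 : ℤ) * hg2

/-- Cusp move for the representative `[[ℓ, 0], [0, 1]]`: `(ℓ a, c) = lam • γ (a, c)`. -/
theorem cm88_move_none {M ℓ : ℕ} (hℓ : ℓ.Prime) (hℓM : (M : ℤ) ∣ (ℓ : ℤ) - 1) {a c : ℤ}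
    (hac : IsCoprime a c) :
    ∃ (g : SL(2, ℤ)) (lam : ℤ), (M : ℤ) ∣ g 1 0 ∧
      ((lam = 1 ∧ ¬ (ℓ : ℤ) ∣ c) ∨ (lam = ℓ ∧ (ℓ : ℤ) ∣ c)) ∧
      (ℓ : ℤ) * a = lam * (g 0 0 * a + g 0 1 * c) ∧
      c = lam * (g 1 0 * a + g 1 1 * c) := by
  have hpp : Prime (ℓ : ℤ) := Nat.prime_iff_prime_int.mp hℓ
  by_cases hdiv : (ℓ : ℤ) ∣ c
  · obtain ⟨m, hm⟩ := hdiv
    have ham : IsCoprime a m := by
      rw [hm] at hac
      exact hac.of_mul_right_right
    obtain ⟨g, -, -, hg10, -, hg1, hg2⟩ := cm88_move (M := M) hac ham (by simp)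
      (by
        obtain ⟨k, hk⟩ := hℓM
        exact ⟨-(k * m), by rw [hm]; linear_combination (-m) * hk⟩)
    refine ⟨g, ℓ, hg10, Or.inr ⟨rfl, ⟨m, hm⟩⟩, ?_, ?_⟩
    · linear_combination (-(ℓ : ℤ)) * hg1
    · rw [hg2]; exact hm
  · have hcop : IsCoprime ((ℓ : ℤ) * a) c :=
      IsCoprime.mul_left ((hpp.coprime_iff_not_dvd).mpr hdiv) hac
    obtain ⟨g, -, -, hg10, -, hg1, hg2⟩ := cm88_move (M := M) hac hcop
      (by
        obtain ⟨k, hk⟩ := hℓM
        exact ⟨k * a, by linear_combination a * hk⟩)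
      (by simp)
    refine ⟨g, 1, hg10, Or.inl ⟨rfl, hdiv⟩, ?_, ?_⟩
    · linear_combination (-1 : ℤ) * hg1
    · linear_combination (-1 : ℤ) * hg2

/-- Exactly one of the `ℓ + 1` representatives maps the primitive vector `(a, c)` into `ℓ ℤ²`. -/
theorem cm88_count {ℓ : ℕ} (hℓ : ℓ.Prime) {a c : ℤ} (hac : IsCoprime a c) :
    (Finset.univ.filter (fun j : Fin ℓ => (ℓ : ℤ) ∣ a + ((j : ℕ) : ℤ) * c)).card
      + (if (ℓ : ℤ) ∣ c then 1 else 0) = 1 := by
  have hpp : Prime (ℓ : ℤ) := Nat.prime_iff_prime_int.mp hℓ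
  have : Fact ℓ.Prime := ⟨hℓ⟩
  by_cases hdiv : (ℓ : ℤ) ∣ c
  · rw [if_pos hdiv]
    have hempty : (Finset.univ.filter (fun j : Fin ℓ => (ℓ : ℤ) ∣ a + ((j : ℕ) : ℤ) * c)) = ∅ := by
      rw [Finset.filter_eq_empty_iff]
      intro j _ hj
      have ha : (ℓ : ℤ) ∣ a := by
        have h2 : (ℓ : ℤ) ∣ ((j : ℕ) : ℤ) * c := Dvd.dvd.mul_left hdiv _
        have := dvd_sub hj h2
        simpa using this
      have hunit : IsUnit (ℓ : ℤ) := hac.isUnit_of_dvd' ha hdiv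
      exact hpp.not_isUnit hunit
    rw [hempty]; simp
  · rw [if_neg hdiv, add_zero]
    have hc' : (c : ZMod ℓ) ≠ 0 := by
      rwa [Ne, ZMod.intCast_zmod_eq_zero_iff_dvd]
    rw [Finset.card_eq_one]
    refine ⟨⟨(-(a : ZMod ℓ) * (c : ZMod ℓ)⁻¹).val, ZMod.val_lt _⟩, ?_⟩
    ext j
    simp only [Finset.mem_filter, Finset.mem_univ, true_and, Finset.mem_singleton]
    rw [← ZMod.intCast_zmod_eq_zero_iff_dvd]
    push_cast
    constructor
    · intro h
      apply Fin.ext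
      show (j : ℕ) = (-(a : ZMod ℓ) * (c : ZMod ℓ)⁻¹).val
      have hj : ((j : ℕ) : ZMod ℓ) = -(a : ZMod ℓ) * (c : ZMod ℓ)⁻¹ := by
        field_simp
        linear_combination h
      rw [← hj, ZMod.val_natCast, Nat.mod_eq_of_lt j.2]
    · intro h
      rw [h]
      show (a : ZMod ℓ) + ((-(a : ZMod ℓ) * (c : ZMod ℓ)⁻¹).val : ZMod ℓ) * c = 0
      rw [ZMod.natCast_zmod_val]
      field_simp
      ring

/-- **Boundary symbols are Eisenstein.** Let `F` be a function of integer vectors which is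
projective (`F (lam • v) = F v`) and `Γ₀(M)`-invariant on primitive vectors.  For a prime
`ℓ ≡ 1 (mod M)` the sum of `F` over the images of a primitive vector under the `ℓ + 1` Hecke
representatives `[[ℓ, 0], [0, 1]]`, `[[1, j], [0, ℓ]]` is `(ℓ + 1) • F v`. -/
theorem cm88_boundary {M ℓ : ℕ} (hℓ : ℓ.Prime) (hℓM : (M : ℤ) ∣ (ℓ : ℤ) - 1)
    {A : Type*} [AddCommGroup A] (F : ℤ → ℤ → A)
    (hscal : ∀ lam a c : ℤ, lam ≠ 0 → IsCoprime a c → F (lam * a) (lam * c) = F a c)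
    (hinv : ∀ g : SL(2, ℤ), (M : ℤ) ∣ g 1 0 → ∀ a c : ℤ, IsCoprime a c →
      F (g 0 0 * a + g 0 1 * c) (g 1 0 * a + g 1 1 * c) = F a c)
    {a c : ℤ} (hac : IsCoprime a c) :
    F ((ℓ : ℤ) * a) c + ∑ j : Fin ℓ, F (a + ((j : ℕ) : ℤ) * c) ((ℓ : ℤ) * c) =
      ((ℓ : ℤ) + 1) • F a c := by
  have hℓ0 : (ℓ : ℤ) ≠ 0 := by exact_mod_cast hℓ.ne_zero
  -- a vector of the form `lam • γ v` has the same value as `v`
  have key : ∀ (g : SL(2, ℤ)) (lam : ℤ), (M : ℤ) ∣ g 1 0 → lam ≠ 0 →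
      F (lam * (g 0 0 * a + g 0 1 * c)) (lam * (g 1 0 * a + g 1 1 * c)) = F a c := by
    intro g lam hg hlam
    have hcop : IsCoprime (g 0 0 * a + g 0 1 * c) (g 1 0 * a + g 1 1 * c) := by
      obtain ⟨x, y, hxy⟩ := hac
      have hdet : g 0 0 * g 1 1 - g 0 1 * g 1 0 = 1 := by
        have := g.2
        rwa [Matrix.det_fin_two] at this
      refine ⟨x * g 1 1 - y * g 1 0, y * g 0 0 - x * g 0 1, ?_⟩
      linear_combination (x * a + y * c) * hdet + hxy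
    rw [hscal lam _ _ hlam hcop, hinv g hg a c hac]
  have hnone : F ((ℓ : ℤ) * a) c = F a c := by
    obtain ⟨g, lam, hg, hlam, e0, e1⟩ := cm88_move_none (M := M) hℓ hℓM hac
    have hlam0 : lam ≠ 0 := by
      rcases hlam with ⟨h, -⟩ | ⟨h, -⟩ <;> rw [h]
      · norm_num
      · exact hℓ0
    have := key g lam hg hlam0
    rw [← e0, ← e1] at this
    exact this
  have hsome : ∀ j : Fin ℓ, F (a + ((j : ℕ) : ℤ) * c) ((ℓ : ℤ) * c) = F a c := by
    intro j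
    obtain ⟨g, lam, hg, hlam, e0, e1⟩ := cm88_move_some (M := M) hℓ hℓM hac ((j : ℕ) : ℤ)
    have hlam0 : lam ≠ 0 := by
      rcases hlam with ⟨h, -⟩ | ⟨h, -⟩ <;> rw [h]
      · norm_num
      · exact hℓ0
    have := key g lam hg hlam0
    rw [← e0, ← e1] at this
    exact this
  rw [hnone, Finset.sum_congr rfl (fun j _ => hsome j), Finset.sum_const, Finset.card_univ,
    Fintype.card_fin, add_smul, one_smul, add_comm, natCast_zsmul]

end Fermat.Agent.S41
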