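/-
S41 / M1.P (helper83): concrete facts about the model `P = OnePoint ℚ` of `ℙ¹(ℚ)` with Mathlib's
action of `GL (Fin 2) ℚ` (conventions C1-C3 of the S41 architecture ruling).

* `opc83_pt a c`         : the cusp `a / c` (`∞` if `c = 0`) of an integer vector `(a, c)`.
* `opc83_gl_smul_pt`     : `tr43_gl M • pt a c = pt (M₀₀ a + M₀₁ c) (M₁₀ a + M₁₁ c)`.
* `opc83_scalarTriv`, `opc83_scalarTriv_prod` : scalar matrices act trivially
                           (hypothesis `hsc : tr43_ScalarTriv _` of `Trace43`).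
* `opc83_move`           : for a prime `l ≡ 1 (mod M)` every Hecke representative `lbMat l i`
                           moves every cusp inside its `Γ₀(M)`-orbit.
* `opc83_sum_eq`, `opc83_boundary_T` : boundary symbols are Eisenstein (`T_l = l + 1`).
* `opc83_exists_fixed`   : a parabolic element of `SL(2, ℤ)` fixes a point of `OnePoint ℚ`.
-/
import Mathlib
import Fermat.Agent.S41.Trace43
import Fermat.Agent.S41.CuspMove88

set_option autoImplicit false

open CongruenceSubgroup OnePoint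
open scoped MatrixGroups

namespace Fermat.Agent.S41

open Fermat.Agent.S16

/-! ### (P1) cusps from integer vectors -/

/-- The point `u / v` of `OnePoint ℚ` (`∞` if `v = 0`) attached to a rational vector. -/
noncomputable def opc83_ptQ (u v : ℚ) : OnePoint ℚ :=
  if v = 0 then ∞ else ((u / v : ℚ) : OnePoint ℚ)

/-- The cusp `a / c` of `OnePoint ℚ` (`∞` if `c = 0`) attached to an integer vector `(a, c)`. -/
noncomputable def opc83_pt (a c : ℤ) : OnePoint ℚ :=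
  if c = 0 then ∞ else (((a : ℚ) / (c : ℚ) : ℚ) : OnePoint ℚ)

theorem opc83_pt_zero (a : ℤ) : opc83_pt a 0 = ∞ := by
  rw [opc83_pt, if_pos rfl]

theorem opc83_pt_of_ne (a : ℤ) {c : ℤ} (hc : c ≠ 0) :
    opc83_pt a c = (((a : ℚ) / (c : ℚ) : ℚ) : OnePoint ℚ) := by
  rw [opc83_pt, if_neg hc]

theorem opc83_pt_one (a : ℤ) : opc83_pt a 1 = ((a : ℚ) : OnePoint ℚ) := by
  rw [opc83_pt_of_ne a one_ne_zero]
  simp

theorem opc83_pt_eq_ptQ (a c : ℤ) : opc83_pt a c = opc83_ptQ (a : ℚ) (c : ℚ) := by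
  unfold opc83_pt opc83_ptQ
  by_cases hc : c = 0
  · simp [hc]
  · have hc' : (c : ℚ) ≠ 0 := by exact_mod_cast hc
    rw [if_neg hc, if_neg hc']

theorem opc83_ptQ_smul {lam : ℚ} (hlam : lam ≠ 0) (u v : ℚ) :
    opc83_ptQ (lam * u) (lam * v) = opc83_ptQ u v := by
  unfold opc83_ptQ
  by_cases hv : v = 0
  · simp [hv]
  · rw [if_neg hv, if_neg (mul_ne_zero hlam hv), mul_div_mul_left _ _ hlam]

theorem opc83_pt_smul {lam : ℤ} (hlam : lam ≠ 0) (a c : ℤ) :
    opc83_pt (lam * a) (lam * c) = opc83_pt a c := by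
  have hlam' : (lam : ℚ) ≠ 0 := by exact_mod_cast hlam
  rw [opc83_pt_eq_ptQ, opc83_pt_eq_ptQ]
  push_cast
  exact opc83_ptQ_smul hlam' _ _

/-- Every point of `OnePoint ℚ` is the cusp of a primitive integer vector. -/
theorem opc83_pt_surj (x : OnePoint ℚ) : ∃ a c : ℤ, IsCoprime a c ∧ opc83_pt a c = x := by
  induction x using OnePoint.rec with
  | infty => exact ⟨1, 0, isCoprime_one_left, opc83_pt_zero 1⟩
  | coe q =>
    refine ⟨q.num, (q.den : ℤ), ?_, ?_⟩
    · have := q.reduced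
      rw [Int.isCoprime_iff_gcd_eq_one]
      simpa [Int.gcd, Nat.Coprime] using this
    · have hden : ((q.den : ℤ)) ≠ 0 := by exact_mod_cast q.den_ne_zero
      rw [opc83_pt_of_ne _ hden]
      congr 1
      exact_mod_cast Rat.num_div_den q

theorem opc83_ne_zero_of_isCoprime {a c : ℤ} (h : IsCoprime a c) : a ≠ 0 ∨ c ≠ 0 := by
  by_contra hcon
  rw [not_or, not_not, not_not] at hcon
  obtain ⟨rfl, rfl⟩ := hcon
  exact not_isUnit_zero (isCoprime_zero_left.mp h)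

/-! ### (P2) the action on cusps -/

theorem opc83_gl_smul_ptQ (g : GL (Fin 2) ℚ) {u v : ℚ} (huv : u ≠ 0 ∨ v ≠ 0) :
    g • opc83_ptQ u v = opc83_ptQ (g 0 0 * u + g 0 1 * v) (g 1 0 * u + g 1 1 * v) := by
  by_cases hv : v = 0
  · subst hv
    have hu : u ≠ 0 := huv.resolve_right (by simp)
    have h1 : opc83_ptQ u 0 = ∞ := by rw [opc83_ptQ, if_pos rfl]
    rw [h1, OnePoint.smul_infty_eq_ite, mul_zero, add_zero, mul_zero, add_zero]
    by_cases h : g 1 0 = 0
    · rw [if_pos h, opc83_ptQ, if_pos (by rw [h, zero_mul])]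
    · rw [if_neg h, opc83_ptQ, if_neg (mul_ne_zero h hu), mul_div_mul_right _ _ hu]
  · rw [opc83_ptQ, if_neg hv, OnePoint.smul_some_eq_ite]
    have e : g 1 0 * (u / v) + g 1 1 = (g 1 0 * u + g 1 1 * v) / v := by field_simp
    have e' : g 0 0 * (u / v) + g 0 1 = (g 0 0 * u + g 0 1 * v) / v := by field_simp
    by_cases h : g 1 0 * u + g 1 1 * v = 0
    · rw [if_pos (by rw [e, h, zero_div]), opc83_ptQ, if_pos h]
    · rw [if_neg (by rw [e]; exact div_ne_zero h hv), opc83_ptQ, if_neg h, e, e',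
        div_div_div_cancel_right₀ hv]

theorem opc83_gl_apply {M : Matrix (Fin 2) (Fin 2) ℤ} (hM : M.det ≠ 0) (i j : Fin 2) :
    (tr43_gl M : GL (Fin 2) ℚ) i j = ((M i j : ℤ) : ℚ) := by
  have h := tr43_gl_coe hM
  exact congrFun (congrFun h i) j

/-- **(P2)** an integer matrix of nonzero determinant acts on cusps by the usual formula. -/
theorem opc83_gl_smul_pt {M : Matrix (Fin 2) (Fin 2) ℤ} (hM : M.det ≠ 0) {a c : ℤ}
    (hac : a ≠ 0 ∨ c ≠ 0) :
    tr43_gl M • opc83_pt a c = opc83_pt (M 0 0 * a + M 0 1 * c) (M 1 0 * a + M 1 1 * c) := by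
  have hac' : (a : ℚ) ≠ 0 ∨ (c : ℚ) ≠ 0 := by
    rcases hac with h | h
    · left; exact_mod_cast h
    · right; exact_mod_cast h
  rw [opc83_pt_eq_ptQ, opc83_pt_eq_ptQ, opc83_gl_smul_ptQ _ hac', opc83_gl_apply hM,
    opc83_gl_apply hM, opc83_gl_apply hM, opc83_gl_apply hM]
  push_cast
  rfl

/-- **(P2)** for `SL(2, ℤ)` through `mapGL ℚ`. -/
theorem opc83_sl_smul_pt (γ : SL(2, ℤ)) {a c : ℤ} (hac : a ≠ 0 ∨ c ≠ 0) :
    Matrix.SpecialLinearGroup.mapGL ℚ γ • opc83_pt a c =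
      opc83_pt (γ 0 0 * a + γ 0 1 * c) (γ 1 0 * a + γ 1 1 * c) := by
  rw [← tr43_gl_sl]
  exact opc83_gl_smul_pt (by rw [γ.2]; exact one_ne_zero) hac

/-- Every point of `OnePoint ℚ` is `opc83_ptQ u v` for a nonzero rational vector. -/
theorem opc83_ptQ_surj (x : OnePoint ℚ) : ∃ u v : ℚ, (u ≠ 0 ∨ v ≠ 0) ∧ opc83_ptQ u v = x := by
  induction x using OnePoint.rec with
  | infty => exact ⟨1, 0, Or.inl one_ne_zero, by rw [opc83_ptQ, if_pos rfl]⟩
  | coe q => exact ⟨q, 1, Or.inr one_ne_zero, by rw [opc83_ptQ, if_neg one_ne_zero, div_one]⟩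

/-- Scalar matrices act trivially on `OnePoint ℚ` (hypothesis `hsc` of `Trace43`). -/
theorem opc83_scalarTriv : tr43_ScalarTriv (OnePoint ℚ) := by
  intro c x
  obtain ⟨u, v, huv, rfl⟩ := opc83_ptQ_surj x
  rw [opc83_gl_smul_ptQ _ huv]
  have h00 : (Matrix.GeneralLinearGroup.scalar (Fin 2) c : GL (Fin 2) ℚ) 0 0 = (c : ℚ) := by
    simp [Matrix.GeneralLinearGroup.coe_scalar]
  have h01 : (Matrix.GeneralLinearGroup.scalar (Fin 2) c : GL (Fin 2) ℚ) 0 1 = 0 := by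
    simp [Matrix.GeneralLinearGroup.coe_scalar]
  have h10 : (Matrix.GeneralLinearGroup.scalar (Fin 2) c : GL (Fin 2) ℚ) 1 0 = 0 := by
    simp [Matrix.GeneralLinearGroup.coe_scalar]
  have h11 : (Matrix.GeneralLinearGroup.scalar (Fin 2) c : GL (Fin 2) ℚ) 1 1 = (c : ℚ) := by
    simp [Matrix.GeneralLinearGroup.coe_scalar]
  rw [h00, h01, h10, h11, zero_mul, zero_mul, add_zero, zero_add]
  exact opc83_ptQ_smul c.ne_zero u v

/-- Scalar matrices act trivially on pairs of cusps (the domain of symbols, convention C2). -/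
theorem opc83_scalarTriv_prod : tr43_ScalarTriv (OnePoint ℚ × OnePoint ℚ) := by
  intro c x
  obtain ⟨a, b⟩ := x
  show (Matrix.GeneralLinearGroup.scalar (Fin 2) c • a,
    Matrix.GeneralLinearGroup.scalar (Fin 2) c • b) = (a, b)
  rw [opc83_scalarTriv c a, opc83_scalarTriv c b]

/-! ### (P3) the cusp move -/

theorem opc83_mem_Gamma0 {M : ℕ} (g : SL(2, ℤ)) (h : (M : ℤ) ∣ g 1 0) : g ∈ Gamma0 M := by
  rw [Gamma0_mem, ZMod.intCast_zmod_eq_zero_iff_dvd]
  exact h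

/-- **(P3)** For a prime `l ≡ 1 (mod M)`, every Hecke representative `lbMat l i` moves every
point of `OnePoint ℚ` inside its `Γ₀(M)`-orbit. -/
theorem opc83_move {M l : ℕ} (hl : l.Prime) (h1 : (M : ℤ) ∣ (l : ℤ) - 1) (i : Option (Fin l))
    (x : OnePoint ℚ) :
    ∃ γ : Gamma0 M, tr43_gl (lbMat l i) • x =
      Matrix.SpecialLinearGroup.mapGL ℚ (γ : SL(2, ℤ)) • x := by
  obtain ⟨a, c, hac, rfl⟩ := opc83_pt_surj x
  have hac0 := opc83_ne_zero_of_isCoprime hac
  have hl0 : (l : ℤ) ≠ 0 := by exact_mod_cast hl.ne_zero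
  have hdet : (lbMat l i).det ≠ 0 := tr43_lbMat_det_ne hl.ne_zero i
  rw [opc83_gl_smul_pt hdet hac0]
  cases i with
  | none =>
    obtain ⟨g, lam, hg, hlam, e0, e1⟩ := cm88_move_none (M := M) hl h1 hac
    have hlam0 : lam ≠ 0 := by
      rcases hlam with ⟨h, -⟩ | ⟨h, -⟩ <;> rw [h]
      · exact one_ne_zero
      · exact hl0
    refine ⟨⟨g, opc83_mem_Gamma0 g hg⟩, ?_⟩
    have eL0 : lbMat l none 0 0 * a + lbMat l none 0 1 * c = (l : ℤ) * a := by simp [lbMat]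
    have eL1 : lbMat l none 1 0 * a + lbMat l none 1 1 * c = c := by simp [lbMat]
    rw [opc83_sl_smul_pt g hac0, eL0, eL1,
      ← opc83_pt_smul hlam0 (g 0 0 * a + g 0 1 * c) (g 1 0 * a + g 1 1 * c), ← e0, ← e1]
  | some j =>
    obtain ⟨g, lam, hg, hlam, e0, e1⟩ := cm88_move_some (M := M) hl h1 hac ((j : ℕ) : ℤ)
    have hlam0 : lam ≠ 0 := by
      rcases hlam with ⟨h, -⟩ | ⟨h, -⟩ <;> rw [h]
      · exact one_ne_zero
      · exact hl0
    refine ⟨⟨g, opc83_mem_Gamma0 g hg⟩, ?_⟩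
    have eL0 : lbMat l (Option.some j) 0 0 * a + lbMat l (Option.some j) 0 1 * c = a + ((j : ℕ) : ℤ) * c := by
      simp [lbMat]
    have eL1 : lbMat l (Option.some j) 1 0 * a + lbMat l (Option.some j) 1 1 * c = (l : ℤ) * c := by
      simp [lbMat]
    rw [opc83_sl_smul_pt g hac0, eL0, eL1,
      ← opc83_pt_smul hlam0 (g 0 0 * a + g 0 1 * c) (g 1 0 * a + g 1 1 * c), ← e0, ← e1]

/-! ### (P4) boundary symbols are Eisenstein -/

section Boundary

variable {A : Type*} [AddCommGroup A]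

/-- **(P4)** a `Γ₀(M)`-invariant function on cusps is an eigenfunction of `T_l`
(`l ≡ 1 mod M` prime) with eigenvalue `l + 1`. -/
theorem opc83_sum_eq {M l : ℕ} (hl : l.Prime) (h1 : (M : ℤ) ∣ (l : ℤ) - 1)
    (β : OnePoint ℚ → A)
    (hβ : ∀ (γ : Gamma0 M) (x : OnePoint ℚ),
      β (Matrix.SpecialLinearGroup.mapGL ℚ (γ : SL(2, ℤ)) • x) = β x)
    (x : OnePoint ℚ) :
    ∑ i : Option (Fin l), β (tr43_gl (lbMat l i) • x) = (l + 1) • β x := by
  have h : ∀ i : Option (Fin l), β (tr43_gl (lbMat l i) • x) = β x := by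
    intro i
    obtain ⟨γ, hγ⟩ := opc83_move hl h1 i x
    rw [hγ, hβ]
  rw [Finset.sum_congr rfl (fun i _ => h i), Finset.sum_const, Finset.card_univ,
    Fintype.card_option, Fintype.card_fin]

/-- **(P4)** `tr43_T l` acts on a `Γ₀(M)`-invariant function of one cusp as `l + 1`. -/
theorem opc83_T_cusp {M l : ℕ} (hl : l.Prime) (h1 : (M : ℤ) ∣ (l : ℤ) - 1)
    (β : OnePoint ℚ → A) (hβ : tr43_Inv M β) : tr43_T l β = (l + 1) • β := by
  funext x
  rw [tr43_T_apply]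
  exact opc83_sum_eq hl h1 β hβ x

/-- The boundary symbol `Φ (a, b) = β b - β a` of a function `β` on cusps. -/
def opc83_bdry (β : OnePoint ℚ → A) : OnePoint ℚ × OnePoint ℚ → A :=
  fun x => β x.2 - β x.1

theorem opc83_bdry_apply (β : OnePoint ℚ → A) (a b : OnePoint ℚ) :
    opc83_bdry β (a, b) = β b - β a := rfl

/-- **(P4)** boundary symbols of level `M` are killed by `T_l - (l + 1)` for primes
`l ≡ 1 (mod M)`. -/
theorem opc83_boundary_T {M l : ℕ} (hl : l.Prime) (h1 : (M : ℤ) ∣ (l : ℤ) - 1)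
    (β : OnePoint ℚ → A)
    (hβ : ∀ (γ : Gamma0 M) (x : OnePoint ℚ),
      β (Matrix.SpecialLinearGroup.mapGL ℚ (γ : SL(2, ℤ)) • x) = β x) :
    tr43_T l (opc83_bdry β) = (l + 1) • opc83_bdry β := by
  funext x
  obtain ⟨a, b⟩ := x
  rw [tr43_T_apply]
  have h : ∀ i : Option (Fin l), opc83_bdry β (tr43_gl (lbMat l i) • (a, b)) =
      β (tr43_gl (lbMat l i) • b) - β (tr43_gl (lbMat l i) • a) := fun i => rfl
  rw [Finset.sum_congr rfl (fun i _ => h i), Finset.sum_sub_distrib,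
    opc83_sum_eq hl h1 β hβ, opc83_sum_eq hl h1 β hβ, Pi.smul_apply, opc83_bdry_apply, smul_sub]

end Boundary

/-! ### (P5) fixed points -/

/-- An element of `SL(2, ℤ)` with lower left entry `0` fixes `∞`. -/
theorem opc83_fix_infty (γ : SL(2, ℤ)) (h : γ 1 0 = 0) :
    Matrix.SpecialLinearGroup.mapGL ℚ γ • (∞ : OnePoint ℚ) = ∞ := by
  have := opc83_sl_smul_pt γ (a := 1) (c := 0) (Or.inl one_ne_zero)
  rw [opc83_pt_zero] at this
  rw [this, h]
  simp [opc83_pt_zero]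

/-- An element of `SL(2, ℤ)` with upper right entry `0` fixes `0`. -/
theorem opc83_fix_zero (γ : SL(2, ℤ)) (h : γ 0 1 = 0) :
    Matrix.SpecialLinearGroup.mapGL ℚ γ • ((0 : ℚ) : OnePoint ℚ) = ((0 : ℚ) : OnePoint ℚ) := by
  have h0 : opc83_pt 0 1 = ((0 : ℚ) : OnePoint ℚ) := by
    rw [opc83_pt_one]; simp
  have := opc83_sl_smul_pt γ (a := 0) (c := 1) (Or.inr one_ne_zero)
  rw [h0] at this
  rw [this, h]
  have hd : γ 1 1 ≠ 0 := by
    intro hd
    have hdet := γ.2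
    rw [Matrix.det_fin_two, h, hd] at hdet
    simp at hdet
  simp only [mul_zero, mul_one, zero_add]
  rw [opc83_pt_of_ne _ hd]
  simp

/-- **(P5)** a parabolic element (`trace² = 4`) of `SL(2, ℤ)` fixes a point of `OnePoint ℚ`. -/
theorem opc83_exists_fixed (γ : SL(2, ℤ))
    (h : (γ : Matrix (Fin 2) (Fin 2) ℤ).trace ^ 2 = 4) :
    ∃ x : OnePoint ℚ, Matrix.SpecialLinearGroup.mapGL ℚ γ • x = x := by
  by_cases hc : γ 1 0 = 0
  · exact ⟨∞, opc83_fix_infty γ hc⟩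
  · -- the fixed point is `(a - d) / (2 c)`, i.e. the cusp of the vector `(a - d, 2 c)`
    have hdet : γ 0 0 * γ 1 1 - γ 0 1 * γ 1 0 = 1 := by
      have := γ.2
      rwa [Matrix.det_fin_two] at this
    have htr : (γ 0 0 + γ 1 1) ^ 2 = 4 := by
      rw [Matrix.trace_fin_two] at h
      exact h
    have h2c : 2 * γ 1 0 ≠ 0 := mul_ne_zero two_ne_zero hc
    refine ⟨opc83_pt (γ 0 0 - γ 1 1) (2 * γ 1 0), ?_⟩
    rw [opc83_sl_smul_pt γ (Or.inr h2c)]
    -- the image vector is `(a + d) / 2` times the original one; `a + d = ± 2`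
    have hs : γ 0 0 + γ 1 1 = 2 ∨ γ 0 0 + γ 1 1 = -2 := by
      have : (γ 0 0 + γ 1 1 - 2) * (γ 0 0 + γ 1 1 + 2) = 0 := by linear_combination htr
      rcases mul_eq_zero.mp this with h' | h'
      · left; linarith
      · right; linarith
    rcases hs with hs | hs
    · have e0 : γ 0 0 * (γ 0 0 - γ 1 1) + γ 0 1 * (2 * γ 1 0) = 1 * (γ 0 0 - γ 1 1) := by
        linear_combination (γ 0 0 + 1) * hs - 2 * hdet
      have e1 : γ 1 0 * (γ 0 0 - γ 1 1) + γ 1 1 * (2 * γ 1 0) = 1 * (2 * γ 1 0) := by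
        linear_combination γ 1 0 * hs
      rw [e0, e1, opc83_pt_smul one_ne_zero]
    · have e0 : γ 0 0 * (γ 0 0 - γ 1 1) + γ 0 1 * (2 * γ 1 0) = (-1) * (γ 0 0 - γ 1 1) := by
        linear_combination (γ 0 0 - 1) * hs - 2 * hdet
      have e1 : γ 1 0 * (γ 0 0 - γ 1 1) + γ 1 1 * (2 * γ 1 0) = (-1) * (2 * γ 1 0) := by
        linear_combination γ 1 0 * hs
      rw [e0, e1, opc83_pt_smul (by norm_num)]

end Fermat.Agent.S41
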