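/-
S41 (level raising), END GAME (helper28, link L14).

`fin28_S41` : the frozen statement S41 from the dual Ihara lemma `HB` alone (plain-function,
divisibility form — literally the hypothesis `Hb` of `rf7_S41_of_Hb` unfolded), through

* `ne92_exists_good_prime` (helper92): the auxiliary prime `ℓ₀ ≡ 1 mod N q'`, good, `≠ p`,
  `∤ N q'`, with `p ∤ ℓ₀ + 1 - a_{ℓ₀}(W)`;
* `opc83_move` (helper83): `hmove` for `ℓ₀ ≡ 1 mod N q'`;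
* `as28_main` (Assembly28): the concrete assembly.

`fin28_hDI_of_dvd` converts the divisibility form of the dual Ihara lemma into the form with
explicit quotients consumed by `as28_main` (saturation `slp10_div`).
-/
import Mathlib
import Fermat.Agent.S41.Assembly28
import Fermat.Agent.S41.NonEisFinal92
import Fermat.Agent.S41.OnePointCusp83

set_option autoImplicit false

open Matrix MatrixGroups CongruenceSubgroup OnePoint ModularCurve ModularCurve.Period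
open WeierstrassCurve WeierstrassCurve.Affine WeierstrassCurve.Affine.Point
open Fermat.Agent.S16

namespace Fermat.Agent.S41

theorem fin28_isSymb_sub {M : ℕ} {φ ψ : sc71_X → ℤ} (hφ : slp10_IsSymb M φ)
    (hψ : slp10_IsSymb M ψ) : slp10_IsSymb M (φ - ψ) := by
  refine ⟨fun a b c => ?_, fun γ x => ?_⟩
  · show (φ (a, b) - ψ (a, b)) + (φ (b, c) - ψ (b, c)) = φ (a, c) - ψ (a, c)
    rw [← hφ.1 a b c, ← hψ.1 a b c]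
    ring
  · show φ _ - ψ _ = φ x - ψ x
    rw [hφ.2 γ x, hψ.2 γ x]

/-- The dual Ihara lemma: from the divisibility form to the form with explicit quotients. -/
theorem fin28_hDI_of_dvd {p N q ℓ : ℕ} (hp : p.Prime) (hq : q.Prime) (D : tr43_Data N q)
    (hℓ : ℓ.Prime) (hℓN : ¬ ℓ ∣ N)
    (HB : ∃ n : ℕ, ∀ φ₁ φ₂ : sc71_X → ℤ, slp10_IsSymb N φ₁ → slp10_IsSymb N φ₂ →
      ∃ Ψ : sc71_X → ℤ, slp10_IsSymb (N * q) Ψ ∧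
        (∀ z, (p : ℤ) ∣ (ic42_E ℓ)^[n] φ₁ z - tr43_tr D Ψ z) ∧
        (∀ z, (p : ℤ) ∣ (ic42_E ℓ)^[n] φ₂ z - tr43_tr D (tr43_W D Ψ) z)) :
    ∃ n : ℕ, ∀ φ₁ φ₂ : sc71_X → ℤ, slp10_IsSymb N φ₁ → slp10_IsSymb N φ₂ →
      ∃ Ψ : sc71_X → ℤ, slp10_IsSymb (N * q) Ψ ∧ ∃ ψ₁ ψ₂ : sc71_X → ℤ,
        slp10_IsSymb N ψ₁ ∧ slp10_IsSymb N ψ₂ ∧
        ∀ x, (ic42_E ℓ)^[n] φ₁ x = tr43_tr D Ψ x + (p : ℤ) * ψ₁ x ∧
          (ic42_E ℓ)^[n] φ₂ x = tr43_tr D (tr43_W D Ψ) x + (p : ℤ) * ψ₂ x := by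
  obtain ⟨n, hn⟩ := HB
  have hp0 : (p : ℤ) ≠ 0 := by exact_mod_cast hp.ne_zero
  refine ⟨n, fun φ₁ φ₂ hφ₁ hφ₂ => ?_⟩
  obtain ⟨Ψ, hΨ, h₁, h₂⟩ := hn φ₁ φ₂ hφ₁ hφ₂
  have htr : slp10_IsSymb N (tr43_tr D Ψ) := ⟨sc71_IsSymb.tr D hΨ.1, tr43_tr_Inv hq D hΨ.2⟩
  have htrW : slp10_IsSymb N (tr43_tr D (tr43_W D Ψ)) :=
    ⟨sc71_IsSymb.tr D (sc71_IsSymb.W D hΨ.1), tr43_tr_Inv hq D (tr43_W_Inv hq.ne_zero D hΨ.2)⟩
  obtain ⟨ψ₁, hψ₁, e₁⟩ := slp10_div hp0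
    (fin28_isSymb_sub (as28_E_iter_isSymb hℓ hℓN n hφ₁) htr) h₁
  obtain ⟨ψ₂, hψ₂, e₂⟩ := slp10_div hp0
    (fin28_isSymb_sub (as28_E_iter_isSymb hℓ hℓN n hφ₂) htrW) h₂
  refine ⟨Ψ, hΨ, ψ₁, ψ₂, hψ₁, hψ₂, fun x => ⟨?_, ?_⟩⟩
  · have := e₁ x
    rw [Pi.sub_apply] at this
    linarith
  · have := e₂ x
    rw [Pi.sub_apply] at this
    linarith

/-- **S41 from the dual Ihara lemma alone.** -/
theorem fin28_S41
    (E : WeierstrassCurve ℚ) [E.IsElliptic] {W : WeierstrassCurve ℤ} (hW : W.IsIntegralModelOf E)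
    {p N q' : ℕ} (hp : p.Prime) (hp2 : p ≠ 2) (hN : 0 < N) (hq' : q'.Prime) (hq'N : ¬ q' ∣ N)
    (hirr : GaloisRepIsIrreducible (K := AlgebraicClosure ℚ) ℚ E p)
    (f : CuspForm (CongruenceSubgroup.Gamma0 N) 2) (𝔪 : Ideal (integralClosure ℤ ℂ))
    (hf : f.IsNormalizedEigenform) (hmax : 𝔪.IsMaximal) (hpm : (p : integralClosure ℤ ℂ) ∈ 𝔪)
    (hcong : ∀ ℓ : ℕ, ℓ.Prime → W.IsGoodPrimeFor ℓ → ¬ ℓ ∣ N → ℓ ≠ p →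
      ∃ a : integralClosure ℤ ℂ, (a : ℂ) = ModularFormClass.qCoeff f ℓ ∧
        a - ((W.apOfModel ℓ : ℤ) : integralClosure ℤ ℂ) ∈ 𝔪)
    (hLR : ∃ a : integralClosure ℤ ℂ, (a : ℂ) = ModularFormClass.qCoeff f q' ∧
      a ^ 2 - ((q' : integralClosure ℤ ℂ) + 1) ^ 2 ∈ 𝔪)
    (HB : ∀ (D : tr43_Data N q') (l0 : ℕ), l0.Prime → l0 ≠ p → l0 ≡ 1 [MOD N * q'] →
      ∃ n : ℕ, ∀ φ₁ φ₂ : sc71_X → ℤ, slp10_IsSymb N φ₁ → slp10_IsSymb N φ₂ →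
        ∃ Ψ : sc71_X → ℤ, slp10_IsSymb (N * q') Ψ ∧
          (∀ z, (p : ℤ) ∣ (ic42_E l0)^[n] φ₁ z - tr43_tr D Ψ z) ∧
          (∀ z, (p : ℤ) ∣ (ic42_E l0)^[n] φ₂ z - tr43_tr D (tr43_W D Ψ) z)) :
    ∃ (g : CuspForm (CongruenceSubgroup.Gamma0 (N * q')) 2) (𝔪' : Ideal (integralClosure ℤ ℂ)),
      g.IsNormalizedEigenform ∧ 𝔪'.IsMaximal ∧ (p : integralClosure ℤ ℂ) ∈ 𝔪' ∧
      (∀ ℓ : ℕ, ℓ.Prime → W.IsGoodPrimeFor ℓ → ¬ ℓ ∣ N * q' → ℓ ≠ p →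
        ∃ a : integralClosure ℤ ℂ, (a : ℂ) = ModularFormClass.qCoeff g ℓ ∧
          a - ((W.apOfModel ℓ : ℤ) : integralClosure ℤ ℂ) ∈ 𝔪') ∧
      g.IsNewAt q' := by
  obtain ⟨D⟩ := tr43_Data_exists ((Nat.Prime.coprime_iff_not_dvd hq').mpr hq'N)
  have hNq0 : N * q' ≠ 0 := Nat.mul_ne_zero hN.ne' hq'.ne_zero
  obtain ⟨l0, hl0, hl0S, hl01, hl0g, hl0ne⟩ := ne92_exists_good_prime E hW hp hp2 hirr (N * q')
    (Nat.mul_pos hN hq'.pos) (insert p (N * q').primeFactors)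
  have hl0p : l0 ≠ p := fun h => hl0S (by rw [h]; exact Finset.mem_insert_self p _)
  have hl0Nq : ¬ l0 ∣ N * q' := fun h =>
    hl0S (Finset.mem_insert_of_mem (Nat.mem_primeFactors.mpr ⟨hl0, h, hNq0⟩))
  have hl0N : ¬ l0 ∣ N := fun h => hl0Nq (Dvd.dvd.mul_right h q')
  have h1 : ((N * q' : ℕ) : ℤ) ∣ (l0 : ℤ) - 1 := by
    have := (Nat.modEq_iff_dvd.mp hl01.symm)
    simpa using this
  exact as28_main hp hp2 hN hq' hq'N f 𝔪 hf hmax hpm hcong hLR D l0 hl0 hl0g hl0Nq hl0p hl0ne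
    (fun i x => opc83_move hl0 h1 i x)
    (fin28_hDI_of_dvd hp hq' D hl0 hl0N (HB D l0 hl0 hl0p hl01))

end Fermat.Agent.S41
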