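/-
S41 (level raising), module M3.H2: "duality ⇒ dual Ihara" as abstract algebra (helper28).

`Mathlib` + `Fermat.Agent.S41.LRAlg54` (only for `lr54_pow`).

Setting: abelian groups `A`, `B` (the "trace side": `j : B →+ A`), `A'`, `B'` (the "restriction
side": `i' : A' →+ B'`), integer valued pairings `PA : A × A' → ℤ`, `PB : B × B' → ℤ` such that
`j` is adjoint to `i'`, an operator `T` on `A` adjoint to `T'` on `A'`.  If

* (PD1) every additive functional `A → ZMod p` is `x ↦ PA x α mod p` for some `α : A'`,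
* (PD2) `p ∣ PB b β` for all `b` implies `β ∈ p B'`,
* (Ihara on the adjoint side) `i' α ∈ p B'` implies `(T' - e)^n α ∈ p A'`,

then `(T - e)^n A ⊆ im j + p A` (`di28_mod_p`), and, if `A` is a Noetherian `ℤ`-module, there is
`n₀` such that the `p`-torsion of `coker j` is killed by `(T - e)^n₀` (`di28_dual_ihara`): this is
exactly hypothesis `H2` of `lr54_main_pow`.
-/
import Mathlib
import Fermat.Agent.S41.LRAlg54

set_option autoImplicit false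

namespace Fermat.Agent.S41

section DualIhara

variable {A B A' B' : Type*} [AddCommGroup A] [AddCommGroup B] [AddCommGroup A'] [AddCommGroup B']

/-- Additivity of the exponent of `(T - e)^n`. -/
theorem di28_pow_add (T : A →+ A) (e : ℤ) (m n : ℕ) (a : A) :
    lr54_pow T e (m + n) a = lr54_pow T e m (lr54_pow T e n a) := by
  induction m with
  | zero => simp
  | succ m ih =>
    have h : m + 1 + n = (m + n) + 1 := by omega
    rw [h, lr54_pow_succ, lr54_pow_succ, ih]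

/-- `T` commutes with `(T - e)^n`. -/
theorem di28_pow_comm (T : A →+ A) (e : ℤ) (n : ℕ) (a : A) :
    T (lr54_pow T e n a) = lr54_pow T e n (T a) :=
  lr54_pow_map T T T (fun _ => rfl) e n a

/-- Adjointness passes from `T`, `T'` to `(T - e)^n`, `(T' - e)^n`. -/
theorem di28_pow_adj (P : A →+ A' →+ ℤ) (T : A →+ A) (T' : A' →+ A')
    (hT : ∀ x α, P (T x) α = P x (T' α)) (e : ℤ) (n : ℕ) (x : A) (α : A') :
    P (lr54_pow T e n x) α = P x (lr54_pow T' e n α) := by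
  induction n generalizing α with
  | zero => rfl
  | succ n ih =>
    rw [lr54_pow_succ, lr54_pow_succ, map_sub, AddMonoidHom.sub_apply, hT, map_zsmul,
      AddMonoidHom.smul_apply, ih, ih, map_sub, map_zsmul, di28_pow_comm]

/-- **Duality step, mod `p`.**  Under (PD1), (PD2), adjointness and Ihara on the adjoint side,
`(T - e)^n` maps `A` into `im j + p A`. -/
theorem di28_mod_p (p : ℕ) (hp : p.Prime)
    (PA : A →+ A' →+ ℤ) (PB : B →+ B' →+ ℤ) (j : B →+ A) (i' : A' →+ B')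
    (hadj : ∀ b α, PA (j b) α = PB b (i' α))
    (T : A →+ A) (T' : A' →+ A') (e : ℤ)
    (hT : ∀ x α, PA (T x) α = PA x (T' α))
    (hPD1 : ∀ lam : A →+ ZMod p, ∃ α : A', ∀ x, ((PA x α : ℤ) : ZMod p) = lam x)
    (hPD2 : ∀ β : B', (∀ b, (p : ℤ) ∣ PB b β) → ∃ β', β = (p : ℤ) • β')
    (n : ℕ)
    (H1' : ∀ α : A', (∃ β', i' α = (p : ℤ) • β') → ∃ α', lr54_pow T' e n α = (p : ℤ) • α')
    (x : A) : ∃ b y, lr54_pow T e n x = j b + (p : ℤ) • y := by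
  have : Fact p.Prime := ⟨hp⟩
  by_contra hcon
  -- the subgroup `im j + pA`
  let M : AddSubgroup A := j.range ⊔ (zsmulAddGroupHom (p : ℤ) : A →+ A).range
  have hjM : ∀ b, j b ∈ M := fun b => AddSubgroup.mem_sup_left ⟨b, rfl⟩
  have hpM : ∀ a : A, (p : ℤ) • a ∈ M := fun a => AddSubgroup.mem_sup_right ⟨a, rfl⟩
  have hz : lr54_pow T e n x ∉ M := by
    intro hmem
    obtain ⟨y, ⟨b, rfl⟩, z, ⟨w, rfl⟩, hyz⟩ := AddSubgroup.mem_sup.mp hmem
    exact hcon ⟨b, w, by rw [← hyz]; rfl⟩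
  -- the quotient is an `𝔽_p`-vector space
  have hkill : ∀ q : A ⧸ M, p • q = 0 := by
    intro q
    induction q using QuotientAddGroup.induction_on with
    | H a =>
      have h1 : ((p • a : A) : A ⧸ M) = 0 := by
        rw [QuotientAddGroup.eq_zero_iff]
        have := hpM a
        rwa [natCast_zsmul] at this
      simpa using h1
  obtain ⟨_inst⟩ : Nonempty (Module (ZMod p) (A ⧸ M)) := ⟨AddCommGroup.zmodModule hkill⟩
  have hzbar : (QuotientAddGroup.mk (lr54_pow T e n x) : A ⧸ M) ≠ 0 := by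
    rw [Ne, QuotientAddGroup.eq_zero_iff]
    exact hz
  obtain ⟨f, hf⟩ : ∃ f : (A ⧸ M) →ₗ[ZMod p] ZMod p,
      f (QuotientAddGroup.mk (lr54_pow T e n x)) ≠ 0 := by
    by_contra hne
    apply hzbar
    refine (Module.forall_dual_apply_eq_zero_iff (ZMod p) _).mp ?_
    intro f
    by_contra hf
    exact hne ⟨f, hf⟩
  let lam : A →+ ZMod p := f.toAddMonoidHom.comp (QuotientAddGroup.mk' M)
  have hlam : ∀ a, lam a = f (QuotientAddGroup.mk a) := fun _ => rfl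
  obtain ⟨α, hα⟩ := hPD1 lam
  -- `i' α ∈ p B'`
  have h1 : ∀ b, (p : ℤ) ∣ PB b (i' α) := by
    intro b
    rw [← hadj, ← ZMod.intCast_zmod_eq_zero_iff_dvd, hα, hlam]
    have : (QuotientAddGroup.mk (j b) : A ⧸ M) = 0 := by
      rw [QuotientAddGroup.eq_zero_iff]; exact hjM b
    rw [this, map_zero]
  obtain ⟨β', hβ'⟩ := hPD2 (i' α) h1
  obtain ⟨α', hα'⟩ := H1' α ⟨β', hβ'⟩
  apply hf
  rw [← hlam, ← hα, di28_pow_adj PA T T' hT, hα', map_zsmul, smul_eq_mul, Int.cast_mul,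
    Int.cast_natCast, ZMod.natCast_self, zero_mul]

/-- Iterating `di28_mod_p`: `(T - e)^(m n)` maps `A` into `im j + p^m A`. -/
theorem di28_mod_p_pow (p : ℕ) (j : B →+ A) (T : A →+ A) (TB : B →+ B) (e : ℤ)
    (hjT : ∀ b, j (TB b) = T (j b)) (n : ℕ)
    (h : ∀ x : A, ∃ b y, lr54_pow T e n x = j b + (p : ℤ) • y) (m : ℕ) (x : A) :
    ∃ b y, lr54_pow T e (m * n) x = j b + (p : ℤ) ^ m • y := by
  induction m with
  | zero => exact ⟨0, x, by simp⟩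
  | succ m ih =>
    obtain ⟨b, y, hby⟩ := ih
    obtain ⟨b₁, y₁, hb₁⟩ := h y
    refine ⟨lr54_pow TB e n b + (p : ℤ) ^ m • b₁, y₁, ?_⟩
    have hmn : (m + 1) * n = n + m * n := by ring
    rw [hmn, di28_pow_add, hby, map_add, map_zsmul, hb₁, map_add, map_zsmul,
      lr54_pow_map TB T j hjT, smul_add, pow_succ, mul_smul]
    abel

/-- **Dual Ihara from duality** (hypothesis `H2` of `lr54_main_pow`). -/
theorem di28_dual_ihara [IsNoetherian ℤ A] (p : ℕ) (hp : p.Prime)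
    (PA : A →+ A' →+ ℤ) (PB : B →+ B' →+ ℤ) (j : B →+ A) (i' : A' →+ B')
    (hadj : ∀ b α, PA (j b) α = PB b (i' α))
    (T : A →+ A) (TB : B →+ B) (T' : A' →+ A') (e : ℤ)
    (hjT : ∀ b, j (TB b) = T (j b))
    (hT : ∀ x α, PA (T x) α = PA x (T' α))
    (hPD1 : ∀ lam : A →+ ZMod p, ∃ α : A', ∀ x, ((PA x α : ℤ) : ZMod p) = lam x)
    (hPD2 : ∀ β : B', (∀ b, (p : ℤ) ∣ PB b β) → ∃ β', β = (p : ℤ) • β')
    (n : ℕ)
    (H1' : ∀ α : A', (∃ β', i' α = (p : ℤ) • β') → ∃ α', lr54_pow T' e n α = (p : ℤ) • α') :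
    ∃ n₀ : ℕ, ∀ x : A, (∃ b, j b = (p : ℤ) • x) → ∃ b, j b = lr54_pow T e n₀ x := by
  have hmod := di28_mod_p p hp PA PB j i' hadj T T' e hT hPD1 hPD2 n H1'
  -- the ascending chain `N_m = {y | p^m y ∈ im j}`
  let N : ℕ →o Submodule ℤ A :=
    { toFun := fun m =>
        { carrier := {y | ∃ b, j b = (p : ℤ) ^ m • y}
          add_mem' := by
            rintro y₁ y₂ ⟨b₁, h₁⟩ ⟨b₂, h₂⟩
            exact ⟨b₁ + b₂, by rw [map_add, h₁, h₂, smul_add]⟩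
          zero_mem' := ⟨0, by simp⟩
          smul_mem' := by
            rintro c y ⟨b, hb⟩
            exact ⟨c • b, by rw [map_zsmul, hb, smul_comm]⟩ }
      monotone' := by
        intro m₁ m₂ hm y
        rintro ⟨b, hb⟩
        refine ⟨(p : ℤ) ^ (m₂ - m₁) • b, ?_⟩
        rw [map_zsmul, hb, ← mul_smul, ← pow_add, Nat.sub_add_cancel hm] }
  obtain ⟨k, hk⟩ := monotone_stabilizes_iff_noetherian.mpr (inferInstance : IsNoetherian ℤ A) N
  refine ⟨k * n, ?_⟩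
  rintro x ⟨b₀, hb₀⟩
  obtain ⟨b, y, hby⟩ := di28_mod_p_pow p j T TB e hjT n hmod k x
  -- `p^(k+1) y ∈ im j`
  have hy : y ∈ N (k + 1) := by
    refine ⟨lr54_pow TB e (k * n) b₀ - (p : ℤ) • b, ?_⟩
    have h1 : (p : ℤ) • lr54_pow T e (k * n) x = j (lr54_pow TB e (k * n) b₀) := by
      rw [lr54_pow_map TB T j hjT, hb₀, map_zsmul]
    have h2 : (p : ℤ) ^ (k + 1) • y = (p : ℤ) • lr54_pow T e (k * n) x - (p : ℤ) • j b := by
      rw [hby, smul_add, pow_succ, mul_comm, mul_smul]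
      abel
    rw [map_sub, map_zsmul, h2, h1]
  rw [← hk (k + 1) (Nat.le_succ k)] at hy
  obtain ⟨b₂, hb₂⟩ := hy
  exact ⟨b + b₂, by rw [map_add, hb₂, hby]⟩

/-- Variant of `di28_dual_ihara` where `A` is only assumed to embed additively into a finite
power of `ℤ` (instead of `[IsNoetherian ℤ A]`). -/
theorem di28_dual_ihara_of_embedding {κ : Type*} [Finite κ] (emb : A →+ (κ → ℤ))
    (hemb : Function.Injective emb) (p : ℕ) (hp : p.Prime)
    (PA : A →+ A' →+ ℤ) (PB : B →+ B' →+ ℤ) (j : B →+ A) (i' : A' →+ B')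
    (hadj : ∀ b α, PA (j b) α = PB b (i' α))
    (T : A →+ A) (TB : B →+ B) (T' : A' →+ A') (e : ℤ)
    (hjT : ∀ b, j (TB b) = T (j b))
    (hT : ∀ x α, PA (T x) α = PA x (T' α))
    (hPD1 : ∀ lam : A →+ ZMod p, ∃ α : A', ∀ x, ((PA x α : ℤ) : ZMod p) = lam x)
    (hPD2 : ∀ β : B', (∀ b, (p : ℤ) ∣ PB b β) → ∃ β', β = (p : ℤ) • β')
    (n : ℕ)
    (H1' : ∀ α : A', (∃ β', i' α = (p : ℤ) • β') → ∃ α', lr54_pow T' e n α = (p : ℤ) • α') :
    ∃ n₀ : ℕ, ∀ x : A, (∃ b, j b = (p : ℤ) • x) → ∃ b, j b = lr54_pow T e n₀ x := by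
  have : IsNoetherian ℤ A := isNoetherian_of_injective emb.toIntLinearMap hemb
  exact di28_dual_ihara p hp PA PB j i' hadj T TB T' e hjT hT hPD1 hPD2 n H1'

end DualIhara

section Pair

variable {L M L' M' : Type*} [AddCommGroup L] [AddCommGroup M] [AddCommGroup L']
  [AddCommGroup M']

/-- The orthogonal sum of two integer valued pairings. -/
def di28_prodPair {A₁ A₂ A₁' A₂' : Type*} [AddCommGroup A₁] [AddCommGroup A₂] [AddCommGroup A₁']
    [AddCommGroup A₂'] (P₁ : A₁ →+ A₁' →+ ℤ) (P₂ : A₂ →+ A₂' →+ ℤ) :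
    (A₁ × A₂) →+ (A₁' × A₂') →+ ℤ :=
  AddMonoidHom.mk' (fun x =>
    AddMonoidHom.mk' (fun α => P₁ x.1 α.1 + P₂ x.2 α.2) (by
      intro α β
      simp only [Prod.fst_add, Prod.snd_add, map_add]
      abel)) (by
    intro x y
    refine AddMonoidHom.ext fun α => ?_
    simp only [AddMonoidHom.mk'_apply, AddMonoidHom.add_apply, Prod.fst_add, Prod.snd_add,
      map_add]
    abel)

@[simp] theorem di28_prodPair_apply {A₁ A₂ A₁' A₂' : Type*} [AddCommGroup A₁] [AddCommGroup A₂]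
    [AddCommGroup A₁'] [AddCommGroup A₂'] (P₁ : A₁ →+ A₁' →+ ℤ) (P₂ : A₂ →+ A₂' →+ ℤ)
    (x : A₁ × A₂) (α : A₁' × A₂') :
    di28_prodPair P₁ P₂ x α = P₁ x.1 α.1 + P₂ x.2 α.2 := rfl

/-- (PD1) for an orthogonal sum. -/
theorem di28_pd1_prod {A₁ A₂ A₁' A₂' : Type*} [AddCommGroup A₁] [AddCommGroup A₂]
    [AddCommGroup A₁'] [AddCommGroup A₂'] (p : ℕ) (P₁ : A₁ →+ A₁' →+ ℤ) (P₂ : A₂ →+ A₂' →+ ℤ)
    (h₁ : ∀ lam : A₁ →+ ZMod p, ∃ α : A₁', ∀ x, ((P₁ x α : ℤ) : ZMod p) = lam x)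
    (h₂ : ∀ lam : A₂ →+ ZMod p, ∃ α : A₂', ∀ x, ((P₂ x α : ℤ) : ZMod p) = lam x)
    (lam : A₁ × A₂ →+ ZMod p) :
    ∃ α : A₁' × A₂', ∀ x, ((di28_prodPair P₁ P₂ x α : ℤ) : ZMod p) = lam x := by
  obtain ⟨α₁, hα₁⟩ := h₁ (lam.comp (AddMonoidHom.inl A₁ A₂))
  obtain ⟨α₂, hα₂⟩ := h₂ (lam.comp (AddMonoidHom.inr A₁ A₂))
  refine ⟨(α₁, α₂), ?_⟩
  rintro ⟨x₁, x₂⟩
  have hx : lam (x₁, x₂) = lam (x₁, 0) + lam (0, x₂) := by
    rw [← map_add]; simp
  rw [di28_prodPair_apply, Int.cast_add, hα₁, hα₂, hx]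
  rfl

/-- `(T ⊕ T - e)^n` on a product, componentwise. -/
theorem di28_pow_prodMap (T : L →+ L) (e : ℤ) (n : ℕ) (x : L × L) :
    lr54_pow (T.prodMap T) e n x = (lr54_pow T e n x.1, lr54_pow T e n x.2) := by
  induction n with
  | zero => rfl
  | succ n ih =>
    rw [lr54_pow_succ, ih, lr54_pow_succ, lr54_pow_succ]
    rfl

/-- **Dual Ihara from duality, level-raising shape.**  `L`, `M` the lattices of levels `N`, `Nq`
on the trace side, `L'`, `M'` those on the restriction side; `tr₁ tr₂ : M →+ L` the two traces,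
adjoint to the two restrictions `res₁ res₂ : L' →+ M'`.  Conclusion: hypothesis `H2` of
`lr54_main_pow` for `A = L × L`, `B = M`, `j = tr₁.prod tr₂`, `TA = T.prodMap T`. -/
theorem di28_dual_ihara_pair [IsNoetherian ℤ L] (p : ℕ) (hp : p.Prime)
    (P : L →+ L' →+ ℤ) (Q : M →+ M' →+ ℤ) (tr₁ tr₂ : M →+ L) (res₁ res₂ : L' →+ M')
    (hadj₁ : ∀ b α, P (tr₁ b) α = Q b (res₁ α)) (hadj₂ : ∀ b α, P (tr₂ b) α = Q b (res₂ α))
    (T : L →+ L) (TM : M →+ M) (T' : L' →+ L') (e : ℤ)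
    (htr₁ : ∀ b, tr₁ (TM b) = T (tr₁ b)) (htr₂ : ∀ b, tr₂ (TM b) = T (tr₂ b))
    (hT : ∀ x α, P (T x) α = P x (T' α))
    (hPD1 : ∀ lam : L →+ ZMod p, ∃ α : L', ∀ x, ((P x α : ℤ) : ZMod p) = lam x)
    (hPD2 : ∀ β : M', (∀ b, (p : ℤ) ∣ Q b β) → ∃ β', β = (p : ℤ) • β')
    (n : ℕ)
    (H1' : ∀ α₁ α₂ : L', (∃ β', res₁ α₁ + res₂ α₂ = (p : ℤ) • β') →
      (∃ α', lr54_pow T' e n α₁ = (p : ℤ) • α') ∧ (∃ α', lr54_pow T' e n α₂ = (p : ℤ) • α')) :
    ∃ n₀ : ℕ, ∀ x : L × L, (∃ b, (tr₁.prod tr₂) b = (p : ℤ) • x) →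
      ∃ b, (tr₁.prod tr₂) b = lr54_pow (T.prodMap T) e n₀ x := by
  refine di28_dual_ihara (A := L × L) (B := M) (A' := L' × L') (B' := M') p hp
    (di28_prodPair P P) Q (tr₁.prod tr₂) (res₁.coprod res₂) ?_ (T.prodMap T) TM (T'.prodMap T') e
    ?_ ?_ (di28_pd1_prod p P P hPD1 hPD1) hPD2 n ?_
  · rintro b ⟨α₁, α₂⟩
    simp [hadj₁, hadj₂]
  · intro b
    simp [htr₁, htr₂]
  · rintro ⟨x₁, x₂⟩ ⟨α₁, α₂⟩
    simp [hT]
  · rintro ⟨α₁, α₂⟩ ⟨β', hβ'⟩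
    obtain ⟨⟨a₁, h₁⟩, ⟨a₂, h₂⟩⟩ := H1' α₁ α₂ ⟨β', by simpa using hβ'⟩
    refine ⟨(a₁, a₂), ?_⟩
    rw [di28_pow_prodMap]
    simp [h₁, h₂]

end Pair

end Fermat.Agent.S41
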