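/-
S41 / M3.D4b (helper32): perfectness of the cap pairing in the Manin ("T-") model.

For `Γ ≤ SL(2, ℤ)` of finite index with `-1 ∈ Γ`, `X = SL(2, ℤ) ⧸ Γ`, coset representatives `rep`
adapted to `U = S * T`, integral modular symbols `Φ` (additive, `Γ`-invariant functions on pairs
of cusps) and integral homomorphisms `χ` on `Γ`, the bilinear form

  `B χ Φ = ∑ x, χ ((rep x)⁻¹ * S * rep (S • x)) * Φ ((rep x)⁻¹ • 0) ((rep x)⁻¹ • ∞)`

is perfect modulo every odd prime.  Everything is derived from the universal property of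
`PSL(2, ℤ) = C₂ * C₃` (`psl96_univ`): cocycles on `SL(2, ℤ)` are freely determined by their values
on `S` and `U`.
-/
import Mathlib
import Fermat.Agent.S41.PSL2Univ96

set_option autoImplicit false

open scoped MatrixGroups
open ModularGroup Matrix

namespace Fermat.Agent.S41

noncomputable section

/-- `U = S * T`, of order 3 in `PSL(2, ℤ)`. -/
def md32_U : SL(2, ℤ) := S * T

theorem md32_U_eq : md32_U = S * T := rfl

theorem md32_closure_SU : Subgroup.closure ({S, md32_U} : Set SL(2, ℤ)) = ⊤ := by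
  rw [eq_top_iff, ← SpecialLinearGroup.SL2Z_generators, Subgroup.closure_le]
  rintro x (rfl | rfl)
  · exact Subgroup.subset_closure (by simp)
  · have h1 : (T : SL(2, ℤ)) = S⁻¹ * md32_U := by simp [md32_U_eq]
    rw [h1]
    exact Subgroup.mul_mem _ (Subgroup.inv_mem _ (Subgroup.subset_closure (by simp)))
      (Subgroup.subset_closure (by simp))

/-- The "monomial" permutation of `X × R` attached to a function `a` and a permutation `σ`. -/
def md32_mono {X R : Type*} [AddCommGroup R] (a : X → R) (σ : Equiv.Perm X) :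
    Equiv.Perm (X × R) where
  toFun := fun z => (σ z.1, z.2 + a (σ z.1))
  invFun := fun z => (σ.symm z.1, z.2 - a z.1)
  left_inv := by intro z; ext <;> simp
  right_inv := by intro z; ext <;> simp

theorem md32_mono_apply {X R : Type*} [AddCommGroup R] (a : X → R) (σ : Equiv.Perm X)
    (x : X) (r : R) : md32_mono a σ (x, r) = (σ x, r + a (σ x)) := rfl

section Cocycle

variable {X R : Type*} [MulAction SL(2, ℤ) X] [AddCommGroup R]

theorem md32_SS (hneg : ∀ x : X, (-1 : SL(2, ℤ)) • x = x) (x : X) :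
    (S : SL(2, ℤ)) • (S : SL(2, ℤ)) • x = x := by
  rw [← mul_smul, ← pow_two, psl96_S_sq, hneg]

theorem md32_UUU (hneg : ∀ x : X, (-1 : SL(2, ℤ)) • x = x) (x : X) :
    md32_U • md32_U • md32_U • x = x := by
  rw [← mul_smul, ← mul_smul, ← pow_two, ← pow_succ, show (2 + 1 : ℕ) = 3 from rfl,
    md32_U_eq, psl96_U_cube, hneg]

/-- **Cocycles are free on `S` and `U`.**  Given `aS`, `aU : X → R` with the obvious
compatibilities there is a (left) cocycle `D` with `D S = aS`, `D U = aU`. -/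
theorem md32_exists_cocycle (hneg : ∀ x : X, (-1 : SL(2, ℤ)) • x = x)
    (aS aU : X → R) (hS : ∀ x, aS ((S : SL(2, ℤ)) • x) + aS x = 0)
    (hU : ∀ x, aU (md32_U • x) + aU (md32_U • md32_U • x) + aU x = 0) :
    ∃ D : SL(2, ℤ) → X → R, D S = aS ∧ D md32_U = aU ∧
      ∀ g h y, D (g * h) y = D g y + D h (g⁻¹ • y) := by
  classical
  let s : Equiv.Perm (X × R) := md32_mono aS (MulAction.toPerm (S : SL(2, ℤ)))
  let u : Equiv.Perm (X × R) := md32_mono aU (MulAction.toPerm md32_U)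
  have hs : s ^ 2 = 1 := by
    ext ⟨x, r⟩
    · simp [s, pow_two, md32_mono_apply, md32_SS hneg]
    · simp only [s, pow_two, Equiv.Perm.mul_apply, md32_mono_apply, MulAction.toPerm_apply,
        md32_SS hneg, Equiv.Perm.one_apply]
      rw [add_assoc, hS, add_zero]
  have hu : u ^ 3 = 1 := by
    ext ⟨x, r⟩
    · simp [u, pow_succ, md32_mono_apply, md32_UUU hneg]
    · simp only [u, pow_succ, pow_zero, one_mul, Equiv.Perm.mul_apply, md32_mono_apply,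
        MulAction.toPerm_apply, md32_UUU hneg, Equiv.Perm.one_apply]
      rw [add_assoc, add_assoc, ← add_assoc (aU _), hU, add_zero]
  obtain ⟨F, hFS, hFU⟩ := psl96_univ s u hs hu
  rw [← md32_U_eq] at hFU
  have key : ∀ g : SL(2, ℤ), ∃ c : X → R, ∀ x r, F g (x, r) = (g • x, r + c (g • x)) := by
    intro g
    have hg : g ∈ Subgroup.closure ({S, md32_U} : Set SL(2, ℤ)) := by
      rw [md32_closure_SU]; trivial
    induction hg using Subgroup.closure_induction with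
    | mem x hx =>
      rcases hx with rfl | rfl
      · exact ⟨aS, fun x r => by rw [hFS]; rfl⟩
      · exact ⟨aU, fun x r => by rw [hFU]; rfl⟩
    | one => exact ⟨0, fun x r => by simp⟩
    | mul a b _ _ ha hb =>
      obtain ⟨ca, hca⟩ := ha
      obtain ⟨cb, hcb⟩ := hb
      refine ⟨fun z => ca z + cb (a⁻¹ • z), fun x r => ?_⟩
      rw [map_mul, Equiv.Perm.mul_apply, hcb, hca, mul_smul]
      simp only [inv_smul_smul, Prod.mk.injEq, true_and]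
      abel
    | inv a _ ha =>
      obtain ⟨ca, hca⟩ := ha
      refine ⟨fun z => - ca (a • z), fun x r => ?_⟩
      apply (F a).injective
      rw [← Equiv.Perm.mul_apply, ← map_mul, mul_inv_cancel, map_one, Equiv.Perm.one_apply, hca]
      simp
  choose c hc using key
  refine ⟨c, ?_, ?_, ?_⟩
  · funext y
    have h := hc S (S⁻¹ • y) 0
    rw [hFS] at h
    simpa [s, md32_mono_apply] using (congrArg Prod.snd h).symm
  · funext y
    have h := hc md32_U (md32_U⁻¹ • y) 0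
    rw [hFU] at h
    simpa [u, md32_mono_apply] using (congrArg Prod.snd h).symm
  · intro g h y
    have h1 := hc (g * h) ((g * h)⁻¹ • y) 0
    rw [map_mul, Equiv.Perm.mul_apply, hc h, hc g] at h1
    have h2 := congrArg Prod.snd h1
    simp only [smul_inv_smul, zero_add] at h2
    have h3 : h • (g * h)⁻¹ • y = g⁻¹ • y := by
      rw [← mul_smul]; congr 1; group
    rw [h3, smul_inv_smul] at h2
    rw [← h2]; abel

/-- A left cocycle vanishes at `1`. -/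
theorem md32_cocycle_one {D : SL(2, ℤ) → X → R}
    (hD : ∀ g h y, D (g * h) y = D g y + D h (g⁻¹ • y)) (y : X) : D 1 y = 0 := by
  have h := hD 1 1 y
  simpa using h

/-- The value of a left cocycle at an inverse. -/
theorem md32_cocycle_inv {D : SL(2, ℤ) → X → R}
    (hD : ∀ g h y, D (g * h) y = D g y + D h (g⁻¹ • y)) (g : SL(2, ℤ)) (y : X) :
    D g⁻¹ y = - D g (g • y) := by
  have h := hD g⁻¹ g y
  rw [inv_mul_cancel, md32_cocycle_one hD, inv_inv] at h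
  exact eq_neg_of_add_eq_zero_left h.symm

/-- Left cocycles are determined by their values on `S` and `U`. -/
theorem md32_cocycle_ext {D D' : SL(2, ℤ) → X → R}
    (hD : ∀ g h y, D (g * h) y = D g y + D h (g⁻¹ • y))
    (hD' : ∀ g h y, D' (g * h) y = D' g y + D' h (g⁻¹ • y))
    (hS : D S = D' S) (hU : D md32_U = D' md32_U) (g : SL(2, ℤ)) : D g = D' g := by
  have hg : g ∈ Subgroup.closure ({S, md32_U} : Set SL(2, ℤ)) := by
    rw [md32_closure_SU]; trivial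
  induction hg using Subgroup.closure_induction with
  | mem x hx =>
    rcases hx with rfl | rfl
    · exact hS
    · exact hU
  | one => funext y; rw [md32_cocycle_one hD, md32_cocycle_one hD']
  | mul a b _ _ ha hb => funext y; rw [hD, hD', ha, hb]
  | inv a _ ha => funext y; rw [md32_cocycle_inv hD, md32_cocycle_inv hD', ha]

end Cocycle

section Coset

variable {Γ : Subgroup SL(2, ℤ)}

/-- `-1` acts trivially on `SL(2, ℤ) ⧸ Γ` when `-1 ∈ Γ`. -/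
theorem md32_neg_smul (hneg : (-1 : SL(2, ℤ)) ∈ Γ) (x : SL(2, ℤ) ⧸ Γ) :
    (-1 : SL(2, ℤ)) • x = x := by
  induction x using QuotientGroup.induction_on with
  | H g =>
    rw [MulAction.Quotient.smul_coe]
    apply QuotientGroup.eq.mpr
    have : ((-1 : SL(2, ℤ)) • g)⁻¹ * g = -1 := by simp
    rw [this]; exact hneg

theorem md32_S_inv_smul (hneg : (-1 : SL(2, ℤ)) ∈ Γ) (x : SL(2, ℤ) ⧸ Γ) :
    (S : SL(2, ℤ))⁻¹ • x = (S : SL(2, ℤ)) • x := by
  rw [inv_smul_eq_iff, md32_SS (md32_neg_smul hneg)]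

/-- The base point of `SL(2, ℤ) ⧸ Γ`. -/
def md32_x0 (Γ : Subgroup SL(2, ℤ)) : SL(2, ℤ) ⧸ Γ := ((1 : SL(2, ℤ)) : SL(2, ℤ) ⧸ Γ)

theorem md32_smul_x0 {γ : SL(2, ℤ)} (hγ : γ ∈ Γ) : γ • md32_x0 Γ = md32_x0 Γ := by
  rw [md32_x0, MulAction.Quotient.smul_coe]
  apply QuotientGroup.eq.mpr
  simpa using Γ.inv_mem hγ

theorem md32_smul_x0_eq (g : SL(2, ℤ)) : g • md32_x0 Γ = (g : SL(2, ℤ) ⧸ Γ) := by
  rw [md32_x0, MulAction.Quotient.smul_coe]; simp

/-- The `Γ`-valued cocycle attached to a system of coset representatives. -/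
def md32_sig (rep : SL(2, ℤ) ⧸ Γ → SL(2, ℤ)) (g : SL(2, ℤ)) (x : SL(2, ℤ) ⧸ Γ) : SL(2, ℤ) :=
  (rep (g • x))⁻¹ * g * rep x

theorem md32_sig_mem {rep : SL(2, ℤ) ⧸ Γ → SL(2, ℤ)}
    (hrep : ∀ x, (rep x : SL(2, ℤ) ⧸ Γ) = x) (g : SL(2, ℤ)) (x : SL(2, ℤ) ⧸ Γ) :
    md32_sig rep g x ∈ Γ := by
  have h : (rep (g • x) : SL(2, ℤ) ⧸ Γ) = ((g * rep x : SL(2, ℤ)) : SL(2, ℤ) ⧸ Γ) := by
    rw [hrep, ← smul_eq_mul, ← MulAction.Quotient.smul_coe, hrep]
  have h2 := QuotientGroup.eq.mp h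
  rwa [← mul_assoc] at h2

theorem md32_sig_mul (rep : SL(2, ℤ) ⧸ Γ → SL(2, ℤ)) (g h : SL(2, ℤ)) (x : SL(2, ℤ) ⧸ Γ) :
    md32_sig rep (g * h) x = md32_sig rep g (h • x) * md32_sig rep h x := by
  simp only [md32_sig, mul_smul]
  group

theorem md32_rep_x0_mem {rep : SL(2, ℤ) ⧸ Γ → SL(2, ℤ)}
    (hrep : ∀ x, (rep x : SL(2, ℤ) ⧸ Γ) = x) : rep (md32_x0 Γ) ∈ Γ := by
  have h : (rep (md32_x0 Γ) : SL(2, ℤ) ⧸ Γ) = ((1 : SL(2, ℤ)) : SL(2, ℤ) ⧸ Γ) :=
    hrep (md32_x0 Γ)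
  have h2 := QuotientGroup.eq.mp h.symm
  simpa using h2

/-- `χ` is additive on `Γ`. -/
def md32_IsHom (Γ : Subgroup SL(2, ℤ)) (χ : SL(2, ℤ) → ℤ) : Prop :=
  ∀ a ∈ Γ, ∀ b ∈ Γ, χ (a * b) = χ a + χ b

theorem md32_IsHom.one {χ : SL(2, ℤ) → ℤ} (hχ : md32_IsHom Γ χ) : χ 1 = 0 := by
  have h := hχ 1 Γ.one_mem 1 Γ.one_mem
  rw [mul_one] at h; linarith

theorem md32_IsHom.inv {χ : SL(2, ℤ) → ℤ} (hχ : md32_IsHom Γ χ) {a : SL(2, ℤ)} (ha : a ∈ Γ) :
    χ a⁻¹ = - χ a := by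
  have h := hχ a ha a⁻¹ (Γ.inv_mem ha)
  rw [mul_inv_cancel, hχ.one] at h; linarith

theorem md32_IsHom.neg_one {χ : SL(2, ℤ) → ℤ} (hχ : md32_IsHom Γ χ)
    (hneg : (-1 : SL(2, ℤ)) ∈ Γ) : χ (-1) = 0 := by
  have h := hχ (-1) hneg (-1) hneg
  rw [neg_mul_neg, one_mul, hχ.one] at h; linarith

theorem md32_IsHom.conj {χ : SL(2, ℤ) → ℤ} (hχ : md32_IsHom Γ χ) {r a : SL(2, ℤ)}
    (hr : r ∈ Γ) (ha : a ∈ Γ) : χ (r⁻¹ * a * r) = χ a := by
  rw [hχ _ (Γ.mul_mem (Γ.inv_mem hr) ha) _ hr, hχ _ (Γ.inv_mem hr) _ ha, hχ.inv hr]; ring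

theorem md32_IsHom.cube {χ : SL(2, ℤ) → ℤ} (hχ : md32_IsHom Γ χ)
    (hneg : (-1 : SL(2, ℤ)) ∈ Γ) {e : SL(2, ℤ)} (he : e ∈ Γ) (h3 : e ^ 3 = -1) : χ e = 0 := by
  have h1 : χ (e ^ 3) = 3 * χ e := by
    rw [pow_succ, pow_two, hχ _ (Γ.mul_mem he he) _ he, hχ _ he _ he]; ring
  rw [h3, hχ.neg_one hneg] at h1; linarith

/-- Coset representatives adapted to `U`. -/
def md32_Adapted (rep : SL(2, ℤ) ⧸ Γ → SL(2, ℤ)) : Prop :=
  ∀ x, md32_U • x = x ∨ md32_sig rep md32_U x = 1 ∨ md32_sig rep md32_U x = -1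

theorem md32_chi_sig_U {rep : SL(2, ℤ) ⧸ Γ → SL(2, ℤ)}
    (hrep : ∀ x, (rep x : SL(2, ℤ) ⧸ Γ) = x) (had : md32_Adapted rep)
    (hneg : (-1 : SL(2, ℤ)) ∈ Γ) {χ : SL(2, ℤ) → ℤ} (hχ : md32_IsHom Γ χ)
    (x : SL(2, ℤ) ⧸ Γ) : χ (md32_sig rep md32_U x) = 0 := by
  rcases had x with h | h | h
  · apply hχ.cube hneg (md32_sig_mem hrep _ _)
    have : md32_sig rep md32_U x = (rep x)⁻¹ * md32_U * rep x := by rw [md32_sig, h]
    have h3 : ((rep x)⁻¹ * md32_U * rep x) ^ 3 = (rep x)⁻¹ * md32_U ^ 3 * rep x := by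
      simp only [pow_succ, pow_zero, one_mul, mul_assoc, mul_inv_cancel_left]
    rw [this, h3, md32_U_eq, psl96_U_cube]
    simp
  · rw [h, hχ.one]
  · rw [h, hχ.neg_one hneg]

/-- The jump function of `χ` along the `S`-edges. -/
def md32_J (rep : SL(2, ℤ) ⧸ Γ → SL(2, ℤ)) (χ : SL(2, ℤ) → ℤ) (x : SL(2, ℤ) ⧸ Γ) : ℤ :=
  χ ((rep x)⁻¹ * S * rep ((S : SL(2, ℤ)) • x))

theorem md32_J_eq_sig (hneg : (-1 : SL(2, ℤ)) ∈ Γ) (rep : SL(2, ℤ) ⧸ Γ → SL(2, ℤ))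
    (χ : SL(2, ℤ) → ℤ) (x : SL(2, ℤ) ⧸ Γ) :
    md32_J rep χ x = χ (md32_sig rep S ((S : SL(2, ℤ)) • x)) := by
  rw [md32_J, md32_sig, md32_SS (md32_neg_smul hneg)]

theorem md32_J_S {rep : SL(2, ℤ) ⧸ Γ → SL(2, ℤ)}
    (hrep : ∀ x, (rep x : SL(2, ℤ) ⧸ Γ) = x) (hneg : (-1 : SL(2, ℤ)) ∈ Γ)
    {χ : SL(2, ℤ) → ℤ} (hχ : md32_IsHom Γ χ) (x : SL(2, ℤ) ⧸ Γ) :
    md32_J rep χ ((S : SL(2, ℤ)) • x) = - md32_J rep χ x := by
  have h1 : md32_J rep χ x = χ (md32_sig rep S ((S : SL(2, ℤ)) • x)) := md32_J_eq_sig hneg rep χ x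
  have h2 : md32_J rep χ ((S : SL(2, ℤ)) • x) = χ (md32_sig rep S x) := by
    rw [md32_J_eq_sig hneg, md32_SS (md32_neg_smul hneg)]
  have h3 : md32_sig rep S ((S : SL(2, ℤ)) • x) * md32_sig rep S x = -1 := by
    rw [← md32_sig_mul, ← pow_two, psl96_S_sq, md32_sig, md32_neg_smul hneg]
    simp
  have h4 := hχ _ (md32_sig_mem hrep S ((S : SL(2, ℤ)) • x)) _ (md32_sig_mem hrep S x)
  rw [h3, hχ.neg_one hneg] at h4
  rw [h1, h2]; linarith

end Coset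

section Symbols

variable {Γ : Subgroup SL(2, ℤ)} {C : Type*}

/-- Axioms for the cusp set: `SL(2, ℤ)` acts transitively on `C` and the stabiliser of the base
cusp is `{± T ^ n}`. -/
structure md32_CuspAx (ρ : SL(2, ℤ) →* Equiv.Perm C) (cinf : C) : Prop where
  T_fix : ρ T cinf = cinf
  neg_fix : ρ (-1) cinf = cinf
  trans : ∀ c, ∃ g, ρ g cinf = c
  stab : ∀ g, ρ g cinf = cinf → ∃ n : ℤ, g = T ^ n ∨ g = -T ^ n

/-- Integral modular symbols for `Γ`: additive, `Γ`-invariant functions on pairs of cusps. -/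
def md32_IsSymb (Γ : Subgroup SL(2, ℤ)) (ρ : SL(2, ℤ) →* Equiv.Perm C) (Φ : C → C → ℤ) : Prop :=
  (∀ a b c, Φ a b + Φ b c = Φ a c) ∧ ∀ γ ∈ Γ, ∀ a b, Φ (ρ γ a) (ρ γ b) = Φ a b

/-- The Manin coordinates of a symbol: its values on the edges `g⁻¹ {0, ∞}`. -/
def md32_v (ρ : SL(2, ℤ) →* Equiv.Perm C) (cinf : C) (rep : SL(2, ℤ) ⧸ Γ → SL(2, ℤ))
    (Φ : C → C → ℤ) (x : SL(2, ℤ) ⧸ Γ) : ℤ :=
  Φ (ρ ((rep x)⁻¹ * S) cinf) (ρ (rep x)⁻¹ cinf)

/-- **Manin relations are all relations**: every `v` satisfying the two- and three-term relations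
is the coordinate vector of a symbol. -/
theorem md32_symb_onto {ρ : SL(2, ℤ) →* Equiv.Perm C} {cinf : C} (hax : md32_CuspAx ρ cinf)
    (hneg : (-1 : SL(2, ℤ)) ∈ Γ) {rep : SL(2, ℤ) ⧸ Γ → SL(2, ℤ)}
    (hrep : ∀ x, (rep x : SL(2, ℤ) ⧸ Γ) = x)
    (v : SL(2, ℤ) ⧸ Γ → ℤ) (hvS : ∀ x, v ((S : SL(2, ℤ)) • x) = - v x)
    (hvU : ∀ x, v x + v (md32_U • x) + v (md32_U • md32_U • x) = 0) :
    ∃ Φ : C → C → ℤ, md32_IsSymb Γ ρ Φ ∧ ∀ x, md32_v ρ cinf rep Φ x = v x := by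
  obtain ⟨D, hDS, hDU, hD⟩ := md32_exists_cocycle (md32_neg_smul hneg)
    (fun x => - v x) (fun x => - v x)
    (fun x => by rw [hvS]; ring) (fun x => by linarith [hvU x])
  have hDT : ∀ y, D T y = 0 := by
    intro y
    have h := hD S T ((S : SL(2, ℤ)) • y)
    rw [← md32_U_eq, hDU, hDS, inv_smul_smul] at h
    simpa using h
  have hDTi : ∀ y, D T⁻¹ y = 0 := fun y => by rw [md32_cocycle_inv hD, hDT, neg_zero]
  have hDTn : ∀ (n : ℤ) y, D (T ^ n) y = 0 := by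
    intro n
    induction n using Int.induction_on with
    | zero => intro y; simpa using md32_cocycle_one hD y
    | succ n ih => intro y; rw [_root_.zpow_add_one, hD, ih, hDT, add_zero]
    | pred n ih => intro y; rw [_root_.zpow_sub_one, hD, ih, hDTi, add_zero]
  have hDneg : ∀ y, D (-1) y = 0 := by
    intro y
    have h := hD S S y
    rw [← pow_two, psl96_S_sq, hDS] at h
    simp only at h
    rw [md32_S_inv_smul hneg, hvS] at h
    rw [h]; ring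
  have hDnT : ∀ (n : ℤ) y, D (-T ^ n) y = 0 := by
    intro n y
    have h := hD (-1) (T ^ n) y
    rw [neg_one_mul, hDneg, hDTn, add_zero] at h
    exact h
  let P : C → ℤ := fun c => D (Classical.choose (hax.trans c)) (md32_x0 Γ)
  have hP : ∀ g, P (ρ g cinf) = D g (md32_x0 Γ) := by
    intro g
    have h1 : ρ (Classical.choose (hax.trans (ρ g cinf))) cinf = ρ g cinf :=
      Classical.choose_spec (hax.trans (ρ g cinf))
    obtain ⟨g', hg'⟩ : ∃ g', g' = Classical.choose (hax.trans (ρ g cinf)) := ⟨_, rfl⟩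
    rw [← hg'] at h1
    have h2 : ρ (g⁻¹ * g') cinf = cinf := by
      rw [map_mul, Equiv.Perm.mul_apply, h1, ← Equiv.Perm.mul_apply, ← map_mul,
        inv_mul_cancel, map_one]
      rfl
    show D (Classical.choose (hax.trans (ρ g cinf))) (md32_x0 Γ) = _
    rw [← hg']
    obtain ⟨n, hn | hn⟩ := hax.stab _ h2
    · have h3 : g' = g * T ^ n := by rw [← hn]; group
      rw [h3, hD, hDTn, add_zero]
    · have h3 : g' = g * (-T ^ n) := by rw [← hn]; group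
      rw [h3, hD, hDnT, add_zero]
  refine ⟨fun a b => P b - P a, ⟨fun a b c => by ring, ?_⟩, ?_⟩
  · intro γ hγ a b
    have hinv : ∀ c, P (ρ γ c) = D γ (md32_x0 Γ) + P c := by
      intro c
      obtain ⟨g, rfl⟩ := hax.trans c
      rw [← Equiv.Perm.mul_apply, ← map_mul, hP, hP, hD, md32_smul_x0 (Γ.inv_mem hγ)]
    simp only [hinv]; ring
  · intro x
    simp only [md32_v]
    rw [hP, hP, hD, hDS, inv_inv, md32_smul_x0_eq, hrep]; ring

/-- A symbol is determined by its Manin coordinates (modulo any subgroup `I` of `ℤ`). -/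
theorem md32_symb_ext {ρ : SL(2, ℤ) →* Equiv.Perm C} {cinf : C} (hax : md32_CuspAx ρ cinf)
    {rep : SL(2, ℤ) ⧸ Γ → SL(2, ℤ)} (hrep : ∀ x, (rep x : SL(2, ℤ) ⧸ Γ) = x)
    {Φ : C → C → ℤ} (hΦ : md32_IsSymb Γ ρ Φ) (I : AddSubgroup ℤ)
    (hv : ∀ x, md32_v ρ cinf rep Φ x ∈ I) (a b : C) : Φ a b ∈ I := by
  have h0 : ∀ a, Φ a a = 0 := fun a => by have := hΦ.1 a a a; linarith
  have hanti : ∀ a b, Φ b a = - Φ a b := fun a b => by
    have := hΦ.1 a b a; rw [h0] at this; linarith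
  have hedge : ∀ g, Φ (ρ (g * S) cinf) (ρ g cinf) ∈ I := by
    intro g
    obtain ⟨x, hxdef⟩ : ∃ x : SL(2, ℤ) ⧸ Γ, x = ((g⁻¹ : SL(2, ℤ)) : SL(2, ℤ) ⧸ Γ) := ⟨_, rfl⟩
    have hx := hv x
    have hγ : g * rep x ∈ Γ := by
      have h : ((g⁻¹ : SL(2, ℤ)) : SL(2, ℤ) ⧸ Γ) = (rep x : SL(2, ℤ) ⧸ Γ) := by rw [hrep, hxdef]
      have h' := QuotientGroup.eq.mp h
      simpa using h'
    have h1 : (rep x)⁻¹ = (g * rep x)⁻¹ * g := by group
    simp only [md32_v] at hx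
    rw [h1, mul_assoc, map_mul, map_mul ρ _ g, Equiv.Perm.mul_apply, Equiv.Perm.mul_apply,
      hΦ.2 _ (Γ.inv_mem hγ)] at hx
    exact hx
  have hw : ∀ w : SL(2, ℤ), ∀ g, Φ (ρ g cinf) (ρ (g * w) cinf) ∈ I := by
    intro w
    have hwc : w ∈ Subgroup.closure ({S, T} : Set SL(2, ℤ)) := by
      rw [SpecialLinearGroup.SL2Z_generators]; trivial
    induction hwc using Subgroup.closure_induction with
    | mem x hx =>
      rcases hx with rfl | rfl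
      · intro g; rw [hanti]; exact I.neg_mem (hedge g)
      · intro g; rw [map_mul, Equiv.Perm.mul_apply, hax.T_fix, h0]; exact I.zero_mem
    | one => intro g; rw [mul_one, h0]; exact I.zero_mem
    | mul x y _ _ hx hy =>
      intro g
      rw [← hΦ.1 _ (ρ (g * x) cinf) _, ← mul_assoc]
      exact I.add_mem (hx g) (hy (g * x))
    | inv x _ hx =>
      intro g
      rw [hanti]
      have := hx (g * x⁻¹)
      rw [inv_mul_cancel_right] at this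
      exact I.neg_mem this
  obtain ⟨g, rfl⟩ := hax.trans a
  obtain ⟨g', rfl⟩ := hax.trans b
  have := hw (g⁻¹ * g') g
  rwa [mul_inv_cancel_left] at this

end Symbols

section HomOnto

variable {Γ : Subgroup SL(2, ℤ)}

/-- Every antisymmetric function on `X` is, up to an `S`-coboundary of a `U`-invariant function,
the jump function of a homomorphism `Γ → ℤ`. -/
theorem md32_hom_onto (hneg : (-1 : SL(2, ℤ)) ∈ Γ) {rep : SL(2, ℤ) ⧸ Γ → SL(2, ℤ)}
    (hrep : ∀ x, (rep x : SL(2, ℤ) ⧸ Γ) = x) (had : md32_Adapted rep)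
    (J : SL(2, ℤ) ⧸ Γ → ℤ) (hJ : ∀ x, J ((S : SL(2, ℤ)) • x) = - J x) :
    ∃ χ : SL(2, ℤ) → ℤ, md32_IsHom Γ χ ∧ ∃ f : SL(2, ℤ) ⧸ Γ → ℤ,
      (∀ x, f (md32_U • x) = f x) ∧
      ∀ x, md32_J rep χ x = J x + f x - f ((S : SL(2, ℤ)) • x) := by
  obtain ⟨D, hDS, hDU, hD⟩ := md32_exists_cocycle (md32_neg_smul hneg) J (fun _ => (0 : ℤ))
    (fun x => by rw [hJ]; ring) (fun x => by simp)
  have hχ : md32_IsHom Γ (fun g => D g (md32_x0 Γ)) := by
    intro a ha b _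
    show D (a * b) (md32_x0 Γ) = D a (md32_x0 Γ) + D b (md32_x0 Γ)
    rw [hD, md32_smul_x0 (Γ.inv_mem ha)]
  have key : ∀ g x, D (md32_sig rep g x) (md32_x0 Γ)
      = D g (g • x) + D (rep x) x - D (rep (g • x)) (g • x) := by
    intro g x
    have e1 : (rep (g • x)) • md32_x0 Γ = g • x := by rw [md32_smul_x0_eq, hrep]
    have e2 : ((rep (g • x))⁻¹ * g)⁻¹ • md32_x0 Γ = x := by
      rw [_root_.mul_inv_rev, inv_inv, mul_smul, e1, inv_smul_smul]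
    rw [md32_sig, hD ((rep (g • x))⁻¹ * g) (rep x), hD (rep (g • x))⁻¹ g, inv_inv, e1, e2,
      md32_cocycle_inv hD, e1]
    ring
  refine ⟨fun g => D g (md32_x0 Γ), hχ, fun x => - D (rep x) x, ?_, ?_⟩
  · intro x
    have h1 := md32_chi_sig_U hrep had hneg hχ x
    have h2 := key md32_U x
    rw [h1, hDU] at h2
    linarith
  · intro x
    rw [md32_J_eq_sig hneg]
    show D (md32_sig rep S ((S : SL(2, ℤ)) • x)) (md32_x0 Γ) = _
    rw [key, md32_SS (md32_neg_smul hneg), hDS]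
    ring

end HomOnto

section Walk

variable {Γ : Subgroup SL(2, ℤ)}

open Classical in
/-- The universal "walk" cocycle: `W g y` is the chain of `S`-edges traversed by `g`. -/
theorem md32_exists_walk (hneg : (-1 : SL(2, ℤ)) ∈ Γ) :
    ∃ W : SL(2, ℤ) → (SL(2, ℤ) ⧸ Γ) → (SL(2, ℤ) ⧸ Γ) → ℤ,
      (∀ g h y, W (g * h) y = W g y + W h (g⁻¹ • y)) ∧
      (∀ y x, W S y x = (if x = y then 1 else 0) - (if x = (S : SL(2, ℤ)) • y then 1 else 0)) ∧
      (∀ y, W md32_U y = 0) := by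
  obtain ⟨D, hDS, hDU, hD⟩ := md32_exists_cocycle (X := SL(2, ℤ) ⧸ Γ)
    (R := (SL(2, ℤ) ⧸ Γ) → ℤ) (md32_neg_smul hneg)
    (fun y x => (if x = y then 1 else 0) - (if x = (S : SL(2, ℤ)) • y then 1 else 0))
    (fun _ => 0)
    (fun y => by
      funext x
      simp only [Pi.add_apply, Pi.zero_apply, md32_SS (md32_neg_smul hneg)]
      ring)
    (fun y => by simp)
  exact ⟨D, hD, fun y x => by rw [hDS], fun y => by rw [hDU]⟩

open Classical in
/-- The walk chains are antisymmetric. -/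
theorem md32_walk_S (hneg : (-1 : SL(2, ℤ)) ∈ Γ)
    {W : SL(2, ℤ) → (SL(2, ℤ) ⧸ Γ) → (SL(2, ℤ) ⧸ Γ) → ℤ}
    (hW : ∀ g h y, W (g * h) y = W g y + W h (g⁻¹ • y))
    (hWS : ∀ y x, W S y x = (if x = y then 1 else 0) - (if x = (S : SL(2, ℤ)) • y then 1 else 0))
    (hWU : ∀ y, W md32_U y = 0) (g : SL(2, ℤ)) :
    ∀ y x, W g y ((S : SL(2, ℤ)) • x) = - W g y x := by
  have hg : g ∈ Subgroup.closure ({S, md32_U} : Set SL(2, ℤ)) := by
    rw [md32_closure_SU]; trivial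
  have hSS := md32_SS (md32_neg_smul hneg)
  induction hg using Subgroup.closure_induction with
  | mem a ha =>
    rcases ha with rfl | rfl
    · intro y x
      rw [hWS, hWS]
      have e1 : ((S : SL(2, ℤ)) • x = y) ↔ (x = (S : SL(2, ℤ)) • y) :=
        ⟨fun h => by rw [← h, hSS], fun h => by rw [h, hSS]⟩
      have e2 : ((S : SL(2, ℤ)) • x = (S : SL(2, ℤ)) • y) ↔ (x = y) :=
        ⟨fun h => MulAction.injective _ h, fun h => by rw [h]⟩
      simp only [e1, e2]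
      ring
    · intro y x; rw [hWU]; simp
  | one => intro y x; rw [md32_cocycle_one hW]; simp
  | mul a b _ _ ha hb => intro y x; rw [hW]; simp only [Pi.add_apply]; rw [ha, hb]; ring
  | inv a _ ha =>
    intro y x
    rw [md32_cocycle_inv hW]
    simp only [Pi.neg_apply]
    rw [ha]

open Classical in
/-- The boundary of the walk chain `W g y` is `[y] - [g⁻¹ y]` (on `U`-orbits). -/
theorem md32_walk_U (hneg : (-1 : SL(2, ℤ)) ∈ Γ)
    {W : SL(2, ℤ) → (SL(2, ℤ) ⧸ Γ) → (SL(2, ℤ) ⧸ Γ) → ℤ}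
    (hW : ∀ g h y, W (g * h) y = W g y + W h (g⁻¹ • y))
    (hWS : ∀ y x, W S y x = (if x = y then 1 else 0) - (if x = (S : SL(2, ℤ)) • y then 1 else 0))
    (hWU : ∀ y, W md32_U y = 0) (g : SL(2, ℤ)) :
    ∀ y x, W g y x + W g y (md32_U • x) + W g y (md32_U • md32_U • x)
      = ((if x = y then 1 else 0) + (if md32_U • x = y then 1 else 0)
          + (if md32_U • md32_U • x = y then 1 else 0))
        - ((if x = g⁻¹ • y then 1 else 0) + (if md32_U • x = g⁻¹ • y then 1 else 0)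
          + (if md32_U • md32_U • x = g⁻¹ • y then 1 else 0)) := by
  have hg : g ∈ Subgroup.closure ({S, md32_U} : Set SL(2, ℤ)) := by
    rw [md32_closure_SU]; trivial
  have hUUU := md32_UUU (md32_neg_smul hneg)
  induction hg using Subgroup.closure_induction with
  | mem a ha =>
    rcases ha with rfl | rfl
    · intro y x
      rw [hWS, hWS, hWS, md32_S_inv_smul hneg]
      ring
    · intro y x
      rw [hWU]
      have e1 : (x = md32_U⁻¹ • y) ↔ (md32_U • x = y) := eq_inv_smul_iff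
      have e2 : (md32_U • x = md32_U⁻¹ • y) ↔ (md32_U • md32_U • x = y) := eq_inv_smul_iff
      have e3 : (md32_U • md32_U • x = md32_U⁻¹ • y) ↔ (x = y) := by
        rw [eq_inv_smul_iff, hUUU]
      simp only [e1, e2, e3, Pi.zero_apply]
      ring
  | one => intro y x; rw [md32_cocycle_one hW]; simp
  | mul a b _ _ ha hb =>
    intro y x
    rw [hW]
    simp only [Pi.add_apply]
    have h1 := ha y x
    have h2 := hb (a⁻¹ • y) x
    rw [_root_.mul_inv_rev, mul_smul]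
    linarith
  | inv a _ ha =>
    intro y x
    rw [md32_cocycle_inv hW]
    simp only [Pi.neg_apply]
    have h1 := ha (a • y) x
    rw [inv_smul_smul] at h1
    rw [inv_inv]
    linarith

end Walk

section ManinRel

variable {Γ : Subgroup SL(2, ℤ)} {C : Type*} {ρ : SL(2, ℤ) →* Equiv.Perm C} {cinf : C}

theorem md32_rho_neg (hax : md32_CuspAx ρ cinf) (c : C) : ρ (-1) c = c := by
  obtain ⟨g, rfl⟩ := hax.trans c
  rw [← Equiv.Perm.mul_apply, ← map_mul, neg_one_mul, ← mul_neg_one, map_mul,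
    Equiv.Perm.mul_apply, hax.neg_fix]

theorem md32_rho_Tinv (hax : md32_CuspAx ρ cinf) : ρ T⁻¹ cinf = cinf := by
  rw [map_inv, Equiv.Perm.inv_eq_iff_eq, hax.T_fix]

theorem md32_S_inv : (S : SL(2, ℤ))⁻¹ = S * -1 := by
  apply inv_eq_of_mul_eq_one_right
  rw [← mul_assoc, ← pow_two, psl96_S_sq]
  simp

/-- The edge attached to `h • x` is the `Γ`-translate of the `h⁻¹`-translate of the edge of `x`. -/
theorem md32_v_transl {rep : SL(2, ℤ) ⧸ Γ → SL(2, ℤ)} (hrep : ∀ x, (rep x : SL(2, ℤ) ⧸ Γ) = x)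
    {Φ : C → C → ℤ} (hΦ : md32_IsSymb Γ ρ Φ) (h : SL(2, ℤ)) (x : SL(2, ℤ) ⧸ Γ) :
    md32_v ρ cinf rep Φ (h • x)
      = Φ (ρ ((rep x)⁻¹ * h⁻¹ * S) cinf) (ρ ((rep x)⁻¹ * h⁻¹) cinf) := by
  have hγ := md32_sig_mem hrep h x
  have e : (rep (h • x))⁻¹ = md32_sig rep h x * ((rep x)⁻¹ * h⁻¹) := by
    rw [md32_sig]; group
  rw [md32_v, e, mul_assoc, map_mul, map_mul ρ (md32_sig rep h x), Equiv.Perm.mul_apply,
    Equiv.Perm.mul_apply, hΦ.2 _ hγ]

theorem md32_v_S (hax : md32_CuspAx ρ cinf) {rep : SL(2, ℤ) ⧸ Γ → SL(2, ℤ)}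
    (hrep : ∀ x, (rep x : SL(2, ℤ) ⧸ Γ) = x) {Φ : C → C → ℤ} (hΦ : md32_IsSymb Γ ρ Φ)
    (x : SL(2, ℤ) ⧸ Γ) :
    md32_v ρ cinf rep Φ ((S : SL(2, ℤ)) • x) = - md32_v ρ cinf rep Φ x := by
  have h0 : ∀ a, Φ a a = 0 := fun a => by have := hΦ.1 a a a; linarith
  have hanti : ∀ a b, Φ b a = - Φ a b := fun a b => by
    have := hΦ.1 a b a; rw [h0] at this; linarith
  rw [md32_v_transl hrep hΦ, inv_mul_cancel_right, md32_v, hanti]
  congr 2
  rw [md32_S_inv, ← mul_assoc, map_mul, Equiv.Perm.mul_apply, md32_rho_neg hax]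

theorem md32_v_U (hax : md32_CuspAx ρ cinf) {rep : SL(2, ℤ) ⧸ Γ → SL(2, ℤ)}
    (hrep : ∀ x, (rep x : SL(2, ℤ) ⧸ Γ) = x) {Φ : C → C → ℤ} (hΦ : md32_IsSymb Γ ρ Φ)
    (x : SL(2, ℤ) ⧸ Γ) :
    md32_v ρ cinf rep Φ x + md32_v ρ cinf rep Φ (md32_U • x)
      + md32_v ρ cinf rep Φ (md32_U • md32_U • x) = 0 := by
  have h0 : ∀ a, Φ a a = 0 := fun a => by have := hΦ.1 a a a; linarith
  have e1 : ρ ((rep x)⁻¹ * md32_U⁻¹ * S) cinf = ρ (rep x)⁻¹ cinf := by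
    have : (rep x)⁻¹ * md32_U⁻¹ * S = (rep x)⁻¹ * T⁻¹ := by rw [md32_U_eq]; group
    rw [this, map_mul, Equiv.Perm.mul_apply, md32_rho_Tinv hax]
  have e2 : ρ ((rep x)⁻¹ * (md32_U * md32_U)⁻¹ * S) cinf = ρ ((rep x)⁻¹ * md32_U⁻¹) cinf := by
    have : (rep x)⁻¹ * (md32_U * md32_U)⁻¹ * S = (rep x)⁻¹ * md32_U⁻¹ * T⁻¹ := by
      rw [md32_U_eq]; group
    rw [this, map_mul, Equiv.Perm.mul_apply, md32_rho_Tinv hax]
  have e3 : ρ ((rep x)⁻¹ * (md32_U * md32_U)⁻¹) cinf = ρ ((rep x)⁻¹ * S) cinf := by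
    have h3 : (md32_U * md32_U)⁻¹ = S * T * -1 := by
      apply inv_eq_of_mul_eq_one_right
      have : md32_U * md32_U * (S * T * -1) = md32_U ^ 3 * -1 := by
        rw [md32_U_eq]; simp only [pow_succ, pow_zero, one_mul, mul_assoc]
      rw [this, md32_U_eq, psl96_U_cube]; simp
    rw [h3, ← mul_assoc, ← mul_assoc, map_mul, Equiv.Perm.mul_apply, md32_rho_neg hax, map_mul,
      Equiv.Perm.mul_apply, hax.T_fix]
  rw [← mul_smul, md32_v_transl hrep hΦ md32_U, md32_v_transl hrep hΦ (md32_U * md32_U), e1, e2,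
    e3, md32_v]
  have := hΦ.1 (ρ ((rep x)⁻¹ * S) cinf) (ρ (rep x)⁻¹ cinf) (ρ ((rep x)⁻¹ * md32_U⁻¹) cinf)
  have h2 := hΦ.1 (ρ ((rep x)⁻¹ * S) cinf) (ρ ((rep x)⁻¹ * md32_U⁻¹) cinf)
    (ρ ((rep x)⁻¹ * S) cinf)
  rw [h0] at h2
  linarith

end ManinRel

section Pairing

variable {Γ : Subgroup SL(2, ℤ)} [Fintype (SL(2, ℤ) ⧸ Γ)] {C : Type*}
  {ρ : SL(2, ℤ) →* Equiv.Perm C} {cinf : C}

/-- The cap pairing in the Manin model (twice the intrinsic pairing). -/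
def md32_B (ρ : SL(2, ℤ) →* Equiv.Perm C) (cinf : C) (rep : SL(2, ℤ) ⧸ Γ → SL(2, ℤ))
    (χ : SL(2, ℤ) → ℤ) (Φ : C → C → ℤ) : ℤ :=
  ∑ x : SL(2, ℤ) ⧸ Γ, md32_J rep χ x * md32_v ρ cinf rep Φ x

theorem md32_sum_U {f v : SL(2, ℤ) ⧸ Γ → ℤ}
    (hf : ∀ x, f (md32_U • x) = f x)
    (hv : ∀ x, v x + v (md32_U • x) + v (md32_U • md32_U • x) = 0) :
    ∑ x, f x * v x = 0 := by
  have h1 : ∑ x, f x * v (md32_U • x) = ∑ x, f x * v x := by
    rw [← Equiv.sum_comp (MulAction.toPerm md32_U) (fun x => f x * v x)]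
    exact Finset.sum_congr rfl (fun x _ => by simp [hf])
  have h2 : ∑ x, f x * v (md32_U • md32_U • x) = ∑ x, f x * v x := by
    rw [← h1, ← Equiv.sum_comp (MulAction.toPerm md32_U) (fun x => f x * v (md32_U • x))]
    exact Finset.sum_congr rfl (fun x _ => by simp [hf])
  have h3 : ∑ x, f x * (v x + v (md32_U • x) + v (md32_U • md32_U • x)) = 0 :=
    Finset.sum_eq_zero (fun x _ => by rw [hv, mul_zero])
  simp only [mul_add, Finset.sum_add_distrib, h1, h2] at h3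
  linarith

theorem md32_sum_S {f v : SL(2, ℤ) ⧸ Γ → ℤ}
    (hv : ∀ x, v ((S : SL(2, ℤ)) • x) = - v x) :
    ∑ x, f ((S : SL(2, ℤ)) • x) * v x = - ∑ x, f x * v x := by
  rw [← Equiv.sum_comp (MulAction.toPerm (S : SL(2, ℤ))) (fun x => f x * v x),
    ← Finset.sum_neg_distrib]
  exact Finset.sum_congr rfl (fun x _ => by simp [hv])

/-- The pairing only sees the jump function modulo `S`-coboundaries of `U`-invariant functions. -/
theorem md32_B_eq (hax : md32_CuspAx ρ cinf)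
    {rep : SL(2, ℤ) ⧸ Γ → SL(2, ℤ)} (hrep : ∀ x, (rep x : SL(2, ℤ) ⧸ Γ) = x)
    {Φ : C → C → ℤ} (hΦ : md32_IsSymb Γ ρ Φ) {χ : SL(2, ℤ) → ℤ}
    {J f : SL(2, ℤ) ⧸ Γ → ℤ} (hf : ∀ x, f (md32_U • x) = f x)
    (hJ : ∀ x, md32_J rep χ x = J x + f x - f ((S : SL(2, ℤ)) • x)) :
    md32_B ρ cinf rep χ Φ = ∑ x, J x * md32_v ρ cinf rep Φ x := by
  have h1 := md32_sum_U hf (md32_v_U hax hrep hΦ)
  have h2 := md32_sum_S (f := f) (md32_v_S hax hrep hΦ)
  rw [h1] at h2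
  simp only [md32_B, hJ, add_mul, sub_mul, Finset.sum_add_distrib, Finset.sum_sub_distrib, h1, h2]
  ring

open Classical in
/-- The walk chain of `g` pairs with the jump function of `χ` to `2 χ (σ(g, g⁻¹ y))`. -/
theorem md32_walk_pair (hneg : (-1 : SL(2, ℤ)) ∈ Γ) {rep : SL(2, ℤ) ⧸ Γ → SL(2, ℤ)}
    (hrep : ∀ x, (rep x : SL(2, ℤ) ⧸ Γ) = x) (had : md32_Adapted rep)
    {W : SL(2, ℤ) → (SL(2, ℤ) ⧸ Γ) → (SL(2, ℤ) ⧸ Γ) → ℤ}
    (hW : ∀ g h y, W (g * h) y = W g y + W h (g⁻¹ • y))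
    (hWS : ∀ y x, W S y x = (if x = y then 1 else 0) - (if x = (S : SL(2, ℤ)) • y then 1 else 0))
    (hWU : ∀ y, W md32_U y = 0) {χ : SL(2, ℤ) → ℤ} (hχ : md32_IsHom Γ χ)
    (g : SL(2, ℤ)) (y : SL(2, ℤ) ⧸ Γ) :
    ∑ x, W g y x * md32_J rep χ x = 2 * χ (md32_sig rep g (g⁻¹ • y)) := by
  have hD : ∀ g h y, (∑ x, W (g * h) y x * md32_J rep χ x)
      = (∑ x, W g y x * md32_J rep χ x) + ∑ x, W h (g⁻¹ • y) x * md32_J rep χ x := by
    intro g h y
    rw [hW, ← Finset.sum_add_distrib]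
    exact Finset.sum_congr rfl (fun x _ => by simp [add_mul])
  have hD' : ∀ g h y, 2 * χ (md32_sig rep (g * h) ((g * h)⁻¹ • y))
      = 2 * χ (md32_sig rep g (g⁻¹ • y)) + 2 * χ (md32_sig rep h (h⁻¹ • g⁻¹ • y)) := by
    intro g h y
    have e1 : h • (g * h)⁻¹ • y = g⁻¹ • y := by rw [← mul_smul]; congr 1; group
    have e2 : (g * h)⁻¹ • y = h⁻¹ • g⁻¹ • y := by rw [_root_.mul_inv_rev, mul_smul]
    rw [md32_sig_mul, e1, hχ _ (md32_sig_mem hrep _ _) _ (md32_sig_mem hrep _ _), e2]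
    ring
  have hS : (fun y => ∑ x, W S y x * md32_J rep χ x)
      = fun y => 2 * χ (md32_sig rep S ((S : SL(2, ℤ))⁻¹ • y)) := by
    funext y
    rw [md32_S_inv_smul hneg,
      show χ (md32_sig rep S ((S : SL(2, ℤ)) • y)) = md32_J rep χ y from
        (md32_J_eq_sig hneg rep χ y).symm]
    simp only [hWS, sub_mul, ite_mul, one_mul, zero_mul, Finset.sum_sub_distrib,
      Finset.sum_ite_eq', Finset.mem_univ, if_true]
    rw [md32_J_S hrep hneg hχ]; ring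
  have hU : (fun y => ∑ x, W md32_U y x * md32_J rep χ x)
      = fun y => 2 * χ (md32_sig rep md32_U (md32_U⁻¹ • y)) := by
    funext y
    rw [hWU, md32_chi_sig_U hrep had hneg hχ]
    simp
  exact congrFun (md32_cocycle_ext (D := fun g y => ∑ x, W g y x * md32_J rep χ x)
    (D' := fun g y => 2 * χ (md32_sig rep g (g⁻¹ • y))) hD hD' hS hU g) y

/-- **Explicit Poincaré duals**: for every `γ ∈ Γ` there is a symbol `Φ` with
`B χ Φ = 2 χ γ` for all homomorphisms `χ`. -/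
theorem md32_exists_dual (hax : md32_CuspAx ρ cinf) (hneg : (-1 : SL(2, ℤ)) ∈ Γ)
    {rep : SL(2, ℤ) ⧸ Γ → SL(2, ℤ)} (hrep : ∀ x, (rep x : SL(2, ℤ) ⧸ Γ) = x)
    (had : md32_Adapted rep) {γ : SL(2, ℤ)} (hγ : γ ∈ Γ) :
    ∃ Φ : C → C → ℤ, md32_IsSymb Γ ρ Φ ∧
      ∀ χ, md32_IsHom Γ χ → md32_B ρ cinf rep χ Φ = 2 * χ γ := by
  classical
  obtain ⟨W, hW, hWS, hWU⟩ := md32_exists_walk hneg (Γ := Γ)
  have hvS := md32_walk_S hneg hW hWS hWU γ (md32_x0 Γ)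
  have hvU : ∀ x, W γ (md32_x0 Γ) x + W γ (md32_x0 Γ) (md32_U • x)
      + W γ (md32_x0 Γ) (md32_U • md32_U • x) = 0 := by
    intro x
    rw [md32_walk_U hneg hW hWS hWU γ (md32_x0 Γ) x, md32_smul_x0 (Γ.inv_mem hγ), sub_self]
  obtain ⟨Φ, hΦ, hΦv⟩ := md32_symb_onto hax hneg hrep (W γ (md32_x0 Γ)) hvS hvU
  refine ⟨Φ, hΦ, fun χ hχ => ?_⟩
  have h1 := md32_walk_pair hneg hrep had hW hWS hWU hχ γ (md32_x0 Γ)
  rw [md32_smul_x0 (Γ.inv_mem hγ)] at h1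
  have h2 : md32_sig rep γ (md32_x0 Γ) = (rep (md32_x0 Γ))⁻¹ * γ * rep (md32_x0 Γ) := by
    rw [md32_sig, md32_smul_x0 hγ]
  rw [h2, hχ.conj (md32_rep_x0_mem hrep) hγ] at h1
  rw [← h1, md32_B]
  exact Finset.sum_congr rfl (fun x _ => by rw [hΦv, mul_comm])

theorem md32_dvd_of_dvd_two_mul {p : ℕ} (hp : p.Prime) (hp2 : p ≠ 2) {a : ℤ}
    (h : (p : ℤ) ∣ 2 * a) : (p : ℤ) ∣ a := by
  rcases (Nat.prime_iff_prime_int.mp hp).dvd_or_dvd h with h1 | h1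
  · exfalso
    have h2 : p ∣ 2 := by exact_mod_cast h1
    exact hp2 ((Nat.prime_dvd_prime_iff_eq hp Nat.prime_two).mp h2)
  · exact h1

/-- **(PD2)** A homomorphism pairing to `0 mod p` with all symbols is divisible by `p`. -/
theorem md32_hom_dvd (hax : md32_CuspAx ρ cinf) (hneg : (-1 : SL(2, ℤ)) ∈ Γ)
    {rep : SL(2, ℤ) ⧸ Γ → SL(2, ℤ)} (hrep : ∀ x, (rep x : SL(2, ℤ) ⧸ Γ) = x)
    (had : md32_Adapted rep) {p : ℕ} (hp : p.Prime) (hp2 : p ≠ 2)
    {χ : SL(2, ℤ) → ℤ} (hχ : md32_IsHom Γ χ)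
    (h : ∀ Φ : C → C → ℤ, md32_IsSymb Γ ρ Φ → (p : ℤ) ∣ md32_B ρ cinf rep χ Φ) :
    ∀ γ ∈ Γ, (p : ℤ) ∣ χ γ := by
  intro γ hγ
  obtain ⟨Φ, hΦ, hΦχ⟩ := md32_exists_dual hax hneg hrep had hγ
  have := h Φ hΦ
  rw [hΦχ χ hχ] at this
  exact md32_dvd_of_dvd_two_mul hp hp2 this

open Classical in
/-- **(PD3)** A symbol pairing to `0 mod p` with all homomorphisms is divisible by `p`. -/
theorem md32_symb_dvd (hax : md32_CuspAx ρ cinf) (hneg : (-1 : SL(2, ℤ)) ∈ Γ)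
    {rep : SL(2, ℤ) ⧸ Γ → SL(2, ℤ)} (hrep : ∀ x, (rep x : SL(2, ℤ) ⧸ Γ) = x)
    (had : md32_Adapted rep) {p : ℕ} (hp : p.Prime) (hp2 : p ≠ 2)
    {Φ : C → C → ℤ} (hΦ : md32_IsSymb Γ ρ Φ)
    (h : ∀ χ : SL(2, ℤ) → ℤ, md32_IsHom Γ χ → (p : ℤ) ∣ md32_B ρ cinf rep χ Φ) (a b : C) :
    (p : ℤ) ∣ Φ a b := by
  rw [← Int.mem_zmultiples_iff]
  apply md32_symb_ext hax hrep hΦ
  intro y
  rw [Int.mem_zmultiples_iff]
  have hSS := md32_SS (md32_neg_smul hneg)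
  have hJ : ∀ x, (fun x => ((if x = y then 1 else 0) - (if x = (S : SL(2, ℤ)) • y then 1 else 0)
      : ℤ)) ((S : SL(2, ℤ)) • x)
      = - (fun x => ((if x = y then 1 else 0) - (if x = (S : SL(2, ℤ)) • y then 1 else 0) : ℤ))
        x := by
    intro x
    have e1 : ((S : SL(2, ℤ)) • x = y) ↔ (x = (S : SL(2, ℤ)) • y) :=
      ⟨fun h => by rw [← h, hSS], fun h => by rw [h, hSS]⟩
    have e2 : ((S : SL(2, ℤ)) • x = (S : SL(2, ℤ)) • y) ↔ (x = y) :=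
      ⟨fun h => MulAction.injective _ h, fun h => by rw [h]⟩
    simp only [e1, e2]
    ring
  obtain ⟨χ, hχ, f, hf, hJf⟩ := md32_hom_onto hneg hrep had
    (fun x => ((if x = y then 1 else 0) - (if x = (S : SL(2, ℤ)) • y then 1 else 0) : ℤ)) hJ
  have h1 := h χ hχ
  rw [md32_B_eq hax hrep hΦ hf hJf] at h1
  simp only [sub_mul, ite_mul, one_mul, zero_mul, Finset.sum_sub_distrib,
    Finset.sum_ite_eq', Finset.mem_univ, if_true] at h1
  rw [md32_v_S hax hrep hΦ] at h1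
  apply md32_dvd_of_dvd_two_mul hp hp2
  have e : 2 * md32_v ρ cinf rep Φ y = md32_v ρ cinf rep Φ y - - md32_v ρ cinf rep Φ y := by ring
  rw [e]; exact h1

end Pairing

/-- A functional on an abelian group that vanishes on the kernel of a map to `𝔽_p ^ ι` is a
linear combination of the coordinates. -/
theorem md32_exists_functional {p : ℕ} [Fact p.Prime] {ι : Type*} [Fintype ι] {A : Type*}
    [AddCommGroup A] (f : A →+ (ι → ZMod p)) (lam : A →+ ZMod p)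
    (hker : ∀ a, f a = 0 → lam a = 0) :
    ∃ w : ι → ZMod p, ∀ a, lam a = ∑ i, w i * f a i := by
  classical
  have hW : ∀ y : AddSubgroup.toZModSubmodule p f.range, ∃ a, f a = y := fun y => y.2
  choose c hc using hW
  let g0 : AddSubgroup.toZModSubmodule p f.range →+ ZMod p :=
    { toFun := fun y => lam (c y)
      map_zero' := hker _ (by rw [hc]; rfl)
      map_add' := fun y z => by
        have h1 : f (c (y + z) - c y - c z) = 0 := by simp [hc]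
        have h2 := hker _ h1
        rw [map_sub, map_sub] at h2
        linear_combination h2 }
  obtain ⟨g, hg⟩ := LinearMap.exists_extend (g0.toZModLinearMap p)
  refine ⟨fun i => g (Pi.single i 1), fun a => ?_⟩
  have h2 : f a ∈ AddSubgroup.toZModSubmodule p f.range := ⟨a, rfl⟩
  have h1 : lam a = g (f a) := by
    have h3 := LinearMap.congr_fun hg ⟨f a, h2⟩
    simp only [LinearMap.coe_comp, Submodule.coe_subtype, Function.comp_apply,
      AddMonoidHom.coe_toZModLinearMap] at h3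
    rw [h3]
    show lam a = lam (c ⟨f a, h2⟩)
    have h4 : f (a - c ⟨f a, h2⟩) = 0 := by rw [map_sub, hc]; simp
    have h5 := hker _ h4
    rw [map_sub] at h5
    linear_combination h5
  rw [h1, LinearMap.pi_apply_eq_sum_univ g (f a)]
  refine Finset.sum_congr rfl (fun i _ => ?_)
  rw [smul_eq_mul, mul_comm]
  congr 2
  funext j
  simp [Pi.single_apply, eq_comm]

section PD1

variable {Γ : Subgroup SL(2, ℤ)} [Fintype (SL(2, ℤ) ⧸ Γ)] {C : Type*}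
  {ρ : SL(2, ℤ) →* Equiv.Perm C} {cinf : C}

/-- The group of integral modular symbols for `Γ`. -/
def md32_Symb (Γ : Subgroup SL(2, ℤ)) (ρ : SL(2, ℤ) →* Equiv.Perm C) :
    AddSubgroup (C → C → ℤ) where
  carrier := {Φ | md32_IsSymb Γ ρ Φ}
  zero_mem' := ⟨fun _ _ _ => by simp, fun _ _ _ _ => rfl⟩
  add_mem' := fun {Φ Ψ} hΦ hΨ => ⟨fun a b c => by
    simp only [Pi.add_apply]; linarith [hΦ.1 a b c, hΨ.1 a b c], fun γ hγ a b => by
    simp only [Pi.add_apply]; rw [hΦ.2 γ hγ, hΨ.2 γ hγ]⟩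
  neg_mem' := fun {Φ} hΦ => ⟨fun a b c => by
    simp only [Pi.neg_apply]; linarith [hΦ.1 a b c], fun γ hγ a b => by
    simp only [Pi.neg_apply]; rw [hΦ.2 γ hγ]⟩

omit [Fintype (SL(2, ℤ) ⧸ Γ)] in
theorem md32_mem_Symb {Φ : C → C → ℤ} : Φ ∈ md32_Symb Γ ρ ↔ md32_IsSymb Γ ρ Φ := Iff.rfl

/-- **(PD1)** Every functional `Symb → 𝔽_p` is the pairing with a homomorphism `Γ → ℤ`. -/
theorem md32_exists_hom (hax : md32_CuspAx ρ cinf) (hneg : (-1 : SL(2, ℤ)) ∈ Γ)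
    {rep : SL(2, ℤ) ⧸ Γ → SL(2, ℤ)} (hrep : ∀ x, (rep x : SL(2, ℤ) ⧸ Γ) = x)
    (had : md32_Adapted rep) {p : ℕ} (hp : p.Prime) (hp2 : p ≠ 2)
    (lam : md32_Symb Γ ρ →+ ZMod p) :
    ∃ χ : SL(2, ℤ) → ℤ, md32_IsHom Γ χ ∧
      ∀ Φ : md32_Symb Γ ρ, ((md32_B ρ cinf rep χ Φ : ℤ) : ZMod p) = lam Φ := by
  classical
  have : Fact p.Prime := ⟨hp⟩
  let f : md32_Symb Γ ρ →+ (SL(2, ℤ) ⧸ Γ → ZMod p) :=
    { toFun := fun Φ x => ((md32_v ρ cinf rep Φ x : ℤ) : ZMod p)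
      map_zero' := by funext x; simp [md32_v]
      map_add' := fun Φ Ψ => by funext x; simp [md32_v] }
  have hp0 : (p : ℤ) ≠ 0 := by exact_mod_cast hp.ne_zero
  have hker : ∀ Φ, f Φ = 0 → lam Φ = 0 := by
    intro Φ hΦ0
    have hdiv : ∀ a b, (p : ℤ) ∣ (Φ : C → C → ℤ) a b := by
      intro a b
      rw [← Int.mem_zmultiples_iff]
      apply md32_symb_ext hax hrep Φ.2
      intro x
      rw [Int.mem_zmultiples_iff]
      have := congrFun hΦ0 x
      exact (ZMod.intCast_zmod_eq_zero_iff_dvd _ _).mp this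
    have hΨ0 : ∀ a b, (Φ : C → C → ℤ) a b = p * ((Φ : C → C → ℤ) a b / p) :=
      fun a b => (Int.mul_ediv_cancel' (hdiv a b)).symm
    have hΨ : md32_IsSymb Γ ρ (fun a b => (Φ : C → C → ℤ) a b / p) := by
      refine ⟨fun a b c => ?_, fun γ hγ a b => ?_⟩
      · apply mul_left_cancel₀ hp0
        rw [mul_add, ← hΨ0, ← hΨ0, ← hΨ0]; exact Φ.2.1 a b c
      · apply mul_left_cancel₀ hp0
        rw [← hΨ0, ← hΨ0]; exact Φ.2.2 γ hγ a b
    have hΦΨ : Φ = p • (⟨_, hΨ⟩ : md32_Symb Γ ρ) := by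
      ext a b
      simp only [AddSubgroup.coe_nsmul, Pi.smul_apply, nsmul_eq_mul]
      exact hΨ0 a b
    rw [hΦΨ, map_nsmul]
    simp
  obtain ⟨w, hw⟩ := md32_exists_functional f lam hker
  have h2 : (2 : ZMod p) ≠ 0 := by
    intro h
    have h' : ((2 : ℕ) : ZMod p) = 0 := by exact_mod_cast h
    rw [ZMod.natCast_eq_zero_iff] at h'
    exact hp2 ((Nat.prime_dvd_prime_iff_eq hp Nat.prime_two).mp h')
  have hSS := md32_SS (md32_neg_smul hneg)
  obtain ⟨χ, hχ, g, hg, hJ⟩ := md32_hom_onto hneg hrep had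
    (fun x => ((2⁻¹ * w x : ZMod p)).cast - ((2⁻¹ * w ((S : SL(2, ℤ)) • x) : ZMod p)).cast)
    (fun x => by simp only [hSS]; ring)
  refine ⟨χ, hχ, fun Φ => ?_⟩
  rw [md32_B_eq hax hrep Φ.2 hg hJ, hw]
  have h3 := md32_sum_S (f := fun x => ((2⁻¹ * w x : ZMod p)).cast)
    (md32_v_S hax hrep Φ.2)
  have h4 : ∑ x, ((((2⁻¹ * w x : ZMod p)).cast : ℤ)
        - ((2⁻¹ * w ((S : SL(2, ℤ)) • x) : ZMod p)).cast) * md32_v ρ cinf rep Φ x
      = 2 * ∑ x, (((2⁻¹ * w x : ZMod p)).cast : ℤ) * md32_v ρ cinf rep Φ x := by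
    simp only [sub_mul, Finset.sum_sub_distrib, h3]; ring
  rw [h4]
  push_cast
  rw [Finset.mul_sum]
  refine Finset.sum_congr rfl (fun x _ => ?_)
  show _ = w x * ((md32_v ρ cinf rep Φ x : ℤ) : ZMod p)
  field_simp

end PD1

end

end Fermat.Agent.S41
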