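/-
S41 / M3.D4b (helper32), second part: instances and packaging for `ManinDual32`.

* `md32_exists_rep`: coset representatives adapted to `U` exist.
* `md32_cuspAx_rho`: the cusp axioms hold for the Möbius action on `OnePoint ℚ`.
* the pairing as a bundled biadditive map, with the two halves of perfectness in the shape
  consumed by `di28_dual_ihara`.
-/
import Mathlib
import Fermat.Agent.S41.ManinDual32

set_option autoImplicit false

open scoped MatrixGroups
open ModularGroup Matrix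

namespace Fermat.Agent.S41

noncomputable section

section Rep

variable {Γ : Subgroup SL(2, ℤ)}

theorem md32_U_cube' : md32_U * md32_U * md32_U = -1 := by
  have h := psl96_U_cube
  rw [← md32_U_eq] at h
  rw [← h]
  simp only [pow_succ, pow_zero, one_mul]

open Classical in
/-- Coset representatives adapted to `U` exist. -/
theorem md32_exists_rep (hneg : (-1 : SL(2, ℤ)) ∈ Γ) :
    ∃ rep : SL(2, ℤ) ⧸ Γ → SL(2, ℤ),
      (∀ x, (rep x : SL(2, ℤ) ⧸ Γ) = x) ∧ md32_Adapted rep := by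
  have hUUU := md32_UUU (md32_neg_smul hneg)
  have hinj : ∀ x y : SL(2, ℤ) ⧸ Γ, md32_U • x = md32_U • y → x = y :=
    fun x y h => MulAction.injective _ h
  let s : Setoid (SL(2, ℤ) ⧸ Γ) :=
    { r := fun x y => y = x ∨ y = md32_U • x ∨ y = md32_U • md32_U • x
      iseqv :=
        { refl := fun x => Or.inl rfl
          symm := by
            rintro x y (h | h | h)
            · exact Or.inl h.symm
            · right; right; rw [h, hUUU]
            · right; left; rw [h, hUUU]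
          trans := by
            rintro x y z (h | h | h) (h' | h' | h')
            · left; rw [h', h]
            · right; left; rw [h', h]
            · right; right; rw [h', h]
            · right; left; rw [h', h]
            · right; right; rw [h', h]
            · left; rw [h', h, hUUU]
            · right; right; rw [h', h]
            · left; rw [h', h, hUUU]
            · right; left; rw [h', h, hUUU] } }
  let o : SL(2, ℤ) ⧸ Γ → SL(2, ℤ) ⧸ Γ := fun x => (Quotient.mk s x).out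
  have ho : ∀ x, x = o x ∨ x = md32_U • o x ∨ x = md32_U • md32_U • o x :=
    fun x => Quotient.mk_out (s := s) x
  have hoU : ∀ x, o (md32_U • x) = o x := by
    intro x
    show (Quotient.mk s (md32_U • x)).out = (Quotient.mk s x).out
    have : Quotient.mk s (md32_U • x) = Quotient.mk s x :=
      Quotient.sound (s := s) (Or.inr (Or.inr (hUUU x).symm))
    rw [this]
  have hr0 : ∀ y : SL(2, ℤ) ⧸ Γ, ((Quotient.out y : SL(2, ℤ)) : SL(2, ℤ) ⧸ Γ) = y :=
    fun y => QuotientGroup.out_eq' y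
  obtain ⟨rep, hrep_def⟩ : ∃ rep : SL(2, ℤ) ⧸ Γ → SL(2, ℤ), ∀ x, rep x =
      if x = o x then Quotient.out (o x)
      else if x = md32_U • o x then md32_U * Quotient.out (o x)
      else md32_U * md32_U * Quotient.out (o x) := ⟨_, fun _ => rfl⟩
  have hsm : ∀ (g a : SL(2, ℤ)), ((g * a : SL(2, ℤ)) : SL(2, ℤ) ⧸ Γ)
      = g • (a : SL(2, ℤ) ⧸ Γ) := fun g a => by
    rw [MulAction.Quotient.smul_coe, smul_eq_mul]
  refine ⟨rep, ?_, ?_⟩
  · intro x
    rw [hrep_def]
    split_ifs with h1 h2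
    · rw [hr0]; exact h1.symm
    · rw [hsm, hr0]; exact h2.symm
    · rw [mul_assoc, hsm, hsm, hr0]
      rcases ho x with h | h | h
      · exact absurd h h1
      · exact absurd h h2
      · exact h.symm
  · intro x
    by_cases hfix : md32_U • x = x
    · exact Or.inl hfix
    right
    have e := hoU x
    rcases ho x with h | h | h
    · -- x = o x
      left
      have c1 : ¬ (md32_U • x = o (md32_U • x)) := by
        rw [e, ← h]; exact hfix
      have c2 : md32_U • x = md32_U • o (md32_U • x) := by rw [e, ← h]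
      rw [md32_sig, hrep_def (md32_U • x), if_neg c1, if_pos c2, hrep_def x, if_pos h, e,
        mul_assoc, inv_mul_cancel]
    · -- x = U • o x
      left
      have hx1 : ¬ (x = o x) := by
        intro h1
        apply hfix
        rw [← h1] at h
        exact h.symm
      have c1 : ¬ (md32_U • x = o (md32_U • x)) := by
        rw [e]
        intro h1
        apply hfix
        rw [← h1] at h
        have := hUUU x
        rw [← h] at this
        exact this
      have c2 : ¬ (md32_U • x = md32_U • o (md32_U • x)) := by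
        rw [e, ← h]; exact hfix
      rw [md32_sig, hrep_def (md32_U • x), if_neg c1, if_neg c2, hrep_def x, if_neg hx1,
        if_pos h, e, mul_assoc _ md32_U, ← mul_assoc md32_U md32_U, inv_mul_cancel]
    · -- x = U • U • o x
      right
      have hox : md32_U • x = o x := by
        have := hUUU (o x)
        rw [← h] at this
        exact this
      have hx1 : ¬ (x = o x) := by
        intro h1
        apply hfix
        rw [hox]; exact h1.symm
      have hx2 : ¬ (x = md32_U • o x) := by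
        intro h2
        apply hx1
        have h3 : md32_U • o x = md32_U • md32_U • o x := h2.symm.trans h
        have h4 := hinj _ _ h3
        exact h2.trans h4.symm
      have c1 : md32_U • x = o (md32_U • x) := by rw [e]; exact hox
      rw [md32_sig, hrep_def (md32_U • x), if_pos c1, hrep_def x, if_neg hx1, if_neg hx2, e,
        mul_assoc _ md32_U, ← mul_assoc md32_U, ← mul_assoc md32_U, md32_U_cube']
      simp

end Rep

section Cusps

/-- The cusp axioms hold for the Möbius action of `SL(2, ℤ)` on `OnePoint ℚ`. -/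
theorem md32_cuspAx_rho : md32_CuspAx psl96_rho (OnePoint.infty : OnePoint ℚ) where
  T_fix := by
    rw [psl96_rho_infty]
    simp [ModularGroup.T]
  neg_fix := by rw [psl96_rho_neg_one]; rfl
  trans := fun c => by
    obtain ⟨g, hg⟩ := OnePoint.exists_mem_SL2 ℤ c
    exact ⟨g, hg⟩
  stab := fun g hg => by
    have h10 : g 1 0 = 0 := by
      rw [psl96_rho_infty] at hg
      by_contra h
      rw [if_neg (by exact_mod_cast h)] at hg
      exact OnePoint.coe_ne_infty _ hg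
    have hdet := g.det_coe
    rw [Matrix.det_fin_two, h10, mul_zero, sub_zero] at hdet
    rcases Int.eq_one_or_neg_one_of_mul_eq_one' hdet with ⟨h00, h11⟩ | ⟨h00, h11⟩
    · refine ⟨g 0 1, Or.inl ?_⟩
      ext i j
      fin_cases i <;> fin_cases j <;> simp [ModularGroup.coe_T_zpow, h00, h11, h10]
    · refine ⟨- g 0 1, Or.inr ?_⟩
      ext i j
      fin_cases i <;> fin_cases j <;> simp [ModularGroup.coe_T_zpow, h00, h11, h10]

end Cusps

section Action

variable {Γ : Subgroup SL(2, ℤ)} [Fintype (SL(2, ℤ) ⧸ Γ)] {C : Type*} [MulAction SL(2, ℤ) C]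

omit [Fintype (SL(2, ℤ) ⧸ Γ)] in
/-- Symbols for an honest action. -/
theorem md32_isSymb_smul {Φ : C → C → ℤ} :
    md32_IsSymb Γ (MulAction.toPermHom SL(2, ℤ) C) Φ ↔
      (∀ a b c, Φ a b + Φ b c = Φ a c) ∧ ∀ γ ∈ Γ, ∀ a b, Φ (γ • a) (γ • b) = Φ a b :=
  Iff.rfl

/-- The pairing for an honest action, on the symbol of a potential. -/
theorem md32_B_smul (cinf : C) (rep : SL(2, ℤ) ⧸ Γ → SL(2, ℤ)) (χ : SL(2, ℤ) → ℤ)
    (pot : C → ℤ) :
    md32_B (MulAction.toPermHom SL(2, ℤ) C) cinf rep χ (fun a b => pot b - pot a)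
      = ∑ x : SL(2, ℤ) ⧸ Γ, χ ((rep x)⁻¹ * S * rep ((S : SL(2, ℤ)) • x))
          * (pot ((rep x)⁻¹ • cinf) - pot ((rep x)⁻¹ • (S : SL(2, ℤ)) • cinf)) := by
  simp only [md32_B, md32_J, md32_v, MulAction.toPermHom_apply, MulAction.toPerm_apply, mul_smul]

/-- The cusp axioms for an honest action. -/
theorem md32_cuspAx_smul {cinf : C} (hT : (T : SL(2, ℤ)) • cinf = cinf)
    (hneg : (-1 : SL(2, ℤ)) • cinf = cinf) (htrans : ∀ c : C, ∃ g : SL(2, ℤ), g • cinf = c)
    (hstab : ∀ g : SL(2, ℤ), g • cinf = cinf → ∃ n : ℤ, g = T ^ n ∨ g = -T ^ n) :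
    md32_CuspAx (MulAction.toPermHom SL(2, ℤ) C) cinf :=
  ⟨hT, hneg, htrans, hstab⟩

end Action

section Bundled

variable {Γ : Subgroup SL(2, ℤ)} [Fintype (SL(2, ℤ) ⧸ Γ)] {C : Type*}
  {ρ : SL(2, ℤ) →* Equiv.Perm C} {cinf : C}

open Classical in
/-- Extension by zero of a homomorphism on `Γ` to a function on `SL(2, ℤ)`. -/
def md32_ext (χ : Additive Γ →+ ℤ) : SL(2, ℤ) → ℤ :=
  fun g => if h : g ∈ Γ then χ (Additive.ofMul ⟨g, h⟩) else 0

omit [Fintype (SL(2, ℤ) ⧸ Γ)] in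
theorem md32_ext_of_mem (χ : Additive Γ →+ ℤ) {g : SL(2, ℤ)} (h : g ∈ Γ) :
    md32_ext χ g = χ (Additive.ofMul ⟨g, h⟩) := by
  rw [md32_ext, dif_pos h]

omit [Fintype (SL(2, ℤ) ⧸ Γ)] in
theorem md32_ext_isHom (χ : Additive Γ →+ ℤ) : md32_IsHom Γ (md32_ext χ) := by
  intro a ha b hb
  rw [md32_ext_of_mem χ ha, md32_ext_of_mem χ hb, md32_ext_of_mem χ (Γ.mul_mem ha hb), ← map_add]
  rfl

omit [Fintype (SL(2, ℤ) ⧸ Γ)] in
theorem md32_ext_add (χ ψ : Additive Γ →+ ℤ) (g : SL(2, ℤ)) :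
    md32_ext (χ + ψ) g = md32_ext χ g + md32_ext ψ g := by
  by_cases h : g ∈ Γ
  · rw [md32_ext_of_mem _ h, md32_ext_of_mem _ h, md32_ext_of_mem _ h, AddMonoidHom.add_apply]
  · simp [md32_ext, h]

/-- Restriction to `Γ` of a function that is additive on `Γ`. -/
def md32_res {χ : SL(2, ℤ) → ℤ} (hχ : md32_IsHom Γ χ) : Additive Γ →+ ℤ where
  toFun := fun g => χ (g.toMul : Γ)
  map_zero' := hχ.one
  map_add' := fun a b => hχ _ a.toMul.2 _ b.toMul.2

omit [Fintype (SL(2, ℤ) ⧸ Γ)] in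
theorem md32_ext_res {χ : SL(2, ℤ) → ℤ} (hχ : md32_IsHom Γ χ) {g : SL(2, ℤ)} (h : g ∈ Γ) :
    md32_ext (md32_res hχ) g = χ g := by
  rw [md32_ext_of_mem _ h]; rfl

/-- The pairing only depends on the restriction of `χ` to `Γ`. -/
theorem md32_B_congr (hneg : (-1 : SL(2, ℤ)) ∈ Γ) {rep : SL(2, ℤ) ⧸ Γ → SL(2, ℤ)}
    (hrep : ∀ x, (rep x : SL(2, ℤ) ⧸ Γ) = x) {χ χ' : SL(2, ℤ) → ℤ}
    (h : ∀ g ∈ Γ, χ g = χ' g) (Φ : C → C → ℤ) :
    md32_B ρ cinf rep χ Φ = md32_B ρ cinf rep χ' Φ := by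
  refine Finset.sum_congr rfl (fun x _ => ?_)
  rw [md32_J_eq_sig hneg, md32_J_eq_sig hneg, h _ (md32_sig_mem hrep _ _)]

/-- The pairing as a biadditive map `Symb × Hom(Γ, ℤ) → ℤ`. -/
def md32_PB (ρ : SL(2, ℤ) →* Equiv.Perm C) (cinf : C) (rep : SL(2, ℤ) ⧸ Γ → SL(2, ℤ)) :
    md32_Symb Γ ρ →+ (Additive Γ →+ ℤ) →+ ℤ :=
  AddMonoidHom.mk' (fun Φ => AddMonoidHom.mk' (fun χ => md32_B ρ cinf rep (md32_ext χ) Φ)
    (fun χ ψ => by
      simp only [md32_B, md32_J, md32_ext_add, add_mul, Finset.sum_add_distrib]))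
    (fun Φ Ψ => by
      ext χ
      simp only [AddMonoidHom.mk'_apply, AddMonoidHom.add_apply, md32_B, md32_v,
        AddSubgroup.coe_add, Pi.add_apply, mul_add, Finset.sum_add_distrib])

theorem md32_PB_apply (rep : SL(2, ℤ) ⧸ Γ → SL(2, ℤ)) (Φ : md32_Symb Γ ρ)
    (χ : Additive Γ →+ ℤ) :
    md32_PB ρ cinf rep Φ χ = md32_B ρ cinf rep (md32_ext χ) Φ := rfl

/-- **(PD1)**, bundled: every functional `Symb → 𝔽_p` is the pairing with some `χ : Γ → ℤ`. -/
theorem md32_PB_pd1 (hax : md32_CuspAx ρ cinf) (hneg : (-1 : SL(2, ℤ)) ∈ Γ)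
    {rep : SL(2, ℤ) ⧸ Γ → SL(2, ℤ)} (hrep : ∀ x, (rep x : SL(2, ℤ) ⧸ Γ) = x)
    (had : md32_Adapted rep) {p : ℕ} (hp : p.Prime) (hp2 : p ≠ 2) :
    ∀ lam : md32_Symb Γ ρ →+ ZMod p, ∃ α : Additive Γ →+ ℤ,
      ∀ x, ((md32_PB ρ cinf rep x α : ℤ) : ZMod p) = lam x := by
  intro lam
  obtain ⟨χ, hχ, h⟩ := md32_exists_hom hax hneg hrep had hp hp2 lam
  refine ⟨md32_res hχ, fun Φ => ?_⟩
  rw [md32_PB_apply, md32_B_congr hneg hrep (fun g hg => md32_ext_res hχ hg), h]

/-- **(PD2)**, bundled: a homomorphism pairing to `0 mod p` with all symbols is divisible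
by `p`. -/
theorem md32_PB_pd2 (hax : md32_CuspAx ρ cinf) (hneg : (-1 : SL(2, ℤ)) ∈ Γ)
    {rep : SL(2, ℤ) ⧸ Γ → SL(2, ℤ)} (hrep : ∀ x, (rep x : SL(2, ℤ) ⧸ Γ) = x)
    (had : md32_Adapted rep) {p : ℕ} (hp : p.Prime) (hp2 : p ≠ 2) :
    ∀ β : Additive Γ →+ ℤ, (∀ b, (p : ℤ) ∣ md32_PB ρ cinf rep b β) →
      ∃ β' : Additive Γ →+ ℤ, β = (p : ℤ) • β' := by
  intro β hβ
  have hp0 : (p : ℤ) ≠ 0 := by exact_mod_cast hp.ne_zero
  have hdvd : ∀ g : Additive Γ, (p : ℤ) ∣ β g := by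
    intro g
    have h1 := md32_hom_dvd hax hneg hrep had hp hp2 (md32_ext_isHom β)
      (fun Φ hΦ => hβ ⟨Φ, hΦ⟩) (g.toMul : Γ) g.toMul.2
    rw [md32_ext_of_mem β g.toMul.2] at h1
    exact h1
  refine ⟨{ toFun := fun g => β g / p
            map_zero' := by simp
            map_add' := fun a b => ?_ }, ?_⟩
  · apply mul_left_cancel₀ hp0
    rw [mul_add, Int.mul_ediv_cancel' (hdvd _), Int.mul_ediv_cancel' (hdvd _),
      Int.mul_ediv_cancel' (hdvd _), map_add]
  · refine AddMonoidHom.ext (fun g => ?_)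
    change β g = (p : ℤ) * (β g / (p : ℤ))
    rw [Int.mul_ediv_cancel' (hdvd _)]

/-- **(PD3)**, bundled: a symbol pairing to `0 mod p` with all homomorphisms is divisible
by `p`. -/
theorem md32_PB_pd3 (hax : md32_CuspAx ρ cinf) (hneg : (-1 : SL(2, ℤ)) ∈ Γ)
    {rep : SL(2, ℤ) ⧸ Γ → SL(2, ℤ)} (hrep : ∀ x, (rep x : SL(2, ℤ) ⧸ Γ) = x)
    (had : md32_Adapted rep) {p : ℕ} (hp : p.Prime) (hp2 : p ≠ 2) :
    ∀ b : md32_Symb Γ ρ, (∀ β, (p : ℤ) ∣ md32_PB ρ cinf rep b β) →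
      ∃ b' : md32_Symb Γ ρ, b = (p : ℤ) • b' := by
  intro Φ hΦ
  have hp0 : (p : ℤ) ≠ 0 := by exact_mod_cast hp.ne_zero
  have hdiv : ∀ a b, (p : ℤ) ∣ (Φ : C → C → ℤ) a b := by
    intro a b
    apply md32_symb_dvd hax hneg hrep had hp hp2 Φ.2
    intro χ hχ
    have := hΦ (md32_res hχ)
    rwa [md32_PB_apply, md32_B_congr hneg hrep (fun g hg => md32_ext_res hχ hg)] at this
  have hΨ0 : ∀ a b, (Φ : C → C → ℤ) a b = p * ((Φ : C → C → ℤ) a b / p) :=
    fun a b => (Int.mul_ediv_cancel' (hdiv a b)).symm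
  have hΨ : md32_IsSymb Γ ρ (fun a b => (Φ : C → C → ℤ) a b / p) := by
    refine ⟨fun a b c => ?_, fun γ hγ a b => ?_⟩
    · apply mul_left_cancel₀ hp0
      rw [mul_add, ← hΨ0, ← hΨ0, ← hΨ0]; exact Φ.2.1 a b c
    · apply mul_left_cancel₀ hp0
      rw [← hΨ0, ← hΨ0]; exact Φ.2.2 γ hγ a b
  refine ⟨⟨_, hΨ⟩, ?_⟩
  ext a b
  simp only [AddSubgroup.coe_zsmul, Pi.smul_apply, smul_eq_mul]
  exact hΨ0 a b

/-- The Manin coordinates as an additive map. -/
def md32_vHom (ρ : SL(2, ℤ) →* Equiv.Perm C) (cinf : C) (rep : SL(2, ℤ) ⧸ Γ → SL(2, ℤ)) :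
    md32_Symb Γ ρ →+ (SL(2, ℤ) ⧸ Γ → ℤ) where
  toFun := fun Φ x => md32_v ρ cinf rep Φ x
  map_zero' := by funext x; simp [md32_v]
  map_add' := fun Φ Ψ => by funext x; simp [md32_v]

omit [Fintype (SL(2, ℤ) ⧸ Γ)] in
/-- The Manin coordinates are injective: the symbols embed into `ℤ ^ (SL(2, ℤ) ⧸ Γ)`. -/
theorem md32_vHom_injective (hax : md32_CuspAx ρ cinf)
    {rep : SL(2, ℤ) ⧸ Γ → SL(2, ℤ)} (hrep : ∀ x, (rep x : SL(2, ℤ) ⧸ Γ) = x) :
    Function.Injective (md32_vHom (Γ := Γ) ρ cinf rep) := by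
  rw [injective_iff_map_eq_zero]
  intro Φ hΦ
  ext a b
  have := md32_symb_ext hax hrep Φ.2 ⊥ (fun x => by
    rw [AddSubgroup.mem_bot]; exact congrFun hΦ x) a b
  rwa [AddSubgroup.mem_bot] at this

end Bundled

end

end Fermat.Agent.S41
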