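import Mathlib
import Fermat.Agent.S41.ManinInst32
import Fermat.Agent.S41.DualIhara28
import Fermat.Agent.S41.IharaConc42
import Fermat.Agent.S41.SymbLatticeP10
import Fermat.Agent.S41.SymbCore71

/-!
# S41 / L9 glue: duality + Hom-side Ihara ⟹ dual Ihara for symbols, plain form

`dg71_Hb`: the abstract duality step `di28_mod_p`, instantiated on the groups of integral
modular symbols `md32_Symb (Gamma0 M) psl96_rho` (the carrier of the Manin-model pairing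
`md32_PB`) with the `Trace43` operators, gives the hypothesis `(Hb)` of the referee's `rf7_main`
verbatim.

* `dg71_mk`, `dg71_fn`            : dictionary between plain symbols `Φ : sc71_X → ℤ`
                                    (`slp10_IsSymb M Φ`) and elements of `md32_Symb`;
* `dg71_T`, `dg71_tr`, `dg71_W`   : `tr43_T`, `tr43_tr`, `tr43_W` as additive maps on `md32_Symb`;
* `dg71_pow_fn`                   : `(T - (ℓ + 1))^n` is the `n`-th iterate of `ic42_E ℓ`;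
* `dg71_Hb`                       : the glue theorem.
-/

set_option autoImplicit false

open Matrix MatrixGroups CongruenceSubgroup OnePoint
open Fermat.Agent.S16

namespace Fermat.Agent.S41

/-! ### dictionary -/

/-- a plain integral symbol of level `M` as an element of `md32_Symb`. -/
def dg71_mk (M : ℕ) (Φ : sc71_X → ℤ) (h : slp10_IsSymb M Φ) : md32_Symb (Gamma0 M) psl96_rho :=
  ⟨fun a b => Φ (a, b), h.1, fun γ hγ a b => h.2 ⟨γ, hγ⟩ (a, b)⟩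

/-- the plain function of an element of `md32_Symb`. -/
def dg71_fn {M : ℕ} (b : md32_Symb (Gamma0 M) psl96_rho) : sc71_X → ℤ :=
  fun x => (b : OnePoint ℚ → OnePoint ℚ → ℤ) x.1 x.2

theorem dg71_fn_apply {M : ℕ} (b : md32_Symb (Gamma0 M) psl96_rho) (a c : OnePoint ℚ) :
    dg71_fn b (a, c) = (b : OnePoint ℚ → OnePoint ℚ → ℤ) a c := rfl

theorem dg71_fn_isSymb {M : ℕ} (b : md32_Symb (Gamma0 M) psl96_rho) :
    slp10_IsSymb M (dg71_fn b) :=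
  ⟨fun a c d => b.2.1 a c d, fun γ x => b.2.2 γ.1 γ.2 x.1 x.2⟩

theorem dg71_fn_mk (M : ℕ) (Φ : sc71_X → ℤ) (h : slp10_IsSymb M Φ) :
    dg71_fn (dg71_mk M Φ h) = Φ := rfl

theorem dg71_mk_fn {M : ℕ} (b : md32_Symb (Gamma0 M) psl96_rho) :
    dg71_mk M (dg71_fn b) (dg71_fn_isSymb b) = b := rfl

theorem dg71_fn_add {M : ℕ} (b b' : md32_Symb (Gamma0 M) psl96_rho) :
    dg71_fn (b + b') = dg71_fn b + dg71_fn b' := rfl

theorem dg71_fn_zero {M : ℕ} : dg71_fn (0 : md32_Symb (Gamma0 M) psl96_rho) = 0 := rfl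

theorem dg71_fn_sub {M : ℕ} (b b' : md32_Symb (Gamma0 M) psl96_rho) :
    dg71_fn (b - b') = dg71_fn b - dg71_fn b' := rfl

theorem dg71_fn_zsmul {M : ℕ} (c : ℤ) (b : md32_Symb (Gamma0 M) psl96_rho) :
    dg71_fn (c • b) = c • dg71_fn b := rfl

theorem dg71_fn_injective {M : ℕ} :
    Function.Injective (dg71_fn : md32_Symb (Gamma0 M) psl96_rho → sc71_X → ℤ) := by
  intro b b' h
  apply Subtype.ext
  funext a c
  exact congrFun h (a, c)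

/-! ### the operators on `md32_Symb` -/

/-- `T_ℓ` on `md32_Symb` (`ℓ ∤ M`). -/
noncomputable def dg71_T (M ℓ : ℕ) (hℓ : ℓ.Prime) (hℓM : ¬ ℓ ∣ M) :
    md32_Symb (Gamma0 M) psl96_rho →+ md32_Symb (Gamma0 M) psl96_rho where
  toFun b := dg71_mk M (tr43_T ℓ (dg71_fn b))
    ⟨sc71_IsSymb.T (dg71_fn_isSymb b).1 ℓ, tr43_T_Inv hℓ hℓM (dg71_fn_isSymb b).2⟩
  map_zero' := dg71_fn_injective (by
    rw [dg71_fn_mk, dg71_fn_zero, tr43_T_zero])
  map_add' b b' := dg71_fn_injective (by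
    rw [dg71_fn_mk, dg71_fn_add, dg71_fn_add, dg71_fn_mk, dg71_fn_mk, tr43_T_add])

theorem dg71_T_fn (M ℓ : ℕ) (hℓ : ℓ.Prime) (hℓM : ¬ ℓ ∣ M) (b : md32_Symb (Gamma0 M) psl96_rho) :
    dg71_fn (dg71_T M ℓ hℓ hℓM b) = tr43_T ℓ (dg71_fn b) := rfl

/-- the trace from level `N q` to level `N` on `md32_Symb`. -/
noncomputable def dg71_tr {N q : ℕ} (hq : q.Prime) (D : tr43_Data N q) :
    md32_Symb (Gamma0 (N * q)) psl96_rho →+ md32_Symb (Gamma0 N) psl96_rho where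
  toFun b := dg71_mk N (tr43_tr D (dg71_fn b))
    ⟨sc71_IsSymb.tr D (dg71_fn_isSymb b).1, tr43_tr_Inv hq D (dg71_fn_isSymb b).2⟩
  map_zero' := dg71_fn_injective (by
    rw [dg71_fn_mk, dg71_fn_zero, tr43_tr_zero]
    rfl)
  map_add' b b' := dg71_fn_injective (by
    rw [dg71_fn_mk, dg71_fn_add, dg71_fn_add, dg71_fn_mk, dg71_fn_mk, tr43_tr_add])

theorem dg71_tr_fn {N q : ℕ} (hq : q.Prime) (D : tr43_Data N q)
    (b : md32_Symb (Gamma0 (N * q)) psl96_rho) :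
    dg71_fn (dg71_tr hq D b) = tr43_tr D (dg71_fn b) := rfl

/-- the Atkin–Lehner operator `W_q` on `md32_Symb` of level `N q`. -/
noncomputable def dg71_W {N q : ℕ} (hq : q ≠ 0) (D : tr43_Data N q) :
    md32_Symb (Gamma0 (N * q)) psl96_rho →+ md32_Symb (Gamma0 (N * q)) psl96_rho where
  toFun b := dg71_mk (N * q) (tr43_W D (dg71_fn b))
    ⟨sc71_IsSymb.W D (dg71_fn_isSymb b).1, tr43_W_Inv hq D (dg71_fn_isSymb b).2⟩
  map_zero' := rfl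
  map_add' _ _ := rfl

theorem dg71_W_fn {N q : ℕ} (hq : q ≠ 0) (D : tr43_Data N q)
    (b : md32_Symb (Gamma0 (N * q)) psl96_rho) :
    dg71_fn (dg71_W hq D b) = tr43_W D (dg71_fn b) := rfl

/-- `(T_ℓ - (ℓ + 1))^n` on `md32_Symb` is the `n`-th iterate of `ic42_E ℓ` on functions. -/
theorem dg71_pow_fn (M ℓ : ℕ) (hℓ : ℓ.Prime) (hℓM : ¬ ℓ ∣ M) (n : ℕ)
    (b : md32_Symb (Gamma0 M) psl96_rho) :
    dg71_fn (lr54_pow (dg71_T M ℓ hℓ hℓM) ((ℓ : ℤ) + 1) n b) = (ic42_E ℓ)^[n] (dg71_fn b) := by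
  induction n with
  | zero => rfl
  | succ n ih =>
    have hsm : ∀ F : sc71_X → ℤ, ((ℓ : ℤ) + 1) • F = (ℓ + 1) • F := by
      intro F
      funext x
      simp only [Pi.smul_apply, smul_eq_mul, nsmul_eq_mul]
      push_cast
      ring
    rw [lr54_pow_succ, Function.iterate_succ_apply', dg71_fn_sub, dg71_fn_zsmul, dg71_T_fn, ih,
      ic42_E, hsm]

/-! ### the glue theorem -/

/-- **L9 glue.**  Pairings `PN`, `PQ` between integral symbols and homomorphisms at levels `N`,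
`N q` (in use: `md32_PB`), for which the two traces are adjoint to `res₁`, `res₂`, `T_{ℓ₀}` is
adjoint to `T'`, with the two halves (PD1), (PD2) of perfectness mod `p`, and Ihara's lemma
`H1'` on the `Hom` side, give dual Ihara for symbols in the plain form `(Hb)` of `rf7_main`. -/
theorem dg71_Hb (p : ℕ) (hp : p.Prime) {N q : ℕ} (hq : q.Prime) (D : tr43_Data N q)
    {l0 : ℕ} (hl0 : l0.Prime) (hl0N : ¬ l0 ∣ N)
    (PN : md32_Symb (Gamma0 N) psl96_rho →+ (Additive (Gamma0 N) →+ ℤ) →+ ℤ)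
    (PQ : md32_Symb (Gamma0 (N * q)) psl96_rho →+ (Additive (Gamma0 (N * q)) →+ ℤ) →+ ℤ)
    (res₁ res₂ : (Additive (Gamma0 N) →+ ℤ) →+ (Additive (Gamma0 (N * q)) →+ ℤ))
    (T' : (Additive (Gamma0 N) →+ ℤ) →+ (Additive (Gamma0 N) →+ ℤ))
    (hadj₁ : ∀ b α, PN (dg71_tr hq D b) α = PQ b (res₁ α))
    (hadj₂ : ∀ b α, PN (dg71_tr hq D (dg71_W hq.ne_zero D b)) α = PQ b (res₂ α))
    (hT : ∀ x α, PN (dg71_T N l0 hl0 hl0N x) α = PN x (T' α))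
    (hPD1 : ∀ lam : md32_Symb (Gamma0 N) psl96_rho →+ ZMod p,
      ∃ α : Additive (Gamma0 N) →+ ℤ, ∀ x, ((PN x α : ℤ) : ZMod p) = lam x)
    (hPD2 : ∀ β : Additive (Gamma0 (N * q)) →+ ℤ, (∀ b, (p : ℤ) ∣ PQ b β) →
      ∃ β' : Additive (Gamma0 (N * q)) →+ ℤ, β = (p : ℤ) • β')
    (n : ℕ)
    (H1' : ∀ α₁ α₂ : Additive (Gamma0 N) →+ ℤ,
      (∃ β' : Additive (Gamma0 (N * q)) →+ ℤ, res₁ α₁ + res₂ α₂ = (p : ℤ) • β') →
      (∃ α', lr54_pow T' ((l0 : ℤ) + 1) n α₁ = (p : ℤ) • α') ∧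
        (∃ α', lr54_pow T' ((l0 : ℤ) + 1) n α₂ = (p : ℤ) • α')) :
    ∃ n : ℕ, ∀ φ₁ φ₂ : sc71_X → ℤ, slp10_IsSymb N φ₁ → slp10_IsSymb N φ₂ →
      ∃ Ψ : sc71_X → ℤ, slp10_IsSymb (N * q) Ψ ∧
        (∀ z, (p : ℤ) ∣ (ic42_E l0)^[n] φ₁ z - tr43_tr D Ψ z) ∧
        (∀ z, (p : ℤ) ∣ (ic42_E l0)^[n] φ₂ z - tr43_tr D (tr43_W D Ψ) z) := by
  refine ⟨n, fun φ₁ φ₂ h₁ h₂ => ?_⟩
  obtain ⟨b, y, hby⟩ := di28_mod_p
    (A := md32_Symb (Gamma0 N) psl96_rho × md32_Symb (Gamma0 N) psl96_rho)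
    (B := md32_Symb (Gamma0 (N * q)) psl96_rho)
    (A' := (Additive (Gamma0 N) →+ ℤ) × (Additive (Gamma0 N) →+ ℤ))
    (B' := Additive (Gamma0 (N * q)) →+ ℤ) p hp
    (di28_prodPair PN PN) PQ
    ((dg71_tr hq D).prod ((dg71_tr hq D).comp (dg71_W hq.ne_zero D))) (res₁.coprod res₂)
    (by
      rintro b ⟨α₁, α₂⟩
      show PN (dg71_tr hq D b) α₁ + PN (dg71_tr hq D (dg71_W hq.ne_zero D b)) α₂ =
        PQ b (res₁ α₁ + res₂ α₂)
      rw [hadj₂, hadj₁, map_add])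
    ((dg71_T N l0 hl0 hl0N).prodMap (dg71_T N l0 hl0 hl0N)) (T'.prodMap T') ((l0 : ℤ) + 1)
    (by
      rintro ⟨x₁, x₂⟩ ⟨α₁, α₂⟩
      show PN (dg71_T N l0 hl0 hl0N x₁) α₁ + PN (dg71_T N l0 hl0 hl0N x₂) α₂ =
        PN x₁ (T' α₁) + PN x₂ (T' α₂)
      rw [hT, hT])
    (di28_pd1_prod p PN PN hPD1 hPD1) hPD2 n
    (by
      rintro ⟨α₁, α₂⟩ ⟨β', hβ'⟩
      obtain ⟨⟨a₁, ha₁⟩, ⟨a₂, ha₂⟩⟩ := H1' α₁ α₂ ⟨β', by simpa using hβ'⟩
      refine ⟨(a₁, a₂), ?_⟩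
      rw [di28_pow_prodMap]
      simp [ha₁, ha₂])
    (dg71_mk N φ₁ h₁, dg71_mk N φ₂ h₂)
  rw [di28_pow_prodMap] at hby
  have hby₁ := congrArg (fun x => dg71_fn x.1) hby
  have hby₂ := congrArg (fun x => dg71_fn x.2) hby
  simp only [dg71_pow_fn, dg71_fn_mk] at hby₁ hby₂
  refine ⟨dg71_fn b, dg71_fn_isSymb b, fun z => ⟨dg71_fn y.1 z, ?_⟩, fun z => ⟨dg71_fn y.2 z, ?_⟩⟩
  · rw [hby₁]
    show dg71_fn (dg71_tr hq D b + (p : ℤ) • y.1) z - tr43_tr D (dg71_fn b) z = _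
    rw [dg71_fn_add, dg71_fn_zsmul, dg71_tr_fn]
    simp
  · rw [hby₂]
    show dg71_fn (dg71_tr hq D (dg71_W hq.ne_zero D b) + (p : ℤ) • y.2) z -
      tr43_tr D (tr43_W D (dg71_fn b)) z = _
    rw [dg71_fn_add, dg71_fn_zsmul, dg71_tr_fn, dg71_W_fn]
    simp

end Fermat.Agent.S41
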