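/-
S41 / M1.P adapter (helper76): the three model inputs of `ic42_H1` (helper42, `IharaConc42`)
for the ruling model `P := OnePoint ℚ` (conventions C1–C3 of ruling #1357), from
`CuspAdapted76`:

* `cp76_move`   : for `ℓ ≡ 1 (mod M)` every standard representative `lbMat ℓ i` of `T_ℓ` maps each
                  point of `OnePoint ℚ` into its own `Γ₀(M)`-orbit (hypothesis `hmove`);
* `cp76_U_infty`, `cp76_L_zero` : unipotents fix `∞`, resp. `0` (hypotheses `hUinf`, `hL0`);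
* `cp76_sum_boundary`, `cp76_T_boundary` : boundary symbols have `T_ℓ = ℓ + 1`;
* `cp76_exists_fixed` : an element of `SL(2, ℤ)` with `trace ^ 2 = 4` fixes a point.
-/
import Mathlib
import Fermat.Agent.S41.CuspAdapted76
import Fermat.Agent.S41.Trace43
import Fermat.Agent.S41.Symbol71

set_option autoImplicit false

open CongruenceSubgroup
open scoped MatrixGroups

namespace Fermat.Agent.S41

open Fermat.Agent.S16 Matrix.SpecialLinearGroup OnePoint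

/-- `lbMat` and `hh_repTInt` are the same representatives. -/
theorem cp76_lbMat_eq (ℓ : ℕ) (i : Option (Fin ℓ)) : lbMat ℓ i = hh_repTInt ℓ i := by
  cases i <;> rfl

/-- entries of `tr43_gl (lbMat ℓ i)`. -/
theorem cp76_gl_lbMat_apply {ℓ : ℕ} (hℓ : ℓ ≠ 0) (i : Option (Fin ℓ)) (a b : Fin 2) :
    (tr43_gl (lbMat ℓ i) : GL (Fin 2) ℚ) a b = ((hh_repTInt ℓ i a b : ℤ) : ℚ) := by
  have h := tr43_gl_coe (tr43_lbMat_det_ne hℓ i)
  have h2 := congrFun (congrFun h a) b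
  rw [cp76_lbMat_eq] at h2 ⊢
  exact h2

/-- **(P3) `hmove`.**  For `ℓ ≡ 1 (mod M)`, each standard representative of `T_ℓ` moves every
point of `OnePoint ℚ` inside its `Γ₀(M)`-orbit. -/
theorem cp76_move {M ℓ : ℕ} (hℓ : ℓ.Prime) (h1 : (M : ℤ) ∣ (ℓ : ℤ) - 1) (i : Option (Fin ℓ))
    (x : OnePoint ℚ) :
    ∃ γ : Gamma0 M, tr43_gl (lbMat ℓ i) • x = mapGL ℚ (γ : SL(2, ℤ)) • x := by
  have h1' : ℓ ≡ 1 [MOD M] := by
    have h2 : (1 : ℕ) ≡ ℓ [MOD M] := (Nat.modEq_iff_dvd).mpr (by simpa using h1)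
    exact h2.symm
  exact ca76_cusp_fixed_onePoint hℓ h1' i (tr43_gl (lbMat ℓ i))
    (fun a b => cp76_gl_lbMat_apply hℓ.ne_zero i a b) x

/-- the same with the congruence as `Nat.ModEq`. -/
theorem cp76_move' {M ℓ : ℕ} (hℓ : ℓ.Prime) (h1 : ℓ ≡ 1 [MOD M]) (i : Option (Fin ℓ))
    (x : OnePoint ℚ) :
    ∃ γ : Gamma0 M, tr43_gl (lbMat ℓ i) • x = mapGL ℚ (γ : SL(2, ℤ)) • x :=
  ca76_cusp_fixed_onePoint hℓ h1 i (tr43_gl (lbMat ℓ i))
    (fun a b => cp76_gl_lbMat_apply hℓ.ne_zero i a b) x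

/-- **`hUinf`.**  Upper unipotents fix `∞`. -/
theorem cp76_U_infty (x : ℚ) :
    (Matrix.SpecialLinearGroup.toGL (sy71_U x) : GL (Fin 2) ℚ) • (∞ : OnePoint ℚ) = ∞ := by
  rw [OnePoint.smul_infty_eq_self_iff]
  exact (sy71_U_apply x).2.2.1

/-- **`hL0`.**  Lower unipotents fix `0`. -/
theorem cp76_L_zero (y : ℚ) :
    (Matrix.SpecialLinearGroup.toGL (sy71_L y) : GL (Fin 2) ℚ) • (((0 : ℚ) : OnePoint ℚ))
      = ((0 : ℚ) : OnePoint ℚ) := by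
  rw [OnePoint.smul_some_eq_ite]
  have h := sy71_L_apply y
  have h00 : (Matrix.SpecialLinearGroup.toGL (sy71_L y) : GL (Fin 2) ℚ) 0 0 = 1 := h.1
  have h01 : (Matrix.SpecialLinearGroup.toGL (sy71_L y) : GL (Fin 2) ℚ) 0 1 = 0 := h.2.1
  have h10 : (Matrix.SpecialLinearGroup.toGL (sy71_L y) : GL (Fin 2) ℚ) 1 0 = y := h.2.2.1
  have h11 : (Matrix.SpecialLinearGroup.toGL (sy71_L y) : GL (Fin 2) ℚ) 1 1 = 1 := h.2.2.2
  rw [h00, h01, h10, h11]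
  simp

variable {A : Type*} [AddCommGroup A]

/-- **(P4).**  For a `Γ₀(M)`-invariant function `β` on `OnePoint ℚ` and `ℓ ≡ 1 (mod M)`:
`∑ᵢ β (αᵢ x) = (ℓ + 1) • β x`. -/
theorem cp76_sum_boundary {M ℓ : ℕ} (hℓ : ℓ.Prime) (h1 : (M : ℤ) ∣ (ℓ : ℤ) - 1)
    (β : OnePoint ℚ → A)
    (hβ : ∀ (γ : Gamma0 M) (x : OnePoint ℚ), β (mapGL ℚ (γ : SL(2, ℤ)) • x) = β x)
    (x : OnePoint ℚ) :
    ∑ i : Option (Fin ℓ), β (tr43_gl (lbMat ℓ i) • x) = (ℓ + 1) • β x := by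
  have h : ∀ i : Option (Fin ℓ), β (tr43_gl (lbMat ℓ i) • x) = β x := by
    intro i
    obtain ⟨γ, hγ⟩ := cp76_move hℓ h1 i x
    rw [hγ, hβ]
  rw [Finset.sum_congr rfl (fun i _ => h i), Finset.sum_const, Finset.card_univ,
    Fintype.card_option, Fintype.card_fin]

/-- **(P4), symbol form.**  The boundary symbol `Φ (a, b) = β b - β a` of a `Γ₀(M)`-invariant
`β` satisfies `T_ℓ Φ = (ℓ + 1) • Φ` for `ℓ ≡ 1 (mod M)`. -/
theorem cp76_T_boundary {M ℓ : ℕ} (hℓ : ℓ.Prime) (h1 : (M : ℤ) ∣ (ℓ : ℤ) - 1)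
    (β : OnePoint ℚ → A)
    (hβ : ∀ (γ : Gamma0 M) (x : OnePoint ℚ), β (mapGL ℚ (γ : SL(2, ℤ)) • x) = β x)
    (Φ : OnePoint ℚ × OnePoint ℚ → A) (hΦ : ∀ a b, Φ (a, b) = β b - β a) :
    tr43_T ℓ Φ = (ℓ + 1) • Φ := by
  funext ⟨a, b⟩
  rw [tr43_T_apply]
  simp only [Prod.smul_mk, hΦ, Finset.sum_sub_distrib, Pi.smul_apply]
  rw [cp76_sum_boundary hℓ h1 β hβ, cp76_sum_boundary hℓ h1 β hβ, smul_sub]

/-- entries of `mapGL ℚ γ`. -/
theorem cp76_mapGL_apply (γ : SL(2, ℤ)) (i j : Fin 2) :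
    (mapGL ℚ γ : GL (Fin 2) ℚ) i j = ((γ i j : ℤ) : ℚ) := rfl

/-- **(P5).**  An element of `SL(2, ℤ)` with `trace ^ 2 = 4` fixes a point of `OnePoint ℚ`. -/
theorem cp76_exists_fixed (γ : SL(2, ℤ))
    (h : (γ : Matrix (Fin 2) (Fin 2) ℤ).trace ^ 2 = 4) :
    ∃ c : OnePoint ℚ, mapGL ℚ γ • c = c := by
  have hdet : γ 0 0 * γ 1 1 - γ 0 1 * γ 1 0 = 1 := by
    have := γ.2
    rw [Matrix.det_fin_two] at this
    exact this
  have htr : γ 0 0 + γ 1 1 = 2 ∨ γ 0 0 + γ 1 1 = -2 := by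
    have h' : (γ 0 0 + γ 1 1) ^ 2 = 4 := by
      have := h
      rw [Matrix.trace_fin_two] at this
      exact this
    have h'' : (γ 0 0 + γ 1 1 - 2) * (γ 0 0 + γ 1 1 + 2) = 0 := by linear_combination h'
    rcases mul_eq_zero.mp h'' with h3 | h3
    · left; linarith
    · right; linarith
  -- a common integer eigenvector
  have key : ∃ u v : ℤ, IsCoprime u v ∧ ∃ s : ℤ, (s = 1 ∨ s = -1) ∧
      γ 0 0 * u + γ 0 1 * v = s * u ∧ γ 1 0 * u + γ 1 1 * v = s * v := by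
    rcases htr with h2 | h2
    · obtain ⟨u, v, huv, e1, e2⟩ := ca76_exists_fixed (γ 0 0) (γ 0 1) (γ 1 0) (γ 1 1) h2
        (by linarith)
      exact ⟨u, v, huv, 1, Or.inl rfl, by linarith, by linarith⟩
    · obtain ⟨u, v, huv, e1, e2⟩ := ca76_exists_fixed (-γ 0 0) (-γ 0 1) (-γ 1 0) (-γ 1 1)
        (by linarith) (by linarith)
      exact ⟨u, v, huv, -1, Or.inr rfl, by linarith, by linarith⟩
  obtain ⟨u, v, huv, s, hs, e1, e2⟩ := key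
  have hne : ((u : ℤ) : ℚ) ≠ 0 ∨ ((v : ℤ) : ℚ) ≠ 0 := by
    by_contra hcon
    push Not at hcon
    have hu : u = 0 := by exact_mod_cast hcon.1
    have hv : v = 0 := by exact_mod_cast hcon.2
    rw [hu, hv] at huv
    exact not_isCoprime_zero_zero huv
  refine ⟨ca76_cusp u v, ?_⟩
  rw [ca76_smul_cusp _ _ _ hne, cp76_mapGL_apply, cp76_mapGL_apply, cp76_mapGL_apply,
    cp76_mapGL_apply]
  have e1' : ((γ 0 0 : ℤ) : ℚ) * u + ((γ 0 1 : ℤ) : ℚ) * v = (s : ℚ) * u := by exact_mod_cast e1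
  have e2' : ((γ 1 0 : ℤ) : ℚ) * u + ((γ 1 1 : ℤ) : ℚ) * v = (s : ℚ) * v := by exact_mod_cast e2
  rw [e1', e2']
  refine ca76_cusp_smul _ _ _ ?_
  rcases hs with rfl | rfl <;> norm_num

end Fermat.Agent.S41
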