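/-
S41 / L7 (helper88): the concrete Hom-side Ihara statement `H1'` of `di28_dual_ihara_pair`,
in the conventions C1-C6 of the S41 architecture ruling.

* symbols: plain functions `Φ : sc71_X → A` (`sc71_X = OnePoint ℚ × OnePoint ℚ`), `sc71_IsSymb`,
  `tr43_Inv`, operators `tr43_T`, `tr43_W`;
* Hom side: `Additive (Gamma0 M) →+ A` with the S16 operators `heckeHom`.

Contents.
* `hic88_period` : the period formula `T_ℓ (dF) (y, γ y) = (heckeHom χ) γ` for a potential `F` of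
  `χ` on ANY `GL(2, ℚ)`-set (in particular on `GL(2, ℚ)` itself, where every `χ` has a potential:
  `hic88_exists_free`).
* `hic88_heckeHom_res₁`, `hic88_heckeHom_res₂` : `heckeHom` commutes with the two degeneracy maps
  `Hom(Γ₀(N)) → Hom(Γ₀(N q))` (restriction, and restriction after conjugation by `w`).
* `hic88_boundary_T` : boundary symbols of level `M` are `T_ℓ`-eigen with eigenvalue `ℓ + 1`
  (`ℓ ≡ 1 mod M`).
* `hic88_H1'` : Ihara on the symbol side with exponent `n₁` gives Ihara on the Hom side with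
  exponent `n₁ + 2`, in exactly the shape of the hypothesis `H1'` of `di28_dual_ihara_pair`.
-/
import Mathlib
import Fermat.Agent.S41.SymbCore71
import Fermat.Agent.S41.Trace43b
import Fermat.Agent.S41.CuspAdapted76
import Fermat.Agent.S41.LRAlg54
import Fermat.Agent.S41.HomIhara88

set_option autoImplicit false

open CongruenceSubgroup Matrix.SpecialLinearGroup ModularCurve.Period OnePoint
open scoped MatrixGroups

namespace Fermat.Agent.S41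

open Fermat.Agent.S16

/-! ### difference symbols and the period formula -/

section Period

variable {Y : Type*} [MulAction (GL (Fin 2) ℚ) Y] {A : Type*} [AddCommGroup A]

/-- the difference symbol `(x, y) ↦ F y - F x` of a function `F`. -/
def hic88_d (F : Y → A) : Y × Y → A := fun x => F x.2 - F x.1

omit [MulAction (GL (Fin 2) ℚ) Y] in
theorem hic88_d_apply (F : Y → A) (a b : Y) : hic88_d F (a, b) = F b - F a := rfl

/-- `F` is a potential of `χ` at level `M`. -/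
def hic88_IsPot (M : ℕ) (F : Y → A) (χ : Additive (Gamma0 M) →+ A) : Prop :=
  ∀ (γ : Gamma0 M) (y : Y), F (mapGL ℚ (γ : SL(2, ℤ)) • y) = F y + χ (Additive.ofMul γ)

theorem hic88_d_Inv {M : ℕ} {F : Y → A} {χ : Additive (Gamma0 M) →+ A}
    (hF : hic88_IsPot M F χ) : tr43_Inv M (hic88_d F) := by
  intro γ x
  obtain ⟨a, b⟩ := x
  rw [Prod.smul_mk, hic88_d_apply, hic88_d_apply, hF, hF]
  abel

/-- **Period formula**: for a potential `F` of `χ`, the value of `T_ℓ (dF)` at `(y, γ y)` is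
`(T_ℓ χ) γ`. -/
theorem hic88_period {M ℓ : ℕ} (hℓ : ℓ.Prime) (hℓM : ¬ ℓ ∣ M) {F : Y → A}
    {χ : Additive (Gamma0 M) →+ A} (hF : hic88_IsPot M F χ) (γ : Gamma0 M) (y : Y) :
    tr43_T ℓ (hic88_d F) (y, mapGL ℚ (γ : SL(2, ℤ)) • y) =
      heckeHom M ℓ A χ (Additive.ofMul γ) := by
  rw [heckeHom_of_not_dvd hℓ hℓM, HeckeReps.op_apply, tr43_T_apply]
  have hdet : ∀ i, (lbMat ℓ i).det ≠ 0 := fun i => by
    rw [sc71_lbMat_det]; exact_mod_cast hℓ.ne_zero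
  have key : ∀ i, tr43_gl (lbMat ℓ i) * mapGL ℚ (γ : SL(2, ℤ)) =
      mapGL ℚ (((hh_repsT M ℓ hℓ hℓM).κ i γ : Gamma0 M) : SL(2, ℤ)) *
        tr43_gl (lbMat ℓ ((hh_repsT M ℓ hℓ hℓM).σ γ i)) := by
    intro i
    have hγ : ((γ : SL(2, ℤ)) : Matrix (Fin 2) (Fin 2) ℤ).det ≠ 0 := by
      rw [(γ : SL(2, ℤ)).2]; exact one_ne_zero
    have hκ : ((((hh_repsT M ℓ hℓ hℓM).κ i γ : Gamma0 M) : SL(2, ℤ)) :
        Matrix (Fin 2) (Fin 2) ℤ).det ≠ 0 := by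
      rw [(((hh_repsT M ℓ hℓ hℓM).κ i γ : Gamma0 M) : SL(2, ℤ)).2]; exact one_ne_zero
    rw [← tr43_gl_sl, ← tr43_gl_sl, ← tr43_gl_mul (hdet i) hγ, ← tr43_gl_mul hκ (hdet _),
      sc71_lbMat_eq, sc71_lbMat_eq, hh_repsT_int M ℓ hℓ hℓM i γ]
  have h1 : ∀ i, hic88_d F (tr43_gl (lbMat ℓ i) • (y, mapGL ℚ (γ : SL(2, ℤ)) • y)) =
      χ (Additive.ofMul ((hh_repsT M ℓ hℓ hℓM).κ i γ)) +
        (F (tr43_gl (lbMat ℓ ((hh_repsT M ℓ hℓ hℓM).σ γ i)) • y) -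
          F (tr43_gl (lbMat ℓ i) • y)) := by
    intro i
    rw [Prod.smul_mk, hic88_d_apply, ← mul_smul, key i, mul_smul, hF]
    abel
  rw [Finset.sum_congr rfl fun i _ => h1 i, Finset.sum_add_distrib, Finset.sum_sub_distrib]
  have h2 : ∑ i, F (tr43_gl (lbMat ℓ ((hh_repsT M ℓ hℓ hℓM).σ γ i)) • y) =
      ∑ i, F (tr43_gl (lbMat ℓ i) • y) :=
    Equiv.sum_comp ((hh_repsT M ℓ hℓ hℓM).σEquiv γ) (fun j => F (tr43_gl (lbMat ℓ j) • y))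
  rw [h2, sub_self, add_zero]

end Period

/-! ### free potentials -/

/-- every homomorphism has a potential on `GL(2, ℚ)` (left translation action). -/
theorem hic88_exists_free {M : ℕ} {A : Type*} [AddCommGroup A] (χ : Additive (Gamma0 M) →+ A) :
    ∃ F : GL (Fin 2) ℚ → A, hic88_IsPot M F χ := by
  refine ca76_exists_potential ((mapGL ℚ).comp (Gamma0 M).subtype) χ ?_
  intro g x h
  have h1 : mapGL ℚ (g : SL(2, ℤ)) * x = x := h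
  have h2 : mapGL ℚ (g : SL(2, ℤ)) = 1 := mul_eq_right.mp h1
  have h3 : (g : SL(2, ℤ)) = 1 := by
    apply Matrix.SpecialLinearGroup.mapGL_injective (R := ℤ) (S := ℚ)
    rw [h2, map_one]
  have h4 : g = 1 := Subtype.ext h3
  rw [h4]
  exact map_zero χ

/-! ### the degeneracy maps on the Hom side -/

section Degeneracy

/-- `Γ₀(N q) ≤ Γ₀(N)`. -/
theorem hic88_le (N q : ℕ) : Gamma0 (N * q) ≤ Gamma0 N := by
  intro g hg
  have h1 := lb_Gamma0_dvd (⟨g, hg⟩ : Gamma0 (N * q))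
  rw [Gamma0_mem, ZMod.intCast_zmod_eq_zero_iff_dvd]
  exact (Int.natCast_dvd_natCast.mpr (dvd_mul_right N q)).trans h1

/-- the inclusion `Γ₀(N q) → Γ₀(N)`. -/
def hic88_incl (N q : ℕ) : Gamma0 (N * q) →* Gamma0 N := Subgroup.inclusion (hic88_le N q)

theorem hic88_incl_coe (N q : ℕ) (γ : Gamma0 (N * q)) :
    ((hic88_incl N q γ : Gamma0 N) : SL(2, ℤ)) = (γ : SL(2, ℤ)) := rfl

variable {N q : ℕ} {A : Type*} [AddCommGroup A]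

/-- specification of the first degeneracy map `Hom(Γ₀(N), A) → Hom(Γ₀(N q), A)`:
restriction. -/
def hic88_IsRes₁ (N q : ℕ) {A : Type*} [AddCommGroup A]
    (res₁ : (Additive (Gamma0 N) →+ A) → (Additive (Gamma0 (N * q)) →+ A)) : Prop :=
  ∀ (χ : Additive (Gamma0 N) →+ A) (γ : Gamma0 (N * q)) (γ' : Gamma0 N),
    (γ' : SL(2, ℤ)) = (γ : SL(2, ℤ)) → res₁ χ (Additive.ofMul γ) = χ (Additive.ofMul γ')

/-- specification of the second degeneracy map `Hom(Γ₀(N), A) → Hom(Γ₀(N q), A)`: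
`(res₂ χ) γ = χ (w γ w⁻¹)`, i.e. `(res₂ χ) γ = χ γ'` whenever `γ' w = w γ`. -/
def hic88_IsRes₂ (D : tr43_Data N q) {A : Type*} [AddCommGroup A]
    (res₂ : (Additive (Gamma0 N) →+ A) → (Additive (Gamma0 (N * q)) →+ A)) : Prop :=
  ∀ (χ : Additive (Gamma0 N) →+ A) (γ : Gamma0 (N * q)) (γ' : Gamma0 N),
    ((γ' : SL(2, ℤ)) : Matrix (Fin 2) (Fin 2) ℤ) * D.w =
      D.w * ((γ : SL(2, ℤ)) : Matrix (Fin 2) (Fin 2) ℤ) →
    res₂ χ (Additive.ofMul γ) = χ (Additive.ofMul γ')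

/-- `heckeHom` commutes with restriction. -/
theorem hic88_heckeHom_res₁ {ℓ : ℕ} (hℓ : ℓ.Prime) (hℓNq : ¬ ℓ ∣ N * q)
    {res₁ : (Additive (Gamma0 N) →+ A) → (Additive (Gamma0 (N * q)) →+ A)}
    (hres₁ : hic88_IsRes₁ N q res₁) (χ : Additive (Gamma0 N) →+ A) :
    heckeHom (N * q) ℓ A (res₁ χ) = res₁ (heckeHom N ℓ A χ) := by
  have hℓN : ¬ ℓ ∣ N := fun h => hℓNq (h.mul_right q)
  obtain ⟨F, hF⟩ := hic88_exists_free χ
  refine AddMonoidHom.ext fun γ => ?_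
  obtain ⟨γ, rfl⟩ := Additive.ofMul.surjective γ
  have hF' : hic88_IsPot (N * q) F (res₁ χ) := by
    intro κ y
    rw [hres₁ χ κ (hic88_incl N q κ) rfl]
    exact hF (hic88_incl N q κ) y
  have e1 := hic88_period hℓ hℓNq hF' γ (1 : GL (Fin 2) ℚ)
  have e2 := hic88_period hℓ hℓN hF (hic88_incl N q γ) (1 : GL (Fin 2) ℚ)
  rw [hres₁ _ γ (hic88_incl N q γ) rfl, ← e1, ← e2]
  rfl

/-- `heckeHom` commutes with the `w`-twisted restriction. -/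
theorem hic88_heckeHom_res₂ {ℓ : ℕ} (hℓ : ℓ.Prime) (hℓNq : ¬ ℓ ∣ N * q) (hq : q ≠ 0)
    (D : tr43_Data N q)
    {res₂ : (Additive (Gamma0 N) →+ A) → (Additive (Gamma0 (N * q)) →+ A)}
    (hres₂ : hic88_IsRes₂ D res₂) (χ : Additive (Gamma0 N) →+ A) :
    heckeHom (N * q) ℓ A (res₂ χ) = res₂ (heckeHom N ℓ A χ) := by
  have hℓN : ¬ ℓ ∣ N := fun h => hℓNq (h.mul_right q)
  have hq' : (q : ℤ) ≠ 0 := by exact_mod_cast hq
  have hw : D.w.det ≠ 0 := by rw [D.w_det]; exact hq'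
  obtain ⟨F, hF⟩ := hic88_exists_free χ
  have hconj : ∀ κ : Gamma0 (N * q), ∃ κ' : Gamma0 N,
      ((κ' : SL(2, ℤ)) : Matrix (Fin 2) (Fin 2) ℤ) * D.w =
        D.w * ((κ : SL(2, ℤ)) : Matrix (Fin 2) (Fin 2) ℤ) ∧
      tr43_gl D.w * mapGL ℚ (κ : SL(2, ℤ)) = mapGL ℚ (κ' : SL(2, ℤ)) * tr43_gl D.w := by
    intro κ
    obtain ⟨κ₁, hκ₁⟩ := D.w_mul_Gamma0 κ
    refine ⟨hic88_incl N q κ₁, hκ₁.symm, ?_⟩
    rw [← tr43_gl_sl, ← tr43_gl_sl, ← tr43_gl_mul hw (tr43_sl_det_ne _),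
      ← tr43_gl_mul (tr43_sl_det_ne _) hw, hκ₁]
    rfl
  have hFw : hic88_IsPot (N * q) (fun y => F (tr43_gl D.w • y)) (res₂ χ) := by
    intro κ y
    obtain ⟨κ', h1, h2⟩ := hconj κ
    rw [hres₂ χ κ κ' h1]
    show F (tr43_gl D.w • mapGL ℚ (κ : SL(2, ℤ)) • y) = F (tr43_gl D.w • y) + _
    rw [← mul_smul, h2, mul_smul, hF]
  have hd : hic88_d (fun y => F (tr43_gl D.w • y)) = tr43_W D (hic88_d F) := by
    funext x
    obtain ⟨a, b⟩ := x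
    rfl
  refine AddMonoidHom.ext fun γ => ?_
  obtain ⟨γ, rfl⟩ := Additive.ofMul.surjective γ
  obtain ⟨γ', h1, h2⟩ := hconj γ
  have hinv : tr43_Inv (N * q) (hic88_d F) :=
    tr43_Inv_of_dvd (dvd_mul_right N q) (hic88_d_Inv hF)
  have e1 := hic88_period hℓ hℓNq hFw γ (1 : GL (Fin 2) ℚ)
  have e2 := hic88_period hℓ hℓN hF γ' (tr43_gl D.w • (1 : GL (Fin 2) ℚ))
  rw [hres₂ _ γ γ' h1, ← e1, ← e2, hd, tr43_T_W hℓ hℓNq hq D hinv, tr43_W_apply, Prod.smul_mk,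
    ← mul_smul, h2, mul_smul]

/-- precomposition with a group homomorphism, as an additive map. -/
def hic88_pre {G H : Type*} [Group G] [Group H] (f : G →* H) (A : Type*) [AddCommGroup A] :
    (Additive H →+ A) →+ (Additive G →+ A) where
  toFun χ := χ.comp (MonoidHom.toAdditive f)
  map_zero' := rfl
  map_add' _ _ := rfl

theorem hic88_pre_apply {G H : Type*} [Group G] [Group H] (f : G →* H) (χ : Additive H →+ A)
    (g : G) : hic88_pre f A χ (Additive.ofMul g) = χ (Additive.ofMul (f g)) := rfl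

/-- the first degeneracy map: restriction. -/
def hic88_res₁ (N q : ℕ) (A : Type*) [AddCommGroup A] :
    (Additive (Gamma0 N) →+ A) →+ (Additive (Gamma0 (N * q)) →+ A) :=
  hic88_pre (hic88_incl N q) A

theorem hic88_isRes₁ (N q : ℕ) (A : Type*) [AddCommGroup A] :
    hic88_IsRes₁ N q (hic88_res₁ N q A) := by
  intro χ γ γ' h
  have : hic88_incl N q γ = γ' := Subtype.ext h.symm
  rw [hic88_res₁, hic88_pre_apply, this]

end Degeneracy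

/-! ### conjugation by `δ = diag(q, 1)` and the concrete second degeneracy map -/

section DConj

theorem hic88_q_dvd (N q : ℕ) (γ : Gamma0 (N * q)) :
    (q : ℤ) ∣ ((γ : SL(2, ℤ)) : Matrix (Fin 2) (Fin 2) ℤ) 1 0 :=
  (Int.natCast_dvd_natCast.mpr (dvd_mul_left q N)).trans (lb_Gamma0_dvd γ)

/-- `δ γ δ⁻¹` for `δ = diag(q, 1)`: `[[a, b], [c, d]] ↦ [[a, q b], [c / q, d]]`. -/
def hic88_dconjFun (N q : ℕ) (γ : Gamma0 (N * q)) : Gamma0 N :=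
  lbMk N (((γ : SL(2, ℤ)) : Matrix (Fin 2) (Fin 2) ℤ) 0 0)
    ((q : ℤ) * ((γ : SL(2, ℤ)) : Matrix (Fin 2) (Fin 2) ℤ) 0 1)
    (((γ : SL(2, ℤ)) : Matrix (Fin 2) (Fin 2) ℤ) 1 0 / (q : ℤ))
    (((γ : SL(2, ℤ)) : Matrix (Fin 2) (Fin 2) ℤ) 1 1)
    (by
      have h1 := lb_sl_det (γ : SL(2, ℤ))
      have h2 : (q : ℤ) * (((γ : SL(2, ℤ)) : Matrix (Fin 2) (Fin 2) ℤ) 1 0 / (q : ℤ)) =
          ((γ : SL(2, ℤ)) : Matrix (Fin 2) (Fin 2) ℤ) 1 0 :=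
        Int.mul_ediv_cancel' (hic88_q_dvd N q γ)
      linear_combination h1 - ((γ : SL(2, ℤ)) : Matrix (Fin 2) (Fin 2) ℤ) 0 1 * h2)
    (by
      obtain ⟨c, hc⟩ := lb_Gamma0_dvd γ
      rw [hc]
      by_cases hq : (q : ℤ) = 0
      · rw [hq, Int.ediv_zero]; exact dvd_zero _
      · have h3 : ((N * q : ℕ) : ℤ) * c = (q : ℤ) * ((N : ℤ) * c) := by push_cast; ring
        rw [h3, Int.mul_ediv_cancel_left _ hq]
        exact dvd_mul_right _ _)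

theorem hic88_dconjFun_spec (N q : ℕ) (γ : Gamma0 (N * q)) :
    ((hic88_dconjFun N q γ : SL(2, ℤ)) : Matrix (Fin 2) (Fin 2) ℤ) * lbMat q none =
      lbMat q none * ((γ : SL(2, ℤ)) : Matrix (Fin 2) (Fin 2) ℤ) := by
  rw [hic88_dconjFun, lbMk_coe, lb_mul_none']
  conv_rhs => rw [Matrix.eta_fin_two ((γ : SL(2, ℤ)) : Matrix (Fin 2) (Fin 2) ℤ), lb_none_mul']
  exact lb_mk_eq (mul_comm _ _) rfl (Int.ediv_mul_cancel (hic88_q_dvd N q γ)) rfl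

/-- right cancellation of an integer matrix of nonzero determinant. -/
theorem hic88_cancel {X Y M : Matrix (Fin 2) (Fin 2) ℤ} (hM : M.det ≠ 0)
    (h : X * M = Y * M) : X = Y := by
  have h1 := congrArg (· * M.adjugate) h
  simp only [Matrix.mul_assoc, Matrix.mul_adjugate, Matrix.mul_smul, Matrix.mul_one] at h1
  exact smul_right_injective _ hM h1

theorem hic88_delta_det {q : ℕ} (hq : q ≠ 0) : (lbMat q none).det ≠ 0 := by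
  rw [sc71_lbMat_det]; exact_mod_cast hq

/-- `γ ↦ δ γ δ⁻¹` as a group homomorphism `Γ₀(N q) → Γ₀(N)`. -/
def hic88_dconj (N q : ℕ) [NeZero q] : Gamma0 (N * q) →* Gamma0 N where
  toFun := hic88_dconjFun N q
  map_one' := by
    apply Subtype.ext
    apply Subtype.ext
    apply hic88_cancel (hic88_delta_det (NeZero.ne q))
    rw [hic88_dconjFun_spec]
    simp
  map_mul' γ₁ γ₂ := by
    apply Subtype.ext
    apply Subtype.ext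
    apply hic88_cancel (hic88_delta_det (NeZero.ne q))
    have e1 := hic88_dconjFun_spec N q γ₁
    have e2 := hic88_dconjFun_spec N q γ₂
    have e3 := hic88_dconjFun_spec N q (γ₁ * γ₂)
    rw [Subgroup.coe_mul, Matrix.SpecialLinearGroup.coe_mul] at e3
    rw [e3, Subgroup.coe_mul, Matrix.SpecialLinearGroup.coe_mul,
      Matrix.mul_assoc _ _ (lbMat q none), e2, ← Matrix.mul_assoc _ (lbMat q none) _, e1,
      Matrix.mul_assoc]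

theorem hic88_dconj_spec (N q : ℕ) [NeZero q] (γ : Gamma0 (N * q)) :
    ((hic88_dconj N q γ : SL(2, ℤ)) : Matrix (Fin 2) (Fin 2) ℤ) * lbMat q none =
      lbMat q none * ((γ : SL(2, ℤ)) : Matrix (Fin 2) (Fin 2) ℤ) :=
  hic88_dconjFun_spec N q γ

/-- the second degeneracy map: `χ ↦ (γ ↦ χ (δ γ δ⁻¹))`, `δ = diag(q, 1)`. -/
def hic88_res₂ (N q : ℕ) [NeZero q] (A : Type*) [AddCommGroup A] :
    (Additive (Gamma0 N) →+ A) →+ (Additive (Gamma0 (N * q)) →+ A) :=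
  hic88_pre (hic88_dconj N q) A

theorem hic88_res₂_apply (N q : ℕ) [NeZero q] {A : Type*} [AddCommGroup A]
    (χ : Additive (Gamma0 N) →+ A) (γ : Gamma0 (N * q)) :
    hic88_res₂ N q A χ (Additive.ofMul γ) = χ (Additive.ofMul (hic88_dconj N q γ)) := rfl

/-- the `δ`-conjugation map satisfies the `w`-conjugation specification. -/
theorem hic88_isRes₂ {N q : ℕ} [NeZero q] (D : tr43_Data N q) (A : Type*) [AddCommGroup A] :
    hic88_IsRes₂ D (hic88_res₂ N q A) := by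
  intro χ γ γ' h
  rw [hic88_res₂_apply]
  have key : γ' * D.gam' = D.gam' * hic88_dconj N q γ := by
    apply Subtype.ext
    apply Subtype.ext
    apply hic88_cancel (hic88_delta_det (NeZero.ne q))
    rw [Subgroup.coe_mul, Matrix.SpecialLinearGroup.coe_mul, Subgroup.coe_mul,
      Matrix.SpecialLinearGroup.coe_mul, Matrix.mul_assoc, ← D.w_eq, h, Matrix.mul_assoc,
      hic88_dconj_spec, ← Matrix.mul_assoc, ← D.w_eq]
  have h2 := congrArg (fun g => χ (Additive.ofMul g)) key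
  simp only [ofMul_mul, map_add] at h2
  rw [add_comm] at h2
  exact (add_left_cancel h2).symm

end DConj

/-! ### boundary symbols -/

section Boundary

variable {A : Type*} [AddCommGroup A]

theorem hic88_gl_apply {M : Matrix (Fin 2) (Fin 2) ℤ} (h : M.det ≠ 0) (a b : Fin 2) :
    (tr43_gl M : GL (Fin 2) ℚ) a b = ((M a b : ℤ) : ℚ) := by
  have h1 := tr43_gl_coe h
  have h2 := congrFun (congrFun h1 a) b
  exact h2

/-- **Boundary symbols are Eisenstein**: a symbol `Φ` with `x ↦ Φ (∞, x)` invariant under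
`Γ₀(M)` satisfies `T_ℓ Φ = (ℓ + 1) Φ` for every prime `ℓ ≡ 1 mod M`. -/
theorem hic88_boundary_T {M ℓ : ℕ} (hℓ : ℓ.Prime) (h1 : ℓ ≡ 1 [MOD M]) {Φ : sc71_X → A}
    (hΦ : sc71_IsSymb Φ)
    (hb : ∀ (γ : Gamma0 M) (x : OnePoint ℚ), Φ (∞, mapGL ℚ (γ : SL(2, ℤ)) • x) = Φ (∞, x)) :
    tr43_T ℓ Φ = ((ℓ : ℤ) + 1) • Φ := by
  funext x
  obtain ⟨a, b⟩ := x
  have hg : ∀ (i : Option (Fin ℓ)) (r s : Fin 2),
      (tr43_gl (lbMat ℓ i) : GL (Fin 2) ℚ) r s = ((hh_repTInt ℓ i r s : ℤ) : ℚ) := by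
    intro i r s
    rw [hic88_gl_apply (by rw [sc71_lbMat_det]; exact_mod_cast hℓ.ne_zero), sc71_lbMat_eq]
  have hmove : ∀ (i : Option (Fin ℓ)) (c : OnePoint ℚ),
      Φ (∞, tr43_gl (lbMat ℓ i) • c) = Φ (∞, c) := by
    intro i c
    obtain ⟨K, hK⟩ := ca76_cusp_fixed_onePoint (M := M) hℓ h1 i (tr43_gl (lbMat ℓ i)) (hg i) c
    rw [hK, hb]
  have h : ∀ i, Φ (tr43_gl (lbMat ℓ i) • (a, b)) = Φ (a, b) := by
    intro i
    rw [Prod.smul_mk, ← hΦ _ ∞ _, hmove, ← hΦ a ∞ b, hΦ.symm ∞ (tr43_gl (lbMat ℓ i) • a), hmove,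
      ← hΦ.symm ∞ a]
  rw [tr43_T_apply, Finset.sum_congr rfl fun i _ => h i, Finset.sum_const, Finset.card_univ,
    Fintype.card_option, Fintype.card_fin, Pi.smul_apply, ← natCast_zsmul]
  push_cast
  rfl

end Boundary

/-! ### the operator `E = T_ℓ - (ℓ + 1)` on plain functions -/

section OpE

variable {X : Type*} [MulAction (GL (Fin 2) ℚ) X] {A : Type*} [AddCommGroup A]

/-- `E = T_ℓ - (ℓ + 1)` on plain functions. -/
noncomputable def hic88_E (ℓ : ℕ) (Φ : X → A) : X → A := tr43_T ℓ Φ - ((ℓ : ℤ) + 1) • Φ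

theorem hic88_E_apply (ℓ : ℕ) (Φ : X → A) (x : X) :
    hic88_E ℓ Φ x = tr43_T ℓ Φ x - ((ℓ : ℤ) + 1) • Φ x := rfl

theorem hic88_T_zsmul (ℓ : ℕ) (n : ℤ) (Φ : X → A) : tr43_T ℓ (n • Φ) = n • tr43_T ℓ Φ := by
  funext x
  simp only [tr43_T_apply, Pi.smul_apply, Finset.smul_sum]

theorem hic88_T_sub (ℓ : ℕ) (Φ Ψ : X → A) : tr43_T ℓ (Φ - Ψ) = tr43_T ℓ Φ - tr43_T ℓ Ψ := by
  rw [sub_eq_add_neg, tr43_T_add, tr43_T_neg, ← sub_eq_add_neg]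

theorem hic88_Inv_zsmul {N : ℕ} {Φ : X → A} (hΦ : tr43_Inv N Φ) (n : ℤ) :
    tr43_Inv N (n • Φ) := fun γ x => by
  simp only [Pi.smul_apply]
  rw [hΦ γ x]

theorem hic88_Inv_sub {N : ℕ} {Φ Ψ : X → A} (hΦ : tr43_Inv N Φ) (hΨ : tr43_Inv N Ψ) :
    tr43_Inv N (Φ - Ψ) := by
  rw [sub_eq_add_neg]
  exact tr43_Inv_add hΦ (tr43_Inv_neg hΨ)

theorem hic88_E_Inv {N ℓ : ℕ} (hℓ : ℓ.Prime) (hℓN : ¬ ℓ ∣ N) {Φ : X → A} (hΦ : tr43_Inv N Φ) :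
    tr43_Inv N (hic88_E ℓ Φ) :=
  hic88_Inv_sub (tr43_T_Inv hℓ hℓN hΦ) (hic88_Inv_zsmul hΦ _)

theorem hic88_E_iter_Inv {N ℓ : ℕ} (hℓ : ℓ.Prime) (hℓN : ¬ ℓ ∣ N) {Φ : X → A}
    (hΦ : tr43_Inv N Φ) (n : ℕ) : tr43_Inv N ((hic88_E ℓ)^[n] Φ) := by
  induction n with
  | zero => exact hΦ
  | succ n ih =>
    rw [Function.iterate_succ_apply']
    exact hic88_E_Inv hℓ hℓN ih

end OpE

section Nu

variable {A : Type*} [AddCommGroup A]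

theorem hic88_E_IsSymb {Φ : sc71_X → A} (hΦ : sc71_IsSymb Φ) (ℓ : ℕ) :
    sc71_IsSymb (hic88_E ℓ Φ) :=
  (hΦ.T ℓ).sub (hΦ.zsmul _)

theorem hic88_E_iter_IsSymb {Φ : sc71_X → A} (hΦ : sc71_IsSymb Φ) (ℓ : ℕ) (n : ℕ) :
    sc71_IsSymb ((hic88_E ℓ)^[n] Φ) := by
  induction n with
  | zero => exact hΦ
  | succ n ih =>
    rw [Function.iterate_succ_apply']
    exact hic88_E_IsSymb ih ℓ

theorem hic88_nu_congr {N : ℕ} {Φ Ψ : sc71_X → A} (h : Φ = Ψ) (hΦ : sc71_IsSymb Φ)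
    (hinv : tr43_Inv N Φ) (hΨ : sc71_IsSymb Ψ) (hinvΨ : tr43_Inv N Ψ) :
    sc71_nu N Φ hΦ hinv = sc71_nu N Ψ hΨ hinvΨ := by
  subst h
  rfl

/-- `ν (E Φ) = (T_ℓ - (ℓ + 1)) (ν Φ)`. -/
theorem hic88_nu_E {N ℓ : ℕ} (hℓ : ℓ.Prime) (hℓN : ¬ ℓ ∣ N) {Φ : sc71_X → A}
    (hΦ : sc71_IsSymb Φ) (hinv : tr43_Inv N Φ) :
    sc71_nu N (hic88_E ℓ Φ) (hic88_E_IsSymb hΦ ℓ) (hic88_E_Inv hℓ hℓN hinv) =
      heckeHom N ℓ A (sc71_nu N Φ hΦ hinv) - ((ℓ : ℤ) + 1) • sc71_nu N Φ hΦ hinv := by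
  rw [← sc71_nu_T hℓ hℓN hΦ hinv]
  refine AddMonoidHom.ext fun γ => ?_
  obtain ⟨γ, rfl⟩ := Additive.ofMul.surjective γ
  rw [AddMonoidHom.sub_apply, AddMonoidHom.smul_apply, sc71_nu_apply _ _ γ ∞,
    sc71_nu_apply _ _ γ ∞, sc71_nu_apply _ _ γ ∞]
  rfl

/-- `ν (E^n Φ) = (T_ℓ - (ℓ + 1))^n (ν Φ)`. -/
theorem hic88_nu_E_iter {N ℓ : ℕ} (hℓ : ℓ.Prime) (hℓN : ¬ ℓ ∣ N) {Φ : sc71_X → A}
    (hΦ : sc71_IsSymb Φ) (hinv : tr43_Inv N Φ) (n : ℕ) :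
    sc71_nu N ((hic88_E ℓ)^[n] Φ) (hic88_E_iter_IsSymb hΦ ℓ n) (hic88_E_iter_Inv hℓ hℓN hinv n) =
      lr54_pow (heckeHom N ℓ A) ((ℓ : ℤ) + 1) n (sc71_nu N Φ hΦ hinv) := by
  induction n with
  | zero => rfl
  | succ n ih =>
    rw [lr54_pow_succ, ← ih,
      ← hic88_nu_E hℓ hℓN (hic88_E_iter_IsSymb hΦ ℓ n) (hic88_E_iter_Inv hℓ hℓN hinv n)]
    exact hic88_nu_congr (Function.iterate_succ_apply' _ _ _) _ _ _ _

theorem hic88_d_IsSymb (F : OnePoint ℚ → A) : sc71_IsSymb (hic88_d F) := fun a b c => by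
  rw [hic88_d_apply, hic88_d_apply, hic88_d_apply]
  abel

/-- `ν (dF) = χ` for a potential `F` of `χ`. -/
theorem hic88_nu_d {M : ℕ} {F : OnePoint ℚ → A} {χ : Additive (Gamma0 M) →+ A}
    (hF : hic88_IsPot M F χ) :
    sc71_nu M (hic88_d F) (hic88_d_IsSymb F) (hic88_d_Inv hF) = χ := by
  refine AddMonoidHom.ext fun γ => ?_
  obtain ⟨γ, rfl⟩ := Additive.ofMul.surjective γ
  rw [sc71_nu_apply _ _ γ ∞, hic88_d_apply, hF]
  abel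

end Nu

/-- an integer valued homomorphism with all values divisible by `p` is `p` times a
homomorphism. -/
theorem hic88_hom_div {G : Type*} [AddZeroClass G] (χ : G →+ ℤ) {p : ℤ}
    (h : ∀ g, p ∣ χ g) : ∃ χ' : G →+ ℤ, χ = p • χ' := by
  refine ⟨{ toFun := fun g => χ g / p
            map_zero' := by simp
            map_add' := fun a b => by rw [map_add, Int.add_ediv_of_dvd_left (h a)] }, ?_⟩
  refine AddMonoidHom.ext fun g => ?_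
  rw [AddMonoidHom.smul_apply]
  show χ g = p • (χ g / p)
  rw [smul_eq_mul, Int.mul_ediv_cancel' (h g)]

/-! ### the concrete `H1'` -/

section Main

/-- the last step: from divisibility of the symbol `E^(n₁+1) (da)` to divisibility of
`(T_ℓ - (ℓ+1))^(n₁+2) α`. -/
theorem hic88_finish {N ℓ p n₁ : ℕ} (hℓ : ℓ.Prime) (hℓN : ¬ ℓ ∣ N)
    (α : Additive (Gamma0 N) →+ ℤ) {a : OnePoint ℚ → ℤ}
    (ha : hic88_IsPot N a (heckeHom N ℓ ℤ α - ((ℓ : ℤ) + 1) • α))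
    (hd : ∀ x, (p : ℤ) ∣ (hic88_E ℓ)^[n₁] (hic88_E ℓ (hic88_d a)) x) :
    ∃ α', lr54_pow (heckeHom N ℓ ℤ) ((ℓ : ℤ) + 1) (n₁ + 2) α = (p : ℤ) • α' := by
  have hs := hic88_d_IsSymb a
  have hi := hic88_d_Inv ha
  have h1 : lr54_pow (heckeHom N ℓ ℤ) ((ℓ : ℤ) + 1) (n₁ + 2) α =
      sc71_nu N ((hic88_E ℓ)^[n₁ + 1] (hic88_d a)) (hic88_E_iter_IsSymb hs ℓ _)
        (hic88_E_iter_Inv hℓ hℓN hi _) := by
    rw [hic88_nu_E_iter hℓ hℓN hs hi, hic88_nu_d ha, hi88_pow_shift, ← lr54_pow_succ]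
  rw [h1]
  apply hic88_hom_div
  intro g
  obtain ⟨γ, rfl⟩ := Additive.ofMul.surjective g
  rw [sc71_nu_apply _ _ γ ∞, Function.iterate_succ_apply]
  exact hd _

/-- **Concrete `H1'`** (Ihara on the Hom side, in the shape of `di28_dual_ihara_pair`).
`res₁`, `res₂` are ANY two additive maps satisfying the specifications `hic88_IsRes₁`
(restriction) and `hic88_IsRes₂` (restriction after conjugation by `w`); e.g. `hic88_res₁`,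
`hic88_res₂`.  `H1` is Ihara's lemma on the symbol side with exponent `n₁`, in pointwise
form. -/
theorem hic88_H1' {N q p ℓ : ℕ} (hq : q ≠ 0) (hℓ : ℓ.Prime) (hℓ1 : ℓ ≡ 1 [MOD N * q])
    (D : tr43_Data N q)
    (res₁ res₂ : (Additive (Gamma0 N) →+ ℤ) →+ (Additive (Gamma0 (N * q)) →+ ℤ))
    (hres₁ : hic88_IsRes₁ N q res₁) (hres₂ : hic88_IsRes₂ D res₂) (n₁ : ℕ)
    (H1 : ∀ φ₁ φ₂ : sc71_X → ℤ, sc71_IsSymb φ₁ → tr43_Inv N φ₁ → sc71_IsSymb φ₂ →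
      tr43_Inv N φ₂ → (∀ x, (p : ℤ) ∣ φ₁ x + tr43_W D φ₂ x) →
      (∀ x, (p : ℤ) ∣ (hic88_E ℓ)^[n₁] φ₁ x) ∧ (∀ x, (p : ℤ) ∣ (hic88_E ℓ)^[n₁] φ₂ x))
    (α₁ α₂ : Additive (Gamma0 N) →+ ℤ)
    (h : ∃ β' : Additive (Gamma0 (N * q)) →+ ℤ, res₁ α₁ + res₂ α₂ = (p : ℤ) • β') :
    (∃ α', lr54_pow (heckeHom N ℓ ℤ) ((ℓ : ℤ) + 1) (n₁ + 2) α₁ = (p : ℤ) • α') ∧
    (∃ α', lr54_pow (heckeHom N ℓ ℤ) ((ℓ : ℤ) + 1) (n₁ + 2) α₂ = (p : ℤ) • α') := by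
  obtain ⟨β', hβ'⟩ := h
  have hℓNq : ¬ ℓ ∣ N * q := ca76_not_dvd_of_modEq hℓ hℓ1
  have hℓN : ¬ ℓ ∣ N := fun h => hℓNq (h.mul_right q)
  have hℓ1N : ℓ ≡ 1 [MOD N] := hℓ1.of_mul_right q
  have hq' : (q : ℤ) ≠ 0 := by exact_mod_cast hq
  have hw : D.w.det ≠ 0 := by rw [D.w_det]; exact hq'
  -- potentials of `E α₁`, `E α₂`, `E β'` on the cusps
  obtain ⟨a₁, ha₁⟩ := ca76_exists_potential_onePoint _
    (ca76_heckeHom_sub_isParabolicHom hℓ hℓ1N α₁)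
  obtain ⟨a₂, ha₂⟩ := ca76_exists_potential_onePoint _
    (ca76_heckeHom_sub_isParabolicHom hℓ hℓ1N α₂)
  obtain ⟨b, hb⟩ := ca76_exists_potential_onePoint _
    (ca76_heckeHom_sub_isParabolicHom hℓ hℓ1 β')
  have hP₁ : hic88_IsPot N a₁ (heckeHom N ℓ ℤ α₁ - ((ℓ : ℤ) + 1) • α₁) := ha₁
  have hP₂ : hic88_IsPot N a₂ (heckeHom N ℓ ℤ α₂ - ((ℓ : ℤ) + 1) • α₂) := ha₂
  have hPb : hic88_IsPot (N * q) b (heckeHom (N * q) ℓ ℤ β' - ((ℓ : ℤ) + 1) • β') := hb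
  have hs₁ := hic88_d_IsSymb a₁
  have hs₂ := hic88_d_IsSymb a₂
  have hsb := hic88_d_IsSymb b
  have hi₁ := hic88_d_Inv hP₁
  have hi₂ := hic88_d_Inv hP₂
  -- the key identity on `Γ₀(N q)`
  have hkey : ∀ γ : Gamma0 (N * q),
      res₁ (heckeHom N ℓ ℤ α₁ - ((ℓ : ℤ) + 1) • α₁) (Additive.ofMul γ) +
        res₂ (heckeHom N ℓ ℤ α₂ - ((ℓ : ℤ) + 1) • α₂) (Additive.ofMul γ) =
      (p : ℤ) * (heckeHom (N * q) ℓ ℤ β' - ((ℓ : ℤ) + 1) • β') (Additive.ofMul γ) := by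
    intro γ
    have h1 : res₁ (heckeHom N ℓ ℤ α₁ - ((ℓ : ℤ) + 1) • α₁) +
        res₂ (heckeHom N ℓ ℤ α₂ - ((ℓ : ℤ) + 1) • α₂) =
        (p : ℤ) • (heckeHom (N * q) ℓ ℤ β' - ((ℓ : ℤ) + 1) • β') := by
      rw [map_sub, map_sub, map_zsmul, map_zsmul, ← hic88_heckeHom_res₁ hℓ hℓNq hres₁,
        ← hic88_heckeHom_res₂ hℓ hℓNq hq D hres₂, smul_sub, ← map_zsmul (heckeHom (N * q) ℓ ℤ),
        smul_comm (p : ℤ) ((ℓ : ℤ) + 1) β', ← hβ', map_add, smul_add]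
      abel
    have h2 := DFunLike.congr_fun h1 (Additive.ofMul γ)
    rw [AddMonoidHom.add_apply, AddMonoidHom.smul_apply, smul_eq_mul] at h2
    exact h2
  -- the boundary symbol `Θ = φ₁ + W φ₂ - p ψ`
  have hΘs : sc71_IsSymb (hic88_d a₁ + tr43_W D (hic88_d a₂) - (p : ℤ) • hic88_d b) :=
    (hs₁.add (hs₂.W D)).sub (hsb.zsmul _)
  have hΘb : ∀ (γ : Gamma0 (N * q)) (x : OnePoint ℚ),
      (hic88_d a₁ + tr43_W D (hic88_d a₂) - (p : ℤ) • hic88_d b)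
        (∞, mapGL ℚ (γ : SL(2, ℤ)) • x) =
      (hic88_d a₁ + tr43_W D (hic88_d a₂) - (p : ℤ) • hic88_d b) (∞, x) := by
    intro γ x
    obtain ⟨γ₁, hγ₁⟩ := D.w_mul_Gamma0 γ
    have hw2 : tr43_gl D.w • mapGL ℚ (γ : SL(2, ℤ)) • x =
        mapGL ℚ ((hic88_incl N q γ₁ : Gamma0 N) : SL(2, ℤ)) • tr43_gl D.w • x := by
      rw [← mul_smul, ← mul_smul]
      congr 1
      rw [← tr43_gl_sl, ← tr43_gl_sl, ← tr43_gl_mul hw (tr43_sl_det_ne _),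
        ← tr43_gl_mul (tr43_sl_det_ne _) hw, hγ₁]
      rfl
    have e1 : a₁ (mapGL ℚ (γ : SL(2, ℤ)) • x) = a₁ x +
        res₁ (heckeHom N ℓ ℤ α₁ - ((ℓ : ℤ) + 1) • α₁) (Additive.ofMul γ) := by
      rw [hres₁ _ γ (hic88_incl N q γ) rfl]
      exact hP₁ (hic88_incl N q γ) x
    have e2 : a₂ (tr43_gl D.w • mapGL ℚ (γ : SL(2, ℤ)) • x) = a₂ (tr43_gl D.w • x) +
        res₂ (heckeHom N ℓ ℤ α₂ - ((ℓ : ℤ) + 1) • α₂) (Additive.ofMul γ) := by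
      rw [hres₂ _ γ (hic88_incl N q γ₁) hγ₁.symm, hw2]
      exact hP₂ (hic88_incl N q γ₁) _
    have e3 := hPb γ x
    have e4 := hkey γ
    show (a₁ (mapGL ℚ (γ : SL(2, ℤ)) • x) - a₁ ∞) +
        (a₂ (tr43_gl D.w • mapGL ℚ (γ : SL(2, ℤ)) • x) - a₂ (tr43_gl D.w • ∞)) -
        (p : ℤ) * (b (mapGL ℚ (γ : SL(2, ℤ)) • x) - b ∞) =
      (a₁ x - a₁ ∞) + (a₂ (tr43_gl D.w • x) - a₂ (tr43_gl D.w • ∞)) - (p : ℤ) * (b x - b ∞)
    rw [e1, e2, e3]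
    linear_combination e4
  have hΘT := hic88_boundary_T hℓ hℓ1 hΘs hΘb
  -- `E φ₁ + W (E φ₂) = p • E ψ`
  have hTW : tr43_T ℓ (tr43_W D (hic88_d a₂)) = tr43_W D (tr43_T ℓ (hic88_d a₂)) :=
    tr43_T_W hℓ hℓNq hq D (tr43_Inv_of_dvd (dvd_mul_right N q) hi₂)
  rw [hic88_T_sub, tr43_T_add, hic88_T_zsmul, hTW] at hΘT
  have hdiv : ∀ x, (p : ℤ) ∣ hic88_E ℓ (hic88_d a₁) x + tr43_W D (hic88_E ℓ (hic88_d a₂)) x := by
    intro x
    refine ⟨hic88_E ℓ (hic88_d b) x, ?_⟩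
    have h1 := congrFun hΘT x
    have h2 : tr43_T ℓ (hic88_d a₁) x + tr43_T ℓ (hic88_d a₂) (tr43_gl D.w • x) -
        (p : ℤ) * tr43_T ℓ (hic88_d b) x =
        ((ℓ : ℤ) + 1) * (hic88_d a₁ x + hic88_d a₂ (tr43_gl D.w • x) - (p : ℤ) * hic88_d b x) :=
      h1
    show (tr43_T ℓ (hic88_d a₁) x - ((ℓ : ℤ) + 1) * hic88_d a₁ x) +
        (tr43_T ℓ (hic88_d a₂) (tr43_gl D.w • x) - ((ℓ : ℤ) + 1) * hic88_d a₂ (tr43_gl D.w • x)) =
      (p : ℤ) * (tr43_T ℓ (hic88_d b) x - ((ℓ : ℤ) + 1) * hic88_d b x)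
    linear_combination h2
  obtain ⟨hd₁, hd₂⟩ := H1 (hic88_E ℓ (hic88_d a₁)) (hic88_E ℓ (hic88_d a₂))
    (hic88_E_IsSymb hs₁ ℓ) (hic88_E_Inv hℓ hℓN hi₁) (hic88_E_IsSymb hs₂ ℓ)
    (hic88_E_Inv hℓ hℓN hi₂) hdiv
  exact ⟨hic88_finish hℓ hℓN α₁ hP₁ hd₁, hic88_finish hℓ hℓN α₂ hP₂ hd₂⟩

/-- `hic88_H1'` for the concrete degeneracy maps `hic88_res₁`, `hic88_res₂`. -/
theorem hic88_H1'_concrete {N q p ℓ : ℕ} [NeZero q] (hℓ : ℓ.Prime) (hℓ1 : ℓ ≡ 1 [MOD N * q])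
    (D : tr43_Data N q) (n₁ : ℕ)
    (H1 : ∀ φ₁ φ₂ : sc71_X → ℤ, sc71_IsSymb φ₁ → tr43_Inv N φ₁ → sc71_IsSymb φ₂ →
      tr43_Inv N φ₂ → (∀ x, (p : ℤ) ∣ φ₁ x + tr43_W D φ₂ x) →
      (∀ x, (p : ℤ) ∣ (hic88_E ℓ)^[n₁] φ₁ x) ∧ (∀ x, (p : ℤ) ∣ (hic88_E ℓ)^[n₁] φ₂ x))
    (α₁ α₂ : Additive (Gamma0 N) →+ ℤ)
    (h : ∃ β' : Additive (Gamma0 (N * q)) →+ ℤ,
      hic88_res₁ N q ℤ α₁ + hic88_res₂ N q ℤ α₂ = (p : ℤ) • β') :
    (∃ α', lr54_pow (heckeHom N ℓ ℤ) ((ℓ : ℤ) + 1) (n₁ + 2) α₁ = (p : ℤ) • α') ∧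
    (∃ α', lr54_pow (heckeHom N ℓ ℤ) ((ℓ : ℤ) + 1) (n₁ + 2) α₂ = (p : ℤ) • α') :=
  hic88_H1' (NeZero.ne q) hℓ hℓ1 D (hic88_res₁ N q ℤ) (hic88_res₂ N q ℤ) (hic88_isRes₁ N q ℤ)
    (hic88_isRes₂ D ℤ) n₁ H1 α₁ α₂ h

end Main

end Fermat.Agent.S41
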