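/-
S41 / L4 (helper53), in the ruling model of `SymbCore71` (symbols `Φ : sc71_X → A`,
`sc71_X = OnePoint ℚ × OnePoint ℚ`, `ν = sc71_nu`): compatibility of `ν` with

* lowering of the level (`nd53_nu_res`),
* the Atkin–Lehner operator `tr43_W D` and `conj_w = D.conj` of `Trace43c` (`nd53_nu_W`),
* the degeneracy map `i (φ₁, φ₂) = φ₁ + W φ₂` (`nd53_nu_i`): `ν ∘ i = i' ∘ (ν × ν)` with the
  `Hom`-side degeneracy maps `nd53_res₁`, `nd53_res₂`,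
* the linear structure and coefficient maps (`nd53_nu_add`, …, `nd53_nu_comp`).

All statements take arbitrary proofs of the side conditions (they are proof-irrelevant).
-/
import Mathlib
import Fermat.Agent.S41.SymbCore71
import Fermat.Agent.S41.Trace43c
import Fermat.Agent.S41.NuHecke53

set_option autoImplicit false

open Matrix MatrixGroups CongruenceSubgroup OnePoint
open Fermat.Agent.S16

namespace Fermat.Agent.S41

variable {A : Type*} [AddCommGroup A]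

/-! ### Lowering the level -/

/-- **`ν ∘ res`**: `ν` at level `N'` of a symbol of level `N ∣ N'` is the restriction of `ν` at
level `N` along the inclusion `nh53_res h : Γ₀(N') → Γ₀(N)`. -/
theorem nd53_nu_res {N N' : ℕ} (h : N ∣ N') {Φ : sc71_X → A} (hΦ : sc71_IsSymb Φ)
    (hinv : tr43_Inv N Φ) (hinv' : tr43_Inv N' Φ) :
    sc71_nu N' Φ hΦ hinv'
      = (sc71_nu N Φ hΦ hinv).comp (MonoidHom.toAdditive (nh53_res h)) :=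
  AddMonoidHom.ext fun _ => rfl

/-! ### The Atkin–Lehner operator -/

/-- **`ν ∘ W = conj_w ∘ ν`** at level `N q`: `ν (W Φ) (κ) = ν Φ (w κ w⁻¹)`. -/
theorem nd53_nu_W {N q : ℕ} (hq : q ≠ 0) (D : tr43_Data N q) {Φ : sc71_X → A}
    (hΦ : sc71_IsSymb Φ) (hinv : tr43_Inv (N * q) Φ) (hΦ' : sc71_IsSymb (tr43_W D Φ))
    (hinv' : tr43_Inv (N * q) (tr43_W D Φ)) :
    sc71_nu (N * q) (tr43_W D Φ) hΦ' hinv'
      = (sc71_nu (N * q) Φ hΦ hinv).comp (MonoidHom.toAdditive (D.conj hq).toMonoidHom) := by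
  refine AddMonoidHom.ext fun γ => ?_
  obtain ⟨κ, rfl⟩ := Additive.ofMul.surjective γ
  rw [sc71_nu_apply hΦ' hinv' κ ∞]
  show Φ (tr43_gl D.w • ((∞ : OnePoint ℚ),
      Matrix.SpecialLinearGroup.mapGL ℚ (κ : SL(2, ℤ)) • (∞ : OnePoint ℚ)))
    = sc71_nu (N * q) Φ hΦ hinv (Additive.ofMul (D.conj hq κ))
  rw [Prod.smul_mk, ← tr43_conj_smul hq D κ,
    sc71_nu_apply hΦ hinv (D.conj hq κ) (tr43_gl D.w • (∞ : OnePoint ℚ))]

/-- elementwise form of `nd53_nu_W`. -/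
theorem nd53_nu_W_apply {N q : ℕ} (hq : q ≠ 0) (D : tr43_Data N q) {Φ : sc71_X → A}
    (hΦ : sc71_IsSymb Φ) (hinv : tr43_Inv (N * q) Φ) (hΦ' : sc71_IsSymb (tr43_W D Φ))
    (hinv' : tr43_Inv (N * q) (tr43_W D Φ)) (κ : Gamma0 (N * q)) :
    sc71_nu (N * q) (tr43_W D Φ) hΦ' hinv' (Additive.ofMul κ)
      = sc71_nu (N * q) Φ hΦ hinv (Additive.ofMul (D.conj hq κ)) := by
  rw [nd53_nu_W hq D hΦ hinv hΦ' hinv']
  rfl

/-! ### The `Hom`-side degeneracy maps -/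

/-- restriction `Hom(Γ₀(N), A) → Hom(Γ₀(N q), A)`. -/
def nd53_res₁ (N q : ℕ) (A : Type*) [AddCommGroup A] :
    (Additive (Gamma0 N) →+ A) →+ (Additive (Gamma0 (N * q)) →+ A) :=
  AddMonoidHom.compHom' (MonoidHom.toAdditive (nh53_res (dvd_mul_right N q)))

/-- the twisted restriction `χ ↦ (χ|Γ₀(N q)) ∘ conj_w`, `conj_w κ = w κ w⁻¹`. -/
noncomputable def nd53_res₂ {N q : ℕ} (D : tr43_Data N q) (hq : q ≠ 0) (A : Type*)
    [AddCommGroup A] : (Additive (Gamma0 N) →+ A) →+ (Additive (Gamma0 (N * q)) →+ A) :=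
  AddMonoidHom.compHom' ((MonoidHom.toAdditive (nh53_res (dvd_mul_right N q))).comp
    (MonoidHom.toAdditive (D.conj hq).toMonoidHom))

theorem nd53_res₁_apply (N q : ℕ) (χ : Additive (Gamma0 N) →+ A) (κ : Gamma0 (N * q)) :
    nd53_res₁ N q A χ (Additive.ofMul κ)
      = χ (Additive.ofMul (nh53_res (dvd_mul_right N q) κ)) := rfl

theorem nd53_res₂_apply {N q : ℕ} (D : tr43_Data N q) (hq : q ≠ 0)
    (χ : Additive (Gamma0 N) →+ A) (κ : Gamma0 (N * q)) :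
    nd53_res₂ D hq A χ (Additive.ofMul κ)
      = χ (Additive.ofMul (nh53_res (dvd_mul_right N q) (D.conj hq κ))) := rfl

/-- `ν` at level `N q` of a symbol of level `N`. -/
theorem nd53_nu_res₁ {N q : ℕ} {Φ : sc71_X → A} (hΦ : sc71_IsSymb Φ) (hinv : tr43_Inv N Φ)
    (hinv' : tr43_Inv (N * q) Φ) :
    sc71_nu (N * q) Φ hΦ hinv' = nd53_res₁ N q A (sc71_nu N Φ hΦ hinv) :=
  AddMonoidHom.ext fun _ => rfl

/-- `ν` at level `N q` of `W Φ`, `Φ` a symbol of level `N`. -/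
theorem nd53_nu_res₂ {N q : ℕ} (hq : q ≠ 0) (D : tr43_Data N q) {Φ : sc71_X → A}
    (hΦ : sc71_IsSymb Φ) (hinv : tr43_Inv N Φ) (hΦ' : sc71_IsSymb (tr43_W D Φ))
    (hinv' : tr43_Inv (N * q) (tr43_W D Φ)) :
    sc71_nu (N * q) (tr43_W D Φ) hΦ' hinv' = nd53_res₂ D hq A (sc71_nu N Φ hΦ hinv) := by
  rw [nd53_nu_W hq D hΦ (tr43_Inv_of_dvd (dvd_mul_right N q) hinv) hΦ' hinv']
  exact AddMonoidHom.ext fun _ => rfl

/-! ### Linear structure and coefficient maps -/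

theorem nd53_nu_zero (M : ℕ) (h0 : sc71_IsSymb (0 : sc71_X → A))
    (hinv : tr43_Inv M (0 : sc71_X → A)) : sc71_nu M (0 : sc71_X → A) h0 hinv = 0 :=
  AddMonoidHom.ext fun _ => rfl

theorem nd53_nu_add {M : ℕ} {Φ Ψ : sc71_X → A} (hΦ : sc71_IsSymb Φ) (hΨ : sc71_IsSymb Ψ)
    (hiΦ : tr43_Inv M Φ) (hiΨ : tr43_Inv M Ψ) (hs : sc71_IsSymb (Φ + Ψ))
    (hi : tr43_Inv M (Φ + Ψ)) :
    sc71_nu M (Φ + Ψ) hs hi = sc71_nu M Φ hΦ hiΦ + sc71_nu M Ψ hΨ hiΨ :=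
  AddMonoidHom.ext fun _ => rfl

theorem nd53_nu_neg {M : ℕ} {Φ : sc71_X → A} (hΦ : sc71_IsSymb Φ) (hiΦ : tr43_Inv M Φ)
    (hs : sc71_IsSymb (-Φ)) (hi : tr43_Inv M (-Φ)) :
    sc71_nu M (-Φ) hs hi = -sc71_nu M Φ hΦ hiΦ :=
  AddMonoidHom.ext fun _ => rfl

theorem nd53_nu_sub {M : ℕ} {Φ Ψ : sc71_X → A} (hΦ : sc71_IsSymb Φ) (hΨ : sc71_IsSymb Ψ)
    (hiΦ : tr43_Inv M Φ) (hiΨ : tr43_Inv M Ψ) (hs : sc71_IsSymb (Φ - Ψ))
    (hi : tr43_Inv M (Φ - Ψ)) :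
    sc71_nu M (Φ - Ψ) hs hi = sc71_nu M Φ hΦ hiΦ - sc71_nu M Ψ hΨ hiΨ :=
  AddMonoidHom.ext fun _ => rfl

/-- scalars: any `R` acting distributively on `A` (in particular `ℤ`, `ℕ`, and `R = A = ℂ`). -/
theorem nd53_nu_smul {M : ℕ} {R : Type*} [Monoid R] [DistribMulAction R A] (r : R)
    {Φ : sc71_X → A} (hΦ : sc71_IsSymb Φ) (hiΦ : tr43_Inv M Φ) (hs : sc71_IsSymb (r • Φ))
    (hi : tr43_Inv M (r • Φ)) :
    sc71_nu M (r • Φ) hs hi = r • sc71_nu M Φ hΦ hiΦ :=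
  AddMonoidHom.ext fun _ => rfl

omit [AddCommGroup A] in
theorem nd53_inv_smul {M : ℕ} {R : Type*} [SMul R A] (r : R) {Φ : sc71_X → A}
    (hiΦ : tr43_Inv M Φ) : tr43_Inv M (r • Φ) := fun γ x => by
  show r • Φ _ = r • Φ x
  rw [hiΦ γ x]

theorem nd53_symb_smul {R : Type*} [Monoid R] [DistribMulAction R A] (r : R)
    {Φ : sc71_X → A} (hΦ : sc71_IsSymb Φ) : sc71_IsSymb (r • Φ) :=
  hΦ.comp (DistribSMul.toAddMonoidHom A r)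

omit [AddCommGroup A] in
theorem nd53_inv_comp {M : ℕ} {B : Type*} (f : A → B) {Φ : sc71_X → A}
    (hiΦ : tr43_Inv M Φ) : tr43_Inv M (fun x => f (Φ x)) := fun γ x => by
  show f (Φ _) = f (Φ x)
  rw [hiΦ γ x]

/-- coefficient maps: `ν (f ∘ Φ) = f ∘ ν Φ`. -/
theorem nd53_nu_comp {M : ℕ} {B : Type*} [AddCommGroup B] (f : A →+ B) {Φ : sc71_X → A}
    (hΦ : sc71_IsSymb Φ) (hiΦ : tr43_Inv M Φ) (hs : sc71_IsSymb (fun x => f (Φ x)))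
    (hi : tr43_Inv M (fun x => f (Φ x))) :
    sc71_nu M (fun x => f (Φ x)) hs hi = f.comp (sc71_nu M Φ hΦ hiΦ) :=
  AddMonoidHom.ext fun _ => rfl

/-- `ν` only depends on the function. -/
theorem nd53_nu_congr {M : ℕ} {Φ Ψ : sc71_X → A} (h : Φ = Ψ) (hΦ : sc71_IsSymb Φ)
    (hiΦ : tr43_Inv M Φ) (hΨ : sc71_IsSymb Ψ) (hiΨ : tr43_Inv M Ψ) :
    sc71_nu M Φ hΦ hiΦ = sc71_nu M Ψ hΨ hiΨ := by
  subst h; rfl

/-! ### `ν` and the degeneracy map `i (φ₁, φ₂) = φ₁ + W φ₂` -/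

/-- **`ν ∘ i = i' ∘ (ν × ν)`**: for symbols `φ₁, φ₂` of level `N`,
`ν_{Nq} (φ₁ + W φ₂) = res (ν φ₁) + (res (ν φ₂)) ∘ conj_w`. -/
theorem nd53_nu_i {N q : ℕ} (hq : q ≠ 0) (D : tr43_Data N q) {φ₁ φ₂ : sc71_X → A}
    (h₁ : sc71_IsSymb φ₁) (h₂ : sc71_IsSymb φ₂) (hi₁ : tr43_Inv N φ₁) (hi₂ : tr43_Inv N φ₂)
    (hs : sc71_IsSymb (φ₁ + tr43_W D φ₂)) (hi : tr43_Inv (N * q) (φ₁ + tr43_W D φ₂)) :
    sc71_nu (N * q) (φ₁ + tr43_W D φ₂) hs hi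
      = nd53_res₁ N q A (sc71_nu N φ₁ h₁ hi₁) + nd53_res₂ D hq A (sc71_nu N φ₂ h₂ hi₂) := by
  have hW : tr43_Inv (N * q) (tr43_W D φ₂) :=
    tr43_W_Inv hq D (tr43_Inv_of_dvd (dvd_mul_right N q) hi₂)
  rw [nd53_nu_add h₁ (h₂.W D) (tr43_Inv_of_dvd (dvd_mul_right N q) hi₁) hW hs hi,
    nd53_nu_res₁ h₁ hi₁, nd53_nu_res₂ hq D h₂ hi₂]

/-- the image of `i` consists of `Γ₀(N q)`-invariant symbols. -/
theorem nd53_i_inv {N q : ℕ} (hq : q ≠ 0) (D : tr43_Data N q) {φ₁ φ₂ : sc71_X → A}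
    (hi₁ : tr43_Inv N φ₁) (hi₂ : tr43_Inv N φ₂) : tr43_Inv (N * q) (φ₁ + tr43_W D φ₂) :=
  tr43_Inv_add (tr43_Inv_of_dvd (dvd_mul_right N q) hi₁)
    (tr43_W_Inv hq D (tr43_Inv_of_dvd (dvd_mul_right N q) hi₂))

end Fermat.Agent.S41
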