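/-
S41 / L7 (helper88): the Hom-side Ihara statement `H1'` of `di28_dual_ihara_pair` with NO
hypothesis left (exponent `4`), obtained from `hic88_H1'` (HomIharaConc88) and the symbol-side
Ihara lemma `ic42_H1` (IharaConc42, exponent `2`), the model inputs being `cp76_U_infty`,
`cp76_L_zero`, `cp76_move'` (CuspPoint76).

Also: the degeneracy maps `nd53_res₁`, `nd53_res₂` (NuDegen53: restriction, and restriction
followed by `tr43_Data.conj`) satisfy the specifications `hic88_IsRes₁`, `hic88_IsRes₂`, so the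
statement holds verbatim for them (`him88_H1'_nd53`).
-/
import Mathlib
import Fermat.Agent.S41.HomIharaConc88
import Fermat.Agent.S41.IharaConc42
import Fermat.Agent.S41.CuspPoint76
import Fermat.Agent.S41.NuDegen53

set_option autoImplicit false

open CongruenceSubgroup Matrix.SpecialLinearGroup OnePoint
open scoped MatrixGroups

namespace Fermat.Agent.S41

open Fermat.Agent.S16

/-- the two literal forms of `E = T_ℓ - (ℓ + 1)` agree. -/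
theorem him88_E_eq (ℓ : ℕ) {A : Type*} [AddCommGroup A] (Φ : sc71_X → A) :
    hic88_E ℓ Φ = ic42_E ℓ Φ := by
  funext x
  rw [hic88_E_apply, ic42_E, Pi.sub_apply, Pi.smul_apply, ← natCast_zsmul]
  push_cast
  rfl

/-- `nd53_res₁` satisfies the specification of the first degeneracy map. -/
theorem him88_isRes₁ (N q : ℕ) (A : Type*) [AddCommGroup A] :
    hic88_IsRes₁ N q (nd53_res₁ N q A) := by
  intro χ γ γ' h
  have h1 : nh53_res (dvd_mul_right N q) γ = γ' := Subtype.ext h.symm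
  rw [nd53_res₁_apply, h1]

/-- `nd53_res₂` satisfies the specification of the second degeneracy map. -/
theorem him88_isRes₂ {N q : ℕ} (D : tr43_Data N q) (hq : q ≠ 0) (A : Type*) [AddCommGroup A] :
    hic88_IsRes₂ D (nd53_res₂ D hq A) := by
  intro χ γ γ' h
  have h1 := D.conj_spec hq γ
  have h2 : ((γ' : SL(2, ℤ)) : Matrix (Fin 2) (Fin 2) ℤ) =
      ((D.conj hq γ : SL(2, ℤ)) : Matrix (Fin 2) (Fin 2) ℤ) := D.cancel_w hq (h.trans h1)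
  have h3 : nh53_res (dvd_mul_right N q) (D.conj hq γ) = γ' :=
    Subtype.ext (Subtype.ext h2.symm)
  rw [nd53_res₂_apply, h3]

/-- **Hom-side Ihara `H1'`, no hypothesis left** (exponent `4`): for any two additive maps
`res₁`, `res₂` satisfying the specifications of the two degeneracy maps. This is the hypothesis
`H1'` of `di28_dual_ihara_pair` / `di28_mod_p` with `T' = heckeHom N ℓ ℤ`, `e = ℓ + 1`,
`n = 4`. -/
theorem him88_H1' {N q p ℓ : ℕ} (hp : p.Prime) (hp2 : p ≠ 2) (hN : 0 < N) (hq : q.Prime)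
    (hqN : ¬ q ∣ N) (hℓ : ℓ.Prime) (hℓ1 : ℓ ≡ 1 [MOD N * q]) (D : tr43_Data N q)
    (res₁ res₂ : (Additive (Gamma0 N) →+ ℤ) →+ (Additive (Gamma0 (N * q)) →+ ℤ))
    (hres₁ : hic88_IsRes₁ N q res₁) (hres₂ : hic88_IsRes₂ D res₂)
    (α₁ α₂ : Additive (Gamma0 N) →+ ℤ)
    (h : ∃ β' : Additive (Gamma0 (N * q)) →+ ℤ, res₁ α₁ + res₂ α₂ = (p : ℤ) • β') :
    (∃ α', lr54_pow (heckeHom N ℓ ℤ) ((ℓ : ℤ) + 1) 4 α₁ = (p : ℤ) • α') ∧
    (∃ α', lr54_pow (heckeHom N ℓ ℤ) ((ℓ : ℤ) + 1) 4 α₂ = (p : ℤ) • α') := by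
  have hℓNq : ¬ ℓ ∣ N * q := ca76_not_dvd_of_modEq hℓ hℓ1
  have hℓN : ¬ ℓ ∣ N := fun h => hℓNq (h.mul_right q)
  have hℓ1N : ℓ ≡ 1 [MOD N] := hℓ1.of_mul_right q
  refine hic88_H1' hq.ne_zero hℓ hℓ1 D res₁ res₂ hres₁ hres₂ 2 ?_ α₁ α₂ h
  intro φ₁ φ₂ hs₁ hi₁ hs₂ hi₂ h12
  have key := ic42_H1 p hp hp2 hN hq hqN D hℓ hℓN (∞ : OnePoint ℚ) ((0 : ℚ) : OnePoint ℚ)
    cp76_U_infty cp76_L_zero (cp76_move' hℓ hℓ1N) φ₁ φ₂ hs₁ hs₂ hi₁ hi₂ h12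
  have e : ∀ φ : sc71_X → ℤ, (hic88_E ℓ)^[2] φ = ic42_E ℓ (ic42_E ℓ φ) := fun φ => by
    show hic88_E ℓ (hic88_E ℓ φ) = _
    rw [him88_E_eq, him88_E_eq]
  rw [e, e]
  exact key

/-- `him88_H1'` for the degeneracy maps `nd53_res₁`, `nd53_res₂` of NuDegen53
(`χ ↦ χ ∘ res` and `χ ↦ (χ ∘ res) ∘ conj_w`). -/
theorem him88_H1'_nd53 {N q p ℓ : ℕ} (hp : p.Prime) (hp2 : p ≠ 2) (hN : 0 < N) (hq : q.Prime)
    (hqN : ¬ q ∣ N) (hℓ : ℓ.Prime) (hℓ1 : ℓ ≡ 1 [MOD N * q]) (D : tr43_Data N q)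
    (α₁ α₂ : Additive (Gamma0 N) →+ ℤ)
    (h : ∃ β' : Additive (Gamma0 (N * q)) →+ ℤ,
      nd53_res₁ N q ℤ α₁ + nd53_res₂ D hq.ne_zero ℤ α₂ = (p : ℤ) • β') :
    (∃ α', lr54_pow (heckeHom N ℓ ℤ) ((ℓ : ℤ) + 1) 4 α₁ = (p : ℤ) • α') ∧
    (∃ α', lr54_pow (heckeHom N ℓ ℤ) ((ℓ : ℤ) + 1) 4 α₂ = (p : ℤ) • α') :=
  him88_H1' hp hp2 hN hq hqN hℓ hℓ1 D _ _ (him88_isRes₁ N q ℤ) (him88_isRes₂ D hq.ne_zero ℤ)
    α₁ α₂ h

end Fermat.Agent.S41
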