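import Mathlib
import Fermat.Agent.S41.DualGlue71
import Fermat.Agent.S41.HomIharaMain88

/-!
# S41 / L9, plain instantiation: `(Hb)` from the three adjointness identities of L8

`dg71_Hb` (DualGlue71) with everything plugged in except the duality export of L8:

* the pairings are the Manin-model pairings `md32_PB psl96_rho ∞ rep` (ManinInst32), for arbitrary
  `U`-adapted systems of representatives `repN`, `repQ` at the levels `N`, `N q`;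
* (PD1), (PD2) are `md32_PB_pd1`, `md32_PB_pd2`;
* the Hom-side Hecke operator is the S16 operator `heckeHom N l0 ℤ`;
* the Hom-side Ihara lemma `H1'` is `him88_H1'` (HomIharaMain88, exponent `4`).

What is left are exactly the three identities `hadj₁`, `hadj₂`, `hT`:

* `dg71_Hb_main`  : the three identities for the bundled pairing `md32_PB` and the operators
                    `dg71_tr`, `dg71_W`, `dg71_T` on `md32_Symb`;
* `dg71_Hb_plain` : the same with the three identities in plain form, about `md32_B` and the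
                    `Trace43` operators on functions `Ψ : sc71_X → ℤ`;
* `dg71_Hb_exists`: the plain identities for ALL adapted representatives suffice (the
                    representatives are chosen inside by `md32_exists_rep`).

The conclusion is the statement `(Hb)` of `rf7_main` / `rf7_Hb p N q D l0` verbatim.
-/

set_option autoImplicit false

open Matrix MatrixGroups CongruenceSubgroup OnePoint
open Fermat.Agent.S16

namespace Fermat.Agent.S41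

theorem dg71_neg_one_mem (M : ℕ) : (-1 : SL(2, ℤ)) ∈ Gamma0 M := by
  rw [Gamma0_mem]
  simp

/-- the curried form of a plain function on pairs of cusps. -/
def dg71_curry (Ψ : sc71_X → ℤ) : OnePoint ℚ → OnePoint ℚ → ℤ := fun a c => Ψ (a, c)

theorem dg71_curry_fn {M : ℕ} (b : md32_Symb (Gamma0 M) psl96_rho) :
    dg71_curry (dg71_fn b) = (b : OnePoint ℚ → OnePoint ℚ → ℤ) := rfl

/-- **(Hb) from the three adjointness identities**, bundled form. -/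
theorem dg71_Hb_main {p : ℕ} (hp : p.Prime) (hp2 : p ≠ 2) {N q : ℕ} (hN : 0 < N) (hq : q.Prime)
    (hqN : ¬ q ∣ N) (D : tr43_Data N q) {l0 : ℕ} (hl0 : l0.Prime) (hl01 : l0 ≡ 1 [MOD N * q])
    (hl0N : ¬ l0 ∣ N)
    [Fintype (SL(2, ℤ) ⧸ Gamma0 N)] [Fintype (SL(2, ℤ) ⧸ Gamma0 (N * q))]
    {repN : SL(2, ℤ) ⧸ Gamma0 N → SL(2, ℤ)}
    (hrepN : ∀ x, (repN x : SL(2, ℤ) ⧸ Gamma0 N) = x) (hadN : md32_Adapted repN)
    {repQ : SL(2, ℤ) ⧸ Gamma0 (N * q) → SL(2, ℤ)}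
    (hrepQ : ∀ x, (repQ x : SL(2, ℤ) ⧸ Gamma0 (N * q)) = x) (hadQ : md32_Adapted repQ)
    (res₁ res₂ : (Additive (Gamma0 N) →+ ℤ) →+ (Additive (Gamma0 (N * q)) →+ ℤ))
    (hres₁ : hic88_IsRes₁ N q res₁) (hres₂ : hic88_IsRes₂ D res₂)
    (hadj₁ : ∀ (b : md32_Symb (Gamma0 (N * q)) psl96_rho) (α : Additive (Gamma0 N) →+ ℤ),
      md32_PB psl96_rho ∞ repN (dg71_tr hq D b) α = md32_PB psl96_rho ∞ repQ b (res₁ α))
    (hadj₂ : ∀ (b : md32_Symb (Gamma0 (N * q)) psl96_rho) (α : Additive (Gamma0 N) →+ ℤ),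
      md32_PB psl96_rho ∞ repN (dg71_tr hq D (dg71_W hq.ne_zero D b)) α =
        md32_PB psl96_rho ∞ repQ b (res₂ α))
    (hT : ∀ (x : md32_Symb (Gamma0 N) psl96_rho) (α : Additive (Gamma0 N) →+ ℤ),
      md32_PB psl96_rho ∞ repN (dg71_T N l0 hl0 hl0N x) α =
        md32_PB psl96_rho ∞ repN x (heckeHom N l0 ℤ α)) :
    ∃ n : ℕ, ∀ φ₁ φ₂ : sc71_X → ℤ, slp10_IsSymb N φ₁ → slp10_IsSymb N φ₂ →
      ∃ Ψ : sc71_X → ℤ, slp10_IsSymb (N * q) Ψ ∧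
        (∀ z, (p : ℤ) ∣ (ic42_E l0)^[n] φ₁ z - tr43_tr D Ψ z) ∧
        (∀ z, (p : ℤ) ∣ (ic42_E l0)^[n] φ₂ z - tr43_tr D (tr43_W D Ψ) z) :=
  dg71_Hb p hp hq D hl0 hl0N (md32_PB psl96_rho ∞ repN) (md32_PB psl96_rho ∞ repQ) res₁ res₂
    (heckeHom N l0 ℤ) hadj₁ hadj₂ hT
    (md32_PB_pd1 md32_cuspAx_rho (dg71_neg_one_mem N) hrepN hadN hp hp2)
    (md32_PB_pd2 md32_cuspAx_rho (dg71_neg_one_mem (N * q)) hrepQ hadQ hp hp2) 4
    (fun α₁ α₂ h => him88_H1' hp hp2 hN hq hqN hl0 hl01 D res₁ res₂ hres₁ hres₂ α₁ α₂ h)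

/-- **(Hb) from the three adjointness identities**, plain form: the identities are stated for
the pairing `md32_B` and the `Trace43` operators on plain integral symbols. -/
theorem dg71_Hb_plain {p : ℕ} (hp : p.Prime) (hp2 : p ≠ 2) {N q : ℕ} (hN : 0 < N) (hq : q.Prime)
    (hqN : ¬ q ∣ N) (D : tr43_Data N q) {l0 : ℕ} (hl0 : l0.Prime) (hl01 : l0 ≡ 1 [MOD N * q])
    [Fintype (SL(2, ℤ) ⧸ Gamma0 N)] [Fintype (SL(2, ℤ) ⧸ Gamma0 (N * q))]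
    {repN : SL(2, ℤ) ⧸ Gamma0 N → SL(2, ℤ)}
    (hrepN : ∀ x, (repN x : SL(2, ℤ) ⧸ Gamma0 N) = x) (hadN : md32_Adapted repN)
    {repQ : SL(2, ℤ) ⧸ Gamma0 (N * q) → SL(2, ℤ)}
    (hrepQ : ∀ x, (repQ x : SL(2, ℤ) ⧸ Gamma0 (N * q)) = x) (hadQ : md32_Adapted repQ)
    (res₁ res₂ : (Additive (Gamma0 N) →+ ℤ) →+ (Additive (Gamma0 (N * q)) →+ ℤ))
    (hres₁ : hic88_IsRes₁ N q res₁) (hres₂ : hic88_IsRes₂ D res₂)
    (hadj₁ : ∀ (Ψ : sc71_X → ℤ), slp10_IsSymb (N * q) Ψ → ∀ α : Additive (Gamma0 N) →+ ℤ,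
      md32_B psl96_rho ∞ repN (md32_ext α) (dg71_curry (tr43_tr D Ψ)) =
        md32_B psl96_rho ∞ repQ (md32_ext (res₁ α)) (dg71_curry Ψ))
    (hadj₂ : ∀ (Ψ : sc71_X → ℤ), slp10_IsSymb (N * q) Ψ → ∀ α : Additive (Gamma0 N) →+ ℤ,
      md32_B psl96_rho ∞ repN (md32_ext α) (dg71_curry (tr43_tr D (tr43_W D Ψ))) =
        md32_B psl96_rho ∞ repQ (md32_ext (res₂ α)) (dg71_curry Ψ))
    (hT : ∀ (Φ : sc71_X → ℤ), slp10_IsSymb N Φ → ∀ α : Additive (Gamma0 N) →+ ℤ,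
      md32_B psl96_rho ∞ repN (md32_ext α) (dg71_curry (tr43_T l0 Φ)) =
        md32_B psl96_rho ∞ repN (md32_ext (heckeHom N l0 ℤ α)) (dg71_curry Φ)) :
    ∃ n : ℕ, ∀ φ₁ φ₂ : sc71_X → ℤ, slp10_IsSymb N φ₁ → slp10_IsSymb N φ₂ →
      ∃ Ψ : sc71_X → ℤ, slp10_IsSymb (N * q) Ψ ∧
        (∀ z, (p : ℤ) ∣ (ic42_E l0)^[n] φ₁ z - tr43_tr D Ψ z) ∧
        (∀ z, (p : ℤ) ∣ (ic42_E l0)^[n] φ₂ z - tr43_tr D (tr43_W D Ψ) z) := by
  have hl0Nq : ¬ l0 ∣ N * q := ca76_not_dvd_of_modEq hl0 hl01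
  have hl0N : ¬ l0 ∣ N := fun h => hl0Nq (h.mul_right q)
  refine dg71_Hb_main hp hp2 hN hq hqN D hl0 hl01 hl0N hrepN hadN hrepQ hadQ res₁ res₂ hres₁ hres₂
    (fun b α => ?_) (fun b α => ?_) (fun x α => ?_)
  · exact hadj₁ (dg71_fn b) (dg71_fn_isSymb b) α
  · exact hadj₂ (dg71_fn b) (dg71_fn_isSymb b) α
  · exact hT (dg71_fn x) (dg71_fn_isSymb x) α

/-- **(Hb)** when the three plain adjointness identities hold for all `U`-adapted systems of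
representatives (chosen inside by `md32_exists_rep`). -/
theorem dg71_Hb_exists {p : ℕ} (hp : p.Prime) (hp2 : p ≠ 2) {N q : ℕ} (hN : 0 < N) (hq : q.Prime)
    (hqN : ¬ q ∣ N) (D : tr43_Data N q) {l0 : ℕ} (hl0 : l0.Prime) (hl01 : l0 ≡ 1 [MOD N * q])
    [Fintype (SL(2, ℤ) ⧸ Gamma0 N)] [Fintype (SL(2, ℤ) ⧸ Gamma0 (N * q))]
    (res₁ res₂ : (Additive (Gamma0 N) →+ ℤ) →+ (Additive (Gamma0 (N * q)) →+ ℤ))
    (hres₁ : hic88_IsRes₁ N q res₁) (hres₂ : hic88_IsRes₂ D res₂)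
    (hadj₁ : ∀ (repN : SL(2, ℤ) ⧸ Gamma0 N → SL(2, ℤ))
      (repQ : SL(2, ℤ) ⧸ Gamma0 (N * q) → SL(2, ℤ)),
      (∀ x, (repN x : SL(2, ℤ) ⧸ Gamma0 N) = x) → md32_Adapted repN →
      (∀ x, (repQ x : SL(2, ℤ) ⧸ Gamma0 (N * q)) = x) → md32_Adapted repQ →
      ∀ (Ψ : sc71_X → ℤ), slp10_IsSymb (N * q) Ψ → ∀ α : Additive (Gamma0 N) →+ ℤ,
      md32_B psl96_rho ∞ repN (md32_ext α) (dg71_curry (tr43_tr D Ψ)) =
        md32_B psl96_rho ∞ repQ (md32_ext (res₁ α)) (dg71_curry Ψ))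
    (hadj₂ : ∀ (repN : SL(2, ℤ) ⧸ Gamma0 N → SL(2, ℤ))
      (repQ : SL(2, ℤ) ⧸ Gamma0 (N * q) → SL(2, ℤ)),
      (∀ x, (repN x : SL(2, ℤ) ⧸ Gamma0 N) = x) → md32_Adapted repN →
      (∀ x, (repQ x : SL(2, ℤ) ⧸ Gamma0 (N * q)) = x) → md32_Adapted repQ →
      ∀ (Ψ : sc71_X → ℤ), slp10_IsSymb (N * q) Ψ → ∀ α : Additive (Gamma0 N) →+ ℤ,
      md32_B psl96_rho ∞ repN (md32_ext α) (dg71_curry (tr43_tr D (tr43_W D Ψ))) =
        md32_B psl96_rho ∞ repQ (md32_ext (res₂ α)) (dg71_curry Ψ))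
    (hT : ∀ (repN : SL(2, ℤ) ⧸ Gamma0 N → SL(2, ℤ)),
      (∀ x, (repN x : SL(2, ℤ) ⧸ Gamma0 N) = x) → md32_Adapted repN →
      ∀ (Φ : sc71_X → ℤ), slp10_IsSymb N Φ → ∀ α : Additive (Gamma0 N) →+ ℤ,
      md32_B psl96_rho ∞ repN (md32_ext α) (dg71_curry (tr43_T l0 Φ)) =
        md32_B psl96_rho ∞ repN (md32_ext (heckeHom N l0 ℤ α)) (dg71_curry Φ)) :
    ∃ n : ℕ, ∀ φ₁ φ₂ : sc71_X → ℤ, slp10_IsSymb N φ₁ → slp10_IsSymb N φ₂ →
      ∃ Ψ : sc71_X → ℤ, slp10_IsSymb (N * q) Ψ ∧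
        (∀ z, (p : ℤ) ∣ (ic42_E l0)^[n] φ₁ z - tr43_tr D Ψ z) ∧
        (∀ z, (p : ℤ) ∣ (ic42_E l0)^[n] φ₂ z - tr43_tr D (tr43_W D Ψ) z) := by
  obtain ⟨repN, hrepN, hadN⟩ := md32_exists_rep (dg71_neg_one_mem N)
  obtain ⟨repQ, hrepQ, hadQ⟩ := md32_exists_rep (dg71_neg_one_mem (N * q))
  exact dg71_Hb_plain hp hp2 hN hq hqN D hl0 hl01 hrepN hadN hrepQ hadQ res₁ res₂ hres₁ hres₂
    (hadj₁ repN repQ hrepN hadN hrepQ hadQ) (hadj₂ repN repQ hrepN hadN hrepQ hadQ)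
    (hT repN hrepN hadN)

end Fermat.Agent.S41
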