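/-
S41 / M3 (helper96): the Heisenberg lift `(R1)` for subgroups of `SL(2, ℤ)`.

For a subgroup `Γ ≤ SL(2, ℤ)` with `-1 ∈ Γ`, a commutative ring `R` without `2`- and `3`-torsion
and homomorphisms `ν χ : Γ → R` there is `κ : Γ → R` with
`κ (g * h) = κ g + κ h + ν g * χ h`   (`ck96_exists_kappa`).

Proof: monomial group `ck96_Mon X (ck96_Heis R)` over `X = SL(2, ℤ) ⧸ Γ` and the universal
property `psl96_univ` of `PSL(2, ℤ)`.
-/
import Mathlib
import Fermat.Agent.S41.PSL2Univ96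

set_option autoImplicit false

open scoped MatrixGroups
open ModularGroup Matrix

namespace Fermat.Agent.S41

/-! ### The Heisenberg group -/

/-- The Heisenberg group over a commutative ring: `(a, b, k) (a', b', k') =
(a + a', b + b', k + k' + a b')`. -/
@[ext]
structure ck96_Heis (R : Type*) where
  /-- first coordinate -/
  a : R
  /-- second coordinate -/
  b : R
  /-- central coordinate -/
  k : R

namespace ck96_Heis

variable {R : Type*} [CommRing R]

instance : Mul (ck96_Heis R) := ⟨fun x y => ⟨x.a + y.a, x.b + y.b, x.k + y.k + x.a * y.b⟩⟩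
instance : One (ck96_Heis R) := ⟨⟨0, 0, 0⟩⟩
instance : Inv (ck96_Heis R) := ⟨fun x => ⟨-x.a, -x.b, -x.k + x.a * x.b⟩⟩

@[simp] theorem mul_a (x y : ck96_Heis R) : (x * y).a = x.a + y.a := rfl
@[simp] theorem mul_b (x y : ck96_Heis R) : (x * y).b = x.b + y.b := rfl
@[simp] theorem mul_k (x y : ck96_Heis R) : (x * y).k = x.k + y.k + x.a * y.b := rfl
@[simp] theorem one_a : (1 : ck96_Heis R).a = 0 := rfl
@[simp] theorem one_b : (1 : ck96_Heis R).b = 0 := rfl
@[simp] theorem one_k : (1 : ck96_Heis R).k = 0 := rfl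
@[simp] theorem inv_a (x : ck96_Heis R) : (x⁻¹).a = -x.a := rfl
@[simp] theorem inv_b (x : ck96_Heis R) : (x⁻¹).b = -x.b := rfl
@[simp] theorem inv_k (x : ck96_Heis R) : (x⁻¹).k = -x.k + x.a * x.b := rfl

instance : Group (ck96_Heis R) where
  mul_assoc x y z := by ext <;> simp <;> ring
  one_mul x := by ext <;> simp
  mul_one x := by ext <;> simp
  inv_mul_cancel x := by ext <;> simp

/-- The projection of the Heisenberg group to `R × R`. -/
def pr : ck96_Heis R →* Multiplicative (R × R) where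
  toFun x := Multiplicative.ofAdd (x.a, x.b)
  map_one' := rfl
  map_mul' _ _ := rfl

end ck96_Heis

/-! ### The monomial group -/

/-- The monomial group `H ≀ Perm X`: pairs of a permutation of `X` and a function `X → H`. -/
@[ext]
structure ck96_Mon (X : Type*) (H : Type*) where
  /-- the permutation -/
  perm : Equiv.Perm X
  /-- the function -/
  fn : X → H

namespace ck96_Mon

variable {X : Type*} {H : Type*} [Group H]

instance : Mul (ck96_Mon X H) := ⟨fun p q => ⟨p.perm * q.perm, fun x => p.fn (q.perm x) * q.fn x⟩⟩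
instance : One (ck96_Mon X H) := ⟨⟨1, fun _ => 1⟩⟩
instance : Inv (ck96_Mon X H) := ⟨fun p => ⟨p.perm⁻¹, fun x => (p.fn (p.perm⁻¹ x))⁻¹⟩⟩

@[simp] theorem mul_perm (p q : ck96_Mon X H) : (p * q).perm = p.perm * q.perm := rfl
@[simp] theorem mul_fn (p q : ck96_Mon X H) (x : X) :
    (p * q).fn x = p.fn (q.perm x) * q.fn x := rfl
@[simp] theorem one_perm : (1 : ck96_Mon X H).perm = 1 := rfl
@[simp] theorem one_fn (x : X) : (1 : ck96_Mon X H).fn x = 1 := rfl
@[simp] theorem inv_perm (p : ck96_Mon X H) : (p⁻¹).perm = p.perm⁻¹ := rfl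
@[simp] theorem inv_fn (p : ck96_Mon X H) (x : X) : (p⁻¹).fn x = (p.fn (p.perm⁻¹ x))⁻¹ := rfl

instance : Group (ck96_Mon X H) where
  mul_assoc p q r := by
    ext x
    · simp
    · simp [mul_assoc]
  one_mul p := by ext x <;> simp
  mul_one p := by ext x <;> simp
  inv_mul_cancel p := by ext x <;> simp

/-- The projection to the permutation. -/
def permHom : ck96_Mon X H →* Equiv.Perm X where
  toFun p := p.perm
  map_one' := rfl
  map_mul' _ _ := rfl

/-- Functoriality in the coefficient group. -/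
def map {H' : Type*} [Group H'] (f : H →* H') : ck96_Mon X H →* ck96_Mon X H' where
  toFun p := ⟨p.perm, fun x => f (p.fn x)⟩
  map_one' := by ext x <;> simp
  map_mul' p q := by ext x <;> simp

@[simp] theorem map_perm {H' : Type*} [Group H'] (f : H →* H') (p : ck96_Mon X H) :
    (map f p).perm = p.perm := rfl
@[simp] theorem map_fn {H' : Type*} [Group H'] (f : H →* H') (p : ck96_Mon X H) (x : X) :
    (map f p).fn x = f (p.fn x) := rfl

end ck96_Mon

/-! ### The Shapiro cocycle and the monomial homomorphism -/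

section Shapiro

variable {G : Type*} [Group G] (Γ : Subgroup G)

/-- A section of `G → G ⧸ Γ`. -/
def ck96_IsSection (sec : G ⧸ Γ → G) : Prop := ∀ x : G ⧸ Γ, (sec x : G ⧸ Γ) = x

theorem ck96_isSection_out : ck96_IsSection Γ (Quotient.out : G ⧸ Γ → G) :=
  fun x => Quotient.out_eq' x

variable {Γ}

/-- The Shapiro cocycle `γ(g, x) = sec(g x)⁻¹ g sec(x) ∈ Γ`. -/
def ck96_gam {sec : G ⧸ Γ → G} (hsec : ck96_IsSection Γ sec) (g : G) (x : G ⧸ Γ) : Γ :=
  ⟨(sec (g • x))⁻¹ * g * sec x, by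
    have h1 : ((sec (g • x) : G) : G ⧸ Γ) = ((g * sec x : G) : G ⧸ Γ) := by
      rw [hsec (g • x)]
      conv_lhs => rw [← hsec x]
      rfl
    have h2 := QuotientGroup.eq.mp h1
    rwa [← mul_assoc] at h2⟩

theorem ck96_gam_coe {sec : G ⧸ Γ → G} (hsec : ck96_IsSection Γ sec) (g : G) (x : G ⧸ Γ) :
    (ck96_gam hsec g x : G) = (sec (g • x))⁻¹ * g * sec x := rfl

theorem ck96_gam_mul {sec : G ⧸ Γ → G} (hsec : ck96_IsSection Γ sec) (g h : G) (x : G ⧸ Γ) :
    ck96_gam hsec (g * h) x = ck96_gam hsec g (h • x) * ck96_gam hsec h x := by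
  apply Subtype.ext
  simp only [ck96_gam_coe, Subgroup.coe_mul, mul_smul]
  group

theorem ck96_gam_one {sec : G ⧸ Γ → G} (hsec : ck96_IsSection Γ sec) (x : G ⧸ Γ) :
    ck96_gam hsec 1 x = 1 := by
  apply Subtype.ext
  simp [ck96_gam_coe]

/-- The monomial (induced) homomorphism attached to `ρ : Γ →* A`. -/
def ck96_sh {sec : G ⧸ Γ → G} (hsec : ck96_IsSection Γ sec) {A : Type*} [Group A] (ρ : Γ →* A) :
    G →* ck96_Mon (G ⧸ Γ) A where
  toFun g := ⟨MulAction.toPerm g, fun x => ρ (ck96_gam hsec g x)⟩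
  map_one' := by
    ext x
    · simp
    · simp [ck96_gam_one]
  map_mul' g h := by
    ext x
    · simp [mul_smul]
    · simp [ck96_gam_mul]

@[simp] theorem ck96_sh_perm {sec : G ⧸ Γ → G} (hsec : ck96_IsSection Γ sec) {A : Type*} [Group A]
    (ρ : Γ →* A) (g : G) (x : G ⧸ Γ) : (ck96_sh hsec ρ g).perm x = g • x := rfl

@[simp] theorem ck96_sh_fn {sec : G ⧸ Γ → G} (hsec : ck96_IsSection Γ sec) {A : Type*} [Group A]
    (ρ : Γ →* A) (g : G) (x : G ⧸ Γ) : (ck96_sh hsec ρ g).fn x = ρ (ck96_gam hsec g x) := rfl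

end Shapiro

/-! ### Solving the orbit equations -/

section Solve

variable {X : Type*} {R : Type*} [CommRing R]

theorem ck96_solve_two (σ : X → X) (hσ : ∀ x, σ (σ x) = x) (a b : X → R)
    (ha : ∀ x, a (σ x) + a x = 0) (hb : ∀ x, b (σ x) + b x = 0)
    (h2 : ∀ r : R, r + r = 0 → r = 0) :
    ∃ k : X → R, ∀ x, k (σ x) + k x + a (σ x) * b x = 0 := by
  classical
  let _ : LinearOrder X := IsWellOrder.linearOrder WellOrderingRel
  refine ⟨fun x => if x < σ x then -(a (σ x) * b x) else 0, fun x => ?_⟩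
  have hg : a x * b (σ x) = a (σ x) * b x := by
    have h1 := ha x
    have h2' := hb x
    have e1 : a x = -a (σ x) := by linear_combination h1
    have e2 : b (σ x) = -b x := by linear_combination h2'
    rw [e1, e2]
    ring
  simp only [hσ x]
  rcases lt_trichotomy x (σ x) with h | h | h
  · rw [if_neg (not_lt.mpr h.le), if_pos h]
    ring
  · have hax : a x = 0 := h2 _ (by have := ha x; rwa [← h] at this)
    rw [if_neg (by rw [← h]; exact lt_irrefl x), if_neg (by rw [← h]; exact lt_irrefl x), ← h, hax]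
    ring
  · rw [if_pos h, if_neg (not_lt.mpr h.le), hg]
    ring

theorem ck96_solve_three (σ : X → X) (hσ : ∀ x, σ (σ (σ x)) = x) (a b : X → R)
    (ha : ∀ x, a (σ (σ x)) + a (σ x) + a x = 0) (hb : ∀ x, b (σ (σ x)) + b (σ x) + b x = 0)
    (h3 : ∀ r : R, r + r + r = 0 → r = 0) :
    ∃ k : X → R, ∀ x, k (σ (σ x)) + k (σ x) + a (σ (σ x)) * b (σ x) + k x +
      (a (σ (σ x)) + a (σ x)) * b x = 0 := by
  classical
  let _ : LinearOrder X := IsWellOrder.linearOrder WellOrderingRel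
  -- the orbit function
  set g : X → R := fun x => -(a (σ (σ x)) * b (σ x) + (a (σ (σ x)) + a (σ x)) * b x) with hgdef
  have hgσ : ∀ x, g (σ x) = g x := by
    intro x
    simp only [hgdef, hσ x]
    have h1 := ha x
    have h2 := hb x
    have e1 : a (σ (σ x)) = -a (σ x) - a x := by linear_combination h1
    have e2 : b (σ (σ x)) = -b (σ x) - b x := by linear_combination h2
    rw [e1, e2]
    ring
  refine ⟨fun x => if x < σ x ∧ x < σ (σ x) then g x else 0, fun x => ?_⟩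
  have hgoal : ∀ t : R, t = g x →
      t + a (σ (σ x)) * b (σ x) + (a (σ (σ x)) + a (σ x)) * b x = 0 := by
    intro t ht
    rw [ht, hgdef]
    ring
  simp only [hσ x]
  by_cases hfix : σ x = x
  · have hax : a x = 0 := h3 _ (by have := ha x; rwa [hfix, hfix] at this)
    simp only [hfix, lt_irrefl, and_self, if_false, hax]
    ring
  · have h01 : x ≠ σ x := fun h => hfix h.symm
    have h02 : x ≠ σ (σ x) := by
      intro h
      apply hfix
      have := congrArg σ h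
      rw [hσ x] at this
      exact this
    have h12 : σ x ≠ σ (σ x) := by
      intro h
      apply hfix
      have h' := congrArg σ (congrArg σ h)
      rw [hσ x] at h'
      exact h'.symm
    have key : (if σ (σ x) < x ∧ σ (σ x) < σ x then g (σ (σ x)) else 0) +
        (if σ x < σ (σ x) ∧ σ x < x then g (σ x) else 0) +
        (if x < σ x ∧ x < σ (σ x) then g x else 0) = g x := by
      rw [hgσ (σ x), hgσ x]
      rcases lt_trichotomy x (σ x) with h | h | h
      · rcases lt_trichotomy x (σ (σ x)) with h' | h' | h'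
        · rw [if_neg (fun hh => lt_asymm h' hh.1), if_neg (fun hh => lt_asymm h hh.2),
            if_pos ⟨h, h'⟩]
          ring
        · exact absurd h' h02
        · rw [if_pos ⟨h', h'.trans h⟩, if_neg (fun hh => lt_asymm h hh.2),
            if_neg (fun hh => lt_asymm h' hh.2)]
          ring
      · exact absurd h h01
      · rcases lt_trichotomy (σ x) (σ (σ x)) with h' | h' | h'
        · rw [if_neg (fun hh => lt_asymm h' hh.2), if_pos ⟨h', h⟩,
            if_neg (fun hh => lt_asymm h hh.1)]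
          ring
        · exact absurd h' h12
        · rw [if_pos ⟨h'.trans h, h'⟩, if_neg (fun hh => lt_asymm h' hh.1),
            if_neg (fun hh => lt_asymm h hh.1)]
          ring
    have := hgoal _ key
    linear_combination this

end Solve

/-! ### `-1` and the cocycle for `SL(2, ℤ)` -/

section NegOne

variable (Γ : Subgroup SL(2, ℤ))

theorem ck96_neg_one_smul (hneg : (-1 : SL(2, ℤ)) ∈ Γ) (x : SL(2, ℤ) ⧸ Γ) :
    (-1 : SL(2, ℤ)) • x = x := by
  induction x using QuotientGroup.induction_on with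
  | H g =>
    rw [MulAction.Quotient.smul_mk]
    apply QuotientGroup.eq.mpr
    have h : (-1 * g)⁻¹ * g = -1 := by
      rw [neg_one_mul, inv_neg, neg_mul, inv_mul_cancel]
    rw [smul_eq_mul, h]
    exact hneg

variable {Γ}

theorem ck96_gam_neg_one {sec : SL(2, ℤ) ⧸ Γ → SL(2, ℤ)} (hsec : ck96_IsSection Γ sec)
    (hneg : (-1 : SL(2, ℤ)) ∈ Γ) (x : SL(2, ℤ) ⧸ Γ) :
    ck96_gam hsec (-1) x = ⟨-1, hneg⟩ := by
  apply Subtype.ext
  rw [ck96_gam_coe, ck96_neg_one_smul Γ hneg]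
  simp

end NegOne

/-! ### The Heisenberg lift -/

section Kappa

variable {R : Type*} [CommRing R] {Γ : Subgroup SL(2, ℤ)}

theorem ck96_hom_one (ν : Γ → R) (hν : ∀ g h, ν (g * h) = ν g + ν h) : ν 1 = 0 := by
  have := hν 1 1
  rw [mul_one] at this
  linear_combination -this

theorem ck96_hom_neg_one (hneg : (-1 : SL(2, ℤ)) ∈ Γ) (h2 : ∀ r : R, r + r = 0 → r = 0)
    (ν : Γ → R) (hν : ∀ g h, ν (g * h) = ν g + ν h) : ν ⟨-1, hneg⟩ = 0 := by
  apply h2
  rw [← hν]
  have : (⟨-1, hneg⟩ : Γ) * ⟨-1, hneg⟩ = 1 := by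
    apply Subtype.ext
    simp
  rw [this, ck96_hom_one ν hν]

/-- **Extended Heisenberg lift.** For `Γ ≤ SL(2, ℤ)` containing `-1`, a ring `R` without `2`- and
`3`-torsion, additive maps `ν χ : Γ → R` and any section of `SL(2, ℤ) → SL(2, ℤ) ⧸ Γ` there is
`K : SL(2, ℤ) → SL(2, ℤ) ⧸ Γ → R` with
`K (g h) x = K g (h x) + K h x + ν (γ (g, h x)) χ (γ (h, x))`. -/
theorem ck96_exists_kappa_ext {sec : SL(2, ℤ) ⧸ Γ → SL(2, ℤ)} (hsec : ck96_IsSection Γ sec)
    (hneg : (-1 : SL(2, ℤ)) ∈ Γ)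
    (h2 : ∀ r : R, r + r = 0 → r = 0) (h3 : ∀ r : R, r + r + r = 0 → r = 0)
    (ν χ : Γ → R) (hν : ∀ g h, ν (g * h) = ν g + ν h) (hχ : ∀ g h, χ (g * h) = χ g + χ h) :
    ∃ K : SL(2, ℤ) → SL(2, ℤ) ⧸ Γ → R, ∀ g h x,
      K (g * h) x = K g (h • x) + K h x +
        ν (ck96_gam hsec g (h • x)) * χ (ck96_gam hsec h x) := by
  classical
  set N : SL(2, ℤ) → SL(2, ℤ) ⧸ Γ → R := fun g x => ν (ck96_gam hsec g x) with hN
  set C : SL(2, ℤ) → SL(2, ℤ) ⧸ Γ → R := fun g x => χ (ck96_gam hsec g x) with hC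
  have hνm : ν ⟨-1, hneg⟩ = 0 := ck96_hom_neg_one hneg h2 ν hν
  have hχm : χ ⟨-1, hneg⟩ = 0 := ck96_hom_neg_one hneg h2 χ hχ
  have hNmul : ∀ g h x, N (g * h) x = N g (h • x) + N h x := fun g h x => by
    simp only [hN]
    rw [ck96_gam_mul, hν]
  have hCmul : ∀ g h x, C (g * h) x = C g (h • x) + C h x := fun g h x => by
    simp only [hC]
    rw [ck96_gam_mul, hχ]
  have hNm : ∀ x, N (-1) x = 0 := fun x => by
    simp only [hN]
    rw [ck96_gam_neg_one hsec hneg, hνm]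
  have hCm : ∀ x, C (-1) x = 0 := fun x => by
    simp only [hC]
    rw [ck96_gam_neg_one hsec hneg, hχm]
  have hS2 : (S * S : SL(2, ℤ)) = -1 := by
    rw [← sq]
    exact psl96_S_sq
  have hU3 : ((S * T) * (S * T) * (S * T) : SL(2, ℤ)) = -1 := by
    rw [← pow_three']
    exact psl96_U_cube
  have hSS : ∀ x : SL(2, ℤ) ⧸ Γ, S • S • x = x := fun x => by
    rw [← mul_smul, hS2, ck96_neg_one_smul Γ hneg]
  have hUUU : ∀ x : SL(2, ℤ) ⧸ Γ, (S * T) • (S * T) • (S * T) • x = x := fun x => by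
    rw [← mul_smul, ← mul_smul, hU3, ck96_neg_one_smul Γ hneg]
  have hNS : ∀ x, N S (S • x) + N S x = 0 := fun x => by
    rw [← hNmul, hS2, hNm]
  have hCS : ∀ x, C S (S • x) + C S x = 0 := fun x => by
    rw [← hCmul, hS2, hCm]
  have hNU : ∀ x, N (S * T) ((S * T) • (S * T) • x) + N (S * T) ((S * T) • x) + N (S * T) x = 0 :=
    fun x => by
      rw [← hNmul, ← hNmul, hU3, hNm]
  have hCU : ∀ x, C (S * T) ((S * T) • (S * T) • x) + C (S * T) ((S * T) • x) + C (S * T) x = 0 :=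
    fun x => by
      rw [← hCmul, ← hCmul, hU3, hCm]
  obtain ⟨kS, hkS⟩ := ck96_solve_two (fun x : SL(2, ℤ) ⧸ Γ => S • x) hSS (N S) (C S) hNS hCS h2
  obtain ⟨kU, hkU⟩ := ck96_solve_three (fun x : SL(2, ℤ) ⧸ Γ => (S * T) • x) hUUU
    (N (S * T)) (C (S * T)) hNU hCU h3
  let s' : ck96_Mon (SL(2, ℤ) ⧸ Γ) (ck96_Heis R) :=
    ⟨MulAction.toPerm S, fun x => ⟨N S x, C S x, kS x⟩⟩
  let u' : ck96_Mon (SL(2, ℤ) ⧸ Γ) (ck96_Heis R) :=
    ⟨MulAction.toPerm (S * T), fun x => ⟨N (S * T) x, C (S * T) x, kU x⟩⟩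
  have hs : s' ^ 2 = 1 := by
    rw [sq]
    ext x
    · simp [s', hSS]
    · simpa [s'] using hNS x
    · simpa [s'] using hCS x
    · simpa [s'] using hkS x
  have hu : u' ^ 3 = 1 := by
    rw [pow_three']
    ext x
    · simp [u', hUUU]
    · simpa [u'] using hNU x
    · simpa [u'] using hCU x
    · simpa [u'] using hkU x
  obtain ⟨Ψ, hΨS, hΨU⟩ := psl96_univ s' u' hs hu
  let ρ : Γ →* Multiplicative (R × R) :=
    { toFun := fun g => Multiplicative.ofAdd (ν g, χ g)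
      map_one' := by
        rw [ck96_hom_one ν hν, ck96_hom_one χ hχ]
        rfl
      map_mul' := fun g h => by
        rw [hν, hχ]
        rfl }
  have hcomp : (ck96_Mon.map ck96_Heis.pr).comp Ψ = ck96_sh hsec ρ := by
    apply psl96_hom_ext
    · rw [MonoidHom.comp_apply, hΨS]
      rfl
    · rw [MonoidHom.comp_apply, hΨU]
      rfl
  have hperm : ∀ g x, (Ψ g).perm x = g • x := fun g x => by
    have := congrArg (fun m => m.perm x) (DFunLike.congr_fun hcomp g)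
    simpa using this
  have hpr : ∀ g x, ck96_Heis.pr ((Ψ g).fn x) = ρ (ck96_gam hsec g x) := fun g x => by
    have := congrArg (fun m => m.fn x) (DFunLike.congr_fun hcomp g)
    simpa using this
  have ha : ∀ g x, ((Ψ g).fn x).a = N g x := fun g x => by
    have := congrArg (fun m : Multiplicative (R × R) => (Multiplicative.toAdd m).1) (hpr g x)
    exact this
  have hb : ∀ g x, ((Ψ g).fn x).b = C g x := fun g x => by
    have := congrArg (fun m : Multiplicative (R × R) => (Multiplicative.toAdd m).2) (hpr g x)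
    exact this
  refine ⟨fun g x => ((Ψ g).fn x).k, fun g h x => ?_⟩
  simp only [map_mul, ck96_Mon.mul_fn, ck96_Heis.mul_k, hperm, ha, hb, hN, hC]

theorem ck96_hom_inv (θ : Γ → R) (hθ : ∀ g h, θ (g * h) = θ g + θ h) (g : Γ) :
    θ g⁻¹ = -θ g := by
  have h := hθ g⁻¹ g
  rw [inv_mul_cancel, ck96_hom_one θ hθ] at h
  linear_combination -h

theorem ck96_base_fix (g : Γ) :
    (g : SL(2, ℤ)) • ((1 : SL(2, ℤ)) : SL(2, ℤ) ⧸ Γ) = ((1 : SL(2, ℤ)) : SL(2, ℤ) ⧸ Γ) := by
  rw [MulAction.Quotient.smul_mk]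
  apply QuotientGroup.eq.mpr
  simp

theorem ck96_gam_base {sec : SL(2, ℤ) ⧸ Γ → SL(2, ℤ)} (hsec : ck96_IsSection Γ sec)
    (θ : Γ → R) (hθ : ∀ g h, θ (g * h) = θ g + θ h) (g : Γ) :
    θ (ck96_gam hsec (g : SL(2, ℤ)) ((1 : SL(2, ℤ)) : SL(2, ℤ) ⧸ Γ)) = θ g := by
  have hs0 : sec ((1 : SL(2, ℤ)) : SL(2, ℤ) ⧸ Γ) ∈ Γ := by
    have h := QuotientGroup.eq.mp (hsec ((1 : SL(2, ℤ)) : SL(2, ℤ) ⧸ Γ))
    have h' := Γ.inv_mem h
    simpa using h'
  have hg : ck96_gam hsec (g : SL(2, ℤ)) ((1 : SL(2, ℤ)) : SL(2, ℤ) ⧸ Γ) =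
      (⟨_, hs0⟩ : Γ)⁻¹ * g * ⟨_, hs0⟩ := by
    apply Subtype.ext
    rw [ck96_gam_coe, ck96_base_fix]
    rfl
  rw [hg, hθ, hθ, ck96_hom_inv θ hθ]
  ring

/-- **Heisenberg lift (R1).** For `Γ ≤ SL(2, ℤ)` containing `-1`, a commutative ring `R` without
`2`- and `3`-torsion and additive maps `ν χ : Γ → R` there is `κ : Γ → R` with
`κ (g h) = κ g + κ h + ν g * χ h`. -/
theorem ck96_exists_kappa (hneg : (-1 : SL(2, ℤ)) ∈ Γ)
    (h2 : ∀ r : R, r + r = 0 → r = 0) (h3 : ∀ r : R, r + r + r = 0 → r = 0)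
    (ν χ : Γ → R) (hν : ∀ g h, ν (g * h) = ν g + ν h) (hχ : ∀ g h, χ (g * h) = χ g + χ h) :
    ∃ κ : Γ → R, ∀ g h, κ (g * h) = κ g + κ h + ν g * χ h := by
  obtain ⟨K, hK⟩ := ck96_exists_kappa_ext (ck96_isSection_out Γ) hneg h2 h3 ν χ hν hχ
  refine ⟨fun g => K g ((1 : SL(2, ℤ)) : SL(2, ℤ) ⧸ Γ), fun g h => ?_⟩
  simp only [Subgroup.coe_mul]
  rw [hK, ck96_base_fix, ck96_gam_base _ ν hν, ck96_gam_base _ χ hχ]

/-- **Transfer vanishing (R2).** For `Γ ≤ SL(2, ℤ)` of finite index containing `-1`, `R` without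
`2`- and `3`-torsion, an additive map `θ : Γ → R` and `g ∈ SL(2, ℤ)`:
`∑ x, θ (γ (g, x)) = 0`. For `g = T` this says that `θ` sums to zero over the cusps. -/
theorem ck96_transfer_zero [Fintype (SL(2, ℤ) ⧸ Γ)] {sec : SL(2, ℤ) ⧸ Γ → SL(2, ℤ)}
    (hsec : ck96_IsSection Γ sec) (hneg : (-1 : SL(2, ℤ)) ∈ Γ)
    (h2 : ∀ r : R, r + r = 0 → r = 0) (h3 : ∀ r : R, r + r + r = 0 → r = 0)
    (θ : Γ → R) (hθ : ∀ g h, θ (g * h) = θ g + θ h) (g : SL(2, ℤ)) :
    ∑ x : SL(2, ℤ) ⧸ Γ, θ (ck96_gam hsec g x) = 0 := by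
  classical
  have hmul : ∀ g h : SL(2, ℤ), ∑ x : SL(2, ℤ) ⧸ Γ, θ (ck96_gam hsec (g * h) x) =
      ∑ x : SL(2, ℤ) ⧸ Γ, θ (ck96_gam hsec g x) + ∑ x : SL(2, ℤ) ⧸ Γ, θ (ck96_gam hsec h x) := by
    intro g h
    have h1 : ∑ x : SL(2, ℤ) ⧸ Γ, θ (ck96_gam hsec g (h • x)) =
        ∑ x : SL(2, ℤ) ⧸ Γ, θ (ck96_gam hsec g x) :=
      Equiv.sum_comp (MulAction.toPerm h) (fun x => θ (ck96_gam hsec g x))
    rw [← h1, ← Finset.sum_add_distrib]
    refine Finset.sum_congr rfl fun x _ => ?_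
    rw [ck96_gam_mul, hθ]
  have hm : ∑ x : SL(2, ℤ) ⧸ Γ, θ (ck96_gam hsec (-1) x) = 0 := by
    refine Finset.sum_eq_zero fun x _ => ?_
    rw [ck96_gam_neg_one hsec hneg, ck96_hom_neg_one hneg h2 θ hθ]
  have h1 : ∑ x : SL(2, ℤ) ⧸ Γ, θ (ck96_gam hsec 1 x) = 0 := by
    refine Finset.sum_eq_zero fun x _ => ?_
    rw [ck96_gam_one, ck96_hom_one θ hθ]
  let V : SL(2, ℤ) →* Multiplicative R :=
    { toFun := fun g => Multiplicative.ofAdd (∑ x : SL(2, ℤ) ⧸ Γ, θ (ck96_gam hsec g x))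
      map_one' := by
        rw [h1]
        rfl
      map_mul' := fun g h => by
        rw [hmul]
        rfl }
  have hVS : ∑ x : SL(2, ℤ) ⧸ Γ, θ (ck96_gam hsec S x) = 0 := by
    apply h2
    rw [← hmul, ← sq, psl96_S_sq, hm]
  have hVU : ∑ x : SL(2, ℤ) ⧸ Γ, θ (ck96_gam hsec (S * T) x) = 0 := by
    apply h3
    rw [← hmul, ← hmul, ← pow_three', psl96_U_cube, hm]
  have hV : V = 1 := by
    apply psl96_hom_ext
    · show Multiplicative.ofAdd (∑ x : SL(2, ℤ) ⧸ Γ, θ (ck96_gam hsec S x)) = 1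
      rw [hVS]
      rfl
    · show Multiplicative.ofAdd (∑ x : SL(2, ℤ) ⧸ Γ, θ (ck96_gam hsec (S * T) x)) = 1
      rw [hVU]
      rfl
  have := DFunLike.congr_fun hV g
  exact this

end Kappa

end Fermat.Agent.S41
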