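/-
S41 / M3 (helper96): the bridge (D4a) between the intrinsic cap-product pairing
`L_Γ = ∑ over cusps c mod Γ of (χ (π_c) * pot c - κ (π_c))` (as in `CapTransfer77`) and the
Manin-model pairing
`B_T = ∑ x : SL(2, ℤ) ⧸ Γ, χ ((sec x)⁻¹ * S * sec (S • x)) *
  (pot ((sec x)⁻¹ • cinf) - pot ((sec x)⁻¹ • S • cinf))`:   `2 * L_Γ = B_T` (`br96_bridge`).
-/
import Mathlib
import Fermat.Agent.S41.PSL2Univ96
import Fermat.Agent.S41.CupKappa96
import Fermat.Agent.S41.CapTransfer77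

set_option autoImplicit false

open scoped MatrixGroups
open ModularGroup Matrix MulAction Function Subgroup

namespace Fermat.Agent.S41

/-! ### Cap-product data -/

section General

variable {G : Type*} [Group G] {Γ : Subgroup G} {C : Type*} [MulAction G C]
  {R : Type*} [CommRing R]

/-- Cap-product data on a subgroup `Γ`: `χ`, `ν` additive on `Γ`, `κ` a Heisenberg primitive of
`(ν, χ)` on `Γ`, and `pot` a potential with `ν`-part `ν`. -/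
structure br96_IsCap (Γ : Subgroup G) (χ ν κ : G → R) (pot : C → R) : Prop where
  /-- `χ` is additive on `Γ` -/
  chi_mul : ∀ a ∈ Γ, ∀ b ∈ Γ, χ (a * b) = χ a + χ b
  /-- `ν` is additive on `Γ` -/
  nu_mul : ∀ a ∈ Γ, ∀ b ∈ Γ, ν (a * b) = ν a + ν b
  /-- `κ` is a Heisenberg primitive -/
  kap_mul : ∀ a ∈ Γ, ∀ b ∈ Γ, κ (a * b) = κ a + κ b + ν a * χ b
  /-- `pot` is a potential -/
  pot_smul : ∀ a ∈ Γ, ∀ c : C, pot (a • c) = pot c + ν a

namespace br96_IsCap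

variable {χ ν κ : G → R} {pot : C → R}

theorem chi_one (h : br96_IsCap Γ χ ν κ pot) : χ 1 = 0 := by
  have := h.chi_mul 1 Γ.one_mem 1 Γ.one_mem
  rw [mul_one] at this
  linear_combination -this

theorem nu_one (h : br96_IsCap Γ χ ν κ pot) : ν 1 = 0 := by
  have := h.nu_mul 1 Γ.one_mem 1 Γ.one_mem
  rw [mul_one] at this
  linear_combination -this

theorem kap_one (h : br96_IsCap Γ χ ν κ pot) : κ 1 = 0 := by
  have := h.kap_mul 1 Γ.one_mem 1 Γ.one_mem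
  rw [mul_one, h.chi_one] at this
  linear_combination -this

theorem chi_inv (h : br96_IsCap Γ χ ν κ pot) {a : G} (ha : a ∈ Γ) : χ a⁻¹ = -χ a := by
  have := h.chi_mul a ha a⁻¹ (Γ.inv_mem ha)
  rw [mul_inv_cancel, h.chi_one] at this
  linear_combination -this

theorem nu_inv (h : br96_IsCap Γ χ ν κ pot) {a : G} (ha : a ∈ Γ) : ν a⁻¹ = -ν a := by
  have := h.nu_mul a ha a⁻¹ (Γ.inv_mem ha)
  rw [mul_inv_cancel, h.nu_one] at this
  linear_combination -this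

end br96_IsCap

/-! ### The cocycle of a section, with values in `G` -/

/-- The cocycle `g(g, x) = sec (g • x)⁻¹ * g * sec x` of a section, as an element of `G`. -/
def br96_g (sec : G ⧸ Γ → G) (g : G) (x : G ⧸ Γ) : G := (sec (g • x))⁻¹ * g * sec x

theorem br96_g_mem {sec : G ⧸ Γ → G} (hsec : ck96_IsSection Γ sec) (g : G) (x : G ⧸ Γ) :
    br96_g sec g x ∈ Γ := (ck96_gam hsec g x).2

theorem br96_g_mul (sec : G ⧸ Γ → G) (g h : G) (x : G ⧸ Γ) :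
    br96_g sec (g * h) x = br96_g sec g (h • x) * br96_g sec h x := by
  simp only [br96_g, mul_smul]
  group

theorem br96_g_one (sec : G ⧸ Γ → G) (x : G ⧸ Γ) : br96_g sec 1 x = 1 := by
  simp [br96_g]

variable {χ ν κ : G → R} {pot : C → R}

theorem br96_pot_sec {sec : G ⧸ Γ → G} (hsec : ck96_IsSection Γ sec)
    (h : br96_IsCap Γ χ ν κ pot) (g : G) (y : G ⧸ Γ) (c : C) :
    pot ((sec (g • y))⁻¹ • c) = pot ((sec y)⁻¹ • g⁻¹ • c) + ν (br96_g sec g y) := by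
  rw [← h.pot_smul _ (br96_g_mem hsec g y)]
  congr 1
  simp only [br96_g, smul_smul]
  congr 1
  group

/-- Telescoping along the orbit of `t`. -/
theorem br96_tele {sec : G ⧸ Γ → G} (hsec : ck96_IsSection Γ sec)
    (h : br96_IsCap Γ χ ν κ pot) (t : G) (cinf : C) (ht : t • cinf = cinf) (x : G ⧸ Γ) (n : ℕ) :
    ∑ i ∈ Finset.range n, (χ (br96_g sec t (t ^ i • x)) * pot ((sec (t • t ^ i • x))⁻¹ • cinf)
        - κ (br96_g sec t (t ^ i • x))) =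
      χ (br96_g sec (t ^ n) x) * pot ((sec (t ^ n • x))⁻¹ • cinf) - κ (br96_g sec (t ^ n) x) := by
  have ht' : t⁻¹ • cinf = cinf := by
    rw [inv_smul_eq_iff, ht]
  induction n with
  | zero =>
    simp [br96_g_one, h.chi_one, h.kap_one]
  | succ n ih =>
    rw [Finset.sum_range_succ, ih]
    have hmul : br96_g sec (t ^ (n + 1)) x = br96_g sec t (t ^ n • x) * br96_g sec (t ^ n) x := by
      rw [pow_succ', br96_g_mul]
    have hsm : t ^ (n + 1) • x = t • t ^ n • x := by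
      rw [pow_succ', mul_smul]
    have hpot := br96_pot_sec hsec h t (t ^ n • x) cinf
    rw [ht'] at hpot
    rw [hmul, hsm, h.kap_mul _ (br96_g_mem hsec _ _) _ (br96_g_mem hsec _ _),
      h.chi_mul _ (br96_g_mem hsec _ _) _ (br96_g_mem hsec _ _), hpot]
    ring

/-- The generator `sec x⁻¹ * t ^ (period of x) * sec x` attached to the `t`-orbit of `x`. -/
noncomputable def br96_pi (sec : G ⧸ Γ → G) (t : G) (x : G ⧸ Γ) : G :=
  (sec x)⁻¹ * t ^ minimalPeriod (t • ·) x * sec x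

theorem br96_pi_eq (sec : G ⧸ Γ → G) (t : G) (x : G ⧸ Γ) :
    br96_pi sec t x = br96_g sec (t ^ minimalPeriod (t • ·) x) x := by
  simp only [br96_pi, br96_g]
  rw [MulAction.pow_smul_eq_iff_minimalPeriod_dvd.mpr dvd_rfl]

/-- The sum over `G ⧸ Γ` of the `t`-summand is the sum over the `t`-orbits of the cusp
summand. -/
theorem br96_orbit_sum [Finite (G ⧸ Γ)] {sec : G ⧸ Γ → G} (hsec : ck96_IsSection Γ sec)
    (h : br96_IsCap Γ χ ν κ pot) (t : G) (cinf : C) (ht : t • cinf = cinf) :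
    ∑ᶠ x : G ⧸ Γ, (χ (br96_g sec t x) * pot ((sec (t • x))⁻¹ • cinf) - κ (br96_g sec t x)) =
      ∑ᶠ ω : orbitRel.Quotient (zpowers t) (G ⧸ Γ),
        (χ (br96_pi sec t ω.out) * pot ((sec ω.out)⁻¹ • cinf) - κ (br96_pi sec t ω.out)) := by
  classical
  cases nonempty_fintype (G ⧸ Γ)
  cases nonempty_fintype (orbitRel.Quotient (zpowers t) (G ⧸ Γ))
  rw [finsum_eq_sum_of_fintype, finsum_eq_sum_of_fintype]
  rw [← (quotientEquivSigmaZMod Γ t).symm.sum_comp, Fintype.sum_sigma]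
  refine Finset.sum_congr rfl fun ω _ => ?_
  simp only [quotientEquivSigmaZMod_symm_apply]
  rw [ct77_sum_zmod (minimalPeriod (t • ·) ω.out)
    (fun k => χ (br96_g sec t (t ^ k • ω.out)) * pot ((sec (t • t ^ k • ω.out))⁻¹ • cinf)
      - κ (br96_g sec t (t ^ k • ω.out)))]
  simp only [zpow_natCast]
  rw [br96_tele hsec h t cinf ht ω.out, ← br96_pi_eq,
    MulAction.pow_smul_eq_iff_minimalPeriod_dvd.mpr dvd_rfl]

/-- Invariance of the cusp summand `F c = χ (π c) * pot c - κ (π c)` under `Γ`. -/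
theorem br96_F_smul (h : br96_IsCap Γ χ ν κ pot) (π : C → G) (hπΓ : ∀ c, π c ∈ Γ)
    (hπ : ∀ c, π c • c = c) (hπe : ∀ k ∈ Γ, ∀ c, π (k • c) = k * π c * k⁻¹)
    (k : G) (hk : k ∈ Γ) (c : C) :
    χ (π (k • c)) * pot (k • c) - κ (π (k • c)) = χ (π c) * pot c - κ (π c) := by
  have hν0 : ν (π c) = 0 := by
    have := h.pot_smul _ (hπΓ c) c
    rw [hπ c] at this
    linear_combination -this
  have hk' : k⁻¹ ∈ Γ := Γ.inv_mem hk
  have h1 : κ (k * (π c * k⁻¹)) = κ k + κ (π c * k⁻¹) + ν k * χ (π c * k⁻¹) :=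
    h.kap_mul _ hk _ (Γ.mul_mem (hπΓ c) hk')
  have h2 : κ (π c * k⁻¹) = κ (π c) + κ k⁻¹ + ν (π c) * χ k⁻¹ := h.kap_mul _ (hπΓ c) _ hk'
  have h3 : κ (k * k⁻¹) = κ k + κ k⁻¹ + ν k * χ k⁻¹ := h.kap_mul _ hk _ hk'
  rw [mul_inv_cancel, h.kap_one, h.chi_inv hk] at h3
  have h5 : χ (π c * k⁻¹) = χ (π c) + χ k⁻¹ := h.chi_mul _ (hπΓ c) _ hk'
  have h4 : χ (k * (π c * k⁻¹)) = χ k + (χ (π c) + χ k⁻¹) := by
    rw [h.chi_mul _ hk _ (Γ.mul_mem (hπΓ c) hk'), h5]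
  rw [hπe k hk c, h.pot_smul k hk c, mul_assoc, h1, h2, h4, h5, hν0, h.chi_inv hk]
  linear_combination h3

/-- The sum of a `Γ`-invariant function over the `Γ`-orbits of cusps is a sum over the
`t`-orbits on `G ⧸ Γ`. -/
theorem br96_cusp_sum {sec : G ⧸ Γ → G} (hsec : ck96_IsSection Γ sec) (t : G) (cinf : C)
    (ht : t • cinf = cinf) (htrans : ∀ c : C, ∃ g : G, g • cinf = c)
    (hstab : ∀ g : G, g • cinf = cinf → ∃ k : ℤ, ∀ x : G ⧸ Γ, g • x = t ^ k • x)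
    (s : Setoid C) (hs : ∀ c c', s.r c c' ↔ ∃ γ ∈ Γ, γ • c = c')
    (F : C → R) (hF : ∀ γ ∈ Γ, ∀ c, F (γ • c) = F c) :
    ∑ᶠ o : Quotient s, F o.out =
      ∑ᶠ ω : orbitRel.Quotient (zpowers t) (G ⧸ Γ), F ((sec ω.out)⁻¹ • cinf) := by
  classical
  symm
  let Φ : orbitRel.Quotient (zpowers t) (G ⧸ Γ) → Quotient s :=
    fun ω => Quotient.mk s ((sec ω.out)⁻¹ • cinf)
  have hzpow : ∀ k : ℤ, t ^ k • cinf = cinf := by
    intro k
    have h1 : t ∈ MulAction.stabilizer G cinf := MulAction.mem_stabilizer_iff.mpr ht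
    exact MulAction.mem_stabilizer_iff.mp (Subgroup.zpow_mem _ h1 k)
  have hΦinj : Injective Φ := by
    intro ω ω' hωω
    have h1 : s.r ((sec ω.out)⁻¹ • cinf) ((sec ω'.out)⁻¹ • cinf) := Quotient.exact hωω
    obtain ⟨γ, hγ, hγc⟩ := (hs _ _).mp h1
    have hg : (sec ω'.out * γ * (sec ω.out)⁻¹) • cinf = cinf := by
      rw [mul_smul, mul_smul, hγc, smul_inv_smul]
    obtain ⟨k, hk⟩ := hstab _ hg
    have h2 : (sec ω'.out * γ * (sec ω.out)⁻¹) • ω.out = ω'.out := by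
      conv_lhs => rhs; rw [← hsec ω.out]
      conv_rhs => rw [← hsec ω'.out]
      rw [show (sec ω'.out * γ * (sec ω.out)⁻¹) • ((sec ω.out : G) : G ⧸ Γ)
        = ((sec ω'.out * γ * (sec ω.out)⁻¹ * sec ω.out : G) : G ⧸ Γ) from rfl]
      rw [QuotientGroup.eq]
      have := Γ.inv_mem hγ
      simpa [mul_assoc] using this
    rw [hk] at h2
    rw [← Quotient.out_eq' ω, ← Quotient.out_eq' ω']
    apply Quotient.sound'
    rw [orbitRel_apply, mem_orbit_iff]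
    refine ⟨⟨(t ^ k)⁻¹, Subgroup.inv_mem _ (zpow_mem (mem_zpowers _) k)⟩, ?_⟩
    change (t ^ k)⁻¹ • ω'.out = ω.out
    rw [← h2, inv_smul_smul]
  have hΦsurj : Surjective Φ := by
    intro o
    obtain ⟨g, hg⟩ := htrans o.out
    set ω : orbitRel.Quotient (zpowers t) (G ⧸ Γ) := Quotient.mk'' ((g⁻¹ : G) : G ⧸ Γ) with hω
    have h2 : (orbitRel (zpowers t) (G ⧸ Γ)) ω.out ((g⁻¹ : G) : G ⧸ Γ) := Quotient.mk_out' _
    rw [orbitRel_apply, mem_orbit_iff] at h2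
    obtain ⟨⟨z, hz⟩, hzg⟩ := h2
    change z • ((g⁻¹ : G) : G ⧸ Γ) = ω.out at hzg
    obtain ⟨k, rfl⟩ := mem_zpowers_iff.mp hz
    have h3 : ((sec ω.out : G) : G ⧸ Γ) = ((t ^ k * g⁻¹ : G) : G ⧸ Γ) := by
      rw [hsec, ← hzg]
      rfl
    rw [QuotientGroup.eq] at h3
    refine ⟨ω, ?_⟩
    rw [← Quotient.out_eq o]
    apply Quotient.sound
    apply s.symm
    apply (hs _ _).mpr
    refine ⟨_, h3, ?_⟩
    rw [mul_smul, mul_smul, ← hg, inv_smul_smul, hzpow]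
  refine finsum_eq_of_bijective Φ ⟨hΦinj, hΦsurj⟩ fun ω => ?_
  have h1 : s.r (Φ ω).out ((sec ω.out)⁻¹ • cinf) := Quotient.mk_out (s := s) _
  obtain ⟨γ, hγ, hγc⟩ := (hs _ _).mp h1
  rw [← hγc, hF γ hγ]

/-- `g * t ^ (period of g⁻¹ Γ under t) * g⁻¹ ∈ Γ`. -/
theorem br96_conj_mem (g t : G) :
    g * t ^ minimalPeriod (t • ·) ((g⁻¹ : G) : G ⧸ Γ) * g⁻¹ ∈ Γ := by
  have h1 : t ^ minimalPeriod (t • ·) ((g⁻¹ : G) : G ⧸ Γ) • ((g⁻¹ : G) : G ⧸ Γ)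
      = ((g⁻¹ : G) : G ⧸ Γ) := MulAction.pow_smul_eq_iff_minimalPeriod_dvd.mpr dvd_rfl
  rw [show t ^ minimalPeriod (t • ·) ((g⁻¹ : G) : G ⧸ Γ) • ((g⁻¹ : G) : G ⧸ Γ)
    = ((t ^ minimalPeriod (t • ·) ((g⁻¹ : G) : G ⧸ Γ) * g⁻¹ : G) : G ⧸ Γ) from rfl,
    QuotientGroup.eq] at h1
  have h2 := Γ.inv_mem h1
  simpa [mul_assoc] using h2

theorem br96_coset_inv_eq (g k : G) (hk : k ∈ Γ) :
    (((k * g)⁻¹ : G) : G ⧸ Γ) = ((g⁻¹ : G) : G ⧸ Γ) := by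
  rw [QuotientGroup.eq]
  simpa using hk

/-- the minimal period of the base coset under a conjugate. -/
theorem br96_minimalPeriod_conj (π a : G) :
    minimalPeriod ((a⁻¹ * π * a) • ·) ((1 : G) : G ⧸ Γ) = minimalPeriod (π • ·) ((a : G) : G ⧸ Γ) := by
  have key : ∀ n : ℕ, (a⁻¹ * π * a) ^ n • ((1 : G) : G ⧸ Γ) = ((1 : G) : G ⧸ Γ) ↔
      π ^ n • ((a : G) : G ⧸ Γ) = ((a : G) : G ⧸ Γ) := by
    intro n
    have hconj : (a⁻¹ * π * a) ^ n = a⁻¹ * π ^ n * a := by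
      have := conj_pow (a := a⁻¹) (b := π) (i := n)
      simpa using this
    rw [hconj]
    rw [show (a⁻¹ * π ^ n * a) • ((1 : G) : G ⧸ Γ) = ((a⁻¹ * π ^ n * a * 1 : G) : G ⧸ Γ) from rfl,
      show π ^ n • ((a : G) : G ⧸ Γ) = ((π ^ n * a : G) : G ⧸ Γ) from rfl,
      QuotientGroup.eq, QuotientGroup.eq]
    constructor
    · intro h
      simpa [mul_assoc] using h
    · intro h
      simpa [mul_assoc] using h
  apply Nat.dvd_antisymm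
  · rw [← MulAction.pow_smul_eq_iff_minimalPeriod_dvd, key]
    exact MulAction.pow_smul_eq_iff_minimalPeriod_dvd.mpr dvd_rfl
  · rw [← MulAction.pow_smul_eq_iff_minimalPeriod_dvd, ← key]
    exact MulAction.pow_smul_eq_iff_minimalPeriod_dvd.mpr dvd_rfl

/-- The normal form of `piΓ` used in `br96_bridge` follows from the description
`piΓ c = P c ^ (least power in Γ)`, `P (g • cinf) = g * t * g⁻¹` (the shape of `ct77_global`). -/
theorem br96_hpi_of_P (t : G) (cinf : C) (P piΓ : C → G) (hP : ∀ g : G, P (g • cinf) = g * t * g⁻¹)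
    (hpiH : ∀ c, piΓ c = P c ^ minimalPeriod (P c • ·) ((1 : G) : G ⧸ Γ)) (g : G) :
    piΓ (g • cinf) = g * t ^ minimalPeriod (t • ·) ((g⁻¹ : G) : G ⧸ Γ) * g⁻¹ := by
  rw [hpiH, hP]
  have h1 := br96_minimalPeriod_conj (Γ := Γ) t g⁻¹
  rw [inv_inv] at h1
  rw [h1, conj_pow]

end General

/-! ### The Manin-model formula for subgroups of `SL(2, ℤ)` -/

section SL2

variable {Γ : Subgroup SL(2, ℤ)} {C : Type*} [MulAction SL(2, ℤ) C] {R : Type*} [CommRing R]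
  {χ ν κ : SL(2, ℤ) → R} {pot : C → R}

theorem br96_g_neg_one {sec : SL(2, ℤ) ⧸ Γ → SL(2, ℤ)} (hsec : ck96_IsSection Γ sec)
    (hneg : (-1 : SL(2, ℤ)) ∈ Γ) (x : SL(2, ℤ) ⧸ Γ) : br96_g sec (-1) x = -1 :=
  congrArg Subtype.val (ck96_gam_neg_one hsec hneg x)

theorem br96_neg_one_vals (h : br96_IsCap Γ χ ν κ pot) (hneg : (-1 : SL(2, ℤ)) ∈ Γ)
    (h2 : ∀ r : R, r + r = 0 → r = 0) : χ (-1) = 0 ∧ ν (-1) = 0 ∧ κ (-1) = 0 := by
  have hmm : ((-1 : SL(2, ℤ)) * -1) = 1 := by simp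
  have e1 := h.chi_mul _ hneg _ hneg
  have e2 := h.nu_mul _ hneg _ hneg
  have e3 := h.kap_mul _ hneg _ hneg
  rw [hmm, h.chi_one] at e1
  rw [hmm, h.nu_one] at e2
  have hχ : χ (-1) = 0 := h2 _ e1.symm
  have hν : ν (-1) = 0 := h2 _ e2.symm
  rw [hmm, h.kap_one, hχ, hν] at e3
  refine ⟨hχ, hν, h2 _ ?_⟩
  linear_combination -e3

/-- **Manin-model formula**: for a section adapted to `U = S * T` (i.e. `ν` and `χ` vanish on
the `U`-cocycle), twice the `T`-sum is the Manin-model pairing. -/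
theorem br96_manin [Fintype (SL(2, ℤ) ⧸ Γ)] {sec : SL(2, ℤ) ⧸ Γ → SL(2, ℤ)}
    (hsec : ck96_IsSection Γ sec) (hneg : (-1 : SL(2, ℤ)) ∈ Γ)
    (h2 : ∀ r : R, r + r = 0 → r = 0) (h3 : ∀ r : R, r + r + r = 0 → r = 0)
    (h : br96_IsCap Γ χ ν κ pot) (cinf : C) (hnegC : (-1 : SL(2, ℤ)) • cinf = cinf)
    (hUν : ∀ x, ν (br96_g sec (S * T) x) = 0) (hUχ : ∀ x, χ (br96_g sec (S * T) x) = 0) :
    2 * ∑ x : SL(2, ℤ) ⧸ Γ,
        (χ (br96_g sec T x) * pot ((sec (T • x))⁻¹ • cinf) - κ (br96_g sec T x)) =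
      ∑ x : SL(2, ℤ) ⧸ Γ, χ ((sec x)⁻¹ * S * sec (S • x)) *
        (pot ((sec x)⁻¹ • cinf) - pot ((sec x)⁻¹ • S • cinf)) := by
  classical
  obtain ⟨hχm, hνm, hκm⟩ := br96_neg_one_vals h hneg h2
  obtain ⟨Cc, hCc⟩ : ∃ Cc : SL(2, ℤ) → SL(2, ℤ) ⧸ Γ → R, ∀ g x, Cc g x = χ (br96_g sec g x) :=
    ⟨_, fun _ _ => rfl⟩
  obtain ⟨Nn, hNn⟩ : ∃ Nn : SL(2, ℤ) → SL(2, ℤ) ⧸ Γ → R, ∀ g x, Nn g x = ν (br96_g sec g x) :=
    ⟨_, fun _ _ => rfl⟩
  obtain ⟨Kk, hKk⟩ : ∃ Kk : SL(2, ℤ) → SL(2, ℤ) ⧸ Γ → R, ∀ g x, Kk g x = κ (br96_g sec g x) :=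
    ⟨_, fun _ _ => rfl⟩
  obtain ⟨f, hf⟩ : ∃ f : SL(2, ℤ) ⧸ Γ → R, ∀ x, f x = pot ((sec x)⁻¹ • cinf) :=
    ⟨_, fun _ => rfl⟩
  obtain ⟨f0, hf0⟩ : ∃ f0 : SL(2, ℤ) ⧸ Γ → R, ∀ x, f0 x = pot ((sec x)⁻¹ • S • cinf) :=
    ⟨_, fun _ => rfl⟩
  have hCmul : ∀ g k x, Cc (g * k) x = Cc g (k • x) + Cc k x := fun g k x => by
    rw [hCc, hCc, hCc, br96_g_mul, h.chi_mul _ (br96_g_mem hsec _ _) _ (br96_g_mem hsec _ _)]
  have hNmul : ∀ g k x, Nn (g * k) x = Nn g (k • x) + Nn k x := fun g k x => by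
    rw [hNn, hNn, hNn, br96_g_mul, h.nu_mul _ (br96_g_mem hsec _ _) _ (br96_g_mem hsec _ _)]
  have hKmul : ∀ g k x, Kk (g * k) x = Kk g (k • x) + Kk k x + Nn g (k • x) * Cc k x :=
    fun g k x => by
      rw [hKk, hKk, hKk, hNn, hCc, br96_g_mul,
        h.kap_mul _ (br96_g_mem hsec _ _) _ (br96_g_mem hsec _ _)]
  have hCm : ∀ x, Cc (-1) x = 0 := fun x => by rw [hCc, br96_g_neg_one hsec hneg, hχm]
  have hNm : ∀ x, Nn (-1) x = 0 := fun x => by rw [hNn, br96_g_neg_one hsec hneg, hνm]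
  have hKm : ∀ x, Kk (-1) x = 0 := fun x => by rw [hKk, br96_g_neg_one hsec hneg, hκm]
  have hCU : ∀ x, Cc (S * T) x = 0 := fun x => by rw [hCc, hUχ]
  have hNU : ∀ x, Nn (S * T) x = 0 := fun x => by rw [hNn, hUν]
  have hS2 : (S * S : SL(2, ℤ)) = -1 := by
    rw [← sq]
    exact psl96_S_sq
  have hU3 : ((S * T) * (S * T) * (S * T) : SL(2, ℤ)) = -1 := by
    rw [← pow_three']
    exact psl96_U_cube
  have hSS : ∀ x : SL(2, ℤ) ⧸ Γ, S • S • x = x := fun x => by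
    rw [← mul_smul, hS2, ck96_neg_one_smul Γ hneg]
  have hTeq : (T : SL(2, ℤ)) = -1 * (S * (S * T)) := by
    rw [← mul_assoc S S T, hS2]
    simp
  have hCT : ∀ x, Cc T x = Cc S ((S * T) • x) := fun x => by
    have e1 := hCmul (-1) (S * (S * T)) x
    rw [← hTeq, hCm, hCmul S (S * T) x, hCU x] at e1
    linear_combination e1
  have hKT : ∀ x, Kk T x = Kk S ((S * T) • x) + Kk (S * T) x := fun x => by
    have e1 := hKmul (-1) (S * (S * T)) x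
    rw [← hTeq, hKm, hNm, hKmul S (S * T) x, hCU x] at e1
    linear_combination e1
  have hTsm : ∀ x : SL(2, ℤ) ⧸ Γ, T • x = S • (S * T) • x := fun x => by
    conv_lhs => rw [hTeq]
    rw [mul_smul, mul_smul, ck96_neg_one_smul Γ hneg]
  -- the `U`-sum vanishes
  have hKU0 : ∑ x : SL(2, ℤ) ⧸ Γ, Kk (S * T) x = 0 := by
    apply h3
    have hpt : ∀ x, Kk (S * T) ((S * T) • (S * T) • x) + Kk (S * T) ((S * T) • x)
        + Kk (S * T) x = 0 := fun x => by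
      have e := hKmul ((S * T) * (S * T)) (S * T) x
      rw [hU3, hKm, hKmul (S * T) (S * T) ((S * T) • x), hCU, hCU] at e
      linear_combination -e
    have e1 : ∑ x : SL(2, ℤ) ⧸ Γ, Kk (S * T) ((S * T) • x) = ∑ x : SL(2, ℤ) ⧸ Γ, Kk (S * T) x :=
      Equiv.sum_comp (MulAction.toPerm (S * T)) (fun x => Kk (S * T) x)
    have e2 : ∑ x : SL(2, ℤ) ⧸ Γ, Kk (S * T) ((S * T) • (S * T) • x)
        = ∑ x : SL(2, ℤ) ⧸ Γ, Kk (S * T) ((S * T) • x) :=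
      Equiv.sum_comp (MulAction.toPerm (S * T)) (fun x => Kk (S * T) ((S * T) • x))
    have e3 : ∑ x : SL(2, ℤ) ⧸ Γ, (Kk (S * T) ((S * T) • (S * T) • x) + Kk (S * T) ((S * T) • x)
        + Kk (S * T) x) = 0 := Finset.sum_eq_zero fun x _ => hpt x
    rw [Finset.sum_add_distrib, Finset.sum_add_distrib, e2, e1] at e3
    exact e3
  -- step (iii)
  have hL : ∑ x : SL(2, ℤ) ⧸ Γ, (Cc T x * f (T • x) - Kk T x)
      = ∑ y : SL(2, ℤ) ⧸ Γ, Cc S y * f (S • y) - ∑ y : SL(2, ℤ) ⧸ Γ, Kk S y := by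
    have e1 : ∑ x : SL(2, ℤ) ⧸ Γ, (Cc T x * f (T • x) - Kk T x)
        = ∑ x : SL(2, ℤ) ⧸ Γ, (Cc S ((S * T) • x) * f (S • (S * T) • x) - Kk S ((S * T) • x))
          - ∑ x : SL(2, ℤ) ⧸ Γ, Kk (S * T) x := by
      rw [← Finset.sum_sub_distrib]
      refine Finset.sum_congr rfl fun x _ => ?_
      rw [hCT, hKT, hTsm]
      ring
    have e2 : ∑ x : SL(2, ℤ) ⧸ Γ, (Cc S ((S * T) • x) * f (S • (S * T) • x) - Kk S ((S * T) • x))
        = ∑ y : SL(2, ℤ) ⧸ Γ, (Cc S y * f (S • y) - Kk S y) :=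
      Equiv.sum_comp (MulAction.toPerm (S * T)) (fun y => Cc S y * f (S • y) - Kk S y)
    rw [e1, e2, hKU0, sub_zero, Finset.sum_sub_distrib]
  -- pointwise facts for `S`
  have hCS : ∀ y, Cc S (S • y) = -Cc S y := fun y => by
    have e := hCmul S S y
    rw [hS2, hCm] at e
    linear_combination -e
  have hSinv : (S : SL(2, ℤ))⁻¹ • cinf = S • cinf := by
    rw [inv_smul_eq_iff, ← mul_smul, hS2, hnegC]
  have hNS : ∀ y, Nn S (S • y) = f y - f0 (S • y) := fun y => by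
    have e := br96_pot_sec hsec h S (S • y) cinf
    rw [hSS y, hSinv, ← hf, ← hf0, ← hNn] at e
    linear_combination -e
  have hKS : ∀ y, Kk S (S • y) + Kk S y + Nn S (S • y) * Cc S y = 0 := fun y => by
    have e := hKmul S S y
    rw [hS2, hKm] at e
    linear_combination -e
  -- the sums
  have eA : ∑ y : SL(2, ℤ) ⧸ Γ, Cc S y * f (S • y) = ∑ y : SL(2, ℤ) ⧸ Γ, Cc S (S • y) * f y := by
    have e := Equiv.sum_comp (MulAction.toPerm (S : SL(2, ℤ)))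
      (fun y : SL(2, ℤ) ⧸ Γ => Cc S (S • y) * f y)
    rw [← e]
    refine Finset.sum_congr rfl fun y _ => ?_
    simp only [MulAction.toPerm_apply, hSS]
  have eB : ∑ y : SL(2, ℤ) ⧸ Γ, f0 (S • y) * Cc S y = ∑ y : SL(2, ℤ) ⧸ Γ, Cc S (S • y) * f0 y := by
    have e := Equiv.sum_comp (MulAction.toPerm (S : SL(2, ℤ)))
      (fun y : SL(2, ℤ) ⧸ Γ => Cc S (S • y) * f0 y)
    rw [← e]
    refine Finset.sum_congr rfl fun y _ => ?_
    simp only [MulAction.toPerm_apply, hSS]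
    ring
  have eK1 : ∑ y : SL(2, ℤ) ⧸ Γ, Kk S (S • y) = ∑ y : SL(2, ℤ) ⧸ Γ, Kk S y :=
    Equiv.sum_comp (MulAction.toPerm (S : SL(2, ℤ))) (fun y => Kk S y)
  have eK : ∑ y : SL(2, ℤ) ⧸ Γ, Kk S y + ∑ y : SL(2, ℤ) ⧸ Γ, Kk S y
      = ∑ y : SL(2, ℤ) ⧸ Γ, Cc S (S • y) * f y + ∑ y : SL(2, ℤ) ⧸ Γ, Cc S (S • y) * f0 y := by
    have e3 : ∑ y : SL(2, ℤ) ⧸ Γ, (Kk S (S • y) + Kk S y + Nn S (S • y) * Cc S y) = 0 :=
      Finset.sum_eq_zero fun y _ => hKS y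
    rw [Finset.sum_add_distrib, Finset.sum_add_distrib, eK1] at e3
    have e4 : ∑ y : SL(2, ℤ) ⧸ Γ, Nn S (S • y) * Cc S y
        = -∑ y : SL(2, ℤ) ⧸ Γ, Cc S (S • y) * f y - ∑ y : SL(2, ℤ) ⧸ Γ, f0 (S • y) * Cc S y := by
      rw [← Finset.sum_neg_distrib, ← Finset.sum_sub_distrib]
      refine Finset.sum_congr rfl fun y _ => ?_
      rw [hNS, hCS]
      ring
    rw [e4, eB] at e3
    linear_combination e3
  have hR : ∀ x, χ ((sec x)⁻¹ * S * sec (S • x)) = Cc S (S • x) := fun x => by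
    rw [hCc, br96_g, hSS]
  simp only [← hCc, ← hKk, ← hf, ← hf0, hR]
  rw [hL, eA]
  have eR : ∑ x : SL(2, ℤ) ⧸ Γ, Cc S (S • x) * (f x - f0 x)
      = ∑ y : SL(2, ℤ) ⧸ Γ, Cc S (S • y) * f y - ∑ y : SL(2, ℤ) ⧸ Γ, Cc S (S • y) * f0 y := by
    rw [← Finset.sum_sub_distrib]
    refine Finset.sum_congr rfl fun y _ => ?_
    ring
  rw [eR]
  linear_combination -eK

/-- **The bridge (D4a)**: twice the intrinsic cap-product pairing (sum over the `Γ`-orbits of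
cusps of `χ (π_c) * pot c - κ (π_c)`) is the Manin-model pairing, for every Heisenberg primitive
`κ`, every potential and every section adapted to `U = S * T`. -/
theorem br96_bridge [Finite (SL(2, ℤ) ⧸ Γ)] {sec : SL(2, ℤ) ⧸ Γ → SL(2, ℤ)}
    (hsec : ck96_IsSection Γ sec) (hneg : (-1 : SL(2, ℤ)) ∈ Γ)
    (h2 : ∀ r : R, r + r = 0 → r = 0) (h3 : ∀ r : R, r + r + r = 0 → r = 0)
    (h : br96_IsCap Γ χ ν κ pot) (cinf : C) (hT : (T : SL(2, ℤ)) • cinf = cinf)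
    (hnegC : (-1 : SL(2, ℤ)) • cinf = cinf)
    (htrans : ∀ c : C, ∃ g : SL(2, ℤ), g • cinf = c)
    (hstab : ∀ g : SL(2, ℤ), g • cinf = cinf → ∃ k : ℤ, g = T ^ k ∨ g = -T ^ k)
    (hUν : ∀ x, ν (br96_g sec (S * T) x) = 0) (hUχ : ∀ x, χ (br96_g sec (S * T) x) = 0)
    (piΓ : C → SL(2, ℤ))
    (hpi : ∀ g : SL(2, ℤ), piΓ (g • cinf) =
      g * T ^ minimalPeriod ((T : SL(2, ℤ)) • ·) ((g⁻¹ : SL(2, ℤ)) : SL(2, ℤ) ⧸ Γ) * g⁻¹)
    (s : Setoid C) (hs : ∀ c c', s.r c c' ↔ ∃ γ ∈ Γ, γ • c = c') :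
    2 * ∑ᶠ o : Quotient s, (χ (piΓ o.out) * pot o.out - κ (piΓ o.out)) =
      ∑ᶠ x : SL(2, ℤ) ⧸ Γ, χ ((sec x)⁻¹ * S * sec (S • x)) *
        (pot ((sec x)⁻¹ • cinf) - pot ((sec x)⁻¹ • S • cinf)) := by
  classical
  have hTpow : ∀ n : ℕ, (T : SL(2, ℤ)) ^ n • cinf = cinf := by
    intro n
    induction n with
    | zero => simp
    | succ n ih => rw [pow_succ, mul_smul, hT, ih]
  have hπΓ : ∀ c, piΓ c ∈ Γ := by
    intro c
    obtain ⟨g, rfl⟩ := htrans c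
    rw [hpi]
    exact br96_conj_mem g T
  have hπfix : ∀ c, piΓ c • c = c := by
    intro c
    obtain ⟨g, rfl⟩ := htrans c
    rw [hpi, ← mul_smul, inv_mul_cancel_right, mul_smul, hTpow]
  have hπe : ∀ k ∈ Γ, ∀ c, piΓ (k • c) = k * piΓ c * k⁻¹ := by
    intro k hk c
    obtain ⟨g, rfl⟩ := htrans c
    rw [← mul_smul, hpi, hpi, br96_coset_inv_eq g k hk]
    group
  have hF : ∀ γ ∈ Γ, ∀ c, χ (piΓ (γ • c)) * pot (γ • c) - κ (piΓ (γ • c))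
      = χ (piΓ c) * pot c - κ (piΓ c) := fun γ hγ c =>
    br96_F_smul h piΓ hπΓ hπfix hπe γ hγ c
  have hstab' : ∀ g : SL(2, ℤ), g • cinf = cinf →
      ∃ k : ℤ, ∀ x : SL(2, ℤ) ⧸ Γ, g • x = (T : SL(2, ℤ)) ^ k • x := by
    intro g hg
    obtain ⟨k, hk | hk⟩ := hstab g hg
    · exact ⟨k, fun x => by rw [hk]⟩
    · refine ⟨k, fun x => ?_⟩
      rw [hk, ← neg_one_mul, mul_smul, ck96_neg_one_smul Γ hneg]
  have hpiω : ∀ x, piΓ ((sec x)⁻¹ • cinf) = br96_pi sec T x := fun x => by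
    rw [hpi, inv_inv, hsec x]
    rfl
  rw [br96_cusp_sum hsec T cinf hT htrans hstab' s hs
    (fun c => χ (piΓ c) * pot c - κ (piΓ c)) hF]
  simp only [hpiω]
  rw [← br96_orbit_sum hsec h T cinf hT]
  cases nonempty_fintype (SL(2, ℤ) ⧸ Γ)
  rw [finsum_eq_sum_of_fintype, finsum_eq_sum_of_fintype]
  exact br96_manin hsec hneg h2 h3 h cinf hnegC hUν hUχ

/-- `br96_bridge` for the orbit relation of `Γ`. -/
theorem br96_bridge_orbitRel [Finite (SL(2, ℤ) ⧸ Γ)] {sec : SL(2, ℤ) ⧸ Γ → SL(2, ℤ)}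
    (hsec : ck96_IsSection Γ sec) (hneg : (-1 : SL(2, ℤ)) ∈ Γ)
    (h2 : ∀ r : R, r + r = 0 → r = 0) (h3 : ∀ r : R, r + r + r = 0 → r = 0)
    (h : br96_IsCap Γ χ ν κ pot) (cinf : C) (hT : (T : SL(2, ℤ)) • cinf = cinf)
    (hnegC : (-1 : SL(2, ℤ)) • cinf = cinf)
    (htrans : ∀ c : C, ∃ g : SL(2, ℤ), g • cinf = c)
    (hstab : ∀ g : SL(2, ℤ), g • cinf = cinf → ∃ k : ℤ, g = T ^ k ∨ g = -T ^ k)
    (hUν : ∀ x, ν (br96_g sec (S * T) x) = 0) (hUχ : ∀ x, χ (br96_g sec (S * T) x) = 0)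
    (piΓ : C → SL(2, ℤ))
    (hpi : ∀ g : SL(2, ℤ), piΓ (g • cinf) =
      g * T ^ minimalPeriod ((T : SL(2, ℤ)) • ·) ((g⁻¹ : SL(2, ℤ)) : SL(2, ℤ) ⧸ Γ) * g⁻¹) :
    2 * ∑ᶠ o : orbitRel.Quotient Γ C, (χ (piΓ o.out) * pot o.out - κ (piΓ o.out)) =
      ∑ᶠ x : SL(2, ℤ) ⧸ Γ, χ ((sec x)⁻¹ * S * sec (S • x)) *
        (pot ((sec x)⁻¹ • cinf) - pot ((sec x)⁻¹ • S • cinf)) := by
  refine br96_bridge hsec hneg h2 h3 h cinf hT hnegC htrans hstab hUν hUχ piΓ hpi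
    (orbitRel Γ C) fun c c' => ?_
  change c ∈ orbit Γ c' ↔ _
  rw [mem_orbit_iff]
  constructor
  · rintro ⟨⟨γ, hγ⟩, hγc⟩
    refine ⟨γ⁻¹, Γ.inv_mem hγ, ?_⟩
    rw [← hγc]
    exact inv_smul_smul γ c'
  · rintro ⟨γ, hγ, hγc⟩
    refine ⟨⟨γ⁻¹, Γ.inv_mem hγ⟩, ?_⟩
    rw [← hγc]
    exact inv_smul_smul γ c

/-- For a section adapted to `U = S * T` (`sec (U • x) = ± U * sec x` whenever `U • x ≠ x`), `ν`
and `χ` vanish on the `U`-cocycle. -/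
theorem br96_U_adapted {sec : SL(2, ℤ) ⧸ Γ → SL(2, ℤ)} (hsec : ck96_IsSection Γ sec)
    (hneg : (-1 : SL(2, ℤ)) ∈ Γ)
    (h2 : ∀ r : R, r + r = 0 → r = 0) (h3 : ∀ r : R, r + r + r = 0 → r = 0)
    (h : br96_IsCap Γ χ ν κ pot)
    (hrep : ∀ x : SL(2, ℤ) ⧸ Γ, (S * T : SL(2, ℤ)) • x ≠ x →
      sec ((S * T : SL(2, ℤ)) • x) = (S * T) * sec x ∨
      sec ((S * T : SL(2, ℤ)) • x) = -((S * T) * sec x)) (x : SL(2, ℤ) ⧸ Γ) :
    ν (br96_g sec (S * T) x) = 0 ∧ χ (br96_g sec (S * T) x) = 0 := by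
  obtain ⟨hχm, hνm, -⟩ := br96_neg_one_vals h hneg h2
  by_cases hx : (S * T : SL(2, ℤ)) • x = x
  · have hmem := br96_g_mem hsec (S * T) x
    have hcube : br96_g sec (S * T) x * br96_g sec (S * T) x * br96_g sec (S * T) x = -1 := by
      have hU3 : ((S * T) * (S * T) * (S * T) : SL(2, ℤ)) = -1 := by
        rw [← pow_three']
        exact psl96_U_cube
      simp only [br96_g, hx]
      have : (sec x)⁻¹ * (S * T) * sec x * ((sec x)⁻¹ * (S * T) * sec x) *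
          ((sec x)⁻¹ * (S * T) * sec x) = (sec x)⁻¹ * ((S * T) * (S * T) * (S * T)) * sec x := by
        group
      rw [this, hU3]
      simp
    constructor
    · apply h3
      rw [← h.nu_mul _ hmem _ hmem, ← h.nu_mul _ (Γ.mul_mem hmem hmem) _ hmem, hcube, hνm]
    · apply h3
      rw [← h.chi_mul _ hmem _ hmem, ← h.chi_mul _ (Γ.mul_mem hmem hmem) _ hmem, hcube, hχm]
  · rcases hrep x hx with hr | hr
    · have : br96_g sec (S * T) x = 1 := by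
        simp only [br96_g, hr]
        group
      rw [this, h.nu_one, h.chi_one]
      exact ⟨rfl, rfl⟩
    · have : br96_g sec (S * T) x = -1 := by
        simp only [br96_g, hr]
        rw [inv_neg, neg_mul, neg_mul, mul_assoc, inv_mul_cancel]
      rw [this, hνm, hχm]
      exact ⟨rfl, rfl⟩

end SL2

end Fermat.Agent.S41
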