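/-
S41 / M3 (D2'): the second adjunction `L_G(cores χ', φ) = L_H(χ', res φ)` for the algebraic
cap-product pairing, and setoid-general forms of the orbit bookkeeping (abstract group theory,
Mathlib + `CapTransfer77` only).

Setting as in `CapTransfer77`: `G` a group, `H` a subgroup with `G ⧸ H` finite, `X` a `G`-set.
Here the symbol is `G`-invariant (potential `pot` with `pot (g • a) = pot a + ν g` for ALL `g`),
and the character `χ'` is only additive on `H`.
-/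
import Mathlib
import Fermat.Agent.S41.CapTransfer77

set_option autoImplicit false

namespace Fermat.Agent.S41

open MulAction Subgroup Function

section CapCores

variable {G : Type*} [Group G] (H : Subgroup G) {X : Type*} [MulAction G X]
  {R : Type*} [CommRing R]

/-! ### Orbit bookkeeping, for arbitrary presentations of the orbit spaces -/

/-- **Orbit decomposition.** `sH`, `sG` are the orbit relations of `H` and `G` on `X` (in any
presentation), `piG c` fixes `c` and generates the stabiliser of `c` as far as its orbits on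
`G ⧸ H` are concerned. Then an `H`-invariant function summed over `H`-orbits is the double sum over
`G`-orbits `o` and `⟨piG o⟩`-orbits on `G ⧸ H`. -/
theorem ct77_sum_orbits [Finite (G ⧸ H)] (sH sG : Setoid X)
    (hsH : ∀ c c', sH.r c c' ↔ ∃ h ∈ H, h • c = c')
    (hsG : ∀ c c', sG.r c c' ↔ ∃ g : G, g • c = c') [Finite (Quotient sG)]
    (piG : X → G) (hfix : ∀ c, piG c • c = c)
    (hstab : ∀ c (g : G), g • c = c → ∀ q : G ⧸ H, ∃ k : ℤ, g • q = piG c ^ k • q)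
    (f : X → R) (hf : ∀ k ∈ H, ∀ c, f (k • c) = f c) :
    ∑ᶠ o : Quotient sH, f o.out =
      ∑ᶠ o : Quotient sG, ∑ᶠ ω : orbitRel.Quotient (zpowers (piG o.out)) (G ⧸ H),
        f (ω.out.out⁻¹ • o.out) := by
  classical
  let Φ : (Σ o : Quotient sG, orbitRel.Quotient (zpowers (piG o.out)) (G ⧸ H)) →
      Quotient sH := fun x => Quotient.mk sH (x.2.out.out⁻¹ • x.1.out)
  have hpowfix : ∀ (c : X) (k : ℤ), piG c ^ k • c = c := by
    intro c k
    have h1 : ∀ m : ℕ, piG c ^ m • c = c := by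
      intro m
      induction m with
      | zero => simp
      | succ m ihm => rw [pow_succ, mul_smul, hfix, ihm]
    cases k with
    | ofNat m => simpa using h1 m
    | negSucc m =>
      rw [zpow_negSucc, inv_smul_eq_iff, h1]
  have hΦinj : Function.Injective Φ := by
    rintro ⟨o, ω⟩ ⟨o', ω'⟩ h
    have h1 : sH.r (ω.out.out⁻¹ • o.out) (ω'.out.out⁻¹ • o'.out) := Quotient.exact h
    rw [hsH] at h1
    obtain ⟨h0, hh0, hh⟩ := h1
    have hoo : o = o' := by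
      rw [← Quotient.out_eq o, ← Quotient.out_eq o']
      apply Quotient.sound
      change sG.r _ _
      rw [hsG]
      refine ⟨ω'.out.out * h0 * ω.out.out⁻¹, ?_⟩
      rw [mul_smul, mul_smul, hh, smul_inv_smul]
    subst hoo
    have hg : (ω'.out.out * h0 * ω.out.out⁻¹) • o.out = o.out := by
      rw [mul_smul, mul_smul, hh, smul_inv_smul]
    obtain ⟨k, hk⟩ := hstab o.out _ hg ω.out
    have h2 : (ω'.out.out * h0 * ω.out.out⁻¹) • ω.out = ω'.out := by
      conv_lhs => rhs; rw [← QuotientGroup.out_eq' ω.out]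
      conv_rhs => rw [← QuotientGroup.out_eq' ω'.out]
      rw [show (ω'.out.out * h0 * ω.out.out⁻¹) • ((ω.out.out : G) : G ⧸ H)
        = ((ω'.out.out * h0 * ω.out.out⁻¹ * ω.out.out : G) : G ⧸ H) from rfl]
      rw [QuotientGroup.eq]
      have := H.inv_mem hh0
      simpa [mul_assoc] using this
    have h3 : ω' = ω := by
      rw [← Quotient.out_eq' ω, ← Quotient.out_eq' ω']
      apply Quotient.sound'
      rw [orbitRel_apply, mem_orbit_iff]
      refine ⟨⟨piG o.out ^ k, zpow_mem (mem_zpowers _) k⟩, ?_⟩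
      change piG o.out ^ k • ω.out = ω'.out
      rw [← hk, h2]
    rw [h3]
  have hΦsurj : Function.Surjective Φ := by
    intro o'
    set x := o'.out with hx
    set o : Quotient sG := Quotient.mk sG x with ho
    have h1 : sG.r o.out x := Quotient.mk_out (s := sG) x
    rw [hsG] at h1
    obtain ⟨g, hg⟩ := h1
    -- hg : g • o.out = x
    set ω : orbitRel.Quotient (zpowers (piG o.out)) (G ⧸ H) :=
      Quotient.mk'' ((g⁻¹ : G) : G ⧸ H) with hω
    have h2 : (orbitRel (zpowers (piG o.out)) (G ⧸ H)) ω.out ((g⁻¹ : G) : G ⧸ H) :=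
      Quotient.mk_out' _
    rw [orbitRel_apply, mem_orbit_iff] at h2
    obtain ⟨⟨z, hz⟩, hzg⟩ := h2
    change z • ((g⁻¹ : G) : G ⧸ H) = ω.out at hzg
    obtain ⟨k, rfl⟩ := mem_zpowers_iff.mp hz
    have h3 : ((piG o.out ^ k * g⁻¹ : G) : G ⧸ H) = ((ω.out.out : G) : G ⧸ H) := by
      rw [QuotientGroup.out_eq', ← hzg]
      rfl
    rw [QuotientGroup.eq] at h3
    refine ⟨⟨o, ω⟩, ?_⟩
    rw [← Quotient.out_eq o']
    apply Quotient.sound
    change sH.r _ _
    rw [hsH]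
    refine ⟨_, h3, ?_⟩
    change ((piG o.out ^ k * g⁻¹)⁻¹ * ω.out.out) • (ω.out.out⁻¹ • o.out) = o'.out
    rw [← hx, ← hg, smul_smul]
    have h4 : (piG o.out ^ k * g⁻¹)⁻¹ * ω.out.out * ω.out.out⁻¹ = g * (piG o.out ^ k)⁻¹ := by
      group
    rw [h4, mul_smul, inv_smul_eq_iff.mpr (hpowfix o.out k).symm]
  cases nonempty_fintype (Quotient sG)
  let _ : ∀ o : Quotient sG,
      Fintype (orbitRel.Quotient (zpowers (piG o.out)) (G ⧸ H)) := fun o => Fintype.ofFinite _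
  have : Finite (Quotient sH) := Finite.of_surjective Φ hΦsurj
  cases nonempty_fintype (Quotient sH)
  simp only [finsum_eq_sum_of_fintype]
  rw [← Fintype.sum_sigma']
  symm
  refine Fintype.sum_bijective Φ ⟨hΦinj, hΦsurj⟩ _ _ fun x => ?_
  have h1 : sH.r (Φ x).out (x.2.out.out⁻¹ • x.1.out) := Quotient.mk_out (s := sH) _
  rw [hsH] at h1
  obtain ⟨h0, hh0, hh⟩ := h1
  rw [← hh]
  exact hf h0 hh0 _


/-! ### (D2) in setoid-general form -/

section D2

variable {χ ν κ : G → R} {pot : X → R}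

/-- (D2), GLOBAL FORM for arbitrary presentations of the two orbit spaces:
`L_H(χ|H, φ) = L_G(χ, tr φ)`. -/
theorem ct77_global_setoid [Finite (G ⧸ H)] (sH sG : Setoid X)
    (hsH : ∀ c c', sH.r c c' ↔ ∃ h ∈ H, h • c = c')
    (hsG : ∀ c c', sG.r c c' ↔ ∃ g : G, g • c = c') [Finite (Quotient sG)]
    (hχ : ∀ g g', χ (g * g') = χ g + χ g')
    (hpot : ∀ h ∈ H, ∀ a, pot (h • a) = pot a + ν h)
    (hν : ∀ x ∈ H, ∀ y ∈ H, ν (x * y) = ν x + ν y)
    (hκ : ∀ x ∈ H, ∀ y ∈ H, κ (x * y) = κ x + κ y + ν x * χ y)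
    (piG : X → G) (hfix : ∀ c, piG c • c = c) (hequiv : ∀ g c, piG (g • c) = g * piG c * g⁻¹)
    (hstab : ∀ c (g : G), g • c = c → ∀ q : G ⧸ H, ∃ k : ℤ, g • q = piG c ^ k • q)
    (piH : X → G) (hpiH : ∀ c, piH c = piG c ^ minimalPeriod (piG c • ·) ((1 : G) : G ⧸ H)) :
    ∑ᶠ o : Quotient sH, (χ (piH o.out) * pot o.out - κ (piH o.out)) =
      ∑ᶠ o : Quotient sG,
        (χ (piG o.out) * ct77_potTr H pot o.out - ct77_kapG H χ ν κ (piG o.out)) := by
  have hFH_inv : ∀ k ∈ H, ∀ c, χ (piH (k • c)) * pot (k • c) - κ (piH (k • c)) =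
      χ (piH c) * pot c - κ (piH c) := fun k hk c =>
    ct77_F_smul H hχ hpot hκ piH (ct77_piH_mem H piG piH hpiH) (ct77_piH_fix H piG piH hfix hpiH)
      (ct77_piH_equiv H piG piH hequiv hpiH) k hk c
  rw [ct77_sum_orbits H sH sG hsH hsG piG hfix hstab
    (fun c => χ (piH c) * pot c - κ (piH c)) hFH_inv]
  refine finsum_congr fun o => ?_
  rw [ct77_local H hχ hpot hν hκ (piG o.out) o.out (hfix o.out)]
  refine finsum_congr fun ω => ?_
  simp only [ct77_eta_eq_piH H piG hequiv piH hpiH]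

end D2

/-! ### (D2'): corestriction of the character against restriction of the symbol -/

section D2'

variable {χ' ν κ : G → R} {pot : X → R}

/-- The transfer `ct77_nuTr` of a map additive on `H` is additive on `G`. -/
theorem ct77_nuTr_mul [Finite (G ⧸ H)] (hχ' : ∀ x ∈ H, ∀ y ∈ H, χ' (x * y) = χ' x + χ' y)
    (g g' : G) : ct77_nuTr H χ' (g * g') = ct77_nuTr H χ' g + ct77_nuTr H χ' g' := by
  classical
  cases nonempty_fintype (G ⧸ H)
  simp only [ct77_nuTr, finsum_eq_sum_of_fintype]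
  rw [← Equiv.sum_comp (MulAction.toPerm g' : G ⧸ H ≃ G ⧸ H) (fun q => χ' (ct77_h H g q))]
  rw [← Finset.sum_add_distrib]
  refine Finset.sum_congr rfl fun q _ => ?_
  simp only [MulAction.toPerm_apply]
  rw [ct77_h_mul, hχ' _ (ct77_h_mem H g _) _ (ct77_h_mem H g' q)]

/-- The Heisenberg lift on `G` for the pair `(ν, cores χ')`. -/
noncomputable def ct77_kapC (ν χ' κ : G → R) (g : G) : R :=
  ct77_nuTr H χ' g * ν g - ct77_kapG H ν χ' (fun x => ν x * χ' x - κ x) g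

/-- the swapped Heisenberg equation for `κ~ = ν χ' - κ`. -/
lemma ct77_swap (hνG : ∀ g g', ν (g * g') = ν g + ν g')
    (hχ' : ∀ x ∈ H, ∀ y ∈ H, χ' (x * y) = χ' x + χ' y)
    (hκ : ∀ x ∈ H, ∀ y ∈ H, κ (x * y) = κ x + κ y + ν x * χ' y) :
    ∀ x ∈ H, ∀ y ∈ H, (fun x => ν x * χ' x - κ x) (x * y) =
      (fun x => ν x * χ' x - κ x) x + (fun x => ν x * χ' x - κ x) y + χ' x * ν y := by
  intro x hx y hy
  simp only
  rw [hνG, hχ' x hx y hy, hκ x hx y hy]
  ring

/-- (2') the Heisenberg-lift equation for `kapC`. -/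
theorem ct77_kapC_mul [Finite (G ⧸ H)] (hνG : ∀ g g', ν (g * g') = ν g + ν g')
    (hχ' : ∀ x ∈ H, ∀ y ∈ H, χ' (x * y) = χ' x + χ' y)
    (hκ : ∀ x ∈ H, ∀ y ∈ H, κ (x * y) = κ x + κ y + ν x * χ' y) (g g' : G) :
    ct77_kapC H ν χ' κ (g * g') =
      ct77_kapC H ν χ' κ g + ct77_kapC H ν χ' κ g' + ν g * ct77_nuTr H χ' g' := by
  simp only [ct77_kapC]
  rw [ct77_kapG_mul H hνG hχ' (ct77_swap H hνG hχ' hκ), ct77_nuTr_mul H hχ', hνG]
  ring

/-- partial sums of `χ'` along a `π`-orbit. -/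
lemma ct77_partial_chi (hχ' : ∀ x ∈ H, ∀ y ∈ H, χ' (x * y) = χ' x + χ' y)
    (π : G) (q₀ : G ⧸ H) (n : ℕ) :
    ∑ k ∈ Finset.range n, χ' (ct77_h H π (π ^ k • q₀)) = χ' (ct77_h H (π ^ n) q₀) := by
  induction n with
  | zero =>
    have h1 := hχ' 1 H.one_mem 1 H.one_mem
    rw [mul_one] at h1
    simp only [Finset.range_zero, Finset.sum_empty, pow_zero, ct77_h_one]
    linear_combination h1
  | succ n ih =>
    rw [Finset.sum_range_succ, ih, pow_succ', ct77_h_mul,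
      hχ' _ (ct77_h_mem H π _) _ (ct77_h_mem H (π ^ n) q₀)]
    ring

/-- partial sums of the `kapG`-summand with swapped roles along a `π`-orbit, `ν π = 0`. -/
lemma ct77_partial_swap (hνG : ∀ g g', ν (g * g') = ν g + ν g')
    (hχ' : ∀ x ∈ H, ∀ y ∈ H, χ' (x * y) = χ' x + χ' y)
    (hκ : ∀ x ∈ H, ∀ y ∈ H, κ (x * y) = κ x + κ y + ν x * χ' y)
    (π : G) (hπ : ν π = 0) (q₀ : G ⧸ H) (n : ℕ) :
    ∑ k ∈ Finset.range n, ((ν (ct77_h H π (π ^ k • q₀)) * χ' (ct77_h H π (π ^ k • q₀))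
        - κ (ct77_h H π (π ^ k • q₀))) - χ' (ct77_h H π (π ^ k • q₀)) * ν (π ^ k • q₀).out) =
      (ν (ct77_h H (π ^ n) q₀) * χ' (ct77_h H (π ^ n) q₀) - κ (ct77_h H (π ^ n) q₀))
        - ν q₀.out * χ' (ct77_h H (π ^ n) q₀) := by
  have hχ1 : χ' 1 = 0 := by
    have h1 := hχ' 1 H.one_mem 1 H.one_mem
    rw [mul_one] at h1
    linear_combination -h1
  have hκ1 : κ 1 = 0 := by
    have h1 := hκ 1 H.one_mem 1 H.one_mem
    rw [mul_one, hχ1] at h1
    linear_combination -h1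
  induction n with
  | zero => simp [ct77_h_one, hχ1, hκ1]
  | succ n ih =>
    rw [Finset.sum_range_succ, ih]
    have hmul : ct77_h H (π ^ (n + 1)) q₀ = ct77_h H π (π ^ n • q₀) * ct77_h H (π ^ n) q₀ := by
      rw [pow_succ', ct77_h_mul]
    have hνg : ν (ct77_h H (π ^ n) q₀) = -ν (π ^ n • q₀).out + ν q₀.out := by
      simp only [ct77_h, hνG, ct77_chi_inv hνG, ct77_chi_pow hνG, hπ]
      ring
    have hνh : ν (ct77_h H π (π ^ n • q₀)) = -ν (π • π ^ n • q₀).out + ν (π ^ n • q₀).out := by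
      simp only [ct77_h, hνG, ct77_chi_inv hνG, hπ]
      ring
    rw [hmul, hκ _ (ct77_h_mem H π _) _ (ct77_h_mem H (π ^ n) q₀),
      hχ' _ (ct77_h_mem H π _) _ (ct77_h_mem H (π ^ n) q₀), hνG, hνg, hνh]
    ring

/-- (3') LOCAL CUSP IDENTITY for the second adjunction. -/
theorem ct77_local_cores [Finite (G ⧸ H)] (hνG : ∀ g g', ν (g * g') = ν g + ν g')
    (hpotG : ∀ g a, pot (g • a) = pot a + ν g)
    (hχ' : ∀ x ∈ H, ∀ y ∈ H, χ' (x * y) = χ' x + χ' y)
    (hκ : ∀ x ∈ H, ∀ y ∈ H, κ (x * y) = κ x + κ y + ν x * χ' y)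
    (π : G) (c : X) (hπ : π • c = c) :
    ct77_nuTr H χ' π * pot c - ct77_kapC H ν χ' κ π =
      ∑ᶠ ω : orbitRel.Quotient (zpowers π) (G ⧸ H),
        (χ' (ct77_eta H π ω.out) * pot (ω.out.out⁻¹ • c) - κ (ct77_eta H π ω.out)) := by
  classical
  cases nonempty_fintype (G ⧸ H)
  cases nonempty_fintype (orbitRel.Quotient (zpowers π) (G ⧸ H))
  have hνπ : ν π = 0 := by
    have := hpotG π c
    rw [hπ] at this
    linear_combination -this
  have h1 : ct77_nuTr H χ' π * pot c - ct77_kapC H ν χ' κ π =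
      ∑ q : G ⧸ H, (χ' (ct77_h H π q) * pot c +
        ((ν (ct77_h H π q) * χ' (ct77_h H π q) - κ (ct77_h H π q))
          - χ' (ct77_h H π q) * ν q.out)) := by
    simp only [ct77_kapC, ct77_nuTr, ct77_kapG, finsum_eq_sum_of_fintype]
    rw [hνπ, Finset.sum_add_distrib, Finset.sum_mul]
    ring
  rw [h1, finsum_eq_sum_of_fintype]
  rw [← (quotientEquivSigmaZMod H π).symm.sum_comp, Fintype.sum_sigma]
  refine Finset.sum_congr rfl fun ω _ => ?_
  simp only [quotientEquivSigmaZMod_symm_apply]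
  rw [ct77_sum_zmod (minimalPeriod (π • ·) ω.out)
    (fun k => χ' (ct77_h H π (π ^ k • ω.out)) * pot c +
        ((ν (ct77_h H π (π ^ k • ω.out)) * χ' (ct77_h H π (π ^ k • ω.out))
          - κ (ct77_h H π (π ^ k • ω.out)))
          - χ' (ct77_h H π (π ^ k • ω.out)) * ν (π ^ k • ω.out).out))]
  simp only [zpow_natCast]
  rw [Finset.sum_add_distrib, ← Finset.sum_mul, ct77_partial_chi H hχ',
    ct77_partial_swap H hνG hχ' hκ π hνπ, ← ct77_eta_eq]
  have hν0 : ν (ct77_eta H π ω.out) = 0 := by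
    simp only [ct77_eta, hνG, ct77_chi_inv hνG, ct77_chi_pow hνG, hνπ]
    ring
  have hpot' : pot (ω.out.out⁻¹ • c) = pot c - ν ω.out.out := by
    rw [hpotG, ct77_chi_inv hνG]
    ring
  rw [hν0, hpot']
  ring

/-- (4a') invariance of the cusp summand when `χ'` is only additive on `H`. -/
theorem ct77_F_smul' (hχ' : ∀ x ∈ H, ∀ y ∈ H, χ' (x * y) = χ' x + χ' y)
    (hpot : ∀ h ∈ H, ∀ a, pot (h • a) = pot a + ν h)
    (hκ : ∀ x ∈ H, ∀ y ∈ H, κ (x * y) = κ x + κ y + ν x * χ' y)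
    (π : X → G) (hπH : ∀ c, π c ∈ H) (hπ : ∀ c, π c • c = c)
    (hπe : ∀ k ∈ H, ∀ c, π (k • c) = k * π c * k⁻¹) (k : G) (hk : k ∈ H) (c : X) :
    χ' (π (k • c)) * pot (k • c) - κ (π (k • c)) = χ' (π c) * pot c - κ (π c) := by
  have hχ1 : χ' 1 = 0 := by
    have h1 := hχ' 1 H.one_mem 1 H.one_mem
    rw [mul_one] at h1
    linear_combination -h1
  have hκ1 : κ 1 = 0 := by
    have h1 := hκ 1 H.one_mem 1 H.one_mem
    rw [mul_one, hχ1] at h1
    linear_combination -h1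
  have hν0 : ν (π c) = 0 := by
    have := hpot _ (hπH c) c
    rw [hπ c] at this
    linear_combination -this
  have hk' : k⁻¹ ∈ H := H.inv_mem hk
  have hχk : χ' (k * k⁻¹) = χ' k + χ' k⁻¹ := hχ' _ hk _ hk'
  rw [mul_inv_cancel, hχ1] at hχk
  have h1 : κ (k * (π c * k⁻¹)) = κ k + κ (π c * k⁻¹) + ν k * χ' (π c * k⁻¹) :=
    hκ _ hk _ (H.mul_mem (hπH c) hk')
  have h2 : κ (π c * k⁻¹) = κ (π c) + κ k⁻¹ + ν (π c) * χ' k⁻¹ := hκ _ (hπH c) _ hk'
  have h3 : κ (k * k⁻¹) = κ k + κ k⁻¹ + ν k * χ' k⁻¹ := hκ _ hk _ hk'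
  rw [mul_inv_cancel, hκ1] at h3
  have h4 : χ' (k * (π c * k⁻¹)) = χ' k + χ' (π c * k⁻¹) := hχ' _ hk _ (H.mul_mem (hπH c) hk')
  have h5 : χ' (π c * k⁻¹) = χ' (π c) + χ' k⁻¹ := hχ' _ (hπH c) _ hk'
  rw [hπe k hk c, hpot k hk c, mul_assoc, h1, h2, hν0, h4, h5]
  linear_combination h3 - (pot c + ν k) * hχk

/-- (D2'), GLOBAL FORM: `L_H(χ', res φ) = L_G(cores χ', φ)`. -/
theorem ct77_global_cores [Finite (G ⧸ H)] (sH sG : Setoid X)
    (hsH : ∀ c c', sH.r c c' ↔ ∃ h ∈ H, h • c = c')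
    (hsG : ∀ c c', sG.r c c' ↔ ∃ g : G, g • c = c') [Finite (Quotient sG)]
    (hνG : ∀ g g', ν (g * g') = ν g + ν g')
    (hpotG : ∀ g a, pot (g • a) = pot a + ν g)
    (hχ' : ∀ x ∈ H, ∀ y ∈ H, χ' (x * y) = χ' x + χ' y)
    (hκ : ∀ x ∈ H, ∀ y ∈ H, κ (x * y) = κ x + κ y + ν x * χ' y)
    (piG : X → G) (hfix : ∀ c, piG c • c = c) (hequiv : ∀ g c, piG (g • c) = g * piG c * g⁻¹)
    (hstab : ∀ c (g : G), g • c = c → ∀ q : G ⧸ H, ∃ k : ℤ, g • q = piG c ^ k • q)
    (piH : X → G) (hpiH : ∀ c, piH c = piG c ^ minimalPeriod (piG c • ·) ((1 : G) : G ⧸ H)) :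
    ∑ᶠ o : Quotient sH, (χ' (piH o.out) * pot o.out - κ (piH o.out)) =
      ∑ᶠ o : Quotient sG,
        (ct77_nuTr H χ' (piG o.out) * pot o.out - ct77_kapC H ν χ' κ (piG o.out)) := by
  have hFH_inv : ∀ k ∈ H, ∀ c, χ' (piH (k • c)) * pot (k • c) - κ (piH (k • c)) =
      χ' (piH c) * pot c - κ (piH c) := fun k hk c =>
    ct77_F_smul' H hχ' (fun h _ a => hpotG h a) hκ piH (ct77_piH_mem H piG piH hpiH)
      (ct77_piH_fix H piG piH hfix hpiH) (ct77_piH_equiv H piG piH hequiv hpiH) k hk c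
  rw [ct77_sum_orbits H sH sG hsH hsG piG hfix hstab
    (fun c => χ' (piH c) * pot c - κ (piH c)) hFH_inv]
  refine finsum_congr fun o => ?_
  rw [ct77_local_cores H hνG hpotG hχ' hκ (piG o.out) o.out (hfix o.out)]
  refine finsum_congr fun ω => ?_
  simp only [ct77_eta_eq_piH H piG hequiv piH hpiH]

end D2'

end CapCores

end Fermat.Agent.S41
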