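/-
S41 / M3 (helper96): adjointness statements for the Manin-model pairing (link L8).

For `H ≤ G ≤ SL(2, ℤ)` of finite index with `-1 ∈ H`:
* `adj96_tr`   : `B_G (χ, tr pot) = B_H (χ|_H, pot)`     (restriction / trace),
* `adj96_cores`: `B_H (χ', pot|_H) = B_G (cores χ', pot)` (corestriction / restriction),
where `B_Γ (χ, pot) = ∑ x : SL(2, ℤ) ⧸ Γ, χ ((sec x)⁻¹ * S * sec (S • x)) *
  (pot ((sec x)⁻¹ • cinf) - pot ((sec x)⁻¹ • S • cinf))` for any `U`-adapted section `sec`.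
Proof: bridge (`Bridge96`) — cap-product transfer (`CapTransfer77`, `CapCores77`) — bridge.
-/
import Mathlib
import Fermat.Agent.S41.PSL2Univ96
import Fermat.Agent.S41.CupKappa96
import Fermat.Agent.S41.CapTransfer77
import Fermat.Agent.S41.CapCores77
import Fermat.Agent.S41.Bridge96

set_option autoImplicit false

open scoped MatrixGroups
open ModularGroup Matrix MulAction Function Subgroup

namespace Fermat.Agent.S41

/-! ### Generalities -/

theorem adj96_minimalPeriod_zpow_smul {𝒢 : Type*} [Group 𝒢] {X : Type*} [MulAction 𝒢 X]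
    (t : 𝒢) (j : ℤ) (y : X) :
    minimalPeriod (t • ·) (t ^ j • y) = minimalPeriod (t • ·) y := by
  have key : ∀ n : ℕ, t ^ n • (t ^ j • y) = t ^ j • y ↔ t ^ n • y = y := by
    intro n
    have hcomm : t ^ n * t ^ j = t ^ j * t ^ n := by
      rw [← zpow_natCast, ← _root_.zpow_add, ← _root_.zpow_add, add_comm]
    rw [← mul_smul, hcomm, mul_smul, smul_left_cancel_iff]
  apply Nat.dvd_antisymm
  · rw [← MulAction.pow_smul_eq_iff_minimalPeriod_dvd, key]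
    exact MulAction.pow_smul_eq_iff_minimalPeriod_dvd.mpr dvd_rfl
  · rw [← MulAction.pow_smul_eq_iff_minimalPeriod_dvd, ← key]
    exact MulAction.pow_smul_eq_iff_minimalPeriod_dvd.mpr dvd_rfl

/-- Extension by zero of a function on a subgroup. -/
noncomputable def adj96_ext {𝒢 : Type*} [Group 𝒢] {R : Type*} [Zero R] (Γ : Subgroup 𝒢)
    (f : Γ → R) : 𝒢 → R :=
  open Classical in fun g => if h : g ∈ Γ then f ⟨g, h⟩ else 0

theorem adj96_ext_mem {𝒢 : Type*} [Group 𝒢] {R : Type*} [Zero R] (Γ : Subgroup 𝒢)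
    (f : Γ → R) {g : 𝒢} (hg : g ∈ Γ) : adj96_ext Γ f g = f ⟨g, hg⟩ := by
  simp only [adj96_ext]
  rw [dif_pos hg]

/-! ### The canonical positive parabolic generators -/

section Pi

variable {C : Type*} [MulAction SL(2, ℤ) C]

/-- The canonical generator `g * T ^ (width) * g⁻¹` of the stabiliser in `Γ` of the cusp
`c = g • cinf`. -/
noncomputable def adj96_pi (Γ : Subgroup SL(2, ℤ)) (cinf : C) (c : C) : SL(2, ℤ) :=
  open Classical in
  if h : ∃ g : SL(2, ℤ), g • cinf = c then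
    h.choose * T ^ minimalPeriod ((T : SL(2, ℤ)) • ·)
      ((h.choose⁻¹ : SL(2, ℤ)) : SL(2, ℤ) ⧸ Γ) * h.choose⁻¹
  else 1

theorem adj96_pi_spec {Γ : Subgroup SL(2, ℤ)} (hneg : (-1 : SL(2, ℤ)) ∈ Γ) (cinf : C)
    (hstab : ∀ g : SL(2, ℤ), g • cinf = cinf → ∃ k : ℤ, g = T ^ k ∨ g = -T ^ k)
    (g : SL(2, ℤ)) :
    adj96_pi Γ cinf (g • cinf) =
      g * T ^ minimalPeriod ((T : SL(2, ℤ)) • ·) ((g⁻¹ : SL(2, ℤ)) : SL(2, ℤ) ⧸ Γ) * g⁻¹ := by
  classical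
  have h : ∃ g' : SL(2, ℤ), g' • cinf = g • cinf := ⟨g, rfl⟩
  rw [adj96_pi, dif_pos h]
  obtain ⟨g0, hg0⟩ : ∃ g0, g0 = h.choose := ⟨_, rfl⟩
  rw [← hg0]
  have hg0c : g0 • cinf = g • cinf := by
    rw [hg0]
    exact h.choose_spec
  have hfix : (g⁻¹ * g0) • cinf = cinf := by
    rw [mul_smul, hg0c, inv_smul_smul]
  obtain ⟨k, hk⟩ := hstab _ hfix
  -- the coset of `g0⁻¹` is `T ^ (-k) • (coset of g⁻¹)`
  have hcos : ((g0⁻¹ : SL(2, ℤ)) : SL(2, ℤ) ⧸ Γ) =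
      (T : SL(2, ℤ)) ^ (-k) • ((g⁻¹ : SL(2, ℤ)) : SL(2, ℤ) ⧸ Γ) := by
    rcases hk with hk | hk
    · have e : g0⁻¹ = T ^ (-k) * g⁻¹ := by
        have : g0 = g * T ^ k := by
          rw [← hk]
          group
        rw [this]
        group
      rw [e]
      rfl
    · have e : g0⁻¹ = -1 * (T ^ (-k) * g⁻¹) := by
        have : g0 = g * -T ^ k := by
          rw [← hk]
          group
        rw [this, mul_neg, inv_neg, neg_one_mul]
        congr 1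
        group
      rw [e]
      rw [show ((-1 * (T ^ (-k) * g⁻¹) : SL(2, ℤ)) : SL(2, ℤ) ⧸ Γ)
        = (-1 : SL(2, ℤ)) • (((T ^ (-k) * g⁻¹ : SL(2, ℤ)) : SL(2, ℤ) ⧸ Γ)) from rfl,
        ck96_neg_one_smul Γ hneg]
      rfl
  rw [hcos, adj96_minimalPeriod_zpow_smul]
  generalize minimalPeriod ((T : SL(2, ℤ)) • ·) ((g⁻¹ : SL(2, ℤ)) : SL(2, ℤ) ⧸ Γ) = w
  rcases hk with hk | hk
  · have : g0 = g * T ^ k := by
      rw [← hk]
      group
    rw [this, ← zpow_natCast]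
    group
  · have : g0 = g * -T ^ k := by
      rw [← hk]
      group
    rw [this, mul_neg, inv_neg, neg_mul, mul_neg, neg_mul, neg_neg, ← zpow_natCast]
    group

end Pi

/-! ### Cusp axioms and the instantiation of the transfer hypotheses -/

section IGen

variable {C : Type*} [MulAction SL(2, ℤ) C]

/-- The axioms on the set of cusps with base point `cinf`. -/
structure adj96_CuspAx (cinf : C) : Prop where
  /-- `T` fixes the base cusp -/
  T_fix : (T : SL(2, ℤ)) • cinf = cinf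
  /-- `-1` fixes the base cusp -/
  neg_fix : (-1 : SL(2, ℤ)) • cinf = cinf
  /-- transitivity -/
  trans : ∀ c : C, ∃ g : SL(2, ℤ), g • cinf = c
  /-- the stabiliser of the base cusp -/
  stab : ∀ g : SL(2, ℤ), g • cinf = cinf → ∃ k : ℤ, g = T ^ k ∨ g = -T ^ k

variable {cinf : C}

theorem adj96_T_pow_fix (hax : adj96_CuspAx cinf) (n : ℕ) : (T : SL(2, ℤ)) ^ n • cinf = cinf := by
  induction n with
  | zero => simp
  | succ n ih => rw [pow_succ, mul_smul, hax.T_fix, ih]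

theorem adj96_pi_mem {Γ : Subgroup SL(2, ℤ)} (hax : adj96_CuspAx cinf)
    (hneg : (-1 : SL(2, ℤ)) ∈ Γ) (c : C) : adj96_pi Γ cinf c ∈ Γ := by
  obtain ⟨g, rfl⟩ := hax.trans c
  rw [adj96_pi_spec hneg cinf hax.stab]
  exact br96_conj_mem g T

theorem adj96_pi_fix {Γ : Subgroup SL(2, ℤ)} (hax : adj96_CuspAx cinf)
    (hneg : (-1 : SL(2, ℤ)) ∈ Γ) (c : C) : adj96_pi Γ cinf c • c = c := by
  obtain ⟨g, rfl⟩ := hax.trans c
  rw [adj96_pi_spec hneg cinf hax.stab, ← mul_smul, inv_mul_cancel_right, mul_smul,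
    adj96_T_pow_fix hax]

theorem adj96_pi_conj {Γ : Subgroup SL(2, ℤ)} (hax : adj96_CuspAx cinf)
    (hneg : (-1 : SL(2, ℤ)) ∈ Γ) (k : SL(2, ℤ)) (hk : k ∈ Γ) (c : C) :
    adj96_pi Γ cinf (k • c) = k * adj96_pi Γ cinf c * k⁻¹ := by
  obtain ⟨g, rfl⟩ := hax.trans c
  rw [← mul_smul, adj96_pi_spec hneg cinf hax.stab, adj96_pi_spec hneg cinf hax.stab,
    br96_coset_inv_eq g k hk]
  group

/-- `g * T ^ n * g⁻¹ ∈ Γ` iff `T ^ n` fixes the coset `g⁻¹ Γ`. -/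
theorem adj96_conj_zpow_mem (Γ : Subgroup SL(2, ℤ)) (g : SL(2, ℤ)) (n : ℤ) :
    g * T ^ n * g⁻¹ ∈ Γ ↔
      (T : SL(2, ℤ)) ^ n • ((g⁻¹ : SL(2, ℤ)) : SL(2, ℤ) ⧸ Γ) = ((g⁻¹ : SL(2, ℤ)) : SL(2, ℤ) ⧸ Γ) := by
  rw [show (T : SL(2, ℤ)) ^ n • ((g⁻¹ : SL(2, ℤ)) : SL(2, ℤ) ⧸ Γ)
    = ((T ^ n * g⁻¹ : SL(2, ℤ)) : SL(2, ℤ) ⧸ Γ) from rfl, QuotientGroup.eq]
  constructor
  · intro h
    have := Γ.inv_mem h
    simpa [mul_assoc] using this
  · intro h
    have := Γ.inv_mem h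
    simpa [mul_assoc] using this

theorem adj96_conj_pow_mem (Γ : Subgroup SL(2, ℤ)) (g : SL(2, ℤ)) (n : ℕ) :
    g * T ^ n * g⁻¹ ∈ Γ ↔
      (T : SL(2, ℤ)) ^ n • ((g⁻¹ : SL(2, ℤ)) : SL(2, ℤ) ⧸ Γ) = ((g⁻¹ : SL(2, ℤ)) : SL(2, ℤ) ⧸ Γ) := by
  have := adj96_conj_zpow_mem Γ g n
  simpa using this

variable {G H : Subgroup SL(2, ℤ)}

theorem adj96_neg_one_smul_sub (hHG : H ≤ G) (hneg : (-1 : SL(2, ℤ)) ∈ H)
    (q : G ⧸ H.subgroupOf G) : (⟨-1, hHG hneg⟩ : G) • q = q := by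
  induction q using QuotientGroup.induction_on with
  | H x =>
    rw [MulAction.Quotient.smul_mk]
    apply QuotientGroup.eq.mpr
    rw [mem_subgroupOf]
    have h : (((⟨-1, hHG hneg⟩ : G) • x)⁻¹ * x : G) = ((-1 : SL(2, ℤ)) : SL(2, ℤ)) := by
      rw [smul_eq_mul]
      push_cast
      rw [neg_one_mul, inv_neg, neg_mul, inv_mul_cancel]
    rw [h]
    exact hneg

/-- **Instantiation of the hypotheses of `ct77_global_setoid` / `ct77_global_cores`** for the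
ambient group `G ≤ SL(2, ℤ)` and its subgroup `H.subgroupOf G`. -/
theorem adj96_igen (hHG : H ≤ G) (hneg : (-1 : SL(2, ℤ)) ∈ H) (hax : adj96_CuspAx cinf)
    (piG piH : C → G) (hpiG : ∀ c, (piG c : SL(2, ℤ)) = adj96_pi G cinf c)
    (hpiH : ∀ c, (piH c : SL(2, ℤ)) = adj96_pi H cinf c) :
    (∀ c, piG c • c = c) ∧ (∀ (g : G) c, piG (g • c) = g * piG c * g⁻¹) ∧
    (∀ c (g : G), g • c = c → ∀ q : G ⧸ H.subgroupOf G, ∃ k : ℤ, g • q = piG c ^ k • q) ∧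
    (∀ c, piH c = piG c ^ minimalPeriod (piG c • ·) ((1 : G) : G ⧸ H.subgroupOf G)) := by
  have hnegG : (-1 : SL(2, ℤ)) ∈ G := hHG hneg
  refine ⟨fun c => ?_, fun g c => ?_, fun c γ hγ q => ?_, fun c => ?_⟩
  · -- hfix
    rw [Subgroup.smul_def, hpiG]
    exact adj96_pi_fix hax hnegG c
  · -- hequiv
    apply Subtype.ext
    rw [hpiG, Subgroup.coe_mul, Subgroup.coe_mul, Subgroup.coe_inv, hpiG, Subgroup.smul_def]
    exact adj96_pi_conj hax hnegG g g.2 c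
  · -- hstab
    obtain ⟨g, rfl⟩ := hax.trans c
    have hfix : (g⁻¹ * (γ : SL(2, ℤ)) * g) • cinf = cinf := by
      rw [mul_smul, mul_smul]
      rw [Subgroup.smul_def] at hγ
      rw [hγ, inv_smul_smul]
    obtain ⟨n, hn⟩ := hax.stab _ hfix
    have hmemG : g * T ^ n * g⁻¹ ∈ G := by
      rcases hn with hn | hn
      · rw [← hn]
        have : g * (g⁻¹ * (γ : SL(2, ℤ)) * g) * g⁻¹ = γ := by group
        rw [this]
        exact γ.2
      · have e : g * T ^ n * g⁻¹ = -1 * (γ : SL(2, ℤ)) := by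
          have h1 : (T : SL(2, ℤ)) ^ n = -(g⁻¹ * (γ : SL(2, ℤ)) * g) := by
            rw [hn, neg_neg]
          rw [h1, mul_neg, neg_mul, neg_one_mul]
          congr 1
          group
        rw [e]
        exact G.mul_mem hnegG γ.2
    have hdvd := (MulAction.zpow_smul_eq_iff_minimalPeriod_dvd).mp
      ((adj96_conj_zpow_mem G g n).mp hmemG)
    obtain ⟨k, hk⟩ := hdvd
    have hP : (piG (g • cinf) : SL(2, ℤ)) =
        g * T ^ minimalPeriod ((T : SL(2, ℤ)) • ·) ((g⁻¹ : SL(2, ℤ)) : SL(2, ℤ) ⧸ G) * g⁻¹ := by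
      rw [hpiG, adj96_pi_spec hnegG cinf hax.stab]
    have hPk : ((piG (g • cinf) ^ k : G) : SL(2, ℤ)) = g * T ^ n * g⁻¹ := by
      rw [Subgroup.coe_zpow, hP, conj_zpow, ← zpow_natCast, ← _root_.zpow_mul, ← hk]
    refine ⟨k, ?_⟩
    rcases hn with hn | hn
    · have : γ = piG (g • cinf) ^ k := by
        apply Subtype.ext
        rw [hPk, ← hn]
        group
      rw [this]
    · have : γ = (⟨-1, hnegG⟩ : G) * piG (g • cinf) ^ k := by
        apply Subtype.ext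
        have h1 : (T : SL(2, ℤ)) ^ n = -(g⁻¹ * (γ : SL(2, ℤ)) * g) := by rw [hn, neg_neg]
        rw [Subgroup.coe_mul, hPk, h1, mul_neg, neg_mul, neg_mul, one_mul, neg_neg]
        group
      rw [this, mul_smul, adj96_neg_one_smul_sub hHG hneg]
  · -- hpiH
    obtain ⟨g, rfl⟩ := hax.trans c
    obtain ⟨wG, hwG⟩ : ∃ wG, wG =
      minimalPeriod ((T : SL(2, ℤ)) • ·) ((g⁻¹ : SL(2, ℤ)) : SL(2, ℤ) ⧸ G) := ⟨_, rfl⟩
    obtain ⟨wH, hwH⟩ : ∃ wH, wH =
      minimalPeriod ((T : SL(2, ℤ)) • ·) ((g⁻¹ : SL(2, ℤ)) : SL(2, ℤ) ⧸ H) := ⟨_, rfl⟩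
    have hP : (piG (g • cinf) : SL(2, ℤ)) = g * T ^ wG * g⁻¹ := by
      rw [hpiG, adj96_pi_spec hnegG cinf hax.stab, hwG]
    have hQ : (piH (g • cinf) : SL(2, ℤ)) = g * T ^ wH * g⁻¹ := by
      rw [hpiH, adj96_pi_spec hneg cinf hax.stab, hwH]
    -- fact A
    have hA : ∀ n : ℕ, piG (g • cinf) ^ n • ((1 : G) : G ⧸ H.subgroupOf G)
        = ((1 : G) : G ⧸ H.subgroupOf G) ↔ wH ∣ wG * n := by
      intro n
      rw [ct77_pow_mem_iff, mem_subgroupOf, Subgroup.coe_pow, hP, conj_pow, ← pow_mul,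
        adj96_conj_pow_mem, MulAction.pow_smul_eq_iff_minimalPeriod_dvd, ← hwH]
    -- fact B
    have hB : wG ∣ wH := by
      rw [hwG, ← MulAction.pow_smul_eq_iff_minimalPeriod_dvd, ← adj96_conj_pow_mem, hwH]
      exact hHG (br96_conj_mem g T)
    apply Subtype.ext
    by_cases hw : wG = 0
    · have hwH0 : wH = 0 := by
        rw [hw] at hB
        exact zero_dvd_iff.mp hB
      have h1 : piG (g • cinf) = 1 := by
        apply Subtype.ext
        rw [hP, hw]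
        simp
      rw [hQ, hwH0, h1]
      simp
    · obtain ⟨k, hk⟩ := hB
      have hA' : ∀ n : ℕ, piG (g • cinf) ^ n • ((1 : G) : G ⧸ H.subgroupOf G)
          = ((1 : G) : G ⧸ H.subgroupOf G) ↔ k ∣ n := by
        intro n
        rw [hA, hk, Nat.mul_dvd_mul_iff_left (Nat.pos_of_ne_zero hw)]
      have hm : minimalPeriod (piG (g • cinf) • ·) ((1 : G) : G ⧸ H.subgroupOf G) = k := by
        apply Nat.dvd_antisymm
        · rw [← MulAction.pow_smul_eq_iff_minimalPeriod_dvd, hA']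
        · rw [← hA']
          exact MulAction.pow_smul_eq_iff_minimalPeriod_dvd.mpr dvd_rfl
      rw [hm, Subgroup.coe_pow, hP, hQ, conj_pow, ← pow_mul, hk]

end IGen

/-! ### The Manin-model pairing in potential form -/

section Pairing

variable {C : Type*} [MulAction SL(2, ℤ) C] {R : Type*} [CommRing R] {Γ : Subgroup SL(2, ℤ)}

/-- A section is adapted to `U = S * T`. (Same as `md32_Adapted`.) -/
def adj96_Adapted (sec : SL(2, ℤ) ⧸ Γ → SL(2, ℤ)) : Prop :=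
  ∀ x, (S * T : SL(2, ℤ)) • x = x ∨ br96_g sec (S * T) x = 1 ∨ br96_g sec (S * T) x = -1

/-- The Manin-model pairing of `χ` with the symbol of potential `pot`. -/
noncomputable def adj96_B (sec : SL(2, ℤ) ⧸ Γ → SL(2, ℤ)) (cinf : C) (χ : SL(2, ℤ) → R)
    (pot : C → R) : R :=
  ∑ᶠ x : SL(2, ℤ) ⧸ Γ, χ ((sec x)⁻¹ * S * sec (S • x)) *
    (pot ((sec x)⁻¹ • cinf) - pot ((sec x)⁻¹ • S • cinf))

theorem adj96_B_congr (sec : SL(2, ℤ) ⧸ Γ → SL(2, ℤ)) (cinf : C) (χ : SL(2, ℤ) → R)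
    {pot₁ pot₂ : C → R} (h : ∀ a b, pot₁ b - pot₁ a = pot₂ b - pot₂ a) :
    adj96_B sec cinf χ pot₁ = adj96_B sec cinf χ pot₂ := by
  simp only [adj96_B, h]

theorem adj96_U_vanish {sec : SL(2, ℤ) ⧸ Γ → SL(2, ℤ)} (hsec : ck96_IsSection Γ sec)
    (hneg : (-1 : SL(2, ℤ)) ∈ Γ)
    (h2 : ∀ r : R, r + r = 0 → r = 0) (h3 : ∀ r : R, r + r + r = 0 → r = 0)
    {χ ν κ : SL(2, ℤ) → R} {pot : C → R} (h : br96_IsCap Γ χ ν κ pot)
    (had : adj96_Adapted sec) (x : SL(2, ℤ) ⧸ Γ) :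
    ν (br96_g sec (S * T) x) = 0 ∧ χ (br96_g sec (S * T) x) = 0 := by
  obtain ⟨hχm, hνm, -⟩ := br96_neg_one_vals h hneg h2
  rcases had x with hx | hr | hr
  · have hmem := br96_g_mem hsec (S * T) x
    have hcube : br96_g sec (S * T) x * br96_g sec (S * T) x * br96_g sec (S * T) x = -1 := by
      have hU3 : ((S * T) * (S * T) * (S * T) : SL(2, ℤ)) = -1 := by
        rw [← pow_three']
        exact psl96_U_cube
      simp only [br96_g, hx]
      have : (sec x)⁻¹ * (S * T) * sec x * ((sec x)⁻¹ * (S * T) * sec x) *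
          ((sec x)⁻¹ * (S * T) * sec x) = (sec x)⁻¹ * ((S * T) * (S * T) * (S * T)) * sec x := by
        group
      rw [this, hU3]
      simp
    constructor
    · apply h3
      rw [← h.nu_mul _ hmem _ hmem, ← h.nu_mul _ (Γ.mul_mem hmem hmem) _ hmem, hcube, hνm]
    · apply h3
      rw [← h.chi_mul _ hmem _ hmem, ← h.chi_mul _ (Γ.mul_mem hmem hmem) _ hmem, hcube, hχm]
  · rw [hr, h.nu_one, h.chi_one]
    exact ⟨rfl, rfl⟩
  · rw [hr, hνm, hχm]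
    exact ⟨rfl, rfl⟩

theorem adj96_orbitRel_iff (Γ : Subgroup SL(2, ℤ)) (c c' : C) :
    (orbitRel Γ C).r c c' ↔ ∃ γ ∈ Γ, γ • c = c' := by
  change c ∈ orbit Γ c' ↔ _
  rw [mem_orbit_iff]
  constructor
  · rintro ⟨⟨γ, hγ⟩, hγc⟩
    refine ⟨γ⁻¹, Γ.inv_mem hγ, ?_⟩
    rw [← hγc]
    exact inv_smul_smul γ c'
  · rintro ⟨γ, hγ, hγc⟩
    refine ⟨⟨γ⁻¹, Γ.inv_mem hγ⟩, ?_⟩
    rw [← hγc]
    exact inv_smul_smul γ c

/-- the bridge, for the canonical generators `adj96_pi` and the orbit relation. -/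
theorem adj96_bridge [Finite (SL(2, ℤ) ⧸ Γ)] {sec : SL(2, ℤ) ⧸ Γ → SL(2, ℤ)}
    (hsec : ck96_IsSection Γ sec) (hneg : (-1 : SL(2, ℤ)) ∈ Γ)
    (h2 : ∀ r : R, r + r = 0 → r = 0) (h3 : ∀ r : R, r + r + r = 0 → r = 0)
    {cinf : C} (hax : adj96_CuspAx cinf)
    {χ ν κ : SL(2, ℤ) → R} {pot : C → R} (h : br96_IsCap Γ χ ν κ pot)
    (had : adj96_Adapted sec) :
    2 * ∑ᶠ o : Quotient (orbitRel Γ C),
        (χ (adj96_pi Γ cinf o.out) * pot o.out - κ (adj96_pi Γ cinf o.out)) =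
      adj96_B sec cinf χ pot :=
  br96_bridge hsec hneg h2 h3 h cinf hax.T_fix hax.neg_fix hax.trans hax.stab
    (fun x => (adj96_U_vanish hsec hneg h2 h3 h had x).1)
    (fun x => (adj96_U_vanish hsec hneg h2 h3 h had x).2)
    (adj96_pi Γ cinf) (adj96_pi_spec hneg cinf hax.stab) (orbitRel Γ C)
    (adj96_orbitRel_iff Γ)

theorem adj96_finite_cusps [Finite (SL(2, ℤ) ⧸ Γ)] {cinf : C} (hax : adj96_CuspAx cinf) :
    Finite (Quotient (orbitRel Γ C)) := by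
  let f : SL(2, ℤ) ⧸ Γ → Quotient (orbitRel Γ C) :=
    fun x => Quotient.mk (orbitRel Γ C) ((x.out)⁻¹ • cinf)
  refine Finite.of_surjective f fun o => ?_
  obtain ⟨g, hg⟩ := hax.trans o.out
  refine ⟨((g⁻¹ : SL(2, ℤ)) : SL(2, ℤ) ⧸ Γ), ?_⟩
  rw [← Quotient.out_eq o]
  apply Quotient.sound
  apply (adj96_orbitRel_iff Γ _ _).mpr
  have h1 : (((((g⁻¹ : SL(2, ℤ)) : SL(2, ℤ) ⧸ Γ)).out : SL(2, ℤ)) : SL(2, ℤ) ⧸ Γ)
      = ((g⁻¹ : SL(2, ℤ)) : SL(2, ℤ) ⧸ Γ) := Quotient.out_eq' _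
  rw [QuotientGroup.eq] at h1
  refine ⟨_, Γ.inv_mem h1, ?_⟩
  rw [← hg]
  rw [_root_.mul_inv_rev, inv_inv, mul_smul, inv_inv, smul_inv_smul]

end Pairing

/-! ### Restriction / trace and corestriction / restriction adjointness -/

section Transfer

variable {C : Type*} [MulAction SL(2, ℤ) C] {R : Type*} [CommRing R] {G H : Subgroup SL(2, ℤ)}

theorem adj96_finite_of_le (hHG : H ≤ G) [Finite (SL(2, ℤ) ⧸ H)] :
    Finite (SL(2, ℤ) ⧸ G) ∧ Finite (G ⧸ H.subgroupOf G) := by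
  constructor
  · refine Finite.of_surjective (Subgroup.quotientMapOfLE hHG) fun x => ?_
    induction x using QuotientGroup.induction_on with
    | H g => exact ⟨(g : SL(2, ℤ) ⧸ H), rfl⟩
  · exact Finite.of_injective
      (fun y => (Subgroup.quotientEquivProdOfLE hHG).symm (((1 : SL(2, ℤ)) : SL(2, ℤ) ⧸ G), y))
      (fun a b h => (Prod.mk.inj ((Subgroup.quotientEquivProdOfLE hHG).symm.injective h)).2)

theorem adj96_orbitRel_sub_iff (hHG : H ≤ G) (c c' : C) :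
    (orbitRel H C).r c c' ↔ ∃ h ∈ H.subgroupOf G, h • c = c' := by
  rw [adj96_orbitRel_iff]
  constructor
  · rintro ⟨γ, hγ, hγc⟩
    exact ⟨⟨γ, hHG hγ⟩, mem_subgroupOf.mpr hγ, hγc⟩
  · rintro ⟨h, hh, hhc⟩
    exact ⟨h, mem_subgroupOf.mp hh, hhc⟩

theorem adj96_orbitRel_top_iff (G : Subgroup SL(2, ℤ)) (c c' : C) :
    (orbitRel G C).r c c' ↔ ∃ g : G, g • c = c' := by
  rw [adj96_orbitRel_iff]
  constructor
  · rintro ⟨γ, hγ, hγc⟩
    exact ⟨⟨γ, hγ⟩, hγc⟩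
  · rintro ⟨g, hgc⟩
    exact ⟨g, g.2, hgc⟩

/-- additivity of the `ν`-part of a potential. -/
theorem adj96_nu_mul {Γ : Subgroup SL(2, ℤ)} (cinf : C) {ν : SL(2, ℤ) → R} {pot : C → R}
    (hpot : ∀ h ∈ Γ, ∀ c, pot (h • c) = pot c + ν h) :
    ∀ a ∈ Γ, ∀ b ∈ Γ, ν (a * b) = ν a + ν b := by
  intro a ha b hb
  have h1 := hpot (a * b) (Γ.mul_mem ha hb) cinf
  rw [mul_smul, hpot a ha, hpot b hb] at h1
  linear_combination -h1

/-- existence of cap-product data on `Γ` for a given `χ` and potential. -/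
theorem adj96_exists_cap {Γ : Subgroup SL(2, ℤ)} (hneg : (-1 : SL(2, ℤ)) ∈ Γ)
    (h2 : ∀ r : R, r + r = 0 → r = 0) (h3 : ∀ r : R, r + r + r = 0 → r = 0) (cinf : C)
    {χ ν : SL(2, ℤ) → R} {pot : C → R}
    (hχ : ∀ a ∈ Γ, ∀ b ∈ Γ, χ (a * b) = χ a + χ b)
    (hpot : ∀ h ∈ Γ, ∀ c, pot (h • c) = pot c + ν h) :
    ∃ κ : SL(2, ℤ) → R, br96_IsCap Γ χ ν κ pot := by
  have hν := adj96_nu_mul cinf hpot
  obtain ⟨κ0, hκ0⟩ := ck96_exists_kappa hneg h2 h3 (fun x : Γ => ν x) (fun x : Γ => χ x)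
    (fun a b => hν a a.2 b b.2) (fun a b => hχ a a.2 b b.2)
  refine ⟨adj96_ext Γ κ0, hχ, hν, fun a ha b hb => ?_, hpot⟩
  rw [adj96_ext_mem Γ κ0 (Γ.mul_mem ha hb), adj96_ext_mem Γ κ0 ha, adj96_ext_mem Γ κ0 hb]
  exact hκ0 ⟨a, ha⟩ ⟨b, hb⟩

/-- **Restriction / trace adjointness** for the Manin-model pairing: if `potG` is a potential of
the trace of the `H`-symbol with potential `pot`, then `B_G (χ, potG) = B_H (χ, pot)`. -/
theorem adj96_tr (hHG : H ≤ G) [Finite (SL(2, ℤ) ⧸ H)] (hneg : (-1 : SL(2, ℤ)) ∈ H)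
    (h2 : ∀ r : R, r + r = 0 → r = 0) (h3 : ∀ r : R, r + r + r = 0 → r = 0)
    {cinf : C} (hax : adj96_CuspAx cinf)
    {secG : SL(2, ℤ) ⧸ G → SL(2, ℤ)} (hsecG : ck96_IsSection G secG) (hadG : adj96_Adapted secG)
    {secH : SL(2, ℤ) ⧸ H → SL(2, ℤ)} (hsecH : ck96_IsSection H secH) (hadH : adj96_Adapted secH)
    (χ ν : SL(2, ℤ) → R) (pot : C → R)
    (hχ : ∀ a ∈ G, ∀ b ∈ G, χ (a * b) = χ a + χ b)
    (hpot : ∀ h ∈ H, ∀ c, pot (h • c) = pot c + ν h)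
    (potG : C → R)
    (hpotG : ∀ a b, potG b - potG a = ∑ᶠ q : G ⧸ H.subgroupOf G,
      (pot (((q.out : G) : SL(2, ℤ))⁻¹ • b) - pot (((q.out : G) : SL(2, ℤ))⁻¹ • a))) :
    adj96_B secG cinf χ potG = adj96_B secH cinf χ pot := by
  classical
  obtain ⟨hfinG, hfinGH⟩ := adj96_finite_of_le hHG
  have hnegG : (-1 : SL(2, ℤ)) ∈ G := hHG hneg
  -- cap data on `H`
  obtain ⟨κ, hcapH⟩ := adj96_exists_cap hneg h2 h3 cinf
    (fun a ha b hb => hχ a (hHG ha) b (hHG hb)) hpot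
  have hbrH := adj96_bridge hsecH hneg h2 h3 hax hcapH hadH
  -- the transfer
  obtain ⟨piG, hpiG⟩ : ∃ piG : C → G, ∀ c, (piG c : SL(2, ℤ)) = adj96_pi G cinf c :=
    ⟨fun c => ⟨_, adj96_pi_mem hax hnegG c⟩, fun _ => rfl⟩
  obtain ⟨piH, hpiH⟩ : ∃ piH : C → G, ∀ c, (piH c : SL(2, ℤ)) = adj96_pi H cinf c :=
    ⟨fun c => ⟨_, hHG (adj96_pi_mem hax hneg c)⟩, fun _ => rfl⟩
  obtain ⟨hfix, hequiv, hstab, hper⟩ := adj96_igen hHG hneg hax piG piH hpiG hpiH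
  have : Finite (Quotient (orbitRel G C)) := adj96_finite_cusps hax
  have hχ' : ∀ g g' : G, (fun x : G => χ x) (g * g') = (fun x : G => χ x) g + (fun x : G => χ x) g' :=
    fun g g' => hχ g g.2 g' g'.2
  have hpot' : ∀ h ∈ H.subgroupOf G, ∀ a : C, pot (h • a) = pot a + (fun x : G => ν x) h :=
    fun h hh a => hpot h (mem_subgroupOf.mp hh) a
  have hν' : ∀ x ∈ H.subgroupOf G, ∀ y ∈ H.subgroupOf G,
      (fun x : G => ν x) (x * y) = (fun x : G => ν x) x + (fun x : G => ν x) y :=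
    fun x hx y hy => hcapH.nu_mul x (mem_subgroupOf.mp hx) y (mem_subgroupOf.mp hy)
  have hκ' : ∀ x ∈ H.subgroupOf G, ∀ y ∈ H.subgroupOf G,
      (fun x : G => κ x) (x * y) = (fun x : G => κ x) x + (fun x : G => κ x) y
        + (fun x : G => ν x) x * (fun x : G => χ x) y :=
    fun x hx y hy => hcapH.kap_mul x (mem_subgroupOf.mp hx) y (mem_subgroupOf.mp hy)
  have htrans := ct77_global_setoid (H.subgroupOf G) (χ := fun x : G => χ x)
    (ν := fun x : G => ν x) (κ := fun x : G => κ x) (pot := pot) (orbitRel H C) (orbitRel G C)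
    (adj96_orbitRel_sub_iff hHG) (adj96_orbitRel_top_iff G) hχ' hpot' hν' hκ'
    piG hfix hequiv hstab piH hper
  -- cap data on `G`
  have hcapG : br96_IsCap G χ
      (adj96_ext G (ct77_nuTr (H.subgroupOf G) (fun x : G => ν x)))
      (adj96_ext G (ct77_kapG (H.subgroupOf G) (fun x : G => χ x) (fun x : G => ν x)
        (fun x : G => κ x)))
      (ct77_potTr (H.subgroupOf G) pot) := by
    refine ⟨hχ, fun a ha b hb => ?_, fun a ha b hb => ?_, fun a ha c => ?_⟩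
    · rw [adj96_ext_mem G _ (G.mul_mem ha hb), adj96_ext_mem G _ ha, adj96_ext_mem G _ hb]
      exact ct77_nuTr_mul (H.subgroupOf G) hν' ⟨a, ha⟩ ⟨b, hb⟩
    · rw [adj96_ext_mem G _ (G.mul_mem ha hb), adj96_ext_mem G _ ha, adj96_ext_mem G _ hb,
        adj96_ext_mem G _ ha]
      exact ct77_kapG_mul (H.subgroupOf G) hχ' hν' hκ' ⟨a, ha⟩ ⟨b, hb⟩
    · rw [adj96_ext_mem G _ ha]
      exact ct77_potTr_smul (H.subgroupOf G) hpot' ⟨a, ha⟩ c
  have hbrG := adj96_bridge hsecG hnegG h2 h3 hax hcapG hadG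
  -- compare the two cusp sums
  have e1 : ∑ᶠ o : Quotient (orbitRel H C),
      (χ (adj96_pi H cinf o.out) * pot o.out - κ (adj96_pi H cinf o.out))
      = ∑ᶠ o : Quotient (orbitRel G C),
        (χ (adj96_pi G cinf o.out) * ct77_potTr (H.subgroupOf G) pot o.out
          - adj96_ext G (ct77_kapG (H.subgroupOf G) (fun x : G => χ x) (fun x : G => ν x)
            (fun x : G => κ x)) (adj96_pi G cinf o.out)) := by
    simp only [← hpiH, ← hpiG] at htrans ⊢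
    rw [htrans]
    refine finsum_congr fun o => ?_
    rw [adj96_ext_mem G _ (piG o.out).2]
  rw [e1, hbrG] at hbrH
  rw [← hbrH]
  apply adj96_B_congr
  intro a b
  rw [hpotG]
  simp only [ct77_potTr]
  rw [← finsum_sub_distrib (Set.toFinite _) (Set.toFinite _)]
  rfl

/-- **Corestriction / restriction adjointness** for the Manin-model pairing: if `pot` is the
potential of a `G`-symbol, `χ'` is additive on `H` and `χG` is its corestriction (transfer) to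
`G`, then `B_H (χ', pot) = B_G (χG, pot)`. -/
theorem adj96_cores (hHG : H ≤ G) [Finite (SL(2, ℤ) ⧸ H)] (hneg : (-1 : SL(2, ℤ)) ∈ H)
    (h2 : ∀ r : R, r + r = 0 → r = 0) (h3 : ∀ r : R, r + r + r = 0 → r = 0)
    {cinf : C} (hax : adj96_CuspAx cinf)
    {secG : SL(2, ℤ) ⧸ G → SL(2, ℤ)} (hsecG : ck96_IsSection G secG) (hadG : adj96_Adapted secG)
    {secH : SL(2, ℤ) ⧸ H → SL(2, ℤ)} (hsecH : ck96_IsSection H secH) (hadH : adj96_Adapted secH)
    (χ' ν : SL(2, ℤ) → R) (pot : C → R)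
    (hχ' : ∀ a ∈ H, ∀ b ∈ H, χ' (a * b) = χ' a + χ' b)
    (hpot : ∀ g ∈ G, ∀ c, pot (g • c) = pot c + ν g)
    (χG : SL(2, ℤ) → R)
    (hχG : ∀ g (hg : g ∈ G), χG g = ∑ᶠ q : G ⧸ H.subgroupOf G,
      χ' ((ct77_h (H.subgroupOf G) ⟨g, hg⟩ q : G) : SL(2, ℤ))) :
    adj96_B secH cinf χ' pot = adj96_B secG cinf χG pot := by
  classical
  obtain ⟨hfinG, hfinGH⟩ := adj96_finite_of_le hHG
  have hnegG : (-1 : SL(2, ℤ)) ∈ G := hHG hneg
  have hνG := adj96_nu_mul cinf hpot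
  -- cap data on `H`
  obtain ⟨κ, hcapH⟩ := adj96_exists_cap hneg h2 h3 cinf hχ'
    (fun h hh c => hpot h (hHG hh) c)
  have hbrH := adj96_bridge hsecH hneg h2 h3 hax hcapH hadH
  -- the transfer
  obtain ⟨piG, hpiG⟩ : ∃ piG : C → G, ∀ c, (piG c : SL(2, ℤ)) = adj96_pi G cinf c :=
    ⟨fun c => ⟨_, adj96_pi_mem hax hnegG c⟩, fun _ => rfl⟩
  obtain ⟨piH, hpiH⟩ : ∃ piH : C → G, ∀ c, (piH c : SL(2, ℤ)) = adj96_pi H cinf c :=
    ⟨fun c => ⟨_, hHG (adj96_pi_mem hax hneg c)⟩, fun _ => rfl⟩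
  obtain ⟨hfix, hequiv, hstab, hper⟩ := adj96_igen hHG hneg hax piG piH hpiG hpiH
  have : Finite (Quotient (orbitRel G C)) := adj96_finite_cusps hax
  have hν' : ∀ g g' : G, (fun x : G => ν x) (g * g') = (fun x : G => ν x) g + (fun x : G => ν x) g' :=
    fun g g' => hνG g g.2 g' g'.2
  have hpot' : ∀ (g : G) (a : C), pot (g • a) = pot a + (fun x : G => ν x) g :=
    fun g a => hpot g g.2 a
  have hχ'' : ∀ x ∈ H.subgroupOf G, ∀ y ∈ H.subgroupOf G,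
      (fun x : G => χ' x) (x * y) = (fun x : G => χ' x) x + (fun x : G => χ' x) y :=
    fun x hx y hy => hχ' x (mem_subgroupOf.mp hx) y (mem_subgroupOf.mp hy)
  have hκ' : ∀ x ∈ H.subgroupOf G, ∀ y ∈ H.subgroupOf G,
      (fun x : G => κ x) (x * y) = (fun x : G => κ x) x + (fun x : G => κ x) y
        + (fun x : G => ν x) x * (fun x : G => χ' x) y :=
    fun x hx y hy => hcapH.kap_mul x (mem_subgroupOf.mp hx) y (mem_subgroupOf.mp hy)
  have htrans := ct77_global_cores (H.subgroupOf G) (χ' := fun x : G => χ' x)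
    (ν := fun x : G => ν x) (κ := fun x : G => κ x) (pot := pot) (orbitRel H C) (orbitRel G C)
    (adj96_orbitRel_sub_iff hHG) (adj96_orbitRel_top_iff G) hν' hpot' hχ'' hκ'
    piG hfix hequiv hstab piH hper
  have hχGeq : ∀ g (hg : g ∈ G), χG g = ct77_nuTr (H.subgroupOf G) (fun x : G => χ' x) ⟨g, hg⟩ :=
    fun g hg => hχG g hg
  -- cap data on `G`
  have hcapG : br96_IsCap G χG ν
      (adj96_ext G (ct77_kapC (H.subgroupOf G) (fun x : G => ν x) (fun x : G => χ' x)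
        (fun x : G => κ x))) pot := by
    refine ⟨fun a ha b hb => ?_, hνG, fun a ha b hb => ?_, hpot⟩
    · rw [hχGeq _ (G.mul_mem ha hb), hχGeq _ ha, hχGeq _ hb]
      exact ct77_nuTr_mul (H.subgroupOf G) hχ'' ⟨a, ha⟩ ⟨b, hb⟩
    · rw [adj96_ext_mem G _ (G.mul_mem ha hb), adj96_ext_mem G _ ha, adj96_ext_mem G _ hb,
        hχGeq _ hb]
      exact ct77_kapC_mul (H.subgroupOf G) hν' hχ'' hκ' ⟨a, ha⟩ ⟨b, hb⟩
  have hbrG := adj96_bridge hsecG hnegG h2 h3 hax hcapG hadG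
  have e1 : ∑ᶠ o : Quotient (orbitRel H C),
      (χ' (adj96_pi H cinf o.out) * pot o.out - κ (adj96_pi H cinf o.out))
      = ∑ᶠ o : Quotient (orbitRel G C),
        (χG (adj96_pi G cinf o.out) * pot o.out
          - adj96_ext G (ct77_kapC (H.subgroupOf G) (fun x : G => ν x) (fun x : G => χ' x)
            (fun x : G => κ x)) (adj96_pi G cinf o.out)) := by
    simp only [← hpiH, ← hpiG] at htrans ⊢
    rw [htrans]
    refine finsum_congr fun o => ?_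
    rw [adj96_ext_mem G _ (piG o.out).2, hχGeq _ (piG o.out).2]
  rw [e1, hbrG] at hbrH
  exact hbrH.symm

end Transfer

end Fermat.Agent.S41
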