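/-
S41 / M3 (D3): the concrete cusp layer for subgroups of `SL(2, ℤ)` and conjugation invariance of
the cap-product cusp sum under `GL(2, ℚ)⁺` (Mathlib + `CapCores77` only).

* `cj77_CuspAx C cinf`: axioms of a cusp set for `SL(2, ℤ)` (transitive, `Stab cinf = {c = 0}`).
* `P : C → SL(2, ℤ)` with `P (g • cinf) = g * T * g⁻¹` (existence: `cj77_exists_P`),
  `cj77_pi Γ P c = P c ^ (least w > 0 with P c ^ w ∈ Γ)`: the positive generator of the stabiliser
  of `c` in `Γ` (mod `±1`).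
* the hypotheses of `ct77_global_setoid` / `ct77_global_cores` for every pair `H ≤ G ≤ SL(2, ℤ)`.
* (D3): `α ∈ GL(2, ℚ)`, `det α > 0`, `H' = α H α⁻¹`, both in `SL(2, ℤ)`:
  `α * cj77_pi H P c * α⁻¹ = cj77_pi H' P (α • c)` and invariance of the cusp sum.
-/
import Mathlib
import Fermat.Agent.S41.CapCores77

set_option autoImplicit false
set_option linter.unusedSectionVars false

open scoped MatrixGroups
open ModularGroup MulAction Subgroup Function
open Matrix.SpecialLinearGroup (mapGL)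

namespace Fermat.Agent.S41

/-- Axioms of a cusp set for `SL(2, ℤ)`: transitive, and the stabiliser of `cinf` is the group
of upper triangular matrices. -/
structure cj77_CuspAx (C : Type*) [MulAction SL(2, ℤ) C] (cinf : C) : Prop where
  trans : ∀ c : C, ∃ g : SL(2, ℤ), g • cinf = c
  stab : ∀ g : SL(2, ℤ), g • cinf = cinf ↔ g 1 0 = 0

section SL2Z

/-- an upper triangular element of `SL(2, ℤ)` is `± T ^ n`. -/
theorem cj77_upper (g : SL(2, ℤ)) (hc : g 1 0 = 0) : ∃ n : ℤ, g = T ^ n ∨ g = -T ^ n := by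
  have had := g.det_coe
  replace had : g 0 0 * g 1 1 = 1 := by rw [Matrix.det_fin_two, hc] at had; lia
  rcases Int.eq_one_or_neg_one_of_mul_eq_one' had with (⟨ha, hd⟩ | ⟨ha, hd⟩)
  · refine ⟨g 0 1, Or.inl ?_⟩
    ext i j; fin_cases i <;> fin_cases j <;>
      simp [ha, hc, hd, coe_T_zpow, show (1 : Fin (0 + 2)) = (1 : Fin 2) from rfl]
  · refine ⟨-(g 0 1), Or.inr ?_⟩
    ext i j; fin_cases i <;> fin_cases j <;>
      simp [ha, hc, hd, coe_T_zpow, show (1 : Fin (0 + 2)) = (1 : Fin 2) from rfl]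

theorem cj77_neg_one_comm (g : SL(2, ℤ)) : (-1 : SL(2, ℤ)) * g = g * (-1) := by
  ext i j
  simp

theorem cj77_neg_eq (g : SL(2, ℤ)) : -g = (-1 : SL(2, ℤ)) * g := by
  ext i j
  simp

theorem cj77_neg_conj (x y : SL(2, ℤ)) : (-x) * y * (-x)⁻¹ = x * y * x⁻¹ := by
  rw [inv_neg, neg_mul, neg_mul, mul_neg, neg_neg]

/-- upper triangular elements commute with `T`. -/
theorem cj77_upper_comm (g : SL(2, ℤ)) (hc : g 1 0 = 0) : g * T * g⁻¹ = T := by
  have key : ∀ n : ℤ, T ^ n * T * (T ^ n)⁻¹ = T := by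
    intro n
    rw [← zpow_neg, ← zpow_add_one, ← zpow_add]
    simp
  obtain ⟨n, rfl | rfl⟩ := cj77_upper g hc
  · exact key n
  · rw [cj77_neg_conj]
    exact key n

variable {C : Type*} [MulAction SL(2, ℤ) C] {cinf : C}

/-- existence of the map `c ↦ P c`, the positive generator of the unipotent stabiliser. -/
theorem cj77_exists_P (ax : cj77_CuspAx C cinf) :
    ∃ P : C → SL(2, ℤ), ∀ g : SL(2, ℤ), P (g • cinf) = g * T * g⁻¹ := by
  classical
  refine ⟨fun c => (ax.trans c).choose * T * (ax.trans c).choose⁻¹, fun g => ?_⟩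
  have h := (ax.trans (g • cinf)).choose_spec
  change (ax.trans (g • cinf)).choose * T * (ax.trans (g • cinf)).choose⁻¹ = g * T * g⁻¹
  set g' := (ax.trans (g • cinf)).choose with hg'
  have h1 : (g⁻¹ * g') • cinf = cinf := by
    rw [mul_smul, h, inv_smul_smul]
  have h2 := cj77_upper_comm _ ((ax.stab _).mp h1)
  have h3 : g' * T * g'⁻¹ = g * ((g⁻¹ * g') * T * (g⁻¹ * g')⁻¹) * g⁻¹ := by group
  rw [h3, h2]

variable (ax : cj77_CuspAx C cinf) (P : C → SL(2, ℤ))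
  (hP : ∀ g : SL(2, ℤ), P (g • cinf) = g * T * g⁻¹)

include ax hP

theorem cj77_P_fix (c : C) : P c • c = c := by
  obtain ⟨g, rfl⟩ := ax.trans c
  rw [hP, ← mul_smul, inv_mul_cancel_right, mul_smul]
  congr 1
  exact (ax.stab T).mpr (by simp [ModularGroup.T])

omit ax in
theorem cj77_P_equiv_aux (g g0 : SL(2, ℤ)) : P (g • g0 • cinf) = g * P (g0 • cinf) * g⁻¹ := by
  rw [← mul_smul, hP, hP]
  group

theorem cj77_P_equiv (g : SL(2, ℤ)) (c : C) : P (g • c) = g * P c * g⁻¹ := by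
  obtain ⟨g0, rfl⟩ := ax.trans c
  exact cj77_P_equiv_aux P hP g g0

/-- the stabiliser of `c` is `± ⟨P c⟩`. -/
theorem cj77_P_stab (c : C) (g : SL(2, ℤ)) (hg : g • c = c) :
    ∃ n : ℤ, g = P c ^ n ∨ g = -P c ^ n := by
  obtain ⟨g0, rfl⟩ := ax.trans c
  have h1 : (g0⁻¹ * g * g0) • cinf = cinf := by
    rw [mul_smul, mul_smul, hg, inv_smul_smul]
  obtain ⟨n, h | h⟩ := cj77_upper _ ((ax.stab _).mp h1)
  · refine ⟨n, Or.inl ?_⟩
    rw [hP, conj_zpow, ← h]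
    group
  · refine ⟨n, Or.inr ?_⟩
    have h2 : g = g0 * (g0⁻¹ * g * g0) * g0⁻¹ := by group
    rw [hP, conj_zpow, h2, h, mul_neg, neg_mul]


/-! ### The positive generator of the stabiliser in a subgroup -/

omit ax hP in
/-- the period (relative width) of the cusp `c` for `Γ`. -/
noncomputable def cj77_w (Γ : Subgroup SL(2, ℤ)) (P : C → SL(2, ℤ)) (c : C) : ℕ :=
  minimalPeriod (P c • ·) ((1 : SL(2, ℤ)) : SL(2, ℤ) ⧸ Γ)

omit ax hP in
/-- the positive generator of the stabiliser of `c` in `Γ` (mod `±1`). -/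
noncomputable def cj77_pi (Γ : Subgroup SL(2, ℤ)) (P : C → SL(2, ℤ)) (c : C) : SL(2, ℤ) :=
  P c ^ cj77_w Γ P c

omit ax hP in
theorem cj77_pi_mem (Γ : Subgroup SL(2, ℤ)) (c : C) : cj77_pi Γ P c ∈ Γ :=
  ct77_piH_mem' Γ (P c)

omit ax hP in
theorem cj77_pow_mem_iff (Γ : Subgroup SL(2, ℤ)) (c : C) (n : ℕ) :
    P c ^ n ∈ Γ ↔ cj77_w Γ P c ∣ n := by
  rw [← ct77_pow_mem_iff, cj77_w, MulAction.pow_smul_eq_iff_minimalPeriod_dvd]

omit ax hP in
theorem cj77_zpow_mem_iff (Γ : Subgroup SL(2, ℤ)) (c : C) (n : ℤ) :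
    P c ^ n ∈ Γ ↔ (cj77_w Γ P c : ℤ) ∣ n := by
  rw [cj77_w, ← MulAction.zpow_smul_eq_iff_minimalPeriod_dvd]
  rw [show P c ^ n • ((1 : SL(2, ℤ)) : SL(2, ℤ) ⧸ Γ) = ((P c ^ n * 1 : SL(2, ℤ)) : SL(2, ℤ) ⧸ Γ)
    from rfl, QuotientGroup.eq]
  constructor
  · intro h
    have := Γ.inv_mem h
    simpa using this
  · intro h
    have := Γ.inv_mem h
    simpa using this

omit ax hP in
theorem cj77_w_pos (Γ : Subgroup SL(2, ℤ)) [Finite (SL(2, ℤ) ⧸ Γ)] (c : C) :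
    0 < cj77_w Γ P c := by
  have : Finite (orbit (zpowers (P c)) ((1 : SL(2, ℤ)) : SL(2, ℤ) ⧸ Γ)) := inferInstance
  exact Nat.pos_of_ne_zero
    (MulAction.minimalPeriod_pos (a := P c) (b := ((1 : SL(2, ℤ)) : SL(2, ℤ) ⧸ Γ))).out

theorem cj77_pi_fix (Γ : Subgroup SL(2, ℤ)) (c : C) : cj77_pi Γ P c • c = c :=
  ct77_piH_fix Γ P (cj77_pi Γ P) (cj77_P_fix ax P hP) (fun _ => rfl) c

theorem cj77_pi_equiv (Γ : Subgroup SL(2, ℤ)) (k : SL(2, ℤ)) (hk : k ∈ Γ) (c : C) :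
    cj77_pi Γ P (k • c) = k * cj77_pi Γ P c * k⁻¹ :=
  ct77_piH_equiv Γ P (cj77_pi Γ P) (cj77_P_equiv ax P hP) (fun _ => rfl) k hk c

omit ax hP in
/-- monotonicity of periods: `w_G ∣ w_H` for `H ≤ G`. -/
theorem cj77_w_dvd {H G : Subgroup SL(2, ℤ)} (hHG : H ≤ G) (c : C) :
    cj77_w G P c ∣ cj77_w H P c := by
  rw [← cj77_pow_mem_iff]
  exact hHG ((cj77_pow_mem_iff P H c _).mpr dvd_rfl)

/-! ### Pairs `H ≤ G ≤ SL(2, ℤ)`: the hypotheses of `ct77_global_setoid` -/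

section Pair

variable (H G : Subgroup SL(2, ℤ)) (hHG : H ≤ G)

omit ax hP in
/-- `piG` as a map into the group `↥G`. -/
noncomputable def cj77_piG (G : Subgroup SL(2, ℤ)) (P : C → SL(2, ℤ)) (c : C) : ↥G :=
  ⟨cj77_pi G P c, cj77_pi_mem P G c⟩

omit ax hP in
/-- `piH` as a map into the group `↥G`. -/
noncomputable def cj77_piHG (H G : Subgroup SL(2, ℤ)) (hHG : H ≤ G) (P : C → SL(2, ℤ)) (c : C) :
    ↥G :=
  ⟨cj77_pi H P c, hHG (cj77_pi_mem P H c)⟩

theorem cj77_pair_fix (c : C) : cj77_piG G P c • c = c :=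
  cj77_pi_fix ax P hP G c

theorem cj77_pair_equiv (g : ↥G) (c : C) :
    cj77_piG G P (g • c) = g * cj77_piG G P c * g⁻¹ := by
  apply Subtype.ext
  exact cj77_pi_equiv ax P hP G g g.2 c

omit ax hP in
/-- powers of `piG c` lying in `H`. -/
theorem cj77_piG_pow_mem_iff (c : C) (j : ℕ) :
    cj77_piG G P c ^ j ∈ H.subgroupOf G ↔ cj77_w H P c ∣ cj77_w G P c * j := by
  rw [Subgroup.mem_subgroupOf, ← cj77_pow_mem_iff, pow_mul]
  rfl

omit ax hP in
include hHG in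
/-- the relative period: `w_H = w_G * (period of piG c on G ⧸ H)`. -/
theorem cj77_w_mul (c : C) :
    cj77_w H P c = cj77_w G P c *
      minimalPeriod (cj77_piG G P c • ·) ((1 : ↥G) : ↥G ⧸ H.subgroupOf G) := by
  set m := minimalPeriod (cj77_piG G P c • ·) ((1 : ↥G) : ↥G ⧸ H.subgroupOf G) with hm
  have hmj : ∀ j : ℕ, m ∣ j ↔ cj77_w H P c ∣ cj77_w G P c * j := by
    intro j
    rw [← cj77_piG_pow_mem_iff, hm, ← MulAction.pow_smul_eq_iff_minimalPeriod_dvd,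
      ct77_pow_mem_iff]
  obtain ⟨t, ht⟩ := cj77_w_dvd P hHG c
  rcases Nat.eq_zero_or_pos (cj77_w G P c) with h0 | hpos
  · rw [ht, h0]
    simp
  · have h1 : m ∣ t := by
      rw [hmj, ht]
    have h2 : t ∣ m := by
      have := (hmj m).mp dvd_rfl
      rw [ht] at this
      exact Nat.dvd_of_mul_dvd_mul_left hpos this
    rw [ht, Nat.dvd_antisymm h1 h2]

omit ax hP in
include hHG in
theorem cj77_pair_piH (c : C) :
    cj77_piHG H G hHG P c = cj77_piG G P c ^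
      minimalPeriod (cj77_piG G P c • ·) ((1 : ↥G) : ↥G ⧸ H.subgroupOf G) := by
  apply Subtype.ext
  rw [Subgroup.coe_pow]
  change cj77_pi H P c = cj77_pi G P c ^ _
  rw [cj77_pi, cj77_pi, ← pow_mul, ← cj77_w_mul P H G hHG c]


omit ax hP in
include hHG in
/-- `-1 ∈ H` acts trivially on `G ⧸ H`. -/
theorem cj77_neg_one_smul (hneg : (-1 : SL(2, ℤ)) ∈ H) (q : ↥G ⧸ H.subgroupOf G) :
    (⟨-1, hHG hneg⟩ : ↥G) • q = q := by
  induction q using QuotientGroup.induction_on with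
  | H x =>
    rw [show (⟨-1, hHG hneg⟩ : ↥G) • ((x : ↥G) : ↥G ⧸ H.subgroupOf G)
      = (((⟨-1, hHG hneg⟩ : ↥G) * x : ↥G) : ↥G ⧸ H.subgroupOf G) from rfl, QuotientGroup.eq,
      Subgroup.mem_subgroupOf]
    have h1 : (((⟨-1, hHG hneg⟩ : ↥G) * x)⁻¹ * x : ↥G) = (⟨-1, hHG hneg⟩ : ↥G) := by
      apply Subtype.ext
      simp only [Subgroup.coe_mul, Subgroup.coe_inv, mul_inv_rev]
      rw [mul_assoc, inv_neg, inv_one, neg_mul, one_mul, mul_neg, inv_mul_cancel]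
    rw [h1]
    exact hneg

include hHG in
/-- the stabiliser of `c` in `G` has the same orbits on `G ⧸ H` as `⟨piG c⟩`. -/
theorem cj77_pair_stab (hneg : (-1 : SL(2, ℤ)) ∈ H) (c : C) (g : ↥G) (hg : g • c = c)
    (q : ↥G ⧸ H.subgroupOf G) : ∃ k : ℤ, g • q = cj77_piG G P c ^ k • q := by
  have hgc : (g : SL(2, ℤ)) • c = c := hg
  obtain ⟨n, h | h⟩ := cj77_P_stab ax P hP c (g : SL(2, ℤ)) hgc
  · have hmem : P c ^ n ∈ G := h ▸ g.2
    obtain ⟨k, hk⟩ := (cj77_zpow_mem_iff P G c n).mp hmem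
    refine ⟨k, ?_⟩
    have : g = cj77_piG G P c ^ k := by
      apply Subtype.ext
      rw [Subgroup.coe_zpow, h, hk, zpow_mul, zpow_natCast]
      rfl
    rw [this]
  · have hmem : P c ^ n ∈ G := by
      have h1 : P c ^ n = (-1 : SL(2, ℤ)) * g := by
        rw [h, ← cj77_neg_eq, neg_neg]
      rw [h1]
      exact G.mul_mem (hHG hneg) g.2
    obtain ⟨k, hk⟩ := (cj77_zpow_mem_iff P G c n).mp hmem
    refine ⟨k, ?_⟩
    have : g = (⟨-1, hHG hneg⟩ : ↥G) * cj77_piG G P c ^ k := by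
      apply Subtype.ext
      rw [Subgroup.coe_mul, Subgroup.coe_zpow, h, hk, zpow_mul, zpow_natCast, ← cj77_neg_eq]
      rfl
    rw [this, mul_smul, cj77_neg_one_smul H G hHG hneg]

end Pair

end SL2Z

end Fermat.Agent.S41
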