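/-
S41 / M3 (D3): conjugation invariance of the cap-product cusp sum (Mathlib + `CapConj77` +
`Bridge96`).

Setting: a cusp set `C` with compatible actions of `SL(2, ℤ)` and `GL(2, ℚ)`
(`hcompat : mapGL ℚ g • c = g • c`), `cj77_CuspAx C cinf`, and
`hstabGL : β • cinf = cinf → β 1 0 = 0`.

* `cj77_conj_pi`: for `α ∈ GL(2, ℚ)`, `det α > 0`, `α H α⁻¹ = H'` (both of finite index in
  `SL(2, ℤ)`): `α * cj77_pi H P c * α⁻¹ = cj77_pi H' P (α • c)`.
* `cj77_D3`: for `a` normalising `H` through `cw`, cap data `(χ, ν, κ, pot)` on `H`: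
  `(χ ∘ cw, ν ∘ cw, κ ∘ cw, pot (a • ·))` is cap data and has the same cusp sum.
* `cj77_cuspAx_onePoint`, `cj77_stabGL_onePoint`: the axioms for `OnePoint ℚ`.
-/
import Mathlib
import Fermat.Agent.S41.CapConj77
import Fermat.Agent.S41.Bridge96

set_option autoImplicit false
set_option linter.unusedSectionVars false

open scoped MatrixGroups
open ModularGroup MulAction Subgroup Function
open Matrix.SpecialLinearGroup (mapGL)

namespace Fermat.Agent.S41

/-! ### Matrix computations -/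

theorem cj77_T_zpow_eq (k : SL(2, ℤ)) (h00 : k 0 0 = 1) (h10 : k 1 0 = 0) (h11 : k 1 1 = 1) :
    k = T ^ (k 0 1) := by
  ext i j; fin_cases i <;> fin_cases j <;>
    simp [h00, h10, h11, coe_T_zpow, show (1 : Fin (0 + 2)) = (1 : Fin 2) from rfl]

theorem cj77_det_upper (β : GL (Fin 2) ℚ) (hβ : β 1 0 = 0) :
    β 0 0 * β 1 1 = (β : Matrix (Fin 2) (Fin 2) ℚ).det := by
  rw [Matrix.det_fin_two]
  have : (β : Matrix (Fin 2) (Fin 2) ℚ) 1 0 = 0 := hβ
  rw [this]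
  ring

/-- `k β = β T ^ n` with `β` upper triangular forces `k = T ^ m`, `m β₁₁ = n β₀₀`. -/
theorem cj77_conj_upper (β : GL (Fin 2) ℚ) (hβ : β 1 0 = 0) (k : SL(2, ℤ)) (n : ℤ)
    (h : mapGL ℚ k * β = β * mapGL ℚ (T ^ n)) :
    ∃ m : ℤ, k = T ^ m ∧ (m : ℚ) * β 1 1 = n * β 0 0 := by
  have hdet := cj77_det_upper β hβ
  have hdet0 : (β : Matrix (Fin 2) (Fin 2) ℚ).det ≠ 0 := Matrix.GeneralLinearGroup.det_ne_zero β
  have ha : β 0 0 ≠ 0 := by
    intro h0; rw [h0, zero_mul] at hdet; exact hdet0 hdet.symm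
  have hd : β 1 1 ≠ 0 := by
    intro h0; rw [h0, mul_zero] at hdet; exact hdet0 hdet.symm
  have hM : (mapGL ℚ k : Matrix (Fin 2) (Fin 2) ℚ) * (β : Matrix (Fin 2) (Fin 2) ℚ)
      = (β : Matrix (Fin 2) (Fin 2) ℚ) * (mapGL ℚ (T ^ n) : Matrix (Fin 2) (Fin 2) ℚ) := by
    have := congrArg (fun x : GL (Fin 2) ℚ => (x : Matrix (Fin 2) (Fin 2) ℚ)) h
    simpa using this
  have e00 := congrFun (congrFun hM 0) 0
  have e01 := congrFun (congrFun hM 0) 1
  have e10 := congrFun (congrFun hM 1) 0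
  have e11 := congrFun (congrFun hM 1) 1
  have hβ' : (β : Matrix (Fin 2) (Fin 2) ℚ) 1 0 = 0 := hβ
  simp only [Matrix.mul_apply, Fin.sum_univ_two, Matrix.SpecialLinearGroup.mapGL_coe_matrix,
    Matrix.SpecialLinearGroup.map_apply_coe, RingHom.mapMatrix_apply, Matrix.map_apply,
    algebraMap_int_eq, eq_intCast, coe_T_zpow, hβ', mul_zero, add_zero, zero_mul, zero_add,
    Matrix.of_apply, Matrix.cons_val', Matrix.cons_val_zero, Matrix.cons_val_one,
    Matrix.cons_val_fin_one, Int.cast_one, Int.cast_zero, mul_one] at e00 e01 e10 e11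
  have h10 : k 1 0 = 0 := by
    have : ((k 1 0 : ℤ) : ℚ) = 0 := by
      rcases mul_eq_zero.mp e10 with h0 | h0
      · exact h0
      · exact absurd h0 ha
    exact_mod_cast this
  have h00 : k 0 0 = 1 := by
    have : ((k 0 0 : ℤ) : ℚ) = 1 := by
      have h1 : (((k 0 0 : ℤ) : ℚ) - 1) * β 0 0 = 0 := by linear_combination e00
      rcases mul_eq_zero.mp h1 with h0 | h0
      · linear_combination h0
      · exact absurd h0 ha
    exact_mod_cast this
  have h11 : k 1 1 = 1 := by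
    have h10' : ((k 1 0 : ℤ) : ℚ) = 0 := by exact_mod_cast h10
    have : ((k 1 1 : ℤ) : ℚ) = 1 := by
      have h1 : (((k 1 1 : ℤ) : ℚ) - 1) * β 1 1 = 0 := by
        rw [h10', zero_mul, zero_add] at e11
        linear_combination e11
      rcases mul_eq_zero.mp h1 with h0 | h0
      · linear_combination h0
      · exact absurd h0 hd
    exact_mod_cast this
  refine ⟨k 0 1, cj77_T_zpow_eq k h00 h10 h11, ?_⟩
  have h00' : ((k 0 0 : ℤ) : ℚ) = 1 := by exact_mod_cast h00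
  rw [h00', one_mul] at e01
  linear_combination e01

/-- `T ^ n β = β k` with `β` upper triangular forces `k = T ^ m`, `m β₀₀ = n β₁₁`. -/
theorem cj77_conj_upper' (β : GL (Fin 2) ℚ) (hβ : β 1 0 = 0) (k : SL(2, ℤ)) (n : ℤ)
    (h : mapGL ℚ (T ^ n) * β = β * mapGL ℚ k) :
    ∃ m : ℤ, k = T ^ m ∧ (m : ℚ) * β 0 0 = n * β 1 1 := by
  have hdet := cj77_det_upper β hβ
  have hdet0 : (β : Matrix (Fin 2) (Fin 2) ℚ).det ≠ 0 := Matrix.GeneralLinearGroup.det_ne_zero β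
  have ha : β 0 0 ≠ 0 := by
    intro h0; rw [h0, zero_mul] at hdet; exact hdet0 hdet.symm
  have hd : β 1 1 ≠ 0 := by
    intro h0; rw [h0, mul_zero] at hdet; exact hdet0 hdet.symm
  have hM : (mapGL ℚ (T ^ n) : Matrix (Fin 2) (Fin 2) ℚ) * (β : Matrix (Fin 2) (Fin 2) ℚ)
      = (β : Matrix (Fin 2) (Fin 2) ℚ) * (mapGL ℚ k : Matrix (Fin 2) (Fin 2) ℚ) := by
    have := congrArg (fun x : GL (Fin 2) ℚ => (x : Matrix (Fin 2) (Fin 2) ℚ)) h
    simpa using this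
  have e00 := congrFun (congrFun hM 0) 0
  have e01 := congrFun (congrFun hM 0) 1
  have e10 := congrFun (congrFun hM 1) 0
  have e11 := congrFun (congrFun hM 1) 1
  have hβ' : (β : Matrix (Fin 2) (Fin 2) ℚ) 1 0 = 0 := hβ
  simp only [Matrix.mul_apply, Fin.sum_univ_two, Matrix.SpecialLinearGroup.mapGL_coe_matrix,
    Matrix.SpecialLinearGroup.map_apply_coe, RingHom.mapMatrix_apply, Matrix.map_apply,
    algebraMap_int_eq, eq_intCast, coe_T_zpow, hβ', mul_zero, add_zero, zero_mul, zero_add,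
    Matrix.of_apply, Matrix.cons_val', Matrix.cons_val_zero, Matrix.cons_val_one,
    Matrix.cons_val_fin_one, Int.cast_one, Int.cast_zero, one_mul] at e00 e01 e10 e11
  have h10 : k 1 0 = 0 := by
    have : ((k 1 0 : ℤ) : ℚ) = 0 := by
      rcases mul_eq_zero.mp e10.symm with h0 | h0
      · exact absurd h0 hd
      · exact h0
    exact_mod_cast this
  have h10' : ((k 1 0 : ℤ) : ℚ) = 0 := by exact_mod_cast h10
  have h11 : k 1 1 = 1 := by
    have : ((k 1 1 : ℤ) : ℚ) = 1 := by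
      have h1 : (((k 1 1 : ℤ) : ℚ) - 1) * β 1 1 = 0 := by linear_combination -e11
      rcases mul_eq_zero.mp h1 with h0 | h0
      · linear_combination h0
      · exact absurd h0 hd
    exact_mod_cast this
  have h00 : k 0 0 = 1 := by
    have : ((k 0 0 : ℤ) : ℚ) = 1 := by
      have h1 : (((k 0 0 : ℤ) : ℚ) - 1) * β 0 0 = 0 := by
        rw [h10', mul_zero, add_zero] at e00
        linear_combination -e00
      rcases mul_eq_zero.mp h1 with h0 | h0
      · linear_combination h0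
      · exact absurd h0 ha
    exact_mod_cast this
  refine ⟨k 0 1, cj77_T_zpow_eq k h00 h10 h11, ?_⟩
  have h11' : ((k 1 1 : ℤ) : ℚ) = 1 := by exact_mod_cast h11
  rw [h11', mul_one] at e01
  linear_combination -e01

/-! ### The hypotheses of `br96_bridge` from `cj77_CuspAx` -/

section Ax

variable {C : Type*} [MulAction SL(2, ℤ) C] {cinf : C}

theorem cj77_CuspAx.T_fix (ax : cj77_CuspAx C cinf) : (T : SL(2, ℤ)) • cinf = cinf :=
  (ax.stab T).mpr (by simp [ModularGroup.T])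

theorem cj77_CuspAx.neg_fix (ax : cj77_CuspAx C cinf) : (-1 : SL(2, ℤ)) • cinf = cinf :=
  (ax.stab (-1)).mpr (by simp)

theorem cj77_CuspAx.stab_T (ax : cj77_CuspAx C cinf) (g : SL(2, ℤ)) (hg : g • cinf = cinf) :
    ∃ k : ℤ, g = T ^ k ∨ g = -T ^ k :=
  cj77_upper g ((ax.stab g).mp hg)

end Ax

/-! ### Conjugation of the positive generators -/

variable {C : Type*} [MulAction SL(2, ℤ) C] [MulAction (GL (Fin 2) ℚ) C] {cinf : C}

section Conj

variable (hcompat : ∀ (g : SL(2, ℤ)) (c : C), mapGL ℚ g • c = g • c)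
  (hstabGL : ∀ β : GL (Fin 2) ℚ, β • cinf = cinf → β 1 0 = 0)

include hcompat hstabGL

/-- the transporter `β = g'⁻¹ α g` between two cusps is upper triangular. -/
theorem cj77_beta_upper (α : GL (Fin 2) ℚ) (g g' : SL(2, ℤ)) (hg : α • (g • cinf) = g' • cinf) :
    ((mapGL ℚ g')⁻¹ * α * mapGL ℚ g : GL (Fin 2) ℚ) 1 0 = 0 := by
  apply hstabGL
  rw [mul_smul, mul_smul, hcompat, hg, ← hcompat g', inv_smul_smul]

omit hcompat hstabGL in
theorem cj77_beta_det (α : GL (Fin 2) ℚ) (g g' : SL(2, ℤ)) :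
    (((mapGL ℚ g')⁻¹ * α * mapGL ℚ g : GL (Fin 2) ℚ) : Matrix (Fin 2) (Fin 2) ℚ).det
      = (α : Matrix (Fin 2) (Fin 2) ℚ).det := by
  rw [← Matrix.GeneralLinearGroup.val_det_apply, ← Matrix.GeneralLinearGroup.val_det_apply,
    map_mul, map_mul, map_inv, Matrix.SpecialLinearGroup.det_mapGL,
    Matrix.SpecialLinearGroup.det_mapGL, inv_one, one_mul, mul_one]

/-- step (A): conjugating `g T ^ n g⁻¹` by `α`. -/
theorem cj77_conj_stepA (α : GL (Fin 2) ℚ) (g g' : SL(2, ℤ)) (hg : α • (g • cinf) = g' • cinf)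
    (n : ℤ) (h' : SL(2, ℤ)) (hh : mapGL ℚ h' * α = α * mapGL ℚ (g * T ^ n * g⁻¹)) :
    ∃ m : ℤ, h' = g' * T ^ m * g'⁻¹ ∧
      (m : ℚ) * ((mapGL ℚ g')⁻¹ * α * mapGL ℚ g : GL (Fin 2) ℚ) 1 1 =
        n * ((mapGL ℚ g')⁻¹ * α * mapGL ℚ g : GL (Fin 2) ℚ) 0 0 := by
  have hβ := cj77_beta_upper hcompat hstabGL α g g' hg
  have hk : mapGL ℚ (g'⁻¹ * h' * g') * ((mapGL ℚ g')⁻¹ * α * mapGL ℚ g)
      = ((mapGL ℚ g')⁻¹ * α * mapGL ℚ g) * mapGL ℚ (T ^ n) := by
    have e1 : mapGL ℚ (g'⁻¹ * h' * g') * ((mapGL ℚ g')⁻¹ * α * mapGL ℚ g)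
        = (mapGL ℚ g')⁻¹ * (mapGL ℚ h' * α) * mapGL ℚ g := by
      simp only [map_mul, map_inv]
      group
    rw [e1, hh]
    simp only [map_mul, map_inv]
    group
  obtain ⟨m, hm, hm'⟩ := cj77_conj_upper _ hβ _ n hk
  refine ⟨m, ?_, hm'⟩
  rw [← hm]
  group

/-- step (B): conjugating `g' T ^ n g'⁻¹` by `α⁻¹`. -/
theorem cj77_conj_stepB (α : GL (Fin 2) ℚ) (g g' : SL(2, ℤ)) (hg : α • (g • cinf) = g' • cinf)
    (n : ℤ) (h : SL(2, ℤ)) (hh : mapGL ℚ (g' * T ^ n * g'⁻¹) * α = α * mapGL ℚ h) :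
    ∃ m : ℤ, h = g * T ^ m * g⁻¹ ∧
      (m : ℚ) * ((mapGL ℚ g')⁻¹ * α * mapGL ℚ g : GL (Fin 2) ℚ) 0 0 =
        n * ((mapGL ℚ g')⁻¹ * α * mapGL ℚ g : GL (Fin 2) ℚ) 1 1 := by
  have hβ := cj77_beta_upper hcompat hstabGL α g g' hg
  have hk : mapGL ℚ (T ^ n) * ((mapGL ℚ g')⁻¹ * α * mapGL ℚ g)
      = ((mapGL ℚ g')⁻¹ * α * mapGL ℚ g) * mapGL ℚ (g⁻¹ * h * g) := by
    have e1 : mapGL ℚ (T ^ n) * ((mapGL ℚ g')⁻¹ * α * mapGL ℚ g)
        = (mapGL ℚ g')⁻¹ * (mapGL ℚ (g' * T ^ n * g'⁻¹) * α) * mapGL ℚ g := by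
      simp only [map_mul, map_inv]
      group
    rw [e1, hh]
    simp only [map_mul, map_inv]
    group
  obtain ⟨m, hm, hm'⟩ := cj77_conj_upper' _ hβ _ n hk
  refine ⟨m, ?_, hm'⟩
  rw [← hm]
  group

variable (ax : cj77_CuspAx C cinf) (P : C → SL(2, ℤ))
  (hP : ∀ g : SL(2, ℤ), P (g • cinf) = g * T * g⁻¹)

include ax hP

/-- **(D3), key lemma.** Conjugation by `α ∈ GL(2, ℚ)`, `det α > 0`, with `α H α⁻¹ = H'`,
maps the positive generator of the stabiliser of `c` in `H` to that of `α • c` in `H'`. -/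
theorem cj77_conj_pi (α : GL (Fin 2) ℚ) (hα : 0 < (α : Matrix (Fin 2) (Fin 2) ℚ).det)
    (H H' : Subgroup SL(2, ℤ)) [Finite (SL(2, ℤ) ⧸ H)] [Finite (SL(2, ℤ) ⧸ H')]
    (h12 : ∀ h ∈ H, ∃ h' ∈ H', mapGL ℚ h' * α = α * mapGL ℚ h)
    (h21 : ∀ h' ∈ H', ∃ h ∈ H, mapGL ℚ h' * α = α * mapGL ℚ h) (c : C) :
    mapGL ℚ (cj77_pi H' P (α • c)) * α = α * mapGL ℚ (cj77_pi H P c) := by
  obtain ⟨g, rfl⟩ := ax.trans c
  obtain ⟨g', hg'⟩ := ax.trans (α • (g • cinf))
  have hg : α • (g • cinf) = g' • cinf := hg'.symm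
  have hβ := cj77_beta_upper hcompat hstabGL α g g' hg
  have hdet := cj77_det_upper _ hβ
  rw [cj77_beta_det] at hdet
  set a : ℚ := ((mapGL ℚ g')⁻¹ * α * mapGL ℚ g : GL (Fin 2) ℚ) 0 0 with ha
  set d : ℚ := ((mapGL ℚ g')⁻¹ * α * mapGL ℚ g : GL (Fin 2) ℚ) 1 1 with hd
  have had : 0 < a * d := hdet ▸ hα
  have hw : 0 < cj77_w H P (g • cinf) := cj77_w_pos P H _
  have hw' : 0 < cj77_w H' P (α • (g • cinf)) := cj77_w_pos P H' _
  set w := cj77_w H P (g • cinf) with hwdef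
  set w' := cj77_w H' P (α • (g • cinf)) with hwdef'
  -- shapes of the two generators
  have hpi : cj77_pi H P (g • cinf) = g * T ^ (w : ℤ) * g⁻¹ := by
    rw [cj77_pi, hP, conj_pow, zpow_natCast]
  have hpi' : cj77_pi H' P (α • (g • cinf)) = g' * T ^ (w' : ℤ) * g'⁻¹ := by
    rw [cj77_pi, hg, hP, conj_pow, zpow_natCast, ← hg]
  -- direction (A)
  obtain ⟨h', hh'mem, hh'⟩ := h12 _ (cj77_pi_mem P H (g • cinf))
  rw [hpi] at hh'
  obtain ⟨m, hm, hmrel⟩ := cj77_conj_stepA hcompat hstabGL α g g' hg _ h' hh'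
  have hm_mem : P (α • (g • cinf)) ^ m ∈ H' := by
    rw [hg, hP, conj_zpow, ← hm]
    exact hh'mem
  obtain ⟨s, hs⟩ := (cj77_zpow_mem_iff P H' _ m).mp hm_mem
  -- direction (B)
  obtain ⟨h, hhmem, hh⟩ := h21 _ (cj77_pi_mem P H' (α • (g • cinf)))
  rw [hpi'] at hh
  obtain ⟨m', hm', hmrel'⟩ := cj77_conj_stepB hcompat hstabGL α g g' hg _ h hh
  have hm_mem' : P (g • cinf) ^ m' ∈ H := by
    rw [hP, conj_zpow, ← hm']
    exact hhmem
  obtain ⟨t, ht⟩ := (cj77_zpow_mem_iff P H _ m').mp hm_mem'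
  -- arithmetic
  rw [← ha, ← hd] at hmrel hmrel'
  rw [← hwdef'] at hs
  rw [← hwdef] at ht
  have hwQ : (0 : ℚ) < (w : ℚ) := by exact_mod_cast hw
  have hwQ' : (0 : ℚ) < (w' : ℚ) := by exact_mod_cast hw'
  have hmQ : (m : ℚ) = (w' : ℚ) * (s : ℚ) := by rw [hs]; push_cast; ring
  have hmQ' : (m' : ℚ) = (w : ℚ) * (t : ℚ) := by rw [ht]; push_cast; ring
  simp only [Int.cast_natCast] at hmrel hmrel'
  rw [hmQ] at hmrel
  rw [hmQ'] at hmrel'
  have hst : ((s * t : ℤ) : ℚ) = 1 := by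
    have h1 : ((s : ℚ) * t - 1) * ((w' : ℚ) * (a * d)) = 0 := by
      linear_combination (t : ℚ) * a * hmrel + a * hmrel'
    push_cast
    rcases mul_eq_zero.mp h1 with h0 | h0
    · linear_combination h0
    · exact absurd h0 (mul_pos hwQ' had).ne'
  have hst' : s * t = 1 := by exact_mod_cast hst
  have hspos : 0 < s := by
    have h1 : (s : ℚ) * ((w' : ℚ) * d ^ 2) = (w : ℚ) * (a * d) := by
      linear_combination d * hmrel
    have hd0 : d ≠ 0 := by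
      intro h0; rw [h0, mul_zero] at had; exact lt_irrefl _ had
    have h2 : (0 : ℚ) < (w' : ℚ) * d ^ 2 := mul_pos hwQ' (by positivity)
    have h3 : (0 : ℚ) < (s : ℚ) * ((w' : ℚ) * d ^ 2) := by rw [h1]; exact mul_pos hwQ had
    have h4 : (0 : ℚ) < (s : ℚ) := by
      by_contra hcon
      exact absurd h3 (not_lt.mpr (mul_nonpos_of_nonpos_of_nonneg (not_lt.mp hcon) h2.le))
    exact_mod_cast h4
  have hs1 : s = 1 := by
    rcases Int.eq_one_or_neg_one_of_mul_eq_one hst' with h1 | h1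
    · exact h1
    · rw [h1] at hspos; exact absurd hspos (by decide)
  have hmw : m = (w' : ℤ) := by rw [hs, hs1, mul_one]
  rw [hpi', hpi, ← hmw, ← hm]
  exact hh'

omit hcompat hstabGL in
/-- uniqueness of the `br96` normal form of the positive generators. -/
theorem cj77_pi_eq_of_hpi (Γ : Subgroup SL(2, ℤ)) (piΓ : C → SL(2, ℤ))
    (hpi : ∀ g : SL(2, ℤ), piΓ (g • cinf) =
      g * T ^ minimalPeriod ((T : SL(2, ℤ)) • ·) ((g⁻¹ : SL(2, ℤ)) : SL(2, ℤ) ⧸ Γ) * g⁻¹) :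
    piΓ = cj77_pi Γ P := by
  funext c
  obtain ⟨g, rfl⟩ := ax.trans c
  rw [hpi, br96_hpi_of_P (Γ := Γ) T cinf P (cj77_pi Γ P) hP (fun _ => rfl) g]

end Conj

/-! ### Reindexing a sum over a quotient along a permutation compatible with the relation -/

theorem cj77_finsum_perm {X : Type*} (s : Setoid X) (f f' : X → X)
    (hf : ∀ c c', s.r c c' → s.r (f c) (f c')) (hf' : ∀ c c', s.r c c' → s.r (f' c) (f' c'))
    (hl : ∀ c, s.r (f' (f c)) c) (hr : ∀ c, s.r (f (f' c)) c)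
    {M : Type*} [AddCommMonoid M] (F : X → M) (hF : ∀ c c', s.r c c' → F c = F c') :
    ∑ᶠ o : Quotient s, F (f o.out) = ∑ᶠ o : Quotient s, F o.out := by
  let e : Quotient s ≃ Quotient s :=
    { toFun := Quotient.map f hf
      invFun := Quotient.map f' hf'
      left_inv := by
        intro o
        induction o using Quotient.inductionOn with
        | h c => exact Quotient.sound (hl c)
      right_inv := by
        intro o
        induction o using Quotient.inductionOn with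
        | h c => exact Quotient.sound (hr c) }
  have key := finsum_comp_equiv e (f := fun o : Quotient s => F o.out)
  rw [← key]
  refine finsum_congr fun o => ?_
  apply hF
  have h1 : e o = Quotient.mk s (f o.out) := by
    conv_lhs => rw [← Quotient.out_eq o]
    rfl
  rw [h1]
  exact s.symm (Quotient.mk_out (s := s) (f o.out))

/-! ### (D3) in consumable form -/

section D3

variable (ax : cj77_CuspAx C cinf)
  (hcompat : ∀ (g : SL(2, ℤ)) (c : C), mapGL ℚ g • c = g • c)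
  (hstabGL : ∀ β : GL (Fin 2) ℚ, β • cinf = cinf → β 1 0 = 0)
  {R : Type*} [CommRing R] (H : Subgroup SL(2, ℤ))
  (a : GL (Fin 2) ℚ) (cw : SL(2, ℤ) → SL(2, ℤ))
  (hcw : ∀ h ∈ H, cw h ∈ H ∧ mapGL ℚ (cw h) = a * mapGL ℚ h * a⁻¹)

include hcw in
theorem cj77_cw_mul (x y : SL(2, ℤ)) (hx : x ∈ H) (hy : y ∈ H) : cw (x * y) = cw x * cw y := by
  apply Matrix.SpecialLinearGroup.mapGL_injective (S := ℚ)
  rw [(hcw _ (H.mul_mem hx hy)).2, map_mul, map_mul, (hcw x hx).2, (hcw y hy).2]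
  group

include hcw hcompat in
theorem cj77_cw_smul (x : SL(2, ℤ)) (hx : x ∈ H) (c : C) : a • (x • c) = cw x • (a • c) := by
  rw [← hcompat, ← hcompat, ← mul_smul, ← mul_smul, (hcw x hx).2]
  congr 1
  group

include hcw hcompat in
theorem cj77_cw_isCap {χ ν κ : SL(2, ℤ) → R} {pot : C → R} (hcap : br96_IsCap H χ ν κ pot) :
    br96_IsCap H (χ ∘ cw) (ν ∘ cw) (κ ∘ cw) (fun x => pot (a • x)) where
  chi_mul x hx y hy := by
    simp only [Function.comp_apply]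
    rw [cj77_cw_mul H a cw hcw x y hx hy]
    exact hcap.chi_mul _ (hcw x hx).1 _ (hcw y hy).1
  nu_mul x hx y hy := by
    simp only [Function.comp_apply]
    rw [cj77_cw_mul H a cw hcw x y hx hy]
    exact hcap.nu_mul _ (hcw x hx).1 _ (hcw y hy).1
  kap_mul x hx y hy := by
    simp only [Function.comp_apply]
    rw [cj77_cw_mul H a cw hcw x y hx hy]
    exact hcap.kap_mul _ (hcw x hx).1 _ (hcw y hy).1
  pot_smul x hx c := by
    simp only [Function.comp_apply]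
    rw [cj77_cw_smul hcompat H a cw hcw x hx c]
    exact hcap.pot_smul _ (hcw x hx).1 _

include ax hcompat hstabGL hcw in
/-- `cw` maps the positive generator at `c` to the positive generator at `a • c`. -/
theorem cj77_cw_pi [Finite (SL(2, ℤ) ⧸ H)] (ha : 0 < (a : Matrix (Fin 2) (Fin 2) ℚ).det)
    (hsurj : ∀ h ∈ H, ∃ h' ∈ H, cw h' = h) (P : C → SL(2, ℤ))
    (hP : ∀ g : SL(2, ℤ), P (g • cinf) = g * T * g⁻¹) (c : C) :
    cw (cj77_pi H P c) = cj77_pi H P (a • c) := by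
  apply Matrix.SpecialLinearGroup.mapGL_injective (S := ℚ)
  have h1 := cj77_conj_pi hcompat hstabGL ax P hP a ha H H
    (fun h hh => ⟨cw h, (hcw h hh).1, by rw [(hcw h hh).2]; group⟩)
    (fun h' hh' => by
      obtain ⟨h, hh, rfl⟩ := hsurj h' hh'
      exact ⟨h, hh, by rw [(hcw h hh).2]; group⟩) c
  rw [(hcw _ (cj77_pi_mem P H c)).2, ← h1]
  group

include ax hcompat hstabGL hcw in
/-- **(D3)**: invariance of the cap-product cusp sum of `H` under an element `a ∈ GL(2, ℚ)`,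
`det a > 0`, normalising `H` (conjugation `cw`). -/
theorem cj77_D3 [Finite (SL(2, ℤ) ⧸ H)] (ha : 0 < (a : Matrix (Fin 2) (Fin 2) ℚ).det)
    (hsurj : ∀ h ∈ H, ∃ h' ∈ H, cw h' = h)
    {χ ν κ : SL(2, ℤ) → R} {pot : C → R} (hcap : br96_IsCap H χ ν κ pot)
    (piH : C → SL(2, ℤ))
    (hpi : ∀ g : SL(2, ℤ), piH (g • cinf) =
      g * T ^ minimalPeriod ((T : SL(2, ℤ)) • ·) ((g⁻¹ : SL(2, ℤ)) : SL(2, ℤ) ⧸ H) * g⁻¹)
    (s : Setoid C) (hs : ∀ c c', s.r c c' ↔ ∃ γ ∈ H, γ • c = c') :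
    br96_IsCap H (χ ∘ cw) (ν ∘ cw) (κ ∘ cw) (fun x => pot (a • x)) ∧
    ∑ᶠ o : Quotient s, ((χ ∘ cw) (piH o.out) * pot (a • o.out) - (κ ∘ cw) (piH o.out)) =
      ∑ᶠ o : Quotient s, (χ (piH o.out) * pot o.out - κ (piH o.out)) := by
  refine ⟨cj77_cw_isCap hcompat H a cw hcw hcap, ?_⟩
  obtain ⟨P, hP⟩ := cj77_exists_P ax
  obtain rfl := cj77_pi_eq_of_hpi ax P hP H piH hpi
  have hF : ∀ c c', s.r c c' →
      χ (cj77_pi H P c) * pot c - κ (cj77_pi H P c) =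
        χ (cj77_pi H P c') * pot c' - κ (cj77_pi H P c') := by
    intro c c' hcc
    obtain ⟨γ, hγ, rfl⟩ := (hs c c').mp hcc
    exact (br96_F_smul hcap (cj77_pi H P) (cj77_pi_mem P H) (cj77_pi_fix ax P hP H)
      (fun k hk c => cj77_pi_equiv ax P hP H k hk c) γ hγ c).symm
  have key := cj77_finsum_perm s (fun c => a • c) (fun c => a⁻¹ • c)
    (fun c c' hcc => by
      obtain ⟨γ, hγ, rfl⟩ := (hs c c').mp hcc
      exact (hs _ _).mpr ⟨cw γ, (hcw γ hγ).1, (cj77_cw_smul hcompat H a cw hcw γ hγ c).symm⟩)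
    (fun c c' hcc => by
      obtain ⟨γ, hγ, rfl⟩ := (hs c c').mp hcc
      obtain ⟨γ', hγ', rfl⟩ := hsurj γ hγ
      refine (hs _ _).mpr ⟨γ', hγ', ?_⟩
      have := cj77_cw_smul hcompat H a cw hcw γ' hγ' (a⁻¹ • c)
      rw [smul_inv_smul] at this
      rw [← this, inv_smul_smul])
    (fun c => by rw [inv_smul_smul])
    (fun c => by rw [smul_inv_smul])
    (fun c => χ (cj77_pi H P c) * pot c - κ (cj77_pi H P c)) hF
  rw [← key]
  refine finsum_congr fun o => ?_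
  simp only [Function.comp_apply]
  rw [cj77_cw_pi ax hcompat hstabGL H a cw hcw ha hsurj P hP o.out]

end D3

/-! ### The model `OnePoint ℚ` -/

section OnePoint

open OnePoint

variable [MulAction SL(2, ℤ) (OnePoint ℚ)]
  (hcompat : ∀ (g : SL(2, ℤ)) (c : OnePoint ℚ), mapGL ℚ g • c = g • c)

include hcompat in
theorem cj77_cuspAx_onePoint : cj77_CuspAx (OnePoint ℚ) ∞ where
  trans c := by
    obtain ⟨g, hg⟩ := OnePoint.exists_mem_SL2 ℤ c
    exact ⟨g, by rw [← hcompat]; exact hg⟩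
  stab g := by
    rw [← hcompat, OnePoint.smul_infty_eq_self_iff]
    simp

theorem cj77_stabGL_onePoint (β : GL (Fin 2) ℚ) (h : β • (∞ : OnePoint ℚ) = ∞) : β 1 0 = 0 :=
  OnePoint.smul_infty_eq_self_iff.mp h

end OnePoint

end Fermat.Agent.S41
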