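/-
S41 / M3 (B-W): invariance of the Manin-model pairing `B_T` (right-hand side of `br96_bridge`)
under an element `a ∈ GL(2, ℚ)`, `det a > 0`, normalising `H ≤ SL(2, ℤ)` through `cw`:
`B_T(χ ∘ cw, pot (a • ·)) = B_T(χ, pot)`.   Proof: bridge + `cj77_D3` + bridge.
-/
import Mathlib
import Fermat.Agent.S41.CapConjD77

set_option autoImplicit false

open scoped MatrixGroups
open ModularGroup MulAction Subgroup Function
open Matrix.SpecialLinearGroup (mapGL)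

namespace Fermat.Agent.S41

variable {C : Type*} [MulAction SL(2, ℤ) C] [MulAction (GL (Fin 2) ℚ) C] {cinf : C}

/-- the orbit relation of a subgroup, in the `∃ γ ∈ H` form used by `br96_bridge`/`cj77_D3`. -/
theorem cw77_orbitRel_iff {G : Type*} [Group G] {X : Type*} [MulAction G X] (H : Subgroup G)
    (c c' : X) : (orbitRel H X).r c c' ↔ ∃ γ ∈ H, γ • c = c' := by
  change c ∈ orbit H c' ↔ _
  rw [mem_orbit_iff]
  constructor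
  · rintro ⟨⟨γ, hγ⟩, hγc⟩
    refine ⟨γ⁻¹, H.inv_mem hγ, ?_⟩
    rw [← hγc]
    exact inv_smul_smul γ c'
  · rintro ⟨γ, hγ, hγc⟩
    refine ⟨⟨γ⁻¹, H.inv_mem hγ⟩, ?_⟩
    rw [← hγc]
    exact inv_smul_smul γ c

/-- **(B-W)**, with the vanishing of `χ`, `ν`, `χ ∘ cw`, `ν ∘ cw` on the `U`-cocycle of the
section as hypotheses. -/
theorem cw77_bw (ax : cj77_CuspAx C cinf)
    (hcompat : ∀ (g : SL(2, ℤ)) (c : C), mapGL ℚ g • c = g • c)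
    (hstabGL : ∀ β : GL (Fin 2) ℚ, β • cinf = cinf → β 1 0 = 0)
    {R : Type*} [CommRing R] (H : Subgroup SL(2, ℤ)) [Finite (SL(2, ℤ) ⧸ H)]
    (a : GL (Fin 2) ℚ) (ha : 0 < (a : Matrix (Fin 2) (Fin 2) ℚ).det)
    (cw : SL(2, ℤ) → SL(2, ℤ))
    (hcw : ∀ h ∈ H, cw h ∈ H ∧ mapGL ℚ (cw h) = a * mapGL ℚ h * a⁻¹)
    (hsurj : ∀ h ∈ H, ∃ h' ∈ H, cw h' = h)
    {sec : SL(2, ℤ) ⧸ H → SL(2, ℤ)} (hsec : ck96_IsSection H sec) (hneg : (-1 : SL(2, ℤ)) ∈ H)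
    (h2 : ∀ r : R, r + r = 0 → r = 0) (h3 : ∀ r : R, r + r + r = 0 → r = 0)
    {χ ν κ : SL(2, ℤ) → R} {pot : C → R} (hcap : br96_IsCap H χ ν κ pot)
    (hUν : ∀ x, ν (br96_g sec (S * T) x) = 0) (hUχ : ∀ x, χ (br96_g sec (S * T) x) = 0)
    (hUν' : ∀ x, ν (cw (br96_g sec (S * T) x)) = 0)
    (hUχ' : ∀ x, χ (cw (br96_g sec (S * T) x)) = 0) :
    ∑ᶠ x : SL(2, ℤ) ⧸ H, χ (cw ((sec x)⁻¹ * S * sec (S • x))) *
        (pot (a • (sec x)⁻¹ • cinf) - pot (a • (sec x)⁻¹ • S • cinf)) =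
      ∑ᶠ x : SL(2, ℤ) ⧸ H, χ ((sec x)⁻¹ * S * sec (S • x)) *
        (pot ((sec x)⁻¹ • cinf) - pot ((sec x)⁻¹ • S • cinf)) := by
  obtain ⟨P, hP⟩ := cj77_exists_P ax
  have hpi := br96_hpi_of_P (Γ := H) T cinf P (cj77_pi H P) hP (fun _ => rfl)
  have hs := cw77_orbitRel_iff (X := C) H
  obtain ⟨hcap', hsum⟩ := cj77_D3 ax hcompat hstabGL H a cw hcw ha hsurj hcap (cj77_pi H P) hpi
    (orbitRel H C) hs
  have b1 := br96_bridge hsec hneg h2 h3 hcap cinf ax.T_fix ax.neg_fix ax.trans ax.stab_T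
    hUν hUχ (cj77_pi H P) hpi (orbitRel H C) hs
  have b2 := br96_bridge hsec hneg h2 h3 hcap' cinf ax.T_fix ax.neg_fix ax.trans ax.stab_T
    hUν' hUχ' (cj77_pi H P) hpi (orbitRel H C) hs
  rw [hsum, b1] at b2
  exact b2.symm

/-- **(B-W)** for a `U`-adapted section (`sec (U • x) = ± U * sec x` whenever `U • x ≠ x`,
`U = S * T`). -/
theorem cw77_bw_adapted (ax : cj77_CuspAx C cinf)
    (hcompat : ∀ (g : SL(2, ℤ)) (c : C), mapGL ℚ g • c = g • c)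
    (hstabGL : ∀ β : GL (Fin 2) ℚ, β • cinf = cinf → β 1 0 = 0)
    {R : Type*} [CommRing R] (H : Subgroup SL(2, ℤ)) [Finite (SL(2, ℤ) ⧸ H)]
    (a : GL (Fin 2) ℚ) (ha : 0 < (a : Matrix (Fin 2) (Fin 2) ℚ).det)
    (cw : SL(2, ℤ) → SL(2, ℤ))
    (hcw : ∀ h ∈ H, cw h ∈ H ∧ mapGL ℚ (cw h) = a * mapGL ℚ h * a⁻¹)
    (hsurj : ∀ h ∈ H, ∃ h' ∈ H, cw h' = h)
    {sec : SL(2, ℤ) ⧸ H → SL(2, ℤ)} (hsec : ck96_IsSection H sec) (hneg : (-1 : SL(2, ℤ)) ∈ H)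
    (h2 : ∀ r : R, r + r = 0 → r = 0) (h3 : ∀ r : R, r + r + r = 0 → r = 0)
    {χ ν κ : SL(2, ℤ) → R} {pot : C → R} (hcap : br96_IsCap H χ ν κ pot)
    (hrep : ∀ x : SL(2, ℤ) ⧸ H, (S * T : SL(2, ℤ)) • x ≠ x →
      sec ((S * T : SL(2, ℤ)) • x) = (S * T) * sec x ∨
      sec ((S * T : SL(2, ℤ)) • x) = -((S * T) * sec x)) :
    ∑ᶠ x : SL(2, ℤ) ⧸ H, χ (cw ((sec x)⁻¹ * S * sec (S • x))) *
        (pot (a • (sec x)⁻¹ • cinf) - pot (a • (sec x)⁻¹ • S • cinf)) =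
      ∑ᶠ x : SL(2, ℤ) ⧸ H, χ ((sec x)⁻¹ * S * sec (S • x)) *
        (pot ((sec x)⁻¹ • cinf) - pot ((sec x)⁻¹ • S • cinf)) := by
  have hcap' := cj77_cw_isCap hcompat H a cw hcw hcap
  exact cw77_bw ax hcompat hstabGL H a ha cw hcw hsurj hsec hneg h2 h3 hcap
    (fun x => (br96_U_adapted hsec hneg h2 h3 hcap hrep x).1)
    (fun x => (br96_U_adapted hsec hneg h2 h3 hcap hrep x).2)
    (fun x => (br96_U_adapted hsec hneg h2 h3 hcap' hrep x).1)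
    (fun x => (br96_U_adapted hsec hneg h2 h3 hcap' hrep x).2)

end Fermat.Agent.S41
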