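/-
S41 / link L8, helper43.  The three adjointness identities of the Manin-model pairing
`md32_PB psl96_rho ∞ rep` in the literal shape consumed by `dg71_Hb`:

* `l8p43_hadj₁` : `PN (tr b) α = PQ b (res₁ α)`;
* `l8p43_hadj₂` : `PN (tr (W b)) α = PQ b (res₂ α)`;
* `l8p43_hT`    : `PN (T_ℓ x) α = PN x (heckeHom N ℓ ℤ α)`.

Proof: the abstract statements `adj96_tr` (B-I), `adj96_cores` (B-I'), `cw77_bw_adapted` (B-W)
on the cusp set `OnePoint ℚ`, the coset dictionary of `Trace43c`, and `hid43_heckeHom_cores`.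
-/
import Mathlib
import Fermat.Agent.S41.Adjoint96
import Fermat.Agent.S41.CapW77
import Fermat.Agent.S41.ManinInst32
import Fermat.Agent.S41.DualGlue71
import Fermat.Agent.S41.Trace43c
import Fermat.Agent.S41.HeckeId43

set_option autoImplicit false

open CongruenceSubgroup OnePoint
open scoped MatrixGroups
open ModularGroup
open Matrix.SpecialLinearGroup (mapGL)

namespace Fermat.Agent.S41

open Fermat.Agent.S16

/-- the action of `SL(2, ℤ)` on `OnePoint ℚ` through `mapGL ℚ` (used locally only). -/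
@[reducible] noncomputable def l8p43_act : MulAction SL(2, ℤ) (OnePoint ℚ) :=
  MulAction.compHom (OnePoint ℚ) (mapGL ℚ : SL(2, ℤ) →* GL (Fin 2) ℚ)

attribute [local instance] l8p43_act

theorem l8p43_smul_def (g : SL(2, ℤ)) (c : OnePoint ℚ) : g • c = mapGL ℚ g • c := rfl

theorem l8p43_rho (g : SL(2, ℤ)) (c : OnePoint ℚ) : psl96_rho g c = g • c := rfl

/-! ### dictionary `md32` ↔ `adj96` -/

theorem l8p43_cuspAx : adj96_CuspAx (∞ : OnePoint ℚ) :=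
  ⟨md32_cuspAx_rho.T_fix, md32_cuspAx_rho.neg_fix, md32_cuspAx_rho.trans, md32_cuspAx_rho.stab⟩

theorem l8p43_adapted {Γ : Subgroup SL(2, ℤ)} {rep : SL(2, ℤ) ⧸ Γ → SL(2, ℤ)}
    (h : md32_Adapted rep) : adj96_Adapted rep := h

theorem l8p43_section {Γ : Subgroup SL(2, ℤ)} {rep : SL(2, ℤ) ⧸ Γ → SL(2, ℤ)}
    (h : ∀ x, (rep x : SL(2, ℤ) ⧸ Γ) = x) : ck96_IsSection Γ rep := h

/-- the Manin-model pairing of `md32` is `adj96_B` of the potential `Φ (c0, ·)`. -/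
theorem l8p43_B_eq {Γ : Subgroup SL(2, ℤ)} [Fintype (SL(2, ℤ) ⧸ Γ)]
    (rep : SL(2, ℤ) ⧸ Γ → SL(2, ℤ)) (χ : SL(2, ℤ) → ℤ) {Φ : OnePoint ℚ → OnePoint ℚ → ℤ}
    (hΦ : ∀ a b c, Φ a b + Φ b c = Φ a c) (c0 : OnePoint ℚ) :
    md32_B psl96_rho ∞ rep χ Φ = adj96_B rep (∞ : OnePoint ℚ) χ (fun c => Φ c0 c) := by
  rw [adj96_B, finsum_eq_sum_of_fintype]
  refine Finset.sum_congr rfl fun x _ => ?_
  rw [md32_J, md32_v]
  congr 1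
  have h := hΦ c0 (psl96_rho ((rep x)⁻¹ * S) ∞) (psl96_rho (rep x)⁻¹ ∞)
  have e : psl96_rho ((rep x)⁻¹ * S) ∞ = (rep x)⁻¹ • (S : SL(2, ℤ)) • (∞ : OnePoint ℚ) := by
    rw [map_mul]
    rfl
  rw [e] at h ⊢
  rw [l8p43_rho] at h ⊢
  linarith

/-! ### group-theoretic bookkeeping for `Γ₀` -/

theorem l8p43_le (N r : ℕ) : Gamma0 (N * r) ≤ Gamma0 N := by
  intro g hg
  rw [Gamma0_mem, ZMod.intCast_zmod_eq_zero_iff_dvd] at hg ⊢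
  exact (Int.natCast_dvd_natCast.mpr (dvd_mul_right N r)).trans hg

theorem l8p43_neg_mem (M : ℕ) : (-1 : SL(2, ℤ)) ∈ Gamma0 M := by
  rw [Gamma0_mem]
  simp

theorem l8p43_h2 : ∀ r : ℤ, r + r = 0 → r = 0 := fun r h => by omega

theorem l8p43_h3 : ∀ r : ℤ, r + r + r = 0 → r = 0 := fun r h => by omega

/-- the `S`-edge cocycle of a section lies in the subgroup. -/
theorem l8p43_J_mem {Γ : Subgroup SL(2, ℤ)} (hneg : (-1 : SL(2, ℤ)) ∈ Γ)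
    {rep : SL(2, ℤ) ⧸ Γ → SL(2, ℤ)} (hrep : ∀ x, (rep x : SL(2, ℤ) ⧸ Γ) = x)
    (x : SL(2, ℤ) ⧸ Γ) : (rep x)⁻¹ * S * rep ((S : SL(2, ℤ)) • x) ∈ Γ := by
  have h := md32_sig_mem hrep S ((S : SL(2, ℤ)) • x)
  rwa [md32_sig, md32_SS (md32_neg_smul hneg)] at h

/-- finiteness of the index of `Γ₀(N ℓ)` from that of `Γ₀(N)`. -/
theorem l8p43_finite {N ℓ : ℕ} (hℓ : ℓ.Prime) (D : tr43_Data N ℓ)
    [Finite (SL(2, ℤ) ⧸ Gamma0 N)] : Finite (SL(2, ℤ) ⧸ Gamma0 (N * ℓ)) := by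
  have h1 : Finite (Gamma0 N ⧸ (Gamma0 (N * ℓ)).subgroupOf (Gamma0 N)) :=
    hid43_finite_quot hℓ D
  have h2 : (Gamma0 (N * ℓ)).relIndex (Gamma0 N) ≠ 0 := by
    rw [Subgroup.relIndex]
    exact Subgroup.index_ne_zero_of_finite
  have h3 : (Gamma0 N).index ≠ 0 := Subgroup.index_ne_zero_of_finite
  have h4 : (Gamma0 (N * ℓ)).index ≠ 0 := by
    rw [← Subgroup.relIndex_mul_index (l8p43_le N ℓ)]
    exact mul_ne_zero h2 h3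
  have : (Gamma0 (N * ℓ)).FiniteIndex := ⟨h4⟩
  exact Subgroup.finite_quotient_of_finiteIndex

/-! ### potentials of symbols -/

section Pot

variable {Φ : sc71_X → ℤ}

/-- the potential `Φ (∞, ·)` of a symbol of level `M`. -/
theorem l8p43_pot (hΦ : sc71_IsSymb Φ) {M : ℕ} (hinv : tr43_Inv M Φ) :
    ∀ h ∈ Gamma0 M, ∀ c : OnePoint ℚ,
      Φ (∞, h • c) = Φ (∞, c) + Φ (∞, h • (∞ : OnePoint ℚ)) := by
  intro h hh c
  have h1 := hΦ ∞ (h • (∞ : OnePoint ℚ)) (h • c)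
  have h2 := hinv ⟨h, hh⟩ (∞, c)
  rw [Prod.smul_mk] at h2
  have h3 : Φ (h • (∞ : OnePoint ℚ), h • c) = Φ (∞, c) := h2
  linarith

theorem l8p43_diff (hΦ : sc71_IsSymb Φ) (a b : OnePoint ℚ) :
    Φ (∞, b) - Φ (∞, a) = Φ (a, b) := by
  have := hΦ ∞ a b
  linarith

end Pot

/-! ### (B-I): restriction / trace -/

theorem l8p43_BI {N r : ℕ} (hr : r.Prime) (D : tr43_Data N r)
    [Finite (SL(2, ℤ) ⧸ Gamma0 (N * r))]
    {secG : SL(2, ℤ) ⧸ Gamma0 N → SL(2, ℤ)} (hsecG : ∀ x, (secG x : SL(2, ℤ) ⧸ Gamma0 N) = x)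
    (hadG : md32_Adapted secG)
    {secH : SL(2, ℤ) ⧸ Gamma0 (N * r) → SL(2, ℤ)}
    (hsecH : ∀ x, (secH x : SL(2, ℤ) ⧸ Gamma0 (N * r)) = x) (hadH : md32_Adapted secH)
    (χ : SL(2, ℤ) → ℤ) (hχ : ∀ a ∈ Gamma0 N, ∀ b ∈ Gamma0 N, χ (a * b) = χ a + χ b)
    {Φ : sc71_X → ℤ} (hΦ : sc71_IsSymb Φ) (hinv : tr43_Inv (N * r) Φ) :
    adj96_B secG (∞ : OnePoint ℚ) χ (fun c => tr43_tr D Φ (∞, c))
      = adj96_B secH (∞ : OnePoint ℚ) χ (fun c => Φ (∞, c)) := by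
  refine adj96_tr (l8p43_le N r) (l8p43_neg_mem _) l8p43_h2 l8p43_h3 l8p43_cuspAx
    (l8p43_section hsecG) (l8p43_adapted hadG) (l8p43_section hsecH) (l8p43_adapted hadH)
    χ (fun h => Φ (∞, h • (∞ : OnePoint ℚ))) (fun c => Φ (∞, c)) hχ
    (l8p43_pot hΦ hinv) (fun c => tr43_tr D Φ (∞, c)) ?_
  intro a b
  show tr43_tr D Φ (∞, b) - tr43_tr D Φ (∞, a) = _
  rw [l8p43_diff (sc71_IsSymb.tr D hΦ), ← tr43_tr_eq_finsum_quot hr D hinv (a, b)]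
  refine finsum_congr fun q => ?_
  rw [l8p43_diff hΦ]
  rfl

/-! ### (B-W): Atkin–Lehner invariance -/

open Classical in
/-- conjugation by `w` as a function on `SL(2, ℤ)` (trivial outside `Γ₀(N r)`). -/
noncomputable def l8p43_cw {N r : ℕ} (hr : r ≠ 0) (D : tr43_Data N r) (h : SL(2, ℤ)) :
    SL(2, ℤ) :=
  if hh : h ∈ Gamma0 (N * r) then ((D.conj hr ⟨h, hh⟩ : Gamma0 (N * r)) : SL(2, ℤ)) else 1

theorem l8p43_cw_of_mem {N r : ℕ} (hr : r ≠ 0) (D : tr43_Data N r) {h : SL(2, ℤ)}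
    (hh : h ∈ Gamma0 (N * r)) :
    l8p43_cw hr D h = ((D.conj hr ⟨h, hh⟩ : Gamma0 (N * r)) : SL(2, ℤ)) := by
  rw [l8p43_cw, dif_pos hh]

/-- `mapGL (conj κ) = w * mapGL κ * w⁻¹` in `GL(2, ℚ)`. -/
theorem l8p43_conj_gl {N r : ℕ} (hr : r ≠ 0) (D : tr43_Data N r) (κ : Gamma0 (N * r)) :
    mapGL ℚ ((D.conj hr κ : Gamma0 (N * r)) : SL(2, ℤ))
      = tr43_gl D.w * mapGL ℚ (κ : SL(2, ℤ)) * (tr43_gl D.w)⁻¹ := by
  have hr' : (r : ℤ) ≠ 0 := by exact_mod_cast hr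
  have hw : D.w.det ≠ 0 := by rw [D.w_det]; exact hr'
  rw [eq_mul_inv_iff_mul_eq, ← tr43_gl_sl, ← tr43_gl_sl, ← tr43_gl_mul (tr43_sl_det_ne _) hw,
    ← tr43_gl_mul hw (tr43_sl_det_ne _), D.conj_spec hr κ]

/-- an adapted section in the form used by `cw77_bw_adapted`. -/
theorem l8p43_hrep {Γ : Subgroup SL(2, ℤ)} {sec : SL(2, ℤ) ⧸ Γ → SL(2, ℤ)}
    (had : md32_Adapted sec) (x : SL(2, ℤ) ⧸ Γ) (hx : (S * T : SL(2, ℤ)) • x ≠ x) :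
    sec ((S * T : SL(2, ℤ)) • x) = (S * T) * sec x ∨
      sec ((S * T : SL(2, ℤ)) • x) = -((S * T) * sec x) := by
  rcases had x with h | h | h
  · exact absurd h hx
  · left
    rw [md32_sig, mul_assoc, inv_mul_eq_one] at h
    exact h
  · right
    rw [md32_sig, mul_assoc, inv_mul_eq_iff_eq_mul] at h
    have h' : sec (md32_U • x) = -(md32_U * sec x) := by
      rw [h]
      simp
    exact h'

theorem l8p43_BW {N r : ℕ} (hr : r ≠ 0) (D : tr43_Data N r)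
    [Finite (SL(2, ℤ) ⧸ Gamma0 (N * r))]
    {sec : SL(2, ℤ) ⧸ Gamma0 (N * r) → SL(2, ℤ)}
    (hsec : ∀ x, (sec x : SL(2, ℤ) ⧸ Gamma0 (N * r)) = x) (had : md32_Adapted sec)
    (χ χw : SL(2, ℤ) → ℤ)
    (hχ : ∀ a ∈ Gamma0 (N * r), ∀ b ∈ Gamma0 (N * r), χ (a * b) = χ a + χ b)
    (hχw : ∀ h (hh : h ∈ Gamma0 (N * r)),
      χw h = χ ((D.conj hr ⟨h, hh⟩ : Gamma0 (N * r)) : SL(2, ℤ)))
    {Φ : sc71_X → ℤ} (hΦ : sc71_IsSymb Φ) (hinv : tr43_Inv (N * r) Φ) :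
    adj96_B sec (∞ : OnePoint ℚ) χw (fun c => tr43_W D Φ (∞, c))
      = adj96_B sec (∞ : OnePoint ℚ) χ (fun c => Φ (∞, c)) := by
  have hr' : (r : ℤ) ≠ 0 := by exact_mod_cast hr
  have hw : D.w.det ≠ 0 := by rw [D.w_det]; exact hr'
  have hneg := l8p43_neg_mem (N * r)
  obtain ⟨κ, hcap⟩ := adj96_exists_cap (ν := fun h => Φ (∞, h • (∞ : OnePoint ℚ)))
    (pot := fun c => Φ (∞, c)) hneg l8p43_h2 l8p43_h3 (∞ : OnePoint ℚ) hχ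
    (l8p43_pot hΦ hinv)
  have key := cw77_bw_adapted (cj77_cuspAx_onePoint (fun _ _ => rfl)) (fun _ _ => rfl)
    cj77_stabGL_onePoint (Gamma0 (N * r)) (tr43_gl D.w)
    (by rw [tr43_gl_coe hw, tr43_det_map, D.w_det]; exact_mod_cast Nat.pos_of_ne_zero hr)
    (l8p43_cw hr D)
    (fun h hh => by
      rw [l8p43_cw_of_mem hr D hh]
      exact ⟨(D.conj hr ⟨h, hh⟩).2, l8p43_conj_gl hr D ⟨h, hh⟩⟩)
    (fun h hh => ⟨(((D.conj hr).symm ⟨h, hh⟩ : Gamma0 (N * r)) : SL(2, ℤ)),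
      ((D.conj hr).symm ⟨h, hh⟩).2, by
        rw [l8p43_cw_of_mem hr D ((D.conj hr).symm ⟨h, hh⟩).2]
        simp⟩)
    (l8p43_section hsec) hneg l8p43_h2 l8p43_h3 hcap (l8p43_hrep had)
  rw [adj96_B_congr sec (∞ : OnePoint ℚ) χw (pot₂ := fun c => Φ (∞, tr43_gl D.w • c)) ?_]
  · refine Eq.trans ?_ key
    refine finsum_congr fun x => ?_
    show χw _ * _ = χ (l8p43_cw hr D _) * _
    rw [hχw _ (l8p43_J_mem hneg hsec x), l8p43_cw_of_mem hr D (l8p43_J_mem hneg hsec x)]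
  · intro a b
    show tr43_W D Φ (∞, b) - tr43_W D Φ (∞, a)
      = Φ (∞, tr43_gl D.w • b) - Φ (∞, tr43_gl D.w • a)
    rw [tr43_W_apply, tr43_W_apply, Prod.smul_mk, Prod.smul_mk]
    have h1 := hΦ ∞ (tr43_gl D.w • (∞ : OnePoint ℚ)) (tr43_gl D.w • a)
    have h2 := hΦ ∞ (tr43_gl D.w • (∞ : OnePoint ℚ)) (tr43_gl D.w • b)
    have h3 := hΦ (tr43_gl D.w • (∞ : OnePoint ℚ)) (tr43_gl D.w • a) (tr43_gl D.w • b)
    have h4 := hΦ ∞ (tr43_gl D.w • a) (tr43_gl D.w • b)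
    linarith

/-! ### (B-I'): corestriction / restriction -/

theorem l8p43_BI' {N r : ℕ} [Finite (SL(2, ℤ) ⧸ Gamma0 (N * r))]
    {secG : SL(2, ℤ) ⧸ Gamma0 N → SL(2, ℤ)} (hsecG : ∀ x, (secG x : SL(2, ℤ) ⧸ Gamma0 N) = x)
    (hadG : md32_Adapted secG)
    {secH : SL(2, ℤ) ⧸ Gamma0 (N * r) → SL(2, ℤ)}
    (hsecH : ∀ x, (secH x : SL(2, ℤ) ⧸ Gamma0 (N * r)) = x) (hadH : md32_Adapted secH)
    (χ' : SL(2, ℤ) → ℤ)
    (hχ' : ∀ a ∈ Gamma0 (N * r), ∀ b ∈ Gamma0 (N * r), χ' (a * b) = χ' a + χ' b)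
    (χG : SL(2, ℤ) → ℤ)
    (hχG : ∀ g (hg : g ∈ Gamma0 N),
      χG g = ∑ᶠ q : Gamma0 N ⧸ (Gamma0 (N * r)).subgroupOf (Gamma0 N),
        χ' ((ct77_h ((Gamma0 (N * r)).subgroupOf (Gamma0 N)) ⟨g, hg⟩ q : Gamma0 N) : SL(2, ℤ)))
    {Φ : sc71_X → ℤ} (hΦ : sc71_IsSymb Φ) (hinv : tr43_Inv N Φ) :
    adj96_B secH (∞ : OnePoint ℚ) χ' (fun c => Φ (∞, c))
      = adj96_B secG (∞ : OnePoint ℚ) χG (fun c => Φ (∞, c)) :=
  adj96_cores (l8p43_le N r) (l8p43_neg_mem _) l8p43_h2 l8p43_h3 l8p43_cuspAx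
    (l8p43_section hsecG) (l8p43_adapted hadG) (l8p43_section hsecH) (l8p43_adapted hadH)
    χ' (fun h => Φ (∞, h • (∞ : OnePoint ℚ))) (fun c => Φ (∞, c)) hχ' (l8p43_pot hΦ hinv)
    χG hχG

/-! ### the three identities in the shape of `dg71_Hb` -/

/-- `conj_w ∘ conj_w` is inner, hence invisible to homomorphisms of level `N`. -/
theorem l8p43_conj_conj {N q : ℕ} (hq : q ≠ 0) (D : tr43_Data N q)
    (α : Additive (Gamma0 N) →+ ℤ) (κ : Gamma0 (N * q))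
    (h1 : ((D.conj hq (D.conj hq κ) : Gamma0 (N * q)) : SL(2, ℤ)) ∈ Gamma0 N)
    (h2 : (κ : SL(2, ℤ)) ∈ Gamma0 N) :
    α (Additive.ofMul (⟨((D.conj hq (D.conj hq κ) : Gamma0 (N * q)) : SL(2, ℤ)), h1⟩ : Gamma0 N))
      = α (Additive.ofMul (⟨(κ : SL(2, ℤ)), h2⟩ : Gamma0 N)) := by
  have e : (⟨((D.conj hq (D.conj hq κ) : Gamma0 (N * q)) : SL(2, ℤ)), h1⟩ : Gamma0 N)
      = Subgroup.inclusion (l8p43_le N q) D.eta * ⟨(κ : SL(2, ℤ)), h2⟩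
        * (Subgroup.inclusion (l8p43_le N q) D.eta)⁻¹ := by
    apply Subtype.ext
    show ((D.conj hq (D.conj hq κ) : Gamma0 (N * q)) : SL(2, ℤ)) = _
    rw [D.conj_conj hq κ]
    rfl
  rw [e, ofMul_mul, ofMul_mul, ofMul_inv, map_add, map_add, map_neg]
  abel

section Final

variable {N q : ℕ} [Fintype (SL(2, ℤ) ⧸ Gamma0 N)]

/-- **hadj₁**: `PN (tr b) α = PQ b (res₁ α)`. -/
theorem l8p43_hadj₁ [Fintype (SL(2, ℤ) ⧸ Gamma0 (N * q))] (hq : q.Prime) (D : tr43_Data N q)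
    {repN : SL(2, ℤ) ⧸ Gamma0 N → SL(2, ℤ)} (hrepN : ∀ x, (repN x : SL(2, ℤ) ⧸ Gamma0 N) = x)
    (hadN : md32_Adapted repN)
    {repQ : SL(2, ℤ) ⧸ Gamma0 (N * q) → SL(2, ℤ)}
    (hrepQ : ∀ x, (repQ x : SL(2, ℤ) ⧸ Gamma0 (N * q)) = x) (hadQ : md32_Adapted repQ)
    (res₁ : (Additive (Gamma0 N) →+ ℤ) → (Additive (Gamma0 (N * q)) →+ ℤ))
    (hres₁ : ∀ (χ : Additive (Gamma0 N) →+ ℤ) (γ : Gamma0 (N * q)) (γ' : Gamma0 N),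
      (γ' : SL(2, ℤ)) = (γ : SL(2, ℤ)) → res₁ χ (Additive.ofMul γ) = χ (Additive.ofMul γ'))
    (b : md32_Symb (Gamma0 (N * q)) psl96_rho) (α : Additive (Gamma0 N) →+ ℤ) :
    md32_PB psl96_rho ∞ repN (dg71_tr hq D b) α = md32_PB psl96_rho ∞ repQ b (res₁ α) := by
  rw [md32_PB_apply, md32_PB_apply]
  have hc : md32_B psl96_rho ∞ repQ (md32_ext (res₁ α)) (b : OnePoint ℚ → OnePoint ℚ → ℤ)
      = md32_B psl96_rho ∞ repQ (md32_ext α) (b : OnePoint ℚ → OnePoint ℚ → ℤ) := by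
    refine md32_B_congr (l8p43_neg_mem _) hrepQ (fun g hg => ?_) _
    rw [md32_ext_of_mem (res₁ α) hg, md32_ext_of_mem α (l8p43_le N q hg)]
    exact hres₁ α ⟨g, hg⟩ ⟨g, l8p43_le N q hg⟩ rfl
  rw [hc, l8p43_B_eq repN _ (dg71_tr hq D b).2.1 ∞, l8p43_B_eq repQ _ b.2.1 ∞]
  exact l8p43_BI hq D hrepN hadN hrepQ hadQ (md32_ext α) (md32_ext_isHom α)
    (dg71_fn_isSymb b).1 (dg71_fn_isSymb b).2

/-- **hadj₂**: `PN (tr (W b)) α = PQ b (res₂ α)`. -/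
theorem l8p43_hadj₂ [Fintype (SL(2, ℤ) ⧸ Gamma0 (N * q))] (hq : q.Prime) (D : tr43_Data N q)
    {repN : SL(2, ℤ) ⧸ Gamma0 N → SL(2, ℤ)} (hrepN : ∀ x, (repN x : SL(2, ℤ) ⧸ Gamma0 N) = x)
    (hadN : md32_Adapted repN)
    {repQ : SL(2, ℤ) ⧸ Gamma0 (N * q) → SL(2, ℤ)}
    (hrepQ : ∀ x, (repQ x : SL(2, ℤ) ⧸ Gamma0 (N * q)) = x) (hadQ : md32_Adapted repQ)
    (res₂ : (Additive (Gamma0 N) →+ ℤ) → (Additive (Gamma0 (N * q)) →+ ℤ))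
    (hres₂ : ∀ (χ : Additive (Gamma0 N) →+ ℤ) (γ : Gamma0 (N * q)) (γ' : Gamma0 N),
      ((γ' : SL(2, ℤ)) : Matrix (Fin 2) (Fin 2) ℤ) * D.w
        = D.w * ((γ : SL(2, ℤ)) : Matrix (Fin 2) (Fin 2) ℤ) →
      res₂ χ (Additive.ofMul γ) = χ (Additive.ofMul γ'))
    (b : md32_Symb (Gamma0 (N * q)) psl96_rho) (α : Additive (Gamma0 N) →+ ℤ) :
    md32_PB psl96_rho ∞ repN (dg71_tr hq D (dg71_W hq.ne_zero D b)) α
      = md32_PB psl96_rho ∞ repQ b (res₂ α) := by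
  have hq0 := hq.ne_zero
  rw [md32_PB_apply, md32_PB_apply,
    l8p43_B_eq repN _ (dg71_tr hq D (dg71_W hq.ne_zero D b)).2.1 ∞, l8p43_B_eq repQ _ b.2.1 ∞]
  have hW : sc71_IsSymb (tr43_W D (dg71_fn b)) := sc71_IsSymb.W D (dg71_fn_isSymb b).1
  have hWinv : tr43_Inv (N * q) (tr43_W D (dg71_fn b)) :=
    tr43_W_Inv hq0 D (dg71_fn_isSymb b).2
  have h1 := l8p43_BI hq D hrepN hadN hrepQ hadQ (md32_ext α) (md32_ext_isHom α) hW hWinv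
  have h2 := l8p43_BW hq0 D hrepQ hadQ (md32_ext (res₂ α)) (md32_ext α) (md32_ext_isHom _)
    (fun h hh => by
      rw [md32_ext_of_mem α (l8p43_le N q hh),
        md32_ext_of_mem (res₂ α) (D.conj hq0 ⟨h, hh⟩).2,
        hres₂ α ⟨((D.conj hq0 ⟨h, hh⟩ : Gamma0 (N * q)) : SL(2, ℤ)), (D.conj hq0 ⟨h, hh⟩).2⟩
          ⟨((D.conj hq0 (D.conj hq0 ⟨h, hh⟩) : Gamma0 (N * q)) : SL(2, ℤ)),
            l8p43_le N q (D.conj hq0 (D.conj hq0 ⟨h, hh⟩)).2⟩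
          (D.conj_spec hq0 (D.conj hq0 ⟨h, hh⟩)).symm]
      exact (l8p43_conj_conj hq0 D α ⟨h, hh⟩ _ _).symm)
    (dg71_fn_isSymb b).1 (dg71_fn_isSymb b).2
  exact h1.trans h2

/-- **hT**: `PN (T_ℓ x) α = PN x (heckeHom N ℓ ℤ α)`. -/
theorem l8p43_hT {ℓ : ℕ} (hℓ : ℓ.Prime) (hℓN : ¬ ℓ ∣ N)
    {repN : SL(2, ℤ) ⧸ Gamma0 N → SL(2, ℤ)} (hrepN : ∀ x, (repN x : SL(2, ℤ) ⧸ Gamma0 N) = x)
    (hadN : md32_Adapted repN)
    (x : md32_Symb (Gamma0 N) psl96_rho) (α : Additive (Gamma0 N) →+ ℤ) :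
    md32_PB psl96_rho ∞ repN (dg71_T N ℓ hℓ hℓN x) α
      = md32_PB psl96_rho ∞ repN x (heckeHom N ℓ ℤ α) := by
  classical
  obtain ⟨D⟩ := tr43_Data_exists (N := N) (q := ℓ) ((Nat.Prime.coprime_iff_not_dvd hℓ).mpr hℓN)
  have hℓ0 := hℓ.ne_zero
  have hfin : Finite (SL(2, ℤ) ⧸ Gamma0 (N * ℓ)) := l8p43_finite hℓ D
  obtain ⟨secH, hsecH, hadH⟩ := md32_exists_rep (Γ := Gamma0 (N * ℓ)) (l8p43_neg_mem _)
  have hφ := dg71_fn_isSymb x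
  rw [md32_PB_apply, md32_PB_apply, l8p43_B_eq repN _ (dg71_T N ℓ hℓ hℓN x).2.1 ∞,
    l8p43_B_eq repN _ x.2.1 ∞]
  have hTW : tr43_tr D (tr43_W D (dg71_fn x)) = tr43_T ℓ (dg71_fn x) :=
    tr43_tr_W_res sc71_scalarTriv hℓ0 D hφ.2
  have hφ' : tr43_Inv (N * ℓ) (dg71_fn x) := tr43_Inv_of_dvd (dvd_mul_right N ℓ) hφ.2
  have hW : sc71_IsSymb (tr43_W D (dg71_fn x)) := sc71_IsSymb.W D hφ.1
  have hWinv : tr43_Inv (N * ℓ) (tr43_W D (dg71_fn x)) := tr43_W_Inv hℓ0 D hφ'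
  have h1 := l8p43_BI hℓ D hrepN hadN hsecH hadH (md32_ext α) (md32_ext_isHom α) hW hWinv
  rw [hTW] at h1
  -- the homomorphism `α ∘ conj_w⁻¹` on `Γ₀(N ℓ)`, extended by zero
  let χ' : SL(2, ℤ) → ℤ := fun h =>
    if hh : h ∈ Gamma0 (N * ℓ) then
      α (Additive.ofMul (⟨(((D.conj hℓ0).symm ⟨h, hh⟩ : Gamma0 (N * ℓ)) : SL(2, ℤ)),
        l8p43_le N ℓ ((D.conj hℓ0).symm ⟨h, hh⟩).2⟩ : Gamma0 N))
    else 0
  have hχ'_mem : ∀ h (hh : h ∈ Gamma0 (N * ℓ)),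
      χ' h = α (Additive.ofMul (⟨(((D.conj hℓ0).symm ⟨h, hh⟩ : Gamma0 (N * ℓ)) : SL(2, ℤ)),
        l8p43_le N ℓ ((D.conj hℓ0).symm ⟨h, hh⟩).2⟩ : Gamma0 N)) := fun h hh => dif_pos hh
  have hχ' : ∀ a ∈ Gamma0 (N * ℓ), ∀ b ∈ Gamma0 (N * ℓ), χ' (a * b) = χ' a + χ' b := by
    intro a ha b hb
    rw [hχ'_mem a ha, hχ'_mem b hb, hχ'_mem (a * b) (mul_mem ha hb), ← map_add, ← ofMul_mul]
    congr 2
    apply Subtype.ext
    show (((D.conj hℓ0).symm ⟨a * b, mul_mem ha hb⟩ : Gamma0 (N * ℓ)) : SL(2, ℤ))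
      = (((D.conj hℓ0).symm ⟨a, ha⟩ : Gamma0 (N * ℓ)) : SL(2, ℤ))
        * (((D.conj hℓ0).symm ⟨b, hb⟩ : Gamma0 (N * ℓ)) : SL(2, ℤ))
    rw [← Subgroup.coe_mul, ← map_mul]
    rfl
  have h2 := l8p43_BW hℓ0 D hsecH hadH χ' (md32_ext α) hχ'
    (fun h hh => by
      rw [md32_ext_of_mem α (l8p43_le N ℓ hh), hχ'_mem _ (D.conj hℓ0 ⟨h, hh⟩).2]
      congr 2
      apply Subtype.ext
      simp)
    hφ.1 hφ'
  have h3 := l8p43_BI' hrepN hadN hsecH hadH χ' hχ' (md32_ext (heckeHom N ℓ ℤ α))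
    (fun g hg => by
      rw [md32_ext_of_mem _ hg,
        hid43_heckeHom_cores hℓ hℓN D.inv
          (fun h => ⟨(((D.conj hℓ0).symm h : Gamma0 (N * ℓ)) : SL(2, ℤ)),
            l8p43_le N ℓ ((D.conj hℓ0).symm h).2⟩)
          (fun h => by
            show D.inv.w * _ = (((D.conj hℓ0).symm h : Gamma0 (N * ℓ)) : SL(2, ℤ)).1 * D.inv.w
            rw [D.conj_symm_apply hℓ0 h]
            exact D.inv.conj_spec hℓ0 h) α ⟨g, hg⟩]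
      refine finsum_congr fun q => ?_
      exact (hχ'_mem _ _).symm)
    hφ.1 hφ.2
  exact h1.trans (h2.trans h3)

end Final

end Fermat.Agent.S41
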