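/-
S41 / links L8 + L9, helper43.  `(Hb)` of `rf7_main` / `pf92_S41_of_Hb`, hypothesis-free:
the three adjointness identities of `L8Plain43` plugged into `dg71_Hb_main`.
-/
import Mathlib
import Fermat.Agent.S41.L8Plain43
import Fermat.Agent.S41.DualGlue71b

set_option autoImplicit false

open CongruenceSubgroup OnePoint
open scoped MatrixGroups

namespace Fermat.Agent.S41

open Fermat.Agent.S16

/-- **(Hb)**: dual Ihara for integral symbols mod `p` (first duality route: algebraic cap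
product), for every Bézout datum `D` and every prime `l0 ≡ 1 mod N q`. -/
theorem hbf43_Hb {p : ℕ} (hp : p.Prime) (hp2 : p ≠ 2) {N q : ℕ} (hN : 0 < N) (hq : q.Prime)
    (hqN : ¬ q ∣ N) (D : tr43_Data N q) {l0 : ℕ} (hl0 : l0.Prime) (hl01 : l0 ≡ 1 [MOD N * q]) :
    ∃ n : ℕ, ∀ φ₁ φ₂ : sc71_X → ℤ, slp10_IsSymb N φ₁ → slp10_IsSymb N φ₂ →
      ∃ Ψ : sc71_X → ℤ, slp10_IsSymb (N * q) Ψ ∧
        (∀ z, (p : ℤ) ∣ (ic42_E l0)^[n] φ₁ z - tr43_tr D Ψ z) ∧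
        (∀ z, (p : ℤ) ∣ (ic42_E l0)^[n] φ₂ z - tr43_tr D (tr43_W D Ψ) z) := by
  have hNN : NeZero N := ⟨hN.ne'⟩
  have hqq : NeZero q := ⟨hq.ne_zero⟩
  have hNq : NeZero (N * q) := ⟨Nat.mul_ne_zero hN.ne' hq.ne_zero⟩
  have hF1 : Fintype (SL(2, ℤ) ⧸ Gamma0 N) := Fintype.ofFinite _
  have hF2 : Fintype (SL(2, ℤ) ⧸ Gamma0 (N * q)) := Fintype.ofFinite _
  obtain ⟨repN, hrepN, hadN⟩ := md32_exists_rep (dg71_neg_one_mem N)
  obtain ⟨repQ, hrepQ, hadQ⟩ := md32_exists_rep (dg71_neg_one_mem (N * q))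
  have hl0Nq : ¬ l0 ∣ N * q := ca76_not_dvd_of_modEq hl0 hl01
  have hl0N : ¬ l0 ∣ N := fun h => hl0Nq (h.mul_right q)
  exact dg71_Hb_main hp hp2 hN hq hqN D hl0 hl01 hl0N hrepN hadN hrepQ hadQ
    (hic88_res₁ N q ℤ) (hic88_res₂ N q ℤ) (hic88_isRes₁ N q ℤ) (hic88_isRes₂ D ℤ)
    (fun b α => l8p43_hadj₁ hq D hrepN hadN hrepQ hadQ _ (hic88_isRes₁ N q ℤ) b α)
    (fun b α => l8p43_hadj₂ hq D hrepN hadN hrepQ hadQ _ (hic88_isRes₂ D ℤ) b α)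
    (fun x α => l8p43_hT hl0 hl0N hrepN hadN x α)

end Fermat.Agent.S41
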