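/-
S41 / M4 glue (G2): wrapper from a "character" on a subgroup `Δ ≤ SL(2, ℚ)` to the integer data
consumed by the abelianised congruence-subgroup core (helper42's proof, team report 1066).

Input: `R` a subring of `ℚ` containing `1/q`; `Δ` contains the integer matrices of `Γ₀(N)`, the
upper unipotents `U x` (`x ∈ R`) and the lower unipotents `L (N y)` (`y ∈ R`); `χ` is additive on `Δ`
and kills those `U`, `L`.  Output for `χ₀ g := χ (g over ℚ)`, `g : SL(2, ℤ)`: additivity on `Γ₀(N)`,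
vanishing on integer unipotents and the two unit invariances (Q3), (Q4) for `t = q ^ E`
(`q ^ E ≡ 1 mod N`).  Mathlib only; definition-neutral on the integer side.
-/
import Mathlib

set_option autoImplicit false

open Matrix
open scoped MatrixGroups

namespace Fermat.Agent.S41

/-- upper unipotent `[[1, x], [0, 1]]` over `ℚ`. -/
def m4w_U (x : ℚ) : SL(2, ℚ) := ⟨!![1, x; 0, 1], by simp [Matrix.det_fin_two_of]⟩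

/-- lower unipotent `[[1, 0], [y, 1]]` over `ℚ`. -/
def m4w_L (y : ℚ) : SL(2, ℚ) := ⟨!![1, 0; y, 1], by simp [Matrix.det_fin_two_of]⟩

/-- torus element `diag(t, 1/t)` over `ℚ`. -/
def m4w_D (t : ℚ) (ht : t ≠ 0) : SL(2, ℚ) :=
  ⟨!![t, 0; 0, t⁻¹], by simp [Matrix.det_fin_two_of, ht]⟩

/-- an integer matrix viewed over `ℚ`. -/
def m4w_cast (g : SL(2, ℤ)) : SL(2, ℚ) := Matrix.SpecialLinearGroup.map (Int.castRingHom ℚ) g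

theorem m4w_cast_apply (g : SL(2, ℤ)) (i j : Fin 2) : (m4w_cast g) i j = ((g i j : ℤ) : ℚ) := by
  simp [m4w_cast]

theorem m4w_cast_mul (g h : SL(2, ℤ)) : m4w_cast (g * h) = m4w_cast g * m4w_cast h :=
  map_mul _ g h

theorem m4w_mul_apply (g h : SL(2, ℚ)) (i j : Fin 2) :
    (g * h) i j = g i 0 * h 0 j + g i 1 * h 1 j := by
  rw [Matrix.SpecialLinearGroup.coe_mul, Matrix.mul_apply, Fin.sum_univ_two]

theorem m4w_det (g : SL(2, ℚ)) : g 0 0 * g 1 1 - g 0 1 * g 1 0 = 1 := by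
  have := g.det_coe
  rwa [Matrix.det_fin_two] at this

theorem m4w_ext {g h : SL(2, ℚ)} (h00 : g 0 0 = h 0 0) (h01 : g 0 1 = h 0 1)
    (h10 : g 1 0 = h 1 0) (h11 : g 1 1 = h 1 1) : g = h := by
  apply Subtype.ext
  ext i j
  fin_cases i <;> fin_cases j <;> assumption

@[simp] theorem m4w_U_00 (x : ℚ) : (m4w_U x) 0 0 = 1 := rfl
@[simp] theorem m4w_U_01 (x : ℚ) : (m4w_U x) 0 1 = x := rfl
@[simp] theorem m4w_U_10 (x : ℚ) : (m4w_U x) 1 0 = 0 := rfl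
@[simp] theorem m4w_U_11 (x : ℚ) : (m4w_U x) 1 1 = 1 := rfl
@[simp] theorem m4w_L_00 (y : ℚ) : (m4w_L y) 0 0 = 1 := rfl
@[simp] theorem m4w_L_01 (y : ℚ) : (m4w_L y) 0 1 = 0 := rfl
@[simp] theorem m4w_L_10 (y : ℚ) : (m4w_L y) 1 0 = y := rfl
@[simp] theorem m4w_L_11 (y : ℚ) : (m4w_L y) 1 1 = 1 := rfl
@[simp] theorem m4w_D_00 (t : ℚ) (ht : t ≠ 0) : (m4w_D t ht) 0 0 = t := rfl
@[simp] theorem m4w_D_01 (t : ℚ) (ht : t ≠ 0) : (m4w_D t ht) 0 1 = 0 := rfl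
@[simp] theorem m4w_D_10 (t : ℚ) (ht : t ≠ 0) : (m4w_D t ht) 1 0 = 0 := rfl
@[simp] theorem m4w_D_11 (t : ℚ) (ht : t ≠ 0) : (m4w_D t ht) 1 1 = t⁻¹ := rfl

/-- two matrices with the same bottom row differ by an upper unipotent on the left. -/
theorem m4w_eq_U_mul (g g' : SL(2, ℚ)) (h0 : g' 1 0 = g 1 0) (h1 : g' 1 1 = g 1 1) :
    g' = m4w_U (g 0 0 * g' 0 1 - g' 0 0 * g 0 1) * g := by
  have d := m4w_det g
  have d' := m4w_det g'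
  rw [h0, h1] at d'
  apply m4w_ext
  · rw [m4w_mul_apply, m4w_U_00, m4w_U_01]
    linear_combination (-(g' 0 0)) * d + (g 0 0) * d'
  · rw [m4w_mul_apply, m4w_U_00, m4w_U_01]
    linear_combination (-(g' 0 1)) * d + (g 0 1) * d'
  · rw [m4w_mul_apply, m4w_U_10, m4w_U_11, h0]; ring
  · rw [m4w_mul_apply, m4w_U_10, m4w_U_11, h1]; ring

/-- Whitehead: `diag(t, 1/t) = L(1/t - 1) U(1) L(t - 1) U(-1/t)`. -/
theorem m4w_whitehead (t : ℚ) (ht : t ≠ 0) :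
    m4w_D t ht = m4w_L (t⁻¹ - 1) * m4w_U 1 * m4w_L (t - 1) * m4w_U (-t⁻¹) := by
  apply m4w_ext
  · simp only [m4w_mul_apply, m4w_U_00, m4w_U_01, m4w_U_10, m4w_U_11, m4w_L_00, m4w_L_01,
      m4w_L_10, m4w_L_11, m4w_D_00]
    ring
  · simp only [m4w_mul_apply, m4w_U_00, m4w_U_01, m4w_U_10, m4w_U_11, m4w_L_00, m4w_L_01,
      m4w_L_10, m4w_L_11, m4w_D_01]
    field_simp
    ring
  · simp only [m4w_mul_apply, m4w_U_00, m4w_U_01, m4w_U_10, m4w_U_11, m4w_L_00, m4w_L_01,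
      m4w_L_10, m4w_L_11, m4w_D_10]
    field_simp
    ring
  · simp only [m4w_mul_apply, m4w_U_00, m4w_U_01, m4w_U_10, m4w_U_11, m4w_L_00, m4w_L_01,
      m4w_L_10, m4w_L_11, m4w_D_11]
    field_simp
    ring

/-- entries of `diag(s, 1/s) * g * diag(s', 1/s')`. -/
theorem m4w_DgD (s s' : ℚ) (hs : s ≠ 0) (hs' : s' ≠ 0) (g : SL(2, ℚ)) :
    (m4w_D s hs * g * m4w_D s' hs') 0 0 = s * g 0 0 * s' ∧
    (m4w_D s hs * g * m4w_D s' hs') 0 1 = s * g 0 1 * s'⁻¹ ∧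
    (m4w_D s hs * g * m4w_D s' hs') 1 0 = s⁻¹ * g 1 0 * s' ∧
    (m4w_D s hs * g * m4w_D s' hs') 1 1 = s⁻¹ * g 1 1 * s'⁻¹ := by
  refine ⟨?_, ?_, ?_, ?_⟩ <;>
  · simp only [m4w_mul_apply, m4w_D_00, m4w_D_01, m4w_D_10, m4w_D_11]
    ring

section wrap

variable {K : Type*} [AddCommGroup K] {N q E : ℕ} {R : Subring ℚ} {Δ : Subgroup SL(2, ℚ)}
  {χ : SL(2, ℚ) → K}

theorem m4w_map_one (hmul : ∀ g h : SL(2, ℚ), g ∈ Δ → h ∈ Δ → χ (g * h) = χ g + χ h) :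
    χ 1 = 0 := by
  have h := hmul 1 1 Δ.one_mem Δ.one_mem
  rw [mul_one] at h
  exact left_eq_add.mp h

/-- the torus element `diag(t, 1/t)`, `t = q ^ E`, lies in `Δ` and is killed by `χ`;
same for `1/t`. -/
theorem m4w_torus (hq : q ≠ 0) (hqR : ((q : ℚ))⁻¹ ∈ R) (hEN : (q : ℤ) ^ E ≡ 1 [ZMOD N])
    (hmul : ∀ g h : SL(2, ℚ), g ∈ Δ → h ∈ Δ → χ (g * h) = χ g + χ h)
    (hU : ∀ x ∈ R, m4w_U x ∈ Δ ∧ χ (m4w_U x) = 0)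
    (hL : ∀ y ∈ R, m4w_L ((N : ℚ) * y) ∈ Δ ∧ χ (m4w_L ((N : ℚ) * y)) = 0) :
    (m4w_D ((q : ℚ) ^ E) (pow_ne_zero E (Nat.cast_ne_zero.mpr hq)) ∈ Δ ∧
      χ (m4w_D ((q : ℚ) ^ E) (pow_ne_zero E (Nat.cast_ne_zero.mpr hq))) = 0) ∧
    (m4w_D (((q : ℚ) ^ E)⁻¹) (inv_ne_zero (pow_ne_zero E (Nat.cast_ne_zero.mpr hq))) ∈ Δ ∧
      χ (m4w_D (((q : ℚ) ^ E)⁻¹) (inv_ne_zero (pow_ne_zero E (Nat.cast_ne_zero.mpr hq)))) = 0) := by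
  have hq0 : (q : ℚ) ≠ 0 := Nat.cast_ne_zero.mpr hq
  have ht : (q : ℚ) ^ E ≠ 0 := pow_ne_zero E hq0
  -- `q ^ E - 1 = N * a`
  obtain ⟨a, ha⟩ : (N : ℤ) ∣ (q : ℤ) ^ E - 1 := (Int.modEq_iff_dvd.mp hEN.symm)
  have haQ : (q : ℚ) ^ E - 1 = (N : ℚ) * (a : ℚ) := by
    have := congrArg (fun z : ℤ => (z : ℚ)) ha
    push_cast at this
    exact this
  have hinvR : ((q : ℚ) ^ E)⁻¹ ∈ R := by
    rw [← inv_pow]; exact pow_mem hqR E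
  have hpowR : (q : ℚ) ^ E ∈ R := pow_mem (natCast_mem R q) E
  -- the four kinds of factors
  have e1 : (q : ℚ) ^ E - 1 = (N : ℚ) * (a : ℚ) := haQ
  have e2 : ((q : ℚ) ^ E)⁻¹ - 1 = (N : ℚ) * (-(a : ℚ) * ((q : ℚ) ^ E)⁻¹) := by
    field_simp
    linear_combination -haQ
  have hL1 := hL (a : ℚ) (intCast_mem R a)
  have hL2 := hL (-(a : ℚ) * ((q : ℚ) ^ E)⁻¹) (mul_mem (neg_mem (intCast_mem R a)) hinvR)
  rw [← e1] at hL1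
  rw [← e2] at hL2
  have hU1 := hU 1 (one_mem R)
  have hU2 := hU (-((q : ℚ) ^ E)⁻¹) (neg_mem hinvR)
  have hU3 := hU (-((q : ℚ) ^ E)) (neg_mem hpowR)
  refine ⟨?_, ?_⟩
  · rw [m4w_whitehead _ ht]
    refine ⟨Δ.mul_mem (Δ.mul_mem (Δ.mul_mem hL2.1 hU1.1) hL1.1) hU2.1, ?_⟩
    rw [hmul _ _ (Δ.mul_mem (Δ.mul_mem hL2.1 hU1.1) hL1.1) hU2.1,
      hmul _ _ (Δ.mul_mem hL2.1 hU1.1) hL1.1, hmul _ _ hL2.1 hU1.1,
      hL2.2, hU1.2, hL1.2, hU2.2]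
    simp
  · rw [m4w_whitehead _ (inv_ne_zero ht)]
    have e3 : (((q : ℚ) ^ E)⁻¹)⁻¹ = (q : ℚ) ^ E := inv_inv _
    rw [e3]
    refine ⟨Δ.mul_mem (Δ.mul_mem (Δ.mul_mem hL1.1 hU1.1) hL2.1) hU3.1, ?_⟩
    rw [hmul _ _ (Δ.mul_mem (Δ.mul_mem hL1.1 hU1.1) hL2.1) hU3.1,
      hmul _ _ (Δ.mul_mem hL1.1 hU1.1) hL2.1, hmul _ _ hL1.1 hU1.1,
      hL2.2, hU1.2, hL1.2, hU3.2]
    simp

/-- additivity of `χ₀ = χ ∘ cast` on `Γ₀(N)`. -/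
theorem m4w_add (hmul : ∀ g h : SL(2, ℚ), g ∈ Δ → h ∈ Δ → χ (g * h) = χ g + χ h)
    (hΓ : ∀ g : SL(2, ℤ), (N : ℤ) ∣ g 1 0 → m4w_cast g ∈ Δ)
    (g h : SL(2, ℤ)) (hg : (N : ℤ) ∣ g 1 0) (hh : (N : ℤ) ∣ h 1 0) :
    χ (m4w_cast (g * h)) = χ (m4w_cast g) + χ (m4w_cast h) := by
  rw [m4w_cast_mul]
  exact hmul _ _ (hΓ g hg) (hΓ h hh)

/-- `χ₀` kills the integer upper unipotents. -/
theorem m4w_upper (hU : ∀ x ∈ R, m4w_U x ∈ Δ ∧ χ (m4w_U x) = 0)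
    (g : SL(2, ℤ)) (h00 : g 0 0 = 1) (h10 : g 1 0 = 0) (h11 : g 1 1 = 1) :
    χ (m4w_cast g) = 0 := by
  have : m4w_cast g = m4w_U ((g 0 1 : ℤ) : ℚ) := by
    apply m4w_ext
    · rw [m4w_cast_apply, h00]; simp
    · rw [m4w_cast_apply]; simp
    · rw [m4w_cast_apply, h10]; simp
    · rw [m4w_cast_apply, h11]; simp
  rw [this]
  exact (hU _ (intCast_mem R _)).2

/-- `χ₀` kills the integer lower unipotents of `Γ₀(N)`. -/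
theorem m4w_lower (hL : ∀ y ∈ R, m4w_L ((N : ℚ) * y) ∈ Δ ∧ χ (m4w_L ((N : ℚ) * y)) = 0)
    (g : SL(2, ℤ)) (h00 : g 0 0 = 1) (h01 : g 0 1 = 0) (h11 : g 1 1 = 1)
    (h10 : (N : ℤ) ∣ g 1 0) : χ (m4w_cast g) = 0 := by
  obtain ⟨y, hy⟩ := h10
  have : m4w_cast g = m4w_L ((N : ℚ) * (y : ℚ)) := by
    apply m4w_ext
    · rw [m4w_cast_apply, h00]; simp
    · rw [m4w_cast_apply, h01]; simp
    · rw [m4w_cast_apply, hy]; simp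
    · rw [m4w_cast_apply, h11]; simp
  rw [this]
  exact (hL _ (intCast_mem R _)).2

/-- (Q4): multiplying the lower-left entry by `q ^ (2 E)` does not change `χ₀`. -/
theorem m4w_Q4 (hq : q ≠ 0) (hqR : ((q : ℚ))⁻¹ ∈ R) (hEN : (q : ℤ) ^ E ≡ 1 [ZMOD N])
    (hmul : ∀ g h : SL(2, ℚ), g ∈ Δ → h ∈ Δ → χ (g * h) = χ g + χ h)
    (hΓ : ∀ g : SL(2, ℤ), (N : ℤ) ∣ g 1 0 → m4w_cast g ∈ Δ)
    (hU : ∀ x ∈ R, m4w_U x ∈ Δ ∧ χ (m4w_U x) = 0)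
    (hL : ∀ y ∈ R, m4w_L ((N : ℚ) * y) ∈ Δ ∧ χ (m4w_L ((N : ℚ) * y)) = 0)
    (g g' : SL(2, ℤ)) (hg : (N : ℤ) ∣ g 1 0) (h0 : g' 1 0 = (q : ℤ) ^ (2 * E) * g 1 0)
    (h1 : g' 1 1 = g 1 1) : χ (m4w_cast g') = χ (m4w_cast g) := by
  have hq0 : (q : ℚ) ≠ 0 := Nat.cast_ne_zero.mpr hq
  have ht : (q : ℚ) ^ E ≠ 0 := pow_ne_zero E hq0
  obtain ⟨⟨hD, hDχ⟩, ⟨hD', hDχ'⟩⟩ := m4w_torus hq hqR hEN hmul hU hL
  set t : ℚ := (q : ℚ) ^ E with htdef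
  have hinvR : t⁻¹ ∈ R := by
    rw [htdef, ← inv_pow]; exact pow_mem hqR E
  have hpowR : t ∈ R := pow_mem (natCast_mem R q) E
  set h : SL(2, ℚ) := m4w_D t⁻¹ (inv_ne_zero ht) * m4w_cast g * m4w_D t ht with hh
  obtain ⟨e00, e01, e10, e11⟩ := m4w_DgD t⁻¹ t (inv_ne_zero ht) ht (m4w_cast g)
  rw [← hh] at e00 e01 e10 e11
  have hgΔ : m4w_cast g ∈ Δ := hΓ g hg
  have hg'Δ : m4w_cast g' ∈ Δ := hΓ g' (by rw [h0]; exact Dvd.dvd.mul_left hg _)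
  have hhΔ : h ∈ Δ := Δ.mul_mem (Δ.mul_mem hD' hgΔ) hD
  have hχh : χ h = χ (m4w_cast g) := by
    rw [hh, hmul _ _ (Δ.mul_mem hD' hgΔ) hD, hmul _ _ hD' hgΔ, hDχ, hDχ']
    simp
  have b0 : (m4w_cast g') 1 0 = h 1 0 := by
    rw [e10, m4w_cast_apply, m4w_cast_apply, h0, inv_inv]
    push_cast
    rw [htdef]
    ring
  have b1 : (m4w_cast g') 1 1 = h 1 1 := by
    rw [e11, m4w_cast_apply, m4w_cast_apply, h1, inv_inv]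
    field_simp
  have key := m4w_eq_U_mul h (m4w_cast g') b0 b1
  have hxR : h 0 0 * (m4w_cast g') 0 1 - (m4w_cast g') 0 0 * h 0 1 ∈ R := by
    rw [e00, e01, m4w_cast_apply, m4w_cast_apply, m4w_cast_apply, m4w_cast_apply]
    exact sub_mem (mul_mem (mul_mem (mul_mem hinvR (intCast_mem R _)) hpowR) (intCast_mem R _))
      (mul_mem (intCast_mem R _) (mul_mem (mul_mem hinvR (intCast_mem R _)) hinvR))
  obtain ⟨hUx, hUχ⟩ := hU _ hxR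
  rw [key, hmul _ _ hUx hhΔ, hUχ, zero_add, hχh]

/-- (Q3): multiplying the lower-right entry by `q ^ (2 E)` does not change `χ₀`. -/
theorem m4w_Q3 (hq : q ≠ 0) (hqR : ((q : ℚ))⁻¹ ∈ R) (hEN : (q : ℤ) ^ E ≡ 1 [ZMOD N])
    (hmul : ∀ g h : SL(2, ℚ), g ∈ Δ → h ∈ Δ → χ (g * h) = χ g + χ h)
    (hΓ : ∀ g : SL(2, ℤ), (N : ℤ) ∣ g 1 0 → m4w_cast g ∈ Δ)
    (hU : ∀ x ∈ R, m4w_U x ∈ Δ ∧ χ (m4w_U x) = 0)
    (hL : ∀ y ∈ R, m4w_L ((N : ℚ) * y) ∈ Δ ∧ χ (m4w_L ((N : ℚ) * y)) = 0)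
    (g g' : SL(2, ℤ)) (hg : (N : ℤ) ∣ g 1 0) (h0 : g' 1 0 = g 1 0)
    (h1 : g' 1 1 = (q : ℤ) ^ (2 * E) * g 1 1) : χ (m4w_cast g') = χ (m4w_cast g) := by
  have hq0 : (q : ℚ) ≠ 0 := Nat.cast_ne_zero.mpr hq
  have ht : (q : ℚ) ^ E ≠ 0 := pow_ne_zero E hq0
  obtain ⟨-, ⟨hD', hDχ'⟩⟩ := m4w_torus hq hqR hEN hmul hU hL
  set t : ℚ := (q : ℚ) ^ E with htdef
  have hinvR : t⁻¹ ∈ R := by
    rw [htdef, ← inv_pow]; exact pow_mem hqR E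
  set h : SL(2, ℚ) := m4w_D t⁻¹ (inv_ne_zero ht) * m4w_cast g * m4w_D t⁻¹ (inv_ne_zero ht) with hh
  obtain ⟨e00, e01, e10, e11⟩ :=
    m4w_DgD t⁻¹ t⁻¹ (inv_ne_zero ht) (inv_ne_zero ht) (m4w_cast g)
  rw [← hh] at e00 e01 e10 e11
  have hgΔ : m4w_cast g ∈ Δ := hΓ g hg
  have hg'Δ : m4w_cast g' ∈ Δ := hΓ g' (by rw [h0]; exact hg)
  have hhΔ : h ∈ Δ := Δ.mul_mem (Δ.mul_mem hD' hgΔ) hD'
  have hχh : χ h = χ (m4w_cast g) := by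
    rw [hh, hmul _ _ (Δ.mul_mem hD' hgΔ) hD', hmul _ _ hD' hgΔ, hDχ']
    simp
  have b0 : (m4w_cast g') 1 0 = h 1 0 := by
    rw [e10, m4w_cast_apply, m4w_cast_apply, h0, inv_inv]
    field_simp
  have b1 : (m4w_cast g') 1 1 = h 1 1 := by
    rw [e11, m4w_cast_apply, m4w_cast_apply, h1, inv_inv]
    push_cast
    rw [htdef]
    ring
  have key := m4w_eq_U_mul h (m4w_cast g') b0 b1
  have hxR : h 0 0 * (m4w_cast g') 0 1 - (m4w_cast g') 0 0 * h 0 1 ∈ R := by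
    rw [e00, e01, m4w_cast_apply, m4w_cast_apply, m4w_cast_apply, m4w_cast_apply, inv_inv]
    have hpowR : t ∈ R := pow_mem (natCast_mem R q) E
    exact sub_mem (mul_mem (mul_mem (mul_mem hinvR (intCast_mem R _)) hinvR) (intCast_mem R _))
      (mul_mem (intCast_mem R _) (mul_mem (mul_mem hinvR (intCast_mem R _)) hpowR))
  obtain ⟨hUx, hUχ⟩ := hU _ hxR
  rw [key, hmul _ _ hUx hhΔ, hUχ, zero_add, hχh]

end wrap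

end Fermat.Agent.S41
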