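/-
S41 / M4 glue (backup G1 + final statement).  From the integer data produced by `CSPWrap56`
(additivity on `Γ₀(N)`, vanishing on unipotents, unit invariances (Q3), (Q4)) build the bottom-row
symbol `m : ℤ → ℤ → K` and feed the matrix-free core (helper42, `h42_csp_abstract`).
-/
import Mathlib
import Fermat.Agent.S41.CSPWrap56

set_option autoImplicit false

open Matrix
open scoped MatrixGroups

namespace Fermat.Agent.S41

/-- the statement of the matrix-free core (helper42's `h42_csp_abstract`), as a proposition. -/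
def m4g_CoreStatement (K : Type*) [Field K] (N q E : ℕ) : Prop :=
  ∀ (m : ℤ → ℤ → K),
    (∀ c d a' b' c' d' : ℤ, (N : ℤ) ∣ c → IsCoprime c d → (N : ℤ) ∣ c' → a' * d' - b' * c' = 1 →
      m (c * a' + d * c') (c * b' + d * d') = m c d + m c' d') →
    (∀ c : ℤ, (N : ℤ) ∣ c → m c 1 = 0) →
    (∀ c d : ℤ, (N : ℤ) ∣ c → IsCoprime ((q : ℤ) ^ (2 * E) * c) d →
      m ((q : ℤ) ^ (2 * E) * c) d = m c d) →
    (∀ c d : ℤ, (N : ℤ) ∣ c → IsCoprime c ((q : ℤ) ^ (2 * E) * d) →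
      m c ((q : ℤ) ^ (2 * E) * d) = m c d) →
    ∀ c d : ℤ, (N : ℤ) ∣ c → IsCoprime c d → d ≡ 1 [ZMOD N] → m c d = 0

/-- integer matrix with prescribed entries. -/
def m4g_mk (a b c d : ℤ) (h : a * d - b * c = 1) : SL(2, ℤ) :=
  ⟨!![a, b; c, d], by rw [Matrix.det_fin_two_of]; exact h⟩

@[simp] theorem m4g_mk_00 (a b c d : ℤ) (h : a * d - b * c = 1) : (m4g_mk a b c d h) 0 0 = a := rfl
@[simp] theorem m4g_mk_01 (a b c d : ℤ) (h : a * d - b * c = 1) : (m4g_mk a b c d h) 0 1 = b := rfl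
@[simp] theorem m4g_mk_10 (a b c d : ℤ) (h : a * d - b * c = 1) : (m4g_mk a b c d h) 1 0 = c := rfl
@[simp] theorem m4g_mk_11 (a b c d : ℤ) (h : a * d - b * c = 1) : (m4g_mk a b c d h) 1 1 = d := rfl

theorem m4g_mul_apply (g h : SL(2, ℤ)) (i j : Fin 2) :
    (g * h) i j = g i 0 * h 0 j + g i 1 * h 1 j := by
  rw [Matrix.SpecialLinearGroup.coe_mul, Matrix.mul_apply, Fin.sum_univ_two]

theorem m4g_det (g : SL(2, ℤ)) : g 0 0 * g 1 1 - g 0 1 * g 1 0 = 1 := by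
  have := g.det_coe
  rwa [Matrix.det_fin_two] at this

theorem m4g_ext {g h : SL(2, ℤ)} (h00 : g 0 0 = h 0 0) (h01 : g 0 1 = h 0 1)
    (h10 : g 1 0 = h 1 0) (h11 : g 1 1 = h 1 1) : g = h := by
  apply Subtype.ext
  ext i j
  fin_cases i <;> fin_cases j <;> assumption

theorem m4g_exists_row {c d : ℤ} (h : IsCoprime c d) : ∃ g : SL(2, ℤ), g 1 0 = c ∧ g 1 1 = d := by
  obtain ⟨u, v, huv⟩ := h
  exact ⟨m4g_mk v (-u) c d (by linarith), rfl, rfl⟩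

section sym

variable {K : Type*} [AddCommGroup K] {N : ℕ} {χ₀ : SL(2, ℤ) → K}

/-- `χ₀` only depends on the bottom row. -/
theorem m4g_row
    (hadd : ∀ g h : SL(2, ℤ), (N : ℤ) ∣ g 1 0 → (N : ℤ) ∣ h 1 0 → χ₀ (g * h) = χ₀ g + χ₀ h)
    (hup : ∀ g : SL(2, ℤ), g 0 0 = 1 → g 1 0 = 0 → g 1 1 = 1 → χ₀ g = 0)
    (g g' : SL(2, ℤ)) (hg : (N : ℤ) ∣ g 1 0) (h0 : g' 1 0 = g 1 0) (h1 : g' 1 1 = g 1 1) :
    χ₀ g' = χ₀ g := by
  have d := m4g_det g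
  have d' := m4g_det g'
  rw [h0, h1] at d'
  have key : g' = m4g_mk 1 (g 0 0 * g' 0 1 - g' 0 0 * g 0 1) 0 1 (by ring) * g := by
    apply m4g_ext
    · rw [m4g_mul_apply, m4g_mk_00, m4g_mk_01]
      linear_combination (-(g' 0 0)) * d + (g 0 0) * d'
    · rw [m4g_mul_apply, m4g_mk_00, m4g_mk_01]
      linear_combination (-(g' 0 1)) * d + (g 0 1) * d'
    · rw [m4g_mul_apply, m4g_mk_10, m4g_mk_11, h0]; ring
    · rw [m4g_mul_apply, m4g_mk_10, m4g_mk_11, h1]; ring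
  rw [key, hadd _ _ (by rw [m4g_mk_10]; exact dvd_zero _) hg,
    hup _ (m4g_mk_00 _ _ _ _ _) (m4g_mk_10 _ _ _ _ _) (m4g_mk_11 _ _ _ _ _), zero_add]

/-- the bottom-row symbol of `χ₀`. -/
noncomputable def m4g_sym (χ₀ : SL(2, ℤ) → K) (c d : ℤ) : K :=
  open Classical in
  if h : ∃ g : SL(2, ℤ), g 1 0 = c ∧ g 1 1 = d then χ₀ h.choose else 0

theorem m4g_sym_eq
    (hadd : ∀ g h : SL(2, ℤ), (N : ℤ) ∣ g 1 0 → (N : ℤ) ∣ h 1 0 → χ₀ (g * h) = χ₀ g + χ₀ h)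
    (hup : ∀ g : SL(2, ℤ), g 0 0 = 1 → g 1 0 = 0 → g 1 1 = 1 → χ₀ g = 0)
    (g : SL(2, ℤ)) {c d : ℤ} (hc : (N : ℤ) ∣ c) (h0 : g 1 0 = c) (h1 : g 1 1 = d) :
    m4g_sym χ₀ c d = χ₀ g := by
  subst h0 h1
  have h : ∃ g' : SL(2, ℤ), g' 1 0 = g 1 0 ∧ g' 1 1 = g 1 1 := ⟨g, rfl, rfl⟩
  rw [m4g_sym, dif_pos h]
  exact m4g_row hadd hup g _ hc h.choose_spec.1 h.choose_spec.2

end sym

/-- (G1), elementwise integer form: additivity on `Γ₀(N)`, vanishing on integer unipotents and the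
unit invariances (Q3), (Q4) force `χ₀ g = 0` for `d(g) ≡ 1 mod N`. -/
theorem m4g_integer {K : Type*} [Field K] {N q E : ℕ} (hcore : m4g_CoreStatement K N q E)
    (χ₀ : SL(2, ℤ) → K)
    (hadd : ∀ g h : SL(2, ℤ), (N : ℤ) ∣ g 1 0 → (N : ℤ) ∣ h 1 0 → χ₀ (g * h) = χ₀ g + χ₀ h)
    (hup : ∀ g : SL(2, ℤ), g 0 0 = 1 → g 1 0 = 0 → g 1 1 = 1 → χ₀ g = 0)
    (hlow : ∀ g : SL(2, ℤ), g 0 0 = 1 → g 0 1 = 0 → g 1 1 = 1 → (N : ℤ) ∣ g 1 0 → χ₀ g = 0)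
    (hQ4 : ∀ g g' : SL(2, ℤ), (N : ℤ) ∣ g 1 0 → g' 1 0 = (q : ℤ) ^ (2 * E) * g 1 0 →
      g' 1 1 = g 1 1 → χ₀ g' = χ₀ g)
    (hQ3 : ∀ g g' : SL(2, ℤ), (N : ℤ) ∣ g 1 0 → g' 1 0 = g 1 0 →
      g' 1 1 = (q : ℤ) ^ (2 * E) * g 1 1 → χ₀ g' = χ₀ g)
    (g : SL(2, ℤ)) (hg : (N : ℤ) ∣ g 1 0) (hd : g 1 1 ≡ 1 [ZMOD N]) : χ₀ g = 0 := by
  have hrowcop : IsCoprime (g 1 0) (g 1 1) := ⟨-g 0 1, g 0 0, by linear_combination m4g_det g⟩
  rw [← m4g_sym_eq hadd hup g hg rfl rfl]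
  refine hcore (m4g_sym χ₀) ?_ ?_ ?_ ?_ (g 1 0) (g 1 1) hg hrowcop hd
  · -- multiplicativity on bottom rows
    intro c d a' b' c' d' hc hcd hc' hdet
    obtain ⟨g₁, h10, h11⟩ := m4g_exists_row hcd
    have e0 : (g₁ * m4g_mk a' b' c' d' hdet) 1 0 = c * a' + d * c' := by
      rw [m4g_mul_apply, h10, h11, m4g_mk_00, m4g_mk_10]
    have e1 : (g₁ * m4g_mk a' b' c' d' hdet) 1 1 = c * b' + d * d' := by
      rw [m4g_mul_apply, h10, h11, m4g_mk_01, m4g_mk_11]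
    have hdvd : (N : ℤ) ∣ c * a' + d * c' :=
      dvd_add (Dvd.dvd.mul_right hc _) (Dvd.dvd.mul_left hc' _)
    rw [m4g_sym_eq hadd hup _ hdvd e0 e1, m4g_sym_eq hadd hup g₁ hc h10 h11,
      m4g_sym_eq hadd hup (m4g_mk a' b' c' d' hdet) (c := c') (d := d') hc' rfl rfl]
    exact hadd _ _ (by rw [h10]; exact hc) (by rw [m4g_mk_10]; exact hc')
  · -- value at `(c, 1)`
    intro c hc
    rw [m4g_sym_eq hadd hup (m4g_mk 1 0 c 1 (by ring)) (c := c) (d := 1) hc rfl rfl]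
    exact hlow _ rfl rfl rfl (by rw [m4g_mk_10]; exact hc)
  · -- (Q4)
    intro c d hc hcop
    have hcd : IsCoprime c d := IsCoprime.of_mul_left_right hcop
    obtain ⟨g₁, h10, h11⟩ := m4g_exists_row hcd
    obtain ⟨g₂, k10, k11⟩ := m4g_exists_row hcop
    rw [m4g_sym_eq hadd hup g₂ (Dvd.dvd.mul_left hc _) k10 k11,
      m4g_sym_eq hadd hup g₁ hc h10 h11]
    exact hQ4 g₁ g₂ (by rw [h10]; exact hc) (by rw [k10, h10]) (by rw [k11, h11])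
  · -- (Q3)
    intro c d hc hcop
    have hcd : IsCoprime c d := IsCoprime.of_mul_right_right hcop
    obtain ⟨g₁, h10, h11⟩ := m4g_exists_row hcd
    obtain ⟨g₂, k10, k11⟩ := m4g_exists_row hcop
    rw [m4g_sym_eq hadd hup g₂ hc k10 k11, m4g_sym_eq hadd hup g₁ hc h10 h11]
    exact hQ3 g₁ g₂ (by rw [h10]; exact hc) (by rw [k10, h10]) (by rw [k11, h11])

/-- FINAL FORM of M4 (given the core): a character of a subgroup `Δ ≤ SL(2, ℚ)` containing `Γ₀(N)`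
and the unipotents with entries in a subring `R ∋ 1/q`, killing those unipotents, vanishes on every
integer matrix of `Γ₀(N)` with `d ≡ 1 mod N`. -/
theorem m4g_main {K : Type*} [Field K] {N q : ℕ} (hq : q ≠ 0)
    (hqN : Nat.Coprime q N)
    (hcore : m4g_CoreStatement K N q (Nat.totient N))
    {R : Subring ℚ} (hqR : ((q : ℚ))⁻¹ ∈ R) {Δ : Subgroup SL(2, ℚ)} {χ : SL(2, ℚ) → K}
    (hmul : ∀ g h : SL(2, ℚ), g ∈ Δ → h ∈ Δ → χ (g * h) = χ g + χ h)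
    (hΓ : ∀ g : SL(2, ℤ), (N : ℤ) ∣ g 1 0 → m4w_cast g ∈ Δ)
    (hU : ∀ x ∈ R, m4w_U x ∈ Δ ∧ χ (m4w_U x) = 0)
    (hL : ∀ y ∈ R, m4w_L ((N : ℚ) * y) ∈ Δ ∧ χ (m4w_L ((N : ℚ) * y)) = 0)
    (g : SL(2, ℤ)) (hg : (N : ℤ) ∣ g 1 0) (hd : g 1 1 ≡ 1 [ZMOD N]) :
    χ (m4w_cast g) = 0 := by
  have hEN : (q : ℤ) ^ (Nat.totient N) ≡ 1 [ZMOD N] := by
    have h := Nat.ModEq.pow_totient hqN
    have h2 := (Int.natCast_modEq_iff.mpr h)
    push_cast at h2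
    exact h2
  exact m4g_integer hcore (fun g => χ (m4w_cast g))
    (fun g h hg hh => m4w_add hmul hΓ g h hg hh)
    (fun g h00 h10 h11 => m4w_upper hU g h00 h10 h11)
    (fun g h00 h01 h11 h10 => m4w_lower hL g h00 h01 h11 h10)
    (fun g g' hg h0 h1 => m4w_Q4 hq hqR hEN hmul hΓ hU hL g g' hg h0 h1)
    (fun g g' hg h0 h1 => m4w_Q3 hq hqR hEN hmul hΓ hU hL g g' hg h0 h1)
    g hg hd

end Fermat.Agent.S41
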