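/-
S41 / M4: the abelianised congruence-subgroup step, final (hypothesis-free) forms.
Combines helper42's matrix-free core `h42_csp_abstract` with the glue of `CSPGlue56`/`CSPWrap56`.
-/
import Mathlib
import Fermat.Agent.S41.CSPCore
import Fermat.Agent.S41.CSPGlue56

set_option autoImplicit false

open Matrix
open scoped MatrixGroups

namespace Fermat.Agent.S41

/-- the core statement holds (helper42's `h42_csp_abstract`). -/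
theorem m4g_core_holds {K : Type*} [Field K] (p : ℕ) [Fact p.Prime] [CharP K p] (hp2 : p ≠ 2)
    (N q E : ℕ) (hN : 0 < N) (hq : 2 ≤ q) (hqN : Nat.Coprime q N) (hE : 0 < E)
    (hEN : q ^ E ≡ 1 [MOD N]) : m4g_CoreStatement K N q E :=
  fun m h1 h2 h3 h4 => h42_csp_abstract p hp2 N q E hN hq hqN hE hEN m h1 h2 h3 h4

/-- M4, elementwise integer form (G1).  `χ₀ : SL(2, ℤ) → K` (char `K` = `p` odd), additive on
`Γ₀(N)`, killing the integer unipotents of `Γ₀(N)`, and invariant under the two unit moves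
(Q3), (Q4) with `t = q ^ (2 E)`, `q ^ E ≡ 1 mod N`.  Then `χ₀ g = 0` whenever `N ∣ c(g)` and
`d(g) ≡ 1 mod N`. -/
theorem m4_csp_integer {K : Type*} [Field K] (p : ℕ) [Fact p.Prime] [CharP K p] (hp2 : p ≠ 2)
    {N q E : ℕ} (hN : 0 < N) (hq : 2 ≤ q) (hqN : Nat.Coprime q N) (hE : 0 < E)
    (hEN : q ^ E ≡ 1 [MOD N]) (χ₀ : SL(2, ℤ) → K)
    (hadd : ∀ g h : SL(2, ℤ), (N : ℤ) ∣ g 1 0 → (N : ℤ) ∣ h 1 0 → χ₀ (g * h) = χ₀ g + χ₀ h)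
    (hup : ∀ g : SL(2, ℤ), g 0 0 = 1 → g 1 0 = 0 → g 1 1 = 1 → χ₀ g = 0)
    (hlow : ∀ g : SL(2, ℤ), g 0 0 = 1 → g 0 1 = 0 → g 1 1 = 1 → (N : ℤ) ∣ g 1 0 → χ₀ g = 0)
    (hQ4 : ∀ g g' : SL(2, ℤ), (N : ℤ) ∣ g 1 0 → g' 1 0 = (q : ℤ) ^ (2 * E) * g 1 0 →
      g' 1 1 = g 1 1 → χ₀ g' = χ₀ g)
    (hQ3 : ∀ g g' : SL(2, ℤ), (N : ℤ) ∣ g 1 0 → g' 1 0 = g 1 0 →
      g' 1 1 = (q : ℤ) ^ (2 * E) * g 1 1 → χ₀ g' = χ₀ g)
    (g : SL(2, ℤ)) (hg : (N : ℤ) ∣ g 1 0) (hd : g 1 1 ≡ 1 [ZMOD N]) : χ₀ g = 0 :=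
  m4g_integer (m4g_core_holds p hp2 N q E hN hq hqN hE hEN) χ₀ hadd hup hlow hQ4 hQ3 g hg hd

/-- M4, FINAL FORM (abelianised congruence-subgroup property for `Γ₀(N)[1/q]`).
`K` a field of odd characteristic `p`; `q ≥ 2` prime to `N`; `R` a subring of `ℚ` containing `1/q`;
`Δ ≤ SL(2, ℚ)` a subgroup containing the integer matrices of `Γ₀(N)`, the upper unipotents `U x`
(`x ∈ R`) and the lower unipotents `L (N y)` (`y ∈ R`); `χ` additive on `Δ`, killing those `U`, `L`.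
Then `χ` vanishes on every integer matrix `g` with `N ∣ c(g)` and `d(g) ≡ 1 mod N`. -/
theorem m4_csp {K : Type*} [Field K] (p : ℕ) [Fact p.Prime] [CharP K p] (hp2 : p ≠ 2)
    {N q : ℕ} (hN : 0 < N) (hq : 2 ≤ q) (hqN : Nat.Coprime q N)
    {R : Subring ℚ} (hqR : ((q : ℚ))⁻¹ ∈ R) {Δ : Subgroup SL(2, ℚ)} {χ : SL(2, ℚ) → K}
    (hmul : ∀ g h : SL(2, ℚ), g ∈ Δ → h ∈ Δ → χ (g * h) = χ g + χ h)
    (hΓ : ∀ g : SL(2, ℤ), (N : ℤ) ∣ g 1 0 → m4w_cast g ∈ Δ)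
    (hU : ∀ x ∈ R, m4w_U x ∈ Δ ∧ χ (m4w_U x) = 0)
    (hL : ∀ y ∈ R, m4w_L ((N : ℚ) * y) ∈ Δ ∧ χ (m4w_L ((N : ℚ) * y)) = 0)
    (g : SL(2, ℤ)) (hg : (N : ℤ) ∣ g 1 0) (hd : g 1 1 ≡ 1 [ZMOD N]) :
    χ (m4w_cast g) = 0 :=
  m4g_main (by omega) hqN
    (m4g_core_holds p hp2 N q (Nat.totient N) hN hq hqN (Nat.totient_pos.mpr hN)
      (Nat.ModEq.pow_totient hqN))
    hqR hmul hΓ hU hL g hg hd

end Fermat.Agent.S41
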