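/-
S41 / M4, consumer side: if `Δ ≤ SL(2, ℚ)` contains `Γ₀(N)` and `diag(q, 1/q)`, then an additive
`χ` on `Δ` which kills the INTEGER unipotents `U(a)`, `L(N a)` already kills `U(x)`, `L(N y)` for all
`x, y ∈ ℤ[1/q]` (conjugation by the torus), so `m4_csp` applies.  Moreover `diag(q, 1/q) ∈ Δ` as soon
as `Δ` contains `Γ₀(N)` and its conjugate by `diag(q, 1)` (either convention).  Mathlib + M4 only.
-/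
import Mathlib
import Fermat.Agent.S41.CSPMain56

set_option autoImplicit false

open Matrix
open scoped MatrixGroups

namespace Fermat.Agent.S41

/-- the subring `ℤ[1/q]` of `ℚ`, as the set of fractions `a / q ^ k`. -/
def m4t_R (q : ℕ) (hq : q ≠ 0) : Subring ℚ where
  carrier := {x | ∃ (a : ℤ) (k : ℕ), x = (a : ℚ) / (q : ℚ) ^ k}
  mul_mem' := by
    rintro x y ⟨a, k, rfl⟩ ⟨b, m, rfl⟩
    refine ⟨a * b, k + m, ?_⟩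
    have hq0 : (q : ℚ) ≠ 0 := Nat.cast_ne_zero.mpr hq
    push_cast
    field_simp
    ring
  one_mem' := ⟨1, 0, by simp⟩
  add_mem' := by
    rintro x y ⟨a, k, rfl⟩ ⟨b, m, rfl⟩
    refine ⟨a * (q : ℤ) ^ m + b * (q : ℤ) ^ k, k + m, ?_⟩
    have hq0 : (q : ℚ) ≠ 0 := Nat.cast_ne_zero.mpr hq
    push_cast
    field_simp
    ring
  zero_mem' := ⟨0, 0, by simp⟩
  neg_mem' := by
    rintro x ⟨a, k, rfl⟩
    exact ⟨-a, k, by push_cast; ring⟩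

theorem m4t_inv_mem (q : ℕ) (hq : q ≠ 0) : ((q : ℚ))⁻¹ ∈ m4t_R q hq :=
  ⟨1, 1, by simp⟩

theorem m4t_mem_iff (q : ℕ) (hq : q ≠ 0) (x : ℚ) :
    x ∈ m4t_R q hq ↔ ∃ (a : ℤ) (k : ℕ), x = (a : ℚ) / (q : ℚ) ^ k := Iff.rfl

set_option linter.unusedSimpArgs false in
/-- `diag(s, 1/s) * diag(s', 1/s') = diag(s s', 1/(s s'))`. -/
theorem m4t_D_mul (s s' : ℚ) (hs : s ≠ 0) (hs' : s' ≠ 0) :
    m4w_D s hs * m4w_D s' hs' = m4w_D (s * s') (mul_ne_zero hs hs') := by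
  apply m4w_ext
  · simp only [m4w_mul_apply, m4w_D_00, m4w_D_01, m4w_D_10, m4w_D_11]; ring
  · simp only [m4w_mul_apply, m4w_D_00, m4w_D_01, m4w_D_10, m4w_D_11]; ring
  · simp only [m4w_mul_apply, m4w_D_00, m4w_D_01, m4w_D_10, m4w_D_11]; ring
  · simp only [m4w_mul_apply, m4w_D_00, m4w_D_01, m4w_D_10, m4w_D_11, mul_inv]; ring

theorem m4t_D_one : m4w_D 1 one_ne_zero = 1 := by
  apply m4w_ext <;> simp [m4w_D]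

theorem m4t_D_inv (s : ℚ) (hs : s ≠ 0) : (m4w_D s hs)⁻¹ = m4w_D s⁻¹ (inv_ne_zero hs) := by
  rw [inv_eq_iff_mul_eq_one, m4t_D_mul]
  have : s * s⁻¹ = 1 := mul_inv_cancel₀ hs
  simp only [this]
  exact m4t_D_one

theorem m4t_D_pow (s : ℚ) (hs : s ≠ 0) (k : ℕ) :
    (m4w_D s hs) ^ k = m4w_D (s ^ k) (pow_ne_zero k hs) := by
  induction k with
  | zero => simp only [pow_zero]; exact m4t_D_one.symm
  | succ k ih =>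
    rw [pow_succ, ih, m4t_D_mul]
    simp only [pow_succ]

section torus

variable {K : Type*} [AddCommGroup K] {N q : ℕ} {Δ : Subgroup SL(2, ℚ)} {χ : SL(2, ℚ) → K}

/-- all powers of the torus element lie in `Δ`. -/
theorem m4t_D_mem (hq : q ≠ 0) (hD : m4w_D (q : ℚ) (Nat.cast_ne_zero.mpr hq) ∈ Δ) (k : ℕ) :
    m4w_D ((q : ℚ) ^ k) (pow_ne_zero k (Nat.cast_ne_zero.mpr hq)) ∈ Δ ∧
    m4w_D (((q : ℚ) ^ k)⁻¹) (inv_ne_zero (pow_ne_zero k (Nat.cast_ne_zero.mpr hq))) ∈ Δ := by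
  have h1 : m4w_D ((q : ℚ) ^ k) (pow_ne_zero k (Nat.cast_ne_zero.mpr hq)) ∈ Δ := by
    rw [← m4t_D_pow]; exact Δ.pow_mem hD k
  refine ⟨h1, ?_⟩
  rw [← m4t_D_inv _ (pow_ne_zero k (Nat.cast_ne_zero.mpr hq))]
  exact Δ.inv_mem h1

/-- conjugation by a torus element of `Δ` does not change `χ`. -/
theorem m4t_conj (hmul : ∀ g h : SL(2, ℚ), g ∈ Δ → h ∈ Δ → χ (g * h) = χ g + χ h)
    (s : ℚ) (hs : s ≠ 0) (h1 : m4w_D s hs ∈ Δ) (h2 : m4w_D s⁻¹ (inv_ne_zero hs) ∈ Δ)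
    (g : SL(2, ℚ)) (hg : g ∈ Δ) :
    m4w_D s hs * g * m4w_D s⁻¹ (inv_ne_zero hs) ∈ Δ ∧
      χ (m4w_D s hs * g * m4w_D s⁻¹ (inv_ne_zero hs)) = χ g := by
  refine ⟨Δ.mul_mem (Δ.mul_mem h1 hg) h2, ?_⟩
  have e : χ (m4w_D s hs) + χ (m4w_D s⁻¹ (inv_ne_zero hs)) = 0 := by
    rw [← hmul _ _ h1 h2, m4t_D_mul]
    have : s * s⁻¹ = 1 := mul_inv_cancel₀ hs
    simp only [this]
    rw [m4t_D_one]
    exact m4w_map_one hmul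
  rw [hmul _ _ (Δ.mul_mem h1 hg) h2, hmul _ _ h1 hg]
  rw [add_comm (χ (m4w_D s hs)) (χ g), add_assoc, e, add_zero]

/-- upper unipotents with entries in `ℤ[1/q]`. -/
theorem m4t_upper (hq : q ≠ 0)
    (hmul : ∀ g h : SL(2, ℚ), g ∈ Δ → h ∈ Δ → χ (g * h) = χ g + χ h)
    (hD : m4w_D (q : ℚ) (Nat.cast_ne_zero.mpr hq) ∈ Δ)
    (hup : ∀ a : ℤ, m4w_U (a : ℚ) ∈ Δ ∧ χ (m4w_U (a : ℚ)) = 0)
    (x : ℚ) (hx : x ∈ m4t_R q hq) : m4w_U x ∈ Δ ∧ χ (m4w_U x) = 0 := by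
  obtain ⟨a, k, rfl⟩ := hx
  have hq0 : (q : ℚ) ≠ 0 := Nat.cast_ne_zero.mpr hq
  have hk : (q : ℚ) ^ k ≠ 0 := pow_ne_zero k hq0
  obtain ⟨h1, h2⟩ := m4t_D_mem hq hD k
  have h1' : m4w_D (((q : ℚ) ^ k)⁻¹)⁻¹ (inv_ne_zero (inv_ne_zero hk)) ∈ Δ := by
    simp only [inv_inv]; exact h1
  obtain ⟨hU, hχ⟩ := hup (a * (q : ℤ) ^ k)
  obtain ⟨c1, c2⟩ := m4t_conj hmul ((q : ℚ) ^ k)⁻¹ (inv_ne_zero hk) h2 h1' _ hU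
  have key : m4w_D ((q : ℚ) ^ k)⁻¹ (inv_ne_zero hk) * m4w_U ((a * (q : ℤ) ^ k : ℤ) : ℚ) *
      m4w_D (((q : ℚ) ^ k)⁻¹)⁻¹ (inv_ne_zero (inv_ne_zero hk)) = m4w_U ((a : ℚ) / (q : ℚ) ^ k) := by
    obtain ⟨e00, e01, e10, e11⟩ := m4w_DgD ((q : ℚ) ^ k)⁻¹ (((q : ℚ) ^ k)⁻¹)⁻¹
      (inv_ne_zero hk) (inv_ne_zero (inv_ne_zero hk)) (m4w_U ((a * (q : ℤ) ^ k : ℤ) : ℚ))
    apply m4w_ext
    · rw [e00, m4w_U_00, m4w_U_00]; field_simp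
    · rw [e01, m4w_U_01, m4w_U_01]; push_cast; field_simp
    · rw [e10, m4w_U_10, m4w_U_10]; simp
    · rw [e11, m4w_U_11, m4w_U_11]; field_simp
  rw [key] at c1 c2
  exact ⟨c1, by rw [c2, hχ]⟩

/-- lower unipotents of `Γ₀(N)` with entries in `N ℤ[1/q]`. -/
theorem m4t_lower (hq : q ≠ 0)
    (hmul : ∀ g h : SL(2, ℚ), g ∈ Δ → h ∈ Δ → χ (g * h) = χ g + χ h)
    (hD : m4w_D (q : ℚ) (Nat.cast_ne_zero.mpr hq) ∈ Δ)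
    (hlow : ∀ a : ℤ, m4w_L ((N : ℚ) * (a : ℚ)) ∈ Δ ∧ χ (m4w_L ((N : ℚ) * (a : ℚ))) = 0)
    (y : ℚ) (hy : y ∈ m4t_R q hq) :
    m4w_L ((N : ℚ) * y) ∈ Δ ∧ χ (m4w_L ((N : ℚ) * y)) = 0 := by
  obtain ⟨a, k, rfl⟩ := hy
  have hq0 : (q : ℚ) ≠ 0 := Nat.cast_ne_zero.mpr hq
  have hk : (q : ℚ) ^ k ≠ 0 := pow_ne_zero k hq0
  obtain ⟨h1, h2⟩ := m4t_D_mem hq hD k
  obtain ⟨hL, hχ⟩ := hlow (a * (q : ℤ) ^ k)
  obtain ⟨c1, c2⟩ := m4t_conj hmul ((q : ℚ) ^ k) hk h1 h2 _ hL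
  have key : m4w_D ((q : ℚ) ^ k) hk * m4w_L ((N : ℚ) * ((a * (q : ℤ) ^ k : ℤ) : ℚ)) *
      m4w_D ((q : ℚ) ^ k)⁻¹ (inv_ne_zero hk) = m4w_L ((N : ℚ) * ((a : ℚ) / (q : ℚ) ^ k)) := by
    obtain ⟨e00, e01, e10, e11⟩ := m4w_DgD ((q : ℚ) ^ k) ((q : ℚ) ^ k)⁻¹
      hk (inv_ne_zero hk) (m4w_L ((N : ℚ) * ((a * (q : ℤ) ^ k : ℤ) : ℚ)))
    apply m4w_ext
    · rw [e00, m4w_L_00, m4w_L_00]; field_simp
    · rw [e01, m4w_L_01, m4w_L_01]; simp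
    · rw [e10, m4w_L_10, m4w_L_10]; push_cast; field_simp
    · rw [e11, m4w_L_11, m4w_L_11]; field_simp
  rw [key] at c1 c2
  exact ⟨c1, by rw [c2, hχ]⟩

end torus

/-- M4 with the torus in `Δ`: `χ` additive on `Δ ∋ Γ₀(N), diag(q, 1/q)` and killing the integer
unipotents `U(a)`, `L(N a)` vanishes on every integer `g` with `N ∣ c(g)`, `d(g) ≡ 1 mod N`. -/
theorem m4_csp_torus {K : Type*} [Field K] (p : ℕ) [Fact p.Prime] [CharP K p] (hp2 : p ≠ 2)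
    {N q : ℕ} (hN : 0 < N) (hq : 2 ≤ q) (hqN : Nat.Coprime q N)
    {Δ : Subgroup SL(2, ℚ)} {χ : SL(2, ℚ) → K}
    (hmul : ∀ g h : SL(2, ℚ), g ∈ Δ → h ∈ Δ → χ (g * h) = χ g + χ h)
    (hΓ : ∀ g : SL(2, ℤ), (N : ℤ) ∣ g 1 0 → m4w_cast g ∈ Δ)
    (hD : m4w_D (q : ℚ) (Nat.cast_ne_zero.mpr (by omega)) ∈ Δ)
    (hup : ∀ a : ℤ, χ (m4w_U (a : ℚ)) = 0)
    (hlow : ∀ a : ℤ, χ (m4w_L ((N : ℚ) * (a : ℚ))) = 0)
    (g : SL(2, ℤ)) (hg : (N : ℤ) ∣ g 1 0) (hd : g 1 1 ≡ 1 [ZMOD N]) :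
    χ (m4w_cast g) = 0 := by
  have hq0 : q ≠ 0 := by omega
  have hUmem : ∀ a : ℤ, m4w_U (a : ℚ) ∈ Δ := by
    intro a
    have h := hΓ (m4g_mk 1 a 0 1 (by ring)) (by rw [m4g_mk_10]; exact dvd_zero _)
    have e : m4w_cast (m4g_mk 1 a 0 1 (by ring)) = m4w_U (a : ℚ) := by
      apply m4w_ext
      · rw [m4w_cast_apply, m4g_mk_00]; simp
      · rw [m4w_cast_apply, m4g_mk_01]; simp
      · rw [m4w_cast_apply, m4g_mk_10]; simp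
      · rw [m4w_cast_apply, m4g_mk_11]; simp
    rwa [e] at h
  have hLmem : ∀ a : ℤ, m4w_L ((N : ℚ) * (a : ℚ)) ∈ Δ := by
    intro a
    have h := hΓ (m4g_mk 1 0 ((N : ℤ) * a) 1 (by ring)) (by rw [m4g_mk_10]; exact dvd_mul_right _ _)
    have e : m4w_cast (m4g_mk 1 0 ((N : ℤ) * a) 1 (by ring)) = m4w_L ((N : ℚ) * (a : ℚ)) := by
      apply m4w_ext
      · rw [m4w_cast_apply, m4g_mk_00]; simp
      · rw [m4w_cast_apply, m4g_mk_01]; simp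
      · rw [m4w_cast_apply, m4g_mk_10]; simp
      · rw [m4w_cast_apply, m4g_mk_11]; simp
    rwa [e] at h
  exact m4_csp p hp2 hN hq hqN (m4t_inv_mem q hq0) hmul hΓ
    (fun x hx => m4t_upper hq0 hmul hD (fun a => ⟨hUmem a, hup a⟩) x hx)
    (fun y hy => m4t_lower hq0 hmul hD (fun a => ⟨hLmem a, hlow a⟩) y hy)
    g hg hd

/-- `δ⁻¹ g δ` for `δ = diag(q, 1)`: the matrix `[[a, b/q], [c q, d]]`. -/
def m4t_conjA (q : ℕ) (hq : q ≠ 0) (g : SL(2, ℤ)) : SL(2, ℚ) :=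
  ⟨!![(g 0 0 : ℚ), (g 0 1 : ℚ) / (q : ℚ); (g 1 0 : ℚ) * (q : ℚ), (g 1 1 : ℚ)], by
    have hq0 : (q : ℚ) ≠ 0 := Nat.cast_ne_zero.mpr hq
    have h := m4g_det g
    have h' : ((g 0 0 : ℤ) : ℚ) * (g 1 1 : ℚ) - (g 0 1 : ℚ) * (g 1 0 : ℚ) = 1 := by
      exact_mod_cast h
    rw [Matrix.det_fin_two_of]
    field_simp
    linear_combination h'⟩

/-- `δ g δ⁻¹` for `δ = diag(q, 1)`: the matrix `[[a, b q], [c/q, d]]`. -/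
def m4t_conjB (q : ℕ) (hq : q ≠ 0) (g : SL(2, ℤ)) : SL(2, ℚ) :=
  ⟨!![(g 0 0 : ℚ), (g 0 1 : ℚ) * (q : ℚ); (g 1 0 : ℚ) / (q : ℚ), (g 1 1 : ℚ)], by
    have hq0 : (q : ℚ) ≠ 0 := Nat.cast_ne_zero.mpr hq
    have h := m4g_det g
    have h' : ((g 0 0 : ℤ) : ℚ) * (g 1 1 : ℚ) - (g 0 1 : ℚ) * (g 1 0 : ℚ) = 1 := by
      exact_mod_cast h
    rw [Matrix.det_fin_two_of]
    field_simp
    linear_combination h'⟩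

/-- `diag(q, 1/q)` lies in any subgroup containing `Γ₀(N)` and `δ⁻¹ Γ₀(N) δ`, `δ = diag(q, 1)`. -/
theorem m4t_torus_of_conjA {N q : ℕ} (hq : q ≠ 0) (hqN : Nat.Coprime q N) {Δ : Subgroup SL(2, ℚ)}
    (hΓ : ∀ g : SL(2, ℤ), (N : ℤ) ∣ g 1 0 → m4w_cast g ∈ Δ)
    (hA : ∀ g : SL(2, ℤ), (N : ℤ) ∣ g 1 0 → m4t_conjA q hq g ∈ Δ) :
    m4w_D (q : ℚ) (Nat.cast_ne_zero.mpr hq) ∈ Δ := by
  have hq0 : (q : ℚ) ≠ 0 := Nat.cast_ne_zero.mpr hq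
  obtain ⟨u, v, huv⟩ : IsCoprime (q : ℤ) (N : ℤ) := Nat.isCoprime_iff_coprime.mpr hqN
  have d1 : u * (q : ℤ) - (-v) * (N : ℤ) = 1 := by linarith
  have d3 : (q : ℤ) * u * 1 - (-v) * (N : ℤ) = 1 := by linarith
  have m1 := hA (m4g_mk u (-v) N q d1) (by rw [m4g_mk_10])
  have m3 := hΓ (m4g_mk ((q : ℤ) * u) (-v) N 1 d3) (by rw [m4g_mk_10])
  have key : m4w_D (q : ℚ) hq0 * m4t_conjA q hq (m4g_mk u (-v) N q d1) =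
      m4w_cast (m4g_mk ((q : ℤ) * u) (-v) N 1 d3) := by
    apply m4w_ext
    · rw [m4w_mul_apply, m4w_cast_apply, m4w_D_00, m4w_D_01]
      simp [m4t_conjA, m4g_mk]
    · rw [m4w_mul_apply, m4w_cast_apply, m4w_D_00, m4w_D_01]
      simp [m4t_conjA, m4g_mk]
      field_simp
    · rw [m4w_mul_apply, m4w_cast_apply, m4w_D_10, m4w_D_11]
      simp [m4t_conjA, m4g_mk]
      field_simp
    · rw [m4w_mul_apply, m4w_cast_apply, m4w_D_10, m4w_D_11]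
      simp [m4t_conjA, m4g_mk]
      field_simp
  have : m4w_D (q : ℚ) hq0 = m4w_cast (m4g_mk ((q : ℤ) * u) (-v) N 1 d3) *
      (m4t_conjA q hq (m4g_mk u (-v) N q d1))⁻¹ := by
    rw [← key, mul_inv_cancel_right]
  rw [this]
  exact Δ.mul_mem m3 (Δ.inv_mem m1)

/-- `diag(q, 1/q)` lies in any subgroup containing `Γ₀(N)` and `δ Γ₀(N) δ⁻¹`, `δ = diag(q, 1)`. -/
theorem m4t_torus_of_conjB {N q : ℕ} (hq : q ≠ 0) (hqN : Nat.Coprime q N) {Δ : Subgroup SL(2, ℚ)}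
    (hΓ : ∀ g : SL(2, ℤ), (N : ℤ) ∣ g 1 0 → m4w_cast g ∈ Δ)
    (hB : ∀ g : SL(2, ℤ), (N : ℤ) ∣ g 1 0 → m4t_conjB q hq g ∈ Δ) :
    m4w_D (q : ℚ) (Nat.cast_ne_zero.mpr hq) ∈ Δ := by
  have hq0 : (q : ℚ) ≠ 0 := Nat.cast_ne_zero.mpr hq
  obtain ⟨u, v, huv⟩ : IsCoprime (q : ℤ) (N : ℤ) := Nat.isCoprime_iff_coprime.mpr hqN
  have d1 : (q : ℤ) * u * 1 - (-v) * (N : ℤ) = 1 := by linarith
  have d2 : u * (q : ℤ) - (-v) * (N : ℤ) = 1 := by linarith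
  have m1 := hB (m4g_mk ((q : ℤ) * u) (-v) N 1 d1) (by rw [m4g_mk_10])
  have m2 := hΓ (m4g_mk u (-v) N q d2) (by rw [m4g_mk_10])
  have key : m4w_D (q : ℚ)⁻¹ (inv_ne_zero hq0) * m4t_conjB q hq (m4g_mk ((q : ℤ) * u) (-v) N 1 d1) =
      m4w_cast (m4g_mk u (-v) N q d2) := by
    apply m4w_ext
    · rw [m4w_mul_apply, m4w_cast_apply, m4w_D_00, m4w_D_01]
      simp [m4t_conjB, m4g_mk]
      field_simp
    · rw [m4w_mul_apply, m4w_cast_apply, m4w_D_00, m4w_D_01]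
      simp [m4t_conjB, m4g_mk]
      field_simp
    · rw [m4w_mul_apply, m4w_cast_apply, m4w_D_10, m4w_D_11]
      simp [m4t_conjB, m4g_mk]
      field_simp
    · rw [m4w_mul_apply, m4w_cast_apply, m4w_D_10, m4w_D_11]
      simp [m4t_conjB, m4g_mk]
  have h1 : m4w_D (q : ℚ)⁻¹ (inv_ne_zero hq0) ∈ Δ := by
    have : m4w_D (q : ℚ)⁻¹ (inv_ne_zero hq0) = m4w_cast (m4g_mk u (-v) N q d2) *
        (m4t_conjB q hq (m4g_mk ((q : ℤ) * u) (-v) N 1 d1))⁻¹ := by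
      rw [← key, mul_inv_cancel_right]
    rw [this]
    exact Δ.mul_mem m2 (Δ.inv_mem m1)
  rw [← m4t_D_inv _ hq0] at h1
  exact (Δ.inv_mem_iff).mp h1

/-- M4 for `Δ ⊇ Γ₀(N), δ⁻¹ Γ₀(N) δ` (`δ = diag(q, 1)`): an additive `χ` on `Δ` killing the integer
unipotents `U(a)`, `L(N a)` vanishes on every integer `g` with `N ∣ c(g)`, `d(g) ≡ 1 mod N`. -/
theorem m4_csp_conjA {K : Type*} [Field K] (p : ℕ) [Fact p.Prime] [CharP K p] (hp2 : p ≠ 2)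
    {N q : ℕ} (hN : 0 < N) (hq : 2 ≤ q) (hqN : Nat.Coprime q N)
    {Δ : Subgroup SL(2, ℚ)} {χ : SL(2, ℚ) → K}
    (hmul : ∀ g h : SL(2, ℚ), g ∈ Δ → h ∈ Δ → χ (g * h) = χ g + χ h)
    (hΓ : ∀ g : SL(2, ℤ), (N : ℤ) ∣ g 1 0 → m4w_cast g ∈ Δ)
    (hA : ∀ g : SL(2, ℤ), (N : ℤ) ∣ g 1 0 → m4t_conjA q (by omega) g ∈ Δ)
    (hup : ∀ a : ℤ, χ (m4w_U (a : ℚ)) = 0)
    (hlow : ∀ a : ℤ, χ (m4w_L ((N : ℚ) * (a : ℚ))) = 0)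
    (g : SL(2, ℤ)) (hg : (N : ℤ) ∣ g 1 0) (hd : g 1 1 ≡ 1 [ZMOD N]) :
    χ (m4w_cast g) = 0 :=
  m4_csp_torus p hp2 hN hq hqN hmul hΓ (m4t_torus_of_conjA (by omega) hqN hΓ hA) hup hlow g hg hd

/-- M4 for `Δ ⊇ Γ₀(N), δ Γ₀(N) δ⁻¹` (`δ = diag(q, 1)`). -/
theorem m4_csp_conjB {K : Type*} [Field K] (p : ℕ) [Fact p.Prime] [CharP K p] (hp2 : p ≠ 2)
    {N q : ℕ} (hN : 0 < N) (hq : 2 ≤ q) (hqN : Nat.Coprime q N)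
    {Δ : Subgroup SL(2, ℚ)} {χ : SL(2, ℚ) → K}
    (hmul : ∀ g h : SL(2, ℚ), g ∈ Δ → h ∈ Δ → χ (g * h) = χ g + χ h)
    (hΓ : ∀ g : SL(2, ℤ), (N : ℤ) ∣ g 1 0 → m4w_cast g ∈ Δ)
    (hB : ∀ g : SL(2, ℤ), (N : ℤ) ∣ g 1 0 → m4t_conjB q (by omega) g ∈ Δ)
    (hup : ∀ a : ℤ, χ (m4w_U (a : ℚ)) = 0)
    (hlow : ∀ a : ℤ, χ (m4w_L ((N : ℚ) * (a : ℚ))) = 0)
    (g : SL(2, ℤ)) (hg : (N : ℤ) ∣ g 1 0) (hd : g 1 1 ≡ 1 [ZMOD N]) :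
    χ (m4w_cast g) = 0 :=
  m4_csp_torus p hp2 hN hq hqN hmul hΓ (m4t_torus_of_conjB (by omega) hqN hΓ hB) hup hlow g hg hd

end Fermat.Agent.S41
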