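/-
S41 (level raising), link L8 / (D3) (helper40, independent twin): invariance of the intrinsic
cap-product cusp sum under conjugation by an element of `GL(2, ℚ)` of positive determinant which
normalises the subgroup `Γ ≤ SL(2, ℤ)`.

* `cc40_isCap`, `cc40_sum`: the formal part, for any group;
* `cc40_orient`, `cc40_key`: the orientation computation
  (`g T^w g⁻¹ = 1 + w (x, y)ᵀ (-y, x)` and `k det(a) |v'|² = w |a v|²`);
* `cc40_pi_conj`: the canonical generators `piΓ c = g T^(width) g⁻¹` of the cusp stabilisers are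
  permuted by the conjugation;
* `cc40_D3`: the statement consumed by the `(B-W)` adjointness.
-/
import Mathlib
import Fermat.Agent.S41.Bridge96

set_option autoImplicit false

open scoped MatrixGroups
open ModularGroup Matrix MulAction Function Subgroup Matrix.SpecialLinearGroup

namespace Fermat.Agent.S41

/-! ### The formal part -/

section General

variable {G : Type*} [Group G] {Γ : Subgroup G} {C : Type*} [MulAction G C]
  {R : Type*} [CommRing R] {χ ν κ : G → R} {pot : C → R}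

/-- transport of cap-product data along an endomorphism `cw` of `Γ` and a `cw`-equivariant map
`α` of the cusps. -/
theorem cc40_isCap (h : br96_IsCap Γ χ ν κ pot) (cw : G → G) (hcwΓ : ∀ x ∈ Γ, cw x ∈ Γ)
    (hcw_mul : ∀ x ∈ Γ, ∀ y ∈ Γ, cw (x * y) = cw x * cw y) (α : C → C)
    (hα : ∀ x ∈ Γ, ∀ c, α (x • c) = cw x • α c) :
    br96_IsCap Γ (χ ∘ cw) (ν ∘ cw) (κ ∘ cw) (pot ∘ α) where
  chi_mul := fun x hx y hy => by
    simp only [Function.comp_apply]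
    rw [hcw_mul x hx y hy, h.chi_mul _ (hcwΓ x hx) _ (hcwΓ y hy)]
  nu_mul := fun x hx y hy => by
    simp only [Function.comp_apply]
    rw [hcw_mul x hx y hy, h.nu_mul _ (hcwΓ x hx) _ (hcwΓ y hy)]
  kap_mul := fun x hx y hy => by
    simp only [Function.comp_apply]
    rw [hcw_mul x hx y hy, h.kap_mul _ (hcwΓ x hx) _ (hcwΓ y hy)]
  pot_smul := fun x hx c => by
    simp only [Function.comp_apply]
    rw [hα x hx c, h.pot_smul _ (hcwΓ x hx)]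

/-- **Invariance of the cusp sum** under a twist `(cw, α)` permuting the canonical generators
`π c` of the cusp stabilisers. -/
theorem cc40_sum (h : br96_IsCap Γ χ ν κ pot) (cw : G → G) (hcwΓ : ∀ x ∈ Γ, cw x ∈ Γ)
    (hsurj : ∀ x ∈ Γ, ∃ y ∈ Γ, cw y = x) (α : C → C) (hαbij : Bijective α)
    (hα : ∀ x ∈ Γ, ∀ c, α (x • c) = cw x • α c)
    (π : C → G) (hπΓ : ∀ c, π c ∈ Γ) (hπ : ∀ c, π c • c = c)
    (hπe : ∀ k ∈ Γ, ∀ c, π (k • c) = k * π c * k⁻¹) (hπα : ∀ c, π (α c) = cw (π c))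
    (s : Setoid C) (hs : ∀ c c', s.r c c' ↔ ∃ γ ∈ Γ, γ • c = c') :
    ∑ᶠ o : Quotient s, (χ (cw (π o.out)) * pot (α o.out) - κ (cw (π o.out)))
      = ∑ᶠ o : Quotient s, (χ (π o.out) * pot o.out - κ (π o.out)) := by
  have hF : ∀ γ ∈ Γ, ∀ c, χ (π (γ • c)) * pot (γ • c) - κ (π (γ • c))
      = χ (π c) * pot c - κ (π c) := fun γ hγ c => br96_F_smul h π hπΓ hπ hπe γ hγ c
  let Ψ : Quotient s → Quotient s := fun o => Quotient.mk s (α o.out)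
  have hΨinj : Injective Ψ := by
    intro o o' hoo
    have h1 : s.r (α o.out) (α o'.out) := Quotient.exact hoo
    obtain ⟨γ, hγ, hγc⟩ := (hs _ _).mp h1
    obtain ⟨b, hb, rfl⟩ := hsurj γ hγ
    rw [← hα b hb] at hγc
    have h2 : b • o.out = o'.out := hαbij.1 hγc
    rw [← Quotient.out_eq o, ← Quotient.out_eq o']
    exact Quotient.sound ((hs _ _).mpr ⟨b, hb, h2⟩)
  have hΨsurj : Surjective Ψ := by
    intro o
    obtain ⟨c, hc⟩ := hαbij.2 o.out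
    refine ⟨Quotient.mk s c, ?_⟩
    have h1 : s.r (Quotient.mk s c).out c := Quotient.mk_out (s := s) c
    obtain ⟨γ, hγ, hγc⟩ := (hs _ _).mp h1
    rw [← Quotient.out_eq o]
    apply Quotient.sound
    apply (hs _ _).mpr
    refine ⟨cw γ, hcwΓ γ hγ, ?_⟩
    rw [← hα γ hγ, hγc, hc]
  refine finsum_eq_of_bijective Ψ ⟨hΨinj, hΨsurj⟩ fun o => ?_
  have h1 : s.r (Ψ o).out (α o.out) := Quotient.mk_out (s := s) _
  obtain ⟨γ, hγ, hγc⟩ := (hs _ _).mp h1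
  rw [← hπα, ← hγc, hF γ hγ]

end General

/-! ### The orientation computation -/

/-- `g T^k g⁻¹ = 1 + k (x, y)ᵀ (-y, x)` for `(x, y)` the first column of `g`. -/
theorem cc40_conj_T (g : SL(2, ℤ)) (k : ℤ) :
    ((g * T ^ k * g⁻¹ : SL(2, ℤ)) : Matrix (Fin 2) (Fin 2) ℤ)
      = !![1 - k * (g 0 0 * g 1 0), k * g 0 0 ^ 2; -(k * g 1 0 ^ 2), 1 + k * (g 0 0 * g 1 0)] := by
  have hdet : g 0 0 * g 1 1 - g 0 1 * g 1 0 = 1 := by
    have := g.det_coe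
    rwa [Matrix.det_fin_two] at this
  ext i j
  fin_cases i <;> fin_cases j <;>
    simp [Matrix.SpecialLinearGroup.coe_mul, coe_T_zpow, Matrix.SpecialLinearGroup.coe_inv,
      Matrix.adjugate_fin_two, Matrix.mul_apply, Fin.sum_univ_two]
  · linear_combination hdet
  · ring
  · ring
  · linear_combination hdet

theorem cc40_mapGL_coe (h : SL(2, ℤ)) :
    ((mapGL ℚ h : GL (Fin 2) ℚ) : Matrix (Fin 2) (Fin 2) ℚ)
      = (h : Matrix (Fin 2) (Fin 2) ℤ).map (Int.castRingHom ℚ) := by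
  rw [mapGL_coe_matrix]
  rfl


/-- **Orientation lemma.** If `± (1 + k N') A = A (± (1 + w N))` with `det A > 0`, the signs
agree and `k`, `w` have the same sign. -/
theorem cc40_orient (A : Matrix (Fin 2) (Fin 2) ℚ) (hA : 0 < A.det) (x y x' y' w k : ℤ)
    (ε ε' : ℚ) (hε : ε = 1 ∨ ε = -1) (hε' : ε' = 1 ∨ ε' = -1)
    (hxy : x ≠ 0 ∨ y ≠ 0) (hxy' : x' ≠ 0 ∨ y' ≠ 0)
    (E : (ε' • !![1 - (k : ℚ) * (x' * y'), k * (x' : ℚ) ^ 2;
            -(k * (y' : ℚ) ^ 2), 1 + k * (x' * y')]) * A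
       = A * (ε • !![1 - (w : ℚ) * (x * y), w * (x : ℚ) ^ 2;
            -(w * (y : ℚ) ^ 2), 1 + w * (x * y)])) :
    ε' = ε ∧ (0 ≤ w → 0 ≤ k) ∧ (0 ≤ k → 0 ≤ w) := by
  obtain ⟨a1, a2, a3, a4, rfl⟩ : ∃ a b c d : ℚ, A = !![a, b; c, d] :=
    ⟨A 0 0, A 0 1, A 1 0, A 1 1, Matrix.eta_fin_two A⟩
  rw [Matrix.det_fin_two_of] at hA
  have e00 := congrFun (congrFun E 0) 0
  have e01 := congrFun (congrFun E 0) 1
  have e10 := congrFun (congrFun E 1) 0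
  have e11 := congrFun (congrFun E 1) 1
  simp [Matrix.mul_apply, Fin.sum_univ_two] at e00 e01 e10 e11
  -- the trace identity
  have htr : 2 * ε' * (a1 * a4 - a2 * a3) = 2 * ε * (a1 * a4 - a2 * a3) := by
    linear_combination a4 * e00 - a3 * e01 - a2 * e10 + a1 * e11
  have hεε : ε' = ε := by
    have hd : (a1 * a4 - a2 * a3) ≠ 0 := hA.ne'
    have : 2 * (a1 * a4 - a2 * a3) * (ε' - ε) = 0 := by linear_combination htr
    have h2 : ε' - ε = 0 := by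
      rcases mul_eq_zero.mp this with h | h
      · exact absurd h (mul_ne_zero two_ne_zero hd)
      · exact h
    linarith
  subst hεε
  have hε0 : ε' ≠ 0 := by rcases hε' with rfl | rfl <;> norm_num
  -- the orientation identity
  have hor : ε' * ((k : ℚ) * ((a1 * a4 - a2 * a3) * ((x' : ℚ) ^ 2 + (y' : ℚ) ^ 2)))
      = ε' * ((w : ℚ) * ((a1 * x + a2 * y) ^ 2 + (a3 * x + a4 * y) ^ 2)) := by
    linear_combination (-a2) * e00 + a1 * e01 - a4 * e10 + a3 * e11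
  have hor' : (k : ℚ) * ((a1 * a4 - a2 * a3) * ((x' : ℚ) ^ 2 + (y' : ℚ) ^ 2))
      = (w : ℚ) * ((a1 * x + a2 * y) ^ 2 + (a3 * x + a4 * y) ^ 2) := mul_left_cancel₀ hε0 hor
  have hS : 0 < (a1 * a4 - a2 * a3) * ((x' : ℚ) ^ 2 + (y' : ℚ) ^ 2) := by
    apply mul_pos hA
    rcases hxy' with h | h
    · have : (0 : ℚ) < (x' : ℚ) ^ 2 := by positivity
      positivity
    · have : (0 : ℚ) < (y' : ℚ) ^ 2 := by positivity
      positivity
  have hU : 0 < (a1 * x + a2 * y) ^ 2 + (a3 * x + a4 * y) ^ 2 := by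
    by_contra hneg
    have h0 : (a1 * x + a2 * y) ^ 2 + (a3 * x + a4 * y) ^ 2 = 0 :=
      le_antisymm (not_lt.mp hneg) (by positivity)
    have h1 : a1 * x + a2 * y = 0 := by nlinarith [sq_nonneg (a1 * x + a2 * y), sq_nonneg (a3 * x + a4 * y)]
    have h2 : a3 * x + a4 * y = 0 := by nlinarith [sq_nonneg (a1 * x + a2 * y), sq_nonneg (a3 * x + a4 * y)]
    have hx : (a1 * a4 - a2 * a3) * (x : ℚ) = 0 := by linear_combination a4 * h1 - a2 * h2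
    have hy : (a1 * a4 - a2 * a3) * (y : ℚ) = 0 := by linear_combination a1 * h2 - a3 * h1
    have hx0 : (x : ℚ) = 0 := (mul_eq_zero.mp hx).resolve_left hA.ne'
    have hy0 : (y : ℚ) = 0 := (mul_eq_zero.mp hy).resolve_left hA.ne'
    rcases hxy with h | h
    · exact h (by exact_mod_cast hx0)
    · exact h (by exact_mod_cast hy0)
  refine ⟨rfl, ?_, ?_⟩
  · intro hw
    have hw' : (0 : ℚ) ≤ w := by exact_mod_cast hw
    have h1 : 0 ≤ (k : ℚ) * ((a1 * a4 - a2 * a3) * ((x' : ℚ) ^ 2 + (y' : ℚ) ^ 2)) := by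
      rw [hor']; exact mul_nonneg hw' hU.le
    have h2 : (0 : ℚ) ≤ k := nonneg_of_mul_nonneg_left h1 hS
    exact_mod_cast h2
  · intro hk
    have hk' : (0 : ℚ) ≤ k := by exact_mod_cast hk
    have h1 : 0 ≤ (w : ℚ) * ((a1 * x + a2 * y) ^ 2 + (a3 * x + a4 * y) ^ 2) := by
      rw [← hor']; exact mul_nonneg hk' hS.le
    have h2 : (0 : ℚ) ≤ w := nonneg_of_mul_nonneg_left h1 hU
    exact_mod_cast h2


theorem cc40_mapGL_conj_T (g : SL(2, ℤ)) (k : ℤ) :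
    ((mapGL ℚ (g * T ^ k * g⁻¹) : GL (Fin 2) ℚ) : Matrix (Fin 2) (Fin 2) ℚ)
      = !![1 - (k : ℚ) * (((g 0 0 : ℤ) : ℚ) * ((g 1 0 : ℤ) : ℚ)), k * ((g 0 0 : ℤ) : ℚ) ^ 2;
            -(k * ((g 1 0 : ℤ) : ℚ) ^ 2), 1 + k * (((g 0 0 : ℤ) : ℚ) * ((g 1 0 : ℤ) : ℚ))] := by
  rw [cc40_mapGL_coe, cc40_conj_T]
  ext i j
  fin_cases i <;> fin_cases j <;> simp

theorem cc40_mapGL_neg (h : SL(2, ℤ)) :
    ((mapGL ℚ (-h) : GL (Fin 2) ℚ) : Matrix (Fin 2) (Fin 2) ℚ)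
      = -((mapGL ℚ h : GL (Fin 2) ℚ) : Matrix (Fin 2) (Fin 2) ℚ) := by
  rw [cc40_mapGL_coe, cc40_mapGL_coe, Matrix.SpecialLinearGroup.coe_neg]
  ext i j
  simp

theorem cc40_col_ne (g : SL(2, ℤ)) : g 0 0 ≠ 0 ∨ g 1 0 ≠ 0 := by
  by_contra hcon
  simp only [not_or, not_not] at hcon
  have hdet := g.det_coe
  rw [Matrix.det_fin_two] at hdet
  have h0 : (g : Matrix (Fin 2) (Fin 2) ℤ) 0 0 = 0 := hcon.1
  have h1 : (g : Matrix (Fin 2) (Fin 2) ℤ) 1 0 = 0 := hcon.2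
  rw [h0, h1] at hdet
  simp at hdet

theorem cc40_ne_neg (X : SL(2, ℤ)) : X ≠ -X := by
  intro h
  have h1 : (X : Matrix (Fin 2) (Fin 2) ℤ) = -(X : Matrix (Fin 2) (Fin 2) ℤ) := by
    conv_lhs => rw [h]
    exact Matrix.SpecialLinearGroup.coe_neg X
  have e : ∀ i j, (X : Matrix (Fin 2) (Fin 2) ℤ) i j = 0 := by
    intro i j
    have := congrFun (congrFun h1 i) j
    simp only [Matrix.neg_apply] at this
    omega
  have hdet := X.det_coe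
  rw [Matrix.det_fin_two, e, e, e, e] at hdet
  simp at hdet

/-- **Key step**: if `P = a h a⁻¹` in `GL(2, ℚ)` with `det a > 0`, `h = ± g T^w g⁻¹` and
`P = ± g' T^k g'⁻¹`, then the signs agree and `w`, `k` have the same sign. -/
theorem cc40_key (a : GL (Fin 2) ℚ) (ha : 0 < (a : Matrix (Fin 2) (Fin 2) ℚ).det)
    (g g' h P : SL(2, ℤ)) (w k : ℤ) (hGL : mapGL ℚ P = a * mapGL ℚ h * a⁻¹)
    (hh : h = g * T ^ w * g⁻¹ ∨ h = -(g * T ^ w * g⁻¹))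
    (hP : P = g' * T ^ k * g'⁻¹ ∨ P = -(g' * T ^ k * g'⁻¹)) :
    ((h = g * T ^ w * g⁻¹ ∧ P = g' * T ^ k * g'⁻¹) ∨
        (h = -(g * T ^ w * g⁻¹) ∧ P = -(g' * T ^ k * g'⁻¹))) ∧
      (0 ≤ w → 0 ≤ k) ∧ (0 ≤ k → 0 ≤ w) := by
  have hGL' : mapGL ℚ P * a = a * mapGL ℚ h := by rw [hGL]; group
  have hM : ((mapGL ℚ P : GL (Fin 2) ℚ) : Matrix (Fin 2) (Fin 2) ℚ) * (a : Matrix (Fin 2) (Fin 2) ℚ)
      = (a : Matrix (Fin 2) (Fin 2) ℚ) * ((mapGL ℚ h : GL (Fin 2) ℚ) : Matrix (Fin 2) (Fin 2) ℚ) := by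
    have := congrArg (fun u : GL (Fin 2) ℚ => (u : Matrix (Fin 2) (Fin 2) ℚ)) hGL'
    simpa only [Units.val_mul] using this
  have hcol := cc40_col_ne g
  have hcol' := cc40_col_ne g'
  rcases hh with hh | hh <;> rcases hP with hP | hP
  · have E := hM
    rw [hP, hh, cc40_mapGL_conj_T, cc40_mapGL_conj_T] at E
    obtain ⟨-, h1, h2⟩ := cc40_orient _ ha (g 0 0) (g 1 0) (g' 0 0) (g' 1 0) w k 1 1
      (Or.inl rfl) (Or.inl rfl) hcol hcol' (by rw [one_smul, one_smul]; exact E)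
    exact ⟨Or.inl ⟨hh, hP⟩, h1, h2⟩
  · exfalso
    have E := hM
    rw [hP, hh, cc40_mapGL_neg, cc40_mapGL_conj_T, cc40_mapGL_conj_T] at E
    obtain ⟨h0, -, -⟩ := cc40_orient _ ha (g 0 0) (g 1 0) (g' 0 0) (g' 1 0) w k 1 (-1)
      (Or.inl rfl) (Or.inr rfl) hcol hcol' (by rw [one_smul, neg_one_smul]; exact E)
    norm_num at h0
  · exfalso
    have E := hM
    rw [hP, hh, cc40_mapGL_neg, cc40_mapGL_conj_T, cc40_mapGL_conj_T] at E
    obtain ⟨h0, -, -⟩ := cc40_orient _ ha (g 0 0) (g 1 0) (g' 0 0) (g' 1 0) w k (-1) 1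
      (Or.inr rfl) (Or.inl rfl) hcol hcol' (by rw [one_smul, neg_one_smul]; exact E)
    norm_num at h0
  · have E := hM
    rw [hP, hh, cc40_mapGL_neg, cc40_mapGL_neg, cc40_mapGL_conj_T, cc40_mapGL_conj_T] at E
    obtain ⟨-, h1, h2⟩ := cc40_orient _ ha (g 0 0) (g 1 0) (g' 0 0) (g' 1 0) w k (-1) (-1)
      (Or.inr rfl) (Or.inr rfl) hcol hcol' (by rw [neg_one_smul, neg_one_smul]; exact E)
    exact ⟨Or.inr ⟨hh, hP⟩, h1, h2⟩

/-! ### The canonical generators of the cusp stabilisers -/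

section SL2

variable {Γ : Subgroup SL(2, ℤ)} {C : Type*} [MulAction SL(2, ℤ) C]

theorem cc40_T_zpow_inj {i j : ℤ} (h : (T : SL(2, ℤ)) ^ i = T ^ j) : i = j := by
  have h1 := congrArg (fun X : SL(2, ℤ) => (X : Matrix (Fin 2) (Fin 2) ℤ) 0 1) h
  simpa [coe_T_zpow] using h1

/-- `T ^ m` fixes the coset `g⁻¹ Γ` iff `g T^m g⁻¹ ∈ Γ`. -/
theorem cc40_smul_coset_iff (g : SL(2, ℤ)) (m : ℤ) :
    (T : SL(2, ℤ)) ^ m • ((g⁻¹ : SL(2, ℤ)) : SL(2, ℤ) ⧸ Γ) = ((g⁻¹ : SL(2, ℤ)) : SL(2, ℤ) ⧸ Γ)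
      ↔ g * T ^ m * g⁻¹ ∈ Γ := by
  rw [show (T : SL(2, ℤ)) ^ m • ((g⁻¹ : SL(2, ℤ)) : SL(2, ℤ) ⧸ Γ)
    = ((T ^ m * g⁻¹ : SL(2, ℤ)) : SL(2, ℤ) ⧸ Γ) from rfl, QuotientGroup.eq]
  constructor
  · intro h
    have h2 := Γ.inv_mem h
    simpa [mul_assoc] using h2
  · intro h
    have h2 := Γ.inv_mem h
    simpa [mul_assoc] using h2

/-- `g T^m g⁻¹ ∈ Γ` iff the width of the cusp `g ∞` divides `m`. -/
theorem cc40_mem_iff_dvd (g : SL(2, ℤ)) (m : ℤ) :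
    g * T ^ m * g⁻¹ ∈ Γ ↔
      (minimalPeriod ((T : SL(2, ℤ)) • ·) ((g⁻¹ : SL(2, ℤ)) : SL(2, ℤ) ⧸ Γ) : ℤ) ∣ m := by
  rw [← cc40_smul_coset_iff, MulAction.zpow_smul_eq_iff_minimalPeriod_dvd]

/-- **The conjugation permutes the canonical generators** `piΓ (g ∞) = g T^(width) g⁻¹` of the
stabilisers of the cusps: if `a ∈ GL(2, ℚ)` has positive determinant and `cw` realises the
conjugation by `a` on `Γ` (onto `Γ`), then `piΓ (α c) = cw (piΓ c)` for every `cw`-equivariant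
injection `α` of the cusps. -/
theorem cc40_pi_conj (cinf : C) (hT : (T : SL(2, ℤ)) • cinf = cinf)
    (htrans : ∀ c : C, ∃ g : SL(2, ℤ), g • cinf = c)
    (hstab : ∀ g : SL(2, ℤ), g • cinf = cinf → ∃ k : ℤ, g = T ^ k ∨ g = -T ^ k)
    (piΓ : C → SL(2, ℤ))
    (hpi : ∀ g : SL(2, ℤ), piΓ (g • cinf) =
      g * T ^ minimalPeriod ((T : SL(2, ℤ)) • ·) ((g⁻¹ : SL(2, ℤ)) : SL(2, ℤ) ⧸ Γ) * g⁻¹)
    (a : GL (Fin 2) ℚ) (ha : 0 < (a : Matrix (Fin 2) (Fin 2) ℚ).det)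
    (cw : SL(2, ℤ) → SL(2, ℤ))
    (hcw : ∀ h ∈ Γ, cw h ∈ Γ ∧ mapGL ℚ (cw h) = a * mapGL ℚ h * a⁻¹)
    (hsurj : ∀ h ∈ Γ, ∃ h' ∈ Γ, cw h' = h)
    (α : C → C) (hαinj : Injective α) (hα : ∀ h ∈ Γ, ∀ c, α (h • c) = cw h • α c) (c : C) :
    piΓ (α c) = cw (piΓ c) := by
  obtain ⟨g, rfl⟩ := htrans c
  obtain ⟨g', hg'⟩ := htrans (α (g • cinf))
  have hTz : ∀ n : ℤ, (T : SL(2, ℤ)) ^ n • cinf = cinf := by
    intro n
    have h1 : (T : SL(2, ℤ)) ∈ MulAction.stabilizer SL(2, ℤ) cinf :=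
      MulAction.mem_stabilizer_iff.mpr hT
    exact MulAction.mem_stabilizer_iff.mp (Subgroup.zpow_mem _ h1 n)
  have hfixg : ∀ (γ : SL(2, ℤ)) (n : ℤ), (γ * T ^ n * γ⁻¹) • (γ • cinf) = γ • cinf := by
    intro γ n
    rw [← mul_smul, inv_mul_cancel_right, mul_smul, hTz]
  -- the two widths
  set w : ℕ := minimalPeriod ((T : SL(2, ℤ)) • ·) ((g⁻¹ : SL(2, ℤ)) : SL(2, ℤ) ⧸ Γ) with hw
  set w' : ℕ := minimalPeriod ((T : SL(2, ℤ)) • ·) ((g'⁻¹ : SL(2, ℤ)) : SL(2, ℤ) ⧸ Γ) with hw'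
  have hπΓ : g * T ^ (w : ℤ) * g⁻¹ ∈ Γ := (cc40_mem_iff_dvd g _).mpr dvd_rfl
  have hQΓ : g' * T ^ (w' : ℤ) * g'⁻¹ ∈ Γ := (cc40_mem_iff_dvd g' _).mpr dvd_rfl
  rw [← hg', hpi, hpi, ← zpow_natCast, ← zpow_natCast]
  -- `cw` is compatible with powers on `Γ`
  have hcw_zpow : ∀ x ∈ Γ, ∀ n : ℤ, cw (x ^ n) = cw x ^ n := by
    intro x hx n
    apply mapGL_injective (S := ℚ)
    rw [(hcw _ (Γ.zpow_mem hx n)).2, map_zpow, map_zpow, (hcw x hx).2, conj_zpow]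
  -- step A: `P = cw π = g' T^k g'⁻¹` with `k ≥ 0`
  obtain ⟨hPΓ, hPGL⟩ := hcw _ hπΓ
  have hPfix : cw (g * T ^ (w : ℤ) * g⁻¹) • (g' • cinf) = g' • cinf := by
    rw [hg', ← hα _ hπΓ, hfixg]
  have hfix' : (g'⁻¹ * cw (g * T ^ (w : ℤ) * g⁻¹) * g') • cinf = cinf := by
    rw [mul_smul, mul_smul, hPfix, inv_smul_smul]
  obtain ⟨k, hk⟩ := hstab _ hfix'
  have hP' : cw (g * T ^ (w : ℤ) * g⁻¹) = g' * T ^ k * g'⁻¹ ∨
      cw (g * T ^ (w : ℤ) * g⁻¹) = -(g' * T ^ k * g'⁻¹) := by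
    rcases hk with hk | hk
    · left
      rw [← hk]
      group
    · right
      rw [← neg_mul, ← mul_neg, ← hk]
      group
  obtain ⟨hsign, hpos, -⟩ := cc40_key a ha g g' _ _ (w : ℤ) k hPGL (Or.inl rfl) hP'
  have hP : cw (g * T ^ (w : ℤ) * g⁻¹) = g' * T ^ k * g'⁻¹ := by
    rcases hsign with h1 | h1
    · exact h1.2
    · exact absurd h1.1 (cc40_ne_neg _)
  have hk0 : 0 ≤ k := hpos (Int.natCast_nonneg w)
  -- step F: `w' ∣ k`
  have hdvd1 : (w' : ℤ) ∣ k := by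
    rw [hw', ← cc40_mem_iff_dvd, ← hP]
    exact hPΓ
  -- steps B - E: `k ∣ w'`
  have hdvd2 : k ∣ (w' : ℤ) := by
    obtain ⟨b, hbΓ, hb⟩ := hsurj _ hQΓ
    have hbfix : b • (g • cinf) = g • cinf := by
      apply hαinj
      rw [hα b hbΓ, hb, ← hg', hfixg]
    have hfixb : (g⁻¹ * b * g) • cinf = cinf := by
      rw [mul_smul, mul_smul, hbfix, inv_smul_smul]
    obtain ⟨m, hm⟩ := hstab _ hfixb
    have hb' : b = g * T ^ m * g⁻¹ ∨ b = -(g * T ^ m * g⁻¹) := by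
      rcases hm with hm | hm
      · left
        rw [← hm]
        group
      · right
        rw [← neg_mul, ← mul_neg, ← hm]
        group
    have hbGL := (hcw b hbΓ).2
    rw [hb] at hbGL
    obtain ⟨hsignb, -, -⟩ := cc40_key a ha g g' b _ m (w' : ℤ) hbGL hb' (Or.inl rfl)
    have hbeq : b = g * T ^ m * g⁻¹ := by
      rcases hsignb with h1 | h1
      · exact h1.1
      · exact absurd h1.2 (cc40_ne_neg _)
    have hwm : (w : ℤ) ∣ m := by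
      rw [hw, ← cc40_mem_iff_dvd, ← hbeq]
      exact hbΓ
    obtain ⟨e, rfl⟩ := hwm
    have hbpow : b = (g * T ^ (w : ℤ) * g⁻¹) ^ e := by
      rw [hbeq, conj_zpow, ← _root_.zpow_mul]
    have hQ : g' * T ^ (w' : ℤ) * g'⁻¹ = g' * T ^ (k * e) * g'⁻¹ := by
      rw [← hb, hbpow, hcw_zpow _ hπΓ, hP, conj_zpow, ← _root_.zpow_mul]
    have hTeq : (T : SL(2, ℤ)) ^ (w' : ℤ) = T ^ (k * e) := by
      have := congrArg (fun X : SL(2, ℤ) => g'⁻¹ * X * g') hQ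
      simpa [mul_assoc] using this
    exact ⟨e, cc40_T_zpow_inj hTeq⟩
  have hkw : k = (w' : ℤ) := Int.dvd_antisymm hk0 (Int.natCast_nonneg w') hdvd2 hdvd1
  rw [hP, hkw]

/-- **(D3)**: the intrinsic cap-product cusp sum is invariant under the twist by an element
`a ∈ GL(2, ℚ)` of positive determinant normalising `Γ`: `cw` realises the conjugation by `a` on
`Γ`, `α` the action of `a` on the cusps. -/
theorem cc40_D3 {R : Type*} [CommRing R] {χ ν κ : SL(2, ℤ) → R} {pot : C → R}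
    (h : br96_IsCap Γ χ ν κ pot)
    (cinf : C) (hT : (T : SL(2, ℤ)) • cinf = cinf)
    (htrans : ∀ c : C, ∃ g : SL(2, ℤ), g • cinf = c)
    (hstab : ∀ g : SL(2, ℤ), g • cinf = cinf → ∃ k : ℤ, g = T ^ k ∨ g = -T ^ k)
    (piΓ : C → SL(2, ℤ))
    (hpi : ∀ g : SL(2, ℤ), piΓ (g • cinf) =
      g * T ^ minimalPeriod ((T : SL(2, ℤ)) • ·) ((g⁻¹ : SL(2, ℤ)) : SL(2, ℤ) ⧸ Γ) * g⁻¹)
    (a : GL (Fin 2) ℚ) (ha : 0 < (a : Matrix (Fin 2) (Fin 2) ℚ).det)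
    (cw : SL(2, ℤ) → SL(2, ℤ))
    (hcw : ∀ h ∈ Γ, cw h ∈ Γ ∧ mapGL ℚ (cw h) = a * mapGL ℚ h * a⁻¹)
    (hsurj : ∀ h ∈ Γ, ∃ h' ∈ Γ, cw h' = h)
    (α : C → C) (hαbij : Bijective α) (hα : ∀ h ∈ Γ, ∀ c, α (h • c) = cw h • α c)
    (s : Setoid C) (hs : ∀ c c', s.r c c' ↔ ∃ γ ∈ Γ, γ • c = c') :
    br96_IsCap Γ (χ ∘ cw) (ν ∘ cw) (κ ∘ cw) (pot ∘ α) ∧
      ∑ᶠ o : Quotient s, ((χ ∘ cw) (piΓ o.out) * (pot ∘ α) o.out - (κ ∘ cw) (piΓ o.out))
        = ∑ᶠ o : Quotient s, (χ (piΓ o.out) * pot o.out - κ (piΓ o.out)) := by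
  have hcw_mul : ∀ x ∈ Γ, ∀ y ∈ Γ, cw (x * y) = cw x * cw y := by
    intro x hx y hy
    apply mapGL_injective (S := ℚ)
    rw [(hcw _ (Γ.mul_mem hx hy)).2, map_mul, map_mul, (hcw x hx).2, (hcw y hy).2]
    group
  have hTpow : ∀ n : ℕ, (T : SL(2, ℤ)) ^ n • cinf = cinf := by
    intro n
    induction n with
    | zero => simp
    | succ n ih => rw [pow_succ, mul_smul, hT, ih]
  have hπΓ : ∀ c, piΓ c ∈ Γ := by
    intro c
    obtain ⟨g, rfl⟩ := htrans c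
    rw [hpi]
    exact br96_conj_mem g T
  have hπfix : ∀ c, piΓ c • c = c := by
    intro c
    obtain ⟨g, rfl⟩ := htrans c
    rw [hpi, ← mul_smul, inv_mul_cancel_right, mul_smul, hTpow]
  have hπe : ∀ k ∈ Γ, ∀ c, piΓ (k • c) = k * piΓ c * k⁻¹ := by
    intro k hk c
    obtain ⟨g, rfl⟩ := htrans c
    rw [← mul_smul, hpi, hpi, br96_coset_inv_eq g k hk]
    group
  refine ⟨cc40_isCap h cw (fun x hx => (hcw x hx).1) hcw_mul α hα, ?_⟩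
  exact cc40_sum h cw (fun x hx => (hcw x hx).1) hsurj α hαbij hα piΓ hπΓ hπfix hπe
    (cc40_pi_conj cinf hT htrans hstab piΓ hpi a ha cw hcw hsurj α hαbij.1 hα) s hs

end SL2

end Fermat.Agent.S41
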