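/-
S41 / M3 (D2*), helper54: the DUAL adjointness for the algebraic cap-product pairing —
restriction of symbols against transfer (corestriction) of homomorphisms.  Abstract group
theory on top of `CapTransfer77` (whose conventions and auxiliary definitions are reused).

Setting: `G` a group, `H` a subgroup with finite quotient `G ⧸ H` (left cosets, section
`Quotient.out`), `X` a `G`-set ("cusps"), `R` a commutative ring.
* `χ : G → R` additive on `H` (a homomorphism of the small group);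
* `pot : X → R` a potential of a `G`-invariant symbol: `pot (g • a) = pot a + ν g` for ALL `g`;
* `κ : G → R` with `κ (x * y) = κ x + κ y + ν x * χ y` for `x y ∈ H`.

The transfer of `χ` to `G` is `ct77_nuTr H χ`, `g ↦ ∑ q, χ (h(g, q))`.

* `ct54_kapG`, `ct54_kapG_mul` : a Heisenberg lift on `G` for the pair `(ν, transfer χ)`.
* `ct54_local` : the local identity at a cusp.
* `ct54_orbit_sum` : the orbit decomposition of cusp sums (combinatorial core).
* `ct54_global` : `L_H(χ, φ|_H) = L_G(transfer χ, φ)`.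
-/
import Mathlib
import Fermat.Agent.S41.CapTransfer77

set_option autoImplicit false

namespace Fermat.Agent.S41

open MulAction Subgroup Function

section CapCores

variable {G : Type*} [Group G] (H : Subgroup G) {X : Type*} [MulAction G X]
  {R : Type*} [CommRing R]

/-- The Heisenberg lift on `G` for `(ν, transfer χ)` built from one on `H` for `(ν, χ)`. -/
noncomputable def ct54_kapG (χ ν κ : G → R) (g : G) : R :=
  ∑ᶠ q : G ⧸ H, (κ (ct77_h H g q) + ν (g • q).out * χ (ct77_h H g q))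

section Basic

variable {χ ν κ : G → R} {pot : X → R}

/-- additivity of `ν` on `G` follows from the potential property as soon as `X` is nonempty. -/
lemma ct54_nu_mul_of_pot [Nonempty X] (hpot : ∀ g a, pot (g • a) = pot a + ν g) :
    ∀ g g', ν (g * g') = ν g + ν g' := by
  intro x y
  obtain ⟨a⟩ := ‹Nonempty X›
  have h1 := hpot (x * y) a
  rw [mul_smul, hpot x, hpot y] at h1
  linear_combination -h1

lemma ct54_kap_one (hχ : ∀ x ∈ H, ∀ y ∈ H, χ (x * y) = χ x + χ y)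
    (hκ : ∀ x ∈ H, ∀ y ∈ H, κ (x * y) = κ x + κ y + ν x * χ y) : κ 1 = 0 := by
  have := hκ 1 H.one_mem 1 H.one_mem
  rw [mul_one, ct77_nu_one H hχ] at this
  linear_combination -this

lemma ct54_chi_inv (hχ : ∀ x ∈ H, ∀ y ∈ H, χ (x * y) = χ x + χ y) (x : G) (hx : x ∈ H) :
    χ x⁻¹ = -χ x := by
  have h1 := hχ x hx x⁻¹ (H.inv_mem hx)
  rw [mul_inv_cancel, ct77_nu_one H hχ] at h1
  linear_combination -h1

variable [Finite (G ⧸ H)]

/-- (2*) the Heisenberg-lift equation for `ct54_kapG`. -/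
theorem ct54_kapG_mul (hχ : ∀ x ∈ H, ∀ y ∈ H, χ (x * y) = χ x + χ y)
    (hν : ∀ g g', ν (g * g') = ν g + ν g')
    (hκ : ∀ x ∈ H, ∀ y ∈ H, κ (x * y) = κ x + κ y + ν x * χ y) (g g' : G) :
    ct54_kapG H χ ν κ (g * g') =
      ct54_kapG H χ ν κ g + ct54_kapG H χ ν κ g' + ν g * ct77_nuTr H χ g' := by
  classical
  cases nonempty_fintype (G ⧸ H)
  simp only [ct54_kapG, ct77_nuTr, finsum_eq_sum_of_fintype]
  rw [← Equiv.sum_comp (MulAction.toPerm g' : G ⧸ H ≃ G ⧸ H)
    (fun q => κ (ct77_h H g q) + ν (g • q).out * χ (ct77_h H g q))]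
  rw [Finset.mul_sum, ← Finset.sum_add_distrib, ← Finset.sum_add_distrib]
  refine Finset.sum_congr rfl fun q _ => ?_
  simp only [MulAction.toPerm_apply]
  rw [ct77_h_mul, hκ _ (ct77_h_mem H g _) _ (ct77_h_mem H g' q),
    hχ _ (ct77_h_mem H g _) _ (ct77_h_mem H g' q), mul_smul]
  have h3 : ν (ct77_h H g (g' • q)) = -ν (g • g' • q).out + ν g + ν (g' • q).out := by
    simp only [ct77_h, hν, ct77_chi_inv hν]
  rw [h3]
  ring

end Basic

section Local

variable {χ ν κ : G → R} {pot : X → R}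

/-- The summand over `q : G ⧸ H` of `transfer χ π * pot c - kapG π`. -/
noncomputable def ct54_term (χ ν κ : G → R) (pot : X → R) (π : G) (c : X) (q : G ⧸ H) : R :=
  χ (ct77_h H π q) * pot c - κ (ct77_h H π q) - ν (π • q).out * χ (ct77_h H π q)

omit [MulAction G X] in
/-- Closed form of the partial sums of `ct54_term` along a `π`-orbit in `G ⧸ H`. -/
lemma ct54_partial (hχ : ∀ x ∈ H, ∀ y ∈ H, χ (x * y) = χ x + χ y)
    (hν : ∀ g g', ν (g * g') = ν g + ν g')
    (hκ : ∀ x ∈ H, ∀ y ∈ H, κ (x * y) = κ x + κ y + ν x * χ y)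
    (π : G) (hνπ : ν π = 0) (c : X) (q₀ : G ⧸ H) (n : ℕ) :
    ∑ k ∈ Finset.range n, ct54_term H χ ν κ pot π c (π ^ k • q₀) =
      χ (ct77_h H (π ^ n) q₀) * (pot c - ν (π ^ n • q₀).out) - κ (ct77_h H (π ^ n) q₀) := by
  induction n with
  | zero =>
    simp [ct77_h_one, ct54_kap_one H hχ hκ, ct77_nu_one H hχ]
  | succ n ih =>
    rw [Finset.sum_range_succ, ih]
    have hsm : π • π ^ n • q₀ = π ^ (n + 1) • q₀ := by rw [pow_succ', mul_smul]
    have hmul : ct77_h H (π ^ (n + 1)) q₀ = ct77_h H π (π ^ n • q₀) * ct77_h H (π ^ n) q₀ := by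
      rw [pow_succ', ct77_h_mul]
    have hνa : ν (ct77_h H π (π ^ n • q₀)) =
        ν (π ^ n • q₀).out - ν (π ^ (n + 1) • q₀).out := by
      simp only [ct77_h, hν, ct77_chi_inv hν, hνπ, hsm]
      ring
    rw [hmul, hκ _ (ct77_h_mem H π _) _ (ct77_h_mem H (π ^ n) q₀),
      hχ _ (ct77_h_mem H π _) _ (ct77_h_mem H (π ^ n) q₀), hνa]
    simp only [ct54_term, hsm]
    ring

/-- (3*) LOCAL CUSP IDENTITY for the transfer. -/
theorem ct54_local [Finite (G ⧸ H)] (hχ : ∀ x ∈ H, ∀ y ∈ H, χ (x * y) = χ x + χ y)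
    (hpot : ∀ g a, pot (g • a) = pot a + ν g)
    (hν : ∀ g g', ν (g * g') = ν g + ν g')
    (hκ : ∀ x ∈ H, ∀ y ∈ H, κ (x * y) = κ x + κ y + ν x * χ y)
    (π : G) (c : X) (hπ : π • c = c) :
    ct77_nuTr H χ π * pot c - ct54_kapG H χ ν κ π =
      ∑ᶠ ω : orbitRel.Quotient (zpowers π) (G ⧸ H),
        (χ (ct77_eta H π ω.out) * pot (ω.out.out⁻¹ • c) - κ (ct77_eta H π ω.out)) := by
  classical
  cases nonempty_fintype (G ⧸ H)
  cases nonempty_fintype (orbitRel.Quotient (zpowers π) (G ⧸ H))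
  have hνπ : ν π = 0 := by
    have := hpot π c
    rw [hπ] at this
    linear_combination -this
  have h1 : ct77_nuTr H χ π * pot c - ct54_kapG H χ ν κ π =
      ∑ q : G ⧸ H, ct54_term H χ ν κ pot π c q := by
    simp only [ct77_nuTr, ct54_kapG, finsum_eq_sum_of_fintype, ct54_term]
    rw [Finset.sum_mul, ← Finset.sum_sub_distrib]
    refine Finset.sum_congr rfl fun q _ => ?_
    ring
  rw [h1, finsum_eq_sum_of_fintype]
  rw [← (quotientEquivSigmaZMod H π).symm.sum_comp, Fintype.sum_sigma]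
  refine Finset.sum_congr rfl fun ω _ => ?_
  simp only [quotientEquivSigmaZMod_symm_apply]
  rw [ct77_sum_zmod (minimalPeriod (π • ·) ω.out)
    (fun k => ct54_term H χ ν κ pot π c (π ^ k • ω.out))]
  simp only [zpow_natCast]
  rw [ct54_partial H hχ hν hκ π hνπ c ω.out, ← ct77_eta_eq,
    MulAction.pow_smul_eq_iff_minimalPeriod_dvd.mpr dvd_rfl, hpot, ct77_chi_inv hν]
  ring

end Local

section Global

variable {χ ν κ : G → R} {pot : X → R}

/-- the cusp summand `F(c) = χ (π c) * pot c - κ (π c)` is invariant under `H`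
(version of `ct77_F_smul` needing additivity of `χ` on `H` only). -/
theorem ct54_F_smul (hχ : ∀ x ∈ H, ∀ y ∈ H, χ (x * y) = χ x + χ y)
    (hpot : ∀ h ∈ H, ∀ a, pot (h • a) = pot a + ν h)
    (hκ : ∀ x ∈ H, ∀ y ∈ H, κ (x * y) = κ x + κ y + ν x * χ y)
    (π : X → G) (hπH : ∀ c, π c ∈ H) (hπ : ∀ c, π c • c = c)
    (hπe : ∀ k ∈ H, ∀ c, π (k • c) = k * π c * k⁻¹) (k : G) (hk : k ∈ H) (c : X) :
    χ (π (k • c)) * pot (k • c) - κ (π (k • c)) = χ (π c) * pot c - κ (π c) := by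
  have hν0 : ν (π c) = 0 := by
    have := hpot _ (hπH c) c
    rw [hπ c] at this
    linear_combination -this
  have hk' : k⁻¹ ∈ H := H.inv_mem hk
  have h1 : κ (k * (π c * k⁻¹)) = κ k + κ (π c * k⁻¹) + ν k * χ (π c * k⁻¹) :=
    hκ _ hk _ (H.mul_mem (hπH c) hk')
  have h2 : κ (π c * k⁻¹) = κ (π c) + κ k⁻¹ + ν (π c) * χ k⁻¹ := hκ _ (hπH c) _ hk'
  have h3 : κ (k * k⁻¹) = κ k + κ k⁻¹ + ν k * χ k⁻¹ := hκ _ hk _ hk'
  rw [mul_inv_cancel, ct54_kap_one H hχ hκ] at h3
  have h4 : χ (k * (π c * k⁻¹)) = χ k + χ (π c * k⁻¹) := hχ _ hk _ (H.mul_mem (hπH c) hk')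
  have h5 : χ (π c * k⁻¹) = χ (π c) + χ k⁻¹ := hχ _ (hπH c) _ hk'
  have h6 : χ k⁻¹ = -χ k := ct54_chi_inv H hχ k hk
  rw [hπe k hk c, hpot k hk c, mul_assoc, h1, h2, hν0, h4, h5, h6]
  rw [h6] at h3
  linear_combination h3

/-- ORBIT DECOMPOSITION of cusp sums: a sum over `H`-orbits of cusps of an `H`-invariant
function is the sum, over `G`-orbits `o` and over orbits `ω` of `⟨π_o⟩` on `G ⧸ H`, of its
values at the cusps `s(ω)⁻¹ • o`. -/
theorem ct54_orbit_sum [Finite (G ⧸ H)] [Finite (orbitRel.Quotient G X)]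
    (piG : X → G) (hfix : ∀ c, piG c • c = c)
    (hstab : ∀ c (g : G), g • c = c → ∀ q : G ⧸ H, ∃ k : ℤ, g • q = piG c ^ k • q)
    (FH : X → R) (hFH_inv : ∀ k ∈ H, ∀ c, FH (k • c) = FH c) :
    ∑ᶠ o : orbitRel.Quotient H X, FH o.out =
      ∑ᶠ o : orbitRel.Quotient G X,
        ∑ᶠ ω : orbitRel.Quotient (zpowers (piG o.out)) (G ⧸ H), FH (ω.out.out⁻¹ • o.out) := by
  classical
  let Φ : (Σ o : orbitRel.Quotient G X, orbitRel.Quotient (zpowers (piG o.out)) (G ⧸ H)) →
      orbitRel.Quotient H X := fun x => Quotient.mk'' (x.2.out.out⁻¹ • x.1.out)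
  have hpowfix : ∀ (c : X) (k : ℤ), piG c ^ k • c = c := by
    intro c k
    have h1 : ∀ m : ℕ, piG c ^ m • c = c := by
      intro m
      induction m with
      | zero => simp
      | succ m ihm => rw [pow_succ, mul_smul, hfix, ihm]
    cases k with
    | ofNat m => simpa using h1 m
    | negSucc m =>
      rw [zpow_negSucc, inv_smul_eq_iff, h1]
  have hΦinj : Function.Injective Φ := by
    rintro ⟨o, ω⟩ ⟨o', ω'⟩ h
    have h1 : (orbitRel H X) (ω.out.out⁻¹ • o.out) (ω'.out.out⁻¹ • o'.out) := Quotient.exact' h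
    rw [orbitRel_apply, mem_orbit_iff] at h1
    obtain ⟨⟨h0, hh0⟩, hh⟩ := h1
    change h0 • (ω'.out.out⁻¹ • o'.out) = ω.out.out⁻¹ • o.out at hh
    have hoo : o = o' := by
      rw [← Quotient.out_eq' o, ← Quotient.out_eq' o']
      apply Quotient.sound'
      rw [orbitRel_apply, mem_orbit_iff]
      refine ⟨ω.out.out * h0 * ω'.out.out⁻¹, ?_⟩
      rw [mul_smul, mul_smul, hh, smul_inv_smul]
    subst hoo
    have hg : (ω.out.out * h0 * ω'.out.out⁻¹) • o.out = o.out := by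
      rw [mul_smul, mul_smul, hh, smul_inv_smul]
    obtain ⟨k, hk⟩ := hstab o.out _ hg ω'.out
    have h2 : (ω.out.out * h0 * ω'.out.out⁻¹) • ω'.out = ω.out := by
      conv_lhs => rhs; rw [← QuotientGroup.out_eq' ω'.out]
      conv_rhs => rw [← QuotientGroup.out_eq' ω.out]
      rw [show (ω.out.out * h0 * ω'.out.out⁻¹) • ((ω'.out.out : G) : G ⧸ H)
        = ((ω.out.out * h0 * ω'.out.out⁻¹ * ω'.out.out : G) : G ⧸ H) from rfl]
      rw [QuotientGroup.eq]
      have := H.inv_mem hh0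
      simpa [mul_assoc] using this
    have h3 : ω = ω' := by
      rw [← Quotient.out_eq' ω, ← Quotient.out_eq' ω']
      apply Quotient.sound'
      rw [orbitRel_apply, mem_orbit_iff]
      refine ⟨⟨piG o.out ^ k, zpow_mem (mem_zpowers _) k⟩, ?_⟩
      change piG o.out ^ k • ω'.out = ω.out
      rw [← hk, h2]
    rw [h3]
  have hΦsurj : Function.Surjective Φ := by
    intro o'
    set x := o'.out with hx
    set o : orbitRel.Quotient G X := Quotient.mk'' x with ho
    have h1 : (orbitRel G X) o.out x := Quotient.mk_out' x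
    rw [orbitRel_apply, mem_orbit_iff] at h1
    obtain ⟨g, hg⟩ := h1
    set ω : orbitRel.Quotient (zpowers (piG o.out)) (G ⧸ H) :=
      Quotient.mk'' ((g : G) : G ⧸ H) with hω
    have h2 : (orbitRel (zpowers (piG o.out)) (G ⧸ H)) ω.out ((g : G) : G ⧸ H) :=
      Quotient.mk_out' _
    rw [orbitRel_apply, mem_orbit_iff] at h2
    obtain ⟨⟨z, hz⟩, hzg⟩ := h2
    change z • ((g : G) : G ⧸ H) = ω.out at hzg
    obtain ⟨k, rfl⟩ := mem_zpowers_iff.mp hz
    have h3 : ((piG o.out ^ k * g : G) : G ⧸ H) = ((ω.out.out : G) : G ⧸ H) := by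
      rw [QuotientGroup.out_eq', ← hzg]
      rfl
    rw [QuotientGroup.eq] at h3
    refine ⟨⟨o, ω⟩, ?_⟩
    rw [← Quotient.out_eq' o']
    apply Quotient.sound'
    rw [orbitRel_apply, mem_orbit_iff]
    refine ⟨⟨_, H.inv_mem h3⟩, ?_⟩
    change ((piG o.out ^ k * g)⁻¹ * ω.out.out)⁻¹ • o'.out = ω.out.out⁻¹ • o.out
    rw [mul_inv_rev, inv_inv, mul_smul, mul_smul, ← hx, hg, hpowfix]
  cases nonempty_fintype (orbitRel.Quotient G X)
  let _ : ∀ o : orbitRel.Quotient G X,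
      Fintype (orbitRel.Quotient (zpowers (piG o.out)) (G ⧸ H)) := fun o => Fintype.ofFinite _
  have : Finite (orbitRel.Quotient H X) := Finite.of_surjective Φ hΦsurj
  cases nonempty_fintype (orbitRel.Quotient H X)
  simp only [finsum_eq_sum_of_fintype]
  rw [← Fintype.sum_sigma']
  symm
  refine Fintype.sum_bijective Φ ⟨hΦinj, hΦsurj⟩ _ _ fun x => ?_
  have h1 : (orbitRel H X) (Φ x).out (x.2.out.out⁻¹ • x.1.out) := Quotient.mk_out' _
  rw [orbitRel_apply, mem_orbit_iff] at h1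
  obtain ⟨⟨h0, hh0⟩, hh⟩ := h1
  change h0 • (x.2.out.out⁻¹ • x.1.out) = (Φ x).out at hh
  rw [← hh]
  exact (hFH_inv h0 hh0 _).symm

/-- (4*) **DUAL ADJOINTNESS, GLOBAL FORM**: the cusp sum for `H` (the homomorphism `χ` of `H`,
the restriction to `H` of the `G`-invariant symbol with potential `pot`) equals the cusp sum for
`G` (the transfer of `χ`, the same symbol). -/
theorem ct54_global [Finite (G ⧸ H)] [Finite (orbitRel.Quotient G X)]
    (hχ : ∀ x ∈ H, ∀ y ∈ H, χ (x * y) = χ x + χ y)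
    (hpot : ∀ g a, pot (g • a) = pot a + ν g)
    (hν : ∀ g g', ν (g * g') = ν g + ν g')
    (hκ : ∀ x ∈ H, ∀ y ∈ H, κ (x * y) = κ x + κ y + ν x * χ y)
    (piG : X → G) (hfix : ∀ c, piG c • c = c) (hequiv : ∀ g c, piG (g • c) = g * piG c * g⁻¹)
    (hstab : ∀ c (g : G), g • c = c → ∀ q : G ⧸ H, ∃ k : ℤ, g • q = piG c ^ k • q)
    (piH : X → G) (hpiH : ∀ c, piH c = piG c ^ minimalPeriod (piG c • ·) ((1 : G) : G ⧸ H)) :
    ∑ᶠ o : orbitRel.Quotient H X, (χ (piH o.out) * pot o.out - κ (piH o.out)) =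
      ∑ᶠ o : orbitRel.Quotient G X,
        (ct77_nuTr H χ (piG o.out) * pot o.out - ct54_kapG H χ ν κ (piG o.out)) := by
  classical
  set FH : X → R := fun c => χ (piH c) * pot c - κ (piH c) with hFH
  have hFH_inv : ∀ k ∈ H, ∀ c, FH (k • c) = FH c := fun k hk c =>
    ct54_F_smul H hχ (fun h _ a => hpot h a) hκ piH (ct77_piH_mem H piG piH hpiH)
      (ct77_piH_fix H piG piH hfix hpiH) (ct77_piH_equiv H piG piH hequiv hpiH) k hk c
  have hloc : ∀ c, ct77_nuTr H χ (piG c) * pot c - ct54_kapG H χ ν κ (piG c) =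
      ∑ᶠ ω : orbitRel.Quotient (zpowers (piG c)) (G ⧸ H), FH (ω.out.out⁻¹ • c) := by
    intro c
    rw [ct54_local H hχ hpot hν hκ (piG c) c (hfix c)]
    refine finsum_congr fun ω => ?_
    simp only [hFH, ct77_eta_eq_piH H piG hequiv piH hpiH]
  simp only [hloc]
  exact ct54_orbit_sum H piG hfix hstab FH hFH_inv

end Global

end CapCores

end Fermat.Agent.S41
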