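/-
S41 / M3 (B-W), concrete form: invariance of the Manin-model pairing `md32_B` under the
Atkin–Lehner element:
`md32_B psl96_rho ∞ rep (χ ∘ cw) (curry (tr43_W D Φ)) = md32_B psl96_rho ∞ rep χ (curry Φ)`
for `H = Γ₀(M r)`, `D : tr43_Data M r`, `cw` = conjugation by `D.w`.
(`cwc77_exists_cap`: cap data from a hom and a potential; `cwc77_bw_md32`: general `H`, `a`.)
-/
import Mathlib
import Fermat.Agent.S41.CapW77
import Fermat.Agent.S41.ManinDual32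
import Fermat.Agent.S41.Trace43c

set_option autoImplicit false

open scoped MatrixGroups
open ModularGroup MulAction Subgroup Function CongruenceSubgroup OnePoint
open Matrix.SpecialLinearGroup (mapGL)

namespace Fermat.Agent.S41

/-- Cap data from a hom `χ` on `Γ` and a potential `pot` with `ν`-part `ν`: the Heisenberg
primitive exists (`ck96_exists_kappa`), extended by zero outside `Γ`. -/
theorem cwc77_exists_cap {C : Type*} [MulAction SL(2, ℤ) C] {R : Type*} [CommRing R]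
    (Γ : Subgroup SL(2, ℤ)) (hneg : (-1 : SL(2, ℤ)) ∈ Γ)
    (h2 : ∀ r : R, r + r = 0 → r = 0) (h3 : ∀ r : R, r + r + r = 0 → r = 0)
    (χ ν : SL(2, ℤ) → R) (pot : C → R)
    (hχ : ∀ a ∈ Γ, ∀ b ∈ Γ, χ (a * b) = χ a + χ b)
    (hν : ∀ a ∈ Γ, ∀ b ∈ Γ, ν (a * b) = ν a + ν b)
    (hpot : ∀ a ∈ Γ, ∀ c : C, pot (a • c) = pot c + ν a) :
    ∃ κ : SL(2, ℤ) → R, br96_IsCap Γ χ ν κ pot := by
  classical
  obtain ⟨κ, hκ⟩ := ck96_exists_kappa hneg h2 h3 (fun g : Γ => ν g) (fun g : Γ => χ g)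
    (fun g h => hν _ g.2 _ h.2) (fun g h => hχ _ g.2 _ h.2)
  refine ⟨fun g => if hg : g ∈ Γ then κ ⟨g, hg⟩ else 0, hχ, hν, ?_, hpot⟩
  intro a ha b hb
  rw [dif_pos ha, dif_pos hb, dif_pos (Γ.mul_mem ha hb)]
  exact hκ ⟨a, ha⟩ ⟨b, hb⟩

/-- **(B-W)** in the Manin model `md32_B` on `OnePoint ℚ`, for a subgroup `H` of finite index
containing `-1` and `a ∈ GL(2, ℚ)`, `det a > 0`, normalising `H` through `cw`. -/
theorem cwc77_bw_md32 (H : Subgroup SL(2, ℤ)) [Fintype (SL(2, ℤ) ⧸ H)]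
    (hneg : (-1 : SL(2, ℤ)) ∈ H)
    (a : GL (Fin 2) ℚ) (ha : 0 < (a : Matrix (Fin 2) (Fin 2) ℚ).det)
    (cw : SL(2, ℤ) → SL(2, ℤ))
    (hcw : ∀ h ∈ H, cw h ∈ H ∧ mapGL ℚ (cw h) = a * mapGL ℚ h * a⁻¹)
    (hsurj : ∀ h ∈ H, ∃ h' ∈ H, cw h' = h)
    {rep : SL(2, ℤ) ⧸ H → SL(2, ℤ)} (hrep : ∀ x, (rep x : SL(2, ℤ) ⧸ H) = x)
    (had : md32_Adapted rep)
    {χ : SL(2, ℤ) → ℤ} (hχ : md32_IsHom H χ)
    {Φ : OnePoint ℚ → OnePoint ℚ → ℤ} (hΦ : md32_IsSymb H psl96_rho Φ) :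
    md32_B psl96_rho ∞ rep (χ ∘ cw) (fun x y => Φ (a • x) (a • y)) =
      md32_B psl96_rho ∞ rep χ Φ := by
  let act : MulAction SL(2, ℤ) (OnePoint ℚ) := MulAction.compHom (OnePoint ℚ) (mapGL ℚ)
  have hcompat : ∀ (g : SL(2, ℤ)) (c : OnePoint ℚ), mapGL ℚ g • c = g • c := fun _ _ => rfl
  have hrho : ∀ (g : SL(2, ℤ)) (c : OnePoint ℚ), psl96_rho g c = g • c := fun _ _ => rfl
  have ax := cj77_cuspAx_onePoint hcompat
  obtain ⟨hadd, hinv⟩ := hΦ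
  have h2 : ∀ r : ℤ, r + r = 0 → r = 0 := fun r h => by omega
  have h3 : ∀ r : ℤ, r + r + r = 0 → r = 0 := fun r h => by omega
  -- the potential and its `ν`-part
  have hpot : ∀ g ∈ H, ∀ c : OnePoint ℚ, Φ ∞ (g • c) = Φ ∞ c + Φ ∞ (g • ∞) := by
    intro g hg c
    have e1 := hadd ∞ (g • ∞) (g • c)
    have e2 := hinv g hg ∞ c
    rw [hrho, hrho] at e2
    rw [← e1, e2, add_comm]
  have hν : md32_IsHom H (fun g => Φ ∞ (g • (∞ : OnePoint ℚ))) := by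
    intro x hx y hy
    change Φ ∞ ((x * y) • ∞) = Φ ∞ (x • ∞) + Φ ∞ (y • ∞)
    rw [mul_smul, hpot x hx, add_comm]
  obtain ⟨κ, hcap⟩ := cwc77_exists_cap H hneg h2 h3 χ (fun g => Φ ∞ (g • (∞ : OnePoint ℚ)))
    (fun c => Φ ∞ c) hχ hν hpot
  have hcap' := cj77_cw_isCap hcompat H a cw hcw hcap
  have key := cw77_bw ax hcompat cj77_stabGL_onePoint H a ha cw hcw hsurj hrep hneg h2 h3 hcap
    (fun x => md32_chi_sig_U hrep had hneg hν x)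
    (fun x => md32_chi_sig_U hrep had hneg hχ x)
    (fun x => md32_chi_sig_U hrep had hneg (χ := fun g => Φ ∞ (cw g • (∞ : OnePoint ℚ)))
      hcap'.nu_mul x)
    (fun x => md32_chi_sig_U hrep had hneg (χ := fun g => χ (cw g)) hcap'.chi_mul x)
  rw [finsum_eq_sum_of_fintype, finsum_eq_sum_of_fintype] at key
  have hsub : ∀ u v : OnePoint ℚ, Φ u v = Φ ∞ v - Φ ∞ u := by
    intro u v
    have := hadd ∞ u v
    linarith
  simp only [md32_B, md32_J, md32_v, Function.comp_apply]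
  convert key using 2 with x _ x _
  · rw [hsub, hrho, hrho, mul_smul]
  · rw [hsub, hrho, hrho, mul_smul]

/-! ### The Atkin–Lehner element of `Γ₀(M r)` -/

theorem cwc77_neg_one_mem_Gamma0 (N : ℕ) : (-1 : SL(2, ℤ)) ∈ Gamma0 N := by
  rw [Gamma0_mem]
  simp

theorem cwc77_gl_w_det {M r : ℕ} (hr : r ≠ 0) (D : tr43_Data M r) :
    ((tr43_gl D.w : GL (Fin 2) ℚ) : Matrix (Fin 2) (Fin 2) ℚ).det = (r : ℚ) := by
  have hw : D.w.det ≠ 0 := by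
    rw [D.w_det]
    exact_mod_cast hr
  rw [tr43_gl_coe hw, tr43_det_map, D.w_det]
  norm_cast

/-- the matrix identity `w h = h' w` in `GL(2, ℚ)`. -/
theorem cwc77_gl_conj {M r : ℕ} (hr : r ≠ 0) (D : tr43_Data M r) (h h' : SL(2, ℤ))
    (hh : D.w * (h : Matrix (Fin 2) (Fin 2) ℤ) = (h' : Matrix (Fin 2) (Fin 2) ℤ) * D.w) :
    mapGL ℚ h' = tr43_gl D.w * mapGL ℚ h * (tr43_gl D.w)⁻¹ := by
  have hw : D.w.det ≠ 0 := by
    rw [D.w_det]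
    exact_mod_cast hr
  rw [eq_mul_inv_iff_mul_eq, ← tr43_gl_sl, ← tr43_gl_sl, ← tr43_gl_mul (tr43_sl_det_ne _) hw,
    ← tr43_gl_mul hw (tr43_sl_det_ne _), hh]

/-- **(B-W)** for `Γ₀(M r)` and the Atkin–Lehner operator `tr43_W D`: for `χ` additive on
`Γ₀(M r)`, a `ℤ`-valued symbol `Φ` of level `M r` and `cw` the conjugation by `D.w`,
`B(χ ∘ cw, W Φ) = B(χ, Φ)`. -/
theorem cwc77_BW {M r : ℕ} (hr : r ≠ 0) (D : tr43_Data M r)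
    [Fintype (SL(2, ℤ) ⧸ Gamma0 (M * r))] (cw : SL(2, ℤ) → SL(2, ℤ))
    (hcw : ∀ h ∈ Gamma0 (M * r), cw h ∈ Gamma0 (M * r) ∧
      D.w * (h : Matrix (Fin 2) (Fin 2) ℤ) = (cw h : Matrix (Fin 2) (Fin 2) ℤ) * D.w)
    {rep : SL(2, ℤ) ⧸ Gamma0 (M * r) → SL(2, ℤ)}
    (hrep : ∀ x, (rep x : SL(2, ℤ) ⧸ Gamma0 (M * r)) = x) (had : md32_Adapted rep)
    {χ : SL(2, ℤ) → ℤ} (hχ : md32_IsHom (Gamma0 (M * r)) χ)
    {Φ : OnePoint ℚ × OnePoint ℚ → ℤ} (hΦ : ∀ a b c, Φ (a, b) + Φ (b, c) = Φ (a, c))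
    (hinv : tr43_Inv (M * r) Φ) :
    md32_B psl96_rho ∞ rep (χ ∘ cw) (Function.curry (tr43_W D Φ)) =
      md32_B psl96_rho ∞ rep χ (Function.curry Φ) := by
  have hsymb : md32_IsSymb (Gamma0 (M * r)) psl96_rho (Function.curry Φ) :=
    ⟨fun a b c => hΦ a b c, fun γ hγ a b => hinv ⟨γ, hγ⟩ (a, b)⟩
  have hsurj : ∀ h ∈ Gamma0 (M * r), ∃ h' ∈ Gamma0 (M * r), cw h' = h := by
    intro h hh
    refine ⟨(((D.conj hr).symm ⟨h, hh⟩ : Gamma0 (M * r)) : SL(2, ℤ)),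
      ((D.conj hr).symm ⟨h, hh⟩).2, ?_⟩
    have e1 := D.conj_spec hr ((D.conj hr).symm ⟨h, hh⟩)
    rw [MulEquiv.apply_symm_apply] at e1
    have e2 := (hcw _ ((D.conj hr).symm ⟨h, hh⟩).2).2
    apply Subtype.ext
    exact D.cancel_w hr (e2.symm.trans e1)
  have key := cwc77_bw_md32 (Gamma0 (M * r)) (cwc77_neg_one_mem_Gamma0 _) (tr43_gl D.w)
    (by rw [cwc77_gl_w_det hr D]; exact_mod_cast Nat.pos_of_ne_zero hr) cw
    (fun h hh => ⟨(hcw h hh).1, cwc77_gl_conj hr D h (cw h) (hcw h hh).2⟩) hsurj hrep had hχ hsymb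
  exact key

/-- the conjugation `conj_w` (`tr43_Data.conj`) as a function on `SL(2, ℤ)` (`1` outside
`Γ₀(M r)`). -/
noncomputable def cwc77_cw {M r : ℕ} (hr : r ≠ 0) (D : tr43_Data M r) (h : SL(2, ℤ)) :
    SL(2, ℤ) := by
  classical
  exact if hh : h ∈ Gamma0 (M * r) then ((D.conj hr ⟨h, hh⟩ : Gamma0 (M * r)) : SL(2, ℤ)) else 1

theorem cwc77_cw_of_mem {M r : ℕ} (hr : r ≠ 0) (D : tr43_Data M r) {h : SL(2, ℤ)}
    (hh : h ∈ Gamma0 (M * r)) :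
    cwc77_cw hr D h = ((D.conj hr ⟨h, hh⟩ : Gamma0 (M * r)) : SL(2, ℤ)) := by
  rw [cwc77_cw, dif_pos hh]

theorem cwc77_cw_spec {M r : ℕ} (hr : r ≠ 0) (D : tr43_Data M r) :
    ∀ h ∈ Gamma0 (M * r), cwc77_cw hr D h ∈ Gamma0 (M * r) ∧
      D.w * (h : Matrix (Fin 2) (Fin 2) ℤ)
        = (cwc77_cw hr D h : Matrix (Fin 2) (Fin 2) ℤ) * D.w := by
  intro h hh
  rw [cwc77_cw_of_mem hr D hh]
  exact ⟨(D.conj hr ⟨h, hh⟩).2, D.conj_spec hr ⟨h, hh⟩⟩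

/-- **(B-W)** with `cw := conj_w` of `Trace43c`. -/
theorem cwc77_BW_conj {M r : ℕ} (hr : r ≠ 0) (D : tr43_Data M r)
    [Fintype (SL(2, ℤ) ⧸ Gamma0 (M * r))]
    {rep : SL(2, ℤ) ⧸ Gamma0 (M * r) → SL(2, ℤ)}
    (hrep : ∀ x, (rep x : SL(2, ℤ) ⧸ Gamma0 (M * r)) = x) (had : md32_Adapted rep)
    {χ : SL(2, ℤ) → ℤ} (hχ : md32_IsHom (Gamma0 (M * r)) χ)
    {Φ : OnePoint ℚ × OnePoint ℚ → ℤ} (hΦ : ∀ a b c, Φ (a, b) + Φ (b, c) = Φ (a, c))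
    (hinv : tr43_Inv (M * r) Φ) :
    md32_B psl96_rho ∞ rep (χ ∘ cwc77_cw hr D) (Function.curry (tr43_W D Φ)) =
      md32_B psl96_rho ∞ rep χ (Function.curry Φ) :=
  cwc77_BW hr D (cwc77_cw hr D) (cwc77_cw_spec hr D) hrep had hχ hΦ hinv

end Fermat.Agent.S41
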