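/-
S41 / M3 (L8): the second adjointness `hadj₂` of `dg71_Hb` / `dp28_hDI` from the first one
`hadj₁` and the `W`-invariance (B-W) of the Manin-model pairing.

* `cwc77_BW_symm`: `B(χ, W Φ) = B(χ ∘ conj_w, Φ)` (level `M r`).
* `cwc77_hadj₂`: `PN (tr (W b)) α = PQ b (res₂ α)` in the literal shape of `dg71_Hb`, for any
  `PN` with `hadj₁`, `PQ := md32_PB psl96_rho ∞ repQ`, any `res₁`, `res₂` with the
  specifications `hic88_IsRes₁`, `hic88_IsRes₂ D` (stated unfolded).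
-/
import Mathlib
import Fermat.Agent.S41.CapWConc77
import Fermat.Agent.S41.DualGlue71

set_option autoImplicit false

open scoped MatrixGroups
open ModularGroup MulAction Subgroup Function CongruenceSubgroup OnePoint
open Matrix.SpecialLinearGroup (mapGL)

namespace Fermat.Agent.S41

/-- `cwc77_cw` is multiplicative on `Γ₀(M r)`. -/
theorem cwc77_cw_mul {M r : ℕ} (hr : r ≠ 0) (D : tr43_Data M r) {a b : SL(2, ℤ)}
    (ha : a ∈ Gamma0 (M * r)) (hb : b ∈ Gamma0 (M * r)) :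
    cwc77_cw hr D (a * b) = cwc77_cw hr D a * cwc77_cw hr D b := by
  rw [cwc77_cw_of_mem hr D ha, cwc77_cw_of_mem hr D hb,
    cwc77_cw_of_mem hr D ((Gamma0 (M * r)).mul_mem ha hb)]
  have : (⟨a * b, (Gamma0 (M * r)).mul_mem ha hb⟩ : Gamma0 (M * r)) = ⟨a, ha⟩ * ⟨b, hb⟩ := rfl
  rw [this, map_mul]
  rfl

theorem cwc77_cw_mem {M r : ℕ} (hr : r ≠ 0) (D : tr43_Data M r) {a : SL(2, ℤ)}
    (ha : a ∈ Gamma0 (M * r)) : cwc77_cw hr D a ∈ Gamma0 (M * r) :=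
  (cwc77_cw_spec hr D a ha).1

/-- `conj_{w'} ∘ conj_w = id` on `Γ₀(M r)` (`w' = adj w`). -/
theorem cwc77_cw_inv_cw {M r : ℕ} (hr : r ≠ 0) (D : tr43_Data M r) {a : SL(2, ℤ)}
    (ha : a ∈ Gamma0 (M * r)) : cwc77_cw hr D.inv (cwc77_cw hr D a) = a := by
  rw [cwc77_cw_of_mem hr D ha, cwc77_cw_of_mem hr D.inv (D.conj hr ⟨a, ha⟩).2]
  have h := (D.conj hr).symm_apply_apply ⟨a, ha⟩
  rw [D.conj_symm_apply hr] at h
  exact congrArg Subtype.val h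

/-- a hom on `Γ₀(M r)` does not distinguish `conj_w` from its inverse (`w² = r η`). -/
theorem cwc77_chi_cw_inv {M r : ℕ} (hr : r ≠ 0) (D : tr43_Data M r) {χ : SL(2, ℤ) → ℤ}
    (hχ : md32_IsHom (Gamma0 (M * r)) χ) {a : SL(2, ℤ)} (ha : a ∈ Gamma0 (M * r)) :
    χ (cwc77_cw hr D.inv a) = χ (cwc77_cw hr D a) := by
  rw [cwc77_cw_of_mem hr D ha, cwc77_cw_of_mem hr D.inv ha]
  -- `κ := conj⁻¹ a`, `conj a = conj (conj κ) = η κ η⁻¹`
  set κ : Gamma0 (M * r) := D.inv.conj hr ⟨a, ha⟩ with hκ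
  have h1 : D.conj hr κ = ⟨a, ha⟩ := by
    rw [hκ, ← D.conj_symm_apply hr]
    exact (D.conj hr).apply_symm_apply _
  have h2 : D.conj hr ⟨a, ha⟩ = D.eta * κ * D.eta⁻¹ := by
    rw [← h1, D.conj_conj hr]
  rw [h2]
  have h3 := hχ.conj (r := ((D.eta⁻¹ : Gamma0 (M * r)) : SL(2, ℤ))) (a := (κ : SL(2, ℤ)))
    (D.eta⁻¹).2 κ.2
  rw [← h3]
  congr 1
  simp

/-- **(B-W), adjoint form**: `B(χ, W Φ) = B(χ ∘ conj_w, Φ)` at level `M r`. -/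
theorem cwc77_BW_symm {M r : ℕ} (hr : r ≠ 0) (D : tr43_Data M r)
    [Fintype (SL(2, ℤ) ⧸ Gamma0 (M * r))]
    {rep : SL(2, ℤ) ⧸ Gamma0 (M * r) → SL(2, ℤ)}
    (hrep : ∀ x, (rep x : SL(2, ℤ) ⧸ Gamma0 (M * r)) = x) (had : md32_Adapted rep)
    {χ : SL(2, ℤ) → ℤ} (hχ : md32_IsHom (Gamma0 (M * r)) χ)
    {Φ : OnePoint ℚ × OnePoint ℚ → ℤ} (hΦ : ∀ a b c, Φ (a, b) + Φ (b, c) = Φ (a, c))
    (hinv : tr43_Inv (M * r) Φ) :
    md32_B psl96_rho ∞ rep χ (Function.curry (tr43_W D Φ)) =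
      md32_B psl96_rho ∞ rep (χ ∘ cwc77_cw hr D) (Function.curry Φ) := by
  have hneg := cwc77_neg_one_mem_Gamma0 (M * r)
  have hχ' : md32_IsHom (Gamma0 (M * r)) (χ ∘ cwc77_cw hr D.inv) := by
    intro a ha b hb
    simp only [Function.comp_apply]
    rw [cwc77_cw_mul hr D.inv ha hb]
    exact hχ _ (cwc77_cw_mem hr D.inv ha) _ (cwc77_cw_mem hr D.inv hb)
  have key := cwc77_BW_conj hr D hrep had hχ' hΦ hinv
  have e1 : md32_B psl96_rho ∞ rep ((χ ∘ cwc77_cw hr D.inv) ∘ cwc77_cw hr D)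
      (Function.curry (tr43_W D Φ)) = md32_B psl96_rho ∞ rep χ (Function.curry (tr43_W D Φ)) :=
    md32_B_congr hneg hrep (fun g hg => by
      simp only [Function.comp_apply]
      rw [cwc77_cw_inv_cw hr D hg]) _
  have e2 : md32_B psl96_rho ∞ rep (χ ∘ cwc77_cw hr D.inv) (Function.curry Φ) =
      md32_B psl96_rho ∞ rep (χ ∘ cwc77_cw hr D) (Function.curry Φ) :=
    md32_B_congr hneg hrep (fun g hg => by
      simp only [Function.comp_apply]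
      exact cwc77_chi_cw_inv hr D hχ hg) _
  rw [← e1, key, e2]

/-- **`hadj₂` from `hadj₁`**, in the literal shape of `dg71_Hb`: `PN` any pairing at level `N`
with `hadj₁`, `PQ = md32_PB psl96_rho ∞ repQ`, `res₁`/`res₂` any additive maps with the
specifications `hic88_IsRes₁ N q` / `hic88_IsRes₂ D` (unfolded). -/
theorem cwc77_hadj₂ {N q : ℕ} (hq : q.Prime) (D : tr43_Data N q)
    [Fintype (SL(2, ℤ) ⧸ Gamma0 (N * q))]
    {repQ : SL(2, ℤ) ⧸ Gamma0 (N * q) → SL(2, ℤ)}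
    (hrepQ : ∀ x, (repQ x : SL(2, ℤ) ⧸ Gamma0 (N * q)) = x) (hadQ : md32_Adapted repQ)
    (PN : md32_Symb (Gamma0 N) psl96_rho →+ (Additive (Gamma0 N) →+ ℤ) →+ ℤ)
    (res₁ res₂ : (Additive (Gamma0 N) →+ ℤ) →+ (Additive (Gamma0 (N * q)) →+ ℤ))
    (hres₁ : ∀ (χ : Additive (Gamma0 N) →+ ℤ) (γ : Gamma0 (N * q)) (γ' : Gamma0 N),
      (γ' : SL(2, ℤ)) = (γ : SL(2, ℤ)) → res₁ χ (Additive.ofMul γ) = χ (Additive.ofMul γ'))
    (hres₂ : ∀ (χ : Additive (Gamma0 N) →+ ℤ) (γ : Gamma0 (N * q)) (γ' : Gamma0 N),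
      ((γ' : SL(2, ℤ)) : Matrix (Fin 2) (Fin 2) ℤ) * D.w =
        D.w * ((γ : SL(2, ℤ)) : Matrix (Fin 2) (Fin 2) ℤ) →
      res₂ χ (Additive.ofMul γ) = χ (Additive.ofMul γ'))
    (hadj₁ : ∀ b α, PN (dg71_tr hq D b) α = md32_PB psl96_rho ∞ repQ b (res₁ α)) :
    ∀ b α, PN (dg71_tr hq D (dg71_W hq.ne_zero D b)) α =
      md32_PB psl96_rho ∞ repQ b (res₂ α) := by
  intro b α
  have hneg := cwc77_neg_one_mem_Gamma0 (N * q)
  have hle : Gamma0 (N * q) ≤ Gamma0 N := by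
    intro g hg
    rw [Gamma0_mem] at hg ⊢
    have h1 : ((N * q : ℕ) : ℤ) ∣ g 1 0 := (ZMod.intCast_zmod_eq_zero_iff_dvd _ _).mp hg
    exact (ZMod.intCast_zmod_eq_zero_iff_dvd _ _).mpr
      (dvd_trans (Int.natCast_dvd_natCast.mpr (dvd_mul_right N q)) h1)
  rw [hadj₁, md32_PB_apply, md32_PB_apply]
  have hb := dg71_fn_isSymb b
  have key := cwc77_BW_symm hq.ne_zero D hrepQ hadQ (md32_ext_isHom (res₁ α)) hb.1 hb.2
  have e1 : ((dg71_W hq.ne_zero D b : md32_Symb (Gamma0 (N * q)) psl96_rho) :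
      OnePoint ℚ → OnePoint ℚ → ℤ) = Function.curry (tr43_W D (dg71_fn b)) := rfl
  have e2 : (b : OnePoint ℚ → OnePoint ℚ → ℤ) = Function.curry (dg71_fn b) := rfl
  rw [e1, key, e2]
  refine md32_B_congr hneg hrepQ (fun g hg => ?_) _
  simp only [Function.comp_apply]
  rw [md32_ext_of_mem _ hg, md32_ext_of_mem _ (cwc77_cw_mem hq.ne_zero D hg)]
  have hspec := D.conj_spec hq.ne_zero ⟨g, hg⟩
  set κ' : Gamma0 (N * q) := D.conj hq.ne_zero ⟨g, hg⟩ with hκ'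
  have hcw : cwc77_cw hq.ne_zero D g = (κ' : SL(2, ℤ)) := cwc77_cw_of_mem hq.ne_zero D hg
  rw [hres₂ α ⟨g, hg⟩ ⟨(κ' : SL(2, ℤ)), hle κ'.2⟩ hspec.symm]
  exact hres₁ α ⟨cwc77_cw hq.ne_zero D g, cwc77_cw_mem hq.ne_zero D hg⟩
    ⟨(κ' : SL(2, ℤ)), hle κ'.2⟩ hcw.symm

end Fermat.Agent.S41
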