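/-
S41 / M3 (L8 glue, helper98): coset reindexing.

(a) abstract: a finite family `r : ι → G` meeting every right coset `H g` of a subgroup `H`
exactly once computes the sum over the left cosets `G ⧸ H` taken with the section
`Quotient.out` and the representatives `(out q)⁻¹` (the shape of the abstract transfers
`ct77_potTr`, `ct77_nuTr`, ... of the duality module).

(b) concrete: `G = Γ₀(M)`, `H = Γ₀(M r)` (`r` prime), representatives `D.rep` of `Trace43`.
This is what turns `ct77_potTr` into `tr43_tr`.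
-/
import Mathlib
import Fermat.Agent.S41.Trace43c
import Fermat.Agent.S41.CapTransfer77

set_option autoImplicit false

open CongruenceSubgroup
open scoped MatrixGroups

namespace Fermat.Agent.S41

open Fermat.Agent.S16

section Abstract

open MulAction

variable {G : Type*} [Group G] (H : Subgroup G) {ι : Type*} (r : ι → G)

/-- the map `i ↦ (r i)⁻¹ H` from the index set to the left cosets. -/
def cr98_e (i : ι) : G ⧸ H := QuotientGroup.mk (r i)⁻¹

theorem cr98_e_surjective (hex : ∀ g, ∃ i, g * (r i)⁻¹ ∈ H) :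
    Function.Surjective (cr98_e H r) := by
  intro q
  obtain ⟨i, hi⟩ := hex (Quotient.out q)⁻¹
  refine ⟨i, ?_⟩
  rw [cr98_e, ← QuotientGroup.out_eq' q, QuotientGroup.eq, inv_inv]
  have h := H.inv_mem hi
  rwa [mul_inv_rev, inv_inv, inv_inv] at h

theorem cr98_e_injective (huniq : ∀ i j, r i * (r j)⁻¹ ∈ H → i = j) :
    Function.Injective (cr98_e H r) := by
  intro i j h
  rw [cr98_e, cr98_e, QuotientGroup.eq, inv_inv] at h
  exact huniq i j h

theorem cr98_e_bijective (hex : ∀ g, ∃ i, g * (r i)⁻¹ ∈ H)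
    (huniq : ∀ i j, r i * (r j)⁻¹ ∈ H → i = j) : Function.Bijective (cr98_e H r) :=
  ⟨cr98_e_injective H r huniq, cr98_e_surjective H r hex⟩

/-- a finite family meeting every right coset gives finite index. -/
theorem cr98_finite [Finite ι] (hex : ∀ g, ∃ i, g * (r i)⁻¹ ∈ H) : Finite (G ⧸ H) :=
  Finite.of_surjective (cr98_e H r) (cr98_e_surjective H r hex)

/-- the chosen representative of the coset of `(r i)⁻¹`, inverted, is `h * r i` with `h ∈ H`. -/
theorem cr98_out_inv (i : ι) :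
    ∃ h ∈ H, (Quotient.out (cr98_e H r i))⁻¹ = h * r i := by
  have h1 : (QuotientGroup.mk (Quotient.out (cr98_e H r i)) : G ⧸ H)
      = QuotientGroup.mk (r i)⁻¹ := by
    rw [QuotientGroup.out_eq']
    rfl
  rw [QuotientGroup.eq] at h1
  exact ⟨_, h1, by rw [inv_mul_cancel_right]⟩

/-- **Coset reindexing, abstract form.** -/
theorem cr98_sum {A : Type*} [AddCommMonoid A] [Fintype ι]
    (hex : ∀ g, ∃ i, g * (r i)⁻¹ ∈ H) (huniq : ∀ i j, r i * (r j)⁻¹ ∈ H → i = j)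
    (F : G → A) (hF : ∀ h ∈ H, ∀ g, F (h * g) = F g) :
    ∑ᶠ q : G ⧸ H, F (Quotient.out q)⁻¹ = ∑ i, F (r i) := by
  rw [← finsum_eq_sum_of_fintype]
  symm
  refine finsum_eq_of_bijective (cr98_e H r) (cr98_e_bijective H r hex huniq) ?_
  intro i
  obtain ⟨h, hh, he⟩ := cr98_out_inv H r i
  rw [he, hF h hh]

/-- the same with an arbitrary function of the coset and the representative. -/
theorem cr98_sum' {A : Type*} [AddCommMonoid A] [Fintype ι]
    (hex : ∀ g, ∃ i, g * (r i)⁻¹ ∈ H) (huniq : ∀ i j, r i * (r j)⁻¹ ∈ H → i = j)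
    (F : G → A) (hF : ∀ h ∈ H, ∀ g, F (h * g) = F g) :
    ∑ᶠ q : G ⧸ H, F (Quotient.out q)⁻¹ = ∑ᶠ i, F (r i) := by
  rw [cr98_sum H r hex huniq F hF, finsum_eq_sum_of_fintype]

/-- `ct77_potTr` of a function whose "difference" is left `H`-invariant: for a symbol
`φ (a, b)` (invariant under `H`), the abstract transfer `Σ_q φ (out q⁻¹ a, out q⁻¹ b)` is the
sum over any system of representatives. -/
theorem cr98_sum_smul {X : Type*} [MulAction G X] {A : Type*} [AddCommMonoid A] [Fintype ι]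
    (hex : ∀ g, ∃ i, g * (r i)⁻¹ ∈ H) (huniq : ∀ i j, r i * (r j)⁻¹ ∈ H → i = j)
    (φ : X → A) (hφ : ∀ h ∈ H, ∀ x, φ (h • x) = φ x) (x : X) :
    ∑ᶠ q : G ⧸ H, φ ((Quotient.out q)⁻¹ • x) = ∑ i, φ (r i • x) :=
  cr98_sum H r hex huniq (fun g => φ (g • x)) (fun h hh g => by
    show φ ((h * g) • x) = φ (g • x)
    rw [mul_smul, hφ h hh])

/-- difference form for potentials: `ct77_potTr` of an `H`-potential, evaluated on a pair of
points, is the sum over any system of representatives. -/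
theorem cr98_potTr_sub {X : Type*} [MulAction G X] {R : Type*} [CommRing R] [Fintype ι]
    (hex : ∀ g, ∃ i, g * (r i)⁻¹ ∈ H) (huniq : ∀ i j, r i * (r j)⁻¹ ∈ H → i = j)
    (pot : X → R) (ν : G → R) (hpot : ∀ h ∈ H, ∀ a, pot (h • a) = pot a + ν h) (a b : X) :
    ct77_potTr H pot b - ct77_potTr H pot a = ∑ i, (pot (r i • b) - pot (r i • a)) := by
  have hfin : Finite (G ⧸ H) := cr98_finite H r hex
  rw [ct77_potTr, ct77_potTr, ← finsum_sub_distrib (Set.toFinite _) (Set.toFinite _)]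
  exact cr98_sum H r hex huniq (fun g => pot (g • b) - pot (g • a)) (fun h hh g => by
    show pot ((h * g) • b) - pot ((h * g) • a) = pot (g • b) - pot (g • a)
    rw [mul_smul, mul_smul, hpot h hh, hpot h hh]
    ring)

/-! ### the transfer (corestriction) in terms of arbitrary representatives -/

theorem cr98_add_one {A : Type*} [AddCommGroup A] {χ : G → A}
    (hχ : ∀ x ∈ H, ∀ y ∈ H, χ (x * y) = χ x + χ y) : χ 1 = 0 := by
  have h := hχ 1 H.one_mem 1 H.one_mem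
  rw [mul_one] at h
  have h2 : χ 1 + 0 = χ 1 + χ 1 := by rw [add_zero]; exact h
  exact (add_left_cancel h2).symm

theorem cr98_add_inv {A : Type*} [AddCommGroup A] {χ : G → A}
    (hχ : ∀ x ∈ H, ∀ y ∈ H, χ (x * y) = χ x + χ y) {x : G} (hx : x ∈ H) : χ x⁻¹ = - χ x := by
  have h := hχ x hx x⁻¹ (H.inv_mem hx)
  rw [mul_inv_cancel, cr98_add_one H hχ] at h
  exact eq_neg_of_add_eq_zero_right h.symm

/-- `g` moves the coset of `(r i)⁻¹` to the coset of `(r j)⁻¹` when `r j * g * (r i)⁻¹ ∈ H`. -/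
theorem cr98_smul_e (g : G) (i j : ι) (h : r j * g * (r i)⁻¹ ∈ H) :
    g • cr98_e H r i = cr98_e H r j := by
  show (QuotientGroup.mk (g * (r i)⁻¹) : G ⧸ H) = QuotientGroup.mk (r j)⁻¹
  rw [QuotientGroup.eq]
  have h2 := H.inv_mem h
  have e : (r j * g * (r i)⁻¹)⁻¹ = (g * (r i)⁻¹)⁻¹ * (r j)⁻¹ := by group
  rwa [e] at h2

/-- for every `g` there is a map `σ` of the index set with `r (σ i) * g * (r i)⁻¹ ∈ H`. -/
theorem cr98_exists_sigma (hex : ∀ g, ∃ i, g * (r i)⁻¹ ∈ H) (g : G) :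
    ∃ σ : ι → ι, ∀ i, r (σ i) * g * (r i)⁻¹ ∈ H := by
  have key : ∀ i, ∃ j, r j * g * (r i)⁻¹ ∈ H := by
    intro i
    obtain ⟨j, hj⟩ := hex (r i * g⁻¹)
    refine ⟨j, ?_⟩
    have h2 := H.inv_mem hj
    have e : (r i * g⁻¹ * (r j)⁻¹)⁻¹ = r j * g * (r i)⁻¹ := by group
    rwa [e] at h2
  choose σ hσ using key
  exact ⟨σ, hσ⟩

theorem cr98_sigma_injective (huniq : ∀ i j, r i * (r j)⁻¹ ∈ H → i = j) (g : G) (σ : ι → ι)
    (hσ : ∀ i, r (σ i) * g * (r i)⁻¹ ∈ H) : Function.Injective σ := by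
  intro i i' hii
  refine huniq i i' ?_
  have h1 := hσ i
  have h2 := hσ i'
  rw [← hii] at h2
  have h3 := H.mul_mem (H.inv_mem h1) h2
  have e : (r (σ i) * g * (r i)⁻¹)⁻¹ * (r (σ i) * g * (r i')⁻¹) = r i * (r i')⁻¹ := by group
  rwa [e] at h3

theorem cr98_sigma_bijective [Finite ι] (huniq : ∀ i j, r i * (r j)⁻¹ ∈ H → i = j) (g : G)
    (σ : ι → ι) (hσ : ∀ i, r (σ i) * g * (r i)⁻¹ ∈ H) : Function.Bijective σ :=
  Finite.injective_iff_bijective.mp (cr98_sigma_injective H r huniq g σ hσ)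

/-- **The transfer does not depend on the representatives**: for `χ` additive on `H`,
`Σ_q χ (h(g, q))` (section `Quotient.out`, the cocycle `ct77_h`) is
`Σ_i χ (r (σ i) * g * (r i)⁻¹)` for any system of right coset representatives `r`. -/
theorem cr98_transfer {A : Type*} [AddCommGroup A] [Fintype ι]
    (hex : ∀ g, ∃ i, g * (r i)⁻¹ ∈ H) (huniq : ∀ i j, r i * (r j)⁻¹ ∈ H → i = j)
    (χ : G → A) (hχ : ∀ x ∈ H, ∀ y ∈ H, χ (x * y) = χ x + χ y)
    (g : G) (σ : ι → ι) (hσ : ∀ i, r (σ i) * g * (r i)⁻¹ ∈ H) :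
    ∑ᶠ q : G ⧸ H, χ (ct77_h H g q) = ∑ i, χ (r (σ i) * g * (r i)⁻¹) := by
  classical
  choose hh hhH hhe using cr98_out_inv H r
  have hbij := cr98_sigma_bijective H r huniq g σ hσ
  have step : ∀ i, χ (ct77_h H g (cr98_e H r i))
      = χ (hh (σ i)) + χ (r (σ i) * g * (r i)⁻¹) - χ (hh i) := by
    intro i
    have e1 : ct77_h H g (cr98_e H r i)
        = hh (σ i) * ((r (σ i) * g * (r i)⁻¹) * (hh i)⁻¹) := by
      rw [ct77_h, cr98_smul_e H r g i (σ i) (hσ i), hhe (σ i)]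
      have e2 : Quotient.out (cr98_e H r i) = (hh i * r i)⁻¹ := by
        rw [← hhe i, inv_inv]
      rw [e2]
      group
    rw [e1, hχ _ (hhH (σ i)) _ (H.mul_mem (hσ i) (H.inv_mem (hhH i))),
      hχ _ (hσ i) _ (H.inv_mem (hhH i)), cr98_add_inv H hχ (hhH i)]
    abel
  have h1 : ∑ᶠ q : G ⧸ H, χ (ct77_h H g q) = ∑ᶠ i, χ (ct77_h H g (cr98_e H r i)) :=
    (finsum_eq_of_bijective (cr98_e H r) (cr98_e_bijective H r hex huniq) (fun i => rfl)).symm
  rw [h1, finsum_eq_sum_of_fintype]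
  simp only [step]
  have h2 : ∑ i, χ (hh (σ i)) = ∑ i, χ (hh i) :=
    Equiv.sum_comp (Equiv.ofBijective σ hbij) (fun i => χ (hh i))
  rw [Finset.sum_sub_distrib, Finset.sum_add_distrib, h2]
  abel

/-- `ct77_nuTr` (the corestriction of the duality module) through arbitrary representatives. -/
theorem cr98_nuTr {R : Type*} [CommRing R] [Fintype ι]
    (hex : ∀ g, ∃ i, g * (r i)⁻¹ ∈ H) (huniq : ∀ i j, r i * (r j)⁻¹ ∈ H → i = j)
    (χ : G → R) (hχ : ∀ x ∈ H, ∀ y ∈ H, χ (x * y) = χ x + χ y)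
    (g : G) (σ : ι → ι) (hσ : ∀ i, r (σ i) * g * (r i)⁻¹ ∈ H) :
    ct77_nuTr H χ g = ∑ i, χ (r (σ i) * g * (r i)⁻¹) :=
  cr98_transfer H r hex huniq χ hχ g σ hσ

end Abstract

section Concrete

variable {M r : ℕ}

/-- the representatives `D.rep` meet every right coset of `Γ₀(M r)` in `Γ₀(M)`. -/
theorem cr98_rep_ex (hr : r.Prime) (D : tr43_Data M r) (g : Gamma0 M) :
    ∃ i : Option (Fin r), g * (D.rep i)⁻¹ ∈ (Gamma0 (M * r)).subgroupOf (Gamma0 M) := by
  obtain ⟨ρ, κ, hκ⟩ := tr43_rep_decomp hr D g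
  refine ⟨ρ, ?_⟩
  rw [Subgroup.mem_subgroupOf, Subgroup.coe_mul, Subgroup.coe_inv, hκ, mul_inv_cancel_right]
  exact κ.2

/-- the representatives `D.rep` lie in distinct right cosets of `Γ₀(M r)`. -/
theorem cr98_rep_uniq (hr : r.Prime) (D : tr43_Data M r) (i j : Option (Fin r))
    (h : D.rep i * (D.rep j)⁻¹ ∈ (Gamma0 (M * r)).subgroupOf (Gamma0 M)) : i = j := by
  rw [Subgroup.mem_subgroupOf, Subgroup.coe_mul, Subgroup.coe_inv] at h
  refine D.rep_unique hr i j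
    (((D.rep i : SL(2, ℤ)) * ((D.rep j : SL(2, ℤ)))⁻¹ : SL(2, ℤ)) : Matrix (Fin 2) (Fin 2) ℤ)
    ?_ ?_
  · exact (Int.natCast_dvd_natCast.mpr (dvd_mul_left r M)).trans (lb_Gamma0_dvd ⟨_, h⟩)
  · rw [← Matrix.SpecialLinearGroup.coe_mul, inv_mul_cancel_right]

/-- `Γ₀(M r)` has finite index in `Γ₀(M)` (as a subgroup of the group `Γ₀(M)`). -/
theorem cr98_finite_Gamma0 (hr : r.Prime) (D : tr43_Data M r) :
    Finite (Gamma0 M ⧸ (Gamma0 (M * r)).subgroupOf (Gamma0 M)) :=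
  cr98_finite _ D.rep (cr98_rep_ex hr D)

/-- **Coset reindexing, concrete form**: for `F` left invariant under `Γ₀(M r)`, the sum over
`Γ₀(M) ⧸ Γ₀(M r)` with representatives `(out q)⁻¹` is the sum over the `r + 1`
representatives `D.rep` of `Trace43`. -/
theorem cr98_sum_Gamma0 {A : Type*} [AddCommMonoid A] (hr : r.Prime) (D : tr43_Data M r)
    (F : SL(2, ℤ) → A) (hF : ∀ h ∈ Gamma0 (M * r), ∀ g, F (h * g) = F g) :
    ∑ᶠ q : Gamma0 M ⧸ (Gamma0 (M * r)).subgroupOf (Gamma0 M),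
        F (((Quotient.out q : Gamma0 M)⁻¹ : Gamma0 M) : SL(2, ℤ))
      = ∑ i : Option (Fin r), F (D.rep i : SL(2, ℤ)) :=
  cr98_sum ((Gamma0 (M * r)).subgroupOf (Gamma0 M)) D.rep (cr98_rep_ex hr D)
    (cr98_rep_uniq hr D) (fun g : Gamma0 M => F (g : SL(2, ℤ)))
    (fun h hh g => by
      show F ((h * g : Gamma0 M) : SL(2, ℤ)) = F (g : SL(2, ℤ))
      rw [Subgroup.coe_mul]
      exact hF _ (Subgroup.mem_subgroupOf.mp hh) _)

/-- the same with the inverse taken in `SL(2, ℤ)`. -/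
theorem cr98_sum_Gamma0' {A : Type*} [AddCommMonoid A] (hr : r.Prime) (D : tr43_Data M r)
    (F : SL(2, ℤ) → A) (hF : ∀ h ∈ Gamma0 (M * r), ∀ g, F (h * g) = F g) :
    ∑ᶠ q : Gamma0 M ⧸ (Gamma0 (M * r)).subgroupOf (Gamma0 M),
        F (((Quotient.out q : Gamma0 M) : SL(2, ℤ)))⁻¹
      = ∑ i : Option (Fin r), F (D.rep i : SL(2, ℤ)) := by
  rw [← cr98_sum_Gamma0 hr D F hF]
  refine finsum_congr fun q => ?_
  rw [Subgroup.coe_inv]

/-- `ct77_potTr` for `Γ₀(M r) ≤ Γ₀(M)` on a pair of points, through the representatives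
`D.rep` (any action of the group `Γ₀(M)`). -/
theorem cr98_potTr_sub_Gamma0 {X : Type*} [MulAction (Gamma0 M) X] {R : Type*} [CommRing R]
    (hr : r.Prime) (D : tr43_Data M r) (pot : X → R) (ν : Gamma0 M → R)
    (hpot : ∀ h ∈ (Gamma0 (M * r)).subgroupOf (Gamma0 M), ∀ a, pot (h • a) = pot a + ν h)
    (a b : X) :
    ct77_potTr ((Gamma0 (M * r)).subgroupOf (Gamma0 M)) pot b
        - ct77_potTr ((Gamma0 (M * r)).subgroupOf (Gamma0 M)) pot a
      = ∑ i : Option (Fin r), (pot (D.rep i • b) - pot (D.rep i • a)) :=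
  cr98_potTr_sub _ D.rep (cr98_rep_ex hr D) (cr98_rep_uniq hr D) pot ν hpot a b

/-- invariant functions on a `Γ₀(M)`-set: the abstract trace is the sum over `D.rep`. -/
theorem cr98_sum_smul_Gamma0 {X : Type*} [MulAction (Gamma0 M) X] {A : Type*} [AddCommMonoid A]
    (hr : r.Prime) (D : tr43_Data M r) (φ : X → A)
    (hφ : ∀ h ∈ (Gamma0 (M * r)).subgroupOf (Gamma0 M), ∀ x, φ (h • x) = φ x) (x : X) :
    ∑ᶠ q : Gamma0 M ⧸ (Gamma0 (M * r)).subgroupOf (Gamma0 M), φ ((Quotient.out q)⁻¹ • x)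
      = ∑ i : Option (Fin r), φ (D.rep i • x) :=
  cr98_sum_smul _ D.rep (cr98_rep_ex hr D) (cr98_rep_uniq hr D) φ hφ x

/-- the permutation of the representatives induced by `g ∈ Γ₀(M)`. -/
theorem cr98_exists_sigma_Gamma0 (hr : r.Prime) (D : tr43_Data M r) (g : Gamma0 M) :
    ∃ σ : Option (Fin r) → Option (Fin r), Function.Bijective σ ∧
      ∀ i, D.rep (σ i) * g * (D.rep i)⁻¹ ∈ (Gamma0 (M * r)).subgroupOf (Gamma0 M) := by
  obtain ⟨σ, hσ⟩ := cr98_exists_sigma _ D.rep (cr98_rep_ex hr D) g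
  exact ⟨σ, cr98_sigma_bijective _ D.rep (cr98_rep_uniq hr D) g σ hσ, hσ⟩

/-- **The transfer `Γ₀(M r) → Γ₀(M)` through the representatives `D.rep`**. -/
theorem cr98_transfer_Gamma0 {A : Type*} [AddCommGroup A] (hr : r.Prime) (D : tr43_Data M r)
    (χ : Gamma0 M → A)
    (hχ : ∀ x ∈ (Gamma0 (M * r)).subgroupOf (Gamma0 M),
      ∀ y ∈ (Gamma0 (M * r)).subgroupOf (Gamma0 M), χ (x * y) = χ x + χ y)
    (g : Gamma0 M) (σ : Option (Fin r) → Option (Fin r))
    (hσ : ∀ i, D.rep (σ i) * g * (D.rep i)⁻¹ ∈ (Gamma0 (M * r)).subgroupOf (Gamma0 M)) :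
    ∑ᶠ q : Gamma0 M ⧸ (Gamma0 (M * r)).subgroupOf (Gamma0 M),
        χ (ct77_h ((Gamma0 (M * r)).subgroupOf (Gamma0 M)) g q)
      = ∑ i : Option (Fin r), χ (D.rep (σ i) * g * (D.rep i)⁻¹) :=
  cr98_transfer _ D.rep (cr98_rep_ex hr D) (cr98_rep_uniq hr D) χ hχ g σ hσ

end Concrete

end Fermat.Agent.S41
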