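/-
S41 / (b') duality, second route: the CROSSING PAIRING in exact rational arithmetic.

`cr37_sig a b h` (for vectors `a b : Fin 2 → ℚ` representing two cusps and `h : GL (Fin 2) ℚ`)
is the sign of `B (h a) (h b) * det (a, b)`, where `B` is (twice) the bilinear form of
`x² + xy + y²`: it tells on which side of the geodesic `{a, b}` the point `h⁻¹ ρ` lies.
-/
import Mathlib
import Fermat.Agent.S41.CrossAbs37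

set_option autoImplicit false

namespace Fermat.Agent.S41

open Matrix MatrixGroups

/-- Twice the bilinear form of `x² + xy + y²`. -/
def cr37_B (x y : Fin 2 → ℚ) : ℚ :=
  2 * x 0 * y 0 + (x 0 * y 1 + x 1 * y 0) + 2 * x 1 * y 1

/-- The determinant of two vectors. -/
def cr37_dt (x y : Fin 2 → ℚ) : ℚ := x 0 * y 1 - x 1 * y 0

/-- The side function. -/
def cr37_sig (a b : Fin 2 → ℚ) (h : GL (Fin 2) ℚ) : ℤ :=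
  ((SignType.sign (cr37_B (h.1 *ᵥ a) (h.1 *ᵥ b) * cr37_dt a b) : SignType) : ℤ)

theorem cr37_B_comm (x y : Fin 2 → ℚ) : cr37_B x y = cr37_B y x := by
  unfold cr37_B; ring

theorem cr37_dt_comm (x y : Fin 2 → ℚ) : cr37_dt x y = - cr37_dt y x := by
  unfold cr37_dt; ring

theorem cr37_mulVec0 (M : Matrix (Fin 2) (Fin 2) ℚ) (v : Fin 2 → ℚ) :
    (M *ᵥ v) 0 = M 0 0 * v 0 + M 0 1 * v 1 := by
  simp [Matrix.mulVec, dotProduct, Fin.sum_univ_two]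

theorem cr37_mulVec1 (M : Matrix (Fin 2) (Fin 2) ℚ) (v : Fin 2 → ℚ) :
    (M *ᵥ v) 1 = M 1 0 * v 0 + M 1 1 * v 1 := by
  simp [Matrix.mulVec, dotProduct, Fin.sum_univ_two]

theorem cr37_dt_mulVec (M : Matrix (Fin 2) (Fin 2) ℚ) (x y : Fin 2 → ℚ) :
    cr37_dt (M *ᵥ x) (M *ᵥ y) = M.det * cr37_dt x y := by
  unfold cr37_dt
  rw [cr37_mulVec0, cr37_mulVec1, cr37_mulVec0, cr37_mulVec1, Matrix.det_fin_two]
  ring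

/-- antisymmetry -/
theorem cr37_sig_swap (a b : Fin 2 → ℚ) (h : GL (Fin 2) ℚ) :
    cr37_sig b a h = - cr37_sig a b h := by
  unfold cr37_sig
  rw [cr37_B_comm, cr37_dt_comm b a, mul_neg, Left.sign_neg]
  simp

/-- a symbol with equal ends is zero -/
theorem cr37_sig_of_dt_eq_zero (a b : Fin 2 → ℚ) (hab : cr37_dt a b = 0) (h : GL (Fin 2) ℚ) :
    cr37_sig a b h = 0 := by
  unfold cr37_sig
  rw [hab, mul_zero]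
  simp

/-- invariance under rescaling of the two vectors -/
theorem cr37_sig_smul (a b : Fin 2 → ℚ) (c c' : ℚ) (hc : c ≠ 0) (hc' : c' ≠ 0)
    (h : GL (Fin 2) ℚ) : cr37_sig (c • a) (c' • b) h = cr37_sig a b h := by
  unfold cr37_sig
  have e : cr37_B (h.1 *ᵥ (c • a)) (h.1 *ᵥ (c' • b)) * cr37_dt (c • a) (c' • b)
      = (c ^ 2 * c' ^ 2) * (cr37_B (h.1 *ᵥ a) (h.1 *ᵥ b) * cr37_dt a b) := by
    rw [Matrix.mulVec_smul, Matrix.mulVec_smul]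
    unfold cr37_B cr37_dt
    simp only [Pi.smul_apply, smul_eq_mul]
    ring
  rw [e, sign_mul]
  have hpos : 0 < c ^ 2 * c' ^ 2 := by positivity
  rw [sign_pos hpos, one_mul]

/-- right translation of the argument = action on the vectors (positive determinant). -/
theorem cr37_sig_mul (a b : Fin 2 → ℚ) (h d : GL (Fin 2) ℚ) (hd : 0 < d.1.det) :
    cr37_sig a b (h * d) = cr37_sig (d.1 *ᵥ a) (d.1 *ᵥ b) h := by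
  unfold cr37_sig
  have e : cr37_B (h.1 *ᵥ (d.1 *ᵥ a)) (h.1 *ᵥ (d.1 *ᵥ b)) * cr37_dt (d.1 *ᵥ a) (d.1 *ᵥ b)
      = d.1.det * (cr37_B ((h * d).1 *ᵥ a) ((h * d).1 *ᵥ b) * cr37_dt a b) := by
    rw [Units.val_mul, ← Matrix.mulVec_mulVec, ← Matrix.mulVec_mulVec, cr37_dt_mulVec]
    ring
  rw [e]
  conv_rhs => rw [sign_mul, sign_pos hd, one_mul]

/-! ### The two-forms inequality -/

theorem cr37_low (A B C v0 v1 mm : ℚ) (ht : 0 < A + C) (hmm : mm * (A + C) ≤ A * C - B ^ 2) :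
    mm * (v0 ^ 2 + v1 ^ 2) ≤ A * v0 ^ 2 + 2 * B * v0 * v1 + C * v1 ^ 2 := by
  have h1 : (A * C - B ^ 2) * (v0 ^ 2 + v1 ^ 2)
      ≤ (A * v0 ^ 2 + 2 * B * v0 * v1 + C * v1 ^ 2) * (A + C) := by
    nlinarith [sq_nonneg (A * v0 + B * v1), sq_nonneg (B * v0 + C * v1)]
  have h2 : mm * (A + C) * (v0 ^ 2 + v1 ^ 2) ≤ (A * C - B ^ 2) * (v0 ^ 2 + v1 ^ 2) :=
    mul_le_mul_of_nonneg_right hmm (by positivity)
  have h3 : (mm * (v0 ^ 2 + v1 ^ 2)) * (A + C)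
      ≤ (A * v0 ^ 2 + 2 * B * v0 * v1 + C * v1 ^ 2) * (A + C) := by linarith
  exact le_of_mul_le_mul_right h3 ht

theorem cr37_core (A₁ B₁ C₁ A₂ B₂ C₂ m K u w x0 x1 y0 y1 : ℚ) (hm : 0 < m)
    (hu : 0 ≤ u) (hw : 0 ≤ w) (huw : 0 < u + w)
    (l1x : m * (x0 ^ 2 + x1 ^ 2) ≤ A₁ * x0 ^ 2 + 2 * B₁ * x0 * x1 + C₁ * x1 ^ 2)
    (l2x : m * (x0 ^ 2 + x1 ^ 2) ≤ A₂ * x0 ^ 2 + 2 * B₂ * x0 * x1 + C₂ * x1 ^ 2)
    (l1y : m * (y0 ^ 2 + y1 ^ 2) ≤ A₁ * y0 ^ 2 + 2 * B₁ * y0 * y1 + C₁ * y1 ^ 2)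
    (l2y : m * (y0 ^ 2 + y1 ^ 2) ≤ A₂ * y0 ^ 2 + 2 * B₂ * y0 * y1 + C₂ * y1 ^ 2)
    (hβ : u * (A₁ * x0 * y0 + B₁ * (x0 * y1 + x1 * y0) + C₁ * x1 * y1)
      + w * (A₂ * x0 * y0 + B₂ * (x0 * y1 + x1 * y0) + C₂ * x1 * y1) = 0)
    (hdet : u ^ 2 * (A₁ * C₁ - B₁ ^ 2) + w ^ 2 * (A₂ * C₂ - B₂ ^ 2)
      + u * w * (A₁ * C₂ + A₂ * C₁ - 2 * B₁ * B₂) ≤ (u + w) ^ 2 * K) :
    m ^ 2 * ((x0 ^ 2 + x1 ^ 2) * (y0 ^ 2 + y1 ^ 2)) ≤ K * (x0 * y1 - x1 * y0) ^ 2 := by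
  have hNx0 : 0 ≤ x0 ^ 2 + x1 ^ 2 := by positivity
  have hNy0 : 0 ≤ y0 ^ 2 + y1 ^ 2 := by positivity
  have hPx : (u + w) * m * (x0 ^ 2 + x1 ^ 2)
      ≤ u * (A₁ * x0 ^ 2 + 2 * B₁ * x0 * x1 + C₁ * x1 ^ 2)
        + w * (A₂ * x0 ^ 2 + 2 * B₂ * x0 * x1 + C₂ * x1 ^ 2) := by
    have e1 := mul_le_mul_of_nonneg_left l1x hu
    have e2 := mul_le_mul_of_nonneg_left l2x hw
    linarith
  have hPy : (u + w) * m * (y0 ^ 2 + y1 ^ 2)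
      ≤ u * (A₁ * y0 ^ 2 + 2 * B₁ * y0 * y1 + C₁ * y1 ^ 2)
        + w * (A₂ * y0 ^ 2 + 2 * B₂ * y0 * y1 + C₂ * y1 ^ 2) := by
    have e1 := mul_le_mul_of_nonneg_left l1y hu
    have e2 := mul_le_mul_of_nonneg_left l2y hw
    linarith
  have hprod := mul_le_mul hPx hPy (by positivity) (le_trans (by positivity) hPx)
  have hgram : (u * (A₁ * x0 ^ 2 + 2 * B₁ * x0 * x1 + C₁ * x1 ^ 2)
        + w * (A₂ * x0 ^ 2 + 2 * B₂ * x0 * x1 + C₂ * x1 ^ 2))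
      * (u * (A₁ * y0 ^ 2 + 2 * B₁ * y0 * y1 + C₁ * y1 ^ 2)
        + w * (A₂ * y0 ^ 2 + 2 * B₂ * y0 * y1 + C₂ * y1 ^ 2))
      = (u * (A₁ * x0 * y0 + B₁ * (x0 * y1 + x1 * y0) + C₁ * x1 * y1)
          + w * (A₂ * x0 * y0 + B₂ * (x0 * y1 + x1 * y0) + C₂ * x1 * y1)) ^ 2
        + (u ^ 2 * (A₁ * C₁ - B₁ ^ 2) + w ^ 2 * (A₂ * C₂ - B₂ ^ 2)
            + u * w * (A₁ * C₂ + A₂ * C₁ - 2 * B₁ * B₂)) * (x0 * y1 - x1 * y0) ^ 2 := by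
    ring
  rw [hβ] at hgram
  have hD2 : 0 ≤ (x0 * y1 - x1 * y0) ^ 2 := sq_nonneg _
  have h6 := mul_le_mul_of_nonneg_right hdet hD2
  have hfin : (u + w) ^ 2 * (m ^ 2 * ((x0 ^ 2 + x1 ^ 2) * (y0 ^ 2 + y1 ^ 2)))
      ≤ (u + w) ^ 2 * (K * (x0 * y1 - x1 * y0) ^ 2) := by
    calc (u + w) ^ 2 * (m ^ 2 * ((x0 ^ 2 + x1 ^ 2) * (y0 ^ 2 + y1 ^ 2)))
        = ((u + w) * m * (x0 ^ 2 + x1 ^ 2)) * ((u + w) * m * (y0 ^ 2 + y1 ^ 2)) := by ring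
      _ ≤ _ := hprod
      _ = _ := hgram
      _ ≤ (u + w) ^ 2 * (K * (x0 * y1 - x1 * y0) ^ 2) := by linarith
  exact le_of_mul_le_mul_left hfin (by positivity)

theorem cr37_exists_uw (β₁ β₂ : ℚ) (hβ : β₁ * β₂ ≤ 0) :
    ∃ u w : ℚ, 0 ≤ u ∧ 0 ≤ w ∧ 0 < u + w ∧ u * β₁ + w * β₂ = 0 := by
  by_cases h0 : β₁ = 0 ∧ β₂ = 0
  · exact ⟨1, 0, by norm_num, le_refl _, by norm_num, by rw [h0.1]; ring⟩
  · refine ⟨|β₂|, |β₁|, abs_nonneg _, abs_nonneg _, ?_, ?_⟩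
    · rcases not_and_or.1 h0 with h | h
      · have := abs_pos.2 h
        have := abs_nonneg β₂
        linarith
      · have := abs_pos.2 h
        have := abs_nonneg β₁
        linarith
    · rcases le_total 0 β₁ with h1 | h1
      · by_cases h3 : β₁ = 0
        · rw [h3]; simp
        · have h2 : β₂ ≤ 0 := by
            by_contra hcon
            have hp : 0 < β₁ := lt_of_le_of_ne h1 (Ne.symm h3)
            have := mul_pos hp (not_le.1 hcon)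
            linarith
          rw [abs_of_nonneg h1, abs_of_nonpos h2]; ring
      · by_cases h3 : β₁ = 0
        · rw [h3]; simp
        · have h2 : 0 ≤ β₂ := by
            by_contra hcon
            have hp : β₁ < 0 := lt_of_le_of_ne h1 h3
            have := mul_pos_of_neg_of_neg hp (not_le.1 hcon)
            linarith
          rw [abs_of_nonpos h1, abs_of_nonneg h2]; ring

/-- Two positive definite binary forms: if their bilinear forms take values of opposite (weak)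
signs at `(x, y)`, then `|x|² |y|² ≤ R * det(x, y)²` for a constant `R` depending only on the
forms. -/
theorem cr37_two_forms (A₁ B₁ C₁ A₂ B₂ C₂ : ℚ) (hA₁ : 0 < A₁) (hd₁ : 0 < A₁ * C₁ - B₁ ^ 2)
    (hA₂ : 0 < A₂) (hd₂ : 0 < A₂ * C₂ - B₂ ^ 2) :
    ∃ R : ℚ, 0 < R ∧ ∀ x0 x1 y0 y1 : ℚ,
      (A₁ * x0 * y0 + B₁ * (x0 * y1 + x1 * y0) + C₁ * x1 * y1) *
        (A₂ * x0 * y0 + B₂ * (x0 * y1 + x1 * y0) + C₂ * x1 * y1) ≤ 0 →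
      (x0 ^ 2 + x1 ^ 2) * (y0 ^ 2 + y1 ^ 2) ≤ R * (x0 * y1 - x1 * y0) ^ 2 := by
  have hC₁ : 0 < C₁ := by
    by_contra hcon
    have : A₁ * C₁ ≤ 0 := mul_nonpos_of_nonneg_of_nonpos hA₁.le (not_lt.1 hcon)
    nlinarith [sq_nonneg B₁]
  have hC₂ : 0 < C₂ := by
    by_contra hcon
    have : A₂ * C₂ ≤ 0 := mul_nonpos_of_nonneg_of_nonpos hA₂.le (not_lt.1 hcon)
    nlinarith [sq_nonneg B₂]
  have ht₁ : 0 < A₁ + C₁ := by positivity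
  have ht₂ : 0 < A₂ + C₂ := by positivity
  obtain ⟨m, hm, hm₁, hm₂⟩ : ∃ m : ℚ, 0 < m ∧ m * (A₁ + C₁) ≤ A₁ * C₁ - B₁ ^ 2
      ∧ m * (A₂ + C₂) ≤ A₂ * C₂ - B₂ ^ 2 := by
    refine ⟨min ((A₁ * C₁ - B₁ ^ 2) / (A₁ + C₁)) ((A₂ * C₂ - B₂ ^ 2) / (A₂ + C₂)),
      lt_min (div_pos hd₁ ht₁) (div_pos hd₂ ht₂), ?_, ?_⟩
    · have := min_le_left ((A₁ * C₁ - B₁ ^ 2) / (A₁ + C₁)) ((A₂ * C₂ - B₂ ^ 2) / (A₂ + C₂))
      rwa [le_div_iff₀ ht₁] at this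
    · have := min_le_right ((A₁ * C₁ - B₁ ^ 2) / (A₁ + C₁)) ((A₂ * C₂ - B₂ ^ 2) / (A₂ + C₂))
      rwa [le_div_iff₀ ht₂] at this
  obtain ⟨K, hK, hKdet⟩ : ∃ K : ℚ, 0 < K ∧ ∀ u w : ℚ, 0 ≤ u → 0 ≤ w →
      u ^ 2 * (A₁ * C₁ - B₁ ^ 2) + w ^ 2 * (A₂ * C₂ - B₂ ^ 2)
        + u * w * (A₁ * C₂ + A₂ * C₁ - 2 * B₁ * B₂) ≤ (u + w) ^ 2 * K := by
    refine ⟨(A₁ * C₁ - B₁ ^ 2) + (A₂ * C₂ - B₂ ^ 2) + |A₁ * C₂ + A₂ * C₁ - 2 * B₁ * B₂|,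
      by positivity, ?_⟩
    intro u w hu hw
    have habs := abs_nonneg (A₁ * C₂ + A₂ * C₁ - 2 * B₁ * B₂)
    have h1 : u * w * (A₁ * C₂ + A₂ * C₁ - 2 * B₁ * B₂)
        ≤ u * w * |A₁ * C₂ + A₂ * C₁ - 2 * B₁ * B₂| :=
      mul_le_mul_of_nonneg_left (le_abs_self _) (mul_nonneg hu hw)
    have h2 : 0 ≤ u ^ 2 * ((A₂ * C₂ - B₂ ^ 2) + |A₁ * C₂ + A₂ * C₁ - 2 * B₁ * B₂|) := by
      positivity
    have h3 : 0 ≤ w ^ 2 * ((A₁ * C₁ - B₁ ^ 2) + |A₁ * C₂ + A₂ * C₁ - 2 * B₁ * B₂|) := by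
      positivity
    have h4 : 0 ≤ u * w * ((A₁ * C₁ - B₁ ^ 2) + (A₂ * C₂ - B₂ ^ 2)
        + |A₁ * C₂ + A₂ * C₁ - 2 * B₁ * B₂|) := by positivity
    have h5 : 0 ≤ u * w * ((A₁ * C₁ - B₁ ^ 2) + (A₂ * C₂ - B₂ ^ 2)) := by positivity
    nlinarith
  refine ⟨K / m ^ 2, by positivity, ?_⟩
  intro x0 x1 y0 y1 hβ
  obtain ⟨u, w, hu, hw, huw, huwβ⟩ := cr37_exists_uw _ _ hβ
  have hcore := cr37_core A₁ B₁ C₁ A₂ B₂ C₂ m K u w x0 x1 y0 y1 hm hu hw huw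
    (cr37_low A₁ B₁ C₁ x0 x1 m ht₁ hm₁) (cr37_low A₂ B₂ C₂ x0 x1 m ht₂ hm₂)
    (cr37_low A₁ B₁ C₁ y0 y1 m ht₁ hm₁) (cr37_low A₂ B₂ C₂ y0 y1 m ht₂ hm₂)
    huwβ (hKdet u w hu hw)
  rw [div_mul_eq_mul_div, le_div_iff₀ (by positivity)]
  linarith

end Fermat.Agent.S41
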