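/-
S41 / (b') duality, second route (crossing pairing), ABSTRACT layer.

`ι : Γ →* 𝔾` a group hom, `σ : 𝔾 → ℤ` a function such that any two left translates of `σ`
differ only at finitely many points of `Γ` (`cr37_Fin`).  Then
`cr37_D ι σ k₁ k₂ = ∑ᶠ g : Γ, (σ (k₁ * ι g) - σ (k₂ * ι g))` is a "difference of potentials" and
`cr37_X ι σ k η = cr37_D ι σ k (k * (ι η)⁻¹)` is a homomorphism in `η`, independent of `k`.
-/
import Mathlib

set_option autoImplicit false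

namespace Fermat.Agent.S41

section abs

variable {Γ 𝔾 : Type*} [Group Γ] [Group 𝔾]

/-- Any two left translates of `σ` differ at finitely many points of `Γ`. -/
def cr37_Fin (ι : Γ →* 𝔾) (σ : 𝔾 → ℤ) : Prop :=
  ∀ k₁ k₂ : 𝔾, {g : Γ | σ (k₁ * ι g) ≠ σ (k₂ * ι g)}.Finite

/-- The (finite) sum of the differences of two translates. -/
noncomputable def cr37_D (ι : Γ →* 𝔾) (σ : 𝔾 → ℤ) (k₁ k₂ : 𝔾) : ℤ :=
  ∑ᶠ g : Γ, (σ (k₁ * ι g) - σ (k₂ * ι g))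

/-- The crossing sum. -/
noncomputable def cr37_X (ι : Γ →* 𝔾) (σ : 𝔾 → ℤ) (k : 𝔾) (η : Γ) : ℤ :=
  cr37_D ι σ k (k * (ι η)⁻¹)

theorem cr37_support_finite {ι : Γ →* 𝔾} {σ : 𝔾 → ℤ} (h : cr37_Fin ι σ) (k₁ k₂ : 𝔾) :
    (Function.support fun g : Γ => σ (k₁ * ι g) - σ (k₂ * ι g)).Finite := by
  refine (h k₁ k₂).subset ?_
  intro g hg
  simp only [Function.mem_support, ne_eq, sub_eq_zero] at hg
  exact hg

theorem cr37_D_self (ι : Γ →* 𝔾) (σ : 𝔾 → ℤ) (k : 𝔾) : cr37_D ι σ k k = 0 := by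
  simp [cr37_D]

theorem cr37_D_add {ι : Γ →* 𝔾} {σ : 𝔾 → ℤ} (h : cr37_Fin ι σ) (k₁ k₂ k₃ : 𝔾) :
    cr37_D ι σ k₁ k₂ + cr37_D ι σ k₂ k₃ = cr37_D ι σ k₁ k₃ := by
  unfold cr37_D
  rw [← finsum_add_distrib (cr37_support_finite h k₁ k₂) (cr37_support_finite h k₂ k₃)]
  exact finsum_congr fun g => by ring

theorem cr37_D_swap {ι : Γ →* 𝔾} {σ : 𝔾 → ℤ} (h : cr37_Fin ι σ) (k₁ k₂ : 𝔾) :
    cr37_D ι σ k₂ k₁ = - cr37_D ι σ k₁ k₂ := by
  have := cr37_D_add h k₁ k₂ k₁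
  rw [cr37_D_self] at this
  linarith

/-- Right translation by an element of `Γ` does not change `cr37_D`. -/
theorem cr37_D_mul_right (ι : Γ →* 𝔾) (σ : 𝔾 → ℤ) (k₁ k₂ : 𝔾) (η : Γ) :
    cr37_D ι σ (k₁ * ι η) (k₂ * ι η) = cr37_D ι σ k₁ k₂ := by
  unfold cr37_D
  rw [← finsum_comp_equiv (Equiv.mulLeft η)
    (f := fun g : Γ => σ (k₁ * ι g) - σ (k₂ * ι g))]
  exact finsum_congr fun g => by simp [mul_assoc]

/-- `cr37_X` is additive in `η`. -/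
theorem cr37_X_mul {ι : Γ →* 𝔾} {σ : 𝔾 → ℤ} (h : cr37_Fin ι σ) (k : 𝔾) (η₁ η₂ : Γ) :
    cr37_X ι σ k (η₁ * η₂) = cr37_X ι σ k η₁ + cr37_X ι σ k η₂ := by
  unfold cr37_X
  rw [← cr37_D_add h k (k * (ι η₁)⁻¹) (k * (ι (η₁ * η₂))⁻¹)]
  congr 1
  have := cr37_D_mul_right ι σ k (k * (ι η₂)⁻¹) η₁⁻¹
  rw [← this]
  simp [mul_assoc]

theorem cr37_X_one (ι : Γ →* 𝔾) (σ : 𝔾 → ℤ) (k : 𝔾) : cr37_X ι σ k 1 = 0 := by
  simp [cr37_X, cr37_D_self]

/-- `cr37_X` does not depend on the base point `k`. -/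
theorem cr37_X_base {ι : Γ →* 𝔾} {σ : 𝔾 → ℤ} (h : cr37_Fin ι σ) (k k' : 𝔾) (η : Γ) :
    cr37_X ι σ k η = cr37_X ι σ k' η := by
  unfold cr37_X
  have h1 := cr37_D_add h k k' (k * (ι η)⁻¹)
  have h2 := cr37_D_add h k' (k' * (ι η)⁻¹) (k * (ι η)⁻¹)
  have h3 := cr37_D_mul_right ι σ k' k η⁻¹
  have h4 := cr37_D_swap h k k'
  simp only [map_inv] at h3
  linarith

/-- `cr37_X` as a homomorphism. -/
noncomputable def cr37_Xhom {ι : Γ →* 𝔾} {σ : 𝔾 → ℤ} (h : cr37_Fin ι σ) (k : 𝔾) :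
    Γ →* Multiplicative ℤ where
  toFun η := Multiplicative.ofAdd (cr37_X ι σ k η)
  map_one' := by simp [cr37_X_one]
  map_mul' η₁ η₂ := by rw [cr37_X_mul h, ofAdd_add]

/-! ### Additivity in `σ`, constants, finitely supported perturbations -/

theorem cr37_Fin_add {ι : Γ →* 𝔾} {σ₁ σ₂ : 𝔾 → ℤ} (h₁ : cr37_Fin ι σ₁) (h₂ : cr37_Fin ι σ₂) :
    cr37_Fin ι (fun x => σ₁ x + σ₂ x) := by
  intro k₁ k₂
  refine ((h₁ k₁ k₂).union (h₂ k₁ k₂)).subset ?_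
  intro g hg
  simp only [Set.mem_ofPred_eq] at hg
  by_contra hcon
  simp only [Set.mem_union, Set.mem_ofPred_eq, not_or, not_not] at hcon
  exact hg (by rw [hcon.1, hcon.2])

theorem cr37_D_add_fun {ι : Γ →* 𝔾} {σ₁ σ₂ : 𝔾 → ℤ} (h₁ : cr37_Fin ι σ₁) (h₂ : cr37_Fin ι σ₂)
    (k₁ k₂ : 𝔾) :
    cr37_D ι (fun x => σ₁ x + σ₂ x) k₁ k₂ = cr37_D ι σ₁ k₁ k₂ + cr37_D ι σ₂ k₁ k₂ := by
  unfold cr37_D
  rw [← finsum_add_distrib (cr37_support_finite h₁ k₁ k₂) (cr37_support_finite h₂ k₁ k₂)]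
  exact finsum_congr fun g => by ring

theorem cr37_X_add_fun {ι : Γ →* 𝔾} {σ₁ σ₂ : 𝔾 → ℤ} (h₁ : cr37_Fin ι σ₁) (h₂ : cr37_Fin ι σ₂)
    (k : 𝔾) (η : Γ) :
    cr37_X ι (fun x => σ₁ x + σ₂ x) k η = cr37_X ι σ₁ k η + cr37_X ι σ₂ k η :=
  cr37_D_add_fun h₁ h₂ _ _

theorem cr37_D_neg_fun (ι : Γ →* 𝔾) (σ : 𝔾 → ℤ) (k₁ k₂ : 𝔾) :
    cr37_D ι (fun x => - σ x) k₁ k₂ = - cr37_D ι σ k₁ k₂ := by
  unfold cr37_D
  rw [← finsum_neg_distrib]
  exact finsum_congr fun g => by ring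

theorem cr37_X_neg_fun (ι : Γ →* 𝔾) (σ : 𝔾 → ℤ) (k : 𝔾) (η : Γ) :
    cr37_X ι (fun x => - σ x) k η = - cr37_X ι σ k η :=
  cr37_D_neg_fun ι σ _ _

theorem cr37_D_congr (ι : Γ →* 𝔾) {σ₁ σ₂ : 𝔾 → ℤ} (h : ∀ x, σ₁ x = σ₂ x) (k₁ k₂ : 𝔾) :
    cr37_D ι σ₁ k₁ k₂ = cr37_D ι σ₂ k₁ k₂ := by
  have : σ₁ = σ₂ := funext h
  rw [this]

/-- If `τ` equals a constant `c` outside a set meeting every translate of `Γ` in a finite set,
its crossing sum vanishes. -/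
theorem cr37_X_eq_zero_of_finite (ι : Γ →* 𝔾) (τ : 𝔾 → ℤ) (c : ℤ)
    (hfin : ∀ k : 𝔾, {g : Γ | τ (k * ι g) ≠ c}.Finite) (k : 𝔾) (η : Γ) :
    cr37_X ι τ k η = 0 := by
  have hsupp : ∀ k : 𝔾, (Function.support fun g : Γ => τ (k * ι g) - c).Finite := by
    intro k
    refine (hfin k).subset ?_
    intro g hg
    simp only [Function.mem_support, ne_eq, sub_eq_zero] at hg
    exact hg
  have hD : ∀ k₁ k₂ : 𝔾, cr37_D ι τ k₁ k₂
      = (∑ᶠ g : Γ, (τ (k₁ * ι g) - c)) - ∑ᶠ g : Γ, (τ (k₂ * ι g) - c) := by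
    intro k₁ k₂
    unfold cr37_D
    rw [← finsum_sub_distrib (hsupp k₁) (hsupp k₂)]
    exact finsum_congr fun g => by ring
  unfold cr37_X
  rw [hD]
  have : (∑ᶠ g : Γ, (τ (k * (ι η)⁻¹ * ι g) - c)) = ∑ᶠ g : Γ, (τ (k * ι g) - c) := by
    rw [← finsum_comp_equiv (Equiv.mulLeft η⁻¹) (f := fun g : Γ => τ (k * ι g) - c)]
    exact finsum_congr fun g => by simp [mul_assoc]
  rw [this, sub_self]

/-! ### Right translation of `σ` by elements of `Γ` -/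

theorem cr37_D_translate (ι : Γ →* 𝔾) (σ : 𝔾 → ℤ) (r : Γ) (k₁ k₂ : 𝔾) :
    cr37_D ι (fun x => σ (x * ι r)) k₁ k₂ = cr37_D ι σ k₁ k₂ := by
  unfold cr37_D
  rw [← finsum_comp_equiv (Equiv.mulRight r)
    (f := fun g : Γ => σ (k₁ * ι g) - σ (k₂ * ι g))]
  exact finsum_congr fun g => by simp [mul_assoc]

/-- The crossing sum of the translate `σ (· * ι r)` (`r ∈ Γ`) equals that of `σ`
(`Γ`-invariance of the pairing in the symbol). -/
theorem cr37_X_translate (ι : Γ →* 𝔾) (σ : 𝔾 → ℤ) (r : Γ) (k : 𝔾) (η : Γ) :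
    cr37_X ι (fun x => σ (x * ι r)) k η = cr37_X ι σ k η :=
  cr37_D_translate ι σ r _ _

theorem cr37_Fin_translate {ι : Γ →* 𝔾} {σ : 𝔾 → ℤ} (h : cr37_Fin ι σ) (r : Γ) :
    cr37_Fin ι (fun x => σ (x * ι r)) := by
  intro k₁ k₂
  have := (h k₁ k₂).preimage (f := fun g : Γ => g * r) (fun a _ b _ hab => mul_right_cancel hab)
  refine this.subset ?_
  intro g hg
  simp only [Set.mem_ofPred_eq] at hg
  simp only [Set.mem_preimage, Set.mem_ofPred_eq, map_mul]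
  simpa [mul_assoc] using hg

/-! ### Subgroups: decomposition along transversals, restriction and transfer -/

section sub

variable (H : Subgroup Γ)

theorem cr37_Fin_subgroup {ι : Γ →* 𝔾} {σ : 𝔾 → ℤ} (h : cr37_Fin ι σ) :
    cr37_Fin (ι.comp H.subtype) σ := by
  intro k₁ k₂
  have := (h k₁ k₂).preimage (f := fun g : H => (g : Γ)) (fun a _ b _ hab => Subtype.ext hab)
  refine this.subset ?_
  intro g hg
  simpa using hg

/-- A finite-support `finsum` over `Γ` computed along a bijection `κ × H ≃ Γ`. -/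
theorem cr37_finsum_transversal {κ : Type*} [Fintype κ] (e : H × κ → Γ)
    (hbij : Function.Bijective e) (F : Γ → ℤ) (hF : (Function.support F).Finite) :
    ∑ᶠ g : Γ, F g = ∑ i, ∑ᶠ h : H, F (e (h, i)) := by
  classical
  let E : κ × H ≃ Γ := (Equiv.prodComm κ H).trans (Equiv.ofBijective e hbij)
  have hE : ∀ p : κ × H, E p = e (p.2, p.1) := fun p => rfl
  rw [← finsum_comp_equiv E (f := F)]
  have hsupp : (Function.support fun p : κ × H => F (E p)).Finite :=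
    hF.preimage (f := fun p : κ × H => E p) (fun a _ b _ hab => E.injective hab)
  rw [finsum_curry _ hsupp, finsum_eq_sum_of_fintype]
  rfl

/-- Decomposition along a RIGHT transversal `ρ` of `H` in `Γ` (every `g` is uniquely `h * ρ i`). -/
theorem cr37_D_right_transversal {ι : Γ →* 𝔾} {σ : 𝔾 → ℤ} (h : cr37_Fin ι σ)
    {κ : Type*} [Fintype κ] (ρ : κ → Γ)
    (hbij : Function.Bijective fun p : H × κ => (p.1 : Γ) * ρ p.2) (k₁ k₂ : 𝔾) :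
    cr37_D ι σ k₁ k₂
      = ∑ i, cr37_D (ι.comp H.subtype) (fun x => σ (x * ι (ρ i))) k₁ k₂ := by
  unfold cr37_D
  rw [cr37_finsum_transversal H _ hbij _ (cr37_support_finite h k₁ k₂)]
  refine Finset.sum_congr rfl fun i _ => finsum_congr fun g => ?_
  simp [mul_assoc]

/-- Decomposition along a LEFT transversal `ρ` of `H` in `Γ` (every `g` is uniquely `ρ i * h`). -/
theorem cr37_D_left_transversal {ι : Γ →* 𝔾} {σ : 𝔾 → ℤ} (h : cr37_Fin ι σ)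
    {κ : Type*} [Fintype κ] (ρ : κ → Γ)
    (hbij : Function.Bijective fun p : H × κ => ρ p.2 * (p.1 : Γ)) (k₁ k₂ : 𝔾) :
    cr37_D ι σ k₁ k₂
      = ∑ i, cr37_D (ι.comp H.subtype) σ (k₁ * ι (ρ i)) (k₂ * ι (ρ i)) := by
  unfold cr37_D
  rw [cr37_finsum_transversal H _ hbij _ (cr37_support_finite h k₁ k₂)]
  refine Finset.sum_congr rfl fun i _ => finsum_congr fun g => ?_
  simp [mul_assoc]

/-- **Restriction / Verlagerung of symbols.** For `η ∈ H` and a right transversal `ρ`: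
the crossing sum of `σ` over `Γ` is the sum over the transversal of the crossing sums over `H`
of the translates `σ (· * ι (ρ i))`. -/
theorem cr37_X_res {ι : Γ →* 𝔾} {σ : 𝔾 → ℤ} (h : cr37_Fin ι σ)
    {κ : Type*} [Fintype κ] (ρ : κ → Γ)
    (hbij : Function.Bijective fun p : H × κ => (p.1 : Γ) * ρ p.2) (k : 𝔾) (η : H) :
    cr37_X ι σ k (η : Γ)
      = ∑ i, cr37_X (ι.comp H.subtype) (fun x => σ (x * ι (ρ i))) k η := by
  unfold cr37_X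
  rw [cr37_D_right_transversal H h ρ hbij]
  rfl

/-- **Transfer.** For `η ∈ Γ`, a left transversal `ρ`, a permutation `π` and `t i ∈ H` with
`η * ρ (π i) = ρ i * t i`: the crossing sum over `Γ` at `η` is the sum of the crossing sums
over `H` at the `t i` (i.e. at the transfer of `η`). -/
theorem cr37_X_transfer {ι : Γ →* 𝔾} {σ : 𝔾 → ℤ} (h : cr37_Fin ι σ)
    {κ : Type*} [Fintype κ] (ρ : κ → Γ)
    (hbij : Function.Bijective fun p : H × κ => ρ p.2 * (p.1 : Γ)) (k : 𝔾) (η : Γ)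
    (π : κ ≃ κ) (t : κ → H) (ht : ∀ i, η * ρ (π i) = ρ i * (t i : Γ)) :
    cr37_X ι σ k η = ∑ i, cr37_X (ι.comp H.subtype) σ k (t i) := by
  have hH := cr37_Fin_subgroup H h
  unfold cr37_X
  rw [cr37_D_left_transversal H h ρ hbij]
  have key : ∀ i, cr37_D (ι.comp H.subtype) σ (k * ι (ρ i)) (k * (ι η)⁻¹ * ι (ρ i))
      = (cr37_D (ι.comp H.subtype) σ (k * ι (ρ i)) k
          - cr37_D (ι.comp H.subtype) σ (k * ι (ρ (π i))) k)
        + cr37_X (ι.comp H.subtype) σ k (t i) := by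
    intro i
    have e1 : k * (ι η)⁻¹ * ι (ρ i) = k * ι (ρ (π i)) * ((ι.comp H.subtype) (t i))⁻¹ := by
      have h2 := congrArg ι (ht i)
      simp only [map_mul] at h2
      have h3 : (ι η)⁻¹ * ι (ρ i) = ι (ρ (π i)) * (ι (t i : Γ))⁻¹ := by
        rw [inv_mul_eq_iff_eq_mul, ← mul_assoc, h2, mul_assoc, mul_inv_cancel, mul_one]
      rw [mul_assoc, h3, mul_assoc]
      rfl
    rw [e1]
    have a1 := cr37_D_add hH (k * ι (ρ i)) (k * ι (ρ (π i)))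
      (k * ι (ρ (π i)) * ((ι.comp H.subtype) (t i))⁻¹)
    have a2 := cr37_D_add hH (k * ι (ρ i)) k (k * ι (ρ (π i)))
    have a3 := cr37_D_swap hH (k * ι (ρ (π i))) k
    have a4 := cr37_X_base hH (k * ι (ρ (π i))) k (t i)
    unfold cr37_X at a4 ⊢
    linarith
  rw [Finset.sum_congr rfl fun i _ => key i, Finset.sum_add_distrib, Finset.sum_sub_distrib]
  have hperm : ∑ i, cr37_D (ι.comp H.subtype) σ (k * ι (ρ (π i))) k
      = ∑ i, cr37_D (ι.comp H.subtype) σ (k * ι (ρ i)) k :=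
    Equiv.sum_comp π (fun i => cr37_D (ι.comp H.subtype) σ (k * ι (ρ i)) k)
  rw [hperm, sub_self, zero_add]
  rfl

end sub

/-! ### Conjugation -/

/-- **Conjugation.** `Γ'` another group with `ι' : Γ' →* 𝔾`, `c : Γ ≃* Γ'` and `d : 𝔾` with
`ι' (c γ) * d = d * ι γ` (i.e. `ι' ∘ c = d ι d⁻¹`).  Then the crossing sum over `Γ'` of the right
translate `σ (· * d)` at `c η` equals the crossing sum over `Γ` of `σ` at `η` (base `k * d`). -/
theorem cr37_X_conj {Γ' : Type*} [Group Γ'] (ι : Γ →* 𝔾) (ι' : Γ' →* 𝔾) (c : Γ ≃* Γ') (d : 𝔾)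
    (hc : ∀ γ : Γ, ι' (c γ) * d = d * ι γ) (σ : 𝔾 → ℤ) (k : 𝔾) (η : Γ) :
    cr37_X ι' (fun x => σ (x * d)) k (c η) = cr37_X ι σ (k * d) η := by
  have hD : ∀ k₁ k₂ : 𝔾, cr37_D ι' (fun x => σ (x * d)) k₁ k₂ = cr37_D ι σ (k₁ * d) (k₂ * d) := by
    intro k₁ k₂
    unfold cr37_D
    rw [← finsum_comp_equiv c.toEquiv
      (f := fun g : Γ' => σ (k₁ * ι' g * d) - σ (k₂ * ι' g * d))]
    refine finsum_congr fun g => ?_
    simp only [MulEquiv.toEquiv_eq_coe, EquivLike.coe_coe]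
    rw [mul_assoc k₁, mul_assoc k₂, hc g, ← mul_assoc, ← mul_assoc]
  unfold cr37_X
  rw [hD]
  congr 1
  have h1 : (ι' (c η))⁻¹ * d = d * (ι η)⁻¹ := by
    rw [inv_mul_eq_iff_eq_mul, ← mul_assoc, hc η, mul_assoc, mul_inv_cancel, mul_one]
  rw [mul_assoc, h1, mul_assoc]

theorem cr37_Fin_conj {Γ' : Type*} [Group Γ'] {ι : Γ →* 𝔾} (ι' : Γ' →* 𝔾) (c : Γ ≃* Γ') (d : 𝔾)
    (hc : ∀ γ : Γ, ι' (c γ) * d = d * ι γ) {σ : 𝔾 → ℤ} (h : cr37_Fin ι σ) :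
    cr37_Fin ι' (fun x => σ (x * d)) := by
  intro k₁ k₂
  have := (h (k₁ * d) (k₂ * d)).preimage (f := fun g : Γ' => c.symm g)
    (fun a _ b _ hab => c.symm.injective hab)
  refine this.subset ?_
  intro g hg
  simp only [Set.mem_ofPred_eq] at hg
  simp only [Set.mem_preimage, Set.mem_ofPred_eq]
  have h2 := hc (c.symm g)
  rw [MulEquiv.apply_symm_apply] at h2
  rw [mul_assoc k₁, mul_assoc k₂, ← h2, ← mul_assoc, ← mul_assoc]
  exact hg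

end abs

end Fermat.Agent.S41
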