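/-
S41 / (b') duality, second route (crossing pairing): FINITENESS and the TRIANGLE relation.

* `cr37_fin a b` : `cr37_Fin (mapGL ℚ : SL(2, ℤ) →* GL (Fin 2) ℚ) (cr37_sig a b)`: any two left
  translates of the side function of a geodesic differ at finitely many points of `SL(2, ℤ)`.
* `cr37_tri_fin` : for `a + b + c = 0` the sum of the three side functions is constant outside
  a set which meets every translate of `SL(2, ℤ)` in a finite set.
-/
import Mathlib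
import Fermat.Agent.S41.Cross37

set_option autoImplicit false

namespace Fermat.Agent.S41

open Matrix MatrixGroups

/-! ### Gram coefficients of the translated form -/

theorem cr37_B_mulVec (M : Matrix (Fin 2) (Fin 2) ℚ) (x y : Fin 2 → ℚ) :
    cr37_B (M *ᵥ x) (M *ᵥ y)
      = (2 * (M 0 0 ^ 2 + M 0 0 * M 1 0 + M 1 0 ^ 2)) * x 0 * y 0
        + (2 * M 0 0 * M 0 1 + M 0 0 * M 1 1 + M 0 1 * M 1 0 + 2 * M 1 0 * M 1 1)
          * (x 0 * y 1 + x 1 * y 0)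
        + (2 * (M 0 1 ^ 2 + M 0 1 * M 1 1 + M 1 1 ^ 2)) * x 1 * y 1 := by
  unfold cr37_B
  rw [cr37_mulVec0, cr37_mulVec1, cr37_mulVec0, cr37_mulVec1]
  ring

theorem cr37_form_pos (M : Matrix (Fin 2) (Fin 2) ℚ) (hM : M.det ≠ 0) :
    0 < 2 * (M 0 0 ^ 2 + M 0 0 * M 1 0 + M 1 0 ^ 2) ∧
    0 < (2 * (M 0 0 ^ 2 + M 0 0 * M 1 0 + M 1 0 ^ 2))
        * (2 * (M 0 1 ^ 2 + M 0 1 * M 1 1 + M 1 1 ^ 2))
      - (2 * M 0 0 * M 0 1 + M 0 0 * M 1 1 + M 0 1 * M 1 0 + 2 * M 1 0 * M 1 1) ^ 2 := by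
  rw [Matrix.det_fin_two] at hM
  constructor
  · by_contra h
    rw [not_lt] at h
    have h1 : M 1 0 = 0 := by
      nlinarith [sq_nonneg (2 * M 0 0 + M 1 0), sq_nonneg (M 1 0)]
    have h2 : M 0 0 = 0 := by
      rw [h1] at h
      nlinarith [sq_nonneg (M 0 0)]
    apply hM
    rw [h1, h2]
    ring
  · have e : (2 * (M 0 0 ^ 2 + M 0 0 * M 1 0 + M 1 0 ^ 2))
        * (2 * (M 0 1 ^ 2 + M 0 1 * M 1 1 + M 1 1 ^ 2))
      - (2 * M 0 0 * M 0 1 + M 0 0 * M 1 1 + M 0 1 * M 1 0 + 2 * M 1 0 * M 1 1) ^ 2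
        = 3 * (M 0 0 * M 1 1 - M 0 1 * M 1 0) ^ 2 := by ring
    rw [e]
    have := sq_pos_iff.mpr hM
    positivity

/-! ### Integer vectors -/

/-- the cast of an integer vector -/
def cr37_cast (x : Fin 2 → ℤ) : Fin 2 → ℚ := fun i => (x i : ℚ)

/-- the integer norm form -/
def cr37_N (x : Fin 2 → ℤ) : ℤ := x 0 ^ 2 + x 1 ^ 2

theorem cr37_mapGL_mulVec (g : SL(2, ℤ)) (a : Fin 2 → ℤ) :
    (Matrix.SpecialLinearGroup.mapGL ℚ g).1 *ᵥ cr37_cast a = cr37_cast (g.1 *ᵥ a) := by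
  have h : ((Matrix.SpecialLinearGroup.mapGL ℚ g : GL (Fin 2) ℚ) : Matrix (Fin 2) (Fin 2) ℚ)
      = g.1.map (algebraMap ℤ ℚ) := Matrix.SpecialLinearGroup.mapGL_coe_matrix g
  show ((Matrix.SpecialLinearGroup.mapGL ℚ g : GL (Fin 2) ℚ) : Matrix (Fin 2) (Fin 2) ℚ)
    *ᵥ cr37_cast a = _
  rw [h]
  ext i
  simp [cr37_cast, Matrix.mulVec, dotProduct, Fin.sum_univ_two]

theorem cr37_mul_mapGL_mulVec (k : GL (Fin 2) ℚ) (g : SL(2, ℤ)) (a : Fin 2 → ℤ) :
    (k * Matrix.SpecialLinearGroup.mapGL ℚ g).1 *ᵥ cr37_cast a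
      = k.1 *ᵥ cr37_cast (g.1 *ᵥ a) := by
  rw [Units.val_mul, ← Matrix.mulVec_mulVec, cr37_mapGL_mulVec]

theorem cr37_dt_cast (x y : Fin 2 → ℤ) :
    cr37_dt (cr37_cast x) (cr37_cast y) = ((x 0 * y 1 - x 1 * y 0 : ℤ) : ℚ) := by
  simp [cr37_dt, cr37_cast]

theorem cr37_dt_sl (g : SL(2, ℤ)) (x y : Fin 2 → ℤ) :
    (g.1 *ᵥ x) 0 * (g.1 *ᵥ y) 1 - (g.1 *ᵥ x) 1 * (g.1 *ᵥ y) 0 = x 0 * y 1 - x 1 * y 0 := by
  have hdet := g.2
  rw [Matrix.det_fin_two] at hdet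
  simp only [Matrix.mulVec, dotProduct, Fin.sum_univ_two]
  linear_combination (x 0 * y 1 - x 1 * y 0) * hdet

theorem cr37_N_pos (x y : Fin 2 → ℤ) (hD : x 0 * y 1 - x 1 * y 0 ≠ 0) : 1 ≤ cr37_N x := by
  unfold cr37_N
  by_contra h
  rw [not_le] at h
  have h0 : x 0 = 0 := by nlinarith [sq_nonneg (x 0), sq_nonneg (x 1)]
  have h1 : x 1 = 0 := by nlinarith [sq_nonneg (x 0), sq_nonneg (x 1)]
  apply hD
  rw [h0, h1]
  ring

theorem cr37_N_pos' (x y : Fin 2 → ℤ) (hD : x 0 * y 1 - x 1 * y 0 ≠ 0) : 1 ≤ cr37_N y := by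
  refine cr37_N_pos y x ?_
  intro h
  apply hD
  linear_combination -h

theorem cr37_N_cast (x : Fin 2 → ℤ) :
    (cr37_cast x 0) ^ 2 + (cr37_cast x 1) ^ 2 = ((cr37_N x : ℤ) : ℚ) := by
  simp [cr37_N, cr37_cast]

/-- boundedly many `g` move two independent integer vectors into a box. -/
theorem cr37_finite_box (a b : Fin 2 → ℤ) (hD : a 0 * b 1 - a 1 * b 0 ≠ 0) (K : ℤ) :
    {g : SL(2, ℤ) | cr37_N (g.1 *ᵥ a) ≤ K ∧ cr37_N (g.1 *ᵥ b) ≤ K}.Finite := by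
  let Ψ : SL(2, ℤ) → (Fin 2 → ℤ) × (Fin 2 → ℤ) := fun g => (g.1 *ᵥ a, g.1 *ᵥ b)
  have hΨ : Function.Injective Ψ := by
    intro g g' h
    have h1 : g.1 *ᵥ a = g'.1 *ᵥ a := congrArg Prod.fst h
    have h2 : g.1 *ᵥ b = g'.1 *ᵥ b := congrArg Prod.snd h
    apply Subtype.ext
    ext i j
    have e1 := congrFun h1 i
    have e2 := congrFun h2 i
    simp only [Matrix.mulVec, dotProduct, Fin.sum_univ_two] at e1 e2
    have k0 : (g.1 i 0 - g'.1 i 0) * (a 0 * b 1 - a 1 * b 0) = 0 := by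
      linear_combination b 1 * e1 - a 1 * e2
    have k1 : (g.1 i 1 - g'.1 i 1) * (a 0 * b 1 - a 1 * b 0) = 0 := by
      linear_combination a 0 * e2 - b 0 * e1
    fin_cases j
    · exact sub_eq_zero.mp ((mul_eq_zero.mp k0).resolve_right hD)
    · exact sub_eq_zero.mp ((mul_eq_zero.mp k1).resolve_right hD)
  have hbox1 : (Set.Icc (fun _ => -K : Fin 2 → ℤ) (fun _ => K)).Finite := Set.finite_Icc _ _
  have hbox : ((Set.Icc (fun _ => -K : Fin 2 → ℤ) (fun _ => K)) ×ˢ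
      (Set.Icc (fun _ => -K : Fin 2 → ℤ) (fun _ => K))).Finite := hbox1.prod hbox1
  refine (hbox.preimage hΨ.injOn).subset ?_
  rintro g ⟨h1, h2⟩
  have key : ∀ x : Fin 2 → ℤ, cr37_N x ≤ K → ∀ i, -K ≤ x i ∧ x i ≤ K := by
    intro x hx i
    unfold cr37_N at hx
    have hi : x i ^ 2 ≤ K := by
      fin_cases i
      · show x 0 ^ 2 ≤ K
        nlinarith [sq_nonneg (x 1)]
      · show x 1 ^ 2 ≤ K
        nlinarith [sq_nonneg (x 0)]
    constructor
    · by_contra hc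
      rw [not_le] at hc
      nlinarith
    · by_contra hc
      rw [not_le] at hc
      nlinarith
  simp only [Set.mem_preimage, Set.mem_prod, Set.mem_Icc]
  exact ⟨⟨fun i => (key _ h1 i).1, fun i => (key _ h1 i).2⟩,
    ⟨fun i => (key _ h2 i).1, fun i => (key _ h2 i).2⟩⟩

/-! ### (C1) finiteness -/

/-- the value of the side function at `k * g` in terms of the integer vectors `g a`, `g b`. -/
theorem cr37_sig_int (a b : Fin 2 → ℤ) (k : GL (Fin 2) ℚ) (g : SL(2, ℤ)) :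
    cr37_sig (cr37_cast a) (cr37_cast b) (k * Matrix.SpecialLinearGroup.mapGL ℚ g)
      = ((SignType.sign (cr37_B (k.1 *ᵥ cr37_cast (g.1 *ᵥ a)) (k.1 *ᵥ cr37_cast (g.1 *ᵥ b))
          * cr37_dt (cr37_cast a) (cr37_cast b)) : SignType) : ℤ) := by
  unfold cr37_sig
  rw [cr37_mul_mapGL_mulVec, cr37_mul_mapGL_mulVec]

/-- the signs of `β₁ D`, `β₂ D` differ only if `β₁ β₂ ≤ 0`. -/
theorem cr37_sign_ne (β₁ β₂ D : ℚ)
    (h : ((SignType.sign (β₁ * D) : SignType) : ℤ) ≠ ((SignType.sign (β₂ * D) : SignType) : ℤ)) :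
    β₁ * β₂ ≤ 0 := by
  by_contra hcon
  rw [not_le] at hcon
  apply h
  rcases lt_trichotomy β₁ 0 with h1 | h1 | h1
  · have h2 : β₂ < 0 := by
      by_contra h2
      rw [not_lt] at h2
      have := mul_nonpos_of_nonpos_of_nonneg h1.le h2
      linarith
    rw [sign_mul, sign_mul, sign_neg h1, sign_neg h2]
  · rw [h1, zero_mul] at hcon
    exact absurd hcon (lt_irrefl 0)
  · have h2 : 0 < β₂ := by
      by_contra h2
      rw [not_lt] at h2
      have := mul_nonpos_of_nonneg_of_nonpos h1.le h2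
      linarith
    rw [sign_mul, sign_mul, sign_pos h1, sign_pos h2]

theorem cr37_dt_cast_sl (g : SL(2, ℤ)) (a b : Fin 2 → ℤ) :
    cr37_cast (g.1 *ᵥ a) 0 * cr37_cast (g.1 *ᵥ b) 1
      - cr37_cast (g.1 *ᵥ a) 1 * cr37_cast (g.1 *ᵥ b) 0
      = ((a 0 * b 1 - a 1 * b 0 : ℤ) : ℚ) := by
  have := cr37_dt_sl g a b
  simp only [cr37_cast]
  exact_mod_cast this

theorem cr37_fin_int (a b : Fin 2 → ℤ) :
    cr37_Fin (Matrix.SpecialLinearGroup.mapGL ℚ : SL(2, ℤ) →* GL (Fin 2) ℚ)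
      (cr37_sig (cr37_cast a) (cr37_cast b)) := by
  intro k₁ k₂
  by_cases hD : a 0 * b 1 - a 1 * b 0 = 0
  · have hD' : cr37_dt (cr37_cast a) (cr37_cast b) = 0 := by
      rw [cr37_dt_cast, hD]
      simp
    convert Set.finite_empty
    ext g
    simp [cr37_sig_of_dt_eq_zero _ _ hD']
  · have hk₁ : k₁.1.det ≠ 0 := Matrix.GeneralLinearGroup.det_ne_zero k₁
    have hk₂ : k₂.1.det ≠ 0 := Matrix.GeneralLinearGroup.det_ne_zero k₂
    obtain ⟨hA₁, hd₁⟩ := cr37_form_pos k₁.1 hk₁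
    obtain ⟨hA₂, hd₂⟩ := cr37_form_pos k₂.1 hk₂
    obtain ⟨R, hR, hRR⟩ := cr37_two_forms _ _ _ _ _ _ hA₁ hd₁ hA₂ hd₂
    obtain ⟨K, hK⟩ : ∃ K : ℤ, R * ((a 0 * b 1 - a 1 * b 0 : ℤ) : ℚ) ^ 2 ≤ (K : ℚ) := by
      obtain ⟨n, hn⟩ := exists_nat_ge (R * ((a 0 * b 1 - a 1 * b 0 : ℤ) : ℚ) ^ 2)
      exact ⟨n, by exact_mod_cast hn⟩
    refine (cr37_finite_box a b hD K).subset ?_
    intro g hg
    simp only [Set.mem_ofPred_eq] at hg
    rw [cr37_sig_int, cr37_sig_int] at hg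
    have hβ := cr37_sign_ne _ _ _ hg
    rw [cr37_B_mulVec, cr37_B_mulVec] at hβ
    have hle := hRR _ _ _ _ hβ
    rw [cr37_N_cast, cr37_N_cast, cr37_dt_cast_sl] at hle
    have hx := cr37_N_pos (g.1 *ᵥ a) (g.1 *ᵥ b) (by rw [cr37_dt_sl]; exact hD)
    have hy := cr37_N_pos' (g.1 *ᵥ a) (g.1 *ᵥ b) (by rw [cr37_dt_sl]; exact hD)
    have hxy : ((cr37_N (g.1 *ᵥ a) * cr37_N (g.1 *ᵥ b) : ℤ) : ℚ) ≤ (K : ℚ) := by
      push_cast
      linarith
    have hxy' : cr37_N (g.1 *ᵥ a) * cr37_N (g.1 *ᵥ b) ≤ K := by exact_mod_cast hxy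
    constructor <;> nlinarith

/-- clearing denominators of a rational vector -/
theorem cr37_exists_int (a : Fin 2 → ℚ) :
    ∃ (n : ℕ) (a' : Fin 2 → ℤ), n ≠ 0 ∧ (n : ℚ) • a = cr37_cast a' := by
  refine ⟨(a 0).den * (a 1).den, ![(a 0).num * (a 1).den, (a 1).num * (a 0).den],
    Nat.mul_ne_zero (a 0).den_nz (a 1).den_nz, ?_⟩
  have h0 := Rat.mul_den_eq_num (a 0)
  have h1 := Rat.mul_den_eq_num (a 1)
  ext i
  fin_cases i
  · simp only [cr37_cast, Pi.smul_apply, smul_eq_mul, Fin.zero_eta, Fin.isValue,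
      Matrix.cons_val_zero]
    push_cast
    rw [← h0]
    ring
  · simp only [cr37_cast, Pi.smul_apply, smul_eq_mul, Fin.mk_one, Fin.isValue,
      Matrix.cons_val_one]
    push_cast
    rw [← h1]
    ring

/-- clearing denominators of two rational vectors simultaneously -/
theorem cr37_exists_int2 (a b : Fin 2 → ℚ) :
    ∃ (n : ℕ) (a' b' : Fin 2 → ℤ), n ≠ 0 ∧ (n : ℚ) • a = cr37_cast a'
      ∧ (n : ℚ) • b = cr37_cast b' := by
  obtain ⟨n₁, a', hn₁, ha⟩ := cr37_exists_int a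
  obtain ⟨n₂, b', hn₂, hb⟩ := cr37_exists_int b
  refine ⟨n₁ * n₂, fun i => n₂ * a' i, fun i => n₁ * b' i, Nat.mul_ne_zero hn₁ hn₂, ?_, ?_⟩
  · ext i
    have := congrFun ha i
    simp only [cr37_cast, Pi.smul_apply, smul_eq_mul] at this ⊢
    push_cast
    rw [← this]
    ring
  · ext i
    have := congrFun hb i
    simp only [cr37_cast, Pi.smul_apply, smul_eq_mul] at this ⊢
    push_cast
    rw [← this]
    ring

/-- **(C1)** any two left translates of the side function of a geodesic differ at finitely many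
points of `SL(2, ℤ)`. -/
theorem cr37_fin (a b : Fin 2 → ℚ) :
    cr37_Fin (Matrix.SpecialLinearGroup.mapGL ℚ : SL(2, ℤ) →* GL (Fin 2) ℚ) (cr37_sig a b) := by
  obtain ⟨n, a', b', hn, ha, hb⟩ := cr37_exists_int2 a b
  have hn' : (n : ℚ) ≠ 0 := by exact_mod_cast hn
  have h := cr37_fin_int a' b'
  rw [← ha, ← hb] at h
  intro k₁ k₂
  have := h k₁ k₂
  simp only [cr37_sig_smul a b _ _ hn' hn'] at this
  exact this

/-! ### (C2) the triangle relation -/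

/-- the side function as a product of two signs -/
theorem cr37_sig_eq (a b : Fin 2 → ℚ) (h : GL (Fin 2) ℚ) :
    cr37_sig a b h = ((SignType.sign (cr37_B (h.1 *ᵥ a) (h.1 *ᵥ b)) : SignType) : ℤ)
      * ((SignType.sign (cr37_dt a b) : SignType) : ℤ) := by
  unfold cr37_sig
  rw [sign_mul, SignType.coe_mul]

theorem cr37_gram (X Y : Fin 2 → ℚ) :
    cr37_B X X * cr37_B Y Y - cr37_B X Y ^ 2 = 3 * cr37_dt X Y ^ 2 := by
  unfold cr37_B cr37_dt
  ring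

theorem cr37_B_tri (X Y : Fin 2 → ℚ) :
    cr37_B X X = - cr37_B X Y - cr37_B (-X - Y) X
    ∧ cr37_B Y Y = - cr37_B X Y - cr37_B Y (-X - Y)
    ∧ cr37_B (-X - Y) (-X - Y) = - cr37_B Y (-X - Y) - cr37_B (-X - Y) X := by
  unfold cr37_B
  simp only [Pi.sub_apply, Pi.neg_apply]
  refine ⟨by ring, by ring, by ring⟩

theorem cr37_tri_sign (u v w : ℚ) (h1 : u + v < 0) (h2 : v + w < 0) (h3 : w + u < 0)
    (h : ((SignType.sign u : SignType) : ℤ) + ((SignType.sign v : SignType) : ℤ)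
      + ((SignType.sign w : SignType) : ℤ) ≠ -1) : u ≤ 0 ∧ v ≤ 0 ∧ w ≤ 0 := by
  by_contra hc
  apply h
  by_cases hu : 0 < u
  · have hv : v < 0 := by linarith
    have hw : w < 0 := by linarith
    rw [sign_pos hu, sign_neg hv, sign_neg hw]
    simp
  · by_cases hv : 0 < v
    · have hu' : u < 0 := by linarith
      have hw : w < 0 := by linarith
      rw [sign_pos hv, sign_neg hu', sign_neg hw]
      simp
    · by_cases hw : 0 < w
      · have hu' : u < 0 := by linarith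
        have hv' : v < 0 := by linarith
        rw [sign_pos hw, sign_neg hu', sign_neg hv']
        simp
      · exact absurd ⟨not_lt.1 hu, not_lt.1 hv, not_lt.1 hw⟩ hc

theorem cr37_tri_core (bxy byz bzx mm E Nx Ny Nz : ℚ) (hmm : 0 < mm)
    (hx : mm * Nx ≤ -bxy - bzx) (hy : mm * Ny ≤ -bxy - byz) (hz : mm * Nz ≤ -byz - bzx)
    (h1x : 1 ≤ Nx) (h1y : 1 ≤ Ny) (h1z : 1 ≤ Nz)
    (hE : bxy * byz + byz * bzx + bzx * bxy = E)
    (hs : ((SignType.sign bxy : SignType) : ℤ) + ((SignType.sign byz : SignType) : ℤ)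
      + ((SignType.sign bzx : SignType) : ℤ) ≠ -1) :
    mm ^ 2 * Nx ≤ 2 * E ∧ mm ^ 2 * Ny ≤ 2 * E := by
  have e1 : mm ≤ mm * Nx := by nlinarith
  have e2 : mm ≤ mm * Ny := by nlinarith
  have e3 : mm ≤ mm * Nz := by nlinarith
  obtain ⟨hxy, hyz, hzx⟩ := cr37_tri_sign bxy byz bzx (by linarith) (by linarith) (by linarith) hs
  have p1 : 0 ≤ byz * bzx := mul_nonneg_of_nonpos_of_nonpos hyz hzx
  have p2 : 0 ≤ bzx * bxy := mul_nonneg_of_nonpos_of_nonpos hzx hxy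
  have p3 : 0 ≤ bxy * byz := mul_nonneg_of_nonpos_of_nonpos hxy hyz
  have hR : (-bxy) * mm ≤ E := by
    have : (-bxy) * mm ≤ (-bxy) * (-byz - bzx) :=
      mul_le_mul_of_nonneg_left (by linarith) (by linarith)
    nlinarith
  have hP : (-byz) * mm ≤ E := by
    have : (-byz) * mm ≤ (-byz) * (-bxy - bzx) :=
      mul_le_mul_of_nonneg_left (by linarith) (by linarith)
    nlinarith
  have hQ : (-bzx) * mm ≤ E := by
    have : (-bzx) * mm ≤ (-bzx) * (-bxy - byz) :=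
      mul_le_mul_of_nonneg_left (by linarith) (by linarith)
    nlinarith
  constructor
  · have : mm * (mm * Nx) ≤ mm * (-bxy - bzx) := mul_le_mul_of_nonneg_left hx hmm.le
    nlinarith
  · have : mm * (mm * Ny) ≤ mm * (-bxy - byz) := mul_le_mul_of_nonneg_left hy hmm.le
    nlinarith

theorem cr37_cast_neg_sub (u v : Fin 2 → ℤ) :
    cr37_cast (-u - v) = -cr37_cast u - cr37_cast v := by
  funext i
  simp [cr37_cast]

/-- **(C2), integral form.** For independent integer vectors `a`, `b` and `c = -a-b`, the sum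
of the three side functions equals the constant `- sign (det (a, b))` outside a set meeting
every translate of `SL(2, ℤ)` in a finite set. -/
theorem cr37_tri_int (a b : Fin 2 → ℤ) (hD : a 0 * b 1 - a 1 * b 0 ≠ 0) (k : GL (Fin 2) ℚ) :
    {g : SL(2, ℤ) |
      cr37_sig (cr37_cast a) (cr37_cast b) (k * Matrix.SpecialLinearGroup.mapGL ℚ g)
        + cr37_sig (cr37_cast b) (cr37_cast (-a - b)) (k * Matrix.SpecialLinearGroup.mapGL ℚ g)
        + cr37_sig (cr37_cast (-a - b)) (cr37_cast a) (k * Matrix.SpecialLinearGroup.mapGL ℚ g)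
      ≠ -((SignType.sign (cr37_dt (cr37_cast a) (cr37_cast b)) : SignType) : ℤ)}.Finite := by
  have hk : k.1.det ≠ 0 := Matrix.GeneralLinearGroup.det_ne_zero k
  obtain ⟨hA, hd⟩ := cr37_form_pos k.1 hk
  -- the constant `mm`
  obtain ⟨mm, hmm, hlow⟩ : ∃ mm : ℚ, 0 < mm ∧ ∀ v : Fin 2 → ℚ,
      mm * (v 0 ^ 2 + v 1 ^ 2) ≤ cr37_B (k.1 *ᵥ v) (k.1 *ᵥ v) := by
    set A := 2 * (k.1 0 0 ^ 2 + k.1 0 0 * k.1 1 0 + k.1 1 0 ^ 2) with hAdef
    set Bc := 2 * k.1 0 0 * k.1 0 1 + k.1 0 0 * k.1 1 1 + k.1 0 1 * k.1 1 0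
      + 2 * k.1 1 0 * k.1 1 1 with hBdef
    set C := 2 * (k.1 0 1 ^ 2 + k.1 0 1 * k.1 1 1 + k.1 1 1 ^ 2) with hCdef
    have hC : 0 < C := by
      by_contra hcon
      have : A * C ≤ 0 := mul_nonpos_of_nonneg_of_nonpos hA.le (not_lt.1 hcon)
      nlinarith [sq_nonneg Bc]
    have hAC : 0 < A + C := by positivity
    refine ⟨(A * C - Bc ^ 2) / (A + C), div_pos hd hAC, ?_⟩
    intro v
    rw [cr37_B_mulVec]
    have := cr37_low A Bc C (v 0) (v 1) ((A * C - Bc ^ 2) / (A + C)) hAC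
      (le_of_eq (div_mul_cancel₀ _ hAC.ne'))
    calc (A * C - Bc ^ 2) / (A + C) * (v 0 ^ 2 + v 1 ^ 2)
        ≤ A * v 0 ^ 2 + 2 * Bc * v 0 * v 1 + C * v 1 ^ 2 := this
      _ = A * v 0 * v 0 + Bc * (v 0 * v 1 + v 1 * v 0) + C * v 1 * v 1 := by ring
  have hDq : cr37_dt (cr37_cast a) (cr37_cast b) = ((a 0 * b 1 - a 1 * b 0 : ℤ) : ℚ) :=
    cr37_dt_cast a b
  have hDq0 : cr37_dt (cr37_cast a) (cr37_cast b) ≠ 0 := by
    rw [hDq]
    exact_mod_cast hD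
  have hdt1 : cr37_dt (cr37_cast b) (cr37_cast (-a - b)) = cr37_dt (cr37_cast a) (cr37_cast b) := by
    rw [cr37_cast_neg_sub]
    unfold cr37_dt
    simp only [Pi.sub_apply, Pi.neg_apply]
    ring
  have hdt2 : cr37_dt (cr37_cast (-a - b)) (cr37_cast a) = cr37_dt (cr37_cast a) (cr37_cast b) := by
    rw [cr37_cast_neg_sub]
    unfold cr37_dt
    simp only [Pi.sub_apply, Pi.neg_apply]
    ring
  obtain ⟨K, hK⟩ : ∃ K : ℤ,
      2 * (3 * (k.1.det * ((a 0 * b 1 - a 1 * b 0 : ℤ) : ℚ)) ^ 2) / mm ^ 2 ≤ (K : ℚ) := by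
    obtain ⟨n, hn⟩ := exists_nat_ge
      (2 * (3 * (k.1.det * ((a 0 * b 1 - a 1 * b 0 : ℤ) : ℚ)) ^ 2) / mm ^ 2)
    exact ⟨n, by exact_mod_cast hn⟩
  refine (cr37_finite_box a b hD K).subset ?_
  intro g hg
  simp only [Set.mem_ofPred_eq] at hg
  rw [cr37_sig_eq, cr37_sig_eq, cr37_sig_eq, hdt1, hdt2, ← add_mul, ← add_mul,
    cr37_mul_mapGL_mulVec, cr37_mul_mapGL_mulVec, cr37_mul_mapGL_mulVec] at hg
  -- the three vectors
  have hzv : k.1 *ᵥ cr37_cast (g.1 *ᵥ (-a - b))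
      = -(k.1 *ᵥ cr37_cast (g.1 *ᵥ a)) - k.1 *ᵥ cr37_cast (g.1 *ᵥ b) := by
    rw [Matrix.mulVec_sub, Matrix.mulVec_neg, cr37_cast_neg_sub, Matrix.mulVec_sub,
      Matrix.mulVec_neg]
  rw [hzv] at hg
  set X := k.1 *ᵥ cr37_cast (g.1 *ᵥ a) with hX
  set Y := k.1 *ᵥ cr37_cast (g.1 *ᵥ b) with hY
  have hs : ((SignType.sign (cr37_B X Y) : SignType) : ℤ)
      + ((SignType.sign (cr37_B Y (-X - Y)) : SignType) : ℤ)
      + ((SignType.sign (cr37_B (-X - Y) X) : SignType) : ℤ) ≠ -1 := by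
    intro hcon
    apply hg
    rw [hcon]
    ring
  obtain ⟨t1, t2, t3⟩ := cr37_B_tri X Y
  have hgram := cr37_gram X Y
  have hdtXY : cr37_dt X Y = k.1.det * ((a 0 * b 1 - a 1 * b 0 : ℤ) : ℚ) := by
    rw [hX, hY, cr37_dt_mulVec]
    congr 1
    exact cr37_dt_cast_sl g a b
  have hDg : (g.1 *ᵥ a) 0 * (g.1 *ᵥ b) 1 - (g.1 *ᵥ a) 1 * (g.1 *ᵥ b) 0 ≠ 0 := by
    rw [cr37_dt_sl]; exact hD
  have hNx := cr37_N_pos (g.1 *ᵥ a) (g.1 *ᵥ b) hDg
  have hNy := cr37_N_pos' (g.1 *ᵥ a) (g.1 *ᵥ b) hDg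
  have hNz : 1 ≤ cr37_N (g.1 *ᵥ (-a - b)) := by
    refine cr37_N_pos (g.1 *ᵥ (-a - b)) (g.1 *ᵥ a) ?_
    rw [cr37_dt_sl]
    intro h0
    apply hD
    simp only [Pi.sub_apply, Pi.neg_apply] at h0
    linear_combination h0
  have lx := hlow (cr37_cast (g.1 *ᵥ a))
  have ly := hlow (cr37_cast (g.1 *ᵥ b))
  have lz := hlow (cr37_cast (g.1 *ᵥ (-a - b)))
  rw [cr37_N_cast] at lx ly lz
  rw [hzv] at lz
  rw [← hX] at lx
  rw [← hY] at ly
  have hcore := cr37_tri_core (cr37_B X Y) (cr37_B Y (-X - Y)) (cr37_B (-X - Y) X) mm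
    (3 * (k.1.det * ((a 0 * b 1 - a 1 * b 0 : ℤ) : ℚ)) ^ 2)
    ((cr37_N (g.1 *ᵥ a) : ℤ) : ℚ) ((cr37_N (g.1 *ᵥ b) : ℤ) : ℚ)
    ((cr37_N (g.1 *ᵥ (-a - b)) : ℤ) : ℚ) hmm
    (by rw [← t1]; exact lx) (by rw [← t2]; exact ly) (by rw [← t3]; exact lz)
    (by exact_mod_cast hNx) (by exact_mod_cast hNy) (by exact_mod_cast hNz)
    (by rw [← hdtXY, ← hgram, t1, t2]; ring) hs
  have hmm2 : 0 < mm ^ 2 := by positivity
  constructor
  · have h1 : ((cr37_N (g.1 *ᵥ a) : ℤ) : ℚ) ≤ (K : ℚ) := by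
      refine le_trans ?_ hK
      rw [le_div_iff₀ hmm2]
      linarith [hcore.1]
    exact_mod_cast h1
  · have h1 : ((cr37_N (g.1 *ᵥ b) : ℤ) : ℚ) ≤ (K : ℚ) := by
      refine le_trans ?_ hK
      rw [le_div_iff₀ hmm2]
      linarith [hcore.2]
    exact_mod_cast h1

/-! ### The crossing numbers of a subgroup of `SL(2, ℤ)` -/

/-- the inclusion of a subgroup of `SL(2, ℤ)` into `GL(2, ℚ)` -/
noncomputable def cr37_incl (G : Subgroup SL(2, ℤ)) : G →* GL (Fin 2) ℚ :=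
  (Matrix.SpecialLinearGroup.mapGL ℚ).comp G.subtype

/-- the crossing number of the geodesic `{a, b}` with `η ∈ G` (an integer; `4 ×` the
intersection number when `-1 ∈ G`). -/
noncomputable def cr37_XG (G : Subgroup SL(2, ℤ)) (a b : Fin 2 → ℚ) (η : G) : ℤ :=
  cr37_X (cr37_incl G) (cr37_sig a b) 1 η

theorem cr37_finG (G : Subgroup SL(2, ℤ)) (a b : Fin 2 → ℚ) :
    cr37_Fin (cr37_incl G) (cr37_sig a b) :=
  cr37_Fin_subgroup G (cr37_fin a b)

/-- base point independence -/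
theorem cr37_XG_base (G : Subgroup SL(2, ℤ)) (a b : Fin 2 → ℚ) (k : GL (Fin 2) ℚ) (η : G) :
    cr37_X (cr37_incl G) (cr37_sig a b) k η = cr37_XG G a b η :=
  cr37_X_base (cr37_finG G a b) k 1 η

/-- additivity in `η` -/
theorem cr37_XG_mul (G : Subgroup SL(2, ℤ)) (a b : Fin 2 → ℚ) (η₁ η₂ : G) :
    cr37_XG G a b (η₁ * η₂) = cr37_XG G a b η₁ + cr37_XG G a b η₂ :=
  cr37_X_mul (cr37_finG G a b) 1 η₁ η₂

theorem cr37_XG_one (G : Subgroup SL(2, ℤ)) (a b : Fin 2 → ℚ) : cr37_XG G a b 1 = 0 :=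
  cr37_X_one _ _ _

theorem cr37_XG_inv (G : Subgroup SL(2, ℤ)) (a b : Fin 2 → ℚ) (η : G) :
    cr37_XG G a b η⁻¹ = - cr37_XG G a b η := by
  have h := cr37_XG_mul G a b η η⁻¹
  rw [mul_inv_cancel, cr37_XG_one] at h
  linarith

/-- antisymmetry -/
theorem cr37_XG_swap (G : Subgroup SL(2, ℤ)) (a b : Fin 2 → ℚ) (η : G) :
    cr37_XG G b a η = - cr37_XG G a b η := by
  unfold cr37_XG
  rw [← cr37_X_neg_fun]
  congr 1
  funext h
  exact cr37_sig_swap a b h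

/-- invariance under rescaling of the vectors -/
theorem cr37_XG_smul (G : Subgroup SL(2, ℤ)) (a b : Fin 2 → ℚ) (c c' : ℚ) (hc : c ≠ 0)
    (hc' : c' ≠ 0) (η : G) : cr37_XG G (c • a) (c' • b) η = cr37_XG G a b η := by
  unfold cr37_XG
  congr 1
  funext h
  exact cr37_sig_smul a b c c' hc hc' h

/-- degenerate symbols vanish -/
theorem cr37_XG_of_dt_eq_zero (G : Subgroup SL(2, ℤ)) (a b : Fin 2 → ℚ) (hab : cr37_dt a b = 0)
    (η : G) : cr37_XG G a b η = 0 := by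
  unfold cr37_XG
  have : cr37_sig a b = fun _ => 0 := funext fun h => cr37_sig_of_dt_eq_zero a b hab h
  rw [this]
  simp [cr37_X, cr37_D]

theorem cr37_det_mapGL (g : SL(2, ℤ)) :
    ((Matrix.SpecialLinearGroup.mapGL ℚ g : GL (Fin 2) ℚ) : Matrix (Fin 2) (Fin 2) ℚ).det = 1 := by
  have h := Matrix.SpecialLinearGroup.det_mapGL (S := ℚ) g
  rw [← Matrix.GeneralLinearGroup.val_det_apply, h]
  rfl

/-- the crossing number of the translate `σ (· * d)` is that of the moved geodesic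
(`det d > 0`). -/
theorem cr37_XG_mulVec (G : Subgroup SL(2, ℤ)) (a b : Fin 2 → ℚ) (d : GL (Fin 2) ℚ)
    (hd : 0 < d.1.det) (η : G) :
    cr37_XG G (d.1 *ᵥ a) (d.1 *ᵥ b) η
      = cr37_X (cr37_incl G) (fun x => cr37_sig a b (x * d)) 1 η := by
  unfold cr37_XG
  congr 1
  funext h
  exact (cr37_sig_mul a b h d hd).symm

/-- `G`-invariance of the crossing numbers -/
theorem cr37_XG_inv_G (G : Subgroup SL(2, ℤ)) (a b : Fin 2 → ℚ) (γ η : G) :
    cr37_XG G ((cr37_incl G γ).1 *ᵥ a) ((cr37_incl G γ).1 *ᵥ b) η = cr37_XG G a b η := by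
  have hd : 0 < (cr37_incl G γ).1.det := by
    show 0 < ((Matrix.SpecialLinearGroup.mapGL ℚ (γ : SL(2, ℤ)) : GL (Fin 2) ℚ) :
        Matrix (Fin 2) (Fin 2) ℚ).det
    rw [cr37_det_mapGL]
    exact one_pos
  rw [cr37_XG_mulVec G a b _ hd]
  exact cr37_X_translate (cr37_incl G) (cr37_sig a b) γ 1 η

/-- **Triangle relation**, `a + b + c = 0`. -/
theorem cr37_XG_tri0 (G : Subgroup SL(2, ℤ)) (a b : Fin 2 → ℚ) (η : G) :
    cr37_XG G a b η + cr37_XG G b (-a - b) η + cr37_XG G (-a - b) a η = 0 := by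
  by_cases hD : cr37_dt a b = 0
  · have h1 : cr37_dt b (-a - b) = 0 := by
      unfold cr37_dt at hD ⊢
      simp only [Pi.sub_apply, Pi.neg_apply]
      linear_combination hD
    have h2 : cr37_dt (-a - b) a = 0 := by
      unfold cr37_dt at hD ⊢
      simp only [Pi.sub_apply, Pi.neg_apply]
      linear_combination hD
    rw [cr37_XG_of_dt_eq_zero G a b hD, cr37_XG_of_dt_eq_zero G _ _ h1,
      cr37_XG_of_dt_eq_zero G _ _ h2]
    rfl
  · obtain ⟨n, a', b', hn, ha, hb⟩ := cr37_exists_int2 a b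
    have hn' : (n : ℚ) ≠ 0 := by exact_mod_cast hn
    have hc : (n : ℚ) • (-a - b) = cr37_cast (-a' - b') := by
      rw [cr37_cast_neg_sub, ← ha, ← hb, smul_sub, smul_neg]
    rw [← cr37_XG_smul G a b n n hn' hn', ← cr37_XG_smul G b (-a - b) n n hn' hn',
      ← cr37_XG_smul G (-a - b) a n n hn' hn', ha, hb, hc]
    have hD' : a' 0 * b' 1 - a' 1 * b' 0 ≠ 0 := by
      intro h0
      apply hD
      have e : cr37_dt ((n : ℚ) • a) ((n : ℚ) • b) = 0 := by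
        rw [ha, hb, cr37_dt_cast, h0]
        simp
      unfold cr37_dt at e ⊢
      simp only [Pi.smul_apply, smul_eq_mul] at e
      have e' : (n : ℚ) ^ 2 * (a 0 * b 1 - a 1 * b 0) = 0 := by linear_combination e
      exact (mul_eq_zero.mp e').resolve_left (pow_ne_zero 2 hn')
    have h12 := cr37_Fin_add (cr37_finG G (cr37_cast a') (cr37_cast b'))
      (cr37_finG G (cr37_cast b') (cr37_cast (-a' - b')))
    have h3 := cr37_finG G (cr37_cast (-a' - b')) (cr37_cast a')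
    have hsum := cr37_X_add_fun h12 h3 1 η
    have hsum2 := cr37_X_add_fun (cr37_finG G (cr37_cast a') (cr37_cast b'))
      (cr37_finG G (cr37_cast b') (cr37_cast (-a' - b'))) 1 η
    have hzero := cr37_X_eq_zero_of_finite (cr37_incl G)
      (fun x => cr37_sig (cr37_cast a') (cr37_cast b') x
        + cr37_sig (cr37_cast b') (cr37_cast (-a' - b')) x
        + cr37_sig (cr37_cast (-a' - b')) (cr37_cast a') x)
      (-((SignType.sign (cr37_dt (cr37_cast a') (cr37_cast b')) : SignType) : ℤ))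
      (fun k => by
        have := (cr37_tri_int a' b' hD' k).preimage (f := fun g : G => (g : SL(2, ℤ)))
          (fun x _ y _ hxy => Subtype.ext hxy)
        exact this) 1 η
    unfold cr37_XG
    rw [← hsum2, ← hsum]
    exact hzero

/-- **Triangle relation** for three pairwise independent vectors. -/
theorem cr37_XG_tri (G : Subgroup SL(2, ℤ)) (u v w : Fin 2 → ℚ) (h1 : cr37_dt u v ≠ 0)
    (h2 : cr37_dt v w ≠ 0) (h3 : cr37_dt w u ≠ 0) (η : G) :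
    cr37_XG G u v η + cr37_XG G v w η + cr37_XG G w u η = 0 := by
  have hc : -(cr37_dt v w • u) - cr37_dt w u • v = cr37_dt u v • w := by
    funext i
    unfold cr37_dt
    fin_cases i
    · simp only [Fin.zero_eta, Fin.isValue, Pi.sub_apply, Pi.neg_apply, Pi.smul_apply,
        smul_eq_mul]
      ring
    · simp only [Fin.mk_one, Fin.isValue, Pi.sub_apply, Pi.neg_apply, Pi.smul_apply,
        smul_eq_mul]
      ring
  have h := cr37_XG_tri0 G (cr37_dt v w • u) (cr37_dt w u • v) η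
  rw [hc, cr37_XG_smul G u v _ _ h2 h3, cr37_XG_smul G v w _ _ h3 h1,
    cr37_XG_smul G w u _ _ h1 h2] at h
  exact h

end Fermat.Agent.S41
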