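/-
S41 / M3x (crossing route, helper35): the degeneracy compatibilities of the crossing numbers
`cr37_XG`, at VECTOR level (no choice of vectors representing the cusps is involved).

* `cd35_W`  (S6): `X_{Γ₀(Nq)}(w a, w b)(η) = X_{Γ₀(Nq)}(a, b)(η')` whenever `w' η = η' w'`
  (`w' = D.inv.w`, i.e. `η' = w⁻¹ η w`).
* `cd35_tr` (S5): `∑_i X_{Γ₀(Nq)}(ρ_i a, ρ_i b)(η) = X_{Γ₀(N)}(a, b)(η)` for `η ∈ Γ₀(Nq)`,
  `ρ_i = D.rep i` the representatives of `Γ₀(Nq) \ Γ₀(N)` used by `tr43_tr`.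
-/
import Mathlib
import Fermat.Agent.S41.CrossFin37
import Fermat.Agent.S41.Trace43c

set_option autoImplicit false

open CongruenceSubgroup Matrix
open scoped MatrixGroups

namespace Fermat.Agent.S41

open Fermat.Agent.S16

/-- a finite-support `finsum` computed along a bijection `B × κ → A` (`κ` finite). -/
theorem cd35_finsum_bij {A B κ : Type*} [Fintype κ] (e : B × κ → A)
    (hbij : Function.Bijective e) (F : A → ℤ) (hF : (Function.support F).Finite) :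
    ∑ᶠ a : A, F a = ∑ i, ∑ᶠ b : B, F (e (b, i)) := by
  classical
  let E : κ × B ≃ A := (Equiv.prodComm κ B).trans (Equiv.ofBijective e hbij)
  rw [← finsum_comp_equiv E (f := F)]
  have hsupp : (Function.support fun p : κ × B => F (E p)).Finite :=
    hF.preimage (f := fun p : κ × B => E p) (fun a _ b _ hab => E.injective hab)
  rw [finsum_curry _ hsupp, finsum_eq_sum_of_fintype]
  rfl

section W

variable {N q : ℕ}

theorem cd35_gl_det {M : Matrix (Fin 2) (Fin 2) ℤ} (h : M.det ≠ 0) :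
    (tr43_gl M : GL (Fin 2) ℚ).1.det = ((M.det : ℤ) : ℚ) := by
  rw [tr43_gl_coe h, tr43_det_map]

/-- **(S6)** the Atkin-Lehner matrix on the crossing numbers. -/
theorem cd35_W (hq : q ≠ 0) (D : tr43_Data N q) (a b : Fin 2 → ℚ) (η η' : Gamma0 (N * q))
    (h : D.inv.w * ((η : SL(2, ℤ)) : Matrix (Fin 2) (Fin 2) ℤ) =
      ((η' : SL(2, ℤ)) : Matrix (Fin 2) (Fin 2) ℤ) * D.inv.w) :
    cr37_XG (Gamma0 (N * q)) ((tr43_gl D.w : GL (Fin 2) ℚ).1 *ᵥ a)
        ((tr43_gl D.w : GL (Fin 2) ℚ).1 *ᵥ b) η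
      = cr37_XG (Gamma0 (N * q)) a b η' := by
  have hq' : (q : ℤ) ≠ 0 := by exact_mod_cast hq
  have hw : D.w.det ≠ 0 := by rw [D.w_det]; exact hq'
  have hd : 0 < (tr43_gl D.w : GL (Fin 2) ℚ).1.det := by
    rw [cd35_gl_det hw, D.w_det]
    exact_mod_cast Nat.pos_of_ne_zero hq
  -- `η = conj η'`
  have hη : D.conj hq η' = η := by
    have h1 : D.inv.conj hq η = η' := D.inv.conj_unique hq h
    rw [← h1, ← D.conj_symm_apply hq η, MulEquiv.apply_symm_apply]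
  have hc : ∀ γ : Gamma0 (N * q), cr37_incl (Gamma0 (N * q)) (D.conj hq γ) * tr43_gl D.w =
      tr43_gl D.w * cr37_incl (Gamma0 (N * q)) γ := by
    intro γ
    show SpecialLinearGroup.mapGL ℚ ((D.conj hq γ : Gamma0 (N * q)) : SL(2, ℤ)) * tr43_gl D.w =
      tr43_gl D.w * SpecialLinearGroup.mapGL ℚ (γ : SL(2, ℤ))
    rw [← tr43_gl_sl, ← tr43_gl_sl, ← tr43_gl_mul (tr43_sl_det_ne _) hw,
      ← tr43_gl_mul hw (tr43_sl_det_ne _), D.conj_spec hq γ]
  rw [cr37_XG_mulVec _ a b _ hd, ← hη,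
    cr37_X_conj (cr37_incl (Gamma0 (N * q))) (cr37_incl (Gamma0 (N * q))) (D.conj hq)
      (tr43_gl D.w) hc (cr37_sig a b) 1 η']
  exact cr37_XG_base _ a b _ η'

end W

section Tr

variable {N q : ℕ}

/-- **(S5)** the trace on the crossing numbers. -/
theorem cd35_tr (hq : q.Prime) (D : tr43_Data N q) (a b : Fin 2 → ℚ) (η : Gamma0 (N * q))
    (η' : Gamma0 N) (hη : (η' : SL(2, ℤ)) = (η : SL(2, ℤ))) :
    ∑ i : Option (Fin q), cr37_XG (Gamma0 (N * q))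
        ((SpecialLinearGroup.mapGL ℚ (D.rep i : SL(2, ℤ)) : GL (Fin 2) ℚ).1 *ᵥ a)
        ((SpecialLinearGroup.mapGL ℚ (D.rep i : SL(2, ℤ)) : GL (Fin 2) ℚ).1 *ᵥ b) η
      = cr37_XG (Gamma0 N) a b η' := by
  classical
  have hle : Gamma0 (N * q) ≤ Gamma0 N := by
    intro g hg
    have h1 := lb_Gamma0_dvd (⟨g, hg⟩ : Gamma0 (N * q))
    rw [Gamma0_mem, ZMod.intCast_zmod_eq_zero_iff_dvd]
    exact (Int.natCast_dvd_natCast.mpr (dvd_mul_right N q)).trans h1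
  let e : ↥(Gamma0 (N * q)) × Option (Fin q) → ↥(Gamma0 N) :=
    fun p => (⟨(p.1 : SL(2, ℤ)), hle p.1.2⟩ : Gamma0 N) * D.rep p.2
  have he : ∀ p, ((e p : Gamma0 N) : SL(2, ℤ)) = (p.1 : SL(2, ℤ)) * (D.rep p.2 : SL(2, ℤ)) :=
    fun _ => rfl
  have hbij : Function.Bijective e := by
    constructor
    · rintro ⟨h, i⟩ ⟨h', j⟩ hp
      have hp' : (h : SL(2, ℤ)) * (D.rep i : SL(2, ℤ)) = (h' : SL(2, ℤ)) * (D.rep j : SL(2, ℤ)) := by
        have := congrArg (fun g : Gamma0 N => (g : SL(2, ℤ))) hp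
        simpa [he] using this
      have hK : ((D.rep i : SL(2, ℤ)) : Matrix (Fin 2) (Fin 2) ℤ) =
          ((((h⁻¹ * h' : Gamma0 (N * q)) : SL(2, ℤ))) : Matrix (Fin 2) (Fin 2) ℤ) *
            ((D.rep j : SL(2, ℤ)) : Matrix (Fin 2) (Fin 2) ℤ) := by
        rw [← Matrix.SpecialLinearGroup.coe_mul]
        congr 1
        rw [Subgroup.coe_mul, Subgroup.coe_inv, mul_assoc, ← hp', inv_mul_cancel_left]
      have hdvd : (q : ℤ) ∣ ((((h⁻¹ * h' : Gamma0 (N * q)) : SL(2, ℤ))) :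
          Matrix (Fin 2) (Fin 2) ℤ) 1 0 :=
        (Int.natCast_dvd_natCast.mpr (dvd_mul_left q N)).trans (lb_Gamma0_dvd _)
      have hij : i = j := D.rep_unique hq i j _ hdvd hK
      subst hij
      have hh : (h : SL(2, ℤ)) = h' := mul_right_cancel hp'
      exact Prod.ext (Subtype.ext hh) rfl
    · intro g
      obtain ⟨ρ, κ, hg⟩ := tr43_rep_decomp hq D g
      exact ⟨(κ, ρ), Subtype.ext hg.symm⟩
  have hF := cr37_support_finite (cr37_finG (Gamma0 N) a b) 1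
    (1 * (cr37_incl (Gamma0 N) η')⁻¹)
  have hR : cr37_XG (Gamma0 N) a b η' = ∑ i : Option (Fin q), ∑ᶠ h : ↥(Gamma0 (N * q)),
      (cr37_sig a b (1 * cr37_incl (Gamma0 N) (e (h, i))) -
        cr37_sig a b (1 * (cr37_incl (Gamma0 N) η')⁻¹ * cr37_incl (Gamma0 N) (e (h, i)))) := by
    unfold cr37_XG cr37_X cr37_D
    exact cd35_finsum_bij e hbij _ hF
  rw [hR]
  refine Finset.sum_congr rfl fun i _ => ?_
  have hd : 0 < (SpecialLinearGroup.mapGL ℚ (D.rep i : SL(2, ℤ)) : GL (Fin 2) ℚ).1.det := by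
    rw [cr37_det_mapGL]; exact one_pos
  rw [cr37_XG_mulVec _ a b _ hd]
  unfold cr37_X cr37_D
  refine finsum_congr fun h => ?_
  have e1 : cr37_incl (Gamma0 N) (e (h, i)) =
      cr37_incl (Gamma0 (N * q)) h * SpecialLinearGroup.mapGL ℚ (D.rep i : SL(2, ℤ)) := by
    show SpecialLinearGroup.mapGL ℚ ((e (h, i) : Gamma0 N) : SL(2, ℤ)) = _
    rw [he, map_mul]
    rfl
  have e2 : cr37_incl (Gamma0 N) η' = cr37_incl (Gamma0 (N * q)) η := by
    show SpecialLinearGroup.mapGL ℚ (η' : SL(2, ℤ)) = SpecialLinearGroup.mapGL ℚ (η : SL(2, ℤ))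
    rw [hη]
  rw [e1, e2]
  simp only [mul_assoc]

end Tr

end Fermat.Agent.S41
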