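/-
S41 / M3x (crossing route, helper35): the abstract assembly "crossing maps + perfectness (P*) +
Hom-side Ihara ⟹ dual Ihara modulo `p`".

* `cx35_exists_retraction`, `cx35_exists_chain`, `cx35_pd1`: a lattice `L` embedded by a saturated
  injective map `ev : L →+ (R → ℤ)` (`R` finite: the Manin edges) is a retract of `R → ℤ`; hence
  every functional on `L` is evaluation on a chain `f : R → ℤ`, and every functional `L → ZMod p`
  lifts to a functional `L → ℤ`.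
* `cx35_H1dual`: Ihara's lemma on the dual lattices `L →+ ℤ` from Ihara's lemma on the Hom side,
  through the crossing maps `XL : (L →+ ℤ) →+ HL`, `XM : (M →+ ℤ) →+ HM`.
* `cx35_mod_p`: the resulting dual Ihara statement `(T - e)^n (L × L) ⊆ im (tr₁, tr₂) + p (L × L)`
  (via `di28_mod_p` with `A' = (L →+ ℤ)²`, `B' = (M →+ ℤ)` and the evaluation pairings).
-/
import Mathlib
import Fermat.Agent.S41.DualIhara28

set_option autoImplicit false

namespace Fermat.Agent.S41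

section Retract

variable {L : Type*} [AddCommGroup L] {R : Type*}

/-- A saturated injective additive map into a finite power of `ℤ` has a retraction. -/
theorem cx35_exists_retraction [Finite R] (ev : L →+ (R → ℤ)) (hinj : Function.Injective ev)
    (hsat : ∀ (n : ℤ) (v : R → ℤ), n ≠ 0 → n • v ∈ ev.range → v ∈ ev.range) :
    ∃ π : (R → ℤ) →+ L, ∀ x, π (ev x) = x := by
  classical
  let evl : L →ₗ[ℤ] (R → ℤ) := ev.toIntLinearMap
  have hevl : ∀ x, evl x = ev x := fun _ => rfl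
  let W : Submodule ℤ (R → ℤ) := LinearMap.range evl
  have hW : ∀ v, v ∈ W ↔ v ∈ ev.range := by
    intro v
    constructor
    · rintro ⟨x, hx⟩; exact ⟨x, hx⟩
    · rintro ⟨x, hx⟩; exact ⟨x, hx⟩
  have htf : Module.IsTorsionFree ℤ ((R → ℤ) ⧸ W) := by
    apply Module.IsTorsionFree.of_smul_eq_zero
    intro n q hq
    by_cases hn : n = 0
    · left; exact hn
    · right
      induction q using Submodule.Quotient.induction_on with
      | H v =>
        rw [← Submodule.Quotient.mk_smul, Submodule.Quotient.mk_eq_zero] at hq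
        rw [Submodule.Quotient.mk_eq_zero]
        exact (hW v).mpr (hsat n v hn ((hW _).mp hq))
  have hfree : Module.Free ℤ ((R → ℤ) ⧸ W) := Module.free_of_finite_type_torsion_free'
  obtain ⟨s, hs⟩ := W.mkQ.exists_rightInverse_of_surjective (Submodule.range_mkQ W)
  have hs' : ∀ q, W.mkQ (s q) = q := fun q => LinearMap.congr_fun hs q
  let P : (R → ℤ) →ₗ[ℤ] (R → ℤ) := LinearMap.id - s ∘ₗ W.mkQ
  have hmem : ∀ v : R → ℤ, P v ∈ W := by
    intro v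
    rw [← Submodule.Quotient.mk_eq_zero]
    show W.mkQ (v - s (W.mkQ v)) = 0
    rw [map_sub, hs', sub_self]
  let e : L ≃ₗ[ℤ] W := LinearEquiv.ofInjective evl hinj
  let π' : (R → ℤ) →ₗ[ℤ] W := LinearMap.codRestrict W P hmem
  refine ⟨(e.symm.toLinearMap ∘ₗ π').toAddMonoidHom, fun x => ?_⟩
  have h1 : π' (ev x) = e x := by
    apply Subtype.ext
    show ev x - s (W.mkQ (ev x)) = evl x
    have h0 : W.mkQ (ev x) = 0 := by
      show Submodule.Quotient.mk (ev x) = 0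
      rw [Submodule.Quotient.mk_eq_zero]
      exact ⟨x, rfl⟩
    rw [h0, map_zero, sub_zero]
    rfl
  show e.symm (π' (ev x)) = x
  rw [h1, LinearEquiv.symm_apply_apply]

/-- Every functional on `L` is evaluation on a chain. -/
theorem cx35_exists_chain [Fintype R] (ev : L →+ (R → ℤ)) (hinj : Function.Injective ev)
    (hsat : ∀ (n : ℤ) (v : R → ℤ), n ≠ 0 → n • v ∈ ev.range → v ∈ ev.range) (α : L →+ ℤ) :
    ∃ f : R → ℤ, ∀ x, α x = ∑ r, f r * ev x r := by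
  classical
  obtain ⟨π, hπ⟩ := cx35_exists_retraction ev hinj hsat
  refine ⟨fun r => α (π (Pi.single r 1)), fun x => ?_⟩
  have h1 : ev x = ∑ r, ev x r • (Pi.single r (1 : ℤ) : R → ℤ) := by
    funext r'
    simp [Finset.sum_apply, Pi.single_apply]
  conv_lhs => rw [← hπ x, h1, map_sum, map_sum]
  refine Finset.sum_congr rfl fun r _ => ?_
  rw [map_zsmul, map_zsmul, smul_eq_mul, mul_comm]

/-- (PD1) for the evaluation pairing: every functional `L → ZMod p` lifts to `L → ℤ`. -/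
theorem cx35_pd1 [Finite R] (ev : L →+ (R → ℤ)) (hinj : Function.Injective ev)
    (hsat : ∀ (n : ℤ) (v : R → ℤ), n ≠ 0 → n • v ∈ ev.range → v ∈ ev.range) (p : ℕ)
    (lam : L →+ ZMod p) : ∃ α : L →+ ℤ, ∀ x, ((α x : ℤ) : ZMod p) = lam x := by
  classical
  have := Fintype.ofFinite R
  obtain ⟨π, hπ⟩ := cx35_exists_retraction ev hinj hsat
  have hg : ∀ r : R, ∃ g : ℤ, (g : ZMod p) = lam (π (Pi.single r 1)) := fun r =>
    ZMod.intCast_surjective _
  choose g hg using hg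
  refine ⟨(∑ r, g r • (Pi.evalAddMonoidHom (fun _ : R => ℤ) r)).comp ev, fun x => ?_⟩
  have h1 : ev x = ∑ r, ev x r • (Pi.single r (1 : ℤ) : R → ℤ) := by
    funext r'
    simp [Finset.sum_apply, Pi.single_apply]
  conv_rhs => rw [← hπ x, h1, map_sum, map_sum]
  simp only [AddMonoidHom.comp_apply, AddMonoidHom.finsetSum_apply, AddMonoidHom.smul_apply,
    Pi.evalAddMonoidHom_apply, Int.cast_sum, smul_eq_mul, Int.cast_mul]
  refine Finset.sum_congr rfl fun r _ => ?_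
  rw [map_zsmul, map_zsmul, hg, zsmul_eq_mul, mul_comm]

end Retract

section Assembly

variable {L M HL HM : Type*} [AddCommGroup L] [AddCommGroup M] [AddCommGroup HL]
  [AddCommGroup HM]

/-- precomposition with `T`, as an endomorphism of the dual lattice. -/
def cx35_dual (T : L →+ M) : (M →+ ℤ) →+ (L →+ ℤ) := AddMonoidHom.compHom' T

@[simp] theorem cx35_dual_apply (T : L →+ M) (α : M →+ ℤ) (x : L) :
    cx35_dual T α x = α (T x) := rfl

/-- **Ihara on the dual lattices from Ihara on the Hom side**, through the crossing maps. -/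
theorem cx35_H1dual (p : ℕ) (tr₁ tr₂ : M →+ L) (T : L →+ L) (e : ℤ)
    (XL : (L →+ ℤ) →+ HL) (XM : (M →+ ℤ) →+ HM) (res₁ res₂ : HL →+ HM) (T' : HL →+ HL)
    (hX₁ : ∀ α : L →+ ℤ, XM (cx35_dual tr₁ α) = res₁ (XL α))
    (hX₂ : ∀ α : L →+ ℤ, XM (cx35_dual tr₂ α) = res₂ (XL α))
    (hXT : ∀ α : L →+ ℤ, XL (cx35_dual T α) = T' (XL α))
    (hperf : ∀ α : L →+ ℤ, (∃ χ', XL α = (p : ℤ) • χ') → ∃ α', α = (p : ℤ) • α')
    (n : ℕ)
    (hIh : ∀ χ₁ χ₂ : HL, (∃ β', res₁ χ₁ + res₂ χ₂ = (p : ℤ) • β') →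
      (∃ χ', lr54_pow T' e n χ₁ = (p : ℤ) • χ') ∧ (∃ χ', lr54_pow T' e n χ₂ = (p : ℤ) • χ'))
    (α₁ α₂ : L →+ ℤ) (h : ∃ β', cx35_dual tr₁ α₁ + cx35_dual tr₂ α₂ = (p : ℤ) • β') :
    (∃ α', lr54_pow (cx35_dual T) e n α₁ = (p : ℤ) • α') ∧
      (∃ α', lr54_pow (cx35_dual T) e n α₂ = (p : ℤ) • α') := by
  obtain ⟨β', hβ'⟩ := h
  have h1 : res₁ (XL α₁) + res₂ (XL α₂) = (p : ℤ) • XM β' := by
    rw [← hX₁, ← hX₂, ← map_add, hβ', map_zsmul]
  obtain ⟨⟨χ₁, hχ₁⟩, ⟨χ₂, hχ₂⟩⟩ := hIh _ _ ⟨_, h1⟩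
  have hpow : ∀ α : L →+ ℤ, XL (lr54_pow (cx35_dual T) e n α) = lr54_pow T' e n (XL α) :=
    fun α => lr54_pow_map (cx35_dual T) T' XL hXT e n α
  exact ⟨hperf _ ⟨χ₁, by rw [hpow, hχ₁]⟩, hperf _ ⟨χ₂, by rw [hpow, hχ₂]⟩⟩

/-- **Dual Ihara modulo `p` from the crossing pairing** (abstract form):
`(T - e)^n (L × L) ⊆ im (tr₁, tr₂) + p (L × L)`. -/
theorem cx35_mod_p (p : ℕ) (hp : p.Prime) (tr₁ tr₂ : M →+ L) (T : L →+ L) (e : ℤ)
    (hPD1 : ∀ lam : L →+ ZMod p, ∃ α : L →+ ℤ, ∀ x, ((α x : ℤ) : ZMod p) = lam x)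
    (XL : (L →+ ℤ) →+ HL) (XM : (M →+ ℤ) →+ HM) (res₁ res₂ : HL →+ HM) (T' : HL →+ HL)
    (hX₁ : ∀ α : L →+ ℤ, XM (cx35_dual tr₁ α) = res₁ (XL α))
    (hX₂ : ∀ α : L →+ ℤ, XM (cx35_dual tr₂ α) = res₂ (XL α))
    (hXT : ∀ α : L →+ ℤ, XL (cx35_dual T α) = T' (XL α))
    (hperf : ∀ α : L →+ ℤ, (∃ χ', XL α = (p : ℤ) • χ') → ∃ α', α = (p : ℤ) • α')
    (n : ℕ)
    (hIh : ∀ χ₁ χ₂ : HL, (∃ β', res₁ χ₁ + res₂ χ₂ = (p : ℤ) • β') →
      (∃ χ', lr54_pow T' e n χ₁ = (p : ℤ) • χ') ∧ (∃ χ', lr54_pow T' e n χ₂ = (p : ℤ) • χ'))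
    (x : L × L) :
    ∃ (b : M) (y : L × L), lr54_pow (T.prodMap T) e n x = (tr₁.prod tr₂) b + (p : ℤ) • y := by
  have hp0 : (p : ℤ) ≠ 0 := by exact_mod_cast hp.ne_zero
  refine di28_mod_p (A := L × L) (B := M) (A' := (L →+ ℤ) × (L →+ ℤ)) (B' := (M →+ ℤ)) p hp
    (di28_prodPair AddMonoidHom.eval AddMonoidHom.eval) AddMonoidHom.eval (tr₁.prod tr₂)
    ((cx35_dual tr₁).coprod (cx35_dual tr₂)) ?_ (T.prodMap T)
    ((cx35_dual T).prodMap (cx35_dual T)) e ?_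
    (di28_pd1_prod p AddMonoidHom.eval AddMonoidHom.eval hPD1 hPD1) ?_ n ?_ x
  · rintro b ⟨α₁, α₂⟩
    simp [AddMonoidHom.eval_apply_apply]
  · rintro ⟨x₁, x₂⟩ ⟨α₁, α₂⟩
    simp [AddMonoidHom.eval_apply_apply]
  · intro β hβ
    have hβ' : ∀ b, (p : ℤ) ∣ β b := fun b => hβ b
    choose c hc using hβ'
    refine ⟨AddMonoidHom.mk' c ?_, ?_⟩
    · intro a b
      have := hc (a + b)
      rw [map_add, hc a, hc b, ← mul_add] at this
      exact (mul_left_cancel₀ hp0 this).symm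
    · ext b
      simp [hc b]
  · rintro ⟨α₁, α₂⟩ ⟨β', hβ'⟩
    obtain ⟨⟨a₁, h₁⟩, ⟨a₂, h₂⟩⟩ := cx35_H1dual p tr₁ tr₂ T e XL XM res₁ res₂ T' hX₁ hX₂ hXT
      hperf n hIh α₁ α₂ ⟨β', by simpa using hβ'⟩
    refine ⟨(a₁, a₂), ?_⟩
    rw [di28_pow_prodMap]
    simp [h₁, h₂]

end Assembly

end Fermat.Agent.S41
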