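/-
S41 / M3x (crossing route, second seat helper35): the Manin-chain half of the crossing pairing.

Everything is stated for an ABSTRACT "side" function `φ : SL(2,ℤ) → ℤ`
(`φ h` = the side of the base point with respect to the Farey edge `h • (∞, 0)`), subject to
* `φ (U⁻¹ * h) = φ h` (`U = S * T`), and
* `φ h - φ (S⁻¹ * h) = 2` for `h = ± 1`, `= -2` for `h = ± S`, `= 0` otherwise.

`cm35_phi` is the concrete instance (sign of the polar form of `x² + xy + y²` on the columns).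
Mathlib only.
-/
import Mathlib

set_option autoImplicit false

open Matrix ModularGroup
open scoped MatrixGroups

namespace Fermat.Agent.S41

/-- The axioms on the abstract side function `φ` (relative to an element `U`, in practice
`S * T` or `T * S`, generating `SL(2, ℤ)` together with `S`). -/
structure cm35_Side (U : SL(2, ℤ)) (φ : SL(2, ℤ) → ℤ) : Prop where
  hgen : Subgroup.closure ({S, U} : Set SL(2, ℤ)) = ⊤
  hU : ∀ h, φ (U⁻¹ * h) = φ h
  hS : ∀ h, φ h - φ (S⁻¹ * h) =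
    2 * ((if h = 1 then 1 else 0) + (if h = -1 then 1 else 0)) -
      2 * ((if h = S then 1 else 0) + (if h = -S then 1 else 0))

section Finite

variable {U : SL(2, ℤ)} {φ : SL(2, ℤ) → ℤ}

/-- the set of edges separating the base point from its translate by `k`. -/
def cm35_D (φ : SL(2, ℤ) → ℤ) (k : SL(2, ℤ)) : Set SL(2, ℤ) := {h | φ h ≠ φ (k⁻¹ * h)}

theorem cm35_D_S (hφ : cm35_Side U φ) : (cm35_D φ S).Finite := by
  refine Set.Finite.subset (Set.toFinite ({1, -1, S, -S} : Set SL(2, ℤ))) ?_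
  intro h hh
  by_contra hcon
  simp only [Set.mem_insert_iff, Set.mem_singleton_iff, not_or] at hcon
  obtain ⟨h1, h2, h3, h4⟩ := hcon
  have := hφ.hS h
  simp only [h1, h2, h3, h4, if_false] at this
  exact hh (by linarith)

theorem cm35_D_U (hφ : cm35_Side U φ) : (cm35_D φ U).Finite := by
  have : cm35_D φ U = ∅ := by
    ext h
    simp only [cm35_D, Set.mem_ofPred_eq, Set.mem_empty_iff_false, iff_false, not_not]
    exact (hφ.hU h).symm
  rw [this]; exact Set.finite_empty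

theorem cm35_D_one : (cm35_D φ 1).Finite := by
  have : cm35_D φ 1 = ∅ := by
    ext h
    simp [cm35_D]
  rw [this]; exact Set.finite_empty

theorem cm35_D_mul {k₁ k₂ : SL(2, ℤ)} (h₁ : (cm35_D φ k₁).Finite) (h₂ : (cm35_D φ k₂).Finite) :
    (cm35_D φ (k₁ * k₂)).Finite := by
  refine Set.Finite.subset (h₁.union (h₂.image (fun h => k₁ * h))) ?_
  intro h hh
  by_cases hc : φ h = φ (k₁⁻¹ * h)
  · right
    refine ⟨k₁⁻¹ * h, ?_, by simp⟩
    show φ (k₁⁻¹ * h) ≠ φ (k₂⁻¹ * (k₁⁻¹ * h))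
    intro hc2
    apply hh
    rw [hc, hc2, _root_.mul_inv_rev, mul_assoc]
  · left; exact hc

theorem cm35_D_inv {k : SL(2, ℤ)} (h₁ : (cm35_D φ k).Finite) : (cm35_D φ k⁻¹).Finite := by
  refine Set.Finite.subset (h₁.image (fun h => k⁻¹ * h)) ?_
  intro h hh
  refine ⟨k * h, ?_, by simp⟩
  show φ (k * h) ≠ φ (k⁻¹ * (k * h))
  intro hc
  apply hh
  rw [inv_inv, hc, inv_mul_cancel_left]

theorem cm35_D_finite (hφ : cm35_Side U φ) (k : SL(2, ℤ)) : (cm35_D φ k).Finite := by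
  have hk : k ∈ Subgroup.closure ({S, U} : Set SL(2, ℤ)) := by
    rw [hφ.hgen]; exact Subgroup.mem_top k
  induction hk using Subgroup.closure_induction with
  | mem x hx =>
    rcases hx with rfl | rfl
    · exact cm35_D_S hφ
    · exact cm35_D_U hφ
  | one => exact cm35_D_one
  | mul x y _ _ hx hy => exact cm35_D_mul hx hy
  | inv x _ hx => exact cm35_D_inv hx

/-- (1) two base points are separated by finitely many Farey edges. -/
theorem cm35_finite (hφ : cm35_Side U φ) (k₁ k₂ : SL(2, ℤ)) :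
    {h | φ (k₁⁻¹ * h) ≠ φ (k₂⁻¹ * h)}.Finite := by
  refine Set.Finite.subset ((cm35_D_finite hφ (k₁⁻¹ * k₂)).image (fun h => k₁ * h)) ?_
  intro h hh
  refine ⟨k₁⁻¹ * h, ?_, by simp⟩
  show φ (k₁⁻¹ * h) ≠ φ ((k₁⁻¹ * k₂)⁻¹ * (k₁⁻¹ * h))
  have : (k₁⁻¹ * k₂)⁻¹ * (k₁⁻¹ * h) = k₂⁻¹ * h := by group
  rw [this]; exact hh

end Finite

section Psi

variable {U : SL(2, ℤ)} {φ : SL(2, ℤ) → ℤ}

/-- (2) the crossing number of the Manin chain `∑ f(x) (x)` (with `f` a function on `SL(2, ℤ)`)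
between the base points `k₁` and `k₂`. -/
noncomputable def cm35_Psi (φ : SL(2, ℤ) → ℤ) (f : SL(2, ℤ) → ℤ) (k₁ k₂ : SL(2, ℤ)) : ℤ :=
  ∑ᶠ h, f h * (φ (k₁⁻¹ * h) - φ (k₂⁻¹ * h))

theorem cm35_support (hφ : cm35_Side U φ) (f : SL(2, ℤ) → ℤ) (k₁ k₂ : SL(2, ℤ)) :
    (Function.support fun h => f h * (φ (k₁⁻¹ * h) - φ (k₂⁻¹ * h))).Finite := by
  refine (cm35_finite hφ k₁ k₂).subset ?_
  intro h hh
  simp only [Function.mem_support] at hh
  intro hc
  apply hh
  rw [hc, sub_self, mul_zero]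

theorem cm35_Psi_add (hφ : cm35_Side U φ) (f : SL(2, ℤ) → ℤ) (k₁ k₂ k₃ : SL(2, ℤ)) :
    cm35_Psi φ f k₁ k₂ + cm35_Psi φ f k₂ k₃ = cm35_Psi φ f k₁ k₃ := by
  unfold cm35_Psi
  rw [← finsum_add_distrib (cm35_support hφ f k₁ k₂) (cm35_support hφ f k₂ k₃)]
  congr 1
  ext h
  ring

theorem cm35_Psi_self (f : SL(2, ℤ) → ℤ) (k : SL(2, ℤ)) : cm35_Psi φ f k k = 0 := by
  simp [cm35_Psi]

theorem cm35_Psi_left (G : Subgroup SL(2, ℤ)) (f : SL(2, ℤ) → ℤ)
    (hf : ∀ γ ∈ G, ∀ h, f (γ * h) = f h) (γ : SL(2, ℤ)) (hγ : γ ∈ G) (k₁ k₂ : SL(2, ℤ)) :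
    cm35_Psi φ f (γ * k₁) (γ * k₂) = cm35_Psi φ f k₁ k₂ := by
  unfold cm35_Psi
  rw [← finsum_comp_equiv (Equiv.mulLeft γ)]
  congr 1
  ext h
  simp only [Equiv.coe_mulLeft, hf γ hγ h]
  congr 3 <;> group

theorem cm35_Psi_U (hφ : cm35_Side U φ) (f : SL(2, ℤ) → ℤ) (k : SL(2, ℤ)) :
    cm35_Psi φ f k (k * U) = 0 := by
  unfold cm35_Psi
  have : ∀ h, f h * (φ (k⁻¹ * h) - φ ((k * U)⁻¹ * h)) = 0 := by
    intro h
    rw [_root_.mul_inv_rev, mul_assoc, hφ.hU, sub_self, mul_zero]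
  simp only [this, finsum_zero]

theorem cm35_Psi_S (hφ : cm35_Side U φ) (f : SL(2, ℤ) → ℤ) (k : SL(2, ℤ)) :
    cm35_Psi φ f k (k * S) = 2 * (f k + f (-k)) - 2 * (f (k * S) + f (-(k * S))) := by
  classical
  unfold cm35_Psi
  have key : ∀ h, f h * (φ (k⁻¹ * h) - φ ((k * S)⁻¹ * h)) =
      2 * ((if h = k then f h else 0) + (if h = -k then f h else 0)) -
        2 * ((if h = k * S then f h else 0) + (if h = -(k * S) then f h else 0)) := by
    intro h
    have h0 := hφ.hS (k⁻¹ * h)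
    have e1 : (k⁻¹ * h = 1) ↔ h = k := by rw [inv_mul_eq_one]; exact eq_comm
    have e2 : (k⁻¹ * h = -1) ↔ h = -k := by rw [inv_mul_eq_iff_eq_mul, mul_neg, mul_one]
    have e3 : (k⁻¹ * h = S) ↔ h = k * S := inv_mul_eq_iff_eq_mul
    have e4 : (k⁻¹ * h = -S) ↔ h = -(k * S) := by rw [inv_mul_eq_iff_eq_mul, mul_neg]
    simp only [e1, e2, e3, e4] at h0
    rw [_root_.mul_inv_rev, mul_assoc, h0]
    split_ifs <;> ring
  simp only [key]
  rw [finsum_eq_sum_of_support_subset (s := ({k, -k, k * S, -(k * S)} : Finset SL(2, ℤ)))]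
  · rw [Finset.sum_sub_distrib, ← Finset.mul_sum, ← Finset.mul_sum, Finset.sum_add_distrib,
      Finset.sum_add_distrib, Finset.sum_ite_eq', Finset.sum_ite_eq', Finset.sum_ite_eq',
      Finset.sum_ite_eq']
    simp
  · intro h hh
    simp only [Function.mem_support] at hh
    by_contra hcon
    simp only [Finset.coe_insert, Finset.coe_singleton, Set.mem_insert_iff,
      Set.mem_singleton_iff, not_or] at hcon
    obtain ⟨h1, h2, h3, h4⟩ := hcon
    apply hh
    simp [h1, h2, h3, h4]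

/-- `η ↦ Ψ(1, η)` is additive on `G`. -/
theorem cm35_Psi_hom (hφ : cm35_Side U φ) (G : Subgroup SL(2, ℤ)) (f : SL(2, ℤ) → ℤ)
    (hf : ∀ γ ∈ G, ∀ h, f (γ * h) = f h) (γ : SL(2, ℤ)) (hγ : γ ∈ G) (k : SL(2, ℤ)) :
    cm35_Psi φ f 1 (γ * k) = cm35_Psi φ f 1 γ + cm35_Psi φ f 1 k := by
  rw [← cm35_Psi_add hφ f 1 γ (γ * k)]
  congr 1
  have := cm35_Psi_left (φ := φ) G f hf γ hγ 1 k
  rwa [mul_one] at this

end Psi

section Perfect

/-- Reindexing a sum over a set of right coset representatives by right translation. -/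
theorem cm35_reindex {H M : Type*} [Group H] [AddCommMonoid M] (G : Subgroup H) (R : Finset H)
    (hR : ∀ h, ∃! r, r ∈ R ∧ ∃ γ ∈ G, h = γ * r)
    (g : H → M) (hg : ∀ γ ∈ G, ∀ h, g (γ * h) = g h) (w : H) :
    ∑ r ∈ R, g (r * w) = ∑ r ∈ R, g r := by
  classical
  choose ρ hρ huniq using hR
  refine Finset.sum_bij' (fun r _ => ρ (r * w)) (fun r _ => ρ (r * w⁻¹)) ?_ ?_ ?_ ?_ ?_
  · intro r _; exact (hρ _).1
  · intro r _; exact (hρ _).1
  · intro r hr
    obtain ⟨γ, hγ, h1⟩ := (hρ (r * w)).2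
    symm
    apply huniq
    refine ⟨hr, γ⁻¹, G.inv_mem hγ, ?_⟩
    have : ρ (r * w) = γ⁻¹ * (r * w) := by rw [eq_inv_mul_iff_mul_eq, ← h1]
    rw [this]; group
  · intro r hr
    obtain ⟨γ, hγ, h1⟩ := (hρ (r * w⁻¹)).2
    symm
    apply huniq
    refine ⟨hr, γ⁻¹, G.inv_mem hγ, ?_⟩
    have : ρ (r * w⁻¹) = γ⁻¹ * (r * w⁻¹) := by rw [eq_inv_mul_iff_mul_eq, ← h1]
    rw [this]; group
  · intro r hr
    obtain ⟨γ, hγ, h1⟩ := (hρ (r * w)).2
    conv_lhs => rw [h1]
    exact hg γ hγ _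

/-- Existence of a finite set of right coset representatives for a subgroup of finite index. -/
theorem cm35_exists_reps {H : Type*} [Group H] (G : Subgroup H) [G.FiniteIndex] :
    ∃ R : Finset H, ∀ h, ∃! r, r ∈ R ∧ ∃ γ ∈ G, h = γ * r := by
  classical
  have hfin : Finite (Quotient (QuotientGroup.rightRel G)) :=
    Finite.of_equiv _ (QuotientGroup.quotientRightRelEquivQuotientLeftRel G).symm
  have hfinT : Fintype (Quotient (QuotientGroup.rightRel G)) := Fintype.ofFinite _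
  refine ⟨Finset.univ.image (fun q : Quotient (QuotientGroup.rightRel G) => q.out), ?_⟩
  intro h
  have hrel : ∀ a b : H, (QuotientGroup.rightRel G) a b ↔ b * a⁻¹ ∈ G := fun a b =>
    QuotientGroup.rightRel_apply
  refine ⟨(Quotient.mk (QuotientGroup.rightRel G) h).out, ⟨?_, ?_⟩, ?_⟩
  · exact Finset.mem_image_of_mem _ (Finset.mem_univ _)
  · have h1 : (QuotientGroup.rightRel G) (Quotient.mk (QuotientGroup.rightRel G) h).out h :=
      Quotient.exact (Quotient.out_eq _)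
    rw [hrel] at h1
    exact ⟨_, h1, by group⟩
  · rintro r ⟨hr, γ, hγ, rfl⟩
    obtain ⟨q, -, rfl⟩ := Finset.mem_image.mp hr
    have hq : Quotient.mk (QuotientGroup.rightRel G) (γ * q.out) = q := by
      conv_rhs => rw [← Quotient.out_eq q]
      apply Quotient.sound
      exact (hrel _ _).mpr (by simpa using G.inv_mem hγ)
    rw [hq]

variable {U : SL(2, ℤ)} {φ : SL(2, ℤ) → ℤ}

/-- **(P\*)**: perfectness of the crossing pairing on Manin chains, modulo an odd prime `p`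
(`p = 3` and elliptic elements allowed).  If all crossing numbers `Ψ(1, γ)`, `γ ∈ G`, of the
Manin chain `∑_{r ∈ R} f(r) (r)` are divisible by `p`, then every `ℤ`-valued `G`-invariant symbol
(given through its values `v` on the Farey edges) takes a value divisible by `p` on the chain. -/
theorem cm35_perfect (hφ : cm35_Side U φ) (G : Subgroup SL(2, ℤ)) (R : Finset SL(2, ℤ))
    (hR : ∀ h, ∃! r, r ∈ R ∧ ∃ γ ∈ G, h = γ * r)
    (f : SL(2, ℤ) → ℤ) (hf : ∀ γ ∈ G, ∀ h, f (γ * h) = f h)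
    (p : ℕ) (hp : p.Prime) (hp2 : p ≠ 2)
    (hΨ : ∀ γ ∈ G, (p : ℤ) ∣ cm35_Psi φ f 1 γ)
    (v : SL(2, ℤ) → ℤ) (hvG : ∀ γ ∈ G, ∀ h, v (γ * h) = v h)
    (hvS : ∀ h, v (h * S) = - v h)
    (hvU : ∀ h, v h + v (h * U) + v (h * U * U) = 0)
    (hvneg : ∀ h, v (-h) = v h) :
    (p : ℤ) ∣ ∑ r ∈ R, f r * v r := by
  -- the potential and its integer lift
  set Ft : SL(2, ℤ) → ℤ := fun k => cm35_Psi φ f 1 k with hFt
  set F' : SL(2, ℤ) → ℤ := fun k => Ft k % (p : ℤ) with hF'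
  have hFtU : ∀ k, Ft (k * U) = Ft k := by
    intro k
    simp only [hFt]
    rw [← cm35_Psi_add hφ f 1 k (k * U), cm35_Psi_U hφ, add_zero]
  have hFtS : ∀ k, Ft (k * S) - Ft k = 2 * (f k + f (-k)) - 2 * (f (k * S) + f (-(k * S))) := by
    intro k
    simp only [hFt]
    rw [← cm35_Psi_add hφ f 1 k (k * S), cm35_Psi_S hφ]
    ring
  have hF'G : ∀ γ ∈ G, ∀ h, F' (γ * h) = F' h := by
    intro γ hγ h
    simp only [hF', hFt]
    rw [cm35_Psi_hom hφ G f hf γ hγ h]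
    obtain ⟨c, hc⟩ := hΨ γ hγ
    rw [hc, add_comm, Int.add_mul_emod_self_left]
  have hF'U : ∀ k, F' (k * U) = F' k := by
    intro k
    simp only [hF', hFtU]
  have hF'mod : ∀ k, (p : ℤ) ∣ Ft k - F' k := by
    intro k
    simp only [hF']
    exact Int.dvd_self_sub_of_emod_eq rfl
  -- `∑ F' v = 0` exactly
  have hfv : ∀ γ ∈ G, ∀ h, F' (γ * h) * v (γ * h) = F' h * v h := by
    intro γ hγ h
    rw [hF'G γ hγ, hvG γ hγ]
  have h3 : ∑ r ∈ R, F' r * v r = 0 := by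
    have e1 := cm35_reindex G R hR (fun h => F' h * v h) hfv U
    have e2 := cm35_reindex G R hR (fun h => F' h * v h) hfv (U * U)
    have e3 : ∑ r ∈ R, F' r * v r + ∑ r ∈ R, F' (r * U) * v (r * U) +
        ∑ r ∈ R, F' (r * (U * U)) * v (r * (U * U)) = 0 := by
      rw [← Finset.sum_add_distrib, ← Finset.sum_add_distrib]
      apply Finset.sum_eq_zero
      intro r _
      simp only [← mul_assoc, hF'U]
      have := hvU r
      linear_combination F' r * this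
    rw [e1, e2] at e3
    linarith
  have h4 : ∑ r ∈ R, F' (r * S) * v r = 0 := by
    have e1 := cm35_reindex G R hR (fun h => F' h * v h) hfv S
    have : ∑ r ∈ R, F' (r * S) * v r = - ∑ r ∈ R, F' (r * S) * v (r * S) := by
      rw [← Finset.sum_neg_distrib]
      apply Finset.sum_congr rfl
      intro r _
      rw [hvS]; ring
    rw [this, e1, h3, neg_zero]
  -- `∑ (Ft(rS) - Ft(r)) v(r) ≡ 0`
  have h5 : (p : ℤ) ∣ ∑ r ∈ R, (Ft (r * S) - Ft r) * v r := by
    have : ∑ r ∈ R, (Ft (r * S) - Ft r) * v r =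
        ∑ r ∈ R, ((Ft (r * S) - F' (r * S)) - (Ft r - F' r)) * v r := by
      have e : ∑ r ∈ R, ((Ft (r * S) - F' (r * S)) - (Ft r - F' r)) * v r =
          ∑ r ∈ R, (Ft (r * S) - Ft r) * v r - (∑ r ∈ R, F' (r * S) * v r - ∑ r ∈ R, F' r * v r) := by
        rw [← Finset.sum_sub_distrib, ← Finset.sum_sub_distrib]
        apply Finset.sum_congr rfl
        intro r _
        ring
      rw [e, h3, h4]; ring
    rw [this]
    apply Finset.dvd_sum
    intro r _
    exact Dvd.dvd.mul_right (dvd_sub (hF'mod _) (hF'mod _)) _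
  -- `∑ (Ft(rS) - Ft(r)) v(r) = 8 ∑ f v`
  have hfvG : ∀ γ ∈ G, ∀ h, f (γ * h) * v (γ * h) = f h * v h := by
    intro γ hγ h
    rw [hf γ hγ, hvG γ hγ]
  have hneg : ∀ h : SL(2, ℤ), -h = h * (-1) := by
    intro h; rw [mul_neg, mul_one]
  have h6 : ∑ r ∈ R, f (-r) * v r = ∑ r ∈ R, f r * v r := by
    have e1 := cm35_reindex G R hR (fun h => f h * v h) hfvG (-1)
    rw [← e1]
    apply Finset.sum_congr rfl
    intro r _
    rw [← hneg, hvneg]
  have h7 : ∑ r ∈ R, f (r * S) * v r = - ∑ r ∈ R, f r * v r := by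
    have e1 := cm35_reindex G R hR (fun h => f h * v h) hfvG S
    rw [← e1, ← Finset.sum_neg_distrib]
    apply Finset.sum_congr rfl
    intro r _
    rw [hvS]; ring
  have h8 : ∑ r ∈ R, f (-(r * S)) * v r = - ∑ r ∈ R, f r * v r := by
    have e1 := cm35_reindex G R hR (fun h => f h * v h) hfvG (-S)
    rw [← e1, ← Finset.sum_neg_distrib]
    apply Finset.sum_congr rfl
    intro r _
    rw [mul_neg, hvneg, hvS]; ring
  have h9 : ∑ r ∈ R, (Ft (r * S) - Ft r) * v r = 8 * ∑ r ∈ R, f r * v r := by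
    have e : ∑ r ∈ R, (Ft (r * S) - Ft r) * v r =
        2 * (∑ r ∈ R, f r * v r + ∑ r ∈ R, f (-r) * v r) -
          2 * (∑ r ∈ R, f (r * S) * v r + ∑ r ∈ R, f (-(r * S)) * v r) := by
      rw [← Finset.sum_add_distrib, ← Finset.sum_add_distrib, Finset.mul_sum, Finset.mul_sum,
        ← Finset.sum_sub_distrib]
      apply Finset.sum_congr rfl
      intro r _
      rw [hFtS]; ring
    rw [e, h6, h7, h8]; ring
  rw [h9] at h5
  have hcop : IsCoprime (p : ℤ) 8 := by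
    have h2 : Nat.Coprime p 2 := (Nat.coprime_primes hp Nat.prime_two).mpr hp2
    have h8 : Nat.Coprime p 8 := by
      have : (8 : ℕ) = 2 ^ 3 := by norm_num
      rw [this]; exact Nat.Coprime.pow_right 3 h2
    exact_mod_cast (Nat.isCoprime_iff_coprime (m := p) (n := 8)).mpr h8
  exact hcop.dvd_of_dvd_mul_left h5

end Perfect

section Instance

/-- the arithmetic heart: for a unimodular pair of columns the two signs differ exactly for the
four matrices `± 1`, `± S`. -/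
theorem cm35_sign_aux (a b c d : ℤ) (hdet : a * d - b * c = 1) :
    Int.sign (2 * (a * b) + 2 * (c * d) + (a * d + c * b)) -
        Int.sign (2 * (a * b) + 2 * (c * d) - (a * d + c * b)) =
      2 * ((if a = 1 ∧ b = 0 ∧ c = 0 ∧ d = 1 then 1 else 0) +
          (if a = -1 ∧ b = 0 ∧ c = 0 ∧ d = -1 then 1 else 0)) -
        2 * ((if a = 0 ∧ b = -1 ∧ c = 1 ∧ d = 0 then 1 else 0) +
          (if a = 0 ∧ b = 1 ∧ c = -1 ∧ d = 0 then 1 else 0)) := by
  by_cases hPQ : a * b = 0 ∧ c * d = 0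
  · obtain ⟨hab, hcd⟩ := hPQ
    rcases mul_eq_zero.mp hab with ha | hb
    · -- a = 0
      subst ha
      have hbc : b * c = -1 := by linarith
      have hc0 : c ≠ 0 := by rintro rfl; simp at hbc
      have hd : d = 0 := by
        rcases mul_eq_zero.mp hcd with h | h
        · exact absurd h hc0
        · exact h
      subst hd
      rcases Int.mul_eq_neg_one_iff_eq_one_or_neg_one.mp hbc with ⟨rfl, rfl⟩ | ⟨rfl, rfl⟩ <;>
        decide
    · subst hb
      have had : a * d = 1 := by linarith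
      have hd0 : d ≠ 0 := by rintro rfl; simp at had
      have hc : c = 0 := by
        rcases mul_eq_zero.mp hcd with h | h
        · exact h
        · exact absurd h hd0
      subst hc
      rcases Int.mul_eq_one_iff_eq_one_or_neg_one.mp had with ⟨rfl, rfl⟩ | ⟨rfl, rfl⟩ <;>
        decide
  · have h1 : ¬ (a = 1 ∧ b = 0 ∧ c = 0 ∧ d = 1) := by
      rintro ⟨-, rfl, rfl, -⟩; exact hPQ ⟨by simp, by simp⟩
    have h2 : ¬ (a = -1 ∧ b = 0 ∧ c = 0 ∧ d = -1) := by
      rintro ⟨-, rfl, rfl, -⟩; exact hPQ ⟨by simp, by simp⟩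
    have h3 : ¬ (a = 0 ∧ b = -1 ∧ c = 1 ∧ d = 0) := by
      rintro ⟨rfl, -, -, rfl⟩; exact hPQ ⟨by simp, by simp⟩
    have h4 : ¬ (a = 0 ∧ b = 1 ∧ c = -1 ∧ d = 0) := by
      rintro ⟨rfl, -, -, rfl⟩; exact hPQ ⟨by simp, by simp⟩
    rw [if_neg h1, if_neg h2, if_neg h3, if_neg h4]
    -- `P² + PQ + Q² ≥ 1`
    have hpos : 1 ≤ (a * b) ^ 2 + (a * b) * (c * d) + (c * d) ^ 2 := by
      by_contra hcon
      have h0 : (a * b) ^ 2 + (a * b) * (c * d) + (c * d) ^ 2 ≤ 0 := by omega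
      have hQ : c * d = 0 := by
        by_contra hne
        have : 0 < (c * d) ^ 2 := by positivity
        nlinarith [sq_nonneg (2 * (a * b) + c * d)]
      have hP : a * b = 0 := by
        rw [hQ] at h0
        have : (a * b) ^ 2 ≤ 0 := by linarith
        exact pow_eq_zero_iff (two_ne_zero) |>.mp (le_antisymm this (sq_nonneg _))
      exact hPQ ⟨hP, hQ⟩
    have hprod : 0 < (2 * (a * b) + 2 * (c * d) + (a * d + c * b)) *
        (2 * (a * b) + 2 * (c * d) - (a * d + c * b)) := by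
      have e : (2 * (a * b) + 2 * (c * d) + (a * d + c * b)) *
          (2 * (a * b) + 2 * (c * d) - (a * d + c * b)) =
          4 * ((a * b) ^ 2 + (a * b) * (c * d) + (c * d) ^ 2) - (a * d - b * c) ^ 2 := by ring
      rw [e, hdet]; linarith
    rcases mul_pos_iff.mp hprod with ⟨hx, hy⟩ | ⟨hx, hy⟩
    · rw [Int.sign_eq_one_of_pos hx, Int.sign_eq_one_of_pos hy]; norm_num
    · rw [Int.sign_eq_neg_one_of_neg hx, Int.sign_eq_neg_one_of_neg hy]; norm_num

theorem cm35_det (h : SL(2, ℤ)) : h 0 0 * h 1 1 - h 0 1 * h 1 0 = 1 := by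
  have := h.det_coe
  rwa [Matrix.det_fin_two] at this

theorem cm35_ext_iff (h k : SL(2, ℤ)) :
    h = k ↔ h 0 0 = k 0 0 ∧ h 0 1 = k 0 1 ∧ h 1 0 = k 1 0 ∧ h 1 1 = k 1 1 := by
  constructor
  · rintro rfl; exact ⟨rfl, rfl, rfl, rfl⟩
  · rintro ⟨h1, h2, h3, h4⟩
    apply Subtype.ext
    ext i j
    fin_cases i <;> fin_cases j
    · exact h1
    · exact h2
    · exact h3
    · exact h4

theorem cm35_eq_one_iff (h : SL(2, ℤ)) :
    h = 1 ↔ h 0 0 = 1 ∧ h 0 1 = 0 ∧ h 1 0 = 0 ∧ h 1 1 = 1 := by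
  rw [cm35_ext_iff]; simp

theorem cm35_eq_neg_one_iff (h : SL(2, ℤ)) :
    h = -1 ↔ h 0 0 = -1 ∧ h 0 1 = 0 ∧ h 1 0 = 0 ∧ h 1 1 = -1 := by
  rw [cm35_ext_iff]; simp

theorem cm35_eq_S_iff (h : SL(2, ℤ)) :
    h = S ↔ h 0 0 = 0 ∧ h 0 1 = -1 ∧ h 1 0 = 1 ∧ h 1 1 = 0 := by
  rw [cm35_ext_iff]; simp [ModularGroup.coe_S]

theorem cm35_eq_neg_S_iff (h : SL(2, ℤ)) :
    h = -S ↔ h 0 0 = 0 ∧ h 0 1 = 1 ∧ h 1 0 = -1 ∧ h 1 1 = 0 := by
  rw [cm35_ext_iff]; simp [ModularGroup.coe_S]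

theorem cm35_S_inv_mul (h : SL(2, ℤ)) :
    (S⁻¹ * h) 0 0 = h 1 0 ∧ (S⁻¹ * h) 0 1 = h 1 1 ∧ (S⁻¹ * h) 1 0 = - h 0 0 ∧
      (S⁻¹ * h) 1 1 = - h 0 1 := by
  simp [Matrix.SpecialLinearGroup.coe_mul, Matrix.SpecialLinearGroup.coe_inv,
    ModularGroup.coe_S, Matrix.adjugate_fin_two, Matrix.mul_apply, Fin.sum_univ_two]

/-- polar form of `x² + xy + y²` on the two columns of `h`. -/
def cm35_Np (h : SL(2, ℤ)) : ℤ :=
  2 * (h 0 0 * h 0 1) + 2 * (h 1 0 * h 1 1) + (h 0 0 * h 1 1 + h 1 0 * h 0 1)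

/-- polar form of `x² - xy + y²` on the two columns of `h`. -/
def cm35_Nm (h : SL(2, ℤ)) : ℤ :=
  2 * (h 0 0 * h 0 1) + 2 * (h 1 0 * h 1 1) - (h 0 0 * h 1 1 + h 1 0 * h 0 1)

theorem cm35_gen_ST : Subgroup.closure ({S, S * T} : Set SL(2, ℤ)) = ⊤ := by
  rw [eq_top_iff, ← SpecialLinearGroup.SL2Z_generators, Subgroup.closure_le]
  intro x hx
  rcases hx with rfl | rfl
  · exact Subgroup.subset_closure (by simp)
  · have hT : (T : SL(2, ℤ)) = S⁻¹ * (S * T) := by group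
    rw [hT]
    exact Subgroup.mul_mem _ (Subgroup.inv_mem _ (Subgroup.subset_closure (by simp)))
      (Subgroup.subset_closure (by simp))

theorem cm35_gen_TS : Subgroup.closure ({S, T * S} : Set SL(2, ℤ)) = ⊤ := by
  rw [eq_top_iff, ← SpecialLinearGroup.SL2Z_generators, Subgroup.closure_le]
  intro x hx
  rcases hx with rfl | rfl
  · exact Subgroup.subset_closure (by simp)
  · have hT : (T : SL(2, ℤ)) = (T * S) * S⁻¹ := by group
    rw [hT]
    exact Subgroup.mul_mem _ (Subgroup.subset_closure (by simp))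
      (Subgroup.inv_mem _ (Subgroup.subset_closure (by simp)))

/-- Instance 1: base form `x² + xy + y²`, fixed by `S * T`. -/
theorem cm35_side_plus : cm35_Side (S * T) (fun h => Int.sign (cm35_Np h)) := by
  refine ⟨cm35_gen_ST, ?_, ?_⟩
  · intro h
    have e : cm35_Np ((S * T)⁻¹ * h) = cm35_Np h := by
      simp only [cm35_Np]
      simp [Matrix.SpecialLinearGroup.coe_mul, Matrix.SpecialLinearGroup.coe_inv,
        ModularGroup.coe_S, ModularGroup.coe_T, Matrix.adjugate_fin_two, Matrix.mul_apply,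
        Fin.sum_univ_two]
      ring
    simp only [e]
  · intro h
    obtain ⟨e1, e2, e3, e4⟩ := cm35_S_inv_mul h
    have hN : cm35_Np (S⁻¹ * h) =
        2 * (h 0 0 * h 0 1) + 2 * (h 1 0 * h 1 1) - (h 0 0 * h 1 1 + h 1 0 * h 0 1) := by
      simp only [cm35_Np, e1, e2, e3, e4]; ring
    have := cm35_sign_aux (h 0 0) (h 0 1) (h 1 0) (h 1 1) (by have := cm35_det h; linarith)
    show Int.sign (cm35_Np h) - Int.sign (cm35_Np (S⁻¹ * h)) = _
    rw [hN]
    simp only [cm35_Np, cm35_eq_one_iff, cm35_eq_neg_one_iff, cm35_eq_S_iff,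
      cm35_eq_neg_S_iff]
    exact this

/-- Instance 2: base form `x² - xy + y²`, fixed by `T * S` (edge orientation `(0, ∞)`). -/
theorem cm35_side_minus : cm35_Side (T * S) (fun h => - Int.sign (cm35_Nm h)) := by
  refine ⟨cm35_gen_TS, ?_, ?_⟩
  · intro h
    have e : cm35_Nm ((T * S)⁻¹ * h) = cm35_Nm h := by
      simp only [cm35_Nm]
      simp [Matrix.SpecialLinearGroup.coe_mul, Matrix.SpecialLinearGroup.coe_inv,
        ModularGroup.coe_S, ModularGroup.coe_T, Matrix.adjugate_fin_two, Matrix.mul_apply,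
        Fin.sum_univ_two]
      ring
    simp only [e]
  · intro h
    obtain ⟨e1, e2, e3, e4⟩ := cm35_S_inv_mul h
    have hN : cm35_Nm (S⁻¹ * h) =
        2 * (h 0 0 * h 0 1) + 2 * (h 1 0 * h 1 1) + (h 0 0 * h 1 1 + h 1 0 * h 0 1) := by
      simp only [cm35_Nm, e1, e2, e3, e4]; ring
    have := cm35_sign_aux (h 0 0) (h 0 1) (h 1 0) (h 1 1) (by have := cm35_det h; linarith)
    show - Int.sign (cm35_Nm h) - - Int.sign (cm35_Nm (S⁻¹ * h)) = _
    rw [hN]
    simp only [cm35_Nm, cm35_eq_one_iff, cm35_eq_neg_one_iff, cm35_eq_S_iff,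
      cm35_eq_neg_S_iff]
    linarith

end Instance

end Fermat.Agent.S41
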