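/-
S41 / M3x (crossing route, helper35): perfectness of the crossing pairing on the lattice of
integer valued symbols of level `M` (conventions C1-C3: `P = OnePoint ℚ`, plain functions
`Φ : P × P → ℤ`, `slp10_IsSymb M Φ`).

* `cx35_L M`   : the lattice of integer valued symbols of level `M` (an `AddSubgroup`).
* `cx35_edge h`: the Farey edge `(h ∞, h 0)` of `h : SL(2, ℤ)`.
* `cx35_exists_chain_conc`: every functional on `cx35_L M` is evaluation on a Manin chain.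
* `cx35_perfect_conc`: if a family `Phi η` (`η ∈ Γ₀(M)`) of symbols unfolds on Manin chains to
  the crossing numbers `cm35_Psi φ f 1 η`, then every functional `α` on `cx35_L M` with
  `p ∣ α (Phi η)` for all `η` lies in `p • (cx35_L M →+ ℤ)` (`p` odd).
-/
import Mathlib
import Fermat.Agent.S41.CrossManin35
import Fermat.Agent.S41.CrossDual35
import Fermat.Agent.S41.SymbLatticeP10

set_option autoImplicit false

open CongruenceSubgroup OnePoint Matrix ModularGroup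
open scoped MatrixGroups

namespace Fermat.Agent.S41

/-- The lattice of integer valued symbols of level `M`. -/
def cx35_L (M : ℕ) : AddSubgroup (OnePoint ℚ × OnePoint ℚ → ℤ) where
  carrier := {Φ | slp10_IsSymb M Φ}
  add_mem' := by
    rintro Φ Ψ ⟨h1, h2⟩ ⟨k1, k2⟩
    refine ⟨fun a b c => ?_, tr43_Inv_add h2 k2⟩
    have e1 := h1 a b c
    have e2 := k1 a b c
    simp only [Pi.add_apply]
    linarith
  zero_mem' := ⟨fun _ _ _ => by simp, tr43_Inv_zero⟩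
  neg_mem' := by
    rintro Φ ⟨h1, h2⟩
    refine ⟨fun a b c => ?_, tr43_Inv_neg h2⟩
    have e1 := h1 a b c
    simp only [Pi.neg_apply]
    linarith

theorem cx35_mem_L {M : ℕ} {Φ : OnePoint ℚ × OnePoint ℚ → ℤ} :
    Φ ∈ cx35_L M ↔ slp10_IsSymb M Φ := Iff.rfl

/-- The Farey edge `(h ∞, h 0)`. -/
noncomputable def cx35_edge (h : SL(2, ℤ)) : OnePoint ℚ × OnePoint ℚ :=
  (psl96_rho h ∞, psl96_rho (h * S) ∞)

theorem cx35_rho_mul (g h : SL(2, ℤ)) (x : OnePoint ℚ) :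
    psl96_rho (g * h) x = psl96_rho g (psl96_rho h x) := by
  rw [map_mul]; rfl

theorem cx35_edge_mul (γ h : SL(2, ℤ)) :
    cx35_edge (γ * h) = SpecialLinearGroup.mapGL ℚ γ • cx35_edge h := by
  unfold cx35_edge
  rw [mul_assoc, cx35_rho_mul, cx35_rho_mul]
  rfl

theorem cx35_edge_inv {M : ℕ} {Φ : OnePoint ℚ × OnePoint ℚ → ℤ} (hΦ : slp10_IsSymb M Φ)
    (γ : SL(2, ℤ)) (hγ : γ ∈ Gamma0 M) (h : SL(2, ℤ)) :
    Φ (cx35_edge (γ * h)) = Φ (cx35_edge h) := by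
  rw [cx35_edge_mul]
  exact hΦ.2 ⟨γ, hγ⟩ _

theorem cx35_symb_self {M : ℕ} {Φ : OnePoint ℚ × OnePoint ℚ → ℤ} (hΦ : slp10_IsSymb M Φ)
    (a : OnePoint ℚ) : Φ (a, a) = 0 := by
  have := hΦ.1 a a a
  linarith

theorem cx35_symb_swap {M : ℕ} {Φ : OnePoint ℚ × OnePoint ℚ → ℤ} (hΦ : slp10_IsSymb M Φ)
    (a b : OnePoint ℚ) : Φ (b, a) = - Φ (a, b) := by
  have := hΦ.1 a b a
  rw [cx35_symb_self hΦ] at this
  linarith

theorem cx35_rho_neg (h : SL(2, ℤ)) (x : OnePoint ℚ) : psl96_rho (-h) x = psl96_rho h x := by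
  have : -h = h * (-1) := by rw [mul_neg, mul_one]
  rw [this, cx35_rho_mul, psl96_rho_neg_one]
  rfl

theorem cx35_edge_neg (h : SL(2, ℤ)) : cx35_edge (-h) = cx35_edge h := by
  unfold cx35_edge
  rw [neg_mul, cx35_rho_neg, cx35_rho_neg]

theorem cx35_edge_S {M : ℕ} {Φ : OnePoint ℚ × OnePoint ℚ → ℤ} (hΦ : slp10_IsSymb M Φ)
    (h : SL(2, ℤ)) : Φ (cx35_edge (h * S)) = - Φ (cx35_edge h) := by
  unfold cx35_edge
  have e : h * S * S = -h := by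
    have h2 : (S : SL(2, ℤ)) * S = -1 := by
      have := psl96_S_sq
      rwa [pow_two] at this
    rw [mul_assoc, h2, mul_neg, mul_one]
  rw [e, cx35_rho_neg]
  exact cx35_symb_swap hΦ _ _

theorem cx35_rho_T (h : SL(2, ℤ)) : psl96_rho (h * T) ∞ = psl96_rho h ∞ := by
  rw [cx35_rho_mul, slq10_rho_T_infty]

theorem cx35_rho_UUS : psl96_rho (S * T * (S * T) * S) (∞ : OnePoint ℚ) = ∞ := by
  rw [psl96_rho_infty]
  have h : (((S * T * (S * T) * S : SL(2, ℤ)) 1 0 : ℤ)) = 0 := by decide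
  simp [h]

theorem cx35_edge_U {M : ℕ} {Φ : OnePoint ℚ × OnePoint ℚ → ℤ} (hΦ : slp10_IsSymb M Φ)
    (h : SL(2, ℤ)) :
    Φ (cx35_edge h) + Φ (cx35_edge (h * (S * T))) + Φ (cx35_edge (h * (S * T) * (S * T))) = 0 := by
  unfold cx35_edge
  have e1 : psl96_rho (h * (S * T)) ∞ = psl96_rho (h * S) ∞ := by
    rw [← mul_assoc, cx35_rho_T]
  have e2 : psl96_rho (h * (S * T) * (S * T)) ∞ = psl96_rho (h * (S * T) * S) ∞ := by
    rw [← mul_assoc (h * (S * T)), cx35_rho_T]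
  have e3 : psl96_rho (h * (S * T) * (S * T) * S) ∞ = psl96_rho h ∞ := by
    have : h * (S * T) * (S * T) * S = h * (S * T * (S * T) * S) := by group
    rw [this, cx35_rho_mul, cx35_rho_UUS]
  rw [e1, e2, e3, hΦ.1, hΦ.1, cx35_symb_self hΦ]

/-- A functional divisible by `p` at every point is `p` times a functional. -/
theorem cx35_div_of_forall_dvd {B : Type*} [AddCommGroup B] (p : ℤ) (hp : p ≠ 0) (β : B →+ ℤ)
    (hβ : ∀ b, p ∣ β b) : ∃ β' : B →+ ℤ, β = p • β' := by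
  choose c hc using hβ
  refine ⟨AddMonoidHom.mk' c ?_, ?_⟩
  · intro a b
    have := hc (a + b)
    rw [map_add, hc a, hc b, ← mul_add] at this
    exact (mul_left_cancel₀ hp this).symm
  · ext b
    simp [hc b]

section Conc

variable {M : ℕ} [NeZero M]

/-- the evaluation of a symbol on the Farey edges of a set of representatives. -/
noncomputable def cx35_ev (M : ℕ) (R : Finset SL(2, ℤ)) : ↥(cx35_L M) →+ (↥R → ℤ) :=
  AddMonoidHom.mk' (fun Φ r => Φ.1 (cx35_edge r.1)) (fun _ _ => rfl)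

omit [NeZero M] in
theorem cx35_ev_apply (R : Finset SL(2, ℤ)) (Φ : ↥(cx35_L M)) (r : ↥R) :
    cx35_ev M R Φ r = Φ.1 (cx35_edge r.1) := rfl

omit [NeZero M] in
theorem cx35_ev_injective (R : Finset SL(2, ℤ))
    (hR : ∀ h, ∃ r, r ∈ R ∧ ∃ γ ∈ Gamma0 M, h = γ * r) :
    Function.Injective (cx35_ev M R) := by
  rw [injective_iff_map_eq_zero]
  intro Φ hΦ
  apply Subtype.ext
  refine slp10_eq_zero Φ.2 fun f _ => ?_
  obtain ⟨r, hr, γ, hγ, rfl⟩ := hR f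
  show Φ.1 (cx35_edge (γ * r)) = 0
  rw [cx35_edge_inv Φ.2 γ hγ r]
  exact congrFun hΦ ⟨r, hr⟩

omit [NeZero M] in
theorem cx35_ev_saturated (R : Finset SL(2, ℤ))
    (hR : ∀ h, ∃ r, r ∈ R ∧ ∃ γ ∈ Gamma0 M, h = γ * r) (n : ℤ) (v : ↥R → ℤ) (hn : n ≠ 0)
    (hv : n • v ∈ (cx35_ev M R).range) : v ∈ (cx35_ev M R).range := by
  obtain ⟨Φ, hΦ⟩ := hv
  have hdiv : ∀ x, n ∣ Φ.1 x := by
    intro x
    have := slp10_mem Φ.2 (AddSubgroup.zmultiples n) (fun f _ => ?_) x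
    · exact Int.mem_zmultiples_iff.mp this
    · obtain ⟨r, hr, γ, hγ, rfl⟩ := hR f
      show Φ.1 (cx35_edge (γ * r)) ∈ _
      rw [cx35_edge_inv Φ.2 γ hγ r, ← cx35_ev_apply R Φ ⟨r, hr⟩, hΦ, Int.mem_zmultiples_iff]
      exact Dvd.intro _ rfl
  obtain ⟨Ψ, hΨ, hΨ2⟩ := slp10_div hn Φ.2 hdiv
  refine ⟨⟨Ψ, hΨ⟩, ?_⟩
  funext r
  have h2 := congrFun hΦ r
  rw [cx35_ev_apply, hΨ2] at h2
  rw [cx35_ev_apply]
  simp only [Pi.smul_apply, smul_eq_mul] at h2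
  exact mul_left_cancel₀ hn h2

/-- Every functional on the lattice of symbols is evaluation on a Manin chain (a left
`Γ₀(M)`-invariant function `f` on `SL(2, ℤ)`). -/
theorem cx35_exists_chain_conc (R : Finset SL(2, ℤ))
    (hR : ∀ h, ∃! r, r ∈ R ∧ ∃ γ ∈ Gamma0 M, h = γ * r) (α : ↥(cx35_L M) →+ ℤ) :
    ∃ f : SL(2, ℤ) → ℤ, (∀ γ ∈ Gamma0 M, ∀ h, f (γ * h) = f h) ∧
      ∀ Φ : ↥(cx35_L M), α Φ = ∑ r ∈ R, f r * Φ.1 (cx35_edge r) := by
  classical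
  have hR' : ∀ h, ∃ r, r ∈ R ∧ ∃ γ ∈ Gamma0 M, h = γ * r := fun h => (hR h).exists
  obtain ⟨f₀, hf₀⟩ := cx35_exists_chain (cx35_ev M R) (cx35_ev_injective R hR')
    (cx35_ev_saturated R hR') α
  choose ρ hρ huniq using hR
  have hρG : ∀ γ ∈ Gamma0 M, ∀ h, ρ (γ * h) = ρ h := by
    intro γ hγ h
    obtain ⟨γ', hγ', h1⟩ := (hρ h).2
    symm
    apply huniq
    exact ⟨(hρ h).1, γ * γ', (Gamma0 M).mul_mem hγ hγ', by rw [mul_assoc, ← h1]⟩
  have hρR : ∀ r ∈ R, ρ r = r := by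
    intro r hr
    symm
    apply huniq
    exact ⟨hr, 1, (Gamma0 M).one_mem, (one_mul r).symm⟩
  refine ⟨fun h => f₀ ⟨ρ h, (hρ h).1⟩, fun γ hγ h => ?_, fun Φ => ?_⟩
  · simp only [hρG γ hγ h]
  · rw [hf₀ Φ, ← Finset.sum_coe_sort R]
    refine Finset.sum_congr rfl fun r _ => ?_
    rw [cx35_ev_apply]
    congr 2
    exact Subtype.ext (hρR r.1 r.2).symm

/-- **Perfectness of the crossing pairing on the symbol lattice** (odd `p`). -/
theorem cx35_perfect_conc (p : ℕ) (hp : p.Prime) (hp2 : p ≠ 2)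
    {φ : SL(2, ℤ) → ℤ} (hφ : cm35_Side (S * T) φ)
    (Phi : Gamma0 M → OnePoint ℚ × OnePoint ℚ → ℤ) (hPhi : ∀ η, slp10_IsSymb M (Phi η))
    (hunf : ∀ R : Finset SL(2, ℤ), (∀ h, ∃! r, r ∈ R ∧ ∃ γ ∈ Gamma0 M, h = γ * r) →
      ∀ f : SL(2, ℤ) → ℤ, (∀ γ ∈ Gamma0 M, ∀ h, f (γ * h) = f h) → ∀ η : Gamma0 M,
        ∑ r ∈ R, f r * Phi η (cx35_edge r) = cm35_Psi φ f 1 (η : SL(2, ℤ)))
    (α : ↥(cx35_L M) →+ ℤ) (hα : ∀ η, (p : ℤ) ∣ α ⟨Phi η, hPhi η⟩) :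
    ∃ α' : ↥(cx35_L M) →+ ℤ, α = (p : ℤ) • α' := by
  obtain ⟨R, hR⟩ := cm35_exists_reps (Gamma0 M)
  obtain ⟨f, hf, hfα⟩ := cx35_exists_chain_conc R hR α
  have hΨ : ∀ γ ∈ Gamma0 M, (p : ℤ) ∣ cm35_Psi φ f 1 γ := by
    intro γ hγ
    have h1 := hunf R hR f hf ⟨γ, hγ⟩
    have h2 := hfα ⟨Phi ⟨γ, hγ⟩, hPhi _⟩
    rw [← h1, ← h2]
    exact hα _
  refine cx35_div_of_forall_dvd (p : ℤ) (by exact_mod_cast hp.ne_zero) α fun Φ => ?_
  rw [hfα Φ]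
  exact cm35_perfect hφ (Gamma0 M) R hR f hf p hp hp2 hΨ (fun h => Φ.1 (cx35_edge h))
    (fun γ hγ h => cx35_edge_inv Φ.2 γ hγ h) (fun h => cx35_edge_S Φ.2 h)
    (fun h => cx35_edge_U Φ.2 h) (fun h => by rw [cx35_edge_neg])

end Conc

end Fermat.Agent.S41
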