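/-
S41 / M3x (crossing route, helper35): the unfolding bridge between helper37's crossing sums
`cr37_X` (sums over `Γ` of differences of the side function `cr37_sig`) and the crossing numbers
`cm35_Psi` of Manin chains (sums over `SL(2, ℤ)`).
-/
import Mathlib
import Fermat.Agent.S41.CrossManin35
import Fermat.Agent.S41.Cross37

set_option autoImplicit false

open Matrix ModularGroup
open scoped MatrixGroups

namespace Fermat.Agent.S41

/-- the side function of the standard edge `(∞, 0)` = `(e₁, e₂)` on `SL(2, ℤ)`. -/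
theorem cu35_sig_std (h : SL(2, ℤ)) :
    cr37_sig ![1, 0] ![0, 1] (SpecialLinearGroup.mapGL ℚ h) = Int.sign (cm35_Np h) := by
  have hB : cr37_B ((SpecialLinearGroup.mapGL ℚ h : GL (Fin 2) ℚ).1 *ᵥ ![1, 0])
      ((SpecialLinearGroup.mapGL ℚ h : GL (Fin 2) ℚ).1 *ᵥ ![0, 1]) * cr37_dt ![1, 0] ![0, 1]
      = ((cm35_Np h : ℤ) : ℚ) := by
    unfold cr37_B cr37_dt cm35_Np
    rw [cr37_mulVec0, cr37_mulVec1, cr37_mulVec0, cr37_mulVec1]
    simp [SpecialLinearGroup.mapGL]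
    ring
  unfold cr37_sig
  rw [hB]
  rcases lt_trichotomy (cm35_Np h) 0 with hn | hn | hn
  · have : ((cm35_Np h : ℤ) : ℚ) < 0 := by exact_mod_cast hn
    rw [sign_neg this, Int.sign_eq_neg_one_of_neg hn]; rfl
  · rw [hn]; simp
  · have : (0 : ℚ) < ((cm35_Np h : ℤ) : ℚ) := by exact_mod_cast hn
    rw [sign_pos this, Int.sign_eq_one_of_pos hn]; rfl

theorem cu35_det_mapGL (r : SL(2, ℤ)) :
    (SpecialLinearGroup.mapGL ℚ r : GL (Fin 2) ℚ).1.det = 1 := by
  have h := SpecialLinearGroup.mapGL_coe_matrix (S := ℚ) r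
  rw [show (SpecialLinearGroup.mapGL ℚ r : GL (Fin 2) ℚ).1 = _ from h]
  exact (SpecialLinearGroup.map (algebraMap ℤ ℚ) r).det_coe

/-- the side function of the edge `r • (e₁, e₂)`, through right translation. -/
theorem cu35_sig_edge (r : SL(2, ℤ)) (k : GL (Fin 2) ℚ) :
    cr37_sig ((SpecialLinearGroup.mapGL ℚ r : GL (Fin 2) ℚ).1 *ᵥ ![1, 0])
        ((SpecialLinearGroup.mapGL ℚ r : GL (Fin 2) ℚ).1 *ᵥ ![0, 1]) k
      = cr37_sig ![1, 0] ![0, 1] (k * SpecialLinearGroup.mapGL ℚ r) := by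
  rw [cr37_sig_mul _ _ k _ (by rw [cu35_det_mapGL]; exact one_pos)]

/-- **Unfolding.**  The crossing sums of the Farey edges of a set `R` of representatives of
`G \ SL(2, ℤ)`, weighted by a Manin chain `f`, add up to the crossing number `cm35_Psi`. -/
theorem cu35_unfold (G : Subgroup SL(2, ℤ)) (R : Finset SL(2, ℤ))
    (hR : ∀ h, ∃! r, r ∈ R ∧ ∃ γ ∈ G, h = γ * r) (f : SL(2, ℤ) → ℤ)
    (hf : ∀ γ ∈ G, ∀ h, f (γ * h) = f h) (η : G) :
    ∑ r ∈ R, f r * cr37_X ((SpecialLinearGroup.mapGL ℚ).comp G.subtype)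
        (cr37_sig ((SpecialLinearGroup.mapGL ℚ r : GL (Fin 2) ℚ).1 *ᵥ ![1, 0])
          ((SpecialLinearGroup.mapGL ℚ r : GL (Fin 2) ℚ).1 *ᵥ ![0, 1])) 1 η
      = cm35_Psi (fun h => Int.sign (cm35_Np h)) f 1 (η : SL(2, ℤ)) := by
  classical
  set φ : SL(2, ℤ) → ℤ := fun h => Int.sign (cm35_Np h) with hφdef
  have hφ : cm35_Side (S * T) φ := cm35_side_plus
  -- the left hand side, edge by edge
  have hX : ∀ r : SL(2, ℤ), cr37_X ((SpecialLinearGroup.mapGL ℚ).comp G.subtype)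
      (cr37_sig ((SpecialLinearGroup.mapGL ℚ r : GL (Fin 2) ℚ).1 *ᵥ ![1, 0])
        ((SpecialLinearGroup.mapGL ℚ r : GL (Fin 2) ℚ).1 *ᵥ ![0, 1])) 1 η
      = ∑ᶠ g : G, (φ ((g : SL(2, ℤ)) * r) - φ ((η : SL(2, ℤ))⁻¹ * ((g : SL(2, ℤ)) * r))) := by
    intro r
    unfold cr37_X cr37_D
    refine finsum_congr fun g => ?_
    rw [cu35_sig_edge, cu35_sig_edge]
    simp only [MonoidHom.comp_apply, Subgroup.coe_subtype, one_mul, ← map_inv, ← map_mul,
      cu35_sig_std, hφdef]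
    rw [mul_assoc]
  -- the right hand side along the transversal
  have hbij : Function.Bijective fun p : G × ↥R => (p.1 : SL(2, ℤ)) * (p.2 : SL(2, ℤ)) := by
    constructor
    · rintro ⟨g, r⟩ ⟨g', r'⟩ hgr
      simp only at hgr
      have hr : (r : SL(2, ℤ)) = r' :=
        (hR ((g : SL(2, ℤ)) * r)).unique ⟨r.2, g, g.2, rfl⟩ ⟨r'.2, g', g'.2, hgr⟩
      have hg : (g : SL(2, ℤ)) = g' := by
        rw [hr] at hgr
        exact mul_right_cancel hgr
      exact Prod.ext (Subtype.ext hg) (Subtype.ext hr)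
    · intro h
      obtain ⟨r, ⟨hr, γ, hγ, rfl⟩, -⟩ := hR h
      exact ⟨(⟨γ, hγ⟩, ⟨r, hr⟩), rfl⟩
  unfold cm35_Psi
  rw [cr37_finsum_transversal G (fun p : G × ↥R => (p.1 : SL(2, ℤ)) * (p.2 : SL(2, ℤ))) hbij _
    (cm35_support hφ f 1 (η : SL(2, ℤ))), ← Finset.sum_coe_sort R]
  refine Finset.sum_congr rfl fun r _ => ?_
  rw [hX, mul_finsum]
  refine finsum_congr fun g => ?_
  simp only [hf g.1 g.2, inv_one, one_mul]

end Fermat.Agent.S41
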