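/-
S41 / M3x (crossing route, helper35): THE ASSEMBLY.  Dual Ihara modulo `p` for the lattices of
integer valued symbols of levels `N` and `N q` (conventions C1-C6), from

* the crossing symbols `PhiN η`, `PhiQ η` with the properties `cx35_IsCross` (helper37:
  symbols, additive in `η`, Hecke / trace / Atkin-Lehner compatibilities, values on the Farey
  edges = the crossing numbers `cr37_XG`),
* Ihara's lemma on the Hom side (helper88: `hic88_H1'`).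

`cx35_DI` is in plain-function form: for integer valued symbols `φ₁ φ₂` of level `N` there are
symbols `Φ` (level `N q`), `ψ₁ ψ₂` (level `N`) with
`E^n φ₁ = tr Φ + p ψ₁`, `E^n φ₂ = tr (W Φ) + p ψ₂`,  `E = T_ℓ - (ℓ + 1)`.
-/
import Mathlib
import Fermat.Agent.S41.CrossPerf35
import Fermat.Agent.S41.CrossUnfold35
import Fermat.Agent.S41.CrossFin37
import Fermat.Agent.S41.HomIharaConc88

set_option autoImplicit false

open CongruenceSubgroup OnePoint Matrix ModularGroup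
open scoped MatrixGroups

namespace Fermat.Agent.S41

open Fermat.Agent.S16

/-- The properties of the crossing symbols used by the crossing route. -/
structure cx35_IsCross {N q : ℕ} (D : tr43_Data N q) {ℓ : ℕ} (hℓ : ℓ.Prime) (hℓN : ¬ ℓ ∣ N)
    (PhiN : Gamma0 N → sc71_X → ℤ) (PhiQ : Gamma0 (N * q) → sc71_X → ℤ) : Prop where
  symbN : ∀ η, slp10_IsSymb N (PhiN η)
  symbQ : ∀ η, slp10_IsSymb (N * q) (PhiQ η)
  mulN : ∀ η₁ η₂, PhiN (η₁ * η₂) = PhiN η₁ + PhiN η₂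
  mulQ : ∀ η₁ η₂, PhiQ (η₁ * η₂) = PhiQ η₁ + PhiQ η₂
  hecke : ∀ η, tr43_T ℓ (PhiN η) = ∑ i, PhiN ((hh_repsT N ℓ hℓ hℓN).κ i η)
  tr : ∀ η : Gamma0 (N * q), tr43_tr D (PhiQ η) = PhiN (hic88_incl N q η)
  W : ∀ η η' : Gamma0 (N * q),
    D.inv.w * ((η : SL(2, ℤ)) : Matrix (Fin 2) (Fin 2) ℤ) =
      ((η' : SL(2, ℤ)) : Matrix (Fin 2) (Fin 2) ℤ) * D.inv.w → tr43_W D (PhiQ η) = PhiQ η'
  edge : ∀ (η : Gamma0 N) (r : SL(2, ℤ)), PhiN η (cx35_edge r) =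
    cr37_XG (Gamma0 N) ((SpecialLinearGroup.mapGL ℚ r : GL (Fin 2) ℚ).1 *ᵥ ![1, 0])
      ((SpecialLinearGroup.mapGL ℚ r : GL (Fin 2) ℚ).1 *ᵥ ![0, 1]) η

section Ops

variable {N q : ℕ}

/-- the trace `L (N q) → L N`. -/
noncomputable def cx35_trL (hq : q.Prime) (D : tr43_Data N q) :
    ↥(cx35_L (N * q)) →+ ↥(cx35_L N) :=
  AddMonoidHom.mk'
    (fun Φ => ⟨tr43_tr D Φ.1, ⟨sc71_IsSymb.tr D Φ.2.1, tr43_tr_Inv hq D Φ.2.2⟩⟩)
    (fun Φ Ψ => Subtype.ext (tr43_tr_add D Φ.1 Ψ.1))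

/-- the Atkin-Lehner operator on `L (N q)`. -/
noncomputable def cx35_WL (hq : q ≠ 0) (D : tr43_Data N q) :
    ↥(cx35_L (N * q)) →+ ↥(cx35_L (N * q)) :=
  AddMonoidHom.mk'
    (fun Φ => ⟨tr43_W D Φ.1, ⟨sc71_IsSymb.W D Φ.2.1, tr43_W_Inv hq D Φ.2.2⟩⟩)
    (fun Φ Ψ => Subtype.ext (tr43_W_add D Φ.1 Ψ.1))

/-- the Hecke operator `T_ℓ` on `L N`. -/
noncomputable def cx35_TL {ℓ : ℕ} (hℓ : ℓ.Prime) (hℓN : ¬ ℓ ∣ N) : ↥(cx35_L N) →+ ↥(cx35_L N) :=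
  AddMonoidHom.mk'
    (fun Φ => ⟨tr43_T ℓ Φ.1, ⟨sc71_IsSymb.T Φ.2.1 ℓ, tr43_T_Inv hℓ hℓN Φ.2.2⟩⟩)
    (fun Φ Ψ => Subtype.ext (tr43_T_add ℓ Φ.1 Ψ.1))

/-- the crossing map `(L M →+ ℤ) → Hom(Γ₀(M), ℤ)`, `α ↦ (η ↦ α (Phi η))`. -/
noncomputable def cx35_XL (M : ℕ) (Phi : Gamma0 M → sc71_X → ℤ)
    (hs : ∀ η, slp10_IsSymb M (Phi η)) (hm : ∀ η₁ η₂, Phi (η₁ * η₂) = Phi η₁ + Phi η₂) :
    (↥(cx35_L M) →+ ℤ) →+ (Additive (Gamma0 M) →+ ℤ) :=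
  AddMonoidHom.mk'
    (fun α => AddMonoidHom.mk' (fun η => α ⟨Phi η.toMul, hs _⟩) (by
      intro η₁ η₂
      rw [← map_add]
      congr 1
      exact Subtype.ext (hm _ _)))
    (fun α β => by ext η; rfl)

theorem cx35_XL_apply (M : ℕ) (Phi : Gamma0 M → sc71_X → ℤ)
    (hs : ∀ η, slp10_IsSymb M (Phi η)) (hm : ∀ η₁ η₂, Phi (η₁ * η₂) = Phi η₁ + Phi η₂)
    (α : ↥(cx35_L M) →+ ℤ) (η : Gamma0 M) :
    cx35_XL M Phi hs hm α (Additive.ofMul η) = α ⟨Phi η, hs η⟩ := rfl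

/-- `(T - (ℓ+1))^n` on the lattice is the iterate of `hic88_E ℓ` on functions. -/
theorem cx35_pow_coe {ℓ : ℕ} (hℓ : ℓ.Prime) (hℓN : ¬ ℓ ∣ N) (n : ℕ) (Φ : ↥(cx35_L N)) :
    (lr54_pow (cx35_TL hℓ hℓN) ((ℓ : ℤ) + 1) n Φ : ↥(cx35_L N)).1 = (hic88_E ℓ)^[n] Φ.1 := by
  induction n with
  | zero => rfl
  | succ n ih =>
    rw [lr54_pow_succ, Function.iterate_succ_apply', ← ih]
    rfl

end Ops

section Main

variable {N q : ℕ} [NeZero N] [NeZero q]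

omit [NeZero N] in
/-- the conjugation identity behind the second degeneracy map. -/
theorem cx35_conj_eta (D : tr43_Data N q) (γ η' κ : Gamma0 (N * q))
    (hη' : D.inv.w * ((γ : SL(2, ℤ)) : Matrix (Fin 2) (Fin 2) ℤ) =
      ((η' : SL(2, ℤ)) : Matrix (Fin 2) (Fin 2) ℤ) * D.inv.w)
    (hκ : D.w * ((γ : SL(2, ℤ)) : Matrix (Fin 2) (Fin 2) ℤ) =
      ((κ : SL(2, ℤ)) : Matrix (Fin 2) (Fin 2) ℤ) * D.w) :
    κ * D.eta = D.eta * η' := by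
  have hq0 : (q : ℤ) ≠ 0 := by exact_mod_cast NeZero.ne q
  set G : Matrix (Fin 2) (Fin 2) ℤ := ((γ : SL(2, ℤ)) : Matrix (Fin 2) (Fin 2) ℤ) with hG
  set E' : Matrix (Fin 2) (Fin 2) ℤ := ((η' : SL(2, ℤ)) : Matrix (Fin 2) (Fin 2) ℤ) with hE'
  set K : Matrix (Fin 2) (Fin 2) ℤ := ((κ : SL(2, ℤ)) : Matrix (Fin 2) (Fin 2) ℤ) with hK
  -- `γ w = w η'`
  have h1 : G * D.w = D.w * E' := by
    have e1 : (q : ℤ) • (G * D.w) = (q : ℤ) • (D.w * E') := by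
      calc (q : ℤ) • (G * D.w) = (D.w * D.inv.w) * G * D.w := by
            rw [D.w_mul_inv, Matrix.smul_mul, Matrix.one_mul, Matrix.smul_mul]
        _ = D.w * (D.inv.w * G) * D.w := by rw [Matrix.mul_assoc D.w]
        _ = D.w * (E' * D.inv.w) * D.w := by rw [hη']
        _ = D.w * E' * (D.inv.w * D.w) := by simp only [Matrix.mul_assoc]
        _ = (q : ℤ) • (D.w * E') := by
            rw [D.inv_mul_w, Matrix.mul_smul, Matrix.mul_one]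
    exact smul_right_injective _ hq0 e1
  have h2 : K * (D.w * D.w) = (D.w * D.w) * E' := by
    calc K * (D.w * D.w) = (K * D.w) * D.w := by rw [Matrix.mul_assoc]
      _ = (D.w * G) * D.w := by rw [hκ]
      _ = D.w * (G * D.w) := by rw [Matrix.mul_assoc]
      _ = D.w * (D.w * E') := by rw [h1]
      _ = (D.w * D.w) * E' := by rw [Matrix.mul_assoc]
  rw [D.w_mul_w, Matrix.mul_smul, Matrix.smul_mul] at h2
  have h3 := smul_right_injective _ hq0 h2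
  apply Subtype.ext
  apply Subtype.ext
  rw [Subgroup.coe_mul, Matrix.SpecialLinearGroup.coe_mul, Subgroup.coe_mul,
    Matrix.SpecialLinearGroup.coe_mul]
  exact h3

/-- **Dual Ihara modulo `p` from the crossing pairing** (concrete, plain-function form). -/
theorem cx35_DI (p : ℕ) (hp : p.Prime) (hp2 : p ≠ 2) (hq : q.Prime) (D : tr43_Data N q)
    {ℓ : ℕ} (hℓ : ℓ.Prime) (hℓN : ¬ ℓ ∣ N)
    {PhiN : Gamma0 N → sc71_X → ℤ} {PhiQ : Gamma0 (N * q) → sc71_X → ℤ}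
    (hX : cx35_IsCross D hℓ hℓN PhiN PhiQ) (n : ℕ)
    (hIh : ∀ α₁ α₂ : Additive (Gamma0 N) →+ ℤ,
      (∃ β' : Additive (Gamma0 (N * q)) →+ ℤ,
        hic88_res₁ N q ℤ α₁ + hic88_res₂ N q ℤ α₂ = (p : ℤ) • β') →
      (∃ α', lr54_pow (heckeHom N ℓ ℤ) ((ℓ : ℤ) + 1) n α₁ = (p : ℤ) • α') ∧
        (∃ α', lr54_pow (heckeHom N ℓ ℤ) ((ℓ : ℤ) + 1) n α₂ = (p : ℤ) • α'))
    (φ₁ φ₂ : sc71_X → ℤ) (h₁ : slp10_IsSymb N φ₁) (h₂ : slp10_IsSymb N φ₂) :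
    ∃ Φ ψ₁ ψ₂ : sc71_X → ℤ, slp10_IsSymb (N * q) Φ ∧ slp10_IsSymb N ψ₁ ∧ slp10_IsSymb N ψ₂ ∧
      (hic88_E ℓ)^[n] φ₁ = tr43_tr D Φ + (p : ℤ) • ψ₁ ∧
      (hic88_E ℓ)^[n] φ₂ = tr43_tr D (tr43_W D Φ) + (p : ℤ) • ψ₂ := by
  classical
  have hq0 : q ≠ 0 := hq.ne_zero
  obtain ⟨R, hR⟩ := cm35_exists_reps (Gamma0 N)
  have hR' : ∀ h, ∃ r, r ∈ R ∧ ∃ γ ∈ Gamma0 N, h = γ * r := fun h => (hR h).exists
  set XLN := cx35_XL N PhiN hX.symbN hX.mulN with hXLN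
  set XLQ := cx35_XL (N * q) PhiQ hX.symbQ hX.mulQ with hXLQ
  set trL := cx35_trL hq D with htrL
  set WL := cx35_WL hq0 D with hWL
  set TL := cx35_TL (N := N) hℓ hℓN with hTL
  obtain ⟨b, y, hby⟩ := cx35_mod_p (L := ↥(cx35_L N)) (M := ↥(cx35_L (N * q))) p hp trL
    (trL.comp WL) TL ((ℓ : ℤ) + 1)
    (cx35_pd1 (cx35_ev N R) (cx35_ev_injective R hR') (cx35_ev_saturated R hR') p)
    XLN XLQ (hic88_res₁ N q ℤ) (hic88_res₂ N q ℤ) (heckeHom N ℓ ℤ)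
    (by
      -- first degeneracy map
      intro α
      refine AddMonoidHom.ext fun γ => ?_
      obtain ⟨γ, rfl⟩ := Additive.ofMul.surjective γ
      show α (trL ⟨PhiQ γ, hX.symbQ γ⟩) = α ⟨PhiN (hic88_incl N q γ), hX.symbN _⟩
      congr 1
      exact Subtype.ext (hX.tr γ))
    (by
      -- second degeneracy map
      intro α
      refine AddMonoidHom.ext fun γ => ?_
      obtain ⟨γ, rfl⟩ := Additive.ofMul.surjective γ
      obtain ⟨η', hη'⟩ := D.inv.w_mul_Gamma0 γ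
      obtain ⟨κ, hκ⟩ := D.w_mul_Gamma0 γ
      have e1 : hic88_res₂ N q ℤ (XLN α) (Additive.ofMul γ) =
          XLN α (Additive.ofMul (hic88_incl N q κ)) :=
        hic88_isRes₂ D ℤ (XLN α) γ (hic88_incl N q κ) hκ.symm
      have e2 : cx35_dual (trL.comp WL) α ⟨PhiQ γ, hX.symbQ γ⟩ =
          XLN α (Additive.ofMul (hic88_incl N q η')) := by
        show α (trL (WL ⟨PhiQ γ, hX.symbQ γ⟩)) = α ⟨PhiN (hic88_incl N q η'), hX.symbN _⟩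
        congr 1
        apply Subtype.ext
        show tr43_tr D (tr43_W D (PhiQ γ)) = PhiN (hic88_incl N q η')
        rw [hX.W γ η' hη', hX.tr η']
      have e3 : XLN α (Additive.ofMul (hic88_incl N q κ)) =
          XLN α (Additive.ofMul (hic88_incl N q η')) := by
        have h := cx35_conj_eta D γ η' κ hη' hκ
        have h' := congrArg (fun g => XLN α (Additive.ofMul (hic88_incl N q g))) h
        simp only [map_mul, ofMul_mul, map_add] at h'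
        linarith
      show cx35_dual (trL.comp WL) α ⟨PhiQ γ, hX.symbQ γ⟩ = _
      rw [e2, e1, e3])
    (by
      -- Hecke
      intro α
      refine AddMonoidHom.ext fun γ => ?_
      obtain ⟨γ, rfl⟩ := Additive.ofMul.surjective γ
      rw [heckeHom_of_not_dvd hℓ hℓN, HeckeReps.op_apply]
      show α (TL ⟨PhiN γ, hX.symbN γ⟩) =
        ∑ i, α ⟨PhiN ((hh_repsT N ℓ hℓ hℓN).κ i γ), hX.symbN _⟩
      rw [← map_sum]
      congr 1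
      apply Subtype.ext
      rw [AddSubgroup.val_finsetSum]
      exact hX.hecke γ)
    (by
      -- perfectness
      rintro α ⟨χ', hχ'⟩
      refine cx35_perfect_conc p hp hp2 cm35_side_plus PhiN hX.symbN ?_ α ?_
      · intro R hR f hf η
        rw [← cu35_unfold (Gamma0 N) R hR f hf η]
        refine Finset.sum_congr rfl fun r _ => ?_
        rw [hX.edge η r]
        rfl
      · intro η
        have h := congrArg (fun χ : Additive (Gamma0 N) →+ ℤ => χ (Additive.ofMul η)) hχ'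
        simp only [AddMonoidHom.smul_apply, smul_eq_mul] at h
        have h2 : XLN α (Additive.ofMul η) = α ⟨PhiN η, hX.symbN η⟩ := rfl
        rw [← h2, h]
        exact Dvd.intro _ rfl)
    n hIh (⟨φ₁, h₁⟩, ⟨φ₂, h₂⟩)
  rw [di28_pow_prodMap] at hby
  have hb1 := congrArg (fun z : ↥(cx35_L N) × ↥(cx35_L N) => (z.1 : sc71_X → ℤ)) hby
  have hb2 := congrArg (fun z : ↥(cx35_L N) × ↥(cx35_L N) => (z.2 : sc71_X → ℤ)) hby
  refine ⟨b.1, y.1.1, y.2.1, b.2, y.1.2, y.2.2, ?_, ?_⟩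
  · rw [← cx35_pow_coe hℓ hℓN n ⟨φ₁, h₁⟩]
    exact hb1
  · rw [← cx35_pow_coe hℓ hℓN n ⟨φ₂, h₂⟩]
    exact hb2

/-- `cx35_DI` with Ihara on the Hom side supplied by `hic88_H1'` from Ihara on the symbol side
(`H1`, exponent `n₁`): the exponent is `n₁ + 2`. -/
theorem cx35_DI_of_H1 (p : ℕ) (hp : p.Prime) (hp2 : p ≠ 2) (hq : q.Prime) (D : tr43_Data N q)
    {ℓ : ℕ} (hℓ : ℓ.Prime) (hℓ1 : ℓ ≡ 1 [MOD N * q]) (hℓN : ¬ ℓ ∣ N)
    {PhiN : Gamma0 N → sc71_X → ℤ} {PhiQ : Gamma0 (N * q) → sc71_X → ℤ}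
    (hX : cx35_IsCross D hℓ hℓN PhiN PhiQ) (n₁ : ℕ)
    (H1 : ∀ φ₁ φ₂ : sc71_X → ℤ, sc71_IsSymb φ₁ → tr43_Inv N φ₁ → sc71_IsSymb φ₂ →
      tr43_Inv N φ₂ → (∀ x, (p : ℤ) ∣ φ₁ x + tr43_W D φ₂ x) →
      (∀ x, (p : ℤ) ∣ (hic88_E ℓ)^[n₁] φ₁ x) ∧ (∀ x, (p : ℤ) ∣ (hic88_E ℓ)^[n₁] φ₂ x))
    (φ₁ φ₂ : sc71_X → ℤ) (h₁ : slp10_IsSymb N φ₁) (h₂ : slp10_IsSymb N φ₂) :
    ∃ Φ ψ₁ ψ₂ : sc71_X → ℤ, slp10_IsSymb (N * q) Φ ∧ slp10_IsSymb N ψ₁ ∧ slp10_IsSymb N ψ₂ ∧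
      (hic88_E ℓ)^[n₁ + 2] φ₁ = tr43_tr D Φ + (p : ℤ) • ψ₁ ∧
      (hic88_E ℓ)^[n₁ + 2] φ₂ = tr43_tr D (tr43_W D Φ) + (p : ℤ) • ψ₂ :=
  cx35_DI p hp hp2 hq D hℓ hℓN hX (n₁ + 2)
    (fun α₁ α₂ h => hic88_H1' hq.ne_zero hℓ hℓ1 D _ _ (hic88_isRes₁ N q ℤ) (hic88_isRes₂ D ℤ) n₁
      H1 α₁ α₂ h) φ₁ φ₂ h₁ h₂

end Main

section Vec

/-- The Farey edge `(r ∞, r 0)` in vector form: for ANY choice `vec` of vectors representing
the cusps (`vec ∞ = (1, 0)`, `vec x = (x, 1)`), the crossing number of the edge is that of the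
two columns of `r`. -/
theorem cx35_edge_of_vec (vec : OnePoint ℚ → Fin 2 → ℚ) (hinf : vec ∞ = ![1, 0])
    (hcoe : ∀ x : ℚ, vec (x : OnePoint ℚ) = ![x, 1]) (G : Subgroup SL(2, ℤ)) (η : G)
    (r : SL(2, ℤ)) :
    cr37_XG G (vec (cx35_edge r).1) (vec (cx35_edge r).2) η =
      cr37_XG G ((SpecialLinearGroup.mapGL ℚ r : GL (Fin 2) ℚ).1 *ᵥ ![1, 0])
        ((SpecialLinearGroup.mapGL ℚ r : GL (Fin 2) ℚ).1 *ᵥ ![0, 1]) η := by
  -- the first column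
  have hcol : ∀ g : SL(2, ℤ), ∃ c : ℚ, c ≠ 0 ∧ vec (psl96_rho g ∞) =
      c • ((SpecialLinearGroup.mapGL ℚ g : GL (Fin 2) ℚ).1 *ᵥ ![1, 0]) := by
    intro g
    have hv : (SpecialLinearGroup.mapGL ℚ g : GL (Fin 2) ℚ).1 *ᵥ ![1, 0] =
        ![((g 0 0 : ℤ) : ℚ), ((g 1 0 : ℤ) : ℚ)] := by
      funext i
      fin_cases i
      · simp [cr37_mulVec0, SpecialLinearGroup.mapGL]
      · simp [cr37_mulVec1, SpecialLinearGroup.mapGL]
    rw [hv, psl96_rho_infty]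
    by_cases h10 : ((g 1 0 : ℤ) : ℚ) = 0
    · rw [if_pos h10, hinf]
      have hdet := cm35_det g
      have h10' : (g 1 0 : ℤ) = 0 := by exact_mod_cast h10
      rw [h10', mul_zero, sub_zero] at hdet
      have h00 : ((g 0 0 : ℤ) : ℚ) ≠ 0 := by
        intro h0
        have h0' : (g 0 0 : ℤ) = 0 := by exact_mod_cast h0
        rw [h0', zero_mul] at hdet
        exact zero_ne_one hdet
      refine ⟨((g 0 0 : ℤ) : ℚ)⁻¹, inv_ne_zero h00, ?_⟩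
      funext i
      fin_cases i
      · simp [h00]
      · simp [h10]
    · rw [if_neg h10, hcoe]
      refine ⟨((g 1 0 : ℤ) : ℚ)⁻¹, inv_ne_zero h10, ?_⟩
      funext i
      fin_cases i
      · simp [div_eq_inv_mul]
      · simp [h10]
  have hS : (SpecialLinearGroup.mapGL ℚ (r * S) : GL (Fin 2) ℚ).1 *ᵥ ![1, 0] =
      (SpecialLinearGroup.mapGL ℚ r : GL (Fin 2) ℚ).1 *ᵥ ![0, 1] := by
    rw [map_mul, Units.val_mul, ← Matrix.mulVec_mulVec]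
    congr 1
    funext i
    fin_cases i
    · simp [cr37_mulVec0, SpecialLinearGroup.mapGL, ModularGroup.coe_S]
    · simp [cr37_mulVec1, SpecialLinearGroup.mapGL, ModularGroup.coe_S]
  obtain ⟨c, hc, e1⟩ := hcol r
  obtain ⟨c', hc', e2⟩ := hcol (r * S)
  show cr37_XG G (vec (psl96_rho r ∞)) (vec (psl96_rho (r * S) ∞)) η = _
  rw [e1, e2, hS, cr37_XG_smul G _ _ c c' hc hc']

end Vec

end Fermat.Agent.S41
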