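/-
S41 / (b') duality, second route (crossing pairing): abstract Hecke transfer.

* `cr37_sum_transfer` : for elements `ρ i` of the ambient group permuted by `η` up to right
  multiplication by `t i ∈ Γ`, the sum of the `cr37_D ι σ (k ρ i) (k η⁻¹ ρ i)` is the sum of the
  crossing numbers at the `t i`.
* `cr37_D_regroup` : regrouping of a double coset sum from right cosets to left cosets.
* `cr37_X_res_hom` : the restriction formula for an injective homomorphism `H →* Γ`.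
-/
import Mathlib
import Fermat.Agent.S41.CrossFin37
import Fermat.Agent.S41.Trace43

set_option autoImplicit false

namespace Fermat.Agent.S41

section abs

variable {Γ 𝔾 : Type*} [Group Γ] [Group 𝔾]

/-- **Transfer along a permuted family.** -/
theorem cr37_sum_transfer {ι : Γ →* 𝔾} {σ : 𝔾 → ℤ} (h : cr37_Fin ι σ)
    {κ : Type*} [Fintype κ] (ρ : κ → 𝔾) (k : 𝔾) (η : Γ) (π : κ ≃ κ) (t : κ → Γ)
    (ht : ∀ i, (ι η)⁻¹ * ρ i = ρ (π i) * (ι (t i))⁻¹) :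
    ∑ i, cr37_D ι σ (k * ρ i) (k * (ι η)⁻¹ * ρ i) = ∑ i, cr37_X ι σ k (t i) := by
  have key : ∀ i, cr37_D ι σ (k * ρ i) (k * (ι η)⁻¹ * ρ i)
      = (cr37_D ι σ (k * ρ i) k - cr37_D ι σ (k * ρ (π i)) k) + cr37_X ι σ k (t i) := by
    intro i
    have e1 : k * (ι η)⁻¹ * ρ i = k * ρ (π i) * (ι (t i))⁻¹ := by
      rw [mul_assoc, ht i, mul_assoc]
    rw [e1]
    have a1 := cr37_D_add h (k * ρ i) (k * ρ (π i)) (k * ρ (π i) * (ι (t i))⁻¹)
    have a2 := cr37_D_add h (k * ρ i) k (k * ρ (π i))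
    have a3 := cr37_D_swap h (k * ρ (π i)) k
    have a4 := cr37_X_base h (k * ρ (π i)) k (t i)
    unfold cr37_X at a4 ⊢
    linarith
  rw [Finset.sum_congr rfl fun i _ => key i, Finset.sum_add_distrib, Finset.sum_sub_distrib]
  have hperm : ∑ i, cr37_D ι σ (k * ρ (π i)) k = ∑ i, cr37_D ι σ (k * ρ i) k :=
    Equiv.sum_comp π (fun i => cr37_D ι σ (k * ρ i) k)
  rw [hperm, sub_self, zero_add]

/-- **Regrouping** a sum over right cosets `Γ B i` into a sum over left cosets `ρ j Γ`. -/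
theorem cr37_D_regroup {ι : Γ →* 𝔾} {σ : 𝔾 → ℤ} {κ : Type*} [Fintype κ] (B ρ : κ → 𝔾)
    (hB : ∀ i, cr37_Fin ι (fun x => σ (x * B i)))
    (ψ : κ × Γ ≃ κ × Γ)
    (hψ : ∀ (p : κ × Γ) (k : 𝔾), σ (k * ι p.2 * B p.1) = σ (k * ρ (ψ p).1 * ι (ψ p).2))
    (k₁ k₂ : 𝔾) :
    ∑ i, cr37_D ι (fun x => σ (x * B i)) k₁ k₂ = ∑ j, cr37_D ι σ (k₁ * ρ j) (k₂ * ρ j) := by
  classical
  let f : κ × Γ → ℤ := fun p => σ (k₁ * ι p.2 * B p.1) - σ (k₂ * ι p.2 * B p.1)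
  let hh : κ × Γ → ℤ := fun p => σ (k₁ * ρ p.1 * ι p.2) - σ (k₂ * ρ p.1 * ι p.2)
  have hfh : ∀ p, f p = hh (ψ p) := by
    intro p
    show σ (k₁ * ι p.2 * B p.1) - σ (k₂ * ι p.2 * B p.1)
      = σ (k₁ * ρ (ψ p).1 * ι (ψ p).2) - σ (k₂ * ρ (ψ p).1 * ι (ψ p).2)
    rw [hψ p k₁, hψ p k₂]
  have hfsupp : (Function.support f).Finite := by
    have hi : ∀ i, (Function.support fun g : Γ => f (i, g)).Finite :=
      fun i => cr37_support_finite (hB i) k₁ k₂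
    refine (Set.finite_iUnion fun i => (hi i).image (Prod.mk i)).subset ?_
    rintro ⟨i, g⟩ hp
    exact Set.mem_iUnion.2 ⟨i, ⟨g, hp, rfl⟩⟩
  have hhsupp : (Function.support hh).Finite := by
    have : Function.support hh = ψ '' Function.support f := by
      ext p
      constructor
      · intro hp
        refine ⟨ψ.symm p, ?_, ψ.apply_symm_apply p⟩
        show f (ψ.symm p) ≠ 0
        rw [hfh, ψ.apply_symm_apply]
        exact hp
      · rintro ⟨p', hp', rfl⟩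
        show hh (ψ p') ≠ 0
        rw [← hfh]
        exact hp'
    rw [this]
    exact hfsupp.image _
  have hL : ∑ i, cr37_D ι (fun x => σ (x * B i)) k₁ k₂ = ∑ᶠ p, f p := by
    rw [finsum_curry f hfsupp, finsum_eq_sum_of_fintype]
    rfl
  have hR : ∑ j, cr37_D ι σ (k₁ * ρ j) (k₂ * ρ j) = ∑ᶠ p, hh p := by
    rw [finsum_curry hh hhsupp, finsum_eq_sum_of_fintype]
    rfl
  rw [hL, hR, ← finsum_comp_equiv ψ (f := hh)]
  exact finsum_congr hfh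

/-! ### Restriction along an injective homomorphism -/

omit [Group Γ] in
/-- A finite-support `finsum` over `Γ` computed along a bijection `H × κ → Γ`. -/
theorem cr37_finsum_transversal' {H : Type*} {κ : Type*} [Fintype κ] (e : H × κ → Γ)
    (hbij : Function.Bijective e) (F : Γ → ℤ) (hF : (Function.support F).Finite) :
    ∑ᶠ g : Γ, F g = ∑ i, ∑ᶠ h : H, F (e (h, i)) := by
  classical
  let E : κ × H ≃ Γ := (Equiv.prodComm κ H).trans (Equiv.ofBijective e hbij)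
  have hE : ∀ p : κ × H, E p = e (p.2, p.1) := fun p => rfl
  rw [← finsum_comp_equiv E (f := F)]
  have hsupp : (Function.support fun p : κ × H => F (E p)).Finite :=
    hF.preimage (f := fun p : κ × H => E p) (fun a _ b _ hab => E.injective hab)
  rw [finsum_curry _ hsupp, finsum_eq_sum_of_fintype]
  rfl

/-- **Restriction** along a homomorphism `j : H →* Γ` with a right transversal `ρ`
(every `g : Γ` is uniquely `j h * ρ i`). -/
theorem cr37_X_res_hom {H : Type*} [Group H] (j : H →* Γ) {ι : Γ →* 𝔾} {σ : 𝔾 → ℤ}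
    (h : cr37_Fin ι σ) {κ : Type*} [Fintype κ] (ρ : κ → Γ)
    (hbij : Function.Bijective fun p : H × κ => j p.1 * ρ p.2) (k : 𝔾) (η : H) :
    cr37_X ι σ k (j η)
      = ∑ i, cr37_X (ι.comp j) (fun x => σ (x * ι (ρ i))) k η := by
  unfold cr37_X cr37_D
  rw [cr37_finsum_transversal' _ hbij _ (cr37_support_finite h k (k * (ι (j η))⁻¹))]
  refine Finset.sum_congr rfl fun i _ => finsum_congr fun g => ?_
  simp [mul_assoc]

/-- **Conjugation along a bijection** (no homomorphism property needed). -/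
theorem cr37_X_conj_equiv {Γ' : Type*} [Group Γ'] (ι : Γ →* 𝔾) (ι' : Γ' →* 𝔾) (c : Γ ≃ Γ')
    (d : 𝔾) (hc : ∀ γ : Γ, ι' (c γ) * d = d * ι γ) (σ : 𝔾 → ℤ) (k : 𝔾) (η : Γ) :
    cr37_X ι' (fun x => σ (x * d)) k (c η) = cr37_X ι σ (k * d) η := by
  have hD : ∀ k₁ k₂ : 𝔾, cr37_D ι' (fun x => σ (x * d)) k₁ k₂ = cr37_D ι σ (k₁ * d) (k₂ * d) := by
    intro k₁ k₂
    unfold cr37_D
    rw [← finsum_comp_equiv c
      (f := fun g : Γ' => σ (k₁ * ι' g * d) - σ (k₂ * ι' g * d))]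
    refine finsum_congr fun g => ?_
    rw [mul_assoc k₁, mul_assoc k₂, hc g, ← mul_assoc, ← mul_assoc]
  unfold cr37_X
  rw [hD]
  congr 1
  have h1 : (ι' (c η))⁻¹ * d = d * (ι η)⁻¹ := by
    rw [inv_mul_eq_iff_eq_mul, ← mul_assoc, hc η, mul_assoc, mul_inv_cancel, mul_one]
  rw [mul_assoc, h1, mul_assoc]

end abs

/-! ### Coset systems of subgroups of `SL(2, ℤ)` -/

section concrete

open Matrix MatrixGroups
open Fermat.Agent.S16

/-- the side function only depends on the matrix up to a nonzero scalar. -/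
theorem cr37_sig_scalar (a b : Fin 2 → ℚ) (h₁ h₂ : GL (Fin 2) ℚ) (s : ℚ) (hs : s ≠ 0)
    (h : h₁.1 = s • h₂.1) : cr37_sig a b h₁ = cr37_sig a b h₂ := by
  unfold cr37_sig
  rw [h, Matrix.smul_mulVec, Matrix.smul_mulVec]
  have e : cr37_B (s • (h₂.1 *ᵥ a)) (s • (h₂.1 *ᵥ b))
      = s ^ 2 * cr37_B (h₂.1 *ᵥ a) (h₂.1 *ᵥ b) := by
    unfold cr37_B
    simp only [Pi.smul_apply, smul_eq_mul]
    ring
  have hs2 : 0 < s ^ 2 := by positivity
  rw [e, mul_assoc, sign_mul, sign_pos hs2, one_mul]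

theorem cr37_mapGL_coe (g : SL(2, ℤ)) :
    ((Matrix.SpecialLinearGroup.mapGL ℚ g : GL (Fin 2) ℚ) : Matrix (Fin 2) (Fin 2) ℚ)
      = (Int.castRingHom ℚ).mapMatrix (g : Matrix (Fin 2) (Fin 2) ℤ) := by
  rw [← tr43_gl_sl, tr43_gl_coe (tr43_sl_det_ne g)]

theorem cr37_gl_mul_cancel (u : GL (Fin 2) ℚ) {X Z : Matrix (Fin 2) (Fin 2) ℚ}
    (h : u.1 * X = u.1 * Z) : X = Z := by
  have h1 := congrArg (fun W => (u⁻¹).1 * W) h
  simp only [← Matrix.mul_assoc] at h1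
  rwa [Units.inv_mul, Matrix.one_mul, Matrix.one_mul] at h1

theorem cr37_adj_adj (M : Matrix (Fin 2) (Fin 2) ℤ) : M.adjugate.adjugate = M := by
  ext i j
  fin_cases i <;> fin_cases j <;> simp [Matrix.adjugate_fin_two]

variable (G : Subgroup SL(2, ℤ))

/-- a coset system is self-adjoint if the adjugates of its representatives lie in the union
of its cosets. -/
def cr37_SA (S : LbSys G) : Prop :=
  ∀ i : S.ι, ∃ (j : S.ι) (κ : G),
    (S.mat i).adjugate = ((κ : SL(2, ℤ)) : Matrix (Fin 2) (Fin 2) ℤ) * S.mat j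

theorem cr37_lb_inj (S : LbSys G) {i₁ i₂ : S.ι} {g₁ g₂ : G}
    (h : ((g₁ : SL(2, ℤ)) : Matrix (Fin 2) (Fin 2) ℤ) * S.mat i₁
      = ((g₂ : SL(2, ℤ)) : Matrix (Fin 2) (Fin 2) ℤ) * S.mat i₂) : i₁ = i₂ ∧ g₁ = g₂ := by
  have h1 : S.mat i₁ * (((1 : G) : SL(2, ℤ)) : Matrix (Fin 2) (Fin 2) ℤ)
      = (((g₁⁻¹ * g₂ : G) : SL(2, ℤ)) : Matrix (Fin 2) (Fin 2) ℤ) * S.mat i₂ := by
    rw [Subgroup.coe_one, Matrix.SpecialLinearGroup.coe_one, mul_one, Subgroup.coe_mul,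
      Matrix.SpecialLinearGroup.coe_mul, Matrix.mul_assoc, ← h, ← Matrix.mul_assoc,
      ← Matrix.SpecialLinearGroup.coe_mul, ← Subgroup.coe_mul, inv_mul_cancel, Subgroup.coe_one,
      Matrix.SpecialLinearGroup.coe_one, one_mul]
  obtain ⟨e1, e2⟩ := S.eq_of_mat_mul h1
  rw [S.perm_one] at e1
  rw [S.kap_one] at e2
  exact ⟨e1, inv_mul_eq_one.mp e2.symm⟩

theorem cr37_coe_inv (g : G) :
    (((g⁻¹ : G) : SL(2, ℤ)) : Matrix (Fin 2) (Fin 2) ℤ)
      = (((g : SL(2, ℤ)) : Matrix (Fin 2) (Fin 2) ℤ)).adjugate := by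
  rw [Subgroup.coe_inv, Matrix.SpecialLinearGroup.coe_inv]

theorem cr37_lb_inj2 (S : LbSys G) {j₁ j₂ : S.ι} {g₁ g₂ : G}
    (h : (S.mat j₁).adjugate * ((g₁ : SL(2, ℤ)) : Matrix (Fin 2) (Fin 2) ℤ)
      = (S.mat j₂).adjugate * ((g₂ : SL(2, ℤ)) : Matrix (Fin 2) (Fin 2) ℤ)) :
    j₁ = j₂ ∧ g₁ = g₂ := by
  have h1 := congrArg Matrix.adjugate h
  rw [Matrix.adjugate_mul_distrib, Matrix.adjugate_mul_distrib, cr37_adj_adj, cr37_adj_adj,
    ← cr37_coe_inv, ← cr37_coe_inv] at h1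
  obtain ⟨e1, e2⟩ := cr37_lb_inj G S h1
  exact ⟨e1, inv_inj.mp e2⟩

theorem cr37_lb_ex1 (S : LbSys G) (hSA : cr37_SA G S) (i : S.ι) (g : G) :
    ∃ (j : S.ι) (g' : G), ((g : SL(2, ℤ)) : Matrix (Fin 2) (Fin 2) ℤ) * S.mat i
      = (S.mat j).adjugate * ((g' : SL(2, ℤ)) : Matrix (Fin 2) (Fin 2) ℤ) := by
  obtain ⟨j₁, κ₁, h₁⟩ := hSA i
  have h₂ := S.mat_mul g⁻¹ j₁
  refine ⟨S.perm g⁻¹ j₁, (κ₁ * S.kap g⁻¹ j₁)⁻¹, ?_⟩
  have e : (((g : SL(2, ℤ)) : Matrix (Fin 2) (Fin 2) ℤ) * S.mat i).adjugate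
      = (((κ₁ * S.kap g⁻¹ j₁ : G) : SL(2, ℤ)) : Matrix (Fin 2) (Fin 2) ℤ)
        * S.mat (S.perm g⁻¹ j₁) := by
    rw [Matrix.adjugate_mul_distrib, h₁, ← cr37_coe_inv, Matrix.mul_assoc, h₂,
      ← Matrix.mul_assoc, Subgroup.coe_mul, Matrix.SpecialLinearGroup.coe_mul]
  have e2 := congrArg Matrix.adjugate e
  rw [cr37_adj_adj, Matrix.adjugate_mul_distrib, ← cr37_coe_inv] at e2
  exact e2

theorem cr37_lb_ex3 (S : LbSys G) (hSA : cr37_SA G S) (j : S.ι) (g' : G) :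
    ∃ (i : S.ι) (g : G), ((g : SL(2, ℤ)) : Matrix (Fin 2) (Fin 2) ℤ) * S.mat i
      = (S.mat j).adjugate * ((g' : SL(2, ℤ)) : Matrix (Fin 2) (Fin 2) ℤ) := by
  obtain ⟨j₁, κ₁, h₁⟩ := hSA j
  refine ⟨S.perm g' j₁, κ₁ * S.kap g' j₁, ?_⟩
  rw [h₁, Matrix.mul_assoc, S.mat_mul g' j₁, ← Matrix.mul_assoc, Subgroup.coe_mul,
    Matrix.SpecialLinearGroup.coe_mul]

/-- the bijection between the right coset and the left coset coordinates of a self-adjoint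
double coset. -/
theorem cr37_lb_equiv (S : LbSys G) (hSA : cr37_SA G S) :
    ∃ ψ : S.ι × G ≃ S.ι × G, ∀ p : S.ι × G,
      ((p.2 : SL(2, ℤ)) : Matrix (Fin 2) (Fin 2) ℤ) * S.mat p.1
        = (S.mat (ψ p).1).adjugate * (((ψ p).2 : SL(2, ℤ)) : Matrix (Fin 2) (Fin 2) ℤ) := by
  classical
  have h1 : ∀ p : S.ι × G, ∃ p' : S.ι × G,
      ((p.2 : SL(2, ℤ)) : Matrix (Fin 2) (Fin 2) ℤ) * S.mat p.1
        = (S.mat p'.1).adjugate * ((p'.2 : SL(2, ℤ)) : Matrix (Fin 2) (Fin 2) ℤ) := by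
    intro p
    obtain ⟨j, g', h⟩ := cr37_lb_ex1 G S hSA p.1 p.2
    exact ⟨(j, g'), h⟩
  choose f hf using h1
  have hinj : Function.Injective f := by
    intro p₁ p₂ h
    have e := hf p₁
    rw [h, ← hf p₂] at e
    obtain ⟨a, b⟩ := cr37_lb_inj G S e
    exact Prod.ext a b
  have hsurj : Function.Surjective f := by
    intro p'
    obtain ⟨i, g, h⟩ := cr37_lb_ex3 G S hSA p'.1 p'.2
    refine ⟨(i, g), ?_⟩
    have e := hf (i, g)
    simp only at e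
    rw [h] at e
    obtain ⟨a, b⟩ := cr37_lb_inj2 G S e
    exact (Prod.ext a b).symm
  exact ⟨Equiv.ofBijective f ⟨hinj, hsurj⟩, fun p => hf p⟩

theorem cr37_sig_lb (a b : Fin 2 → ℚ) (S : LbSys G) (i j : S.ι) (g g' : G)
    (h : ((g : SL(2, ℤ)) : Matrix (Fin 2) (Fin 2) ℤ) * S.mat i
      = (S.mat j).adjugate * ((g' : SL(2, ℤ)) : Matrix (Fin 2) (Fin 2) ℤ))
    (k : GL (Fin 2) ℚ) :
    cr37_sig a b (k * cr37_incl G g * tr43_gl (S.mat i))
      = cr37_sig a b (k * (tr43_gl (S.mat j))⁻¹ * cr37_incl G g') := by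
  have hdj : (S.mat j).det ≠ 0 := (S.det_pos j).ne'
  have hdi : (S.mat i).det ≠ 0 := (S.det_pos i).ne'
  refine cr37_sig_scalar a b _ _ ((S.mat j).det : ℚ) (by exact_mod_cast hdj) ?_
  rw [Units.val_mul, Units.val_mul, Units.val_mul, Units.val_mul, Matrix.mul_assoc,
    Matrix.mul_assoc k.1, ← Matrix.mul_smul]
  congr 1
  apply cr37_gl_mul_cancel (tr43_gl (S.mat j))
  rw [Matrix.mul_smul, ← Matrix.mul_assoc _ ((tr43_gl (S.mat j))⁻¹ : GL (Fin 2) ℚ).1,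
    Units.mul_inv, Matrix.one_mul, tr43_gl_coe hdj, tr43_gl_coe hdi]
  show _ * (((Matrix.SpecialLinearGroup.mapGL ℚ (g : SL(2, ℤ)) : GL (Fin 2) ℚ) :
      Matrix (Fin 2) (Fin 2) ℚ) * _)
    = _ • ((Matrix.SpecialLinearGroup.mapGL ℚ (g' : SL(2, ℤ)) : GL (Fin 2) ℚ) :
      Matrix (Fin 2) (Fin 2) ℚ)
  rw [cr37_mapGL_coe, cr37_mapGL_coe, ← map_mul, ← map_mul, h, ← Matrix.mul_assoc,
    Matrix.mul_adjugate, Matrix.smul_mul, Matrix.one_mul, RingHom.mapMatrix_apply,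
    RingHom.mapMatrix_apply]
  ext x y
  rw [Matrix.map_apply, Matrix.smul_apply, Matrix.smul_apply, Matrix.map_apply, smul_eq_mul,
    smul_eq_mul, map_mul]
  rfl

theorem cr37_gl_det_pos {M : Matrix (Fin 2) (Fin 2) ℤ} (hM : 0 < M.det) :
    0 < (tr43_gl M).1.det := by
  rw [tr43_gl_coe hM.ne', tr43_det_map]
  exact_mod_cast hM

/-- **Hecke compatibility.**  For a self-adjoint coset system `S` of `G`, the sum of the
crossing numbers of the moved geodesics `{α_i a, α_i b}` at `η` is the sum of the crossing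
numbers of `{a, b}` at the `κ_i(η)`: the symbol-side operator of `S` is the transfer
operator `S.coh` in the variable `η`. -/
theorem cr37_XG_hecke (S : LbSys G) (hSA : cr37_SA G S) (a b : Fin 2 → ℚ) (η : G) :
    ∑ i, cr37_XG G ((tr43_gl (S.mat i)).1 *ᵥ a) ((tr43_gl (S.mat i)).1 *ᵥ b) η
      = ∑ i, cr37_XG G a b (S.kap η i) := by
  obtain ⟨ψ, hψ⟩ := cr37_lb_equiv G S hSA
  have hdet : ∀ i, 0 < (tr43_gl (S.mat i)).1.det := fun i => cr37_gl_det_pos (S.det_pos i)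
  have h1 : ∀ i, cr37_XG G ((tr43_gl (S.mat i)).1 *ᵥ a) ((tr43_gl (S.mat i)).1 *ᵥ b) η
      = cr37_D (cr37_incl G) (fun x => cr37_sig a b (x * tr43_gl (S.mat i))) 1
        (1 * (cr37_incl G η)⁻¹) := fun i => cr37_XG_mulVec G a b _ (hdet i) η
  have hB : ∀ i, cr37_Fin (cr37_incl G) (fun x => cr37_sig a b (x * tr43_gl (S.mat i))) := by
    intro i
    have e : (fun x => cr37_sig a b (x * tr43_gl (S.mat i)))
        = cr37_sig ((tr43_gl (S.mat i)).1 *ᵥ a) ((tr43_gl (S.mat i)).1 *ᵥ b) :=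
      funext fun x => cr37_sig_mul a b x _ (hdet i)
    rw [e]
    exact cr37_finG G _ _
  rw [Finset.sum_congr rfl fun i _ => h1 i,
    cr37_D_regroup (fun i => tr43_gl (S.mat i)) (fun j => (tr43_gl (S.mat j))⁻¹) hB ψ
      (fun p k => cr37_sig_lb G a b S p.1 (ψ p).1 p.2 (ψ p).2 (hψ p) k) 1
      (1 * (cr37_incl G η)⁻¹)]
  refine cr37_sum_transfer (cr37_finG G a b) (fun j => (tr43_gl (S.mat j))⁻¹) 1 η
    (S.permEquiv η) (fun i => S.kap η i) ?_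
  intro i
  have hm := S.mat_mul η i
  have e : tr43_gl (S.mat i) * cr37_incl G η
      = cr37_incl G (S.kap η i) * tr43_gl (S.mat (S.perm η i)) := by
    show tr43_gl (S.mat i) * Matrix.SpecialLinearGroup.mapGL ℚ (η : SL(2, ℤ))
      = Matrix.SpecialLinearGroup.mapGL ℚ (S.kap η i : SL(2, ℤ)) * tr43_gl (S.mat (S.perm η i))
    rw [← tr43_gl_sl, ← tr43_gl_sl, ← tr43_gl_mul (S.det_pos i).ne' (tr43_sl_det_ne _),
      ← tr43_gl_mul (tr43_sl_det_ne _) (S.det_pos _).ne', hm]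
  have e2 := congrArg (fun x => x⁻¹) e
  simp only [_root_.mul_inv_rev] at e2
  exact e2

/-- the coset system of `T_ℓ` on `Γ₀(N)` (`ℓ ∤ N`) is self-adjoint. -/
theorem cr37_SA_T {N ℓ : ℕ} (hℓ : ℓ.Prime) (hℓN : ¬ ℓ ∣ N) :
    cr37_SA (CongruenceSubgroup.Gamma0 N) (lbSysT hℓ hℓN) := by
  intro i
  show ∃ (j : Option (Fin ℓ)) (κ : CongruenceSubgroup.Gamma0 N),
    (lbMat ℓ i).adjugate = ((κ : SL(2, ℤ)) : Matrix (Fin 2) (Fin 2) ℤ) * lbMat ℓ j
  rcases i with _ | j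
  · refine ⟨some ⟨0, hℓ.pos⟩, 1, ?_⟩
    rw [lbMat_none, lbMat_some, Matrix.adjugate_fin_two_of, Subgroup.coe_one,
      Matrix.SpecialLinearGroup.coe_one, one_mul]
    exact lb_mk_eq rfl (by simp) (by simp) rfl
  · refine ⟨none, lbMk N 1 (-((j : ℕ) : ℤ)) 0 1 (by ring) (dvd_zero _), ?_⟩
    rw [lbMat_some, Matrix.adjugate_fin_two_of, lbMk_coe, lb_mul_none']
    exact lb_mk_eq (by ring) (by ring) (by ring) (by ring)

end concrete

end Fermat.Agent.S41
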