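/-
S41 / (b') duality, second route (crossing pairing): the CROSSING SYMBOL on `ℙ¹(ℚ)`.

`cr37_Phi G η : OnePoint ℚ × OnePoint ℚ → ℤ` (for `G ≤ SL(2, ℤ)`, `η ∈ G`):
`cr37_Phi G η (c₁, c₂)` is the crossing number of the geodesic `{c₁, c₂}` with `η`.

* (S1) `cr37_Phi_add`    : additivity in the pair of cusps (a modular symbol);
* (S2) `cr37_Phi_inv`    : `G`-invariance; `cr37_Phi_Inv` : `tr43_Inv N` for `G = Γ₀(N)`;
* (S3) `cr37_Phi_mul`    : additivity in `η`;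
* (S4) `cr37_Phi_hecke`, `cr37_Phi_T` : `T_ℓ` on the symbol = transfer operator in `η`;
* (S5) `cr37_Phi_tr`     : the trace from `Γ₀(N q)` to `Γ₀(N)` of the crossing symbol of level
  `N q` at `η` is the crossing symbol of level `N` at `η`;
* (S6) `cr37_Phi_W`      : `W_q` on the crossing symbol = conjugation by `w` in `η`.
-/
import Mathlib
import Fermat.Agent.S41.CrossHecke37
import Fermat.Agent.S41.SymbCore71

set_option autoImplicit false

namespace Fermat.Agent.S41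

open Matrix MatrixGroups CongruenceSubgroup OnePoint
open Fermat.Agent.S16

/-! ### cusps and vectors -/

/-- the vector representing a cusp -/
def cr37_vec (c : OnePoint ℚ) : Fin 2 → ℚ :=
  Option.elim c ![1, 0] (fun x => ![x, 1])

theorem cr37_vec_infty : cr37_vec ∞ = ![1, 0] := rfl

theorem cr37_vec_coe (x : ℚ) : cr37_vec (x : OnePoint ℚ) = ![x, 1] := rfl

theorem cr37_dt_vec_ne {c c' : OnePoint ℚ} (h : c ≠ c') :
    cr37_dt (cr37_vec c) (cr37_vec c') ≠ 0 := by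
  induction c using OnePoint.rec with
  | infty =>
    induction c' using OnePoint.rec with
    | infty => exact absurd rfl h
    | coe y => simp [cr37_dt, cr37_vec_infty, cr37_vec_coe]
  | coe x =>
    induction c' using OnePoint.rec with
    | infty => simp [cr37_dt, cr37_vec_infty, cr37_vec_coe]
    | coe y =>
      simp only [cr37_dt, cr37_vec_coe, Matrix.cons_val_zero, Matrix.cons_val_one]
      intro hxy
      apply h
      have : x = y := by linarith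
      rw [this]

theorem cr37_dt_vec_self (c : OnePoint ℚ) : cr37_dt (cr37_vec c) (cr37_vec c) = 0 := by
  unfold cr37_dt
  ring

/-- the Möbius action on cusps is the linear action on vectors up to a scalar. -/
theorem cr37_vec_smul (g : GL (Fin 2) ℚ) (c : OnePoint ℚ) :
    ∃ t : ℚ, t ≠ 0 ∧ g.1 *ᵥ cr37_vec c = t • cr37_vec (g • c) := by
  have hdet : g.1 0 0 * g.1 1 1 - g.1 0 1 * g.1 1 0 ≠ 0 := by
    have := Matrix.GeneralLinearGroup.det_ne_zero g
    rwa [Matrix.det_fin_two] at this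
  induction c using OnePoint.rec with
  | infty =>
    rw [OnePoint.smul_infty_eq_ite]
    split_ifs with h0
    · refine ⟨g.1 0 0, ?_, ?_⟩
      · intro h00
        apply hdet
        rw [h00, h0]
        ring
      · ext i
        fin_cases i
        · simp [cr37_vec_infty, Matrix.mulVec, dotProduct, Fin.sum_univ_two]
        · simp [cr37_vec_infty, Matrix.mulVec, dotProduct, Fin.sum_univ_two, h0]
    · refine ⟨g.1 1 0, h0, ?_⟩
      ext i
      fin_cases i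
      · simp only [cr37_vec_infty, cr37_vec_coe, Matrix.mulVec, dotProduct, Fin.sum_univ_two,
          Fin.zero_eta, Fin.isValue, Matrix.cons_val_zero, Matrix.cons_val_one, mul_one, mul_zero,
          add_zero, Pi.smul_apply, smul_eq_mul]
        field_simp
      · simp [cr37_vec_infty, cr37_vec_coe, Matrix.mulVec, dotProduct, Fin.sum_univ_two]
  | coe x =>
    rw [OnePoint.smul_some_eq_ite]
    split_ifs with h0
    · refine ⟨g.1 0 0 * x + g.1 0 1, ?_, ?_⟩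
      · intro h1
        apply hdet
        linear_combination (-(g.1 1 0)) * h1 + (g.1 0 0) * h0
      · ext i
        fin_cases i
        · simp [cr37_vec_infty, cr37_vec_coe, Matrix.mulVec, dotProduct, Fin.sum_univ_two]
        · simp only [cr37_vec_infty, cr37_vec_coe, Matrix.mulVec, dotProduct, Fin.sum_univ_two,
            Fin.mk_one, Fin.isValue, Matrix.cons_val_zero, Matrix.cons_val_one, mul_one,
            Pi.smul_apply, smul_eq_mul, mul_zero]
          exact h0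
    · refine ⟨g.1 1 0 * x + g.1 1 1, h0, ?_⟩
      have h0' : x * g.1 1 0 + g.1 1 1 ≠ 0 := by
        rw [mul_comm]
        exact h0
      ext i
      fin_cases i
      · simp only [cr37_vec_coe, Matrix.mulVec, dotProduct, Fin.sum_univ_two,
          Fin.zero_eta, Fin.isValue, Matrix.cons_val_zero, Matrix.cons_val_one, mul_one,
          Pi.smul_apply, smul_eq_mul]
        field_simp
      · simp [cr37_vec_coe, Matrix.mulVec, dotProduct, Fin.sum_univ_two]

/-! ### the crossing symbol -/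

/-- the crossing symbol of `η ∈ G`: a `ℤ`-valued modular symbol on `ℙ¹(ℚ)`. -/
noncomputable def cr37_Phi (G : Subgroup SL(2, ℤ)) (η : G) : OnePoint ℚ × OnePoint ℚ → ℤ :=
  fun x => cr37_XG G (cr37_vec x.1) (cr37_vec x.2) η

theorem cr37_Phi_apply (G : Subgroup SL(2, ℤ)) (η : G) (a b : OnePoint ℚ) :
    cr37_Phi G η (a, b) = cr37_XG G (cr37_vec a) (cr37_vec b) η := rfl

theorem cr37_Phi_self (G : Subgroup SL(2, ℤ)) (η : G) (a : OnePoint ℚ) :
    cr37_Phi G η (a, a) = 0 :=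
  cr37_XG_of_dt_eq_zero G _ _ (cr37_dt_vec_self a) η

theorem cr37_Phi_swap (G : Subgroup SL(2, ℤ)) (η : G) (a b : OnePoint ℚ) :
    cr37_Phi G η (b, a) = - cr37_Phi G η (a, b) :=
  cr37_XG_swap G _ _ η

/-- **(S1)** the crossing symbol is additive in the pair of cusps. -/
theorem cr37_Phi_add (G : Subgroup SL(2, ℤ)) (η : G) (a b c : OnePoint ℚ) :
    cr37_Phi G η (a, b) + cr37_Phi G η (b, c) = cr37_Phi G η (a, c) := by
  by_cases hab : a = b
  · subst hab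
    rw [cr37_Phi_self, zero_add]
  by_cases hbc : b = c
  · subst hbc
    rw [cr37_Phi_self, add_zero]
  by_cases hac : a = c
  · subst hac
    rw [cr37_Phi_self, cr37_Phi_swap G η a b]
    ring
  have h := cr37_XG_tri G (cr37_vec a) (cr37_vec b) (cr37_vec c) (cr37_dt_vec_ne hab)
    (cr37_dt_vec_ne hbc) (cr37_dt_vec_ne (Ne.symm hac)) η
  have h2 := cr37_Phi_swap G η a c
  simp only [cr37_Phi_apply] at h2 ⊢
  linarith

/-- **(S3)** the crossing symbol is additive in `η`. -/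
theorem cr37_Phi_mul (G : Subgroup SL(2, ℤ)) (η₁ η₂ : G) :
    cr37_Phi G (η₁ * η₂) = cr37_Phi G η₁ + cr37_Phi G η₂ := by
  funext x
  exact cr37_XG_mul G _ _ η₁ η₂

theorem cr37_Phi_one (G : Subgroup SL(2, ℤ)) : cr37_Phi G 1 = 0 := by
  funext x
  exact cr37_XG_one G _ _

theorem cr37_Phi_inv' (G : Subgroup SL(2, ℤ)) (η : G) : cr37_Phi G η⁻¹ = - cr37_Phi G η := by
  funext x
  exact cr37_XG_inv G _ _ η

theorem cr37_Phi_conj (G : Subgroup SL(2, ℤ)) (η γ : G) :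
    cr37_Phi G (γ * η * γ⁻¹) = cr37_Phi G η := by
  rw [cr37_Phi_mul, cr37_Phi_mul, cr37_Phi_inv']
  abel

/-- the crossing symbol at a moved pair of cusps. -/
theorem cr37_Phi_smul (G : Subgroup SL(2, ℤ)) (η : G) (d : GL (Fin 2) ℚ)
    (x : OnePoint ℚ × OnePoint ℚ) :
    cr37_Phi G η (d • x) = cr37_XG G (d.1 *ᵥ cr37_vec x.1) (d.1 *ᵥ cr37_vec x.2) η := by
  obtain ⟨t₁, ht₁, e₁⟩ := cr37_vec_smul d x.1
  obtain ⟨t₂, ht₂, e₂⟩ := cr37_vec_smul d x.2
  rw [e₁, e₂, cr37_XG_smul G _ _ t₁ t₂ ht₁ ht₂]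
  rfl

/-- **(S2)** the crossing symbol is `G`-invariant. -/
theorem cr37_Phi_inv (G : Subgroup SL(2, ℤ)) (η γ : G) (x : OnePoint ℚ × OnePoint ℚ) :
    cr37_Phi G η (Matrix.SpecialLinearGroup.mapGL ℚ (γ : SL(2, ℤ)) • x) = cr37_Phi G η x := by
  rw [cr37_Phi_smul]
  exact cr37_XG_inv_G G _ _ γ η

/-- **(S2)** for `Γ₀(N)`, in the form of `Trace43`. -/
theorem cr37_Phi_Inv (N : ℕ) (η : Gamma0 N) : tr43_Inv N (cr37_Phi (Gamma0 N) η) :=
  fun γ x => cr37_Phi_inv (Gamma0 N) η γ x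

/-- **(S4)** the symbol-side operator of a self-adjoint coset system on the crossing symbol is
the transfer operator in the variable `η`. -/
theorem cr37_Phi_hecke (G : Subgroup SL(2, ℤ)) (S : LbSys G) (hSA : cr37_SA G S) (η : G) :
    ∑ i, tr43_sl (cr37_Phi G η) (S.mat i) = ∑ i, cr37_Phi G (S.kap η i) := by
  funext x
  simp only [Finset.sum_apply, tr43_sl_apply, cr37_Phi_smul]
  exact cr37_XG_hecke G S hSA _ _ η

/-- **(S4)** for `T_ℓ` on `Γ₀(N)`, `ℓ ∤ N`. -/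
theorem cr37_Phi_T {N ℓ : ℕ} (hℓ : ℓ.Prime) (hℓN : ¬ ℓ ∣ N) (η : Gamma0 N) :
    tr43_T ℓ (cr37_Phi (Gamma0 N) η)
      = ∑ i : Option (Fin ℓ), cr37_Phi (Gamma0 N) ((lbSysT hℓ hℓN).kap η i) :=
  cr37_Phi_hecke (Gamma0 N) (lbSysT hℓ hℓN) (cr37_SA_T hℓ hℓN) η

/-! ### (S5) the trace from `Γ₀(N q)` to `Γ₀(N)` -/

/-- `Γ₀(N q) ≤ Γ₀(N)`. -/
theorem cr37_Gamma0_le (N q : ℕ) : Gamma0 (N * q) ≤ Gamma0 N := by
  intro g hg
  have h1 := lb_Gamma0_dvd (⟨g, hg⟩ : Gamma0 (N * q))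
  rw [Gamma0_mem, ZMod.intCast_zmod_eq_zero_iff_dvd]
  exact (Int.natCast_dvd_natCast.mpr (dvd_mul_right N q)).trans h1

/-- the inclusion `Γ₀(N q) → Γ₀(N)`. -/
def cr37_j (N q : ℕ) : Gamma0 (N * q) →* Gamma0 N := Subgroup.inclusion (cr37_Gamma0_le N q)

theorem cr37_j_coe (N q : ℕ) (γ : Gamma0 (N * q)) :
    ((cr37_j N q γ : Gamma0 N) : SL(2, ℤ)) = (γ : SL(2, ℤ)) := rfl

theorem cr37_incl_comp_j (N q : ℕ) :
    (cr37_incl (Gamma0 N)).comp (cr37_j N q) = cr37_incl (Gamma0 (N * q)) :=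
  MonoidHom.ext fun _ => rfl

/-- the representatives `D.rep` form a right transversal of `Γ₀(N q)` in `Γ₀(N)`. -/
theorem cr37_rep_bij {N q : ℕ} (hq : q.Prime) (D : tr43_Data N q) :
    Function.Bijective fun p : Gamma0 (N * q) × Option (Fin q) => cr37_j N q p.1 * D.rep p.2 := by
  constructor
  · rintro ⟨h₁, i₁⟩ ⟨h₂, i₂⟩ e
    have e' : (h₁ : SL(2, ℤ)) * (D.rep i₁ : SL(2, ℤ)) = (h₂ : SL(2, ℤ)) * (D.rep i₂ : SL(2, ℤ)) :=
      congrArg (fun g : Gamma0 N => (g : SL(2, ℤ))) e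
    have e3 : (D.rep i₁ : SL(2, ℤ))
        = ((h₁⁻¹ * h₂ : Gamma0 (N * q)) : SL(2, ℤ)) * (D.rep i₂ : SL(2, ℤ)) := by
      rw [Subgroup.coe_mul, Subgroup.coe_inv, mul_assoc, ← e', inv_mul_cancel_left]
    have hi : i₁ = i₂ := by
      refine D.rep_unique hq i₁ i₂ _ ?_ (congrArg Subtype.val e3)
      have := lb_Gamma0_dvd (h₁⁻¹ * h₂)
      exact (Int.natCast_dvd_natCast.mpr (dvd_mul_left q N)).trans this
    subst hi
    have hh : (h₁ : SL(2, ℤ)) = (h₂ : SL(2, ℤ)) := mul_right_cancel e'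
    exact Prod.ext (Subtype.ext hh) rfl
  · intro g
    obtain ⟨i, M', hM', hdvd⟩ := D.rep_exists hq
      (((g : Gamma0 N) : SL(2, ℤ)) : Matrix (Fin 2) (Fin 2) ℤ) (lb_Gamma0_dvd g)
    have hdet : M'.det = 1 := by
      have := congrArg Matrix.det hM'
      rw [Matrix.det_mul, (g : SL(2, ℤ)).2, (D.rep i : SL(2, ℤ)).2, mul_one] at this
      exact this.symm
    refine ⟨(tr43_mk (N * q) M' hdet hdvd, i), ?_⟩
    apply Subtype.ext
    apply Subtype.ext
    exact hM'.symm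

/-- **(S5)** the trace of the crossing symbol of level `N q` is the crossing symbol of
level `N` (at the same `η ∈ Γ₀(N q)`). -/
theorem cr37_Phi_tr {N q : ℕ} (hq : q.Prime) (D : tr43_Data N q) (η : Gamma0 (N * q)) :
    tr43_tr D (cr37_Phi (Gamma0 (N * q)) η) = cr37_Phi (Gamma0 N) (cr37_j N q η) := by
  funext x
  rw [tr43_tr_apply]
  simp only [cr37_Phi_smul]
  have h := cr37_X_res_hom (cr37_j N q) (cr37_finG (Gamma0 N) (cr37_vec x.1) (cr37_vec x.2))
    D.rep (cr37_rep_bij hq D) 1 η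
  rw [cr37_incl_comp_j] at h
  show _ = cr37_X (cr37_incl (Gamma0 N)) (cr37_sig (cr37_vec x.1) (cr37_vec x.2)) 1 (cr37_j N q η)
  rw [h]
  refine Finset.sum_congr rfl fun i _ => ?_
  refine cr37_XG_mulVec (Gamma0 (N * q)) (cr37_vec x.1) (cr37_vec x.2)
    (Matrix.SpecialLinearGroup.mapGL ℚ (D.rep i : SL(2, ℤ))) ?_ η
  rw [cr37_det_mapGL]
  exact one_pos

/-! ### (S6) the Atkin–Lehner operator -/

theorem cr37_cancel_right {X Y M : Matrix (Fin 2) (Fin 2) ℤ} (hM : M.det ≠ 0)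
    (h : X * M = Y * M) : X = Y := by
  have h1 := congrArg (· * M.adjugate) h
  simp only [Matrix.mul_assoc, Matrix.mul_adjugate, Matrix.mul_smul, Matrix.mul_one] at h1
  exact smul_right_injective _ hM h1

theorem cr37_cancel_left {X Y M : Matrix (Fin 2) (Fin 2) ℤ} (hM : M.det ≠ 0)
    (h : M * X = M * Y) : X = Y := by
  have h1 := congrArg (M.adjugate * ·) h
  simp only [← Matrix.mul_assoc, Matrix.adjugate_mul, Matrix.smul_mul, Matrix.one_mul] at h1
  exact smul_right_injective _ hM h1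

/-- conjugation by the Atkin–Lehner matrix `w` as a bijection of `Γ₀(N q)`. -/
theorem cr37_w_equiv {N q : ℕ} (hq : q ≠ 0) (D : tr43_Data N q) :
    ∃ c : Gamma0 (N * q) ≃ Gamma0 (N * q), ∀ κ : Gamma0 (N * q),
      D.w * ((κ : SL(2, ℤ)) : Matrix (Fin 2) (Fin 2) ℤ)
        = ((c κ : SL(2, ℤ)) : Matrix (Fin 2) (Fin 2) ℤ) * D.w := by
  have hq' : (q : ℤ) ≠ 0 := by exact_mod_cast hq
  have hw : D.w.det ≠ 0 := by rw [D.w_det]; exact hq'
  have hw' : D.inv.w.det ≠ 0 := by rw [D.inv.w_det]; exact hq'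
  choose f hf using D.w_mul_Gamma0
  choose f' hf' using D.inv.w_mul_Gamma0
  refine ⟨⟨f, f', ?_, ?_⟩, hf⟩
  · intro κ
    apply Subtype.ext
    apply Subtype.ext
    have e : ((f' (f κ) : SL(2, ℤ)) : Matrix (Fin 2) (Fin 2) ℤ) * (D.inv.w * D.w)
        = (D.inv.w * D.w) * ((κ : SL(2, ℤ)) : Matrix (Fin 2) (Fin 2) ℤ) := by
      rw [← Matrix.mul_assoc, ← hf' (f κ), Matrix.mul_assoc, ← hf κ, Matrix.mul_assoc]
    rw [D.inv_mul_w] at e
    simp only [Matrix.mul_smul, Matrix.mul_one, Matrix.smul_mul, Matrix.one_mul] at e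
    exact smul_right_injective _ hq' e
  · intro κ
    apply Subtype.ext
    apply Subtype.ext
    have e : ((f (f' κ) : SL(2, ℤ)) : Matrix (Fin 2) (Fin 2) ℤ) * (D.w * D.inv.w)
        = (D.w * D.inv.w) * ((κ : SL(2, ℤ)) : Matrix (Fin 2) (Fin 2) ℤ) := by
      rw [← Matrix.mul_assoc, ← hf (f' κ), Matrix.mul_assoc, ← hf' κ, Matrix.mul_assoc]
    rw [D.w_mul_inv] at e
    simp only [Matrix.mul_smul, Matrix.mul_one, Matrix.smul_mul, Matrix.one_mul] at e
    exact smul_right_injective _ hq' e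

/-- **(S6)** `W_q` on the crossing symbol of level `N q` is conjugation by `w` in `η`:
`W (Φ_η) = Φ_{κ'}` for `κ' = w η w⁻¹`. -/
theorem cr37_Phi_W {N q : ℕ} (hq : q ≠ 0) (D : tr43_Data N q) (η κ' : Gamma0 (N * q))
    (h : D.w * ((η : SL(2, ℤ)) : Matrix (Fin 2) (Fin 2) ℤ)
      = ((κ' : SL(2, ℤ)) : Matrix (Fin 2) (Fin 2) ℤ) * D.w) :
    tr43_W D (cr37_Phi (Gamma0 (N * q)) η) = cr37_Phi (Gamma0 (N * q)) κ' := by
  have hq' : (q : ℤ) ≠ 0 := by exact_mod_cast hq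
  have hw : D.w.det ≠ 0 := by rw [D.w_det]; exact hq'
  have hwpos : 0 < D.w.det := by
    rw [D.w_det]
    exact_mod_cast Nat.pos_of_ne_zero hq
  obtain ⟨c, hc⟩ := cr37_w_equiv hq D
  have hκ' : c η = κ' := by
    apply Subtype.ext
    apply Subtype.ext
    apply cr37_cancel_right hw
    rw [← hc η, h]
  have hcGL : ∀ γ : Gamma0 (N * q), cr37_incl (Gamma0 (N * q)) (c γ) * tr43_gl D.w
      = tr43_gl D.w * cr37_incl (Gamma0 (N * q)) γ := by
    intro γ
    show Matrix.SpecialLinearGroup.mapGL ℚ (c γ : SL(2, ℤ)) * tr43_gl D.w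
      = tr43_gl D.w * Matrix.SpecialLinearGroup.mapGL ℚ (γ : SL(2, ℤ))
    rw [← tr43_gl_sl, ← tr43_gl_sl, ← tr43_gl_mul (tr43_sl_det_ne _) hw,
      ← tr43_gl_mul hw (tr43_sl_det_ne _), hc γ]
  have key : ∀ η₀ : Gamma0 (N * q),
      tr43_W D (cr37_Phi (Gamma0 (N * q)) (c η₀)) = cr37_Phi (Gamma0 (N * q)) η₀ := by
    intro η₀
    funext x
    rw [tr43_W_apply, cr37_Phi_smul,
      cr37_XG_mulVec (Gamma0 (N * q)) _ _ (tr43_gl D.w) (cr37_gl_det_pos hwpos) (c η₀),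
      cr37_X_conj_equiv (cr37_incl (Gamma0 (N * q))) (cr37_incl (Gamma0 (N * q))) c (tr43_gl D.w)
        hcGL (cr37_sig (cr37_vec x.1) (cr37_vec x.2)) 1 η₀]
    exact cr37_XG_base (Gamma0 (N * q)) _ _ _ η₀
  rw [← hκ', ← key η, key η]
  have h2 := tr43_W_W sc71_scalarTriv hq D (cr37_Phi_Inv (N * q) (c η))
  rw [key η] at h2
  exact h2

/-- **(S5)+(S6)** in the form of the second degeneracy map: for `γ' ∈ Γ₀(N)` with
`γ' w = w η`, `tr (W (Φ^{Nq}_η)) = Φ^N_{γ'}`. -/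
theorem cr37_Phi_tr_W {N q : ℕ} (hq : q.Prime) (D : tr43_Data N q) (η : Gamma0 (N * q))
    (γ' : Gamma0 N)
    (h : ((γ' : SL(2, ℤ)) : Matrix (Fin 2) (Fin 2) ℤ) * D.w
      = D.w * ((η : SL(2, ℤ)) : Matrix (Fin 2) (Fin 2) ℤ)) :
    tr43_tr D (tr43_W D (cr37_Phi (Gamma0 (N * q)) η)) = cr37_Phi (Gamma0 N) γ' := by
  have hq' : (q : ℤ) ≠ 0 := by exact_mod_cast hq.ne_zero
  have hw : D.w.det ≠ 0 := by rw [D.w_det]; exact hq'
  obtain ⟨κ', hκ'⟩ := D.w_mul_Gamma0 η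
  rw [cr37_Phi_W hq.ne_zero D η κ' hκ', cr37_Phi_tr hq D κ']
  congr 1
  apply Subtype.ext
  apply Subtype.ext
  apply cr37_cancel_right hw
  rw [h, hκ']
  rfl

end Fermat.Agent.S41
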