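/-
S41 / M5.F3 (helper74), adapter: the reduction link in the literal shape of the hypothesis `hF3`
of `NonEis92.lean` (`ne92_core`, `ne92_core_conj`, `ne92_fix_of_forall_dvd`).

`rl74_hF3`: `E` a Weierstrass curve over `ℚ`, `W` an integral model of `E` with `Δ(W) ≠ 0`,
`p` an odd prime.  For every prime `ℓ ∤ 2 p Δ(W)`, every valuation subring `A` of `ℚ̄` over `ℓ`
and every `τ` satisfying the Frobenius congruence `ne92_FrobOn E p A τ ℓ`: if
`p ∣ #W(𝔽_ℓ)` then `τ` fixes a nonzero point of `E[p](ℚ̄)`.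
-/
import Mathlib
import Fermat.Agent.S41.RedLink74
import Fermat.Agent.S41.NonEis92

set_option autoImplicit false

open WeierstrassCurve WeierstrassCurve.Affine WeierstrassCurve.Affine.Point

namespace Fermat.Agent.S41

local notation "Qb" => AlgebraicClosure ℚ
local notation "GQ" => (AlgebraicClosure ℚ ≃ₐ[ℚ] AlgebraicClosure ℚ)

/-- the exceptional set of the reduction link: the primes dividing `2 p Δ(W)`. -/
def rl74_S₀ (W : WeierstrassCurve ℤ) (p : ℕ) : Finset ℕ := (2 * p * W.Δ.natAbs).primeFactors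

/-- **Reduction link, `E`-form** (= hypothesis `hF3` of `NonEis92.lean` with
`S₀ = rl74_S₀ W p`). -/
theorem rl74_hF3 (E : WeierstrassCurve ℚ) {W : WeierstrassCurve ℤ} (hW : W.IsIntegralModelOf E)
    (hΔ : W.Δ ≠ 0) {p : ℕ} (hp : p.Prime) (hp2 : p ≠ 2) :
    ∀ ℓ : ℕ, ℓ.Prime → ℓ ∉ rl74_S₀ W p → ∀ A : ValuationSubring Qb, A.LiesOverPrime ℓ →
      ∀ τ : GQ, ne92_FrobOn E p A τ ℓ → p ∣ (W.reductionMod ℓ).card →
        ∃ P : Submodule.torsionBy ℤ (E⁄Qb).Point p, P ≠ 0 ∧ τ • P = P := by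
  intro ℓ hℓ hℓS A hA τ hFrob hdiv
  -- `ℓ ∤ 2 p Δ`
  have hne : 2 * p * W.Δ.natAbs ≠ 0 :=
    mul_ne_zero (mul_ne_zero two_ne_zero hp.ne_zero) (Int.natAbs_ne_zero.mpr hΔ)
  have hnd : ¬ ℓ ∣ 2 * p * W.Δ.natAbs := fun h => hℓS (Nat.mem_primeFactors.mpr ⟨hℓ, h, hne⟩)
  have hℓ2 : ℓ ≠ 2 := by
    intro h
    rw [h] at hnd
    exact hnd ((dvd_mul_right 2 p).mul_right _)
  have hℓp : ℓ ≠ p := by
    intro h
    rw [h] at hnd
    exact hnd ((dvd_mul_left p 2).mul_right _)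
  have hgood : ¬ (ℓ : ℤ) ∣ W.Δ := fun h => hnd ((Int.natCast_dvd.mp h).mul_left _)
  -- the curves
  obtain ⟨C, hC⟩ := hW
  have hWL : (W.map (Int.castRingHom ℚ)).baseChange Qb = W.map (Int.castRingHom Qb) := by
    have e : (algebraMap ℚ Qb).comp (Int.castRingHom ℚ) = Int.castRingHom Qb :=
      RingHom.ext_int _ _
    unfold WeierstrassCurve.baseChange
    rw [WeierstrassCurve.map_map, e]
  -- the Frobenius congruence on coordinates of `p`-torsion points
  have hτ : ∀ (x y : Qb)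
      (h : ((W.map (Int.castRingHom ℚ)).baseChange Qb).toAffine.Nonsingular x y),
      p • (Point.some x y h : ((W.map (Int.castRingHom ℚ)).baseChange Qb).toAffine.Point) = 0 →
        x ∈ A → y ∈ A →
        (τ : Qb →+* Qb) x - x ^ ℓ ∈ A.nonunits ∧ (τ : Qb →+* Qb) y - y ^ ℓ ∈ A.nonunits := by
    intro x y h ht hx hy
    have key : ∀ g : GQ, (∀ P : Submodule.torsionBy ℤ (E⁄Qb).Point p, g • P = P) →
        g x = x ∧ g y = y := by
      intro g hg
      have hPt : p • vc83_galEquiv Qb C hC.symm (Point.some x y h) = 0 := by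
        rw [← map_nsmul, ht, _root_.map_zero]
      have hmem : vc83_galEquiv Qb C hC.symm (Point.some x y h) ∈
          Submodule.torsionBy ℤ (E⁄Qb).Point p := by
        rw [Submodule.mem_torsionBy_iff, Nat.cast_smul_eq_nsmul]
        exact hPt
      have h1 := hg ⟨_, hmem⟩
      have h2 : g • vc83_galEquiv Qb C hC.symm (Point.some x y h) =
          vc83_galEquiv Qb C hC.symm (Point.some x y h) := congrArg Subtype.val h1
      rw [← vc83_galEquiv_smul] at h2
      have h3 := (vc83_galEquiv Qb C hC.symm).injective h2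
      rw [algEquiv_smul_def, Point.map_some, Point.some.injEq] at h3
      exact h3
    exact ⟨hFrob x hx (fun g hg => (key g hg).1), hFrob y hy (fun g hg => (key g hg).2)⟩
  obtain ⟨x, y, h, ht, hx, hy⟩ :=
    rl74_frob_fixed W hp hp2 hℓ hℓ2 hℓp hgood hdiv hWL A hA (τ : Qb →+* Qb) hτ
  -- transport to `E`
  have hP0 : vc83_galEquiv Qb C hC.symm (Point.some x y h) ≠ 0 :=
    (AddEquiv.map_ne_zero_iff _).mpr (Point.some_ne_zero h)
  have hPt : p • vc83_galEquiv Qb C hC.symm (Point.some x y h) = 0 := by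
    rw [← map_nsmul, ht, _root_.map_zero]
  have hmem : vc83_galEquiv Qb C hC.symm (Point.some x y h) ∈
      Submodule.torsionBy ℤ (E⁄Qb).Point p := by
    rw [Submodule.mem_torsionBy_iff, Nat.cast_smul_eq_nsmul]
    exact hPt
  have hτP₂ : τ • (Point.some x y h :
      ((W.map (Int.castRingHom ℚ)).baseChange Qb).toAffine.Point) = Point.some x y h := by
    rw [algEquiv_smul_def, Point.map_some]
    exact vc83_some_congr hx hy
  have hτP : τ • vc83_galEquiv Qb C hC.symm (Point.some x y h) =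
      vc83_galEquiv Qb C hC.symm (Point.some x y h) := by
    rw [← vc83_galEquiv_smul, hτP₂]
  exact ⟨⟨_, hmem⟩, fun h0 => hP0 (congrArg Subtype.val h0), Subtype.ext hτP⟩

/-- **Reduction link, `W`-form** (shape (F3-W) of the NE interface, Frobenius congruence on the
field of definition of `W[p]` unfolded): for `ℓ ∤ 2 p Δ(W)`, `A` over `ℓ` and `τ` Frobenius-like on
`A ∩ ℚ(W[p])`, if `p ∣ #W(𝔽_ℓ)` then `τ` fixes a nonzero `p`-torsion point of `W` over `ℚ̄`. -/
theorem rl74_F3W (W : WeierstrassCurve ℤ) (hΔ : W.Δ ≠ 0) {p : ℕ} (hp : p.Prime) (hp2 : p ≠ 2) :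
    ∀ ℓ : ℕ, ℓ.Prime → ℓ ∉ rl74_S₀ W p → ∀ A : ValuationSubring Qb, A.LiesOverPrime ℓ →
      ∀ τ : GQ,
        (∀ x ∈ A, (∀ g : GQ, (∀ P : (W⁄Qb).Point, p • P = 0 → g • P = P) → g x = x) →
          τ x - x ^ ℓ ∈ A.nonunits) →
        p ∣ (W.reductionMod ℓ).card →
          ∃ P : (W⁄Qb).Point, P ≠ 0 ∧ p • P = 0 ∧ τ • P = P := by
  intro ℓ hℓ hℓS A hA τ hFrob hdiv
  have hne : 2 * p * W.Δ.natAbs ≠ 0 :=
    mul_ne_zero (mul_ne_zero two_ne_zero hp.ne_zero) (Int.natAbs_ne_zero.mpr hΔ)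
  have hnd : ¬ ℓ ∣ 2 * p * W.Δ.natAbs := fun h => hℓS (Nat.mem_primeFactors.mpr ⟨hℓ, h, hne⟩)
  have hℓ2 : ℓ ≠ 2 := by
    intro h
    rw [h] at hnd
    exact hnd ((dvd_mul_right 2 p).mul_right _)
  have hℓp : ℓ ≠ p := by
    intro h
    rw [h] at hnd
    exact hnd ((dvd_mul_left p 2).mul_right _)
  have hgood : ¬ (ℓ : ℤ) ∣ W.Δ := fun h => hnd ((Int.natCast_dvd.mp h).mul_left _)
  have hWL : W.baseChange Qb = W.map (Int.castRingHom Qb) := rfl
  have hτ : ∀ (x y : Qb) (h : (W.baseChange Qb).toAffine.Nonsingular x y),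
      p • (Point.some x y h : (W.baseChange Qb).toAffine.Point) = 0 → x ∈ A → y ∈ A →
        (τ : Qb →+* Qb) x - x ^ ℓ ∈ A.nonunits ∧ (τ : Qb →+* Qb) y - y ^ ℓ ∈ A.nonunits := by
    intro x y h ht hx hy
    have key : ∀ g : GQ, (∀ P : (W⁄Qb).Point, p • P = 0 → g • P = P) → g x = x ∧ g y = y := by
      intro g hg
      have h3 := hg (Point.some x y h) ht
      rw [algEquiv_smul_def, Point.map_some, Point.some.injEq] at h3
      exact h3
    exact ⟨hFrob x hx (fun g hg => (key g hg).1), hFrob y hy (fun g hg => (key g hg).2)⟩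
  obtain ⟨x, y, h, ht, hx, hy⟩ :=
    rl74_frob_fixed W hp hp2 hℓ hℓ2 hℓp hgood hdiv hWL A hA (τ : Qb →+* Qb) hτ
  refine ⟨Point.some x y h, Point.some_ne_zero h, ht, ?_⟩
  rw [algEquiv_smul_def, Point.map_some]
  exact vc83_some_congr hx hy

end Fermat.Agent.S41
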