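/-
S41 / M5 assembly twin (helper74): the non-Eisenstein prime theorem with NO hypothesis left,
in the exact shape of tasks row 276 (`ne92_exists_good_prime`).

`rl74_exists_good_prime`: `E/ℚ` elliptic with irreducible mod `p` Galois representation, `p` an
odd prime, `W` an integral model of `E`, `m > 0`, `S` a finite set of primes.  Then there is a
prime `ℓ ∉ S`, `ℓ ≡ 1 mod m`, good for `W`, with `p ∤ ℓ + 1 - a_ℓ(W)`.

Assembly of: `ne92_core_conj` (NonEis92), `fe8_exists_frob_coe` (FrobExist8, Frobenius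
existence), `rl74_hF3` (RedLinkE74, reduction link), `tc82_card_torsionBy_elliptic` (TorsCardE82,
`#E[p] = p²`) and `ro82_exists_conj` (RealOddUse82, complex conjugation is not scalar).
-/
import Mathlib
import Fermat.Agent.S41.RedLinkE74
import Fermat.Agent.S41.FrobExist8
import Fermat.Agent.S41.Corner82

set_option autoImplicit false

open WeierstrassCurve WeierstrassCurve.Affine WeierstrassCurve.Affine.Point

namespace Fermat.Agent.S41

local notation "Qb" => AlgebraicClosure ℚ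
local notation "GQ" => (AlgebraicClosure ℚ ≃ₐ[ℚ] AlgebraicClosure ℚ)

/-- the discriminant of an integral model of an elliptic curve is nonzero. -/
theorem rl74_Δ_ne_zero (E : WeierstrassCurve ℚ) [E.IsElliptic] {W : WeierstrassCurve ℤ}
    (hW : W.IsIntegralModelOf E) : W.Δ ≠ 0 := by
  obtain ⟨C, hC⟩ := hW
  intro h0
  have h1 : (W.map (Int.castRingHom ℚ)).Δ = 0 := by rw [map_Δ, h0, _root_.map_zero]
  rw [← hC, variableChange_Δ] at h1
  have hE : E.Δ ≠ 0 := (E.isUnit_Δ).ne_zero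
  rcases mul_eq_zero.mp h1 with h | h
  · exact (pow_ne_zero 12 (Units.ne_zero _)) h
  · exact hE h

/-- **Non-Eisenstein prime** (M5, complex-conjugation corner): for an elliptic curve `E/ℚ` with
irreducible mod `p` representation (`p` odd) and an integral model `W`, there are primes
`ℓ ≡ 1 mod m` outside any finite set with `W` good at `ℓ` and `p ∤ ℓ + 1 - a_ℓ`. -/
theorem rl74_exists_good_prime (E : WeierstrassCurve ℚ) [E.IsElliptic] {W : WeierstrassCurve ℤ}
    (hW : W.IsIntegralModelOf E) {p : ℕ} (hp : p.Prime) (hp2 : p ≠ 2)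
    (hirr : GaloisRepIsIrreducible (K := AlgebraicClosure ℚ) ℚ E p) (m : ℕ) (hm : 0 < m)
    (S : Finset ℕ) :
    ∃ ℓ : ℕ, ℓ.Prime ∧ ℓ ∉ S ∧ ℓ ≡ 1 [MOD m] ∧ W.IsGoodPrimeFor ℓ ∧
      ¬ (p : ℤ) ∣ (ℓ : ℤ) + 1 - W.apOfModel ℓ := by
  have : Fact p.Prime := ⟨hp⟩
  have hΔ : W.Δ ≠ 0 := rl74_Δ_ne_zero E hW
  have hcard := (tc82_card_torsionBy_elliptic E hp hp2).2
  have hlt : p < Nat.card (Submodule.torsionBy ℤ (E⁄Qb).Point p) := by
    rw [hcard]
    have := hp.one_lt
    nlinarith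
  obtain ⟨c, hcc, hc1, hc2⟩ := ro82_exists_conj E (hp.odd_of_ne_two hp2) hp.pos hlt
  exact ne92_core_conj E p hΔ hirr hcard
    (fun K _ _ _ σ S => fe8_exists_frob_coe K σ S) (rl74_S₀ W p) (rl74_hF3 E hW hΔ hp hp2)
    c hcc hc1 hc2 m hm S

end Fermat.Agent.S41
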