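import Mathlib
import Fermat.Agent.S41.Trace43b
import Fermat.Agent.S41.SymbCore71
import Fermat.Agent.S41.SymbLatticeP10
import Fermat.Agent.S41.IharaConc42
import Fermat.Agent.S41.CuspAdapted76

/-!
# S41 referee harness, part 1: the concrete level-raising datum (conventions C1–C6 of ruling #1357)

Everything is stated on the objects that are on main: `sc71_X = OnePoint ℚ × OnePoint ℚ`,
`slp10_V M ℂ` / `slp10_L M ℂ` (symbols of level `M`, integer valued ones), the `Trace43`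
operators `tr43_T`, `tr43_U`, `tr43_W`, `tr43_tr`, and `ic42_E ℓ = T_ℓ - (ℓ + 1)`.

* `rf7_T M ℓ`, `rf7_W D`, `rf7_res`, `rf7_tr D` : the operators as `ℂ`-linear maps on `slp10_V`;
* `rf7_i D`, `rf7_j D` : the two degeneracy maps `V N × V N ⇄ V (N q)`;
* equivariance, commutation, lattice stability, `j ∘ i`;
* `rf7_move` : for `ℓ ≡ 1 mod M` the `T_ℓ`-representatives move every cusp inside its
  `Γ₀(M)`-orbit (hypothesis `hmove` of `ic42_H1` / `ic42_E_boundary`);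
* `rf7_ha` : the first Ihara lemma in the lattice form `(ha)` of `lr52_core`.
-/

set_option autoImplicit false

open Matrix MatrixGroups CongruenceSubgroup OnePoint
open Fermat.Agent.S16

namespace Fermat.Agent.S41

/-! ### linearity and coefficient change for the function-level operators -/

section Lin

variable {X : Type*} [MulAction (GL (Fin 2) ℚ) X] {K : Type*} [Field K]

theorem rf7_T_smul (ℓ : ℕ) (c : K) (Φ : X → K) : tr43_T ℓ (c • Φ) = c • tr43_T ℓ Φ := by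
  funext x
  simp only [tr43_T_apply, Pi.smul_apply, smul_eq_mul, Finset.mul_sum]

theorem rf7_U_smul (q : ℕ) (c : K) (Φ : X → K) : tr43_U q (c • Φ) = c • tr43_U q Φ := by
  funext x
  simp only [tr43_U_apply, Pi.smul_apply, smul_eq_mul, Finset.mul_sum]

theorem rf7_W_smul {N q : ℕ} (D : tr43_Data N q) (c : K) (Φ : X → K) :
    tr43_W D (c • Φ) = c • tr43_W D Φ := rfl

theorem rf7_tr_smul {N q : ℕ} (D : tr43_Data N q) (c : K) (Φ : X → K) :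
    tr43_tr D (c • Φ) = c • tr43_tr D Φ := by
  funext x
  simp only [tr43_tr_apply, Pi.smul_apply, smul_eq_mul, Finset.mul_sum]

variable {A B : Type*} [AddCommGroup A] [AddCommGroup B]

theorem rf7_T_comp (g : A →+ B) (ℓ : ℕ) (Φ : X → A) :
    tr43_T ℓ (fun y => g (Φ y)) = fun y => g (tr43_T ℓ Φ y) := by
  funext x
  simp only [tr43_T_apply, map_sum]

theorem rf7_W_comp {N q : ℕ} (D : tr43_Data N q) (g : A →+ B) (Φ : X → A) :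
    tr43_W D (fun y => g (Φ y)) = fun y => g (tr43_W D Φ y) := rfl

theorem rf7_tr_comp {N q : ℕ} (D : tr43_Data N q) (g : A →+ B) (Φ : X → A) :
    tr43_tr D (fun y => g (Φ y)) = fun y => g (tr43_tr D Φ y) := by
  funext x
  simp only [tr43_tr_apply, map_sum]

theorem rf7_E_comp (g : A →+ B) (ℓ : ℕ) (Φ : X × X → A) :
    ic42_E ℓ (fun y => g (Φ y)) = fun y => g (ic42_E ℓ Φ y) :=
  funext fun x => ic42_E_comp g ℓ Φ x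

theorem rf7_E_iter_comp (g : A →+ B) (ℓ : ℕ) (n : ℕ) (Φ : X × X → A) :
    (ic42_E ℓ)^[n] (fun y => g (Φ y)) = fun y => g ((ic42_E ℓ)^[n] Φ y) := by
  induction n with
  | zero => rfl
  | succ n ih => rw [Function.iterate_succ_apply', ih, rf7_E_comp, Function.iterate_succ_apply']

end Lin

/-! ### symbols of level `M` are stable under the operators -/

section Stab

variable {A : Type*} [AddCommGroup A]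

theorem rf7_isSymb_T {M ℓ : ℕ} (hℓ : ℓ.Prime) (hℓM : ¬ ℓ ∣ M) {Φ : sc71_X → A}
    (h : slp10_IsSymb M Φ) : slp10_IsSymb M (tr43_T ℓ Φ) :=
  ⟨sc71_IsSymb.T (Φ := Φ) h.1 ℓ, tr43_T_Inv hℓ hℓM h.2⟩

theorem rf7_isSymb_U {M q : ℕ} (hq : q.Prime) (hqM : q ∣ M) {Φ : sc71_X → A}
    (h : slp10_IsSymb M Φ) : slp10_IsSymb M (tr43_U q Φ) :=
  ⟨sc71_IsSymb.U (Φ := Φ) h.1 q, tr43_U_Inv hq hqM h.2⟩

theorem rf7_isSymb_W {N q : ℕ} (hq : q ≠ 0) (D : tr43_Data N q) {Φ : sc71_X → A}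
    (h : slp10_IsSymb (N * q) Φ) : slp10_IsSymb (N * q) (tr43_W D Φ) :=
  ⟨sc71_IsSymb.W D (Φ := Φ) h.1, tr43_W_Inv hq D h.2⟩

theorem rf7_isSymb_res {N : ℕ} (q : ℕ) {Φ : sc71_X → A}
    (h : slp10_IsSymb N Φ) : slp10_IsSymb (N * q) Φ :=
  ⟨h.1, tr43_Inv_of_dvd (dvd_mul_right N q) h.2⟩

theorem rf7_isSymb_tr {N q : ℕ} (hq : q.Prime) (D : tr43_Data N q) {Φ : sc71_X → A}
    (h : slp10_IsSymb (N * q) Φ) : slp10_IsSymb N (tr43_tr D Φ) :=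
  ⟨sc71_IsSymb.tr D (Φ := Φ) h.1, tr43_tr_Inv hq D h.2⟩

theorem rf7_isSymb_add {M : ℕ} {Φ Ψ : sc71_X → A} (h : slp10_IsSymb M Φ)
    (h' : slp10_IsSymb M Ψ) : slp10_IsSymb M (Φ + Ψ) :=
  ⟨sc71_IsSymb.add (Φ := Φ) (Ψ := Ψ) h.1 h'.1, tr43_Inv_add h.2 h'.2⟩

theorem rf7_isSymb_neg {M : ℕ} {Φ : sc71_X → A} (h : slp10_IsSymb M Φ) :
    slp10_IsSymb M (-Φ) :=
  ⟨sc71_IsSymb.neg (Φ := Φ) h.1, tr43_Inv_neg h.2⟩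

theorem rf7_isSymb_sub {M : ℕ} {Φ Ψ : sc71_X → A} (h : slp10_IsSymb M Φ)
    (h' : slp10_IsSymb M Ψ) : slp10_IsSymb M (Φ - Ψ) := by
  rw [sub_eq_add_neg]
  exact rf7_isSymb_add h (rf7_isSymb_neg h')

theorem rf7_isSymb_E {M ℓ : ℕ} (hℓ : ℓ.Prime) (hℓM : ¬ ℓ ∣ M) {Φ : sc71_X → A}
    (h : slp10_IsSymb M Φ) : slp10_IsSymb M (ic42_E ℓ Φ) :=
  ⟨ic42_IsSymb.E (Φ := Φ) h.1 ℓ, ic42_E_Inv hℓ hℓM h.2⟩

theorem rf7_isSymb_E_iter {M ℓ : ℕ} (hℓ : ℓ.Prime) (hℓM : ¬ ℓ ∣ M) (n : ℕ) {Φ : sc71_X → A}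
    (h : slp10_IsSymb M Φ) : slp10_IsSymb M ((ic42_E ℓ)^[n] Φ) := by
  induction n with
  | zero => exact h
  | succ n ih => rw [Function.iterate_succ_apply']; exact rf7_isSymb_E hℓ hℓM ih

end Stab

/-! ### the operators as linear maps on `slp10_V` -/

/-- restriction of a function-level linear operator to the symbol spaces -/
noncomputable def rf7_mk (M M' : ℕ) (Op : (sc71_X → ℂ) → (sc71_X → ℂ))
    (hadd : ∀ Φ Ψ, Op (Φ + Ψ) = Op Φ + Op Ψ) (hsmul : ∀ (c : ℂ) Φ, Op (c • Φ) = c • Op Φ)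
    (hmem : ∀ Φ, slp10_IsSymb M Φ → slp10_IsSymb M' (Op Φ)) :
    slp10_V M ℂ →ₗ[ℂ] slp10_V M' ℂ where
  toFun v := ⟨Op v.1, hmem v.1 v.2⟩
  map_add' v w := Subtype.ext (hadd v.1 w.1)
  map_smul' c v := Subtype.ext (hsmul c v.1)

theorem rf7_mk_coe (M M' : ℕ) (Op : (sc71_X → ℂ) → (sc71_X → ℂ))
    (hadd : ∀ Φ Ψ, Op (Φ + Ψ) = Op Φ + Op Ψ) (hsmul : ∀ (c : ℂ) Φ, Op (c • Φ) = c • Op Φ)
    (hmem : ∀ Φ, slp10_IsSymb M Φ → slp10_IsSymb M' (Op Φ)) (v : slp10_V M ℂ) :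
    ((rf7_mk M M' Op hadd hsmul hmem v : slp10_V M' ℂ) : sc71_X → ℂ) = Op v.1 := rfl

open Classical in
/-- `T_ℓ` on `V M` (zero unless `ℓ` is a prime not dividing `M`) -/
noncomputable def rf7_T (M ℓ : ℕ) : Module.End ℂ (slp10_V M ℂ) :=
  if h : ℓ.Prime ∧ ¬ ℓ ∣ M then
    rf7_mk M M (tr43_T ℓ) (tr43_T_add ℓ) (rf7_T_smul ℓ) (fun _ hΦ => rf7_isSymb_T h.1 h.2 hΦ)
  else 0

theorem rf7_T_coe {M ℓ : ℕ} (hℓ : ℓ.Prime) (hℓM : ¬ ℓ ∣ M) (v : slp10_V M ℂ) :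
    ((rf7_T M ℓ v : slp10_V M ℂ) : sc71_X → ℂ) = tr43_T ℓ v.1 := by
  rw [rf7_T, dif_pos ⟨hℓ, hℓM⟩]
  rfl

/-- the inclusion `V N ⊆ V (N q)` -/
noncomputable def rf7_res (N q : ℕ) : slp10_V N ℂ →ₗ[ℂ] slp10_V (N * q) ℂ :=
  rf7_mk N (N * q) id (fun _ _ => rfl) (fun _ _ => rfl) (fun _ hΦ => rf7_isSymb_res q hΦ)

theorem rf7_res_coe (N q : ℕ) (v : slp10_V N ℂ) :
    ((rf7_res N q v : slp10_V (N * q) ℂ) : sc71_X → ℂ) = v.1 := rfl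

open Classical in
/-- the Atkin–Lehner operator on `V (N q)` -/
noncomputable def rf7_W {N q : ℕ} (D : tr43_Data N q) : Module.End ℂ (slp10_V (N * q) ℂ) :=
  if h : q ≠ 0 then
    rf7_mk (N * q) (N * q) (tr43_W D) (tr43_W_add D) (rf7_W_smul D)
      (fun _ hΦ => rf7_isSymb_W h D hΦ)
  else 0

theorem rf7_W_coe {N q : ℕ} (hq : q ≠ 0) (D : tr43_Data N q) (v : slp10_V (N * q) ℂ) :
    ((rf7_W D v : slp10_V (N * q) ℂ) : sc71_X → ℂ) = tr43_W D v.1 := by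
  rw [rf7_W, dif_pos hq]
  rfl

open Classical in
/-- the trace `V (N q) → V N` -/
noncomputable def rf7_tr {N q : ℕ} (D : tr43_Data N q) : slp10_V (N * q) ℂ →ₗ[ℂ] slp10_V N ℂ :=
  if h : q.Prime then
    rf7_mk (N * q) N (tr43_tr D) (tr43_tr_add D) (rf7_tr_smul D)
      (fun _ hΦ => rf7_isSymb_tr h D hΦ)
  else 0

theorem rf7_tr_coe {N q : ℕ} (hq : q.Prime) (D : tr43_Data N q) (v : slp10_V (N * q) ℂ) :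
    ((rf7_tr D v : slp10_V N ℂ) : sc71_X → ℂ) = tr43_tr D v.1 := by
  rw [rf7_tr, dif_pos hq]
  rfl

/-- `i (φ₁, φ₂) = φ₁ + W_q φ₂` -/
noncomputable def rf7_i {N q : ℕ} (D : tr43_Data N q) :
    (slp10_V N ℂ × slp10_V N ℂ) →ₗ[ℂ] slp10_V (N * q) ℂ :=
  (rf7_res N q).comp (LinearMap.fst ℂ _ _) +
    ((rf7_W D).comp (rf7_res N q)).comp (LinearMap.snd ℂ _ _)

/-- `j Φ = (tr Φ, tr (W_q Φ))` -/
noncomputable def rf7_j {N q : ℕ} (D : tr43_Data N q) :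
    slp10_V (N * q) ℂ →ₗ[ℂ] (slp10_V N ℂ × slp10_V N ℂ) :=
  (rf7_tr D).prod ((rf7_tr D).comp (rf7_W D))

theorem rf7_i_coe {N q : ℕ} (hq : q ≠ 0) (D : tr43_Data N q)
    (x : slp10_V N ℂ × slp10_V N ℂ) :
    ((rf7_i D x : slp10_V (N * q) ℂ) : sc71_X → ℂ) = x.1.1 + tr43_W D x.2.1 := by
  show ((rf7_res N q x.1 + rf7_W D (rf7_res N q x.2) : slp10_V (N * q) ℂ) : sc71_X → ℂ) = _
  rw [Submodule.coe_add, rf7_W_coe hq, rf7_res_coe, rf7_res_coe]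

theorem rf7_j_fst {N q : ℕ} (hq : q.Prime) (D : tr43_Data N q) (y : slp10_V (N * q) ℂ) :
    (((rf7_j D y).1 : slp10_V N ℂ) : sc71_X → ℂ) = tr43_tr D y.1 :=
  rf7_tr_coe hq D y

theorem rf7_j_snd {N q : ℕ} (hq : q.Prime) (D : tr43_Data N q) (y : slp10_V (N * q) ℂ) :
    (((rf7_j D y).2 : slp10_V N ℂ) : sc71_X → ℂ) = tr43_tr D (tr43_W D y.1) := by
  show ((rf7_tr D (rf7_W D y) : slp10_V N ℂ) : sc71_X → ℂ) = _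
  rw [rf7_tr_coe hq, rf7_W_coe hq.ne_zero]


/-! ### equivariance and commutation -/

theorem rf7_T_comm (M ℓ ℓ' : ℕ) : Commute (rf7_T M ℓ) (rf7_T M ℓ') := by
  classical
  by_cases h : ℓ.Prime ∧ ¬ ℓ ∣ M
  · by_cases h' : ℓ'.Prime ∧ ¬ ℓ' ∣ M
    · by_cases hne : ℓ = ℓ'
      · rw [hne]
      · apply LinearMap.ext
        intro v
        apply Subtype.ext
        show ((rf7_T M ℓ (rf7_T M ℓ' v) : slp10_V M ℂ) : sc71_X → ℂ) =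
          ((rf7_T M ℓ' (rf7_T M ℓ v) : slp10_V M ℂ) : sc71_X → ℂ)
        rw [rf7_T_coe h.1 h.2, rf7_T_coe h'.1 h'.2, rf7_T_coe h'.1 h'.2, rf7_T_coe h.1 h.2]
        exact tr43_T_T h.1 h.2 h'.1 h'.2 hne v.2.2
    · have : rf7_T M ℓ' = 0 := by rw [rf7_T, dif_neg h']
      rw [this]
      exact Commute.zero_right _
  · have : rf7_T M ℓ = 0 := by rw [rf7_T, dif_neg h]
    rw [this]
    exact Commute.zero_left _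

theorem rf7_i_T {N q ℓ : ℕ} (hq : q ≠ 0) (D : tr43_Data N q) (hℓ : ℓ.Prime)
    (hℓNq : ¬ ℓ ∣ N * q) (x : slp10_V N ℂ × slp10_V N ℂ) :
    rf7_i D ((rf7_T N ℓ).prodMap (rf7_T N ℓ) x) = rf7_T (N * q) ℓ (rf7_i D x) := by
  have hℓN : ¬ ℓ ∣ N := fun h => hℓNq (h.mul_right q)
  apply Subtype.ext
  rw [rf7_i_coe hq, rf7_T_coe hℓ hℓNq, rf7_i_coe hq, tr43_T_add]
  show ((rf7_T N ℓ x.1 : slp10_V N ℂ) : sc71_X → ℂ) +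
    tr43_W D ((rf7_T N ℓ x.2 : slp10_V N ℂ) : sc71_X → ℂ) = _
  rw [rf7_T_coe hℓ hℓN, rf7_T_coe hℓ hℓN,
    tr43_T_W hℓ hℓNq hq D (tr43_Inv_of_dvd (dvd_mul_right N q) x.2.2.2)]

theorem rf7_j_T {N q ℓ : ℕ} (hq : q.Prime) (D : tr43_Data N q) (hℓ : ℓ.Prime)
    (hℓNq : ¬ ℓ ∣ N * q) (y : slp10_V (N * q) ℂ) :
    rf7_j D (rf7_T (N * q) ℓ y) = (rf7_T N ℓ).prodMap (rf7_T N ℓ) (rf7_j D y) := by
  have hℓN : ¬ ℓ ∣ N := fun h => hℓNq (h.mul_right q)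
  apply Prod.ext
  · apply Subtype.ext
    rw [rf7_j_fst hq, rf7_T_coe hℓ hℓNq]
    show _ = ((rf7_T N ℓ (rf7_j D y).1 : slp10_V N ℂ) : sc71_X → ℂ)
    rw [rf7_T_coe hℓ hℓN, rf7_j_fst hq, tr43_T_tr hℓ hℓNq hq D y.2.2]
  · apply Subtype.ext
    rw [rf7_j_snd hq, rf7_T_coe hℓ hℓNq]
    show _ = ((rf7_T N ℓ (rf7_j D y).2 : slp10_V N ℂ) : sc71_X → ℂ)
    rw [rf7_T_coe hℓ hℓN, rf7_j_snd hq, ← tr43_T_W hℓ hℓNq hq.ne_zero D y.2.2,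
      tr43_T_tr hℓ hℓNq hq D (tr43_W_Inv hq.ne_zero D y.2.2)]

/-- `j ∘ i = [[q + 1, T_q], [T_q, q + 1]]` -/
theorem rf7_j_i {N q : ℕ} (hq : q.Prime) (hqN : ¬ q ∣ N) (D : tr43_Data N q)
    (x : slp10_V N ℂ × slp10_V N ℂ) :
    rf7_j D (rf7_i D x) =
      (((q : ℂ) + 1) • x.1 + rf7_T N q x.2, rf7_T N q x.1 + ((q : ℂ) + 1) • x.2) := by
  have hq0 : q ≠ 0 := hq.ne_zero
  have h1 : tr43_Inv (N * q) x.1.1 := tr43_Inv_of_dvd (dvd_mul_right N q) x.1.2.2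
  have h2 : tr43_Inv (N * q) x.2.1 := tr43_Inv_of_dvd (dvd_mul_right N q) x.2.2.2
  have hsm : ∀ φ : sc71_X → ℂ, (q + 1) • φ = ((q : ℂ) + 1) • φ := by
    intro φ
    funext z
    simp [Pi.smul_apply, nsmul_eq_mul]
  apply Prod.ext
  · apply Subtype.ext
    rw [rf7_j_fst hq, rf7_i_coe hq0, tr43_tr_add, tr43_tr_res D x.1.2.2,
      tr43_tr_W_res sc71_scalarTriv hq0 D x.2.2.2]
    show _ = ((q : ℂ) + 1) • (x.1 : sc71_X → ℂ) + ((rf7_T N q x.2 : slp10_V N ℂ) : sc71_X → ℂ)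
    rw [rf7_T_coe hq hqN, hsm]
  · apply Subtype.ext
    rw [rf7_j_snd hq, rf7_i_coe hq0, tr43_W_add, tr43_W_W sc71_scalarTriv hq0 D h2, tr43_tr_add,
      tr43_tr_res D x.2.2.2, tr43_tr_W_res sc71_scalarTriv hq0 D x.1.2.2]
    show _ = ((rf7_T N q x.1 : slp10_V N ℂ) : sc71_X → ℂ) + ((q : ℂ) + 1) • (x.2 : sc71_X → ℂ)
    rw [rf7_T_coe hq hqN, hsm]

/-! ### lattice stability -/

section Int

variable {X : Type*} [MulAction (GL (Fin 2) ℚ) X]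

theorem rf7_int_T (ℓ : ℕ) {Φ : X → ℂ} (h : ∀ x, ∃ n : ℤ, Φ x = (n : ℂ)) :
    ∀ x, ∃ n : ℤ, tr43_T ℓ Φ x = (n : ℂ) := by
  choose f hf using h
  intro x
  refine ⟨∑ i : Option (Fin ℓ), f (tr43_gl (lbMat ℓ i) • x), ?_⟩
  rw [tr43_T_apply, Int.cast_sum]
  exact Finset.sum_congr rfl fun i _ => hf _

theorem rf7_int_W {N q : ℕ} (D : tr43_Data N q) {Φ : X → ℂ} (h : ∀ x, ∃ n : ℤ, Φ x = (n : ℂ)) :
    ∀ x, ∃ n : ℤ, tr43_W D Φ x = (n : ℂ) := fun _ => h _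

theorem rf7_int_tr {N q : ℕ} (D : tr43_Data N q) {Φ : X → ℂ} (h : ∀ x, ∃ n : ℤ, Φ x = (n : ℂ)) :
    ∀ x, ∃ n : ℤ, tr43_tr D Φ x = (n : ℂ) := by
  choose f hf using h
  intro x
  refine ⟨∑ i : Option (Fin q), f (Matrix.SpecialLinearGroup.mapGL ℚ (D.rep i : SL(2, ℤ)) • x), ?_⟩
  rw [tr43_tr_apply, Int.cast_sum]
  exact Finset.sum_congr rfl fun i _ => hf _

omit [MulAction (GL (Fin 2) ℚ) X] in
theorem rf7_int_add {Φ Ψ : X → ℂ} (h : ∀ x, ∃ n : ℤ, Φ x = (n : ℂ))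
    (h' : ∀ x, ∃ n : ℤ, Ψ x = (n : ℂ)) : ∀ x, ∃ n : ℤ, (Φ + Ψ) x = (n : ℂ) := by
  intro x
  obtain ⟨a, ha⟩ := h x
  obtain ⟨b, hb⟩ := h' x
  exact ⟨a + b, by rw [Pi.add_apply, ha, hb, Int.cast_add]⟩

end Int

theorem rf7_T_mem_L (M ℓ : ℕ) {v : slp10_V M ℂ} (hv : v ∈ slp10_L M ℂ) :
    rf7_T M ℓ v ∈ slp10_L M ℂ := by
  classical
  by_cases h : ℓ.Prime ∧ ¬ ℓ ∣ M
  · rw [slp10_mem_L, rf7_T_coe h.1 h.2]
    exact rf7_int_T ℓ (slp10_mem_L.mp hv)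
  · have : rf7_T M ℓ = 0 := by rw [rf7_T, dif_neg h]
    rw [this]
    exact Submodule.zero_mem _

theorem rf7_i_mem_L {N q : ℕ} (hq : q ≠ 0) (D : tr43_Data N q)
    {x : slp10_V N ℂ × slp10_V N ℂ} (hx : x ∈ (slp10_L N ℂ).prod (slp10_L N ℂ)) :
    rf7_i D x ∈ slp10_L (N * q) ℂ := by
  rw [slp10_mem_L, rf7_i_coe hq]
  exact rf7_int_add (slp10_mem_L.mp hx.1) (rf7_int_W D (slp10_mem_L.mp hx.2))

theorem rf7_j_mem_L {N q : ℕ} (hq : q.Prime) (D : tr43_Data N q)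
    {y : slp10_V (N * q) ℂ} (hy : y ∈ slp10_L (N * q) ℂ) :
    rf7_j D y ∈ (slp10_L N ℂ).prod (slp10_L N ℂ) := by
  refine ⟨?_, ?_⟩
  · show (rf7_j D y).1 ∈ slp10_L N ℂ
    rw [slp10_mem_L, rf7_j_fst hq]
    exact rf7_int_tr D (slp10_mem_L.mp hy)
  · show (rf7_j D y).2 ∈ slp10_L N ℂ
    rw [slp10_mem_L, rf7_j_snd hq]
    exact rf7_int_tr D (rf7_int_W D (slp10_mem_L.mp hy))


/-! ### integer valued symbols as lattice elements -/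

/-- the lattice element attached to an integer valued symbol -/
noncomputable def rf7_cast {M : ℕ} (φ : sc71_X → ℤ) (h : slp10_IsSymb M φ) : slp10_V M ℂ :=
  ⟨fun z => Int.castAddHom ℂ (φ z), h.comp (Int.castAddHom ℂ)⟩

theorem rf7_cast_coe {M : ℕ} (φ : sc71_X → ℤ) (h : slp10_IsSymb M φ) :
    ((rf7_cast φ h : slp10_V M ℂ) : sc71_X → ℂ) = fun z => Int.castAddHom ℂ (φ z) := rfl

theorem rf7_cast_mem {M : ℕ} (φ : sc71_X → ℤ) (h : slp10_IsSymb M φ) :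
    rf7_cast φ h ∈ slp10_L M ℂ := fun z => ⟨φ z, rfl⟩

theorem rf7_exists_int {M : ℕ} {v : slp10_V M ℂ} (hv : v ∈ slp10_L M ℂ) :
    ∃ φ : sc71_X → ℤ, ∃ h : slp10_IsSymb M φ, v = rf7_cast φ h := by
  obtain ⟨φ, hφ, e⟩ := slp10_exists_int v.2 (slp10_mem_L.mp hv)
  exact ⟨φ, hφ, Subtype.ext (funext e)⟩

/-! ### the operator `E = T_ℓ - (ℓ + 1)` on `V N × V N` and its powers -/

/-- `E_ℓ = T_ℓ - (ℓ + 1)` on `V N × V N` in the shape of `lr52_core` -/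
noncomputable def rf7_EX (N ℓ : ℕ) : Module.End ℂ (slp10_V N ℂ × slp10_V N ℂ) :=
  (rf7_T N ℓ).prodMap (rf7_T N ℓ) - ((ℓ : ℤ) + 1) • (1 : Module.End ℂ (slp10_V N ℂ × slp10_V N ℂ))

theorem rf7_EX_coe {N ℓ : ℕ} (hℓ : ℓ.Prime) (hℓN : ¬ ℓ ∣ N) (x : slp10_V N ℂ × slp10_V N ℂ) :
    ((rf7_EX N ℓ x).1 : sc71_X → ℂ) = ic42_E ℓ x.1.1 ∧
      ((rf7_EX N ℓ x).2 : sc71_X → ℂ) = ic42_E ℓ x.2.1 := by
  have key : ∀ v : slp10_V N ℂ,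
      ((rf7_T N ℓ v - ((ℓ : ℤ) + 1) • v : slp10_V N ℂ) : sc71_X → ℂ) = ic42_E ℓ v.1 := by
    intro v
    rw [Submodule.coe_sub, rf7_T_coe hℓ hℓN, ic42_E]
    congr 1
  exact ⟨key x.1, key x.2⟩

theorem rf7_EX_pow_coe {N ℓ : ℕ} (hℓ : ℓ.Prime) (hℓN : ¬ ℓ ∣ N) (n : ℕ)
    (x : slp10_V N ℂ × slp10_V N ℂ) :
    (((rf7_EX N ℓ ^ n) x).1 : sc71_X → ℂ) = (ic42_E ℓ)^[n] x.1.1 ∧
      (((rf7_EX N ℓ ^ n) x).2 : sc71_X → ℂ) = (ic42_E ℓ)^[n] x.2.1 := by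
  induction n with
  | zero => exact ⟨rfl, rfl⟩
  | succ n ih =>
    rw [pow_succ', Module.End.mul_apply, Function.iterate_succ_apply',
      Function.iterate_succ_apply']
    obtain ⟨h1, h2⟩ := rf7_EX_coe hℓ hℓN ((rf7_EX N ℓ ^ n) x)
    rw [h1, h2, ih.1, ih.2]
    exact ⟨rfl, rfl⟩

/-! ### cusps: the hypotheses of `ic42_H1` for `OnePoint ℚ` -/

theorem rf7_move {M ℓ : ℕ} (hℓ : ℓ.Prime) (h1 : ℓ ≡ 1 [MOD M]) (i : Option (Fin ℓ))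
    (x : OnePoint ℚ) : ∃ γ : Gamma0 M,
      tr43_gl (lbMat ℓ i) • x = Matrix.SpecialLinearGroup.mapGL ℚ (γ : SL(2, ℤ)) • x := by
  refine ca76_cusp_fixed_onePoint hℓ h1 i (tr43_gl (lbMat ℓ i)) ?_ x
  intro a b
  have h := tr43_gl_coe (tr43_lbMat_det_ne hℓ.ne_zero i)
  rw [← sc71_lbMat_eq]
  exact congrFun (congrFun h a) b

theorem rf7_U_infty (x : ℚ) :
    (Matrix.SpecialLinearGroup.toGL (sy71_U x) : GL (Fin 2) ℚ) • (∞ : OnePoint ℚ) = ∞ := by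
  rw [OnePoint.smul_infty_eq_self_iff]
  exact (sy71_U_apply x).2.2.1

theorem rf7_L_zero (y : ℚ) :
    (Matrix.SpecialLinearGroup.toGL (sy71_L y) : GL (Fin 2) ℚ) • ((0 : ℚ) : OnePoint ℚ) =
      ((0 : ℚ) : OnePoint ℚ) := by
  have h := sy71_L_apply y
  have h00 : (Matrix.SpecialLinearGroup.toGL (sy71_L y) : GL (Fin 2) ℚ) 0 0 = 1 := h.1
  have h01 : (Matrix.SpecialLinearGroup.toGL (sy71_L y) : GL (Fin 2) ℚ) 0 1 = 0 := h.2.1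
  have h10 : (Matrix.SpecialLinearGroup.toGL (sy71_L y) : GL (Fin 2) ℚ) 1 0 = y := h.2.2.1
  have h11 : (Matrix.SpecialLinearGroup.toGL (sy71_L y) : GL (Fin 2) ℚ) 1 1 = 1 := h.2.2.2
  rw [OnePoint.smul_some_eq_ite, h00, h01, h10, h11]
  simp


/-! ### `(ha)` of `lr52_core`: the first Ihara lemma on the lattice -/

/-- **`(ha)`**: if `i x ∈ p L_{Nq}` for `x ∈ L_N × L_N` then `E_ℓ ^ 2 x ∈ p (L_N × L_N)`, for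
every prime `ℓ ≡ 1 mod N`.  (From `ic42_H1`, all its hypotheses discharged.) -/
theorem rf7_ha {p N q ℓ : ℕ} (hp : p.Prime) (hp2 : p ≠ 2) (hN : 0 < N) (hq : q.Prime)
    (hqN : ¬ q ∣ N) (D : tr43_Data N q) (hℓ : ℓ.Prime) (h1 : ℓ ≡ 1 [MOD N])
    (x : slp10_V N ℂ × slp10_V N ℂ) (hx : x ∈ (slp10_L N ℂ).prod (slp10_L N ℂ))
    (hy : ∃ y ∈ slp10_L (N * q) ℂ, rf7_i D x = (p : ℤ) • y) :
    ∃ x' ∈ (slp10_L N ℂ).prod (slp10_L N ℂ), (rf7_EX N ℓ ^ 2) x = (p : ℤ) • x' := by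
  have hℓN : ¬ ℓ ∣ N := ca76_not_dvd_of_modEq hℓ h1
  have hp0 : (p : ℤ) ≠ 0 := by exact_mod_cast hp.ne_zero
  obtain ⟨x₁, x₂⟩ := x
  obtain ⟨φ₁, hφ₁, rfl⟩ := rf7_exists_int hx.1
  obtain ⟨φ₂, hφ₂, rfl⟩ := rf7_exists_int hx.2
  obtain ⟨y, hyL, hy⟩ := hy
  have h12 : ∀ z, (p : ℤ) ∣ φ₁ z + tr43_W D φ₂ z := by
    intro z
    obtain ⟨m, hm⟩ := slp10_mem_L.mp hyL z
    have h := congrFun (congrArg (fun v : slp10_V (N * q) ℂ => (v : sc71_X → ℂ)) hy) z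
    simp only [rf7_i_coe hq.ne_zero] at h
    have h2 : ((φ₁ z : ℤ) : ℂ) + ((tr43_W D φ₂ z : ℤ) : ℂ) = (p : ℤ) • (y : sc71_X → ℂ) z := h
    rw [zsmul_eq_mul, hm] at h2
    exact ⟨m, by exact_mod_cast h2⟩
  obtain ⟨r₁, r₂⟩ := ic42_H1 p hp hp2 hN hq hqN D hℓ hℓN (∞ : OnePoint ℚ) ((0 : ℚ) : OnePoint ℚ)
    rf7_U_infty rf7_L_zero (rf7_move hℓ h1) φ₁ φ₂ hφ₁.1 hφ₂.1 hφ₁.2 hφ₂.2 h12
  obtain ⟨Ψ₁, hΨ₁, e₁⟩ := slp10_div hp0 (rf7_isSymb_E hℓ hℓN (rf7_isSymb_E hℓ hℓN hφ₁)) r₁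
  obtain ⟨Ψ₂, hΨ₂, e₂⟩ := slp10_div hp0 (rf7_isSymb_E hℓ hℓN (rf7_isSymb_E hℓ hℓN hφ₂)) r₂
  refine ⟨(rf7_cast Ψ₁ hΨ₁, rf7_cast Ψ₂ hΨ₂), ⟨rf7_cast_mem Ψ₁ hΨ₁, rf7_cast_mem Ψ₂ hΨ₂⟩, ?_⟩
  obtain ⟨g1, g2⟩ := rf7_EX_pow_coe hℓ hℓN 2 (rf7_cast φ₁ hφ₁, rf7_cast φ₂ hφ₂)
  apply Prod.ext
  · apply Subtype.ext
    rw [g1]
    show (ic42_E ℓ)^[2] (fun z => Int.castAddHom ℂ (φ₁ z)) = _
    rw [rf7_E_iter_comp]
    funext z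
    show ((ic42_E ℓ (ic42_E ℓ φ₁) z : ℤ) : ℂ) = (p : ℤ) • ((Ψ₁ z : ℤ) : ℂ)
    rw [e₁ z, Int.cast_mul, zsmul_eq_mul]
  · apply Subtype.ext
    rw [g2]
    show (ic42_E ℓ)^[2] (fun z => Int.castAddHom ℂ (φ₂ z)) = _
    rw [rf7_E_iter_comp]
    funext z
    show ((ic42_E ℓ (ic42_E ℓ φ₂) z : ℤ) : ℂ) = (p : ℤ) • ((Ψ₂ z : ℤ) : ℂ)
    rw [e₂ z, Int.cast_mul, zsmul_eq_mul]

/-- **`(hb)` of `lr52_core` from its plain pointwise form** (the shape in which link L9 of the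
ruling has to be delivered): `E_ℓ ^ n (L_N × L_N) ⊆ j (L_{Nq}) + p (L_N × L_N)`. -/
theorem rf7_hb {p N q ℓ : ℕ} (hp : p.Prime) (hq : q.Prime) (D : tr43_Data N q) (hℓ : ℓ.Prime)
    (hℓN : ¬ ℓ ∣ N)
    (Hb : ∃ n : ℕ, ∀ φ₁ φ₂ : sc71_X → ℤ, slp10_IsSymb N φ₁ → slp10_IsSymb N φ₂ →
      ∃ Ψ : sc71_X → ℤ, slp10_IsSymb (N * q) Ψ ∧
        (∀ z, (p : ℤ) ∣ (ic42_E ℓ)^[n] φ₁ z - tr43_tr D Ψ z) ∧
        (∀ z, (p : ℤ) ∣ (ic42_E ℓ)^[n] φ₂ z - tr43_tr D (tr43_W D Ψ) z)) :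
    ∃ n : ℕ, ∀ x ∈ (slp10_L N ℂ).prod (slp10_L N ℂ), ∃ y ∈ slp10_L (N * q) ℂ,
      ∃ x' ∈ (slp10_L N ℂ).prod (slp10_L N ℂ),
        (rf7_EX N ℓ ^ n) x = rf7_j D y + (p : ℤ) • x' := by
  have hp0 : (p : ℤ) ≠ 0 := by exact_mod_cast hp.ne_zero
  obtain ⟨n, Hb⟩ := Hb
  refine ⟨n, ?_⟩
  rintro ⟨x₁, x₂⟩ hx
  obtain ⟨φ₁, hφ₁, rfl⟩ := rf7_exists_int hx.1
  obtain ⟨φ₂, hφ₂, rfl⟩ := rf7_exists_int hx.2
  obtain ⟨Ψ, hΨ, d₁, d₂⟩ := Hb φ₁ φ₂ hφ₁ hφ₂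
  have s₁ : slp10_IsSymb N ((ic42_E ℓ)^[n] φ₁ - tr43_tr D Ψ) :=
    rf7_isSymb_sub (rf7_isSymb_E_iter hℓ hℓN n hφ₁) (rf7_isSymb_tr hq D hΨ)
  have s₂ : slp10_IsSymb N ((ic42_E ℓ)^[n] φ₂ - tr43_tr D (tr43_W D Ψ)) :=
    rf7_isSymb_sub (rf7_isSymb_E_iter hℓ hℓN n hφ₂)
      (rf7_isSymb_tr hq D (rf7_isSymb_W hq.ne_zero D hΨ))
  obtain ⟨Θ₁, hΘ₁, e₁⟩ := slp10_div hp0 s₁ d₁
  obtain ⟨Θ₂, hΘ₂, e₂⟩ := slp10_div hp0 s₂ d₂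
  refine ⟨rf7_cast Ψ hΨ, rf7_cast_mem Ψ hΨ, (rf7_cast Θ₁ hΘ₁, rf7_cast Θ₂ hΘ₂),
    ⟨rf7_cast_mem Θ₁ hΘ₁, rf7_cast_mem Θ₂ hΘ₂⟩, ?_⟩
  obtain ⟨g1, g2⟩ := rf7_EX_pow_coe hℓ hℓN n (rf7_cast φ₁ hφ₁, rf7_cast φ₂ hφ₂)
  apply Prod.ext
  · apply Subtype.ext
    rw [g1]
    show (ic42_E ℓ)^[n] (fun z => Int.castAddHom ℂ (φ₁ z)) =
      ((rf7_j D (rf7_cast Ψ hΨ)).1 : sc71_X → ℂ) + (p : ℤ) • (rf7_cast Θ₁ hΘ₁ : sc71_X → ℂ)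
    rw [rf7_E_iter_comp, rf7_j_fst hq, rf7_cast_coe, rf7_cast_coe, rf7_tr_comp]
    funext z
    show (((ic42_E ℓ)^[n] φ₁ z : ℤ) : ℂ) = ((tr43_tr D Ψ z : ℤ) : ℂ) + (p : ℤ) • ((Θ₁ z : ℤ) : ℂ)
    have h := e₁ z
    rw [Pi.sub_apply] at h
    rw [zsmul_eq_mul, ← Int.cast_mul, ← h]
    push_cast
    ring
  · apply Subtype.ext
    rw [g2]
    show (ic42_E ℓ)^[n] (fun z => Int.castAddHom ℂ (φ₂ z)) =
      ((rf7_j D (rf7_cast Ψ hΨ)).2 : sc71_X → ℂ) + (p : ℤ) • (rf7_cast Θ₂ hΘ₂ : sc71_X → ℂ)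
    rw [rf7_E_iter_comp, rf7_j_snd hq, rf7_cast_coe, rf7_cast_coe, rf7_W_comp, rf7_tr_comp]
    funext z
    show (((ic42_E ℓ)^[n] φ₂ z : ℤ) : ℂ) =
      ((tr43_tr D (tr43_W D Ψ) z : ℤ) : ℂ) + (p : ℤ) • ((Θ₂ z : ℤ) : ℂ)
    have h := e₂ z
    rw [Pi.sub_apply] at h
    rw [zsmul_eq_mul, ← Int.cast_mul, ← h]
    push_cast
    ring

end Fermat.Agent.S41
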