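import Mathlib
import Fermat.Statements.S41
import Fermat.Agent.S41.RefCore7
import Fermat.Agent.S41.LRCore52
import Fermat.Agent.S41.ESTransfer60

/-!
# S41 referee harness, part 2: the frozen conclusion from three plain links

`rf7_main` derives the conclusion of the frozen statement S41 from its hypotheses plus three links
stated on the concrete objects of ruling #1357 (conventions C1–C6), with everything else
(`lr52_core`, `ic42_H1`, `tr43_*`, `sc71_nu_*`, `slp10_*`, `es60_newform_of_eigenhom`) discharged: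

* `(NE)` one good prime `l0 ≡ 1 mod N q` with `p ∤ a_{l0}(W) - (l0 + 1)`;
* `(Hb)` dual Ihara, plain pointwise form, for `E = T_{l0} - (l0 + 1)`;
* `(H0)` a nonzero `ℂ`-valued eigen-symbol of level `N` with the eigenvalues of `f`.
-/

set_option autoImplicit false

open Matrix MatrixGroups CongruenceSubgroup OnePoint
open Fermat.Agent.S16

namespace Fermat.Agent.S41

/-- `ν` is compatible with equalities of symbols -/
theorem rf7_nu_congr {M : ℕ} {Φ Ψ : sc71_X → ℂ} (h : Ψ = Φ) (hΦ : sc71_IsSymb Φ)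
    (hinv : tr43_Inv M Φ) (hΨ : sc71_IsSymb Ψ) (hinvΨ : tr43_Inv M Ψ) :
    sc71_nu M Ψ hΨ hinvΨ = sc71_nu M Φ hΦ hinv := by
  subst h
  rfl

/-- `ν` is homogeneous -/
theorem rf7_nu_smul {M : ℕ} {Φ Ψ : sc71_X → ℂ} (c : ℂ) (h : Ψ = c • Φ) (hΦ : sc71_IsSymb Φ)
    (hinv : tr43_Inv M Φ) (hΨ : sc71_IsSymb Ψ) (hinvΨ : tr43_Inv M Ψ) :
    sc71_nu M Ψ hΨ hinvΨ = c • sc71_nu M Φ hΦ hinv := by
  subst h
  refine AddMonoidHom.ext fun γ => ?_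
  obtain ⟨γ, rfl⟩ := Additive.ofMul.surjective γ
  rw [AddMonoidHom.smul_apply, sc71_nu_apply hΨ hinvΨ γ ∞, sc71_nu_apply hΦ hinv γ ∞]
  rfl

/-- the span of a product of spanning lattices -/
theorem rf7_span_prod {V : Type*} [AddCommGroup V] [Module ℂ V] (L : Submodule ℤ V)
    (h : Submodule.span ℂ (L : Set V) = ⊤) :
    Submodule.span ℂ ((L.prod L : Submodule ℤ (V × V)) : Set (V × V)) = ⊤ := by
  rw [eq_top_iff]
  rintro ⟨x, y⟩ -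
  have hx : x ∈ Submodule.span ℂ (L : Set V) := by rw [h]; trivial
  have hy : y ∈ Submodule.span ℂ (L : Set V) := by rw [h]; trivial
  have e : ((x, y) : V × V) = LinearMap.inl ℂ V V x + LinearMap.inr ℂ V V y := by simp
  rw [e]
  refine Submodule.add_mem _ ?_ ?_
  · have := Submodule.apply_mem_span_image_of_mem_span (LinearMap.inl ℂ V V) hx
    refine Submodule.span_mono ?_ this
    rintro _ ⟨a, ha, rfl⟩
    exact ⟨ha, L.zero_mem⟩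
  · have := Submodule.apply_mem_span_image_of_mem_span (LinearMap.inr ℂ V V) hy
    refine Submodule.span_mono ?_ this
    rintro _ ⟨a, ha, rfl⟩
    exact ⟨L.zero_mem, ha⟩


/-- **S41 from three plain links** (referee harness). -/
theorem rf7_main {W : WeierstrassCurve ℤ} {p N q : ℕ} (hp : p.Prime) (hp2 : p ≠ 2) (hN : 0 < N)
    (hq : q.Prime) (hqN : ¬ q ∣ N)
    (f : CuspForm (CongruenceSubgroup.Gamma0 N) 2) (𝔪 : Ideal (integralClosure ℤ ℂ))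
    (hmax : 𝔪.IsMaximal) (hpm : (p : integralClosure ℤ ℂ) ∈ 𝔪)
    (hcong : ∀ ℓ : ℕ, ℓ.Prime → W.IsGoodPrimeFor ℓ → ¬ ℓ ∣ N → ℓ ≠ p →
      ∃ a : integralClosure ℤ ℂ, (a : ℂ) = ModularFormClass.qCoeff f ℓ ∧
        a - ((W.apOfModel ℓ : ℤ) : integralClosure ℤ ℂ) ∈ 𝔪)
    (hLR : ∃ a : integralClosure ℤ ℂ, (a : ℂ) = ModularFormClass.qCoeff f q ∧
      a ^ 2 - ((q : integralClosure ℤ ℂ) + 1) ^ 2 ∈ 𝔪)
    -- the Atkin–Lehner datum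
    (D : tr43_Data N q)
    -- (NE): the auxiliary prime
    (l0 : ℕ) (hl0 : l0.Prime) (hl0g : W.IsGoodPrimeFor l0) (hl0p : l0 ≠ p)
    (hl01 : l0 ≡ 1 [MOD N * q]) (hl0ne : ¬ (p : ℤ) ∣ W.apOfModel l0 - ((l0 : ℤ) + 1))
    -- (Hb): dual Ihara, plain form
    (Hb : ∃ n : ℕ, ∀ φ₁ φ₂ : sc71_X → ℤ, slp10_IsSymb N φ₁ → slp10_IsSymb N φ₂ →
      ∃ Ψ : sc71_X → ℤ, slp10_IsSymb (N * q) Ψ ∧
        (∀ z, (p : ℤ) ∣ (ic42_E l0)^[n] φ₁ z - tr43_tr D Ψ z) ∧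
        (∀ z, (p : ℤ) ∣ (ic42_E l0)^[n] φ₂ z - tr43_tr D (tr43_W D Ψ) z))
    -- (H0): the eigen-symbol of `f`
    (H0 : ∃ φ : sc71_X → ℂ, slp10_IsSymb N φ ∧ φ ≠ 0 ∧
      ∀ ℓ : ℕ, ℓ.Prime → ¬ ℓ ∣ N → tr43_T ℓ φ = ModularFormClass.qCoeff f ℓ • φ) :
    ∃ (g : CuspForm (CongruenceSubgroup.Gamma0 (N * q)) 2) (𝔪' : Ideal (integralClosure ℤ ℂ)),
      g.IsNormalizedEigenform ∧ 𝔪'.IsMaximal ∧ (p : integralClosure ℤ ℂ) ∈ 𝔪' ∧
      (∀ ℓ : ℕ, ℓ.Prime → W.IsGoodPrimeFor ℓ → ¬ ℓ ∣ N * q → ℓ ≠ p →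
        ∃ a : integralClosure ℤ ℂ, (a : ℂ) = ModularFormClass.qCoeff g ℓ ∧
          a - ((W.apOfModel ℓ : ℤ) : integralClosure ℤ ℂ) ∈ 𝔪') ∧
      g.IsNewAt q := by
  classical
  have : NeZero N := ⟨hN.ne'⟩
  have : NeZero (N * q) := ⟨(Nat.mul_pos hN hq.pos).ne'⟩
  have hq0 : q ≠ 0 := hq.ne_zero
  have hl0Nq : ¬ l0 ∣ N * q := ca76_not_dvd_of_modEq hl0 hl01
  have hl0N : ¬ l0 ∣ N := fun h => hl0Nq (h.mul_right q)
  have hl01N : l0 ≡ 1 [MOD N] := hl01.of_mul_right q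
  -- the index type of the good primes
  let ι : Type := {ℓ : ℕ // ℓ.Prime ∧ W.IsGoodPrimeFor ℓ ∧ ¬ ℓ ∣ N * q ∧ ℓ ≠ p}
  let l0' : ι := ⟨l0, hl0, hl0g, hl0Nq, hl0p⟩
  have hιN : ∀ l : ι, ¬ l.1 ∣ N := fun l h => l.2.2.2.1 (h.mul_right q)
  -- eigenvalues of `f`
  have hcong' : ∀ l : ι, ∃ a : integralClosure ℤ ℂ, (a : ℂ) = ModularFormClass.qCoeff f l.1 ∧
      a - ((W.apOfModel l.1 : ℤ) : integralClosure ℤ ℂ) ∈ 𝔪 :=
    fun l => hcong l.1 l.2.1 l.2.2.1 (hιN l) l.2.2.2.2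
  choose a ha1 ha2 using hcong'
  obtain ⟨aq, haq1, haq2⟩ := hLR
  obtain ⟨φ, hφs, hφ0, hφe⟩ := H0
  -- the sign
  have hprime : 𝔪.IsPrime := hmax.isPrime
  have hfact : (aq - ((q : integralClosure ℤ ℂ) + 1)) * (aq + ((q : integralClosure ℤ ℂ) + 1)) ∈ 𝔪 := by
    have e : (aq - ((q : integralClosure ℤ ℂ) + 1)) * (aq + ((q : integralClosure ℤ ℂ) + 1)) =
        aq ^ 2 - ((q : integralClosure ℤ ℂ) + 1) ^ 2 := by ring
    rw [e]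
    exact haq2
  obtain ⟨ε, hε, hs⟩ : ∃ ε : ℤ, ε ^ 2 = 1 ∧
      ((q : integralClosure ℤ ℂ) + 1) - (ε : integralClosure ℤ ℂ) * aq ∈ 𝔪 := by
    rcases hprime.mem_or_mem hfact with h | h
    · refine ⟨1, by norm_num, ?_⟩
      have e : ((q : integralClosure ℤ ℂ) + 1) - ((1 : ℤ) : integralClosure ℤ ℂ) * aq =
          -(aq - ((q : integralClosure ℤ ℂ) + 1)) := by push_cast; ring
      rw [e]
      exact 𝔪.neg_mem h
    · refine ⟨-1, by norm_num, ?_⟩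
      have e : ((q : integralClosure ℤ ℂ) + 1) - ((-1 : ℤ) : integralClosure ℤ ℂ) * aq =
          aq + ((q : integralClosure ℤ ℂ) + 1) := by push_cast; ring
      rw [e]
      exact h
  have hεC : (ε : ℂ) ^ 2 = 1 := by exact_mod_cast hε
  -- the vector
  let φv : slp10_V N ℂ := ⟨φ, hφs⟩
  have hφv0 : φv ≠ 0 := fun h => hφ0 (congrArg Subtype.val h)
  have hTφ : ∀ ℓ : ℕ, ℓ.Prime → ¬ ℓ ∣ N → rf7_T N ℓ φv = ModularFormClass.qCoeff f ℓ • φv := by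
    intro ℓ hℓ hℓN
    apply Subtype.ext
    rw [rf7_T_coe hℓ hℓN]
    exact hφe ℓ hℓ hℓN
  let v : slp10_V N ℂ × slp10_V N ℂ := (φv, (-(ε : ℂ)) • φv)
  have hv0 : v ≠ 0 := fun h => hφv0 (congrArg Prod.fst h)
  have hvL : v ∈ Submodule.span ℂ
      (((slp10_L N ℂ).prod (slp10_L N ℂ) : Submodule ℤ (slp10_V N ℂ × slp10_V N ℂ)) :
        Set (slp10_V N ℂ × slp10_V N ℂ)) := by
    rw [rf7_span_prod (slp10_L N ℂ) (slp10_L_span N ℂ)]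
    trivial
  have hva : ∀ l : ι, ((rf7_T N l.1).prodMap (rf7_T N l.1)) v = ((a l : integralClosure ℤ ℂ) : ℂ) • v := by
    intro l
    have h := hTφ l.1 l.2.1 (hιN l)
    rw [← ha1 l] at h
    apply Prod.ext
    · exact h
    · show rf7_T N l.1 ((-(ε : ℂ)) • φv) = ((a l : integralClosure ℤ ℂ) : ℂ) • ((-(ε : ℂ)) • φv)
      rw [_root_.map_smul, h, smul_comm]
  let s : integralClosure ℤ ℂ := ((q : integralClosure ℤ ℂ) + 1) - (ε : integralClosure ℤ ℂ) * aq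
  have hsC : ((s : integralClosure ℤ ℂ) : ℂ) = (q : ℂ) + 1 - (ε : ℂ) * (aq : ℂ) := by
    show (((q : integralClosure ℤ ℂ) + 1 - (ε : integralClosure ℤ ℂ) * aq : integralClosure ℤ ℂ) : ℂ) = _
    push_cast
    rfl
  have hvs : rf7_j D (rf7_i D v) = ((s : integralClosure ℤ ℂ) : ℂ) • v := by
    have hTq := hTφ q hq hqN
    rw [← haq1] at hTq
    rw [rf7_j_i hq hqN D v, hsC]
    apply Prod.ext
    · show ((q : ℂ) + 1) • φv + rf7_T N q ((-(ε : ℂ)) • φv) =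
        ((q : ℂ) + 1 - (ε : ℂ) * (aq : ℂ)) • φv
      rw [_root_.map_smul, hTq, smul_smul, ← add_smul]
      congr 1
      ring
    · show rf7_T N q φv + ((q : ℂ) + 1) • ((-(ε : ℂ)) • φv) =
        ((q : ℂ) + 1 - (ε : ℂ) * (aq : ℂ)) • ((-(ε : ℂ)) • φv)
      rw [hTq, smul_smul, smul_smul, ← add_smul]
      congr 1
      linear_combination (-(aq : ℂ)) * hεC
  -- the level-raising algebra
  obtain ⟨y, lam, Q, hy0, hjy, hyeig, hQmax, hpQ, hlamQ⟩ := lr52_core (K := ℂ)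
    ((slp10_L N ℂ).prod (slp10_L N ℂ)) (slp10_L (N * q) ℂ)
    (Submodule.FG.prod (slp10_L_fg N ℂ) (slp10_L_fg N ℂ)) (slp10_L_fg (N * q) ℂ)
    (fun l : ι => (rf7_T N l.1).prodMap (rf7_T N l.1)) (fun l : ι => rf7_T (N * q) l.1)
    (fun l x hx => ⟨rf7_T_mem_L N l.1 hx.1, rf7_T_mem_L N l.1 hx.2⟩)
    (fun l y hy => rf7_T_mem_L (N * q) l.1 hy)
    (fun l l' => by
      have h := rf7_T_comm N l.1 l'.1
      apply LinearMap.ext
      intro x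
      exact Prod.ext (congrArg (fun T : Module.End ℂ (slp10_V N ℂ) => T x.1) h.eq)
        (congrArg (fun T : Module.End ℂ (slp10_V N ℂ) => T x.2) h.eq))
    (fun l l' => rf7_T_comm (N * q) l.1 l'.1)
    (rf7_i D) (rf7_j D)
    (fun x hx => rf7_i_mem_L hq0 D hx) (fun y hy => rf7_j_mem_L hq D hy)
    (fun l x => rf7_i_T hq0 D l.2.1 l.2.2.2.1 x) (fun l y => rf7_j_T hq D l.2.1 l.2.2.2.1 y)
    p hp (fun l : ι => W.apOfModel l.1) l0' ((l0 : ℤ) + 1) hl0ne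
    (fun x hx hy => ⟨2, rf7_ha hp hp2 hN hq hqN D hl0 hl01N x hx hy⟩)
    (rf7_hb hp hq D hl0 hl0N Hb)
    v hv0 hvL a hva s hvs 𝔪 hmax.ne_top hpm ha2 hs
  -- the output symbol
  have hΦs : sc71_IsSymb (y : sc71_X → ℂ) := y.2.1
  have hΦi : tr43_Inv (N * q) (y : sc71_X → ℂ) := y.2.2
  have hΦ0 : (y : sc71_X → ℂ) ≠ 0 := fun h => hy0 (Subtype.ext h)
  have htr1 : tr43_tr D (y : sc71_X → ℂ) = 0 := by
    have h := congrArg (fun x : slp10_V N ℂ × slp10_V N ℂ => (x.1 : sc71_X → ℂ)) hjy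
    simp only [rf7_j_fst hq] at h
    exact h
  have htr2 : tr43_tr D (tr43_W D (y : sc71_X → ℂ)) = 0 := by
    have h := congrArg (fun x : slp10_V N ℂ × slp10_V N ℂ => (x.2 : sc71_X → ℂ)) hjy
    simp only [rf7_j_snd hq] at h
    exact h
  have hUU : tr43_U q (tr43_U q (y : sc71_X → ℂ)) = (y : sc71_X → ℂ) :=
    tr43_U_U sc71_scalarTriv hq0 D hΦi htr1 htr2
  have hTy : ∀ l : ι, tr43_T l.1 (y : sc71_X → ℂ) =
      ((lam l : integralClosure ℤ ℂ) : ℂ) • (y : sc71_X → ℂ) := by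
    intro l
    have h := congrArg (fun x : slp10_V (N * q) ℂ => (x : sc71_X → ℂ)) (hyeig l)
    simp only [rf7_T_coe l.2.1 l.2.2.2.1] at h
    exact h
  -- `ν y ≠ 0`
  have hν0 : sc71_nu (N * q) (y : sc71_X → ℂ) hΦs hΦi ≠ 0 := by
    intro h0
    have hb0 : ∀ γ : Gamma0 (N * q), (y : sc71_X → ℂ)
        ((∞ : OnePoint ℚ), Matrix.SpecialLinearGroup.mapGL ℚ (γ : SL(2, ℤ)) • (∞ : OnePoint ℚ)) = 0 := by
      intro γ
      rw [← sc71_nu_apply hΦs hΦi γ ∞, h0]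
      rfl
    have hE : ∀ x, ic42_E l0 (y : sc71_X → ℂ) x = 0 := fun x =>
      ic42_E_boundary hΦs hΦi ∞ hb0 (rf7_move hl0 hl01) x
    obtain ⟨x, hx⟩ : ∃ x, (y : sc71_X → ℂ) x ≠ 0 := by
      by_contra hcon
      exact hΦ0 (funext fun x => not_not.mp fun hx => hcon ⟨x, hx⟩)
    have h1 := hE x
    rw [ic42_E, Pi.sub_apply, hTy l0', Pi.smul_apply, Pi.smul_apply, smul_eq_mul, nsmul_eq_mul,
      ← sub_mul] at h1
    have h2 : ((lam l0' : integralClosure ℤ ℂ) : ℂ) - ((l0 + 1 : ℕ) : ℂ) = 0 :=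
      (mul_eq_zero.mp h1).resolve_right hx
    have h3 : lam l0' = ((l0 : ℤ) + 1 : ℤ) := by
      apply Subtype.ext
      rw [sub_eq_zero] at h2
      rw [h2]
      push_cast
      rfl
    have h4 := hlamQ l0'
    rw [h3, ← Int.cast_sub] at h4
    have hcop : IsCoprime (p : ℤ) (W.apOfModel l0 - ((l0 : ℤ) + 1)) :=
      (Nat.prime_iff_prime_int.mp hp).coprime_iff_not_dvd.mpr hl0ne
    obtain ⟨u, w, huw⟩ := hcop
    apply hQmax.ne_top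
    rw [Ideal.eq_top_iff_one]
    have h5 : ((u * (p : ℤ) + w * (W.apOfModel l0 - ((l0 : ℤ) + 1)) : ℤ) : integralClosure ℤ ℂ) ∈ Q := by
      rw [Int.cast_add, Int.cast_mul, Int.cast_mul]
      refine Q.add_mem (Q.mul_mem_left _ (by exact_mod_cast hpQ)) (Q.mul_mem_left _ ?_)
      have e : ((W.apOfModel l0 - ((l0 : ℤ) + 1) : ℤ) : integralClosure ℤ ℂ) =
          -(((l0 : ℤ) + 1 - W.apOfModel l0 : ℤ) : integralClosure ℤ ℂ) := by push_cast; ring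
      rw [e]
      exact Q.neg_mem h4
    rw [huw] at h5
    exact_mod_cast h5
  -- Eichler–Shimura
  let S : Set ℕ := {ℓ | W.IsGoodPrimeFor ℓ ∧ ¬ ℓ ∣ N * q ∧ ℓ ≠ p}
  let μ : ℕ → ℂ := fun ℓ =>
    if h : ℓ.Prime ∧ W.IsGoodPrimeFor ℓ ∧ ¬ ℓ ∣ N * q ∧ ℓ ≠ p then
      ((lam ⟨ℓ, h⟩ : integralClosure ℤ ℂ) : ℂ) else 0
  have hμ : ∀ l : ι, μ l.1 = ((lam l : integralClosure ℤ ℂ) : ℂ) := by
    intro l
    show (if h : l.1.Prime ∧ W.IsGoodPrimeFor l.1 ∧ ¬ l.1 ∣ N * q ∧ l.1 ≠ p then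
      ((lam ⟨l.1, h⟩ : integralClosure ℤ ℂ) : ℂ) else 0) = _
    rw [dif_pos l.2]
  obtain ⟨g, hg, hgeig, hgnew⟩ := es60_newform_of_eigenhom (M := N * q) hq S
    (sc71_nu (N * q) (y : sc71_X → ℂ) hΦs hΦi)
    (sc71_nu_parabolic hΦs hΦi) hν0 μ
    (fun ℓ hS hℓ => by
      have hl : ℓ.Prime ∧ W.IsGoodPrimeFor ℓ ∧ ¬ ℓ ∣ N * q ∧ ℓ ≠ p := ⟨hℓ, hS.1, hS.2.1, hS.2.2⟩
      rw [← sc71_nu_T hℓ hS.2.1 hΦs hΦi]
      have h := hTy ⟨ℓ, hl⟩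
      rw [← hμ ⟨ℓ, hl⟩] at h
      exact rf7_nu_smul (μ ℓ) h hΦs hΦi _ _)
    (by
      rw [← sc71_nu_U hq (dvd_mul_left q N) hΦs hΦi,
        ← sc71_nu_U hq (dvd_mul_left q N) (hΦs.U q) (tr43_U_Inv hq (dvd_mul_left q N) hΦi)]
      exact rf7_nu_congr hUU hΦs hΦi _ _)
  refine ⟨g, Q, hg, hQmax, hpQ, ?_, hgnew⟩
  intro ℓ hℓ hgood hℓNq hℓp
  refine ⟨lam ⟨ℓ, hℓ, hgood, hℓNq, hℓp⟩, ?_, hlamQ ⟨ℓ, hℓ, hgood, hℓNq, hℓp⟩⟩
  rw [hgeig ℓ ⟨hgood, hℓNq, hℓp⟩ hℓ]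
  exact (hμ ⟨ℓ, hℓ, hgood, hℓNq, hℓp⟩).symm

end Fermat.Agent.S41
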