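import Mathlib
import Fermat.Statements.S41
import Fermat.Agent.S41.Referee7
import Fermat.Agent.S41.EigenSymb2
import Fermat.Agent.S41.NonEis74

/-!
# S41 referee harness, part 3: the frozen statement from the single link `(Hb)`

`rf7_S41_of_Hb`: the frozen statement S41 (hypotheses and conclusion verbatim) from the dual Ihara
lemma in plain pointwise form, quantified over the Atkin–Lehner datum `D` and over the auxiliary
primes `l0 ≡ 1 mod N q'`.  `(NE)` is `rl74_exists_good_prime`, `(H0)` is `el2_H0`, everything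
else is `rf7_main`.
-/

set_option autoImplicit false

open WeierstrassCurve WeierstrassCurve.Affine WeierstrassCurve.Affine.Point
open scoped CongruenceSubgroup

namespace Fermat.Agent.S41

/-- the plain pointwise form of the dual Ihara lemma (link L9 of ruling #1357) for the levels
`N`, `N q`, the prime `p`, the Atkin–Lehner datum `D` and the auxiliary prime `l0`. -/
def rf7_Hb (p N q : ℕ) (D : tr43_Data N q) (l0 : ℕ) : Prop :=
  ∃ n : ℕ, ∀ φ₁ φ₂ : sc71_X → ℤ, slp10_IsSymb N φ₁ → slp10_IsSymb N φ₂ →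
    ∃ Ψ : sc71_X → ℤ, slp10_IsSymb (N * q) Ψ ∧
      (∀ z, (p : ℤ) ∣ (ic42_E l0)^[n] φ₁ z - tr43_tr D Ψ z) ∧
      (∀ z, (p : ℤ) ∣ (ic42_E l0)^[n] φ₂ z - tr43_tr D (tr43_W D Ψ) z)

/-- **S41 from the dual Ihara lemma alone.** -/
theorem rf7_S41_of_Hb
    (E : WeierstrassCurve ℚ) [E.IsElliptic] {W : WeierstrassCurve ℤ} (hW : W.IsIntegralModelOf E)
    {p N q' : ℕ} (hp : p.Prime) (hp2 : p ≠ 2) (hN : 0 < N) (hq' : q'.Prime) (hq'N : ¬ q' ∣ N)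
    (hirr : GaloisRepIsIrreducible (K := AlgebraicClosure ℚ) ℚ E p)
    (f : CuspForm (CongruenceSubgroup.Gamma0 N) 2) (𝔪 : Ideal (integralClosure ℤ ℂ))
    (hf : f.IsNormalizedEigenform) (hmax : 𝔪.IsMaximal) (hpm : (p : integralClosure ℤ ℂ) ∈ 𝔪)
    (hcong : ∀ ℓ : ℕ, ℓ.Prime → W.IsGoodPrimeFor ℓ → ¬ ℓ ∣ N → ℓ ≠ p →
      ∃ a : integralClosure ℤ ℂ, (a : ℂ) = ModularFormClass.qCoeff f ℓ ∧
        a - ((W.apOfModel ℓ : ℤ) : integralClosure ℤ ℂ) ∈ 𝔪)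
    (hLR : ∃ a : integralClosure ℤ ℂ, (a : ℂ) = ModularFormClass.qCoeff f q' ∧
      a ^ 2 - ((q' : integralClosure ℤ ℂ) + 1) ^ 2 ∈ 𝔪)
    (Hb : ∀ (D : tr43_Data N q') (l0 : ℕ), l0.Prime → l0 ≠ p → l0 ≡ 1 [MOD N * q'] →
      rf7_Hb p N q' D l0) :
    ∃ (g : CuspForm (CongruenceSubgroup.Gamma0 (N * q')) 2) (𝔪' : Ideal (integralClosure ℤ ℂ)),
      g.IsNormalizedEigenform ∧ 𝔪'.IsMaximal ∧ (p : integralClosure ℤ ℂ) ∈ 𝔪' ∧
      (∀ ℓ : ℕ, ℓ.Prime → W.IsGoodPrimeFor ℓ → ¬ ℓ ∣ N * q' → ℓ ≠ p →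
        ∃ a : integralClosure ℤ ℂ, (a : ℂ) = ModularFormClass.qCoeff g ℓ ∧
          a - ((W.apOfModel ℓ : ℤ) : integralClosure ℤ ℂ) ∈ 𝔪') ∧
      g.IsNewAt q' := by
  have : NeZero N := ⟨hN.ne'⟩
  obtain ⟨D⟩ := tr43_Data_exists ((Nat.Prime.coprime_iff_not_dvd hq').mpr hq'N)
  obtain ⟨l0, hl0, hl0S, hl01, hl0g, hl0ne⟩ := rl74_exists_good_prime E hW hp hp2 hirr (N * q')
    (Nat.mul_pos hN hq'.pos) {p}
  have hl0p : l0 ≠ p := fun h => hl0S (by rw [h]; exact Finset.mem_singleton_self p)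
  have hl0ne' : ¬ (p : ℤ) ∣ W.apOfModel l0 - ((l0 : ℤ) + 1) := by
    intro h
    apply hl0ne
    have e : (l0 : ℤ) + 1 - W.apOfModel l0 = -(W.apOfModel l0 - ((l0 : ℤ) + 1)) := by ring
    rw [e]
    exact (dvd_neg).mpr h
  obtain ⟨v, hv0, -, hv⟩ := el2_H0 N hf
  exact rf7_main hp hp2 hN hq' hq'N f 𝔪 hmax hpm hcong hLR D l0 hl0 hl0g hl0p hl01 hl0ne'
    (Hb D l0 hl0 hl0p hl01)
    ⟨(v : sc71_X → ℂ), v.2, fun h => hv0 (Subtype.ext h), hv⟩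

end Fermat.Agent.S41
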