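/-
S41 / crossing route, final glue (helper88): the link `(Hb)` of `rf7_S41_of_Hb`, with NO
hypothesis left, from

* the crossing symbols `cr37_Phi` (helper37, `CrossSymb37`: (S1)-(S6)),
* the crossing duality `cx35_DI` (helper35, `CrossFinal35`),
* Ihara's lemma on the Hom side `him88_H1'` (helper88, `HomIharaMain88`, exponent `4`).

`chb88_isCross` : the crossing symbols of the levels `N`, `N q` satisfy `cx35_IsCross`.
`chb88_DI`      : dual Ihara modulo `p` in plain-function form (exponent `4`).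
`chb88_Hb`      : `rf7_Hb p N q D l0` for every prime `l0 ≡ 1 mod N q`.
`chb88_Hb_all`  : the literal last argument of `rf7_S41_of_Hb`.
-/
import Mathlib
import Fermat.Agent.S16.LB.BridgeHH
import Fermat.Agent.S41.CrossFinal35
import Fermat.Agent.S41.CrossSymb37
import Fermat.Agent.S41.HomIharaMain88
import Fermat.Agent.S41.RefereeB7

set_option autoImplicit false

open CongruenceSubgroup OnePoint Matrix ModularGroup
open scoped MatrixGroups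

namespace Fermat.Agent.S41

open Fermat.Agent.S16

/-- the crossing symbol of level `M` is a symbol of level `M` (convention C2). -/
theorem chb88_symb (M : ℕ) (η : Gamma0 M) : slp10_IsSymb M (cr37_Phi (Gamma0 M) η) :=
  ⟨fun a b c => cr37_Phi_add (Gamma0 M) η a b c, cr37_Phi_Inv M η⟩

/-- the two names of the inclusion `Γ₀(N q) → Γ₀(N)` agree. -/
theorem chb88_j_eq (N q : ℕ) (η : Gamma0 (N * q)) : cr37_j N q η = hic88_incl N q η :=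
  Subtype.ext rfl

/-- **The crossing symbols satisfy `cx35_IsCross`.** -/
theorem chb88_isCross {N q : ℕ} [NeZero N] [NeZero q] (hq : q.Prime) (D : tr43_Data N q)
    {ℓ : ℕ} (hℓ : ℓ.Prime) (hℓN : ¬ ℓ ∣ N) :
    cx35_IsCross D hℓ hℓN (cr37_Phi (Gamma0 N)) (cr37_Phi (Gamma0 (N * q))) where
  symbN := chb88_symb N
  symbQ := chb88_symb (N * q)
  mulN := cr37_Phi_mul (Gamma0 N)
  mulQ := cr37_Phi_mul (Gamma0 (N * q))
  hecke := fun η => by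
    rw [cr37_Phi_T hℓ hℓN η]
    exact Finset.sum_congr rfl fun i _ => by rw [hh_lbSysT_kap]
  tr := fun η => by
    rw [cr37_Phi_tr hq D η, chb88_j_eq]
  W := fun η η' h => by
    obtain ⟨κ, hκ⟩ := D.w_mul_Gamma0 η
    rw [cr37_Phi_W hq.ne_zero D η κ hκ]
    have hc := cx35_conj_eta D η η' κ h hκ
    have hκ' : κ = D.eta * η' * D.eta⁻¹ := by
      rw [← hc, mul_inv_cancel_right]
    rw [hκ', cr37_Phi_conj]
  edge := fun η r => cx35_edge_of_vec cr37_vec cr37_vec_infty cr37_vec_coe (Gamma0 N) η r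

/-- **Dual Ihara modulo `p`, plain-function form, no hypothesis left** (exponent `4`). -/
theorem chb88_DI {p N q : ℕ} (hp : p.Prime) (hp2 : p ≠ 2) (hN : 0 < N) (hq : q.Prime)
    (hqN : ¬ q ∣ N) (D : tr43_Data N q) {ℓ : ℕ} (hℓ : ℓ.Prime) (hℓ1 : ℓ ≡ 1 [MOD N * q])
    (φ₁ φ₂ : sc71_X → ℤ) (h₁ : slp10_IsSymb N φ₁) (h₂ : slp10_IsSymb N φ₂) :
    ∃ Φ ψ₁ ψ₂ : sc71_X → ℤ, slp10_IsSymb (N * q) Φ ∧ slp10_IsSymb N ψ₁ ∧ slp10_IsSymb N ψ₂ ∧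
      (hic88_E ℓ)^[4] φ₁ = tr43_tr D Φ + (p : ℤ) • ψ₁ ∧
      (hic88_E ℓ)^[4] φ₂ = tr43_tr D (tr43_W D Φ) + (p : ℤ) • ψ₂ := by
  have : NeZero N := ⟨hN.ne'⟩
  have : NeZero q := ⟨hq.ne_zero⟩
  have hℓNq : ¬ ℓ ∣ N * q := ca76_not_dvd_of_modEq hℓ hℓ1
  have hℓN : ¬ ℓ ∣ N := fun h => hℓNq (h.mul_right q)
  exact cx35_DI p hp hp2 hq D hℓ hℓN (chb88_isCross hq D hℓ hℓN) 4
    (fun α₁ α₂ h => him88_H1' hp hp2 hN hq hqN hℓ hℓ1 D _ _ (hic88_isRes₁ N q ℤ)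
      (hic88_isRes₂ D ℤ) α₁ α₂ h) φ₁ φ₂ h₁ h₂

/-- the two literal forms of `E = T_ℓ - (ℓ + 1)` agree, iterated. -/
theorem chb88_E_iter (ℓ n : ℕ) (φ : sc71_X → ℤ) : (ic42_E ℓ)^[n] φ = (hic88_E ℓ)^[n] φ := by
  have h : (ic42_E ℓ : (sc71_X → ℤ) → sc71_X → ℤ) = hic88_E ℓ :=
    funext fun Φ => (him88_E_eq ℓ Φ).symm
  rw [h]

/-- **The link `(Hb)`**: the dual Ihara lemma in the plain pointwise form of `RefereeB7`. -/
theorem chb88_Hb {p N q : ℕ} (hp : p.Prime) (hp2 : p ≠ 2) (hN : 0 < N) (hq : q.Prime)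
    (hqN : ¬ q ∣ N) (D : tr43_Data N q) (l0 : ℕ) (hl0 : l0.Prime) (hl01 : l0 ≡ 1 [MOD N * q]) :
    rf7_Hb p N q D l0 := by
  refine ⟨4, fun φ₁ φ₂ h₁ h₂ => ?_⟩
  obtain ⟨Φ, ψ₁, ψ₂, hΦ, -, -, e₁, e₂⟩ := chb88_DI hp hp2 hN hq hqN D hl0 hl01 φ₁ φ₂ h₁ h₂
  refine ⟨Φ, hΦ, fun z => ?_, fun z => ?_⟩
  · rw [chb88_E_iter, e₁]
    exact ⟨ψ₁ z, by simp⟩
  · rw [chb88_E_iter, e₂]
    exact ⟨ψ₂ z, by simp⟩

/-- the literal last argument of `rf7_S41_of_Hb`. -/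
theorem chb88_Hb_all {p N q : ℕ} (hp : p.Prime) (hp2 : p ≠ 2) (hN : 0 < N) (hq : q.Prime)
    (hqN : ¬ q ∣ N) :
    ∀ (D : tr43_Data N q) (l0 : ℕ), l0.Prime → l0 ≠ p → l0 ≡ 1 [MOD N * q] →
      rf7_Hb p N q D l0 :=
  fun D l0 hl0 _ hl01 => chb88_Hb hp hp2 hN hq hqN D l0 hl0 hl01

end Fermat.Agent.S41
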