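/-
S41 / (b') duality, second route (crossing pairing): HECKE EQUIVARIANCE (helper9).

Abstract layer (on top of `CrossAbs37`): if the left cosets `ι(Γ) α i` and the right cosets
`β j ι(Γ)` sweep out the same set (`e`), then the sum over `i` of the crossing sums of the right
translates `σ (· * α i)` is the sum of the crossing sums of `σ` at the "transfer" elements `s j`
(`ι η * β (π j) = β j * ι (s j)`).

Concrete layer: `Γ = Γ₀(N)`, `ℓ ∤ N` prime, `α i = lbMat ℓ i`, `β j = adjugate (lbMat ℓ j)`: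
`T_ℓ` on the symbol variable is the Hecke operator `heckeHom N ℓ ℤ` on the `η`-variable.
-/
import Mathlib
import Fermat.Agent.S41.CrossAbs37
import Fermat.Agent.S41.Cross37
import Fermat.Agent.S16.HeckeGamma0
import Fermat.Agent.S41.Trace43b

set_option autoImplicit false

open CongruenceSubgroup
open scoped MatrixGroups

namespace Fermat.Agent.S41

open Fermat.Agent.S16

section abs

variable {Γ 𝔾 : Type*} [Group Γ] [Group 𝔾]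

/-- Left cosets `ι(Γ) α i` versus right cosets `β j ι(Γ)`: the sum of the `cr37_D` of the right
translates `σ (· * α i)` is the sum of the `cr37_D` of `σ` at the base points moved by `β j`. -/
theorem ch9_D_reps {ι : Γ →* 𝔾} {σ : 𝔾 → ℤ} (h : cr37_Fin ι σ) {κ : Type*} [Fintype κ]
    (α β : κ → 𝔾) (e : κ × Γ ≃ κ × Γ)
    (he : ∀ (k : 𝔾) (p : κ × Γ), σ (k * (ι p.2 * α p.1)) = σ (k * (β (e p).1 * ι (e p).2)))
    (k₁ k₂ : 𝔾) :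
    ∑ i, cr37_D ι (fun x => σ (x * α i)) k₁ k₂ = ∑ j, cr37_D ι σ (k₁ * β j) (k₂ * β j) := by
  classical
  let G : κ × Γ → ℤ := fun q => σ (k₁ * β q.1 * ι q.2) - σ (k₂ * β q.1 * ι q.2)
  have hGsupp : (Function.support G).Finite := by
    have hsub : Function.support G ⊆ ⋃ j : κ, (fun g : Γ => (j, g)) ''
        (Function.support fun g : Γ => σ (k₁ * β j * ι g) - σ (k₂ * β j * ι g)) := by
      intro q hq
      simp only [Set.mem_iUnion, Set.mem_image]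
      exact ⟨q.1, q.2, hq, rfl⟩
    exact (Set.finite_iUnion fun j =>
      (cr37_support_finite h (k₁ * β j) (k₂ * β j)).image _).subset hsub
  have hR : ∑ j, cr37_D ι σ (k₁ * β j) (k₂ * β j) = ∑ᶠ q : κ × Γ, G q := by
    rw [finsum_curry _ hGsupp, finsum_eq_sum_of_fintype]
    rfl
  have hL : ∑ i, cr37_D ι (fun x => σ (x * α i)) k₁ k₂ = ∑ᶠ p : κ × Γ, G (e p) := by
    have hsupp : (Function.support fun p : κ × Γ => G (e p)).Finite :=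
      hGsupp.preimage (f := fun p => e p) (fun a _ b _ hab => e.injective hab)
    rw [finsum_curry _ hsupp, finsum_eq_sum_of_fintype]
    refine Finset.sum_congr rfl fun i _ => ?_
    unfold cr37_D
    refine finsum_congr fun g => ?_
    have h1 := he k₁ (i, g)
    have h2 := he k₂ (i, g)
    show σ (k₁ * ι g * α i) - σ (k₂ * ι g * α i)
      = σ (k₁ * β (e (i, g)).1 * ι (e (i, g)).2) - σ (k₂ * β (e (i, g)).1 * ι (e (i, g)).2)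
    rw [mul_assoc k₁ (ι g), mul_assoc k₂ (ι g), h1, h2, mul_assoc k₁ (β _), mul_assoc k₂ (β _)]
  rw [hL, hR]
  exact finsum_comp_equiv e

/-- **Hecke equivariance, abstract form.** -/
theorem ch9_X_reps {ι : Γ →* 𝔾} {σ : 𝔾 → ℤ} (h : cr37_Fin ι σ) {κ : Type*} [Fintype κ]
    (α β : κ → 𝔾) (e : κ × Γ ≃ κ × Γ)
    (he : ∀ (k : 𝔾) (p : κ × Γ), σ (k * (ι p.2 * α p.1)) = σ (k * (β (e p).1 * ι (e p).2)))
    (η : Γ) (π : κ ≃ κ) (s : κ → Γ) (hs : ∀ j, ι η * β (π j) = β j * ι (s j)) (k : 𝔾) :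
    ∑ i, cr37_X ι (fun x => σ (x * α i)) k η = ∑ j, cr37_X ι σ k (s j) := by
  have h1 := ch9_D_reps h α β e he k (k * (ι η)⁻¹)
  have h0 : (∑ i, cr37_X ι (fun x => σ (x * α i)) k η)
      = ∑ i, cr37_D ι (fun x => σ (x * α i)) k (k * (ι η)⁻¹) := rfl
  rw [h0, h1]
  have key : ∀ j, cr37_D ι σ (k * β j) (k * (ι η)⁻¹ * β j)
      = (cr37_D ι σ (k * β j) k - cr37_D ι σ (k * β (π j)) k) + cr37_X ι σ k (s j) := by
    intro j
    have e1 : k * (ι η)⁻¹ * β j = k * β (π j) * (ι (s j))⁻¹ := by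
      have h3 : (ι η)⁻¹ * β j = β (π j) * (ι (s j))⁻¹ := by
        rw [inv_mul_eq_iff_eq_mul, ← mul_assoc, hs j, mul_assoc, mul_inv_cancel, mul_one]
      rw [mul_assoc, h3, mul_assoc]
    rw [e1]
    have a1 := cr37_D_add h (k * β j) (k * β (π j)) (k * β (π j) * (ι (s j))⁻¹)
    have a2 := cr37_D_add h (k * β j) k (k * β (π j))
    have a3 := cr37_D_swap h (k * β (π j)) k
    have a4 := cr37_X_base h (k * β (π j)) k (s j)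
    unfold cr37_X at a4 ⊢
    linarith
  rw [Finset.sum_congr rfl fun j _ => key j, Finset.sum_add_distrib, Finset.sum_sub_distrib]
  have hperm : ∑ j, cr37_D ι σ (k * β (π j)) k = ∑ j, cr37_D ι σ (k * β j) k :=
    Equiv.sum_comp π (fun j => cr37_D ι σ (k * β j) k)
  rw [hperm, sub_self, zero_add]

/-- The crossing sum as an additive homomorphism in `η`. -/
noncomputable def ch9_Xadd {ι : Γ →* 𝔾} {σ : 𝔾 → ℤ} (h : cr37_Fin ι σ) (k : 𝔾) :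
    Additive Γ →+ ℤ where
  toFun η := cr37_X ι σ k (Additive.toMul η)
  map_zero' := cr37_X_one ι σ k
  map_add' η₁ η₂ := cr37_X_mul h k (Additive.toMul η₁) (Additive.toMul η₂)

theorem ch9_Xadd_apply {ι : Γ →* 𝔾} {σ : 𝔾 → ℤ} (h : cr37_Fin ι σ) (k : 𝔾) (η : Γ) :
    ch9_Xadd h k (Additive.ofMul η) = cr37_X ι σ k η := rfl

end abs


/-! ### The concrete `T_ℓ` double coset for `Γ₀(N)` -/

section conc

open Matrix

variable {N ℓ : ℕ}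

theorem ch9_adj_det (M : Matrix (Fin 2) (Fin 2) ℤ) : M.adjugate.det = M.det := by
  rw [Matrix.adjugate_fin_two, Matrix.det_fin_two_of, Matrix.det_fin_two]
  ring

theorem ch9_adj_10 (M : Matrix (Fin 2) (Fin 2) ℤ) : M.adjugate 1 0 = - M 1 0 := by
  rw [Matrix.adjugate_fin_two]
  rfl

theorem ch9_adj_adj (M : Matrix (Fin 2) (Fin 2) ℤ) : M.adjugate.adjugate = M := by
  rw [Matrix.adjugate_fin_two, Matrix.adjugate_fin_two]
  ext i j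
  fin_cases i <;> fin_cases j <;> simp

theorem ch9_coe_inv (g : Gamma0 N) :
    (((g⁻¹ : Gamma0 N) : SL(2, ℤ)) : Matrix (Fin 2) (Fin 2) ℤ)
      = (((g : SL(2, ℤ)) : Matrix (Fin 2) (Fin 2) ℤ)).adjugate := by
  rw [Subgroup.coe_inv, Matrix.SpecialLinearGroup.coe_inv]

theorem ch9_mul_10 (A B : Matrix (Fin 2) (Fin 2) ℤ) :
    (A * B) 1 0 = A 1 0 * B 0 0 + A 1 1 * B 1 0 := by
  simp [Matrix.mul_apply, Fin.sum_univ_two]

/-- every `g * lbMat ℓ i` is `adjugate (lbMat ℓ j) * g'`. -/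
theorem ch9_ex (hℓ : ℓ.Prime) (hℓN : ¬ ℓ ∣ N) (i : Option (Fin ℓ)) (g : Gamma0 N) :
    ∃ (j : Option (Fin ℓ)) (g' : Gamma0 N),
      ((g : SL(2, ℤ)) : Matrix (Fin 2) (Fin 2) ℤ) * lbMat ℓ i
        = (lbMat ℓ j).adjugate * ((g' : SL(2, ℤ)) : Matrix (Fin 2) (Fin 2) ℤ) := by
  have hdet : (((g : SL(2, ℤ)) : Matrix (Fin 2) (Fin 2) ℤ) * lbMat ℓ i).adjugate.det = ℓ := by
    rw [ch9_adj_det, Matrix.det_mul, tr43_lbMat_det, (g : SL(2, ℤ)).2, one_mul]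
  have hdvd : (N : ℤ) ∣ (((g : SL(2, ℤ)) : Matrix (Fin 2) (Fin 2) ℤ) * lbMat ℓ i).adjugate 1 0 := by
    rw [ch9_adj_10, ch9_mul_10, tr43_lbMat_10, mul_zero, add_zero, dvd_neg]
    exact Dvd.dvd.mul_right (hh_dvd_of_mem g) _
  obtain ⟨j, κ, hκ⟩ := tr43_hnf hℓ hℓN _ hdet hdvd
  refine ⟨j, κ⁻¹, ?_⟩
  have h2 := congrArg Matrix.adjugate hκ
  rw [ch9_adj_adj, Matrix.adjugate_mul_distrib] at h2
  rw [h2, ch9_coe_inv]

/-- every `adjugate (lbMat ℓ j) * g'` is `g * lbMat ℓ i`. -/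
theorem ch9_ex' (hℓ : ℓ.Prime) (hℓN : ¬ ℓ ∣ N) (j : Option (Fin ℓ)) (g' : Gamma0 N) :
    ∃ (i : Option (Fin ℓ)) (g : Gamma0 N),
      ((g : SL(2, ℤ)) : Matrix (Fin 2) (Fin 2) ℤ) * lbMat ℓ i
        = (lbMat ℓ j).adjugate * ((g' : SL(2, ℤ)) : Matrix (Fin 2) (Fin 2) ℤ) := by
  have hdet : ((lbMat ℓ j).adjugate * ((g' : SL(2, ℤ)) : Matrix (Fin 2) (Fin 2) ℤ)).det = ℓ := by
    rw [Matrix.det_mul, ch9_adj_det, tr43_lbMat_det, (g' : SL(2, ℤ)).2, mul_one]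
  have hdvd : (N : ℤ) ∣
      ((lbMat ℓ j).adjugate * ((g' : SL(2, ℤ)) : Matrix (Fin 2) (Fin 2) ℤ)) 1 0 := by
    rw [ch9_mul_10, ch9_adj_10, tr43_lbMat_10, neg_zero, zero_mul, zero_add]
    exact Dvd.dvd.mul_left (hh_dvd_of_mem g') _
  obtain ⟨i, κ, hκ⟩ := tr43_hnf hℓ hℓN _ hdet hdvd
  exact ⟨i, κ, hκ.symm⟩

theorem ch9_not_dvd_det (hℓ : ℓ.Prime) (g : Gamma0 N) :
    ¬ (ℓ : ℤ) ∣ (((g : SL(2, ℤ)) : Matrix (Fin 2) (Fin 2) ℤ)).det := by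
  rw [(g : SL(2, ℤ)).2]
  exact tr43_not_dvd_one hℓ

theorem ch9_coe_inj {g₁ g₂ : Gamma0 N}
    (h : ((g₁ : SL(2, ℤ)) : Matrix (Fin 2) (Fin 2) ℤ) = ((g₂ : SL(2, ℤ)) : Matrix (Fin 2) (Fin 2) ℤ)) :
    g₁ = g₂ :=
  Subtype.ext (Subtype.ext h)

/-- uniqueness on the left. -/
theorem ch9_uniq_left (hℓ : ℓ.Prime) {i₁ i₂ : Option (Fin ℓ)} {g₁ g₂ : Gamma0 N}
    (h : ((g₁ : SL(2, ℤ)) : Matrix (Fin 2) (Fin 2) ℤ) * lbMat ℓ i₁
      = ((g₂ : SL(2, ℤ)) : Matrix (Fin 2) (Fin 2) ℤ) * lbMat ℓ i₂) : i₁ = i₂ ∧ g₁ = g₂ := by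
  obtain ⟨h1, h2⟩ := tr43_rdiv_unique hℓ _ _ (ch9_not_dvd_det hℓ g₁) i₁ i₂ h
  exact ⟨h1, ch9_coe_inj h2⟩

/-- uniqueness on the right. -/
theorem ch9_uniq_right (hℓ : ℓ.Prime) {j₁ j₂ : Option (Fin ℓ)} {g₁ g₂ : Gamma0 N}
    (h : (lbMat ℓ j₁).adjugate * ((g₁ : SL(2, ℤ)) : Matrix (Fin 2) (Fin 2) ℤ)
      = (lbMat ℓ j₂).adjugate * ((g₂ : SL(2, ℤ)) : Matrix (Fin 2) (Fin 2) ℤ)) :
    j₁ = j₂ ∧ g₁ = g₂ := by
  have h2 := congrArg Matrix.adjugate h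
  rw [Matrix.adjugate_mul_distrib, Matrix.adjugate_mul_distrib, ch9_adj_adj, ch9_adj_adj,
    ← ch9_coe_inv, ← ch9_coe_inv] at h2
  obtain ⟨h3, h4⟩ := ch9_uniq_left hℓ h2
  exact ⟨h3, inv_injective h4⟩

/-- the map `(i, g) ↦ (j, g')` with `g * lbMat ℓ i = adjugate (lbMat ℓ j) * g'`. -/
noncomputable def ch9_f (hℓ : ℓ.Prime) (hℓN : ¬ ℓ ∣ N) (p : Option (Fin ℓ) × Gamma0 N) :
    Option (Fin ℓ) × Gamma0 N :=
  ((ch9_ex hℓ hℓN p.1 p.2).choose, (ch9_ex hℓ hℓN p.1 p.2).choose_spec.choose)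

theorem ch9_f_spec (hℓ : ℓ.Prime) (hℓN : ¬ ℓ ∣ N) (p : Option (Fin ℓ) × Gamma0 N) :
    ((p.2 : SL(2, ℤ)) : Matrix (Fin 2) (Fin 2) ℤ) * lbMat ℓ p.1
      = (lbMat ℓ (ch9_f hℓ hℓN p).1).adjugate
        * (((ch9_f hℓ hℓN p).2 : SL(2, ℤ)) : Matrix (Fin 2) (Fin 2) ℤ) :=
  (ch9_ex hℓ hℓN p.1 p.2).choose_spec.choose_spec

theorem ch9_f_bijective (hℓ : ℓ.Prime) (hℓN : ¬ ℓ ∣ N) :
    Function.Bijective (ch9_f (N := N) hℓ hℓN) := by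
  constructor
  · intro p p' hpp
    have h1 := ch9_f_spec hℓ hℓN p
    have h2 := ch9_f_spec hℓ hℓN p'
    rw [hpp] at h1
    obtain ⟨h3, h4⟩ := ch9_uniq_left hℓ (h1.trans h2.symm)
    exact Prod.ext h3 h4
  · rintro ⟨j, g'⟩
    obtain ⟨i, g, hig⟩ := ch9_ex' hℓ hℓN j g'
    refine ⟨(i, g), ?_⟩
    have h1 := ch9_f_spec hℓ hℓN (i, g)
    obtain ⟨h3, h4⟩ := ch9_uniq_right hℓ (h1.symm.trans hig)
    exact Prod.ext h3 h4

/-- the equivalence `(i, g) ↦ (j, g')`. -/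
noncomputable def ch9_e (hℓ : ℓ.Prime) (hℓN : ¬ ℓ ∣ N) :
    Option (Fin ℓ) × Gamma0 N ≃ Option (Fin ℓ) × Gamma0 N :=
  Equiv.ofBijective (ch9_f hℓ hℓN) (ch9_f_bijective hℓ hℓN)

/-- the inclusion `Γ₀(N) → GL₂(ℚ)`. -/
noncomputable def ch9_iota (N : ℕ) : Gamma0 N →* GL (Fin 2) ℚ :=
  (Matrix.SpecialLinearGroup.mapGL ℚ).comp (Gamma0 N).subtype

theorem ch9_iota_apply (g : Gamma0 N) :
    ch9_iota N g = tr43_gl ((g : SL(2, ℤ)) : Matrix (Fin 2) (Fin 2) ℤ) :=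
  (tr43_gl_sl (g : SL(2, ℤ))).symm

theorem ch9_coe_det_ne (g : Gamma0 N) :
    (((g : SL(2, ℤ)) : Matrix (Fin 2) (Fin 2) ℤ)).det ≠ 0 := by
  rw [(g : SL(2, ℤ)).2]
  exact one_ne_zero

theorem ch9_adj_lbMat_det_ne (hℓ : ℓ ≠ 0) (j : Option (Fin ℓ)) :
    (lbMat ℓ j).adjugate.det ≠ 0 := by
  rw [ch9_adj_det]
  exact tr43_lbMat_det_ne hℓ j

/-- the group identity behind `ch9_e`. -/
theorem ch9_e_spec (hℓ : ℓ.Prime) (hℓN : ¬ ℓ ∣ N) (p : Option (Fin ℓ) × Gamma0 N) :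
    ch9_iota N p.2 * tr43_gl (lbMat ℓ p.1)
      = tr43_gl (lbMat ℓ (ch9_e hℓ hℓN p).1).adjugate * ch9_iota N (ch9_e hℓ hℓN p).2 := by
  rw [ch9_iota_apply, ch9_iota_apply, ← tr43_gl_mul (ch9_coe_det_ne _) (tr43_lbMat_det_ne hℓ.ne_zero _),
    ← tr43_gl_mul (ch9_adj_lbMat_det_ne hℓ.ne_zero _) (ch9_coe_det_ne _)]
  exact congrArg tr43_gl (ch9_f_spec hℓ hℓN p)

theorem ch9_repT_eq (ℓ : ℕ) (i : Option (Fin ℓ)) : hh_repTInt ℓ i = lbMat ℓ i := by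
  cases i <;> rfl

/-- the integer transfer identity for the right representatives `adjugate (lbMat ℓ j)`. -/
theorem ch9_s_int (hℓ : ℓ.Prime) (hℓN : ¬ ℓ ∣ N) (η : Gamma0 N) (j : Option (Fin ℓ)) :
    ((η : SL(2, ℤ)) : Matrix (Fin 2) (Fin 2) ℤ)
        * (lbMat ℓ ((hh_repsT N ℓ hℓ hℓN).σ η j)).adjugate
      = (lbMat ℓ j).adjugate
        * ((((hh_repsT N ℓ hℓ hℓN).κ j η : Gamma0 N) : SL(2, ℤ)) : Matrix (Fin 2) (Fin 2) ℤ) := by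
  have hint := hh_repsT_int N ℓ hℓ hℓN j η
  rw [ch9_repT_eq, ch9_repT_eq] at hint
  have hB : (lbMat ℓ j).adjugate * lbMat ℓ j = (ℓ : ℤ) • (1 : Matrix (Fin 2) (Fin 2) ℤ) := by
    rw [Matrix.adjugate_mul, tr43_lbMat_det]
  have hB' : lbMat ℓ ((hh_repsT N ℓ hℓ hℓN).σ η j)
      * (lbMat ℓ ((hh_repsT N ℓ hℓ hℓN).σ η j)).adjugate
        = (ℓ : ℤ) • (1 : Matrix (Fin 2) (Fin 2) ℤ) := by
    rw [Matrix.mul_adjugate, tr43_lbMat_det]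
  apply tr43_smul_cancel (c := (ℓ : ℤ)) (by exact_mod_cast hℓ.ne_zero)
  calc (ℓ : ℤ) • (((η : SL(2, ℤ)) : Matrix (Fin 2) (Fin 2) ℤ)
          * (lbMat ℓ ((hh_repsT N ℓ hℓ hℓN).σ η j)).adjugate)
      = ((lbMat ℓ j).adjugate * lbMat ℓ j) * (((η : SL(2, ℤ)) : Matrix (Fin 2) (Fin 2) ℤ)
          * (lbMat ℓ ((hh_repsT N ℓ hℓ hℓN).σ η j)).adjugate) := by
        rw [hB, Matrix.smul_mul, Matrix.one_mul]
    _ = (lbMat ℓ j).adjugate * (lbMat ℓ j * ((η : SL(2, ℤ)) : Matrix (Fin 2) (Fin 2) ℤ))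
          * (lbMat ℓ ((hh_repsT N ℓ hℓ hℓN).σ η j)).adjugate := by
        simp only [Matrix.mul_assoc]
    _ = ((lbMat ℓ j).adjugate
          * ((((hh_repsT N ℓ hℓ hℓN).κ j η : Gamma0 N) : SL(2, ℤ)) : Matrix (Fin 2) (Fin 2) ℤ))
          * (lbMat ℓ ((hh_repsT N ℓ hℓ hℓN).σ η j)
            * (lbMat ℓ ((hh_repsT N ℓ hℓ hℓN).σ η j)).adjugate) := by
        rw [hint]
        simp only [Matrix.mul_assoc]
    _ = (ℓ : ℤ) • ((lbMat ℓ j).adjugate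
          * ((((hh_repsT N ℓ hℓ hℓN).κ j η : Gamma0 N) : SL(2, ℤ)) : Matrix (Fin 2) (Fin 2) ℤ)) := by
        rw [hB', Matrix.mul_smul, Matrix.mul_one]

/-- the transfer identity for the right representatives `adjugate (lbMat ℓ j)`. -/
theorem ch9_s_spec (hℓ : ℓ.Prime) (hℓN : ¬ ℓ ∣ N) (η : Gamma0 N) (j : Option (Fin ℓ)) :
    ch9_iota N η * tr43_gl (lbMat ℓ ((hh_repsT N ℓ hℓ hℓN).σ η j)).adjugate
      = tr43_gl (lbMat ℓ j).adjugate * ch9_iota N ((hh_repsT N ℓ hℓ hℓN).κ j η) := by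
  rw [ch9_iota_apply, ch9_iota_apply,
    ← tr43_gl_mul (ch9_coe_det_ne _) (ch9_adj_lbMat_det_ne hℓ.ne_zero _),
    ← tr43_gl_mul (ch9_adj_lbMat_det_ne hℓ.ne_zero _) (ch9_coe_det_ne _)]
  exact congrArg tr43_gl (ch9_s_int hℓ hℓN η j)

/-- **Hecke equivariance of the crossing sums** (`Γ₀(N)`, `ℓ ∤ N`): the sum over the
representatives `lbMat ℓ i` of the crossing sums of the right translates of `σ` is the sum of the
crossing sums of `σ` at the S16 cocycle values `κ i η`. -/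
theorem ch9_hecke (hℓ : ℓ.Prime) (hℓN : ¬ ℓ ∣ N) {σ : GL (Fin 2) ℚ → ℤ}
    (h : cr37_Fin (ch9_iota N) σ) (k : GL (Fin 2) ℚ) (η : Gamma0 N) :
    ∑ i : Option (Fin ℓ), cr37_X (ch9_iota N) (fun x => σ (x * tr43_gl (lbMat ℓ i))) k η
      = ∑ i : Option (Fin ℓ), cr37_X (ch9_iota N) σ k ((hh_repsT N ℓ hℓ hℓN).κ i η) :=
  ch9_X_reps h (fun i => tr43_gl (lbMat ℓ i)) (fun j => tr43_gl (lbMat ℓ j).adjugate)
    (ch9_e hℓ hℓN) (fun k p => by rw [ch9_e_spec hℓ hℓN p]) η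
    ((hh_repsT N ℓ hℓ hℓN).σEquiv η) (fun j => (hh_repsT N ℓ hℓ hℓN).κ j η)
    (fun j => ch9_s_spec hℓ hℓN η j) k

/-- The same, with S16's `heckeHom` on the `η`-variable. -/
theorem ch9_hecke_hom (hℓ : ℓ.Prime) (hℓN : ¬ ℓ ∣ N) {σ : GL (Fin 2) ℚ → ℤ}
    (h : cr37_Fin (ch9_iota N) σ) (k : GL (Fin 2) ℚ) (η : Gamma0 N) :
    ∑ i : Option (Fin ℓ), cr37_X (ch9_iota N) (fun x => σ (x * tr43_gl (lbMat ℓ i))) k η
      = heckeHom N ℓ ℤ (ch9_Xadd h k) (Additive.ofMul η) := by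
  rw [ch9_hecke hℓ hℓN h k η, heckeHom_of_not_dvd hℓ hℓN, HeckeReps.op_apply]
  rfl

theorem ch9_lbMat_det_pos (hℓ : ℓ ≠ 0) (i : Option (Fin ℓ)) :
    0 < ((tr43_gl (lbMat ℓ i) : GL (Fin 2) ℚ) : Matrix (Fin 2) (Fin 2) ℚ).det := by
  rw [tr43_gl_coe (tr43_lbMat_det_ne hℓ i), tr43_det_map, tr43_lbMat_det]
  have : 0 < ℓ := Nat.pos_of_ne_zero hℓ
  exact_mod_cast this

/-- **Hecke equivariance of the crossing pairing, vector form**: `T_ℓ` on the pair of cusp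
vectors `(a, b)` is `heckeHom N ℓ ℤ` on the `η`-variable. -/
theorem ch9_hecke_sig (hℓ : ℓ.Prime) (hℓN : ¬ ℓ ∣ N) (a b : Fin 2 → ℚ)
    (h : cr37_Fin (ch9_iota N) (cr37_sig a b)) (k : GL (Fin 2) ℚ) (η : Gamma0 N) :
    ∑ i : Option (Fin ℓ), cr37_X (ch9_iota N)
        (cr37_sig ((tr43_gl (lbMat ℓ i) : GL (Fin 2) ℚ).1 *ᵥ a)
          ((tr43_gl (lbMat ℓ i) : GL (Fin 2) ℚ).1 *ᵥ b)) k η
      = heckeHom N ℓ ℤ (ch9_Xadd h k) (Additive.ofMul η) := by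
  rw [← ch9_hecke_hom hℓ hℓN h k η]
  refine Finset.sum_congr rfl fun i _ => ?_
  have hfun : (fun x => cr37_sig a b (x * tr43_gl (lbMat ℓ i)))
      = cr37_sig ((tr43_gl (lbMat ℓ i) : GL (Fin 2) ℚ).1 *ᵥ a)
          ((tr43_gl (lbMat ℓ i) : GL (Fin 2) ℚ).1 *ᵥ b) :=
    funext fun x => cr37_sig_mul a b x _ (ch9_lbMat_det_pos hℓ.ne_zero i)
  rw [hfun]

end conc

end Fermat.Agent.S41
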