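/-
S41 / M3x (crossing route, helper35): THE INSTANCE.  The crossing symbols
`ci35_Phi M η (c₁, c₂) = cr37_XG (Γ₀(M)) (vec c₁) (vec c₂) η` satisfy `cx35_IsCross`, hence
(`ci35_DI`) the dual Ihara lemma modulo `p` holds for the lattices of integer valued symbols of
levels `N`, `N q`, in exactly the plain-function form `hDI` consumed by `as28_main`
(exponent `4`, `E = ic42_E ℓ`).

Inputs: helper37's `CrossFin37` (finiteness, triangle relation, invariance, additivity in `η`)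
and `CrossHecke37` (`cr37_XG_hecke`, `cr37_SA_T`), `CrossDeg35` (trace and Atkin-Lehner),
helper88's `him88_H1'` (Ihara on the Hom side) and the assembly `cx35_DI` of `CrossFinal35`.
-/
import Mathlib
import Fermat.Agent.S41.CrossFinal35
import Fermat.Agent.S41.CrossDeg35
import Fermat.Agent.S41.CrossHecke37
import Fermat.Agent.S41.HomIharaMain88

set_option autoImplicit false

open CongruenceSubgroup OnePoint Matrix ModularGroup
open scoped MatrixGroups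

namespace Fermat.Agent.S41

open Fermat.Agent.S16

/-- a vector representing a cusp: `∞ ↦ (1, 0)`, `x ↦ (x, 1)`. -/
def ci35_vec (c : OnePoint ℚ) : Fin 2 → ℚ :=
  Option.elim c ![1, 0] (fun x => ![x, 1])

theorem ci35_vec_infty : ci35_vec ∞ = ![1, 0] := rfl

theorem ci35_vec_coe (x : ℚ) : ci35_vec (x : OnePoint ℚ) = ![x, 1] := rfl

theorem ci35_vec_ite (u v : ℚ) (h : u ≠ 0 ∨ v ≠ 0) :
    ∃ lam : ℚ, lam ≠ 0 ∧
      ci35_vec (if v = 0 then ∞ else ((u / v : ℚ) : OnePoint ℚ)) = lam • ![u, v] := by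
  by_cases hv : v = 0
  · have hu : u ≠ 0 := by
      rcases h with h | h
      · exact h
      · exact absurd hv h
    refine ⟨u⁻¹, inv_ne_zero hu, ?_⟩
    rw [if_pos hv, ci35_vec_infty, hv]
    funext i
    fin_cases i
    · simp [hu]
    · simp
  · refine ⟨v⁻¹, inv_ne_zero hv, ?_⟩
    rw [if_neg hv, ci35_vec_coe]
    funext i
    fin_cases i
    · simp [div_eq_inv_mul]
    · simp [hv]

/-- **(V)** the vector of a moved cusp is proportional to the moved vector. -/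
theorem ci35_vec_smul (g : GL (Fin 2) ℚ) (c : OnePoint ℚ) :
    ∃ lam : ℚ, lam ≠ 0 ∧ ci35_vec (g • c) = lam • (g.1 *ᵥ ci35_vec c) := by
  have hdet : g.1.det ≠ 0 := by
    have := g.isUnit.map Matrix.detMonoidHom
    exact (Matrix.isUnit_iff_isUnit_det _).mp g.isUnit |>.ne_zero
  rw [Matrix.det_fin_two] at hdet
  induction c using OnePoint.rec with
  | infty =>
    have hv : g.1 *ᵥ ci35_vec ∞ = ![g 0 0, g 1 0] := by
      funext i
      fin_cases i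
      · simp [ci35_vec_infty, cr37_mulVec0]
      · simp [ci35_vec_infty, cr37_mulVec1]
    rw [hv, OnePoint.smul_infty_eq_ite]
    refine ci35_vec_ite (g 0 0) (g 1 0) ?_
    by_contra hcon
    simp only [not_or, not_not] at hcon
    apply hdet
    show g 0 0 * g 1 1 - g 0 1 * g 1 0 = 0
    rw [hcon.1, hcon.2]; ring
  | coe x =>
    have hv : g.1 *ᵥ ci35_vec (x : OnePoint ℚ) = ![g 0 0 * x + g 0 1, g 1 0 * x + g 1 1] := by
      funext i
      fin_cases i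
      · simp [ci35_vec_coe, cr37_mulVec0]
      · simp [ci35_vec_coe, cr37_mulVec1]
    rw [hv, OnePoint.smul_some_eq_ite]
    refine ci35_vec_ite (g 0 0 * x + g 0 1) (g 1 0 * x + g 1 1) ?_
    by_contra hcon
    simp only [not_or, not_not] at hcon
    apply hdet
    show g 0 0 * g 1 1 - g 0 1 * g 1 0 = 0
    have h1 : g 0 1 = - (g 0 0 * x) := by linarith [hcon.1]
    have h2 : g 1 1 = - (g 1 0 * x) := by linarith [hcon.2]
    rw [h1, h2]; ring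

theorem ci35_dt_vec {a b : OnePoint ℚ} (h : a ≠ b) : cr37_dt (ci35_vec a) (ci35_vec b) ≠ 0 := by
  induction a using OnePoint.rec with
  | infty =>
    induction b using OnePoint.rec with
    | infty => exact absurd rfl h
    | coe y => simp [cr37_dt, ci35_vec_infty, ci35_vec_coe]
  | coe x =>
    induction b using OnePoint.rec with
    | infty => simp [cr37_dt, ci35_vec_infty, ci35_vec_coe]
    | coe y =>
      have hxy : x ≠ y := fun e => h (by rw [e])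
      simp only [cr37_dt, ci35_vec_coe, Matrix.cons_val_zero, Matrix.cons_val_one]
      intro h0
      apply hxy
      linarith

/-- The crossing symbol of level `M` attached to `η ∈ Γ₀(M)`. -/
noncomputable def ci35_Phi (M : ℕ) (η : Gamma0 M) : sc71_X → ℤ :=
  fun x => cr37_XG (Gamma0 M) (ci35_vec x.1) (ci35_vec x.2) η

theorem ci35_Phi_apply (M : ℕ) (η : Gamma0 M) (a b : OnePoint ℚ) :
    ci35_Phi M η (a, b) = cr37_XG (Gamma0 M) (ci35_vec a) (ci35_vec b) η := rfl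

/-- the crossing symbol at a moved pair of cusps. -/
theorem ci35_Phi_smul (M : ℕ) (η : Gamma0 M) (g : GL (Fin 2) ℚ) (x : sc71_X) :
    ci35_Phi M η (g • x) =
      cr37_XG (Gamma0 M) (g.1 *ᵥ ci35_vec x.1) (g.1 *ᵥ ci35_vec x.2) η := by
  obtain ⟨a, b⟩ := x
  obtain ⟨c, hc, e1⟩ := ci35_vec_smul g a
  obtain ⟨c', hc', e2⟩ := ci35_vec_smul g b
  rw [Prod.smul_mk, ci35_Phi_apply, e1, e2, cr37_XG_smul _ _ _ c c' hc hc']

theorem ci35_Phi_self (M : ℕ) (η : Gamma0 M) (a : OnePoint ℚ) : ci35_Phi M η (a, a) = 0 := by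
  rw [ci35_Phi_apply]
  exact cr37_XG_of_dt_eq_zero _ _ _ (by unfold cr37_dt; ring) η

theorem ci35_Phi_swap (M : ℕ) (η : Gamma0 M) (a b : OnePoint ℚ) :
    ci35_Phi M η (b, a) = - ci35_Phi M η (a, b) := by
  rw [ci35_Phi_apply, ci35_Phi_apply, cr37_XG_swap]

/-- (S1) + (S2): the crossing symbols are symbols of level `M`. -/
theorem ci35_Phi_isSymb (M : ℕ) (η : Gamma0 M) : slp10_IsSymb M (ci35_Phi M η) := by
  refine ⟨fun a b c => ?_, fun γ x => ?_⟩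
  · by_cases hab : a = b
    · subst hab
      rw [ci35_Phi_self, zero_add]
    by_cases hbc : b = c
    · subst hbc
      rw [ci35_Phi_self, add_zero]
    by_cases hca : c = a
    · subst hca
      rw [ci35_Phi_self, ci35_Phi_swap M η c b]
      ring
    · have h := cr37_XG_tri (Gamma0 M) (ci35_vec a) (ci35_vec b) (ci35_vec c) (ci35_dt_vec hab)
        (ci35_dt_vec hbc) (ci35_dt_vec hca) η
      have h2 := ci35_Phi_swap M η a c
      rw [ci35_Phi_apply, ci35_Phi_apply] at h2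
      rw [ci35_Phi_apply, ci35_Phi_apply, ci35_Phi_apply]
      linarith
  · rw [ci35_Phi_smul]
    exact cr37_XG_inv_G (Gamma0 M) _ _ γ η

/-- (S3) additivity in `η`. -/
theorem ci35_Phi_mul (M : ℕ) (η₁ η₂ : Gamma0 M) :
    ci35_Phi M (η₁ * η₂) = ci35_Phi M η₁ + ci35_Phi M η₂ := by
  funext x
  exact cr37_XG_mul (Gamma0 M) _ _ η₁ η₂

/-- (S4) Hecke. -/
theorem ci35_Phi_hecke {N ℓ : ℕ} (hℓ : ℓ.Prime) (hℓN : ¬ ℓ ∣ N) (η : Gamma0 N) :
    tr43_T ℓ (ci35_Phi N η) = ∑ i, ci35_Phi N ((hh_repsT N ℓ hℓ hℓN).κ i η) := by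
  funext x
  rw [tr43_T_apply, Finset.sum_apply]
  have hkap : ∀ i : Option (Fin ℓ),
      (lbSysT hℓ hℓN).kap η i = (hh_repsT N ℓ hℓ hℓN).κ i η := by
    intro i
    refine ((lbSysT hℓ hℓN).eq_of_mat_mul (j := (hh_repsT N ℓ hℓ hℓN).σ η i) ?_).2
    have h := hh_repsT_int N ℓ hℓ hℓN i η
    have e : ∀ k : Option (Fin ℓ), (lbSysT hℓ hℓN).mat k = hh_repTInt ℓ k := by
      intro k
      rcases k with _ | k <;> rfl
    rw [e, e]
    exact h
  have h := cr37_XG_hecke (Gamma0 N) (lbSysT hℓ hℓN) (cr37_SA_T hℓ hℓN) (ci35_vec x.1)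
    (ci35_vec x.2) η
  calc ∑ i : Option (Fin ℓ), ci35_Phi N η (tr43_gl (lbMat ℓ i) • x)
      = ∑ i : Option (Fin ℓ), cr37_XG (Gamma0 N) ((tr43_gl (lbMat ℓ i)).1 *ᵥ ci35_vec x.1)
          ((tr43_gl (lbMat ℓ i)).1 *ᵥ ci35_vec x.2) η :=
        Finset.sum_congr rfl fun i _ => ci35_Phi_smul N η _ x
    _ = ∑ i : Option (Fin ℓ), cr37_XG (Gamma0 N) (ci35_vec x.1) (ci35_vec x.2)
          ((lbSysT hℓ hℓN).kap η i) := h
    _ = ∑ i : Option (Fin ℓ), ci35_Phi N ((hh_repsT N ℓ hℓ hℓN).κ i η) x :=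
        Finset.sum_congr rfl fun i _ => by rw [hkap i]; rfl

/-- (S5) trace. -/
theorem ci35_Phi_tr {N q : ℕ} (hq : q.Prime) (D : tr43_Data N q) (η : Gamma0 (N * q)) :
    tr43_tr D (ci35_Phi (N * q) η) = ci35_Phi N (hic88_incl N q η) := by
  funext x
  rw [tr43_tr_apply]
  calc ∑ i : Option (Fin q),
        ci35_Phi (N * q) η (SpecialLinearGroup.mapGL ℚ (D.rep i : SL(2, ℤ)) • x)
      = ∑ i : Option (Fin q), cr37_XG (Gamma0 (N * q))
          ((SpecialLinearGroup.mapGL ℚ (D.rep i : SL(2, ℤ)) : GL (Fin 2) ℚ).1 *ᵥ ci35_vec x.1)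
          ((SpecialLinearGroup.mapGL ℚ (D.rep i : SL(2, ℤ)) : GL (Fin 2) ℚ).1 *ᵥ ci35_vec x.2)
          η := Finset.sum_congr rfl fun i _ => ci35_Phi_smul (N * q) η _ x
    _ = cr37_XG (Gamma0 N) (ci35_vec x.1) (ci35_vec x.2) (hic88_incl N q η) :=
        cd35_tr hq D _ _ η (hic88_incl N q η) rfl

/-- (S6) Atkin-Lehner. -/
theorem ci35_Phi_W {N q : ℕ} (hq : q ≠ 0) (D : tr43_Data N q) (η η' : Gamma0 (N * q))
    (h : D.inv.w * ((η : SL(2, ℤ)) : Matrix (Fin 2) (Fin 2) ℤ) =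
      ((η' : SL(2, ℤ)) : Matrix (Fin 2) (Fin 2) ℤ) * D.inv.w) :
    tr43_W D (ci35_Phi (N * q) η) = ci35_Phi (N * q) η' := by
  funext x
  rw [tr43_W_apply, ci35_Phi_smul]
  exact cd35_W hq D _ _ η η' h

/-- **The crossing symbols satisfy `cx35_IsCross`.** -/
theorem ci35_isCross {N q : ℕ} (hq : q.Prime) (D : tr43_Data N q) {ℓ : ℕ} (hℓ : ℓ.Prime)
    (hℓN : ¬ ℓ ∣ N) : cx35_IsCross D hℓ hℓN (ci35_Phi N) (ci35_Phi (N * q)) where
  symbN := ci35_Phi_isSymb N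
  symbQ := ci35_Phi_isSymb (N * q)
  mulN := ci35_Phi_mul N
  mulQ := ci35_Phi_mul (N * q)
  hecke := ci35_Phi_hecke hℓ hℓN
  tr := ci35_Phi_tr hq D
  W := ci35_Phi_W hq.ne_zero D
  edge := fun η r => cx35_edge_of_vec ci35_vec ci35_vec_infty ci35_vec_coe (Gamma0 N) η r

/-- **Dual Ihara modulo `p`** (crossing route), in the plain-function form `hDI` of
`as28_main`: exponent `4`, `E = ic42_E ℓ`, for every prime `ℓ ≡ 1 mod N q`. -/
theorem ci35_DI {p N q ℓ : ℕ} (hp : p.Prime) (hp2 : p ≠ 2) (hN : 0 < N) (hq : q.Prime)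
    (hqN : ¬ q ∣ N) (D : tr43_Data N q) (hℓ : ℓ.Prime) (hℓ1 : ℓ ≡ 1 [MOD N * q]) :
    ∃ n : ℕ, ∀ φ₁ φ₂ : sc71_X → ℤ, slp10_IsSymb N φ₁ → slp10_IsSymb N φ₂ →
      ∃ Ψ : sc71_X → ℤ, slp10_IsSymb (N * q) Ψ ∧ ∃ ψ₁ ψ₂ : sc71_X → ℤ,
        slp10_IsSymb N ψ₁ ∧ slp10_IsSymb N ψ₂ ∧
        ∀ x, (ic42_E ℓ)^[n] φ₁ x = tr43_tr D Ψ x + (p : ℤ) * ψ₁ x ∧
          (ic42_E ℓ)^[n] φ₂ x = tr43_tr D (tr43_W D Ψ) x + (p : ℤ) * ψ₂ x := by
  have : NeZero N := ⟨hN.ne'⟩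
  have : NeZero q := ⟨hq.ne_zero⟩
  have hℓNq : ¬ ℓ ∣ N * q := ca76_not_dvd_of_modEq hℓ hℓ1
  have hℓN : ¬ ℓ ∣ N := fun h => hℓNq (h.mul_right q)
  have hE : (hic88_E ℓ : (sc71_X → ℤ) → (sc71_X → ℤ)) = ic42_E ℓ :=
    funext fun Φ => him88_E_eq ℓ Φ
  refine ⟨4, fun φ₁ φ₂ h₁ h₂ => ?_⟩
  obtain ⟨Φ, ψ₁, ψ₂, hΦ, hψ₁, hψ₂, e₁, e₂⟩ := cx35_DI p hp hp2 hq D hℓ hℓN
    (ci35_isCross hq D hℓ hℓN) 4
    (fun α₁ α₂ h => him88_H1' hp hp2 hN hq hqN hℓ hℓ1 D _ _ (hic88_isRes₁ N q ℤ)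
      (hic88_isRes₂ D ℤ) α₁ α₂ h) φ₁ φ₂ h₁ h₂
  rw [hE] at e₁ e₂
  refine ⟨Φ, hΦ, ψ₁, ψ₂, hψ₁, hψ₂, fun x => ⟨?_, ?_⟩⟩
  · rw [e₁]; rfl
  · rw [e₂]; rfl

end Fermat.Agent.S41
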