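/-
S41 / (b') duality, second route (crossing pairing): THE INSTANCE.

`cr37_isCross` : the crossing symbols `cr37_Phi (Gamma0 N)`, `cr37_Phi (Gamma0 (N * q))` satisfy
helper35's `cx35_IsCross`.  Hence (`cr37_DI`, `cr37_DI_of_H1`) the dual Ihara lemma modulo `p`
for the lattices of integer valued symbols of levels `N`, `N q`, with no hypothesis left except
Ihara's lemma on the symbol side (`H1`, exactly the hypothesis of `hic88_H1'`).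
-/
import Mathlib
import Fermat.Agent.S41.CrossSymb37
import Fermat.Agent.S41.CrossFinal35
import Fermat.Agent.S16.LB.BridgeHH

set_option autoImplicit false

open CongruenceSubgroup OnePoint Matrix
open scoped MatrixGroups

namespace Fermat.Agent.S41

open Fermat.Agent.S16

/-- the crossing symbol is an integer valued modular symbol of level `N`. -/
theorem cr37_isSymb (N : ℕ) (η : Gamma0 N) : slp10_IsSymb N (cr37_Phi (Gamma0 N) η) :=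
  ⟨cr37_Phi_add (Gamma0 N) η, cr37_Phi_Inv N η⟩

/-- **The crossing symbols satisfy `cx35_IsCross`.** -/
theorem cr37_isCross {N q : ℕ} (hq : q.Prime) (D : tr43_Data N q) {ℓ : ℕ} (hℓ : ℓ.Prime)
    (hℓN : ¬ ℓ ∣ N) :
    cx35_IsCross D hℓ hℓN (cr37_Phi (Gamma0 N)) (cr37_Phi (Gamma0 (N * q))) where
  symbN := cr37_isSymb N
  symbQ := cr37_isSymb (N * q)
  mulN := cr37_Phi_mul (Gamma0 N)
  mulQ := cr37_Phi_mul (Gamma0 (N * q))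
  hecke := fun η => by
    rw [cr37_Phi_T hℓ hℓN η]
    exact Finset.sum_congr rfl fun i _ => by rw [hh_lbSysT_kap]
  tr := fun η => cr37_Phi_tr hq D η
  W := fun η η' h => by
    have hq' : (q : ℤ) ≠ 0 := by exact_mod_cast hq.ne_zero
    have e : (q : ℤ) • (D.w * ((η' : SL(2, ℤ)) : Matrix (Fin 2) (Fin 2) ℤ))
        = (q : ℤ) • (((η : SL(2, ℤ)) : Matrix (Fin 2) (Fin 2) ℤ) * D.w) := by
      calc (q : ℤ) • (D.w * ((η' : SL(2, ℤ)) : Matrix (Fin 2) (Fin 2) ℤ))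
          = D.w * ((η' : SL(2, ℤ)) : Matrix (Fin 2) (Fin 2) ℤ) * (D.inv.w * D.w) := by
            rw [D.inv_mul_w, Matrix.mul_smul, Matrix.mul_one]
        _ = D.w * (((η' : SL(2, ℤ)) : Matrix (Fin 2) (Fin 2) ℤ) * D.inv.w) * D.w := by
            simp only [Matrix.mul_assoc]
        _ = D.w * (D.inv.w * ((η : SL(2, ℤ)) : Matrix (Fin 2) (Fin 2) ℤ)) * D.w := by rw [h]
        _ = (D.w * D.inv.w) * ((η : SL(2, ℤ)) : Matrix (Fin 2) (Fin 2) ℤ) * D.w := by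
            simp only [Matrix.mul_assoc]
        _ = (q : ℤ) • (((η : SL(2, ℤ)) : Matrix (Fin 2) (Fin 2) ℤ) * D.w) := by
            rw [D.w_mul_inv, Matrix.smul_mul, Matrix.one_mul, Matrix.smul_mul]
    have h2 : D.w * ((η' : SL(2, ℤ)) : Matrix (Fin 2) (Fin 2) ℤ)
        = ((η : SL(2, ℤ)) : Matrix (Fin 2) (Fin 2) ℤ) * D.w := smul_right_injective _ hq' e
    have h3 := cr37_Phi_W hq.ne_zero D η' η h2
    rw [← h3]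
    exact tr43_W_W sc71_scalarTriv hq.ne_zero D (cr37_Phi_Inv (N * q) η')
  edge := fun η r => cx35_edge_of_vec cr37_vec rfl (fun _ => rfl) (Gamma0 N) η r

section Main

variable {N q : ℕ} [NeZero N] [NeZero q]

/-- **Dual Ihara modulo `p` from the crossing pairing**, given Ihara on the Hom side. -/
theorem cr37_DI (p : ℕ) (hp : p.Prime) (hp2 : p ≠ 2) (hq : q.Prime) (D : tr43_Data N q)
    {ℓ : ℕ} (hℓ : ℓ.Prime) (hℓN : ¬ ℓ ∣ N) (n : ℕ)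
    (hIh : ∀ α₁ α₂ : Additive (Gamma0 N) →+ ℤ,
      (∃ β' : Additive (Gamma0 (N * q)) →+ ℤ,
        hic88_res₁ N q ℤ α₁ + hic88_res₂ N q ℤ α₂ = (p : ℤ) • β') →
      (∃ α', lr54_pow (heckeHom N ℓ ℤ) ((ℓ : ℤ) + 1) n α₁ = (p : ℤ) • α') ∧
        (∃ α', lr54_pow (heckeHom N ℓ ℤ) ((ℓ : ℤ) + 1) n α₂ = (p : ℤ) • α'))
    (φ₁ φ₂ : sc71_X → ℤ) (h₁ : slp10_IsSymb N φ₁) (h₂ : slp10_IsSymb N φ₂) :
    ∃ Φ ψ₁ ψ₂ : sc71_X → ℤ, slp10_IsSymb (N * q) Φ ∧ slp10_IsSymb N ψ₁ ∧ slp10_IsSymb N ψ₂ ∧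
      (hic88_E ℓ)^[n] φ₁ = tr43_tr D Φ + (p : ℤ) • ψ₁ ∧
      (hic88_E ℓ)^[n] φ₂ = tr43_tr D (tr43_W D Φ) + (p : ℤ) • ψ₂ :=
  cx35_DI p hp hp2 hq D hℓ hℓN (cr37_isCross hq D hℓ hℓN) n hIh φ₁ φ₂ h₁ h₂

/-- **Dual Ihara modulo `p` from the crossing pairing**, given Ihara on the symbol side
(`H1`, exponent `n₁`, in exactly the form of `hic88_H1'`): exponent `n₁ + 2`. -/
theorem cr37_DI_of_H1 (p : ℕ) (hp : p.Prime) (hp2 : p ≠ 2) (hq : q.Prime) (D : tr43_Data N q)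
    {ℓ : ℕ} (hℓ : ℓ.Prime) (hℓ1 : ℓ ≡ 1 [MOD N * q]) (hℓN : ¬ ℓ ∣ N) (n₁ : ℕ)
    (H1 : ∀ φ₁ φ₂ : sc71_X → ℤ, sc71_IsSymb φ₁ → tr43_Inv N φ₁ → sc71_IsSymb φ₂ →
      tr43_Inv N φ₂ → (∀ x, (p : ℤ) ∣ φ₁ x + tr43_W D φ₂ x) →
      (∀ x, (p : ℤ) ∣ (hic88_E ℓ)^[n₁] φ₁ x) ∧ (∀ x, (p : ℤ) ∣ (hic88_E ℓ)^[n₁] φ₂ x))
    (φ₁ φ₂ : sc71_X → ℤ) (h₁ : slp10_IsSymb N φ₁) (h₂ : slp10_IsSymb N φ₂) :
    ∃ Φ ψ₁ ψ₂ : sc71_X → ℤ, slp10_IsSymb (N * q) Φ ∧ slp10_IsSymb N ψ₁ ∧ slp10_IsSymb N ψ₂ ∧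
      (hic88_E ℓ)^[n₁ + 2] φ₁ = tr43_tr D Φ + (p : ℤ) • ψ₁ ∧
      (hic88_E ℓ)^[n₁ + 2] φ₂ = tr43_tr D (tr43_W D Φ) + (p : ℤ) • ψ₂ :=
  cx35_DI_of_H1 p hp hp2 hq D hℓ hℓ1 hℓN (cr37_isCross hq D hℓ hℓN) n₁ H1 φ₁ φ₂ h₁ h₂

end Main

end Fermat.Agent.S41
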