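/-
S41 / link L9, plain form (helper24): the dual Ihara statement `(Hb)` of `rf7_main` from a
duality package whose Hom side is abstract.

`hb24_of_duality`: let `L'`, `M'` be any additive groups (the Hom sides of levels `N`, `N q`),
`P`, `Q` plain integer pairings of `ℤ`-valued symbols of levels `N`, `N q` with `L'`, `M'`
(biadditive on symbols), `res₁ res₂ : L' →+ M'` adjoint to the two traces `tr`, `tr ∘ W`,
`T' : L' →+ L'` adjoint to `T_{l0}`, with (PD1) at level `N`, (PD2) at level `N q`, and Ihara on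
the Hom side (`H1'`, exponent `n`).  Then for all `ℤ`-valued symbols `φ₁ φ₂` of level `N` there
is a symbol `Ψ` of level `N q` with `E^n φ₁ ≡ tr Ψ`, `E^n φ₂ ≡ tr (W Ψ)` modulo `p`,
`E = T_{l0} - (l0 + 1)`: this is hypothesis `Hb` of `rf7_main`, literally.
-/
import Mathlib
import Fermat.Agent.S41.RefCore7
import Fermat.Agent.S41.DualIhara28

set_option autoImplicit false

open Matrix MatrixGroups CongruenceSubgroup OnePoint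

namespace Fermat.Agent.S41

/-- The `ℤ`-valued symbols of level `M`, as an additive group. -/
def hb24_Symb (M : ℕ) : AddSubgroup (sc71_X → ℤ) where
  carrier := {φ | slp10_IsSymb M φ}
  add_mem' := fun h h' => rf7_isSymb_add h h'
  zero_mem' := ⟨sc71_IsSymb.zero, tr43_Inv_zero⟩
  neg_mem' := fun h => rf7_isSymb_neg h

theorem hb24_mem_Symb {M : ℕ} {φ : sc71_X → ℤ} : φ ∈ hb24_Symb M ↔ slp10_IsSymb M φ := Iff.rfl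

theorem hb24_tr_add {N q : ℕ} (D : tr43_Data N q) (Φ Ψ : sc71_X → ℤ) :
    tr43_tr D (Φ + Ψ) = tr43_tr D Φ + tr43_tr D Ψ := by
  funext x
  simp only [tr43_tr_apply, Pi.add_apply, Finset.sum_add_distrib]

theorem hb24_W_add {N q : ℕ} (D : tr43_Data N q) (Φ Ψ : sc71_X → ℤ) :
    tr43_W D (Φ + Ψ) = tr43_W D Φ + tr43_W D Ψ := rfl

/-- `T_ℓ` on `ℤ`-valued symbols of level `M`. -/
noncomputable def hb24_T (M ℓ : ℕ) (hℓ : ℓ.Prime) (hℓM : ¬ ℓ ∣ M) : hb24_Symb M →+ hb24_Symb M :=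
  AddMonoidHom.mk' (fun φ => ⟨tr43_T ℓ (φ : sc71_X → ℤ), rf7_isSymb_T hℓ hℓM φ.2⟩)
    (fun φ ψ => Subtype.ext (tr43_T_add ℓ (φ : sc71_X → ℤ) (ψ : sc71_X → ℤ)))

/-- The trace `tr` from level `N q` to level `N` on `ℤ`-valued symbols. -/
noncomputable def hb24_tr₁ {N q : ℕ} (hq : q.Prime) (D : tr43_Data N q) :
    hb24_Symb (N * q) →+ hb24_Symb N :=
  AddMonoidHom.mk' (fun Ψ => ⟨tr43_tr D (Ψ : sc71_X → ℤ), rf7_isSymb_tr hq D Ψ.2⟩)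
    (fun Φ Ψ => Subtype.ext (hb24_tr_add D (Φ : sc71_X → ℤ) (Ψ : sc71_X → ℤ)))

/-- The twisted trace `tr ∘ W` from level `N q` to level `N` on `ℤ`-valued symbols. -/
noncomputable def hb24_tr₂ {N q : ℕ} (hq : q.Prime) (D : tr43_Data N q) :
    hb24_Symb (N * q) →+ hb24_Symb N :=
  AddMonoidHom.mk' (fun Ψ => ⟨tr43_tr D (tr43_W D (Ψ : sc71_X → ℤ)),
      rf7_isSymb_tr hq D (rf7_isSymb_W hq.ne_zero D Ψ.2)⟩)
    (fun Φ Ψ => Subtype.ext (by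
      show tr43_tr D (tr43_W D ((Φ : sc71_X → ℤ) + (Ψ : sc71_X → ℤ))) = _
      rw [hb24_W_add, hb24_tr_add]
      rfl))

/-- `(T_ℓ - (ℓ + 1)) ^ n` on the bundled symbols is the `n`-th iterate of `ic42_E ℓ`. -/
theorem hb24_pow_coe (M ℓ : ℕ) (hℓ : ℓ.Prime) (hℓM : ¬ ℓ ∣ M) (n : ℕ) (φ : hb24_Symb M) :
    ((lr54_pow (hb24_T M ℓ hℓ hℓM) ((ℓ : ℤ) + 1) n φ : hb24_Symb M) : sc71_X → ℤ) =
      (ic42_E ℓ)^[n] (φ : sc71_X → ℤ) := by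
  induction n with
  | zero => rfl
  | succ n ih =>
    rw [lr54_pow_succ, Function.iterate_succ_apply', ← ih]
    show tr43_T ℓ _ - ((ℓ : ℤ) + 1) • _ = ic42_E ℓ _
    rw [ic42_E]
    congr 1

section Main

variable {p N q l0 : ℕ} {L' M' : Type*} [AddCommGroup L'] [AddCommGroup M']

/-- **Dual Ihara `(Hb)` from a plain duality package** (link L9; the Hom side `L'`, `M'` is
abstract). -/
theorem hb24_of_duality (hp : p.Prime) (hq : q.Prime) (D : tr43_Data N q) (hl0 : l0.Prime)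
    (hl0N : ¬ l0 ∣ N)
    (P : (sc71_X → ℤ) → L' → ℤ) (Q : (sc71_X → ℤ) → M' → ℤ)
    (hPl : ∀ φ φ', slp10_IsSymb N φ → slp10_IsSymb N φ' → ∀ α, P (φ + φ') α = P φ α + P φ' α)
    (hPr : ∀ φ, slp10_IsSymb N φ → ∀ α α', P φ (α + α') = P φ α + P φ α')
    (hQl : ∀ Ψ Ψ', slp10_IsSymb (N * q) Ψ → slp10_IsSymb (N * q) Ψ' →
      ∀ β, Q (Ψ + Ψ') β = Q Ψ β + Q Ψ' β)
    (hQr : ∀ Ψ, slp10_IsSymb (N * q) Ψ → ∀ β β', Q Ψ (β + β') = Q Ψ β + Q Ψ β')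
    (res₁ res₂ : L' →+ M') (T' : L' →+ L')
    (hadj₁ : ∀ Ψ, slp10_IsSymb (N * q) Ψ → ∀ α, P (tr43_tr D Ψ) α = Q Ψ (res₁ α))
    (hadj₂ : ∀ Ψ, slp10_IsSymb (N * q) Ψ → ∀ α, P (tr43_tr D (tr43_W D Ψ)) α = Q Ψ (res₂ α))
    (hT : ∀ φ, slp10_IsSymb N φ → ∀ α, P (tr43_T l0 φ) α = P φ (T' α))
    (hPD1 : ∀ lam : (sc71_X → ℤ) → ZMod p,
      (∀ φ φ', slp10_IsSymb N φ → slp10_IsSymb N φ' → lam (φ + φ') = lam φ + lam φ') →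
      ∃ α : L', ∀ φ, slp10_IsSymb N φ → ((P φ α : ℤ) : ZMod p) = lam φ)
    (hPD2 : ∀ β : M', (∀ Ψ, slp10_IsSymb (N * q) Ψ → (p : ℤ) ∣ Q Ψ β) →
      ∃ β' : M', β = (p : ℤ) • β')
    (n : ℕ)
    (H1' : ∀ α₁ α₂ : L', (∃ β' : M', res₁ α₁ + res₂ α₂ = (p : ℤ) • β') →
      (∃ α' : L', lr54_pow T' ((l0 : ℤ) + 1) n α₁ = (p : ℤ) • α') ∧
      (∃ α' : L', lr54_pow T' ((l0 : ℤ) + 1) n α₂ = (p : ℤ) • α')) :
    ∀ φ₁ φ₂ : sc71_X → ℤ, slp10_IsSymb N φ₁ → slp10_IsSymb N φ₂ →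
      ∃ Ψ : sc71_X → ℤ, slp10_IsSymb (N * q) Ψ ∧
        (∀ z, (p : ℤ) ∣ (ic42_E l0)^[n] φ₁ z - tr43_tr D Ψ z) ∧
        (∀ z, (p : ℤ) ∣ (ic42_E l0)^[n] φ₂ z - tr43_tr D (tr43_W D Ψ) z) := by
  classical
  intro φ₁ φ₂ hφ₁ hφ₂
  -- bundled pairings
  let Pb : hb24_Symb N →+ L' →+ ℤ :=
    AddMonoidHom.mk' (fun φ => AddMonoidHom.mk' (fun α => P (φ : sc71_X → ℤ) α) (hPr _ φ.2))
      (fun φ φ' => AddMonoidHom.ext fun α => hPl _ _ φ.2 φ'.2 α)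
  let Qb : hb24_Symb (N * q) →+ M' →+ ℤ :=
    AddMonoidHom.mk' (fun Ψ => AddMonoidHom.mk' (fun β => Q (Ψ : sc71_X → ℤ) β) (hQr _ Ψ.2))
      (fun Ψ Ψ' => AddMonoidHom.ext fun β => hQl _ _ Ψ.2 Ψ'.2 β)
  have hPb : ∀ (φ : hb24_Symb N) (α : L'), Pb φ α = P (φ : sc71_X → ℤ) α := fun _ _ => rfl
  have hQb : ∀ (Ψ : hb24_Symb (N * q)) (β : M'), Qb Ψ β = Q (Ψ : sc71_X → ℤ) β := fun _ _ => rfl
  let Tb := hb24_T N l0 hl0 hl0N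
  let t₁ := hb24_tr₁ hq D
  let t₂ := hb24_tr₂ hq D
  -- (PD1) for the bundled pairing
  have hPD1b : ∀ lam : hb24_Symb N →+ ZMod p, ∃ α : L', ∀ x, ((Pb x α : ℤ) : ZMod p) = lam x := by
    intro lam
    obtain ⟨α, hα⟩ := hPD1 (fun φ => if h : slp10_IsSymb N φ then lam ⟨φ, h⟩ else 0) (by
      intro φ φ' h h'
      rw [dif_pos h, dif_pos h', dif_pos (rf7_isSymb_add h h'), ← map_add]
      rfl)
    refine ⟨α, fun x => ?_⟩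
    rw [hPb, hα _ x.2, dif_pos (show slp10_IsSymb N (x : sc71_X → ℤ) from x.2)]
  -- the duality step on the product
  obtain ⟨b, y, hby⟩ := di28_mod_p p hp (di28_prodPair Pb Pb) Qb (t₁.prod t₂)
    (res₁.coprod res₂)
    (by
      rintro b ⟨α₁, α₂⟩
      rw [di28_prodPair_apply]
      show Pb (t₁ b) α₁ + Pb (t₂ b) α₂ = Qb b (res₁ α₁ + res₂ α₂)
      rw [map_add, hPb, hPb, hQb, hQb]
      exact congrArg₂ (· + ·) (hadj₁ _ b.2 α₁) (hadj₂ _ b.2 α₂))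
    (Tb.prodMap Tb) (T'.prodMap T') ((l0 : ℤ) + 1)
    (by
      rintro ⟨x₁, x₂⟩ ⟨α₁, α₂⟩
      rw [di28_prodPair_apply, di28_prodPair_apply]
      show Pb (Tb x₁) α₁ + Pb (Tb x₂) α₂ = Pb x₁ (T' α₁) + Pb x₂ (T' α₂)
      rw [hPb, hPb, hPb, hPb]
      exact congrArg₂ (· + ·) (hT _ x₁.2 α₁) (hT _ x₂.2 α₂))
    (di28_pd1_prod p Pb Pb hPD1b hPD1b)
    (by
      intro β hβ
      exact hPD2 β fun Ψ hΨ => hβ ⟨Ψ, hΨ⟩)
    n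
    (by
      rintro ⟨α₁, α₂⟩ ⟨β', hβ'⟩
      obtain ⟨⟨a₁, h₁⟩, ⟨a₂, h₂⟩⟩ := H1' α₁ α₂ ⟨β', hβ'⟩
      refine ⟨(a₁, a₂), ?_⟩
      rw [di28_pow_prodMap, h₁, h₂]
      rfl)
    (⟨φ₁, hφ₁⟩, ⟨φ₂, hφ₂⟩)
  rw [di28_pow_prodMap] at hby
  have h1 := congrArg (fun x : hb24_Symb N × hb24_Symb N => ((x.1 : hb24_Symb N) : sc71_X → ℤ)) hby
  have h2 := congrArg (fun x : hb24_Symb N × hb24_Symb N => ((x.2 : hb24_Symb N) : sc71_X → ℤ)) hby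
  simp only at h1 h2
  rw [hb24_pow_coe] at h1 h2
  refine ⟨(b : sc71_X → ℤ), b.2, fun z => ?_, fun z => ?_⟩
  · refine ⟨(y.1 : sc71_X → ℤ) z, ?_⟩
    have := congrFun h1 z
    rw [this]
    show (tr43_tr D (b : sc71_X → ℤ) z + ((p : ℤ) • (y.1 : sc71_X → ℤ)) z) - _ = _
    rw [Pi.smul_apply, smul_eq_mul]
    ring
  · refine ⟨(y.2 : sc71_X → ℤ) z, ?_⟩
    have := congrFun h2 z
    rw [this]
    show (tr43_tr D (tr43_W D (b : sc71_X → ℤ)) z + ((p : ℤ) • (y.2 : sc71_X → ℤ)) z) - _ = _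
    rw [Pi.smul_apply, smul_eq_mul]
    ring

end Main

/-- **The duality package** (output of links L7 + L8 in plain form, Hom side abstract): types
`L'`, `M'` (Hom sides of levels `N`, `N q`), pairings `P`, `Q` of `ℤ`-valued symbols with them,
`res₁ res₂` adjoint to `tr`, `tr ∘ W`, `T'` adjoint to `T_{l0}`, (PD1), (PD2) and Ihara on the Hom
side with exponent `n`. -/
def hb24_Dual (p N q l0 : ℕ) (D : tr43_Data N q) : Prop :=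
  ∃ (L' M' : Type) (_ : AddCommGroup L') (_ : AddCommGroup M')
    (P : (sc71_X → ℤ) → L' → ℤ) (Q : (sc71_X → ℤ) → M' → ℤ)
    (res₁ res₂ : L' →+ M') (T' : L' →+ L') (n : ℕ),
    (∀ φ φ', slp10_IsSymb N φ → slp10_IsSymb N φ' → ∀ α, P (φ + φ') α = P φ α + P φ' α) ∧
    (∀ φ, slp10_IsSymb N φ → ∀ α α', P φ (α + α') = P φ α + P φ α') ∧
    (∀ Ψ Ψ', slp10_IsSymb (N * q) Ψ → slp10_IsSymb (N * q) Ψ' →
      ∀ β, Q (Ψ + Ψ') β = Q Ψ β + Q Ψ' β) ∧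
    (∀ Ψ, slp10_IsSymb (N * q) Ψ → ∀ β β', Q Ψ (β + β') = Q Ψ β + Q Ψ β') ∧
    (∀ Ψ, slp10_IsSymb (N * q) Ψ → ∀ α, P (tr43_tr D Ψ) α = Q Ψ (res₁ α)) ∧
    (∀ Ψ, slp10_IsSymb (N * q) Ψ → ∀ α, P (tr43_tr D (tr43_W D Ψ)) α = Q Ψ (res₂ α)) ∧
    (∀ φ, slp10_IsSymb N φ → ∀ α, P (tr43_T l0 φ) α = P φ (T' α)) ∧
    (∀ lam : (sc71_X → ℤ) → ZMod p,
      (∀ φ φ', slp10_IsSymb N φ → slp10_IsSymb N φ' → lam (φ + φ') = lam φ + lam φ') →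
      ∃ α : L', ∀ φ, slp10_IsSymb N φ → ((P φ α : ℤ) : ZMod p) = lam φ) ∧
    (∀ β : M', (∀ Ψ, slp10_IsSymb (N * q) Ψ → (p : ℤ) ∣ Q Ψ β) → ∃ β' : M', β = (p : ℤ) • β') ∧
    (∀ α₁ α₂ : L', (∃ β' : M', res₁ α₁ + res₂ α₂ = (p : ℤ) • β') →
      (∃ α' : L', lr54_pow T' ((l0 : ℤ) + 1) n α₁ = (p : ℤ) • α') ∧
      (∃ α' : L', lr54_pow T' ((l0 : ℤ) + 1) n α₂ = (p : ℤ) • α'))

/-- `(Hb)` of `rf7_main` from the duality package. -/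
theorem hb24_Hb_of_dual {p N q l0 : ℕ} (hp : p.Prime) (hq : q.Prime) (D : tr43_Data N q)
    (hl0 : l0.Prime) (hl0N : ¬ l0 ∣ N) (h : hb24_Dual p N q l0 D) :
    ∃ n : ℕ, ∀ φ₁ φ₂ : sc71_X → ℤ, slp10_IsSymb N φ₁ → slp10_IsSymb N φ₂ →
      ∃ Ψ : sc71_X → ℤ, slp10_IsSymb (N * q) Ψ ∧
        (∀ z, (p : ℤ) ∣ (ic42_E l0)^[n] φ₁ z - tr43_tr D Ψ z) ∧
        (∀ z, (p : ℤ) ∣ (ic42_E l0)^[n] φ₂ z - tr43_tr D (tr43_W D Ψ) z) := by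
  obtain ⟨L', M', _, _, P, Q, res₁, res₂, T', n, hPl, hPr, hQl, hQr, hadj₁, hadj₂, hT, hPD1,
    hPD2, H1'⟩ := h
  exact ⟨n, hb24_of_duality hp hq D hl0 hl0N P Q hPl hPr hQl hQr res₁ res₂ T' hadj₁ hadj₂ hT
    hPD1 hPD2 n H1'⟩

end Fermat.Agent.S41
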