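/-
S41 / instance glue for the duality package (helper24).

`di24_dual`: the duality package `hb24_Dual` (HbDual24) for the Manin-model pairing
`md32_B psl96_rho ∞ rep (md32_ext α) (curry φ)` of helper32 (ManinDual32 / ManinInst32), with
* biadditivity, (PD1) at level `N` and (PD2) at level `N q` discharged here
  (`md32_PB`, `md32_PB_pd1`, `md32_PB_pd2`);
* the adjointness statements `hadj₁`, `hadj₂`, `hT` (link L8) and Ihara on the Hom side `H1'`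
  (link L7) left as hypotheses, in plain `md32_B` form, for arbitrary adapted sections
  `repN`, `repQ` and arbitrary additive maps `res₁ res₂ T'`.
-/
import Mathlib
import Fermat.Agent.S41.HbDual24
import Fermat.Agent.S41.ManinInst32

set_option autoImplicit false

open Matrix MatrixGroups CongruenceSubgroup OnePoint ModularGroup

namespace Fermat.Agent.S41

theorem di24_neg_one_mem (M : ℕ) : (-1 : SL(2, ℤ)) ∈ Gamma0 M := by
  rw [Gamma0_mem]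
  simp

/-- Plain symbols of level `M` are exactly the (uncurried) Manin-model symbols for `Γ₀(M)`. -/
theorem di24_isSymb_iff (M : ℕ) (φ : sc71_X → ℤ) :
    slp10_IsSymb M φ ↔ md32_IsSymb (Gamma0 M) psl96_rho (Function.curry φ) :=
  slp10_isSymb_iff_curry M φ

section

variable {N q : ℕ} [Fintype (SL(2, ℤ) ⧸ Gamma0 N)] [Fintype (SL(2, ℤ) ⧸ Gamma0 (N * q))]

/-- The Manin-model pairing on plain symbols of level `M`. -/
noncomputable def di24_P (M : ℕ) [Fintype (SL(2, ℤ) ⧸ Gamma0 M)]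
    (rep : SL(2, ℤ) ⧸ Gamma0 M → SL(2, ℤ)) (φ : sc71_X → ℤ) (α : Additive (Gamma0 M) →+ ℤ) : ℤ :=
  md32_B psl96_rho (OnePoint.infty : OnePoint ℚ) rep (md32_ext α) (Function.curry φ)

theorem di24_P_eq_PB (M : ℕ) [Fintype (SL(2, ℤ) ⧸ Gamma0 M)]
    (rep : SL(2, ℤ) ⧸ Gamma0 M → SL(2, ℤ)) {φ : sc71_X → ℤ} (hφ : slp10_IsSymb M φ)
    (α : Additive (Gamma0 M) →+ ℤ) :
    di24_P M rep φ α = md32_PB psl96_rho (OnePoint.infty : OnePoint ℚ) rep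
      ⟨Function.curry φ, (di24_isSymb_iff M φ).1 hφ⟩ α := rfl

theorem di24_P_add_left (M : ℕ) [Fintype (SL(2, ℤ) ⧸ Gamma0 M)]
    (rep : SL(2, ℤ) ⧸ Gamma0 M → SL(2, ℤ)) {φ φ' : sc71_X → ℤ} (hφ : slp10_IsSymb M φ)
    (hφ' : slp10_IsSymb M φ') (α : Additive (Gamma0 M) →+ ℤ) :
    di24_P M rep (φ + φ') α = di24_P M rep φ α + di24_P M rep φ' α := by
  rw [di24_P_eq_PB M rep hφ, di24_P_eq_PB M rep hφ', di24_P_eq_PB M rep (rf7_isSymb_add hφ hφ'),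
    ← AddMonoidHom.add_apply, ← map_add]
  rfl

theorem di24_P_add_right (M : ℕ) [Fintype (SL(2, ℤ) ⧸ Gamma0 M)]
    (rep : SL(2, ℤ) ⧸ Gamma0 M → SL(2, ℤ)) {φ : sc71_X → ℤ} (hφ : slp10_IsSymb M φ)
    (α α' : Additive (Gamma0 M) →+ ℤ) :
    di24_P M rep φ (α + α') = di24_P M rep φ α + di24_P M rep φ α' := by
  rw [di24_P_eq_PB M rep hφ, di24_P_eq_PB M rep hφ, di24_P_eq_PB M rep hφ, map_add]

/-- (PD1) for the plain pairing. -/
theorem di24_pd1 (M : ℕ) [Fintype (SL(2, ℤ) ⧸ Gamma0 M)]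
    {rep : SL(2, ℤ) ⧸ Gamma0 M → SL(2, ℤ)} (hrep : ∀ x, (rep x : SL(2, ℤ) ⧸ Gamma0 M) = x)
    (had : md32_Adapted rep) {p : ℕ} (hp : p.Prime) (hp2 : p ≠ 2)
    (lam : (sc71_X → ℤ) → ZMod p)
    (hlam : ∀ φ φ', slp10_IsSymb M φ → slp10_IsSymb M φ' → lam (φ + φ') = lam φ + lam φ') :
    ∃ α : Additive (Gamma0 M) →+ ℤ, ∀ φ, slp10_IsSymb M φ →
      ((di24_P M rep φ α : ℤ) : ZMod p) = lam φ := by
  have hunc : ∀ Φ : md32_Symb (Gamma0 M) psl96_rho,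
      slp10_IsSymb M (Function.uncurry (Φ : OnePoint ℚ → OnePoint ℚ → ℤ)) := fun Φ =>
    slp10_isSymb_uncurry M Φ.2.1 Φ.2.2
  let lamb : md32_Symb (Gamma0 M) psl96_rho →+ ZMod p :=
    AddMonoidHom.mk' (fun Φ => lam (Function.uncurry (Φ : OnePoint ℚ → OnePoint ℚ → ℤ)))
      (fun Φ Ψ => hlam _ _ (hunc Φ) (hunc Ψ))
  obtain ⟨α, hα⟩ := md32_PB_pd1 md32_cuspAx_rho (di24_neg_one_mem M) hrep had hp hp2 lamb
  refine ⟨α, fun φ hφ => ?_⟩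
  rw [di24_P_eq_PB M rep hφ, hα]
  rfl

/-- (PD2) for the plain pairing. -/
theorem di24_pd2 (M : ℕ) [Fintype (SL(2, ℤ) ⧸ Gamma0 M)]
    {rep : SL(2, ℤ) ⧸ Gamma0 M → SL(2, ℤ)} (hrep : ∀ x, (rep x : SL(2, ℤ) ⧸ Gamma0 M) = x)
    (had : md32_Adapted rep) {p : ℕ} (hp : p.Prime) (hp2 : p ≠ 2)
    (β : Additive (Gamma0 M) →+ ℤ)
    (hβ : ∀ Ψ, slp10_IsSymb M Ψ → (p : ℤ) ∣ di24_P M rep Ψ β) :
    ∃ β' : Additive (Gamma0 M) →+ ℤ, β = (p : ℤ) • β' := by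
  refine md32_PB_pd2 md32_cuspAx_rho (di24_neg_one_mem M) hrep had hp hp2 β fun b => ?_
  have h := hβ (Function.uncurry (b : OnePoint ℚ → OnePoint ℚ → ℤ))
    (slp10_isSymb_uncurry M b.2.1 b.2.2)
  exact h

/-- **The duality package for the Manin-model pairing**, from adjointness (L8) and Ihara on the
Hom side (L7). -/
theorem di24_dual {p l0 : ℕ} (hp : p.Prime) (hp2 : p ≠ 2) (D : tr43_Data N q)
    {repN : SL(2, ℤ) ⧸ Gamma0 N → SL(2, ℤ)} (hrepN : ∀ x, (repN x : SL(2, ℤ) ⧸ Gamma0 N) = x)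
    (hadN : md32_Adapted repN)
    {repQ : SL(2, ℤ) ⧸ Gamma0 (N * q) → SL(2, ℤ)}
    (hrepQ : ∀ x, (repQ x : SL(2, ℤ) ⧸ Gamma0 (N * q)) = x) (hadQ : md32_Adapted repQ)
    (res₁ res₂ : (Additive (Gamma0 N) →+ ℤ) →+ (Additive (Gamma0 (N * q)) →+ ℤ))
    (T' : (Additive (Gamma0 N) →+ ℤ) →+ (Additive (Gamma0 N) →+ ℤ)) (n : ℕ)
    (hadj₁ : ∀ Ψ, slp10_IsSymb (N * q) Ψ → ∀ α,
      di24_P N repN (tr43_tr D Ψ) α = di24_P (N * q) repQ Ψ (res₁ α))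
    (hadj₂ : ∀ Ψ, slp10_IsSymb (N * q) Ψ → ∀ α,
      di24_P N repN (tr43_tr D (tr43_W D Ψ)) α = di24_P (N * q) repQ Ψ (res₂ α))
    (hT : ∀ φ, slp10_IsSymb N φ → ∀ α,
      di24_P N repN (tr43_T l0 φ) α = di24_P N repN φ (T' α))
    (H1' : ∀ α₁ α₂ : Additive (Gamma0 N) →+ ℤ,
      (∃ β' : Additive (Gamma0 (N * q)) →+ ℤ, res₁ α₁ + res₂ α₂ = (p : ℤ) • β') →
      (∃ α' : Additive (Gamma0 N) →+ ℤ, lr54_pow T' ((l0 : ℤ) + 1) n α₁ = (p : ℤ) • α') ∧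
      (∃ α' : Additive (Gamma0 N) →+ ℤ, lr54_pow T' ((l0 : ℤ) + 1) n α₂ = (p : ℤ) • α')) :
    hb24_Dual p N q l0 D :=
  ⟨Additive (Gamma0 N) →+ ℤ, Additive (Gamma0 (N * q)) →+ ℤ, inferInstance, inferInstance,
    di24_P N repN, di24_P (N * q) repQ, res₁, res₂, T', n,
    fun _ _ h h' α => di24_P_add_left N repN h h' α,
    fun _ h α α' => di24_P_add_right N repN h α α',
    fun _ _ h h' β => di24_P_add_left (N * q) repQ h h' β,
    fun _ h β β' => di24_P_add_right (N * q) repQ h β β',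
    hadj₁, hadj₂, hT,
    fun lam hlam => di24_pd1 N hrepN hadN hp hp2 lam hlam,
    fun β hβ => di24_pd2 (N * q) hrepQ hadQ hp hp2 β hβ,
    H1'⟩

end

end Fermat.Agent.S41
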