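/-
S41 (level raising), link L9 (helper28): from duality (L8) and Ihara on the `Hom` side (L7) to
the dual Ihara lemma `hDI` consumed by `as28_main`.

* `dp28_mod_p_pair` : `di28_mod_p` on the product `L × L` ("level-raising shape"):
  `(T - e)^n x₁ = tr₁ b + p y₁` and `(T - e)^n x₂ = tr₂ b + p y₂` with the SAME `b`.
* `dp28_pow_dict`   : a dictionary `cL : L →+ (sc71_X → ℤ)` with `cL (T x) = tr43_T ℓ (cL x)`
  turns `lr54_pow T (ℓ + 1) n` into the iterate `(ic42_E ℓ)^[n]`.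
* `dp28_hDI`        : the hypothesis `hDI` of `as28_main` for ANY carriers `L`, `M`, `L'`, `M'`
  of the duality package, given dictionaries `cL`, `cM` to plain integer valued symbols.
-/
import Mathlib
import Fermat.Agent.S41.DualIhara28
import Fermat.Agent.S41.IharaConc42
import Fermat.Agent.S41.SymbCore71
import Fermat.Agent.S41.SymbLatticeP10

set_option autoImplicit false

open Matrix MatrixGroups CongruenceSubgroup OnePoint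
open Fermat.Agent.S16

namespace Fermat.Agent.S41

section Abstract

variable {L M L' M' : Type*} [AddCommGroup L] [AddCommGroup M] [AddCommGroup L']
  [AddCommGroup M']

/-- **Duality step mod `p`, level-raising shape.**  `L`, `M` the lattices of levels `N`, `N q`
on the trace side, `L'`, `M'` those on the restriction side; `tr₁ tr₂ : M →+ L` adjoint to
`res₁ res₂ : L' →+ M'`.  Then `(T - e)^n` maps `L × L` into `im (tr₁, tr₂) + p (L × L)`. -/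
theorem dp28_mod_p_pair (p : ℕ) (hp : p.Prime)
    (P : L →+ L' →+ ℤ) (Q : M →+ M' →+ ℤ) (tr₁ tr₂ : M →+ L) (res₁ res₂ : L' →+ M')
    (hadj₁ : ∀ b α, P (tr₁ b) α = Q b (res₁ α)) (hadj₂ : ∀ b α, P (tr₂ b) α = Q b (res₂ α))
    (T : L →+ L) (T' : L' →+ L') (e : ℤ)
    (hT : ∀ x α, P (T x) α = P x (T' α))
    (hPD1 : ∀ lam : L →+ ZMod p, ∃ α : L', ∀ x, ((P x α : ℤ) : ZMod p) = lam x)
    (hPD2 : ∀ β : M', (∀ b, (p : ℤ) ∣ Q b β) → ∃ β', β = (p : ℤ) • β')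
    (n : ℕ)
    (H1' : ∀ α₁ α₂ : L', (∃ β', res₁ α₁ + res₂ α₂ = (p : ℤ) • β') →
      (∃ α', lr54_pow T' e n α₁ = (p : ℤ) • α') ∧ (∃ α', lr54_pow T' e n α₂ = (p : ℤ) • α'))
    (x₁ x₂ : L) :
    ∃ (b : M) (y₁ y₂ : L), lr54_pow T e n x₁ = tr₁ b + (p : ℤ) • y₁ ∧
      lr54_pow T e n x₂ = tr₂ b + (p : ℤ) • y₂ := by
  have key := di28_mod_p (A := L × L) (B := M) (A' := L' × L') (B' := M') p hp
    (di28_prodPair P P) Q (tr₁.prod tr₂) (res₁.coprod res₂)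
    (by
      rintro b ⟨α₁, α₂⟩
      simp [hadj₁, hadj₂])
    (T.prodMap T) (T'.prodMap T') e
    (by
      rintro ⟨x₁, x₂⟩ ⟨α₁, α₂⟩
      simp [hT])
    (di28_pd1_prod p P P hPD1 hPD1) hPD2 n
    (by
      rintro ⟨α₁, α₂⟩ ⟨β', hβ'⟩
      obtain ⟨⟨a₁, h₁⟩, ⟨a₂, h₂⟩⟩ := H1' α₁ α₂ ⟨β', by simpa using hβ'⟩
      refine ⟨(a₁, a₂), ?_⟩
      rw [di28_pow_prodMap]
      simp [h₁, h₂])
    (x₁, x₂)
  obtain ⟨b, ⟨y₁, y₂⟩, h⟩ := key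
  rw [di28_pow_prodMap] at h
  have h1 := congrArg Prod.fst h
  have h2 := congrArg Prod.snd h
  exact ⟨b, y₁, y₂, h1, h2⟩

end Abstract

section Dictionary

variable {L : Type*} [AddCommGroup L]

/-- A dictionary to plain functions turns `(T - (ℓ + 1))^n` into the iterate of `ic42_E ℓ`. -/
theorem dp28_pow_dict (ℓ : ℕ) (cL : L →+ (sc71_X → ℤ)) (T : L →+ L)
    (hTc : ∀ x, cL (T x) = tr43_T ℓ (cL x)) (n : ℕ) (x : L) :
    cL (lr54_pow T ((ℓ : ℤ) + 1) n x) = (ic42_E ℓ)^[n] (cL x) := by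
  induction n with
  | zero => rfl
  | succ n ih =>
    rw [lr54_pow_succ, map_sub, map_zsmul, hTc, ih, Function.iterate_succ_apply', ic42_E]
    congr 1

variable {M L' M' : Type*} [AddCommGroup M] [AddCommGroup L'] [AddCommGroup M']

/-- **L9.**  The dual Ihara lemma in the plain-function form consumed by `as28_main`, from the
duality package (any carriers `L`, `M`, `L'`, `M'`), Ihara on the restriction side (`H1'`) and
dictionaries `cL`, `cM` from the trace-side lattices to plain integer valued symbols. -/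
theorem dp28_hDI {p N q ℓ : ℕ} (hp : p.Prime) (D : tr43_Data N q)
    (cL : L →+ (sc71_X → ℤ)) (hcL : ∀ x, slp10_IsSymb N (cL x))
    (hcLsurj : ∀ φ : sc71_X → ℤ, slp10_IsSymb N φ → ∃ x, cL x = φ)
    (cM : M →+ (sc71_X → ℤ)) (hcM : ∀ y, slp10_IsSymb (N * q) (cM y))
    (P : L →+ L' →+ ℤ) (Q : M →+ M' →+ ℤ) (tr₁ tr₂ : M →+ L) (res₁ res₂ : L' →+ M')
    (hadj₁ : ∀ b α, P (tr₁ b) α = Q b (res₁ α)) (hadj₂ : ∀ b α, P (tr₂ b) α = Q b (res₂ α))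
    (T : L →+ L) (T' : L' →+ L')
    (hT : ∀ x α, P (T x) α = P x (T' α))
    (hPD1 : ∀ lam : L →+ ZMod p, ∃ α : L', ∀ x, ((P x α : ℤ) : ZMod p) = lam x)
    (hPD2 : ∀ β : M', (∀ b, (p : ℤ) ∣ Q b β) → ∃ β', β = (p : ℤ) • β')
    (n : ℕ)
    (H1' : ∀ α₁ α₂ : L', (∃ β', res₁ α₁ + res₂ α₂ = (p : ℤ) • β') →
      (∃ α', lr54_pow T' ((ℓ : ℤ) + 1) n α₁ = (p : ℤ) • α') ∧
      (∃ α', lr54_pow T' ((ℓ : ℤ) + 1) n α₂ = (p : ℤ) • α'))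
    (htr₁ : ∀ b, cL (tr₁ b) = tr43_tr D (cM b))
    (htr₂ : ∀ b, cL (tr₂ b) = tr43_tr D (tr43_W D (cM b)))
    (hTc : ∀ x, cL (T x) = tr43_T ℓ (cL x)) :
    ∃ n : ℕ, ∀ φ₁ φ₂ : sc71_X → ℤ, slp10_IsSymb N φ₁ → slp10_IsSymb N φ₂ →
      ∃ Ψ : sc71_X → ℤ, slp10_IsSymb (N * q) Ψ ∧ ∃ ψ₁ ψ₂ : sc71_X → ℤ,
        slp10_IsSymb N ψ₁ ∧ slp10_IsSymb N ψ₂ ∧
        ∀ x, (ic42_E ℓ)^[n] φ₁ x = tr43_tr D Ψ x + (p : ℤ) * ψ₁ x ∧
          (ic42_E ℓ)^[n] φ₂ x = tr43_tr D (tr43_W D Ψ) x + (p : ℤ) * ψ₂ x := by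
  refine ⟨n, fun φ₁ φ₂ hφ₁ hφ₂ => ?_⟩
  obtain ⟨x₁, rfl⟩ := hcLsurj φ₁ hφ₁
  obtain ⟨x₂, rfl⟩ := hcLsurj φ₂ hφ₂
  obtain ⟨b, y₁, y₂, h₁, h₂⟩ := dp28_mod_p_pair p hp P Q tr₁ tr₂ res₁ res₂ hadj₁ hadj₂ T T'
    ((ℓ : ℤ) + 1) hT hPD1 hPD2 n H1' x₁ x₂
  refine ⟨cM b, hcM b, cL y₁, cL y₂, hcL y₁, hcL y₂, fun x => ⟨?_, ?_⟩⟩
  · rw [← dp28_pow_dict ℓ cL T hTc, h₁, map_add, map_zsmul, htr₁]
    simp
  · rw [← dp28_pow_dict ℓ cL T hTc, h₂, map_add, map_zsmul, htr₂]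
    simp

end Dictionary

end Fermat.Agent.S41
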