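/-
S41 (level raising), module M4 (helper40): the "E-trick".

An additive symbol `φ` on pairs of cusps with values in a group killed by `p`, invariant under
`Γ₀(N)` and under `δ⁻¹ Γ₀(N) δ` (`δ = diag(q, 1)`), satisfies `T_ℓ φ = (ℓ + 1) φ` for every prime
`ℓ ≡ 1 (mod m)` such that `q` is not a `p`-th power modulo `ℓ`; here `m` only depends on
`N, q, p`.  This replaces the congruence subgroup property in the proof of Ihara's lemma.
-/
import Mathlib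
import Fermat.Agent.S16.HeckeGamma0

set_option autoImplicit false

open CongruenceSubgroup Matrix.SpecialLinearGroup
open scoped MatrixGroups
open OnePoint

namespace Fermat.Agent.S41

open Fermat.Agent.S16

universe u

variable {A : Type u} [AddCommGroup A]

/-! ### Additive symbols and their stabilisers -/

/-- additive two-variable symbols on `ℙ¹(ℚ)`. -/
def h40_IsSymb (φ : OnePoint ℚ → OnePoint ℚ → A) : Prop :=
  ∀ r s t, φ r s + φ s t = φ r t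

theorem h40_IsSymb.self {φ : OnePoint ℚ → OnePoint ℚ → A} (h : h40_IsSymb φ) (r : OnePoint ℚ) :
    φ r r = 0 := by
  have := h r r r
  simpa using this

theorem h40_IsSymb.swap {φ : OnePoint ℚ → OnePoint ℚ → A} (h : h40_IsSymb φ)
    (r s : OnePoint ℚ) : φ r s + φ s r = 0 := by
  rw [h r s r, h.self]

theorem h40_IsSymb.neg {φ : OnePoint ℚ → OnePoint ℚ → A} (h : h40_IsSymb φ)
    (r s : OnePoint ℚ) : φ s r = -φ r s :=
  eq_neg_of_add_eq_zero_right (h.swap r s)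

/-- the stabiliser of a symbol in `GL₂(ℚ)`. -/
def h40_stab (φ : OnePoint ℚ → OnePoint ℚ → A) : Subgroup (GL (Fin 2) ℚ) where
  carrier := {g | ∀ r s, φ (g • r) (g • s) = φ r s}
  one_mem' := by intro r s; simp
  mul_mem' := by
    intro a b ha hb r s
    rw [mul_smul, mul_smul, ha, hb]
  inv_mem' := by
    intro a ha r s
    have := ha (a⁻¹ • r) (a⁻¹ • s)
    simpa using this.symm

omit [AddCommGroup A] in
theorem h40_mem_stab {φ : OnePoint ℚ → OnePoint ℚ → A} {g : GL (Fin 2) ℚ} :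
    g ∈ h40_stab φ ↔ ∀ r s, φ (g • r) (g • s) = φ r s := Iff.rfl

/-- for `g, k` in the stabiliser, `φ (g s) (k s)` does not depend on `s`. -/
theorem h40_stab_indep {φ : OnePoint ℚ → OnePoint ℚ → A} (h : h40_IsSymb φ)
    {g k : GL (Fin 2) ℚ} (hg : g ∈ h40_stab φ) (hk : k ∈ h40_stab φ) (s t : OnePoint ℚ) :
    φ (g • s) (k • s) = φ (g • t) (k • t) := by
  have e1 := h (g • s) (g • t) (k • s)
  have e2 := h (g • t) (k • t) (k • s)
  rw [hg] at e1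
  rw [hk, h.neg s t] at e2
  rw [← e1, ← e2]
  abel

/-- an element of the stabiliser fixing `∞` can be dropped from the second argument. -/
theorem h40_stab_fix {φ : OnePoint ℚ → OnePoint ℚ → A} (h : h40_IsSymb φ)
    {g : GL (Fin 2) ℚ} (hg : g ∈ h40_stab φ) (hinf : g • (∞ : OnePoint ℚ) = ∞)
    (y x : OnePoint ℚ) : φ y (g • x) = φ y x := by
  have e0 : φ x (g • x) = 0 := by
    have e1 := h x ∞ (g • x)
    have e2 := hg ∞ x
    rw [hinf] at e2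
    rw [← e1, e2, h x ∞ x, h.self]
  rw [← h y x (g • x), e0, add_zero]

/-! ### Integer matrices acting on cusps -/

/-- integer matrices with nonzero determinant as elements of `GL₂(ℚ)` (junk value `1` else). -/
noncomputable def h40_toGL (M : Matrix (Fin 2) (Fin 2) ℤ) : GL (Fin 2) ℚ :=
  if h : M.det ≠ 0 then
    Matrix.GeneralLinearGroup.mkOfDetNeZero ((Int.castRingHom ℚ).mapMatrix M)
      (by rw [← RingHom.map_det]; simpa using h)
  else 1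

theorem h40_toGL_coe {M : Matrix (Fin 2) (Fin 2) ℤ} (h : M.det ≠ 0) :
    ((h40_toGL M : GL (Fin 2) ℚ) : Matrix (Fin 2) (Fin 2) ℚ) = (Int.castRingHom ℚ).mapMatrix M := by
  rw [h40_toGL, dif_pos h]
  rfl

theorem h40_toGL_apply {M : Matrix (Fin 2) (Fin 2) ℤ} (h : M.det ≠ 0) (i j : Fin 2) :
    (h40_toGL M : GL (Fin 2) ℚ) i j = (M i j : ℚ) := by
  rw [h40_toGL_coe h]
  rfl

theorem h40_toGL_mul {M M' : Matrix (Fin 2) (Fin 2) ℤ} (h : M.det ≠ 0) (h' : M'.det ≠ 0) :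
    h40_toGL (M * M') = h40_toGL M * h40_toGL M' := by
  have hh : (M * M').det ≠ 0 := by rw [Matrix.det_mul]; exact mul_ne_zero h h'
  apply Units.ext
  rw [Units.val_mul, h40_toGL_coe hh, h40_toGL_coe h, h40_toGL_coe h', map_mul]

theorem h40_toGL_SL (γ : SL(2, ℤ)) :
    h40_toGL (γ : Matrix (Fin 2) (Fin 2) ℤ) = mapGL ℚ γ := by
  have h : (γ : Matrix (Fin 2) (Fin 2) ℤ).det ≠ 0 := by rw [γ.det_coe]; exact one_ne_zero
  apply Units.ext
  rw [h40_toGL_coe h]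
  ext i j
  simp [mapGL]

theorem h40_toGL_smul_infty {M : Matrix (Fin 2) (Fin 2) ℤ} (h : M.det ≠ 0) (h10 : M 1 0 = 0) :
    h40_toGL M • (∞ : OnePoint ℚ) = ∞ := by
  rw [OnePoint.smul_infty_eq_self_iff, h40_toGL_apply h, h10, Int.cast_zero]

theorem h40_toGL_smul_coe {M : Matrix (Fin 2) (Fin 2) ℤ} (h : M.det ≠ 0) (x : ℚ)
    (hx : (M 1 0 : ℚ) * x + M 1 1 ≠ 0) :
    h40_toGL M • (x : OnePoint ℚ) =
      (((M 0 0 * x + M 0 1) / (M 1 0 * x + M 1 1) : ℚ) : OnePoint ℚ) := by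
  rw [OnePoint.smul_some_eq_ite, h40_toGL_apply h, h40_toGL_apply h, h40_toGL_apply h,
    h40_toGL_apply h, if_neg hx]

theorem h40_det_mU (ℓ j : ℕ) : (hh_mU ℓ j).det = ℓ := by
  simp [hh_mU, Matrix.det_fin_two_of]

theorem h40_det_mD (ℓ : ℕ) : (hh_mD ℓ).det = ℓ := by
  simp [hh_mD, Matrix.det_fin_two_of]

theorem h40_det_repT {ℓ : ℕ} (hℓ : ℓ ≠ 0) (i : Option (Fin ℓ)) : (hh_repTInt ℓ i).det ≠ 0 := by
  have h0 : (ℓ : ℤ) ≠ 0 := by exact_mod_cast hℓ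
  rcases i with _ | j
  · simpa [hh_repTInt, h40_det_mD] using h0
  · simpa [hh_repTInt, h40_det_mU] using h0

theorem h40_mU_smul_coe {ℓ : ℕ} (hℓ : ℓ ≠ 0) (j : ℕ) (x : ℚ) :
    h40_toGL (hh_mU ℓ j) • (x : OnePoint ℚ) = (((x + j) / ℓ : ℚ) : OnePoint ℚ) := by
  have h0 : (ℓ : ℤ) ≠ 0 := by exact_mod_cast hℓ
  have hq : (ℓ : ℚ) ≠ 0 := by exact_mod_cast hℓ
  have hd : (hh_mU ℓ j).det ≠ 0 := by rw [h40_det_mU]; exact h0
  rw [h40_toGL_smul_coe hd]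
  · simp [hh_mU]
  · simp [hh_mU, hq]

theorem h40_mU_smul_infty {ℓ : ℕ} (hℓ : ℓ ≠ 0) (j : ℕ) :
    h40_toGL (hh_mU ℓ j) • (∞ : OnePoint ℚ) = ∞ := by
  have h0 : (ℓ : ℤ) ≠ 0 := by exact_mod_cast hℓ
  exact h40_toGL_smul_infty (by rw [h40_det_mU]; exact h0) (by simp [hh_mU])

theorem h40_mD_smul_coe {ℓ : ℕ} (hℓ : ℓ ≠ 0) (x : ℚ) :
    h40_toGL (hh_mD ℓ) • (x : OnePoint ℚ) = ((ℓ * x : ℚ) : OnePoint ℚ) := by
  have h0 : (ℓ : ℤ) ≠ 0 := by exact_mod_cast hℓ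
  have hd : (hh_mD ℓ).det ≠ 0 := by rw [h40_det_mD]; exact h0
  rw [h40_toGL_smul_coe hd]
  · simp [hh_mD]
  · simp [hh_mD]

theorem h40_mD_smul_infty {ℓ : ℕ} (hℓ : ℓ ≠ 0) :
    h40_toGL (hh_mD ℓ) • (∞ : OnePoint ℚ) = ∞ := by
  have h0 : (ℓ : ℤ) ≠ 0 := by exact_mod_cast hℓ
  exact h40_toGL_smul_infty (by rw [h40_det_mD]; exact h0) (by simp [hh_mD])

theorem h40_repT_smul_infty {ℓ : ℕ} (hℓ : ℓ ≠ 0) (i : Option (Fin ℓ)) :
    h40_toGL (hh_repTInt ℓ i) • (∞ : OnePoint ℚ) = ∞ := by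
  rcases i with _ | j
  · exact h40_mD_smul_infty hℓ
  · exact h40_mU_smul_infty hℓ _

/-! ### The Hecke operator on symbols -/

/-- `T_ℓ` on symbols (coset representatives `[[1, j], [0, ℓ]]`, `[[ℓ, 0], [0, 1]]`). -/
noncomputable def h40_heckeT (ℓ : ℕ) (φ : OnePoint ℚ → OnePoint ℚ → A) :
    OnePoint ℚ → OnePoint ℚ → A :=
  fun r s => ∑ i : Option (Fin ℓ),
    φ (h40_toGL (hh_repTInt ℓ i) • r) (h40_toGL (hh_repTInt ℓ i) • s)

/-- the error function: `T_ℓ φ - (ℓ + 1) φ = d E`. -/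
noncomputable def h40_E (ℓ : ℕ) (φ : OnePoint ℚ → OnePoint ℚ → A) : OnePoint ℚ → A :=
  fun s => ∑ i : Option (Fin ℓ), φ s (h40_toGL (hh_repTInt ℓ i) • s)

theorem h40_heckeT_eq {φ : OnePoint ℚ → OnePoint ℚ → A} (h : h40_IsSymb φ) (ℓ : ℕ)
    (r s : OnePoint ℚ) :
    h40_heckeT ℓ φ r s = (ℓ + 1) • φ r s + h40_E ℓ φ s - h40_E ℓ φ r := by
  have hterm : ∀ g : GL (Fin 2) ℚ, φ (g • r) (g • s) = φ r s + φ s (g • s) - φ r (g • r) := by
    intro g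
    have e1 := h (g • r) r (g • s)
    have e2 := h r s (g • s)
    rw [← e1, ← e2, h.neg r (g • r)]
    abel
  simp only [h40_heckeT, h40_E]
  rw [Finset.sum_congr rfl (fun i _ => hterm (h40_toGL (hh_repTInt ℓ i))),
    Finset.sum_sub_distrib, Finset.sum_add_distrib, Finset.sum_const, Finset.card_univ,
    Fintype.card_option, Fintype.card_fin]

theorem h40_E_infty {φ : OnePoint ℚ → OnePoint ℚ → A} (h : h40_IsSymb φ) {ℓ : ℕ} (hℓ : ℓ ≠ 0) :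
    h40_E ℓ φ ∞ = 0 := by
  simp only [h40_E]
  apply Finset.sum_eq_zero
  intro i _
  rw [h40_repT_smul_infty hℓ, h.self]

/-- the coset permutation for `T_ℓ` on integer matrices is injective. -/
theorem h40_perm_inj {ℓ : ℕ} (hℓ : ℓ.Prime) (g : Matrix (Fin 2) (Fin 2) ℤ) (hdet : g.det = 1)
    {i i' j : Option (Fin ℓ)} {K K' : Matrix (Fin 2) (Fin 2) ℤ} (hK : K.det = 1)
    (hK' : K'.det = 1) (e : hh_repTInt ℓ i * g = K * hh_repTInt ℓ j)
    (e' : hh_repTInt ℓ i' * g = K' * hh_repTInt ℓ j) : i = i' := by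
  have hadj : K'.adjugate * K' = 1 := by rw [Matrix.adjugate_mul, hK', one_smul]
  have hgadj : g * g.adjugate = 1 := by rw [Matrix.mul_adjugate, hdet, one_smul]
  have e1 : hh_repTInt ℓ j = K'.adjugate * (hh_repTInt ℓ i' * g) := by
    rw [e', ← Matrix.mul_assoc, hadj, Matrix.one_mul]
  have e2 : hh_repTInt ℓ i * g = (K * K'.adjugate * hh_repTInt ℓ i') * g := by
    rw [e, e1]
    simp only [Matrix.mul_assoc]
  have e3 : hh_repTInt ℓ i = K * K'.adjugate * hh_repTInt ℓ i' := by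
    have := congrArg (fun M => M * g.adjugate) e2
    simpa only [Matrix.mul_assoc, hgadj, Matrix.mul_one] using this
  refine hh_uniqT_int hℓ i i' (K * K'.adjugate) ?_ e3
  have hd : K'.adjugate.det = 1 := by
    have := congrArg Matrix.det hadj
    rw [Matrix.det_mul, hK', mul_one, Matrix.det_one] at this
    exact this
  rw [Matrix.det_mul, hK, hd, mul_one]

/-- **Equivariance of the error function**: `E(γ s) = E(s) + E(γ ∞)` for `γ ∈ Γ₀(N)`. -/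
theorem h40_E_smul {N ℓ : ℕ} (hℓ : ℓ.Prime) (hℓN : ¬ ℓ ∣ N)
    {φ : OnePoint ℚ → OnePoint ℚ → A} (h : h40_IsSymb φ)
    (hΓ : ∀ γ ∈ Gamma0 N, mapGL ℚ γ ∈ h40_stab φ) (γ : SL(2, ℤ)) (hγ : γ ∈ Gamma0 N)
    (s : OnePoint ℚ) :
    h40_E ℓ φ (mapGL ℚ γ • s) = h40_E ℓ φ s + h40_E ℓ φ (mapGL ℚ γ • ∞) := by
  have hγN : (N : ℤ) ∣ (γ : Matrix (Fin 2) (Fin 2) ℤ) 1 0 := hh_dvd_of_mem (⟨γ, hγ⟩ : Gamma0 N)
  choose π κ hκdet hκN hκ using fun i => hh_exT_int hℓ hℓN i (γ : Matrix (Fin 2) (Fin 2) ℤ)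
    γ.det_coe hγN
  have hπ : Function.Injective π := fun i i' hii' =>
    h40_perm_inj hℓ _ γ.det_coe (hκdet i) (hκdet i') (hκ i) (hii' ▸ hκ i')
  have hπb : Function.Bijective π := Finite.injective_iff_bijective.mp hπ
  have hγdet : (γ : Matrix (Fin 2) (Fin 2) ℤ).det ≠ 0 := by rw [γ.det_coe]; exact one_ne_zero
  have hκd : ∀ i, (κ i).det ≠ 0 := fun i => by rw [hκdet i]; exact one_ne_zero
  have hκstab : ∀ i, h40_toGL (κ i) ∈ h40_stab φ := by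
    intro i
    have := hΓ (hh_mk N (κ i) (hκdet i) (hκN i) : Gamma0 N).1
      (hh_mk N (κ i) (hκdet i) (hκN i) : Gamma0 N).2
    rw [← h40_toGL_SL] at this
    exact this
  have hγstab : mapGL ℚ γ ∈ h40_stab φ := hΓ γ hγ
  have hmul : ∀ i, h40_toGL (hh_repTInt ℓ i) * mapGL ℚ γ =
      h40_toGL (κ i) * h40_toGL (hh_repTInt ℓ (π i)) := by
    intro i
    rw [← h40_toGL_SL, ← h40_toGL_mul (h40_det_repT hℓ.ne_zero i) hγdet, hκ i,
      h40_toGL_mul (hκd i) (h40_det_repT hℓ.ne_zero _)]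
  have key : ∀ t : OnePoint ℚ, h40_E ℓ φ (mapGL ℚ γ • t) =
      (∑ i : Option (Fin ℓ), φ (mapGL ℚ γ • ∞) (h40_toGL (κ i) • ∞)) + h40_E ℓ φ t := by
    intro t
    have hterm : ∀ i, φ (mapGL ℚ γ • t) (h40_toGL (hh_repTInt ℓ i) • mapGL ℚ γ • t) =
        φ (mapGL ℚ γ • ∞) (h40_toGL (κ i) • ∞) + φ t (h40_toGL (hh_repTInt ℓ (π i)) • t) := by
      intro i
      rw [← mul_smul, hmul i, mul_smul,
        ← h (mapGL ℚ γ • t) (h40_toGL (κ i) • t)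
          (h40_toGL (κ i) • h40_toGL (hh_repTInt ℓ (π i)) • t),
        hκstab i, h40_stab_indep h hγstab (hκstab i) t ∞]
    simp only [h40_E]
    rw [Finset.sum_congr rfl (fun i _ => hterm i), Finset.sum_add_distrib]
    congr 1
    exact (Equiv.ofBijective π hπb).sum_comp (fun j => φ t (h40_toGL (hh_repTInt ℓ j) • t))
  have h1 := key ∞
  rw [h40_E_infty h hℓ.ne_zero, add_zero] at h1
  rw [key s, h1, add_comm]

/-! ### Reduction to finitely many cusps -/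

theorem h40_fg_SL2Z : Group.FG SL(2, ℤ) := by
  rw [Group.fg_def]
  exact ⟨{ModularGroup.S, ModularGroup.T}, by simpa using SpecialLinearGroup.SL2Z_generators⟩

/-- There is a finite set of cusps (depending only on `N`) on which the vanishing of the error
function of any `Γ₀(N)`-invariant symbol can be tested. -/
theorem h40_exists_cusps (N : ℕ) [NeZero N] :
    ∃ S : Finset (OnePoint ℚ), ∀ ℓ : ℕ, ℓ.Prime → ¬ ℓ ∣ N →
      ∀ (A : Type u) [AddCommGroup A] (φ : OnePoint ℚ → OnePoint ℚ → A), h40_IsSymb φ →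
        (∀ γ ∈ Gamma0 N, mapGL ℚ γ ∈ h40_stab φ) →
        (∀ c ∈ S, h40_E ℓ φ c = 0) → ∀ c, h40_E ℓ φ c = 0 := by
  classical
  have : Group.FG SL(2, ℤ) := h40_fg_SL2Z
  have : Group.FG (Gamma0 N) := Subgroup.fg_of_index_ne_zero (Gamma0 N)
  obtain ⟨Sg, hSg⟩ := Group.fg_def.mp (inferInstance : Group.FG (Gamma0 N))
  have : Finite (SL(2, ℤ) ⧸ Gamma0 N) := Subgroup.finite_quotient_of_finiteIndex
  haveI : Fintype (SL(2, ℤ) ⧸ Gamma0 N) := Fintype.ofFinite _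
  refine ⟨Sg.image (fun γ : Gamma0 N => mapGL ℚ (γ : SL(2, ℤ)) • (∞ : OnePoint ℚ)) ∪
    (Finset.univ : Finset (SL(2, ℤ) ⧸ Gamma0 N)).image
      (fun c => mapGL ℚ (Quotient.out c)⁻¹ • (∞ : OnePoint ℚ)), ?_⟩
  intro ℓ hℓ hℓN A _ φ h hΓ hS c
  -- the subgroup of `Γ₀(N)` on which `E(γ ∞) = 0`
  let H₀ : Subgroup (Gamma0 N) :=
    { carrier := {γ | h40_E ℓ φ (mapGL ℚ (γ : SL(2, ℤ)) • (∞ : OnePoint ℚ)) = 0}
      one_mem' := by
        show h40_E ℓ φ (mapGL ℚ ((1 : Gamma0 N) : SL(2, ℤ)) • (∞ : OnePoint ℚ)) = 0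
        rw [Subgroup.coe_one, map_one, one_smul, h40_E_infty h hℓ.ne_zero]
      mul_mem' := by
        intro a b ha hb
        show h40_E ℓ φ (mapGL ℚ ((a * b : Gamma0 N) : SL(2, ℤ)) • (∞ : OnePoint ℚ)) = 0
        rw [Subgroup.coe_mul, map_mul, mul_smul, h40_E_smul hℓ hℓN h hΓ _ a.2]
        change h40_E ℓ φ _ = 0 at ha hb
        rw [ha, hb, add_zero]
      inv_mem' := by
        intro a ha
        show h40_E ℓ φ (mapGL ℚ ((a⁻¹ : Gamma0 N) : SL(2, ℤ)) • (∞ : OnePoint ℚ)) = 0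
        change h40_E ℓ φ _ = 0 at ha
        have e := h40_E_smul hℓ hℓN h hΓ _ a.2
          (mapGL ℚ ((a⁻¹ : Gamma0 N) : SL(2, ℤ)) • (∞ : OnePoint ℚ))
        rw [← mul_smul, ← map_mul, ← Subgroup.coe_mul, mul_inv_cancel, Subgroup.coe_one, map_one,
          one_smul, h40_E_infty h hℓ.ne_zero, ha, add_zero] at e
        exact e.symm }
  have hH₀ : H₀ = ⊤ := by
    rw [eq_top_iff, ← hSg, Subgroup.closure_le]
    intro γ hγ
    apply hS
    apply Finset.mem_union_left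
    exact Finset.mem_image_of_mem _ hγ
  have hall : ∀ γ : Gamma0 N, h40_E ℓ φ (mapGL ℚ (γ : SL(2, ℤ)) • (∞ : OnePoint ℚ)) = 0 := by
    intro γ
    have : γ ∈ H₀ := by rw [hH₀]; exact Subgroup.mem_top γ
    exact this
  obtain ⟨g, rfl⟩ := OnePoint.exists_mem_SL2 ℤ c
  -- `g = γ' * r` with `r` a representative
  set cq : SL(2, ℤ) ⧸ Gamma0 N := ((g⁻¹ : SL(2, ℤ)) : SL(2, ℤ) ⧸ Gamma0 N) with hcq
  have hmem : (Quotient.out cq)⁻¹ * g⁻¹ ∈ Gamma0 N := by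
    rw [← QuotientGroup.eq, QuotientGroup.out_eq']
  have hg : g = (⟨_, hmem⟩ : Gamma0 N)⁻¹.1 * (Quotient.out cq)⁻¹ := by
    rw [Subgroup.coe_inv]
    simp [mul_inv_rev]
  rw [hg, map_mul, mul_smul, h40_E_smul hℓ hℓN h hΓ _ (⟨_, hmem⟩ : Gamma0 N)⁻¹.2, hall,
    add_zero]
  apply hS
  apply Finset.mem_union_right
  exact Finset.mem_image_of_mem _ (Finset.mem_univ cq)

/-! ### Invariance under the affine group of `ℤ[1/q]` -/

/-- the integer matrix `[[1, 0], [0, q]]`. -/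
def h40_mE (q : ℕ) : Matrix (Fin 2) (Fin 2) ℤ := !![1, 0; 0, (q : ℤ)]

theorem h40_det_mE (q : ℕ) : (h40_mE q).det = q := by
  simp [h40_mE, Matrix.det_fin_two_of]

theorem h40_mE_smul_coe {q : ℕ} (hq : q ≠ 0) (x : ℚ) :
    h40_toGL (h40_mE q) • (x : OnePoint ℚ) = ((x / q : ℚ) : OnePoint ℚ) := by
  have h0 : (q : ℤ) ≠ 0 := by exact_mod_cast hq
  have hq' : (q : ℚ) ≠ 0 := by exact_mod_cast hq
  have hd : (h40_mE q).det ≠ 0 := by rw [h40_det_mE]; exact h0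
  rw [h40_toGL_smul_coe hd]
  · simp [h40_mE]
  · simp [h40_mE, hq']

theorem h40_mE_smul_infty {q : ℕ} (hq : q ≠ 0) :
    h40_toGL (h40_mE q) • (∞ : OnePoint ℚ) = ∞ := by
  have h0 : (q : ℤ) ≠ 0 := by exact_mod_cast hq
  exact h40_toGL_smul_infty (by rw [h40_det_mE]; exact h0) (by simp [h40_mE])

/-- the element `diag(q, 1/q)` of `GL₂(ℚ)`. -/
noncomputable def h40_D (q : ℕ) : GL (Fin 2) ℚ := (h40_toGL (h40_mE q))⁻¹ * h40_toGL (hh_mD q)

theorem h40_D_smul_coe {q : ℕ} (hq : q ≠ 0) (x : ℚ) :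
    h40_D q • (x : OnePoint ℚ) = ((q ^ 2 * x : ℚ) : OnePoint ℚ) := by
  have hq' : (q : ℚ) ≠ 0 := by exact_mod_cast hq
  rw [h40_D, mul_smul, h40_mD_smul_coe hq, inv_smul_eq_iff, h40_mE_smul_coe hq]
  congr 1
  field_simp

theorem h40_D_smul_infty {q : ℕ} (hq : q ≠ 0) : h40_D q • (∞ : OnePoint ℚ) = ∞ := by
  rw [h40_D, mul_smul, h40_mD_smul_infty hq, inv_smul_eq_iff, h40_mE_smul_infty hq]

theorem h40_D_pow_smul_coe {q : ℕ} (hq : q ≠ 0) (k : ℕ) (x : ℚ) :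
    h40_D q ^ k • (x : OnePoint ℚ) = ((q ^ (2 * k) * x : ℚ) : OnePoint ℚ) := by
  induction k with
  | zero => simp
  | succ k ih =>
    rw [pow_succ', mul_smul, ih, h40_D_smul_coe hq]
    congr 1
    ring

theorem h40_D_pow_smul_infty {q : ℕ} (hq : q ≠ 0) (k : ℕ) :
    h40_D q ^ k • (∞ : OnePoint ℚ) = ∞ := by
  induction k with
  | zero => simp
  | succ k ih => rw [pow_succ', mul_smul, ih, h40_D_smul_infty hq]

/-- the translation `[[1, a], [0, 1]]` as an element of `SL₂(ℤ)`. -/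
def h40_trSL (a : ℤ) : SL(2, ℤ) := ⟨!![1, a; 0, 1], by simp [Matrix.det_fin_two_of]⟩

theorem h40_trSL_mem (N : ℕ) (a : ℤ) : h40_trSL a ∈ Gamma0 N := by
  rw [Gamma0_mem]
  simp [h40_trSL]

theorem h40_trSL_smul_coe (a : ℤ) (x : ℚ) :
    mapGL ℚ (h40_trSL a) • (x : OnePoint ℚ) = ((x + a : ℚ) : OnePoint ℚ) := by
  rw [← h40_toGL_SL, h40_toGL_smul_coe (by rw [(h40_trSL a).det_coe]; exact one_ne_zero)]
  · simp [h40_trSL]
  · simp [h40_trSL]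

theorem h40_trSL_smul_infty (a : ℤ) :
    mapGL ℚ (h40_trSL a) • (∞ : OnePoint ℚ) = ∞ := by
  rw [← h40_toGL_SL]
  exact h40_toGL_smul_infty (by rw [(h40_trSL a).det_coe]; exact one_ne_zero)
    (by simp [h40_trSL])

/-- the translation by `a / q`, as `δ⁻¹ [[1, a], [0, 1]] δ`. -/
noncomputable def h40_trq (q : ℕ) (a : ℤ) : GL (Fin 2) ℚ :=
  (h40_toGL (hh_mD q))⁻¹ * mapGL ℚ (h40_trSL a) * h40_toGL (hh_mD q)

theorem h40_trq_smul_coe {q : ℕ} (hq : q ≠ 0) (a : ℤ) (x : ℚ) :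
    h40_trq q a • (x : OnePoint ℚ) = ((x + a / q : ℚ) : OnePoint ℚ) := by
  have hq' : (q : ℚ) ≠ 0 := by exact_mod_cast hq
  rw [h40_trq, mul_smul, mul_smul, h40_mD_smul_coe hq, h40_trSL_smul_coe, inv_smul_eq_iff,
    h40_mD_smul_coe hq]
  congr 1
  field_simp

theorem h40_trq_smul_infty {q : ℕ} (hq : q ≠ 0) (a : ℤ) :
    h40_trq q a • (∞ : OnePoint ℚ) = ∞ := by
  rw [h40_trq, mul_smul, mul_smul, h40_mD_smul_infty hq, h40_trSL_smul_infty, inv_smul_eq_iff,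
    h40_mD_smul_infty hq]

section Aff

variable {N q : ℕ} {φ : OnePoint ℚ → OnePoint ℚ → A}

/-- `diag(q, 1/q)` stabilises a symbol invariant under `Γ₀(N)` and `δ⁻¹ Γ₀(N) δ`. -/
theorem h40_D_mem (hq : q.Prime) (hqN : ¬ q ∣ N)
    (hΓ : ∀ γ ∈ Gamma0 N, mapGL ℚ γ ∈ h40_stab φ)
    (hΓδ : ∀ γ ∈ Gamma0 N,
      (h40_toGL (hh_mD q))⁻¹ * mapGL ℚ γ * h40_toGL (hh_mD q) ∈ h40_stab φ) :
    h40_D q ∈ h40_stab φ := by
  have hcop : IsCoprime (q : ℤ) (N : ℤ) := by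
    rw [Int.isCoprime_iff_gcd_eq_one, Int.gcd_natCast_natCast]
    exact (Nat.Prime.coprime_iff_not_dvd hq).mpr hqN
  obtain ⟨u, v, huv⟩ := hcop
  -- `γx = [[q, -v], [N, u]]`, `γy = [[1, -v], [N, q u]]`
  have hdx : (!![(q : ℤ), -v; (N : ℤ), u] : Matrix (Fin 2) (Fin 2) ℤ).det = 1 := by
    rw [Matrix.det_fin_two_of]; linear_combination huv
  have hdy : (!![(1 : ℤ), -v; (N : ℤ), q * u] : Matrix (Fin 2) (Fin 2) ℤ).det = 1 := by
    rw [Matrix.det_fin_two_of]; linear_combination huv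
  set γx : Gamma0 N := hh_mk N !![(q : ℤ), -v; (N : ℤ), u] hdx (by simp) with hγx
  set γy : Gamma0 N := hh_mk N !![(1 : ℤ), -v; (N : ℤ), q * u] hdy (by simp) with hγy
  have hq0 : (q : ℤ) ≠ 0 := by exact_mod_cast hq.ne_zero
  have hdD : (hh_mD q).det ≠ 0 := by rw [h40_det_mD]; exact hq0
  have hdE : (h40_mE q).det ≠ 0 := by rw [h40_det_mE]; exact hq0
  have hint : ((γy : SL(2, ℤ)) : Matrix (Fin 2) (Fin 2) ℤ) * hh_mD q =
      h40_mE q * ((γx : SL(2, ℤ)) : Matrix (Fin 2) (Fin 2) ℤ) := by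
    have e1 : ((γy : SL(2, ℤ)) : Matrix (Fin 2) (Fin 2) ℤ) = !![(1 : ℤ), -v; (N : ℤ), q * u] :=
      rfl
    have e2 : ((γx : SL(2, ℤ)) : Matrix (Fin 2) (Fin 2) ℤ) = !![(q : ℤ), -v; (N : ℤ), u] := rfl
    rw [e1, e2]
    simp only [hh_mD, h40_mE]
    ext x y
    fin_cases x <;> fin_cases y <;> simp [Matrix.mul_apply, Fin.sum_univ_two] <;> ring
  have hgl : mapGL ℚ (γy : SL(2, ℤ)) * h40_toGL (hh_mD q) =
      h40_toGL (h40_mE q) * mapGL ℚ (γx : SL(2, ℤ)) := by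
    rw [← h40_toGL_SL, ← h40_toGL_SL, ← h40_toGL_mul _ hdD, ← h40_toGL_mul hdE, hint]
    · rw [(γx : SL(2, ℤ)).det_coe]; exact one_ne_zero
    · rw [(γy : SL(2, ℤ)).det_coe]; exact one_ne_zero
  have hD : h40_D q = mapGL ℚ (γx : SL(2, ℤ)) *
      ((h40_toGL (hh_mD q))⁻¹ * mapGL ℚ (γy : SL(2, ℤ)) * h40_toGL (hh_mD q))⁻¹ := by
    rw [eq_mul_inv_iff_mul_eq, h40_D]
    calc (h40_toGL (h40_mE q))⁻¹ * h40_toGL (hh_mD q) *
          ((h40_toGL (hh_mD q))⁻¹ * mapGL ℚ (γy : SL(2, ℤ)) * h40_toGL (hh_mD q))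
        = (h40_toGL (h40_mE q))⁻¹ * (mapGL ℚ (γy : SL(2, ℤ)) * h40_toGL (hh_mD q)) := by group
      _ = mapGL ℚ (γx : SL(2, ℤ)) := by rw [hgl]; group
  rw [hD]
  exact Subgroup.mul_mem _ (hΓ _ γx.2) (Subgroup.inv_mem _ (hΓδ _ γy.2))

/-- scaling by `q ^ (2k)` in the second variable. -/
theorem h40_aff_scale (hq : q.Prime) (hqN : ¬ q ∣ N) (h : h40_IsSymb φ)
    (hΓ : ∀ γ ∈ Gamma0 N, mapGL ℚ γ ∈ h40_stab φ)
    (hΓδ : ∀ γ ∈ Gamma0 N,
      (h40_toGL (hh_mD q))⁻¹ * mapGL ℚ γ * h40_toGL (hh_mD q) ∈ h40_stab φ)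
    (y : OnePoint ℚ) (k : ℕ) (x : ℚ) :
    φ y ((q ^ (2 * k) * x : ℚ) : OnePoint ℚ) = φ y (x : OnePoint ℚ) := by
  have hD := Subgroup.pow_mem _ (h40_D_mem hq hqN hΓ hΓδ) k
  rw [← h40_D_pow_smul_coe hq.ne_zero k x]
  exact h40_stab_fix h hD (h40_D_pow_smul_infty hq.ne_zero k) y _

/-- translation by `a / q ^ (2k+1)` in the second variable. -/
theorem h40_aff_trans (hq : q.Prime) (hqN : ¬ q ∣ N) (h : h40_IsSymb φ)
    (hΓ : ∀ γ ∈ Gamma0 N, mapGL ℚ γ ∈ h40_stab φ)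
    (hΓδ : ∀ γ ∈ Gamma0 N,
      (h40_toGL (hh_mD q))⁻¹ * mapGL ℚ γ * h40_toGL (hh_mD q) ∈ h40_stab φ)
    (y : OnePoint ℚ) (a : ℤ) (k : ℕ) (x : ℚ) :
    φ y ((x + a / q ^ (2 * k + 1) : ℚ) : OnePoint ℚ) = φ y (x : OnePoint ℚ) := by
  have hq' : (q : ℚ) ≠ 0 := by exact_mod_cast hq.ne_zero
  have hD := Subgroup.pow_mem _ (h40_D_mem hq hqN hΓ hΓδ) k
  have hT : h40_trq q a ∈ h40_stab φ := hΓδ _ (h40_trSL_mem N a)
  have hg : (h40_D q ^ k)⁻¹ * h40_trq q a * h40_D q ^ k ∈ h40_stab φ :=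
    Subgroup.mul_mem _ (Subgroup.mul_mem _ (Subgroup.inv_mem _ hD) hT) hD
  have hact : ((h40_D q ^ k)⁻¹ * h40_trq q a * h40_D q ^ k) • (x : OnePoint ℚ) =
      ((x + a / q ^ (2 * k + 1) : ℚ) : OnePoint ℚ) := by
    rw [mul_smul, mul_smul, h40_D_pow_smul_coe hq.ne_zero, h40_trq_smul_coe hq.ne_zero,
      inv_smul_eq_iff, h40_D_pow_smul_coe hq.ne_zero]
    congr 1
    field_simp
    ring
  have hinf : ((h40_D q ^ k)⁻¹ * h40_trq q a * h40_D q ^ k) • (∞ : OnePoint ℚ) = ∞ := by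
    rw [mul_smul, mul_smul, h40_D_pow_smul_infty hq.ne_zero, h40_trq_smul_infty hq.ne_zero,
      inv_smul_eq_iff, h40_D_pow_smul_infty hq.ne_zero]
  rw [← hact]
  exact h40_stab_fix h hg hinf y _

end Aff

/-! ### The core computation at one cusp -/

/-- a function on a finite commutative group invariant under an element whose order is divisible
by `p`, with values in a group killed by `p`, has sum zero. -/
theorem h40_orbit_sum {U : Type*} [CommGroup U] [Fintype U] (μ : U) (g : U → A)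
    (hg : ∀ x, g (μ * x) = g x) {p : ℕ} (hp : p ∣ orderOf μ) (hpA : ∀ a : A, p • a = 0) :
    ∑ x, g x = 0 := by
  classical
  -- invariance under the cyclic group generated by `μ`
  let S : Subgroup U :=
    { carrier := {h | ∀ x, g (h * x) = g x}
      one_mem' := fun x => by rw [one_mul]
      mul_mem' := fun {a b} ha hb x => by rw [mul_assoc, ha, hb]
      inv_mem' := fun {a} ha x => by
        have := ha (a⁻¹ * x)
        rw [mul_inv_cancel_left] at this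
        exact this.symm }
  have hS : Subgroup.zpowers μ ≤ S := by
    rw [Subgroup.zpowers_le]
    exact hg
  set H : Subgroup U := Subgroup.zpowers μ with hH
  have hinv : ∀ (h : H) (x : U), g (x * h) = g x := fun h x => by
    rw [mul_comm]; exact hS h.2 x
  have hcard : ∀ a : A, Fintype.card H • a = 0 := by
    intro a
    have e : Fintype.card H = orderOf μ := Fintype.card_zpowers
    obtain ⟨m, hm⟩ := hp
    rw [e, hm, mul_comm, mul_smul, hpA, smul_zero]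
  let e : (U ⧸ H) × H → U := fun ch => Quotient.out ch.1 * (ch.2 : U)
  have he : Function.Bijective e := by
    constructor
    · rintro ⟨c, h⟩ ⟨c', h'⟩ hcc
      simp only [e] at hcc
      have h1 : c = c' := by
        have := congrArg (fun x : U => (x : U ⧸ H)) hcc
        simp only [QuotientGroup.mk_mul_of_mem _ h.2, QuotientGroup.mk_mul_of_mem _ h'.2,
          QuotientGroup.out_eq'] at this
        exact this
      subst h1
      have h2 : (h : U) = h' := mul_left_cancel hcc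
      rw [Subtype.ext h2]
    · intro x
      have hmem : (Quotient.out (x : U ⧸ H))⁻¹ * x ∈ H := by
        rw [← QuotientGroup.eq, QuotientGroup.out_eq']
      exact ⟨((x : U ⧸ H), ⟨_, hmem⟩), by simp [e]⟩
  rw [← Fintype.sum_bijective e he (fun ch => g (e ch)) g (fun _ => rfl), Fintype.sum_prod_type]
  apply Finset.sum_eq_zero
  intro c _
  simp only [e, hinv]
  rw [Finset.sum_const, Finset.card_univ, hcard]

/-- **Core computation.**  `F` is a function on `ℚ` invariant under `x ↦ q ^ 2 x` and under the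
translations by `ℤ[1/q]`, with `F x₀ = 0`; if `(ℓ - 1) x₀` and `(q ^ (2K) - 1) x₀` lie in `ℤ[1/q]`
and `p` divides the order of `q ^ (2K)` modulo `ℓ`, the `T_ℓ`-sum of `F` at `x₀` vanishes. -/
theorem h40_core {q ℓ p K : ℕ} (hℓ : ℓ.Prime) (hq : q.Prime) (hℓq : ℓ ≠ q)
    (F : ℚ → A)
    (hscale : ∀ (k : ℕ) (x : ℚ), F (q ^ (2 * k) * x) = F x)
    (htrans : ∀ (a : ℤ) (k : ℕ) (x : ℚ), F (x + a / q ^ (2 * k + 1)) = F x)
    (x₀ : ℚ) (hF0 : F x₀ = 0)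
    (a₀ : ℤ) (n₀ : ℕ) (h₀ : ((ℓ : ℚ) - 1) * x₀ = a₀ / q ^ n₀)
    (a₁ : ℤ) (n₁ : ℕ) (h₁ : ((q : ℚ) ^ (2 * K) - 1) * x₀ = a₁ / q ^ n₁)
    (hord : ∀ u : (ZMod ℓ)ˣ, (u : ZMod ℓ) = q → p ∣ orderOf (u ^ (2 * K)))
    (hpA : ∀ a : A, p • a = 0) :
    ∑ j ∈ Finset.range ℓ, F ((x₀ + j) / ℓ) + F (ℓ * x₀) = 0 := by
  classical
  have : Fact ℓ.Prime := ⟨hℓ⟩
  have hqℓ : (q : ZMod ℓ) ≠ 0 := by
    rw [Ne, ZMod.natCast_eq_zero_iff]
    intro hd
    exact hℓq ((Nat.prime_dvd_prime_iff_eq hℓ hq).mp hd)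
  have hq' : (q : ℚ) ≠ 0 := by exact_mod_cast hq.ne_zero
  have hℓ' : (ℓ : ℚ) ≠ 0 := by exact_mod_cast hℓ.ne_zero
  -- translations by all of `ℤ[1/q]`
  have hT : ∀ (a : ℤ) (n : ℕ) (x : ℚ), F (x + a / q ^ n) = F x := by
    intro a n x
    have e := htrans (a * q ^ (n + 1)) n x
    have e' : x + ((a * q ^ (n + 1) : ℤ) : ℚ) / q ^ (2 * n + 1) = x + a / q ^ n := by
      push_cast
      congr 1
      field_simp
      ring
    rw [e'] at e
    exact e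
  -- the diagonal coset
  have h1 : F (ℓ * x₀) = 0 := by
    have e : (ℓ : ℚ) * x₀ = x₀ + a₀ / q ^ n₀ := by rw [← h₀]; ring
    rw [e, hT, hF0]
  -- the function on `ZMod ℓ`
  set G : ZMod ℓ → A := fun z => F ((x₀ + (z.val : ℚ)) / ℓ) with hG
  have hsum : ∑ j ∈ Finset.range ℓ, F ((x₀ + j) / ℓ) = ∑ z : ZMod ℓ, G z := by
    symm
    refine Finset.sum_bij (fun z _ => z.val) ?_ ?_ ?_ ?_
    · intro z _
      exact Finset.mem_range.mpr (ZMod.val_lt z)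
    · intro z _ z' _ hzz
      exact ZMod.val_injective ℓ hzz
    · intro j hj
      exact ⟨(j : ZMod ℓ), Finset.mem_univ _, ZMod.val_natCast_of_lt (Finset.mem_range.mp hj)⟩
    · intro z _
      rfl
  -- the affine permutation
  set μ : ZMod ℓ := (q : ZMod ℓ) ^ (2 * K) with hμ
  set w : ZMod ℓ := (a₁ : ZMod ℓ) * ((q : ZMod ℓ) ^ n₁)⁻¹ with hw
  have hPn : ∀ n : ℕ, ((q : ZMod ℓ) ^ n) ≠ 0 := fun n => pow_ne_zero n hqℓ
  have hσ : ∀ z : ZMod ℓ, G (μ * z + w) = G z := by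
    intro z
    have e1 : G z = F ((q : ℚ) ^ (2 * K) * ((x₀ + (z.val : ℚ)) / ℓ)) := (hscale K _).symm
    have hdvd : (ℓ : ℤ) ∣ a₁ + (q : ℤ) ^ n₁ * ((q : ℤ) ^ (2 * K) * (z.val : ℤ) -
        ((μ * z + w).val : ℤ)) := by
      rw [← ZMod.intCast_zmod_eq_zero_iff_dvd]
      push_cast
      rw [ZMod.natCast_zmod_val, ZMod.natCast_zmod_val, hw]
      field_simp
      ring
    obtain ⟨b, hb⟩ := hdvd
    have hbq : (a₁ : ℚ) + (q : ℚ) ^ n₁ * ((q : ℚ) ^ (2 * K) * (z.val : ℚ) -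
        ((μ * z + w).val : ℚ)) = ℓ * b := by exact_mod_cast hb
    have h₁' : ((q : ℚ) ^ (2 * K) - 1) * x₀ * q ^ n₁ = a₁ := by
      rw [h₁]; field_simp
    have e2 : (q : ℚ) ^ (2 * K) * ((x₀ + (z.val : ℚ)) / ℓ) =
        (x₀ + ((μ * z + w).val : ℚ)) / ℓ + b / q ^ n₁ := by
      have hP : (q : ℚ) ^ n₁ ≠ 0 := pow_ne_zero _ hq'
      rw [← sub_eq_zero]
      have : (q : ℚ) ^ (2 * K) * ((x₀ + (z.val : ℚ)) / ℓ) -
          ((x₀ + ((μ * z + w).val : ℚ)) / ℓ + b / q ^ n₁) =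
          ((((q : ℚ) ^ (2 * K) - 1) * x₀ * q ^ n₁ - a₁) + ((a₁ : ℚ) + (q : ℚ) ^ n₁ *
            ((q : ℚ) ^ (2 * K) * (z.val : ℚ) - ((μ * z + w).val : ℚ)) - ℓ * b)) /
            (ℓ * q ^ n₁) := by
        field_simp
        ring
      rw [this, h₁', hbq]
      simp
    show F ((x₀ + ((μ * z + w).val : ℚ)) / ℓ) = G z
    rw [e1, e2, hT]
  -- the fixed point
  set j0 : ZMod ℓ := (a₀ : ZMod ℓ) * ((q : ZMod ℓ) ^ n₀)⁻¹ with hj0
  have hG0 : G j0 = 0 := by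
    have hdvd : (ℓ : ℤ) ∣ (q : ℤ) ^ n₀ * (j0.val : ℤ) - a₀ := by
      rw [← ZMod.intCast_zmod_eq_zero_iff_dvd]
      push_cast
      rw [ZMod.natCast_zmod_val, hj0]
      field_simp
      ring
    obtain ⟨b, hb⟩ := hdvd
    have hbq : (q : ℚ) ^ n₀ * (j0.val : ℚ) - a₀ = ℓ * b := by exact_mod_cast hb
    have h₀' : ((ℓ : ℚ) - 1) * x₀ * q ^ n₀ = a₀ := by
      rw [h₀]; field_simp
    have e2 : (x₀ + (j0.val : ℚ)) / ℓ = x₀ + b / q ^ n₀ := by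
      have hP : (q : ℚ) ^ n₀ ≠ 0 := pow_ne_zero _ hq'
      rw [← sub_eq_zero]
      have : (x₀ + (j0.val : ℚ)) / ℓ - (x₀ + b / q ^ n₀) =
          (((q : ℚ) ^ n₀ * (j0.val : ℚ) - a₀ - ℓ * b) - (((ℓ : ℚ) - 1) * x₀ * q ^ n₀ - a₀)) /
            (ℓ * q ^ n₀) := by
        field_simp
        ring
      rw [this, h₀', hbq]
      simp
    show F ((x₀ + (j0.val : ℚ)) / ℓ) = 0
    rw [e2, hT, hF0]
  have hfix : μ * j0 + w = j0 := by
    have hrat : (((q : ℤ) ^ (2 * K) - 1) * a₀ * (q : ℤ) ^ n₁ : ℤ) =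
        ((ℓ : ℤ) - 1) * a₁ * (q : ℤ) ^ n₀ := by
      have hP0 : (q : ℚ) ^ n₀ ≠ 0 := pow_ne_zero _ hq'
      have hP1 : (q : ℚ) ^ n₁ ≠ 0 := pow_ne_zero _ hq'
      have h₀' : ((ℓ : ℚ) - 1) * x₀ * q ^ n₀ = a₀ := by
        rw [h₀]; field_simp
      have h₁' : ((q : ℚ) ^ (2 * K) - 1) * x₀ * q ^ n₁ = a₁ := by
        rw [h₁]; field_simp
      have : ((((q : ℤ) ^ (2 * K) - 1) * a₀ * (q : ℤ) ^ n₁ : ℤ) : ℚ) =
          ((((ℓ : ℤ) - 1) * a₁ * (q : ℤ) ^ n₀ : ℤ) : ℚ) := by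
        push_cast
        rw [← h₀', ← h₁']
        ring
      exact_mod_cast this
    have hz := congrArg (fun t : ℤ => (t : ZMod ℓ)) hrat
    push_cast at hz
    rw [ZMod.natCast_self, zero_sub] at hz
    rw [hj0, hw, hμ]
    have hP0 := hPn n₀
    have hP1 := hPn n₁
    field_simp
    linear_combination hz
  -- sum over the orbits
  have hG' : ∀ i : ZMod ℓ, G (j0 + μ * i) = G (j0 + i) := by
    intro i
    rw [← hσ (j0 + i)]
    congr 1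
    rw [mul_add, add_right_comm, hfix]
  have hsplit : ∑ z : ZMod ℓ, G z = ∑ i : ZMod ℓ, G (j0 + i) :=
    (Equiv.sum_comp (Equiv.addLeft j0) G).symm
  have hunits : ∑ i : ZMod ℓ, G (j0 + i) = G (j0 + 0) + ∑ u : (ZMod ℓ)ˣ, G (j0 + (u : ZMod ℓ)) := by
    rw [Fintype.sum_eq_add_sum_subtype_ne (fun i => G (j0 + i)) 0]
    congr 1
    exact (unitsEquivNeZero.sum_comp (fun i : {i : ZMod ℓ // i ≠ 0} => G (j0 + (i : ZMod ℓ)))).symm
  have horb : ∑ u : (ZMod ℓ)ˣ, G (j0 + (u : ZMod ℓ)) = 0 := by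
    refine h40_orbit_sum ((Units.mk0 (q : ZMod ℓ) hqℓ) ^ (2 * K))
      (fun u => G (j0 + (u : ZMod ℓ))) ?_ (hord _ rfl) hpA
    intro u
    have : (((Units.mk0 (q : ZMod ℓ) hqℓ) ^ (2 * K) * u : (ZMod ℓ)ˣ) : ZMod ℓ) = μ * u := by
      rw [Units.val_mul, Units.val_pow_eq_pow_val, Units.val_mk0]
    show G (j0 + (((Units.mk0 (q : ZMod ℓ) hqℓ) ^ (2 * K) * u : (ZMod ℓ)ˣ) : ZMod ℓ)) = _
    rw [this, hG']
  rw [hsum, hsplit, hunits, horb, add_zero, add_zero, hG0, h1, add_zero]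

/-! ### Arithmetic of the modulus -/

/-- if `x.den ∣ q ^ v * C` and `C ∣ M`, then `M x ∈ q ^ (-v) ℤ`. -/
theorem h40_frac (q : ℕ) (hq : q ≠ 0) (x : ℚ) (M : ℤ) (C v : ℕ) (hden : x.den ∣ q ^ v * C)
    (hC : (C : ℤ) ∣ M) : ∃ a : ℤ, (M : ℚ) * x = a / q ^ v := by
  obtain ⟨M', rfl⟩ := hC
  obtain ⟨e', he'⟩ := hden
  have hq' : (q : ℚ) ≠ 0 := by exact_mod_cast hq
  have hden0 : (x.den : ℚ) ≠ 0 := by exact_mod_cast x.den_nz
  have he'q : (q : ℚ) ^ v * C = x.den * e' := by exact_mod_cast he'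
  refine ⟨M' * x.num * e', ?_⟩
  have hx : x * x.den = x.num := Rat.mul_den_eq_num x
  rw [eq_div_iff (pow_ne_zero _ hq')]
  push_cast
  calc ((C : ℚ) * M') * x * q ^ v = M' * x * ((q : ℚ) ^ v * C) := by ring
    _ = M' * (x * x.den) * e' := by rw [he'q]; ring
    _ = M' * x.num * e' := by rw [hx]

/-- the order condition from "`q` is not a `p`-th power modulo `ℓ`". -/
theorem h40_order {q ℓ p K e : ℕ} (hℓ : ℓ.Prime) (hp : p.Prime) (hK : K ≠ 0)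
    (he : e = padicValNat p (2 * K) + 1) (hpe : p ^ e ∣ ℓ - 1)
    (hnp : ¬ q ^ ((ℓ - 1) / p) ≡ 1 [MOD ℓ]) (u : (ZMod ℓ)ˣ) (hu : (u : ZMod ℓ) = q) :
    p ∣ orderOf (u ^ (2 * K)) := by
  have : Fact ℓ.Prime := ⟨hℓ⟩
  have : Fact p.Prime := ⟨hp⟩
  have ho : orderOf u ∣ ℓ - 1 := ZMod.orderOf_units_dvd_card_sub_one u
  obtain ⟨c, hc⟩ := ho
  have hnd : ¬ orderOf u ∣ (ℓ - 1) / p := by
    intro hd
    apply hnp
    rw [← ZMod.natCast_eq_natCast_iff]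
    push_cast
    rw [← hu, ← Units.val_pow_eq_pow_val, orderOf_dvd_iff_pow_eq_one.mp hd, Units.val_one]
  have hpc : ¬ p ∣ c := by
    rintro ⟨c', rfl⟩
    apply hnd
    rw [hc, show orderOf u * (p * c') = p * (orderOf u * c') by ring,
      Nat.mul_div_cancel_left _ hp.pos]
    exact Dvd.intro _ rfl
  have hcop : Nat.Coprime (p ^ e) c := Nat.Coprime.pow_left e ((Nat.Prime.coprime_iff_not_dvd hp).mpr hpc)
  have hpo : p ^ e ∣ orderOf u := hcop.dvd_of_dvd_mul_right (hc ▸ hpe)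
  have h2K : 2 * K ≠ 0 := by omega
  rw [orderOf_pow' u h2K]
  set g := (orderOf u).gcd (2 * K) with hg
  have hg0 : 0 < g := Nat.gcd_pos_of_pos_right _ (Nat.pos_of_ne_zero h2K)
  obtain ⟨o', ho'⟩ : g ∣ orderOf u := Nat.gcd_dvd_left _ _
  rw [ho', Nat.mul_div_cancel_left _ hg0]
  by_contra hpo'
  have hcop' : Nat.Coprime (p ^ e) o' :=
    Nat.Coprime.pow_left e ((Nat.Prime.coprime_iff_not_dvd hp).mpr hpo')
  have h1 : p ^ e ∣ g := hcop'.dvd_of_dvd_mul_right (ho' ▸ hpo)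
  have h2 : p ^ e ∣ 2 * K := h1.trans (Nat.gcd_dvd_right _ _)
  rw [he] at h2
  exact pow_succ_padicValNat_not_dvd h2K h2

/-! ### The main theorem -/

/-- **The E-trick.**  There is a modulus `m` (depending only on `N, q, p`) such that for every
prime `ℓ ≡ 1 (mod m)` modulo which `q` is not a `p`-th power, `T_ℓ` acts as `ℓ + 1` on every
symbol with values in a group killed by `p` which is invariant under both `Γ₀(N)` and
`δ⁻¹ Γ₀(N) δ`, `δ = diag(q, 1)`. -/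
theorem h40_etrick (N q p : ℕ) [NeZero N] (hq : q.Prime) (hp : p.Prime) (hqN : ¬ q ∣ N) :
    ∃ m : ℕ, 0 < m ∧ N ∣ m ∧ q ∣ m ∧ p ∣ m ∧
      ∀ ℓ : ℕ, ℓ.Prime → ℓ ≡ 1 [MOD m] → ¬ q ^ ((ℓ - 1) / p) ≡ 1 [MOD ℓ] →
      ∀ (A : Type u) [AddCommGroup A], (∀ a : A, p • a = 0) →
      ∀ φ : OnePoint ℚ → OnePoint ℚ → A, h40_IsSymb φ →
        (∀ γ ∈ Gamma0 N, mapGL ℚ γ ∈ h40_stab φ) →
        (∀ γ ∈ Gamma0 N,
          (h40_toGL (hh_mD q))⁻¹ * mapGL ℚ γ * h40_toGL (hh_mD q) ∈ h40_stab φ) →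
        ∀ r s, h40_heckeT ℓ φ r s = (ℓ + 1) • φ r s := by
  obtain ⟨S, hS⟩ := h40_exists_cusps.{u} N
  -- the product of the denominators of the test cusps
  set den' : OnePoint ℚ → ℕ := fun c => OnePoint.elim c 1 (fun x => x.den) with hden'
  set d : ℕ := ∏ c ∈ S, den' c with hd
  have hd0 : d ≠ 0 := by
    rw [hd, Finset.prod_ne_zero_iff]
    intro c _
    cases c with
    | infty => simp [hden']
    | coe x => simp [hden']
  set C : ℕ := d / q ^ d.factorization q with hC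
  have hCcop : Nat.Coprime q C := Nat.coprime_ordCompl hq hd0
  have hdC : q ^ d.factorization q * C = d := Nat.ordProj_mul_ordCompl_eq_self d q
  have hC0 : C ≠ 0 := by
    rintro h0
    rw [h0, mul_zero] at hdC
    exact hd0 hdC.symm
  set K : ℕ := C.totient with hK
  have hK0 : K ≠ 0 := (Nat.totient_pos.mpr (Nat.pos_of_ne_zero hC0)).ne'
  have hqK : q ^ (2 * K) ≡ 1 [MOD C] := by
    have h1 : q ^ K ≡ 1 [MOD C] := Nat.ModEq.pow_totient hCcop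
    have h2 := h1.pow 2
    rwa [← pow_mul, mul_comm, one_pow] at h2
  set e : ℕ := padicValNat p (2 * K) + 1 with he
  refine ⟨N * q * C * p ^ e, ?_, ?_, ?_, ?_, ?_⟩
  · have := NeZero.ne N
    have := hq.pos
    have := hp.pos
    positivity
  · exact ⟨q * C * p ^ e, by ring⟩
  · exact ⟨N * C * p ^ e, by ring⟩
  · exact ⟨N * q * C * p ^ (e - 1), by
      rw [he, Nat.add_sub_cancel, pow_succ]; ring⟩
  intro ℓ hℓ hℓm hnp A _ hpA φ h hΓ hΓδ r s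
  have hmdvd : N * q * C * p ^ e ∣ ℓ - 1 := (Nat.modEq_iff_dvd' hℓ.one_le).mp hℓm.symm
  have hnot : ∀ k : ℕ, k ∣ N * q * C * p ^ e → ¬ ℓ ∣ k := by
    intro k hk hℓk
    have h1 : ℓ ∣ ℓ - 1 := hℓk.trans (hk.trans hmdvd)
    have h2 : ℓ ≤ ℓ - 1 := Nat.le_of_dvd (by have := hℓ.two_le; omega) h1
    have := hℓ.two_le
    omega
  have hℓN : ¬ ℓ ∣ N := hnot N ⟨q * C * p ^ e, by ring⟩
  have hℓq : ℓ ≠ q := by
    rintro rfl
    exact hnot ℓ ⟨N * C * p ^ e, by ring⟩ dvd_rfl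
  have hCℓ : (C : ℤ) ∣ ((ℓ : ℤ) - 1) := by
    have h1 : C ∣ ℓ - 1 := Dvd.dvd.trans ⟨N * q * p ^ e, by ring⟩ hmdvd
    have h2 : ((ℓ - 1 : ℕ) : ℤ) = (ℓ : ℤ) - 1 := by
      rw [Nat.cast_sub hℓ.one_le]; simp
    rw [← h2]
    exact_mod_cast h1
  have hCq : (C : ℤ) ∣ ((q : ℤ) ^ (2 * K) - 1) := by
    have h1 : C ∣ q ^ (2 * K) - 1 :=
      (Nat.modEq_iff_dvd' (Nat.one_le_pow _ _ hq.pos)).mp hqK.symm
    have h2 : ((q ^ (2 * K) - 1 : ℕ) : ℤ) = (q : ℤ) ^ (2 * K) - 1 := by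
      rw [Nat.cast_sub (Nat.one_le_pow _ _ hq.pos)]; simp
    rw [← h2]
    exact_mod_cast h1
  have hpe : p ^ e ∣ ℓ - 1 := Dvd.dvd.trans ⟨N * q * C, by ring⟩ hmdvd
  have hE : ∀ c, h40_E ℓ φ c = 0 := by
    apply hS ℓ hℓ hℓN A φ h hΓ
    intro c hc
    cases c with
    | infty => exact h40_E_infty h hℓ.ne_zero
    | coe x₀ =>
      have hxden : x₀.den ∣ q ^ d.factorization q * C := by
        rw [hdC, hd]
        exact Finset.dvd_prod_of_mem den' hc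
      obtain ⟨a₀, h₀⟩ := h40_frac q hq.ne_zero x₀ ((ℓ : ℤ) - 1) C _ hxden hCℓ
      obtain ⟨a₁, h₁⟩ := h40_frac q hq.ne_zero x₀ ((q : ℤ) ^ (2 * K) - 1) C _ hxden hCq
      push_cast at h₀ h₁
      have hcore := h40_core hℓ hq hℓq (fun x : ℚ => φ (x₀ : OnePoint ℚ) (x : OnePoint ℚ))
        (fun k x => h40_aff_scale hq hqN h hΓ hΓδ _ k x)
        (fun a k x => h40_aff_trans hq hqN h hΓ hΓδ _ a k x)
        x₀ (h.self _) a₀ _ h₀ a₁ _ h₁
        (fun u hu => h40_order hℓ hp hK0 he hpe hnp u hu) hpA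
      simp only [h40_E]
      rw [Fintype.sum_option]
      simp only [hh_repTInt]
      rw [h40_mD_smul_coe hℓ.ne_zero]
      simp only [h40_mU_smul_coe hℓ.ne_zero]
      rw [Fin.sum_univ_eq_sum_range (fun j => φ (x₀ : OnePoint ℚ)
        ((((x₀ + (j : ℚ)) / ℓ : ℚ)) : OnePoint ℚ)) ℓ, add_comm]
      exact hcore
  rw [h40_heckeT_eq h, hE, hE, add_zero, sub_zero]

end Fermat.Agent.S41
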