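/-
S41 / assembly cross-check (helper24): the frozen statement S41 from the single remaining link.

* `fin24_S41_of_Hb`   : S41 from `(Hb)` (dual Ihara, plain form) for one Atkin–Lehner datum and
  every auxiliary prime `l0 ≡ 1 mod N q'`;
* `fin24_S41_of_dual` : S41 from the duality package `hb24_Dual` (links L7 + L8, plain form).

Everything else is on main: `rf7_main` (helper7), the non-Eisenstein prime
`rl74_exists_good_prime` (helper74/helper92) and the eigen-symbol `el2_H0` (helper2).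
-/
import Mathlib
import Fermat.Statements.S41
import Fermat.Agent.S41.Referee7
import Fermat.Agent.S41.NonEis74
import Fermat.Agent.S41.EigenSymb2
import Fermat.Agent.S41.HbDual24

set_option autoImplicit false

open WeierstrassCurve WeierstrassCurve.Affine WeierstrassCurve.Affine.Point
open scoped CongruenceSubgroup

namespace Fermat.Agent.S41

/-- **S41 from `(Hb)`.**  The hypotheses are those of the frozen statement plus the dual Ihara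
statement `(Hb)` for every Atkin–Lehner datum `D` and every prime `l0 ≡ 1 mod N q'`. -/
theorem fin24_S41_of_Hb
    (E : WeierstrassCurve ℚ) [E.IsElliptic] {W : WeierstrassCurve ℤ} (hW : W.IsIntegralModelOf E)
    {p N q' : ℕ} (hp : p.Prime) (hp2 : p ≠ 2) (hN : 0 < N) (hq' : q'.Prime) (hq'N : ¬ q' ∣ N)
    (hirr : GaloisRepIsIrreducible (K := AlgebraicClosure ℚ) ℚ E p)
    (f : CuspForm (CongruenceSubgroup.Gamma0 N) 2) (𝔪 : Ideal (integralClosure ℤ ℂ))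
    (hf : f.IsNormalizedEigenform) (hmax : 𝔪.IsMaximal) (hpm : (p : integralClosure ℤ ℂ) ∈ 𝔪)
    (hcong : ∀ ℓ : ℕ, ℓ.Prime → W.IsGoodPrimeFor ℓ → ¬ ℓ ∣ N → ℓ ≠ p →
      ∃ a : integralClosure ℤ ℂ, (a : ℂ) = ModularFormClass.qCoeff f ℓ ∧
        a - ((W.apOfModel ℓ : ℤ) : integralClosure ℤ ℂ) ∈ 𝔪)
    (hLR : ∃ a : integralClosure ℤ ℂ, (a : ℂ) = ModularFormClass.qCoeff f q' ∧
      a ^ 2 - ((q' : integralClosure ℤ ℂ) + 1) ^ 2 ∈ 𝔪)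
    (HbAll : ∀ (D : tr43_Data N q') (l0 : ℕ), l0.Prime → l0 ≡ 1 [MOD N * q'] →
      ∃ n : ℕ, ∀ φ₁ φ₂ : sc71_X → ℤ, slp10_IsSymb N φ₁ → slp10_IsSymb N φ₂ →
        ∃ Ψ : sc71_X → ℤ, slp10_IsSymb (N * q') Ψ ∧
          (∀ z, (p : ℤ) ∣ (ic42_E l0)^[n] φ₁ z - tr43_tr D Ψ z) ∧
          (∀ z, (p : ℤ) ∣ (ic42_E l0)^[n] φ₂ z - tr43_tr D (tr43_W D Ψ) z)) :
    ∃ (g : CuspForm (CongruenceSubgroup.Gamma0 (N * q')) 2) (𝔪' : Ideal (integralClosure ℤ ℂ)),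
      g.IsNormalizedEigenform ∧ 𝔪'.IsMaximal ∧ (p : integralClosure ℤ ℂ) ∈ 𝔪' ∧
      (∀ ℓ : ℕ, ℓ.Prime → W.IsGoodPrimeFor ℓ → ¬ ℓ ∣ N * q' → ℓ ≠ p →
        ∃ a : integralClosure ℤ ℂ, (a : ℂ) = ModularFormClass.qCoeff g ℓ ∧
          a - ((W.apOfModel ℓ : ℤ) : integralClosure ℤ ℂ) ∈ 𝔪') ∧
      g.IsNewAt q' := by
  have : NeZero N := ⟨hN.ne'⟩
  -- the Atkin–Lehner datum
  have hcop : Nat.Coprime q' N := (Nat.Prime.coprime_iff_not_dvd hq').mpr hq'N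
  obtain ⟨D⟩ := tr43_Data_exists hcop
  -- (NE): the auxiliary prime
  obtain ⟨l0, hl0, hl0S, hl01, hl0g, hl0ne⟩ :=
    rl74_exists_good_prime E hW hp hp2 hirr (N * q') (Nat.mul_pos hN hq'.pos) {p}
  have hl0p : l0 ≠ p := fun h => hl0S (by rw [h]; exact Finset.mem_singleton_self p)
  have hl0ne' : ¬ (p : ℤ) ∣ W.apOfModel l0 - ((l0 : ℤ) + 1) := by
    intro h
    apply hl0ne
    have e : (l0 : ℤ) + 1 - W.apOfModel l0 = -(W.apOfModel l0 - ((l0 : ℤ) + 1)) := by ring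
    rw [e]
    exact (dvd_neg).mpr h
  -- (H0): the eigen-symbol of `f`
  obtain ⟨v, hv0, -, hvT⟩ := el2_H0 N hf
  have H0 : ∃ φ : sc71_X → ℂ, slp10_IsSymb N φ ∧ φ ≠ 0 ∧
      ∀ ℓ : ℕ, ℓ.Prime → ¬ ℓ ∣ N → tr43_T ℓ φ = ModularFormClass.qCoeff f ℓ • φ :=
    ⟨(v : sc71_X → ℂ), slp10_mem_V.1 v.2, fun h => hv0 (Subtype.ext h), hvT⟩
  exact rf7_main hp hp2 hN hq' hq'N f 𝔪 hmax hpm hcong hLR D l0 hl0 hl0g hl0p hl01 hl0ne'
    (HbAll D l0 hl0 hl01) H0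

/-- **S41 from the duality package** (links L7 + L8 in plain form). -/
theorem fin24_S41_of_dual
    (E : WeierstrassCurve ℚ) [E.IsElliptic] {W : WeierstrassCurve ℤ} (hW : W.IsIntegralModelOf E)
    {p N q' : ℕ} (hp : p.Prime) (hp2 : p ≠ 2) (hN : 0 < N) (hq' : q'.Prime) (hq'N : ¬ q' ∣ N)
    (hirr : GaloisRepIsIrreducible (K := AlgebraicClosure ℚ) ℚ E p)
    (f : CuspForm (CongruenceSubgroup.Gamma0 N) 2) (𝔪 : Ideal (integralClosure ℤ ℂ))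
    (hf : f.IsNormalizedEigenform) (hmax : 𝔪.IsMaximal) (hpm : (p : integralClosure ℤ ℂ) ∈ 𝔪)
    (hcong : ∀ ℓ : ℕ, ℓ.Prime → W.IsGoodPrimeFor ℓ → ¬ ℓ ∣ N → ℓ ≠ p →
      ∃ a : integralClosure ℤ ℂ, (a : ℂ) = ModularFormClass.qCoeff f ℓ ∧
        a - ((W.apOfModel ℓ : ℤ) : integralClosure ℤ ℂ) ∈ 𝔪)
    (hLR : ∃ a : integralClosure ℤ ℂ, (a : ℂ) = ModularFormClass.qCoeff f q' ∧
      a ^ 2 - ((q' : integralClosure ℤ ℂ) + 1) ^ 2 ∈ 𝔪)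
    (Hdual : ∀ (D : tr43_Data N q') (l0 : ℕ), l0.Prime → l0 ≡ 1 [MOD N * q'] →
      hb24_Dual p N q' l0 D) :
    ∃ (g : CuspForm (CongruenceSubgroup.Gamma0 (N * q')) 2) (𝔪' : Ideal (integralClosure ℤ ℂ)),
      g.IsNormalizedEigenform ∧ 𝔪'.IsMaximal ∧ (p : integralClosure ℤ ℂ) ∈ 𝔪' ∧
      (∀ ℓ : ℕ, ℓ.Prime → W.IsGoodPrimeFor ℓ → ¬ ℓ ∣ N * q' → ℓ ≠ p →
        ∃ a : integralClosure ℤ ℂ, (a : ℂ) = ModularFormClass.qCoeff g ℓ ∧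
          a - ((W.apOfModel ℓ : ℤ) : integralClosure ℤ ℂ) ∈ 𝔪') ∧
      g.IsNewAt q' :=
  fin24_S41_of_Hb E hW hp hp2 hN hq' hq'N hirr f 𝔪 hf hmax hpm hcong hLR fun D l0 hl0 hl01 =>
    hb24_Hb_of_dual hp hq' D hl0
      (fun h => ca76_not_dvd_of_modEq hl0 hl01 (h.mul_right q')) (Hdual D l0 hl0 hl01)

end Fermat.Agent.S41
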