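/-
S41 / M5 support (helper83): every Weierstrass curve over a field with `2 ≠ 0` whose
2-division cubic `4x³ + b₂x² + 2b₄x + b₆` splits is carried to an S05 Frey model
`y² + xy = x³ + ((B-1-A)/4) x² - (AB/16) x` by an explicit change of variables with `u = 1`.

* `ff83_vc W e1`        : the change of variables `⟨1, e1, (1 - a₁)/2, -(a₁ e1 + a₃)/2⟩`
* `ff83_isFreyModel`    : explicit statement from the three Vieta identities
* `ff83_Δ_of_isFreyModel` : `256 Δ = A² B² (A+B)²` for a Frey model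
* `ff83_exists_frey`    : existence over an algebraically closed field
-/
import Mathlib
import Fermat.Agent.S05.Defs

set_option autoImplicit false

namespace Fermat.Agent.S41

open WeierstrassCurve Fermat.Agent.S05

section Explicit

variable {K : Type*} [Field K]

/-- The change of variables `x = x' + e1`, `y = y' + s x' + t` with
`s = (1 - a₁)/2`, `t = -(a₁ e1 + a₃)/2`. -/
def ff83_vc (W : WeierstrassCurve K) (e1 : K) : VariableChange K :=
  ⟨1, e1, (1 - W.a₁) / 2, -(W.a₁ * e1 + W.a₃) / 2⟩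

@[simp] lemma ff83_vc_u (W : WeierstrassCurve K) (e1 : K) : (ff83_vc W e1).u = 1 := rfl
@[simp] lemma ff83_vc_r (W : WeierstrassCurve K) (e1 : K) : (ff83_vc W e1).r = e1 := rfl
@[simp] lemma ff83_vc_s (W : WeierstrassCurve K) (e1 : K) :
    (ff83_vc W e1).s = (1 - W.a₁) / 2 := rfl
@[simp] lemma ff83_vc_t (W : WeierstrassCurve K) (e1 : K) :
    (ff83_vc W e1).t = -(W.a₁ * e1 + W.a₃) / 2 := rfl

/-- **Explicit Frey form.** If `4x³ + b₂x² + 2b₄x + b₆ = 4 (x - e1)(x - e2)(x - e3)` (stated as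
the three Vieta identities), then `ff83_vc W e1 • W` is the Frey model with parameters
`A = 4 (e2 - e1)`, `B = 4 (e1 - e3)`. -/
theorem ff83_isFreyModel (W : WeierstrassCurve K) (h2 : (2 : K) ≠ 0) (e1 e2 e3 : K)
    (hs1 : W.b₂ = -4 * (e1 + e2 + e3)) (hs2 : W.b₄ = 2 * (e1 * e2 + e1 * e3 + e2 * e3))
    (hs3 : W.b₆ = -4 * (e1 * e2 * e3)) :
    IsFreyModel (ff83_vc W e1 • W) (4 * (e2 - e1)) (4 * (e1 - e3)) := by
  simp only [b₂, b₄, b₆] at hs1 hs2 hs3
  constructor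
  · simp only [variableChange_def, ff83_vc_u, ff83_vc_r, ff83_vc_s, ff83_vc_t, inv_one,
      Units.val_one, one_pow, one_mul]
    field_simp
    ring
  · simp only [variableChange_def, ff83_vc_u, ff83_vc_r, ff83_vc_s, ff83_vc_t, inv_one,
      Units.val_one, one_pow, one_mul]
    field_simp
    linear_combination 4 * hs1
  · simp only [variableChange_def, ff83_vc_u, ff83_vc_r, ff83_vc_s, ff83_vc_t, inv_one,
      Units.val_one, one_pow, one_mul]
    field_simp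
    ring
  · simp only [variableChange_def, ff83_vc_u, ff83_vc_r, ff83_vc_s, ff83_vc_t, inv_one,
      Units.val_one, one_pow, one_mul]
    field_simp
    linear_combination 16 * hs2 + 16 * e1 * hs1
  · simp only [variableChange_def, ff83_vc_u, ff83_vc_r, ff83_vc_s, ff83_vc_t, inv_one,
      Units.val_one, one_pow, one_mul]
    field_simp
    linear_combination e1 ^ 2 * hs1 + 2 * e1 * hs2 + hs3

/-- The discriminant of a Frey model. -/
theorem ff83_Δ_of_isFreyModel {W : WeierstrassCurve K} {A B : K} (hW : IsFreyModel W A B) :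
    256 * W.Δ = A ^ 2 * B ^ 2 * (A + B) ^ 2 := by
  have hu := hW.a₂
  have hv := hW.a₄
  simp only [Δ, b₂, b₄, b₆, b₈, hW.a₁, hW.a₃, hW.a₆]
  linear_combination ((1 + 4 * W.a₂) ^ 2 * (16 * W.a₄ - A * B) -
      4 * ((16 * W.a₄) ^ 2 - 16 * W.a₄ * (A * B) + (A * B) ^ 2)) * hv +
    ((1 + 4 * W.a₂ + B - A) * (A * B) ^ 2) * hu

/-- The discriminant is unchanged by `ff83_vc`. -/
theorem ff83_vc_Δ (W : WeierstrassCurve K) (e1 : K) : (ff83_vc W e1 • W).Δ = W.Δ := by
  rw [variableChange_Δ]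
  simp

/-- In the situation of `ff83_isFreyModel`, `Δ ≠ 0` forces `A, B, A + B ≠ 0`. -/
theorem ff83_params_ne_zero (W : WeierstrassCurve K) (h2 : (2 : K) ≠ 0) (e1 e2 e3 : K)
    (hs1 : W.b₂ = -4 * (e1 + e2 + e3)) (hs2 : W.b₄ = 2 * (e1 * e2 + e1 * e3 + e2 * e3))
    (hs3 : W.b₆ = -4 * (e1 * e2 * e3)) (hΔ : W.Δ ≠ 0) :
    4 * (e2 - e1) ≠ 0 ∧ 4 * (e1 - e3) ≠ 0 ∧ 4 * (e2 - e1) + 4 * (e1 - e3) ≠ 0 := by
  have hF := ff83_isFreyModel W h2 e1 e2 e3 hs1 hs2 hs3
  have hD := ff83_Δ_of_isFreyModel hF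
  rw [ff83_vc_Δ] at hD
  have h256 : (256 : K) ≠ 0 := by
    have : (256 : K) = 2 ^ 8 := by norm_num
    rw [this]
    exact pow_ne_zero _ h2
  have hne : (4 * (e2 - e1)) ^ 2 * (4 * (e1 - e3)) ^ 2 *
      (4 * (e2 - e1) + 4 * (e1 - e3)) ^ 2 ≠ 0 := by
    rw [← hD]
    exact mul_ne_zero h256 hΔ
  refine ⟨?_, ?_, ?_⟩
  · intro h
    apply hne
    rw [h]
    ring
  · intro h
    apply hne
    rw [h]
    ring
  · intro h
    apply hne
    rw [h]
    ring

end Explicit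

section Exists

variable {K : Type*} [Field K] [IsAlgClosed K]

open Polynomial in
/-- Over an algebraically closed field the 2-division cubic splits. -/
theorem ff83_exists_roots (W : WeierstrassCurve K) (h2 : (2 : K) ≠ 0) :
    ∃ e1 e2 e3 : K, W.b₂ = -4 * (e1 + e2 + e3) ∧
      W.b₄ = 2 * (e1 * e2 + e1 * e3 + e2 * e3) ∧ W.b₆ = -4 * (e1 * e2 * e3) := by
  have h4 : (4 : K) ≠ 0 := by
    have : (4 : K) = 2 ^ 2 := by norm_num
    rw [this]
    exact pow_ne_zero _ h2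
  obtain ⟨e1, he1⟩ := IsAlgClosed.exists_root
    (C (4 : K) * X ^ 3 + C W.b₂ * X ^ 2 + C (2 * W.b₄) * X + C W.b₆)
    (by rw [degree_cubic h4]; decide)
  obtain ⟨e2, he2⟩ := IsAlgClosed.exists_root
    (C (4 : K) * X ^ 2 + C (W.b₂ + 4 * e1) * X + C (2 * W.b₄ + W.b₂ * e1 + 4 * e1 ^ 2))
    (by rw [degree_quadratic h4]; decide)
  simp only [IsRoot.def, eval_add, eval_mul, eval_C, eval_pow, eval_X] at he1 he2
  refine ⟨e1, e2, -(W.b₂ + 4 * e1) / 4 - e2, ?_, ?_, ?_⟩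
  · field_simp
    ring
  · field_simp
    linear_combination 2 * he2
  · field_simp
    linear_combination he1 - e1 * he2

/-- **Existence of a Frey form** over an algebraically closed field with `2 ≠ 0`. -/
theorem ff83_exists_frey (W : WeierstrassCurve K) (h2 : (2 : K) ≠ 0) (hΔ : W.Δ ≠ 0) :
    ∃ (C : VariableChange K) (A B : K), IsFreyModel (C • W) A B ∧ A ≠ 0 ∧ B ≠ 0 ∧ A + B ≠ 0 := by
  obtain ⟨e1, e2, e3, hs1, hs2, hs3⟩ := ff83_exists_roots W h2
  obtain ⟨hA, hB, hAB⟩ := ff83_params_ne_zero W h2 e1 e2 e3 hs1 hs2 hs3 hΔ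
  exact ⟨ff83_vc W e1, 4 * (e2 - e1), 4 * (e1 - e3),
    ff83_isFreyModel W h2 e1 e2 e3 hs1 hs2 hs3, hA, hB, hAB⟩

end Exists

end Fermat.Agent.S41
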