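/-
S41 / M5 (F3, transfer layer; helper82): Frey form of a Weierstrass curve over a valuation
subring, simultaneously for the fraction field and for the residue field.

* `fv82_mem_of_cubic`     : a root of a cubic with coefficients in a valuation subring `A` and
                            unit leading coefficient lies in `A`;
* `fv82_exists_roots`     : `L` algebraically closed, `W` over `A ≤ L` with `2` and `Δ` units:
                            the roots `e₁ e₂ e₃` of the 2-torsion cubic lie in `A`, satisfy the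
                            Vieta identities in `A`, and `4(e₂-e₁)`, `4(e₁-e₃)`, `4(e₂-e₃)` are
                            units of `A`;
* `fv82_isFreyModel_map`  : for every ring hom `φ : R →+* F` into a field with `2 ≠ 0` the curve
                            `W.map φ` is brought to the Frey model with parameters
                            `4(φe₂-φe₁)`, `4(φe₁-φe₃)` by the change of variables
                            `⟨1, φ e₁, (1 - a₁)/2, -(a₃ + φ e₁ a₁)/2⟩`.
-/
import Mathlib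
import Fermat.Agent.S41.TorsCardE82

set_option autoImplicit false

namespace Fermat.Agent.S41

open WeierstrassCurve

section Cubic

variable {L : Type*} [Field L]

/-- A root of a cubic over a valuation subring with unit leading coefficient is integral. -/
theorem fv82_mem_of_cubic (A : ValuationSubring L) (r : L) (a b c d : A) (ha : IsUnit a)
    (hr : (a : L) * r ^ 3 + (b : L) * r ^ 2 + (c : L) * r + (d : L) = 0) : r ∈ A := by
  by_contra hrA
  have hs : r⁻¹ ∈ A := (A.mem_or_inv_mem r).resolve_left hrA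
  have hr0 : r ≠ 0 := by
    rintro rfl
    exact hrA A.zero_mem
  have key : a = (⟨r⁻¹, hs⟩ : A) * -(b + c * ⟨r⁻¹, hs⟩ + d * ⟨r⁻¹, hs⟩ ^ 2) := by
    apply Subtype.ext
    push_cast
    field_simp
    linear_combination hr
  rw [key] at ha
  obtain ⟨u, hu⟩ := isUnit_of_mul_isUnit_left ha
  have h1 : ((↑(u⁻¹) : A) : L) * r⁻¹ = 1 := by
    have h := congrArg (Subtype.val) (Units.inv_mul u)
    rw [hu] at h
    simpa using h
  have h2 : ((↑(u⁻¹) : A) : L) = r := by
    field_simp at h1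
    exact h1
  exact hrA (h2 ▸ (↑(u⁻¹) : A).2)

end Cubic

section Roots

variable {L : Type*} [Field L] [IsAlgClosed L]

/-- Integral roots of the 2-torsion cubic, with unit differences. -/
theorem fv82_exists_roots (A : ValuationSubring L) (W : WeierstrassCurve A)
    (h2 : IsUnit (2 : A)) (hΔ : IsUnit W.Δ) :
    ∃ e1 e2 e3 : A, W.b₂ = 4 * -(e1 + e2 + e3) ∧
      2 * W.b₄ = 4 * (e1 * e2 + e1 * e3 + e2 * e3) ∧ W.b₆ = 4 * -(e1 * e2 * e3) ∧
      IsUnit (4 * (e2 - e1)) ∧ IsUnit (4 * (e1 - e3)) ∧ IsUnit (4 * (e2 - e3)) := by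
  have h4 : IsUnit (4 : A) := by
    have : (4 : A) = 2 * 2 := by norm_num
    rw [this]
    exact h2.mul h2
  have c4 : ((4 : A) : L) = 4 := rfl
  have c2 : ((2 : A) : L) = 2 := rfl
  have h4L : (4 : L) ≠ 0 := by
    have := (h4.map A.subtype).ne_zero
    rw [ValuationSubring.subtype_apply, c4] at this
    exact this
  have ha : (W.map A.subtype).twoTorsionPolynomial.a ≠ 0 := h4L
  have hsplit : ((W.map A.subtype).twoTorsionPolynomial.toPoly.map (RingHom.id L)).Splits :=
    IsAlgClosed.splits _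
  obtain ⟨x, y, z, h3⟩ := (Cubic.splits_iff_roots_eq_three ha).mp hsplit
  have hb : ((W.b₂ : A) : L) = 4 * -(x + y + z) := by
    have := Cubic.b_eq_three_roots ha h3
    simpa [twoTorsionPolynomial] using this
  have hc : 2 * ((W.b₄ : A) : L) = 4 * (x * y + x * z + y * z) := by
    have := Cubic.c_eq_three_roots ha h3
    simpa [twoTorsionPolynomial] using this
  have hd : ((W.b₆ : A) : L) = 4 * -(x * y * z) := by
    have := Cubic.d_eq_three_roots ha h3
    simpa [twoTorsionPolynomial] using this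
  have hx : x ∈ A := fv82_mem_of_cubic A x 4 W.b₂ (2 * W.b₄) W.b₆ h4 (by
    push_cast
    rw [c4, c2]
    linear_combination x ^ 2 * hb + x * hc + hd)
  have hy : y ∈ A := fv82_mem_of_cubic A y 4 W.b₂ (2 * W.b₄) W.b₆ h4 (by
    push_cast
    rw [c4, c2]
    linear_combination y ^ 2 * hb + y * hc + hd)
  have hz : z ∈ A := fv82_mem_of_cubic A z 4 W.b₂ (2 * W.b₄) W.b₆ h4 (by
    push_cast
    rw [c4, c2]
    linear_combination z ^ 2 * hb + z * hc + hd)
  have hb2 : W.b₂ = 4 * -((⟨x, hx⟩ : A) + ⟨y, hy⟩ + ⟨z, hz⟩) := by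
    apply Subtype.ext
    push_cast
    rw [c4]
    exact hb
  have hb4 : 2 * W.b₄ = 4 * ((⟨x, hx⟩ : A) * ⟨y, hy⟩ + ⟨x, hx⟩ * ⟨z, hz⟩ + ⟨y, hy⟩ * ⟨z, hz⟩) := by
    apply Subtype.ext
    push_cast
    rw [c4, c2]
    exact hc
  have hb6 : W.b₆ = 4 * -((⟨x, hx⟩ : A) * ⟨y, hy⟩ * ⟨z, hz⟩) := by
    apply Subtype.ext
    push_cast
    rw [c4]
    exact hd
  refine ⟨⟨x, hx⟩, ⟨y, hy⟩, ⟨z, hz⟩, hb2, hb4, hb6, ?_⟩
  generalize (⟨x, hx⟩ : A) = e1 at hb2 hb4 hb6 ⊢
  generalize (⟨y, hy⟩ : A) = e2 at hb2 hb4 hb6 ⊢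
  generalize (⟨z, hz⟩ : A) = e3 at hb2 hb4 hb6 ⊢
  have h16 : IsUnit (16 : A) := by
    have : (16 : A) = 4 * 4 := by norm_num
    rw [this]
    exact h4.mul h4
  have hD : (16 : A) * W.Δ = 256 * ((e1 - e2) * (e1 - e3) * (e2 - e3)) ^ 2 := by
    rw [← twoTorsionPolynomial_discr]
    simp only [Cubic.discr, twoTorsionPolynomial]
    rw [hb2, hb4, hb6]
    ring
  have hU : IsUnit ((16 : A) * W.Δ) := h16.mul hΔ
  refine ⟨?_, ?_, ?_⟩
  · refine isUnit_of_mul_isUnit_left (y := 64 * (e2 - e1) * ((e1 - e3) * (e2 - e3)) ^ 2) ?_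
    have : 4 * (e2 - e1) * (64 * (e2 - e1) * ((e1 - e3) * (e2 - e3)) ^ 2) = 16 * W.Δ := by
      rw [hD]; ring
    rw [this]
    exact hU
  · refine isUnit_of_mul_isUnit_left (y := 64 * (e1 - e3) * ((e1 - e2) * (e2 - e3)) ^ 2) ?_
    have : 4 * (e1 - e3) * (64 * (e1 - e3) * ((e1 - e2) * (e2 - e3)) ^ 2) = 16 * W.Δ := by
      rw [hD]; ring
    rw [this]
    exact hU
  · refine isUnit_of_mul_isUnit_left (y := 64 * (e2 - e3) * ((e1 - e2) * (e1 - e3)) ^ 2) ?_
    have : 4 * (e2 - e3) * (64 * (e2 - e3) * ((e1 - e2) * (e1 - e3)) ^ 2) = 16 * W.Δ := by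
      rw [hD]; ring
    rw [this]
    exact hU

end Roots

section Map

variable {R F : Type*} [CommRing R] [Field F]

/-- The Frey form after mapping along any ring hom into a field with `2 ≠ 0`. -/
theorem fv82_isFreyModel_map (W : WeierstrassCurve R) (φ : R →+* F) (h2 : (2 : F) ≠ 0)
    (e1 e2 e3 : R) (hb2 : W.b₂ = 4 * -(e1 + e2 + e3))
    (hb4 : 2 * W.b₄ = 4 * (e1 * e2 + e1 * e3 + e2 * e3)) (hb6 : W.b₆ = 4 * -(e1 * e2 * e3)) :
    Fermat.Agent.S05.IsFreyModel
      ((⟨1, φ e1, (1 - (W.map φ).a₁) / 2, -((W.map φ).a₃ + φ e1 * (W.map φ).a₁) / 2⟩ :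
        VariableChange F) • W.map φ)
      (4 * (φ e2 - φ e1)) (4 * (φ e1 - φ e3)) := by
  apply tc82_isFreyModel (W.map φ) h2 (φ e1) (φ e2) (φ e3)
  · rw [map_b₂, hb2, map_mul, map_neg, map_add, map_add, map_ofNat]
  · have := congrArg φ hb4
    rw [map_mul, map_mul, map_add, map_add, map_mul, map_mul, map_mul, map_ofNat, map_ofNat]
      at this
    rw [map_b₄]
    exact this
  · rw [map_b₆, hb6, map_mul, map_neg, map_mul, map_mul, map_ofNat]

end Map

end Fermat.Agent.S41
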