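/-
S41 / M5.FB (helper24): hypothesis-free Frobenius bridge = `FrobBridge24` fed with helper8's
finite-level Frobenius existence theorem `fe8_exists_frob_coe` (`FrobExist8`).
-/
import Fermat.Agent.S41.FrobBridge24
import Fermat.Agent.S41.FrobExist8

set_option autoImplicit false

namespace Fermat.Agent.S41

/-- The input of the bridge holds (helper8, `fe8_exists_frob_coe`). -/
theorem fb24_input : fb24_Input :=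
  fun K _ _ _ σ S => fe8_exists_frob_coe K σ S

/-- **Frobenius elements in `Gal(ℚ̄/ℚ)`, valuation-subring form.**  For every finite set
`s ⊆ ℚ̄`, every `σ ∈ Gal(ℚ̄/ℚ)` fixing the `m`-th roots of unity and every finite set `S` of
primes there are a prime `ℓ ∉ S` with `ℓ ≡ 1 mod m`, a valuation subring `A` of `ℚ̄` over `ℓ`,
`τ ∈ Gal(ℚ̄/ℚ)` and a subfield `K₀ ∋ s` (stable under `Gal(ℚ̄/ℚ)`) such that `τ x ≡ x ^ ℓ` modulo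
the maximal ideal of `A` for all `x ∈ A ∩ K₀`, `σ = τ ^ j` on `K₀` and `τ = σ ^ i` on `K₀`. -/
theorem fb24_frob_exists_both (s : Finset (AlgebraicClosure ℚ)) (m : ℕ) (hm : 0 < m)
    (σ : AlgebraicClosure ℚ ≃ₐ[ℚ] AlgebraicClosure ℚ)
    (hσ : ∀ ζ : AlgebraicClosure ℚ, ζ ^ m = 1 → σ ζ = ζ) (S : Finset ℕ) :
    ∃ (ℓ : ℕ) (A : ValuationSubring (AlgebraicClosure ℚ))
      (τ : AlgebraicClosure ℚ ≃ₐ[ℚ] AlgebraicClosure ℚ)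
      (K₀ : IntermediateField ℚ (AlgebraicClosure ℚ)),
      ℓ.Prime ∧ ℓ ∉ S ∧ ℓ ≡ 1 [MOD m] ∧ A.LiesOverPrime ℓ ∧ (∀ x ∈ s, x ∈ K₀) ∧
      (∀ x ∈ K₀, x ∈ A → τ x - x ^ ℓ ∈ A.nonunits) ∧
      (∃ j : ℕ, ∀ x ∈ K₀, σ x = (τ ^ j) x) ∧ (∃ i : ℕ, ∀ x ∈ K₀, τ x = (σ ^ i) x) ∧
      (∀ ρ : AlgebraicClosure ℚ ≃ₐ[ℚ] AlgebraicClosure ℚ, ∀ x ∈ K₀, ρ x ∈ K₀) :=
  fb24_exists_both fb24_input s m hm σ hσ S

/-- Short form of `fb24_frob_exists_both`. -/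
theorem fb24_frob_exists (s : Finset (AlgebraicClosure ℚ)) (m : ℕ) (hm : 0 < m)
    (σ : AlgebraicClosure ℚ ≃ₐ[ℚ] AlgebraicClosure ℚ)
    (hσ : ∀ ζ : AlgebraicClosure ℚ, ζ ^ m = 1 → σ ζ = ζ) (S : Finset ℕ) :
    ∃ (ℓ : ℕ) (A : ValuationSubring (AlgebraicClosure ℚ))
      (τ : AlgebraicClosure ℚ ≃ₐ[ℚ] AlgebraicClosure ℚ)
      (K₀ : IntermediateField ℚ (AlgebraicClosure ℚ)),
      ℓ.Prime ∧ ℓ ∉ S ∧ ℓ ≡ 1 [MOD m] ∧ A.LiesOverPrime ℓ ∧ (∀ x ∈ s, x ∈ K₀) ∧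
      (∀ x ∈ K₀, x ∈ A → τ x - x ^ ℓ ∈ A.nonunits) ∧
      (∃ j : ℕ, ∀ x ∈ K₀, σ x = (τ ^ j) x) :=
  fb24_exists fb24_input s m hm σ hσ S

end Fermat.Agent.S41
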