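import Fermat.Agent.S14.KummerBad
import Fermat.Agent.S14.Density

set_option autoImplicit false
set_option linter.unusedSectionVars false
set_option linter.style.haveILetI false

open NumberField IsDedekindDomain
open scoped Pointwise

namespace Fermat.Agent.S41

open Fermat.Agent.S14

section general

variable {F : Type*} [Field F] [NumberField F]

/-- Fermat's little theorem in the residue field of a prime of a number field. -/
theorem fe8_pow_absNorm_sub_mem (v : HeightOneSpectrum (𝓞 F)) (x : 𝓞 F) :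
    x ^ Ideal.absNorm v.asIdeal - x ∈ v.asIdeal := by
  classical
  letI : Field (𝓞 F ⧸ v.asIdeal) := Ideal.Quotient.field v.asIdeal
  letI : Fintype (𝓞 F ⧸ v.asIdeal) := Fintype.ofFinite _
  have h := FiniteField.pow_card (Ideal.Quotient.mk v.asIdeal x)
  have hc : Fintype.card (𝓞 F ⧸ v.asIdeal) = Ideal.absNorm v.asIdeal := by
    rw [Ideal.absNorm_apply, Submodule.cardQuot_apply, Nat.card_eq_fintype_card]
  rw [hc] at h
  rw [← Ideal.Quotient.eq_zero_iff_mem, map_sub, map_pow, h, sub_self]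

/-- If every residue class satisfies `x ^ m = x` with `2 ≤ m`, the residue field has at most `m`
elements. -/
theorem fe8_absNorm_le_of_pow_sub_mem (v : HeightOneSpectrum (𝓞 F)) {m : ℕ} (hm : 2 ≤ m)
    (h : ∀ x : 𝓞 F, x ^ m - x ∈ v.asIdeal) : Ideal.absNorm v.asIdeal ≤ m := by
  classical
  letI : Field (𝓞 F ⧸ v.asIdeal) := Ideal.Quotient.field v.asIdeal
  letI : Fintype (𝓞 F ⧸ v.asIdeal) := Fintype.ofFinite _
  have hc : Fintype.card (𝓞 F ⧸ v.asIdeal) = Ideal.absNorm v.asIdeal := by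
    rw [Ideal.absNorm_apply, Submodule.cardQuot_apply, Nat.card_eq_fintype_card]
  rw [← hc]
  have hne : (Polynomial.X ^ m - Polynomial.X : Polynomial (𝓞 F ⧸ v.asIdeal)) ≠ 0 :=
    FiniteField.X_pow_card_sub_X_ne_zero _ (by omega)
  have hsub : (Finset.univ : Finset (𝓞 F ⧸ v.asIdeal)).val ⊆
      (Polynomial.X ^ m - Polynomial.X : Polynomial (𝓞 F ⧸ v.asIdeal)).roots := by
    intro y _
    obtain ⟨x, rfl⟩ := Ideal.Quotient.mk_surjective y
    rw [Polynomial.mem_roots hne, Polynomial.IsRoot, Polynomial.eval_sub, Polynomial.eval_pow,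
      Polynomial.eval_X, ← map_pow, ← map_sub, Ideal.Quotient.eq_zero_iff_mem]
    exact h x
  have h1 := Polynomial.card_le_degree_of_subset_roots hsub
  rw [FiniteField.X_pow_card_sub_X_natDegree_eq _ (by omega)] at h1
  simpa using h1

end general

section frob

variable (K : Type*) [Field K] [NumberField K] [IsGalois ℚ K]

/-- The Frobenius element of `Gal(K/ℚ)` at a prime of `K`. -/
noncomputable def fe8_frob (v : HeightOneSpectrum (𝓞 K)) : K ≃ₐ[ℚ] K :=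
  arithFrobAt ℤ (K ≃ₐ[ℚ] K) v.asIdeal

theorem fe8_card_quot (v : HeightOneSpectrum (𝓞 K)) :
    Nat.card (ℤ ⧸ v.asIdeal.under ℤ) = h25_rp v := by
  rw [h25_rp, Ideal.absNorm_apply, Submodule.cardQuot_apply]

theorem fe8_frob_spec (v : HeightOneSpectrum (𝓞 K)) (x : 𝓞 K) :
    fe8_frob K v • x - x ^ (h25_rp v) ∈ v.asIdeal := by
  have h := IsArithFrobAt.arithFrobAt (R := ℤ) (G := K ≃ₐ[ℚ] K) (Q := v.asIdeal)
  have h2 := h x
  rw [fe8_card_quot] at h2
  exact h2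

variable {K}

/-- An element acting as `x ↦ x ^ ℓ` modulo the prime preserves the prime. -/
theorem fe8_smul_mem_of_spec (v : HeightOneSpectrum (𝓞 K)) (τ : K ≃ₐ[ℚ] K)
    (hτ : ∀ x : 𝓞 K, τ • x - x ^ (h25_rp v) ∈ v.asIdeal) {z : 𝓞 K} (hz : z ∈ v.asIdeal) :
    τ • z ∈ v.asIdeal := by
  have h1 := hτ z
  have h2 : z ^ (h25_rp v) ∈ v.asIdeal :=
    Ideal.pow_mem_of_mem _ hz _ (h25_rp_prime v).pos
  have := Ideal.add_mem _ h1 h2
  simpa using this

theorem fe8_pow_spec (v : HeightOneSpectrum (𝓞 K)) (τ : K ≃ₐ[ℚ] K)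
    (hτ : ∀ x : 𝓞 K, τ • x - x ^ (h25_rp v) ∈ v.asIdeal) (j : ℕ) (x : 𝓞 K) :
    (τ ^ j) • x - x ^ ((h25_rp v) ^ j) ∈ v.asIdeal := by
  induction j generalizing x with
  | zero => simp
  | succ j ih =>
    have h1 : τ • ((τ ^ j) • x - x ^ ((h25_rp v) ^ j)) ∈ v.asIdeal :=
      fe8_smul_mem_of_spec v τ hτ (ih x)
    have h2 := hτ (x ^ ((h25_rp v) ^ j))
    have h3 := Ideal.add_mem _ h1 h2
    have e : τ • ((τ ^ j) • x - x ^ ((h25_rp v) ^ j)) +
        (τ • (x ^ ((h25_rp v) ^ j)) - (x ^ ((h25_rp v) ^ j)) ^ (h25_rp v)) =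
        (τ ^ (j + 1)) • x - x ^ ((h25_rp v) ^ (j + 1)) := by
      rw [smul_sub, pow_succ' τ j, mul_smul, ← pow_mul, pow_succ]
      ring
    rwa [e] at h3

/-- Uniqueness of the Frobenius at a prime with trivial inertia. -/
theorem fe8_frob_unique (v : HeightOneSpectrum (𝓞 K))
    (hv : Ideal.inertia (K ≃ₐ[ℚ] K) v.asIdeal = ⊥) (τ : K ≃ₐ[ℚ] K)
    (hτ : ∀ x : 𝓞 K, τ • x - x ^ (h25_rp v) ∈ v.asIdeal) : τ = fe8_frob K v := by
  have hmem : τ * (fe8_frob K v)⁻¹ ∈ Ideal.inertia (K ≃ₐ[ℚ] K) v.asIdeal := by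
    intro x
    set y := (fe8_frob K v)⁻¹ • x with hy
    have h1 := hτ y
    have h2 := fe8_frob_spec K v y
    have h3 := Ideal.sub_mem _ h1 h2
    have e : τ • y - y ^ h25_rp v - (fe8_frob K v • y - y ^ h25_rp v) =
        (τ * (fe8_frob K v)⁻¹) • x - x := by
      rw [hy, mul_smul, smul_inv_smul]
      ring
    rwa [e] at h3
  rw [hv, Subgroup.mem_bot] at hmem
  exact mul_inv_eq_one.mp hmem


variable (K)

/-- Away from a fixed nonzero element, all inertia groups are trivial. -/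
theorem fe8_exists_disc : ∃ d : 𝓞 K, d ≠ 0 ∧ ∀ v : HeightOneSpectrum (𝓞 K), d ∉ v.asIdeal →
    Ideal.inertia (K ≃ₐ[ℚ] K) v.asIdeal = ⊥ := by
  classical
  letI : Fintype (K ≃ₐ[ℚ] K) := Fintype.ofFinite _
  have hfaith : FaithfulSMul (K ≃ₐ[ℚ] K) (𝓞 K) :=
    (inferInstance : IsGaloisGroup (K ≃ₐ[ℚ] K) ℤ (𝓞 K)).faithful
  have h1 : ∀ g : K ≃ₐ[ℚ] K, ∃ x : 𝓞 K, g ≠ 1 → g • x ≠ x := by
    intro g
    by_cases hg : g = 1
    · exact ⟨0, fun h => absurd hg h⟩
    · have : ∃ x : 𝓞 K, g • x ≠ x := by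
        by_contra hcon
        push Not at hcon
        exact hg (hfaith.eq_of_smul_eq_smul fun x => by rw [hcon x, one_smul])
      obtain ⟨x, hx⟩ := this
      exact ⟨x, fun _ => hx⟩
  choose x hx using h1
  refine ⟨∏ g ∈ (Finset.univ.erase (1 : K ≃ₐ[ℚ] K)), (g • x g - x g), ?_, ?_⟩
  · rw [Finset.prod_ne_zero_iff]
    intro g hg
    exact sub_ne_zero.mpr (hx g (Finset.ne_of_mem_erase hg))
  · intro v hv
    rw [Subgroup.eq_bot_iff_forall]
    intro g hg
    by_contra hne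
    apply hv
    have hmem : g • x g - x g ∈ v.asIdeal := hg (x g)
    have hdvd : (g • x g - x g) ∣ ∏ g ∈ (Finset.univ.erase (1 : K ≃ₐ[ℚ] K)), (g • x g - x g) :=
      Finset.dvd_prod_of_mem _ (Finset.mem_erase.mpr ⟨hne, Finset.mem_univ g⟩)
    exact Ideal.mem_of_dvd _ hdvd hmem

variable {K}

/-- At a prime with trivial inertia the Frobenius has order the residue degree. -/
theorem fe8_orderOf_frob (v : HeightOneSpectrum (𝓞 K))
    (hv : Ideal.inertia (K ≃ₐ[ℚ] K) v.asIdeal = ⊥) :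
    orderOf (fe8_frob K v) = v.asIdeal.inertiaDeg ℤ := by
  have hN := h25_absNorm_eq v
  have hℓ := h25_rp_prime v
  have hf : 0 < v.asIdeal.inertiaDeg ℤ := Ideal.inertiaDeg_pos _ _
  -- `φ ^ f = 1`
  have h1 : (fe8_frob K v) ^ (v.asIdeal.inertiaDeg ℤ) = 1 := by
    have hmem : (fe8_frob K v) ^ (v.asIdeal.inertiaDeg ℤ) ∈
        Ideal.inertia (K ≃ₐ[ℚ] K) v.asIdeal := by
      intro x
      have a := fe8_pow_spec v (fe8_frob K v) (fe8_frob_spec K v) (v.asIdeal.inertiaDeg ℤ) x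
      have b := fe8_pow_absNorm_sub_mem v x
      rw [hN] at a
      have := Ideal.add_mem _ a b
      simpa using this
    rw [hv, Subgroup.mem_bot] at hmem
    exact hmem
  have hdvd : orderOf (fe8_frob K v) ∣ v.asIdeal.inertiaDeg ℤ := orderOf_dvd_of_pow_eq_one h1
  have hj : 0 < orderOf (fe8_frob K v) := orderOf_pos _
  -- `f ≤ orderOf φ`
  have hle : v.asIdeal.inertiaDeg ℤ ≤ orderOf (fe8_frob K v) := by
    have h2 : ∀ x : 𝓞 K, x ^ ((h25_rp v) ^ orderOf (fe8_frob K v)) - x ∈ v.asIdeal := by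
      intro x
      have a := fe8_pow_spec v (fe8_frob K v) (fe8_frob_spec K v) (orderOf (fe8_frob K v)) x
      rw [pow_orderOf_eq_one, one_smul] at a
      have := Ideal.neg_mem_iff _ |>.mpr a
      simpa using this
    have h3 : 2 ≤ (h25_rp v) ^ orderOf (fe8_frob K v) :=
      le_trans hℓ.two_le (Nat.le_self_pow hj.ne' _)
    have h4 := fe8_absNorm_le_of_pow_sub_mem v h3 h2
    rw [← hN] at h4
    exact (Nat.pow_le_pow_iff_right hℓ.one_lt).mp h4
  exact Nat.le_antisymm (Nat.le_of_dvd hf hdvd) hle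

theorem fe8_frob_mem_stabilizer (v : HeightOneSpectrum (𝓞 K)) :
    fe8_frob K v ∈ MulAction.stabilizer (K ≃ₐ[ℚ] K) v.asIdeal :=
  (IsArithFrobAt.arithFrobAt (R := ℤ) (G := K ≃ₐ[ℚ] K) (Q := v.asIdeal)).mem_stabilizer

/-- At a prime with trivial inertia the decomposition group is generated by the Frobenius. -/
theorem fe8_stabilizer_eq (v : HeightOneSpectrum (𝓞 K))
    (hv : Ideal.inertia (K ≃ₐ[ℚ] K) v.asIdeal = ⊥) :
    MulAction.stabilizer (K ≃ₐ[ℚ] K) v.asIdeal = Subgroup.zpowers (fe8_frob K v) := by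
  have hle : Subgroup.zpowers (fe8_frob K v) ≤ MulAction.stabilizer (K ≃ₐ[ℚ] K) v.asIdeal := by
    rw [Subgroup.zpowers_le]
    exact fe8_frob_mem_stabilizer v
  have h1 : Nat.card (MulAction.stabilizer (K ≃ₐ[ℚ] K) v.asIdeal) =
      (v.asIdeal.under ℤ).ramificationIdxIn (𝓞 K) * (v.asIdeal.under ℤ).inertiaDegIn (𝓞 K) :=
    Ideal.card_stabilizer_eq (v.asIdeal.under ℤ) v.asIdeal
  have h2 : Nat.card (Ideal.inertia (K ≃ₐ[ℚ] K) v.asIdeal) =
      (v.asIdeal.under ℤ).ramificationIdxIn (𝓞 K) :=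
    Ideal.card_inertia_eq_ramificationIdxIn (v.asIdeal.under ℤ) v.asIdeal
  have h3 : (v.asIdeal.under ℤ).inertiaDegIn (𝓞 K) = v.asIdeal.inertiaDeg ℤ :=
    Ideal.inertiaDegIn_eq_inertiaDeg (v.asIdeal.under ℤ) v.asIdeal (K ≃ₐ[ℚ] K)
  rw [← h2, h3, hv, Subgroup.card_bot, one_mul, ← fe8_orderOf_frob v hv] at h1
  refine (Subgroup.eq_of_le_of_card_ge hle ?_).symm
  rw [h1, Nat.card_zpowers]


section below

variable (F : IntermediateField ℚ K)

/-- The prime of the intermediate field `F` below a prime of `K`. -/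
noncomputable def fe8_below (v : HeightOneSpectrum (𝓞 K)) : HeightOneSpectrum (𝓞 F) where
  asIdeal := v.asIdeal.under (𝓞 F)
  isPrime := inferInstance
  ne_bot := fun h => v.ne_bot (Ideal.eq_bot_of_comap_eq_bot (R := 𝓞 F) h)

theorem fe8_below_asIdeal (v : HeightOneSpectrum (𝓞 K)) :
    (fe8_below F v).asIdeal = v.asIdeal.under (𝓞 F) := rfl

theorem fe8_rp_below (v : HeightOneSpectrum (𝓞 K)) : h25_rp (fe8_below F v) = h25_rp v := by
  unfold h25_rp
  rw [fe8_below_asIdeal, Ideal.under_under]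

theorem fe8_smul_algebraMap_of_mem (g : K ≃ₐ[ℚ] K)
    (hg : g ∈ fixingSubgroup (K ≃ₐ[ℚ] K) ((F : IntermediateField ℚ K) : Set K)) (y : 𝓞 F) :
    g • (algebraMap (𝓞 F) (𝓞 K) y) = algebraMap (𝓞 F) (𝓞 K) y := by
  apply RingOfIntegers.ext
  have h1 := (mem_fixingSubgroup_iff (K ≃ₐ[ℚ] K)).mp hg ((y : F) : K) (y : F).2
  exact h1

/-- If the Frobenius fixes `F`, the prime below has degree one. -/
theorem fe8_absNorm_below_of_frob_mem (v : HeightOneSpectrum (𝓞 K))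
    (h : fe8_frob K v ∈ fixingSubgroup (K ≃ₐ[ℚ] K) ((F : IntermediateField ℚ K) : Set K)) :
    Ideal.absNorm (fe8_below F v).asIdeal = h25_rp v := by
  have hℓ := h25_rp_prime v
  have hN := h25_absNorm_eq (fe8_below F v)
  rw [fe8_rp_below] at hN
  have hf : 0 < (fe8_below F v).asIdeal.inertiaDeg ℤ := Ideal.inertiaDeg_pos _ _
  have h1 : ∀ y : 𝓞 F, y ^ (h25_rp v) - y ∈ (fe8_below F v).asIdeal := by
    intro y
    rw [fe8_below_asIdeal, Ideal.under_def, Ideal.mem_comap, map_sub, map_pow]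
    have a := fe8_frob_spec K v (algebraMap (𝓞 F) (𝓞 K) y)
    rw [fe8_smul_algebraMap_of_mem F _ h y] at a
    have := Ideal.neg_mem_iff _ |>.mpr a
    simpa using this
  have h2 := fe8_absNorm_le_of_pow_sub_mem (fe8_below F v) hℓ.two_le h1
  refine le_antisymm h2 ?_
  rw [← hN]
  exact Nat.le_self_pow hf.ne' _

/-- The Galois group structure of `Gal(K/F)` on the rings of integers. -/
theorem fe8_isGaloisGroup :
    IsGaloisGroup (fixingSubgroup (K ≃ₐ[ℚ] K) ((F : IntermediateField ℚ K) : Set K)) (𝓞 F) (𝓞 K) :=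
  IsGaloisGroup.of_isFractionRing
    (fixingSubgroup (K ≃ₐ[ℚ] K) ((F : IntermediateField ℚ K) : Set K)) (𝓞 F) (𝓞 K) F K

/-- If the prime below has degree one (and the inertia is trivial), the Frobenius fixes `F`. -/
theorem fe8_frob_mem_of_absNorm_below (v : HeightOneSpectrum (𝓞 K))
    (hv : Ideal.inertia (K ≃ₐ[ℚ] K) v.asIdeal = ⊥)
    (h : Ideal.absNorm (fe8_below F v).asIdeal = h25_rp v) :
    fe8_frob K v ∈ fixingSubgroup (K ≃ₐ[ℚ] K) ((F : IntermediateField ℚ K) : Set K) := by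
  haveI := fe8_isGaloisGroup (K := K) F
  obtain ⟨τ, hτ⟩ := IsArithFrobAt.exists_of_isInvariant (𝓞 F)
    (fixingSubgroup (K ≃ₐ[ℚ] K) ((F : IntermediateField ℚ K) : Set K)) v.asIdeal
  have hc : Nat.card (𝓞 F ⧸ v.asIdeal.under (𝓞 F)) = h25_rp v := by
    rw [← h, fe8_below_asIdeal, Ideal.absNorm_apply, Submodule.cardQuot_apply]
  have h1 : ∀ x : 𝓞 K, (τ : K ≃ₐ[ℚ] K) • x - x ^ (h25_rp v) ∈ v.asIdeal := by
    intro x
    have := hτ x
    rw [hc] at this
    exact this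
  rw [← fe8_frob_unique v hv (τ : K ≃ₐ[ℚ] K) h1]
  exact τ.2


/-- Orbit–stabiliser at a prime whose Frobenius fixes `F`. -/
theorem fe8_fib (v : HeightOneSpectrum (𝓞 K))
    (hv : Ideal.inertia (K ≃ₐ[ℚ] K) v.asIdeal = ⊥)
    (h : fe8_frob K v ∈ fixingSubgroup (K ≃ₐ[ℚ] K) ((F : IntermediateField ℚ K) : Set K)) :
    ((fe8_below F v).asIdeal.primesOver (𝓞 K)).ncard * orderOf (fe8_frob K v) =
      Nat.card (fixingSubgroup (K ≃ₐ[ℚ] K) ((F : IntermediateField ℚ K) : Set K)) := by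
  classical
  haveI := fe8_isGaloisGroup (K := K) F
  set H := fixingSubgroup (K ≃ₐ[ℚ] K) ((F : IntermediateField ℚ K) : Set K) with hH
  haveI : v.asIdeal.LiesOver (fe8_below F v).asIdeal := ⟨rfl⟩
  have horb : MulAction.orbit H v.asIdeal = (fe8_below F v).asIdeal.primesOver (𝓞 K) :=
    Algebra.IsInvariant.orbit_eq_primesOver (𝓞 F) (𝓞 K) H (fe8_below F v).asIdeal v.asIdeal
  have hstab : MulAction.stabilizer H v.asIdeal =
      (MulAction.stabilizer (K ≃ₐ[ℚ] K) v.asIdeal).subgroupOf H := by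
    ext g
    rw [MulAction.mem_stabilizer_iff, Subgroup.mem_subgroupOf, MulAction.mem_stabilizer_iff]
    rfl
  have hle : MulAction.stabilizer (K ≃ₐ[ℚ] K) v.asIdeal ≤ H := by
    rw [fe8_stabilizer_eq v hv, Subgroup.zpowers_le]
    exact h
  have hcard : Nat.card (MulAction.stabilizer H v.asIdeal) = orderOf (fe8_frob K v) := by
    rw [hstab, Nat.card_congr (Subgroup.subgroupOfEquivOfLe hle).toEquiv, fe8_stabilizer_eq v hv,
      Nat.card_zpowers]
  have key := Nat.card_congr (MulAction.orbitProdStabilizerEquivGroup H v.asIdeal)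
  rw [Nat.card_prod, hcard, horb] at key
  rw [← key, Nat.card_coe_set_eq]

/-- The primes of `K` above a prime of `F`. -/
def fe8_fibre (𝔮 : HeightOneSpectrum (𝓞 F)) : Set (HeightOneSpectrum (𝓞 K)) :=
  {w | fe8_below F w = 𝔮}

theorem fe8_image_fibre (𝔮 : HeightOneSpectrum (𝓞 F)) :
    (fun w : HeightOneSpectrum (𝓞 K) => w.asIdeal) '' (fe8_fibre F 𝔮) =
      𝔮.asIdeal.primesOver (𝓞 K) := by
  ext P
  constructor
  · rintro ⟨w, hw, rfl⟩
    refine ⟨w.isPrime, ⟨?_⟩⟩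
    have : fe8_below F w = 𝔮 := hw
    rw [← this]
    rfl
  · rintro ⟨hP, hPq⟩
    have hne : P ≠ ⊥ := by
      intro hbot
      apply 𝔮.ne_bot
      rw [hPq.over, hbot]
      exact Ideal.under_bot _ _
    refine ⟨⟨P, hP, hne⟩, ?_, rfl⟩
    show fe8_below F ⟨P, hP, hne⟩ = 𝔮
    apply HeightOneSpectrum.ext
    rw [fe8_below_asIdeal]
    exact hPq.over.symm

theorem fe8_fibre_ncard (𝔮 : HeightOneSpectrum (𝓞 F)) :
    (fe8_fibre F 𝔮).ncard = (𝔮.asIdeal.primesOver (𝓞 K)).ncard := by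
  rw [← fe8_image_fibre F 𝔮]
  exact (Set.ncard_image_of_injective _ (fun a b hab => HeightOneSpectrum.ext hab)).symm

theorem fe8_fibre_finite (𝔮 : HeightOneSpectrum (𝓞 F)) : (fe8_fibre F 𝔮).Finite := by
  haveI := fe8_isGaloisGroup (K := K) F
  have h1 : (𝔮.asIdeal.primesOver (𝓞 K)).Finite := Algebra.QuasiFinite.finite_primesOver _
  rw [← fe8_image_fibre F 𝔮] at h1
  exact h1.of_finite_image (fun a _ b _ hab => HeightOneSpectrum.ext hab)

theorem fe8_fibre_nonempty (𝔮 : HeightOneSpectrum (𝓞 F)) : (fe8_fibre F 𝔮).Nonempty := by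
  haveI := 𝔮.isPrime
  obtain ⟨P, hP⟩ := (inferInstance : Nonempty (𝔮.asIdeal.primesOver (𝓞 K)))
  rw [← fe8_image_fibre F 𝔮] at hP
  obtain ⟨w, hw, -⟩ := hP
  exact ⟨w, hw⟩

end below

end frob

end Fermat.Agent.S41
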