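/-
S41 / M5.FB adapter (helper24): the Frobenius bridge `fb24_frob_exists_both` stated directly on
points of a Weierstrass curve over `ℚ̄` with the Prelude Galois action.

For a finite set `T` of points (e.g. the `p`-torsion) and `σ ∈ Gal(ℚ̄/ℚ)` fixing `μ_m`:
a prime `ℓ ∉ S`, `ℓ ≡ 1 mod m`, a valuation subring `A` over `ℓ` and `τ` such that
* `τ x ≡ x ^ ℓ` modulo the maximal ideal of `A` for all `x ∈ A` lying in the field of definition
  of `T` (phrased Galois-theoretically: `x` is fixed by every `g` fixing `T` pointwise), and for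
  all coordinates of points of `T`;
* `σ = τ ^ j` and `τ = σ ^ i` on `T`.
-/
import Fermat.Agent.S41.FrobBridgeMain24
import Fermat.Prelude.Def_FLTPrelim_GaloisRep

set_option autoImplicit false

open WeierstrassCurve WeierstrassCurve.Affine WeierstrassCurve.Affine.Point

namespace Fermat.Agent.S41

section Generic

variable {R S K : Type*} [CommRing R] [CommRing S] [Field K] [DecidableEq K]
  [Algebra R S] [Algebra R K] [Algebra S K] [IsScalarTower R S K] {W' : WeierstrassCurve.Affine R}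

/-- The coordinates of a point (empty for the point at infinity). -/
def fb24_coords {F : Type*} [CommRing F] [DecidableEq F] {V : WeierstrassCurve.Affine F} :
    V.Point → Finset F
  | .zero => ∅
  | .some x y _ => {x, y}

theorem fb24_coords_some {F : Type*} [CommRing F] [DecidableEq F] {V : WeierstrassCurve.Affine F}
    {x y : F} (h : V.Nonsingular x y) : fb24_coords (Point.some x y h) = {x, y} := rfl

theorem fb24_coords_zero {F : Type*} [CommRing F] [DecidableEq F] {V : WeierstrassCurve.Affine F} :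
    fb24_coords (0 : V.Point) = ∅ := rfl

/-- The Prelude Galois action on an affine point. -/
theorem fb24_smul_some (g : K ≃ₐ[S] K) {x y : K} (h : (W'⁄K).Nonsingular x y) :
    ∃ h' : (W'⁄K).Nonsingular (g x) (g y), g • Point.some x y h = Point.some (g x) (g y) h' :=
  ⟨_, Point.map_some g.toAlgHom h⟩

/-- Two Galois elements agreeing on the coordinates of `P` agree on `P`. -/
theorem fb24_smul_congr (g₁ g₂ : K ≃ₐ[S] K) (P : (W'⁄K).Point)
    (h : ∀ x ∈ fb24_coords P, g₁ x = g₂ x) : g₁ • P = g₂ • P := by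
  cases P with
  | zero => rfl
  | some x y hxy =>
    obtain ⟨h₁, e₁⟩ := fb24_smul_some g₁ hxy
    obtain ⟨h₂, e₂⟩ := fb24_smul_some g₂ hxy
    have hx : g₁ x = g₂ x := h x (by simp [fb24_coords_some])
    have hy : g₁ y = g₂ y := h y (by simp [fb24_coords_some])
    rw [e₁, e₂]
    simp only [Point.some.injEq]
    exact ⟨hx, hy⟩

/-- A Galois element fixing the coordinates of `P` fixes `P`. -/
theorem fb24_smul_eq_self (g : K ≃ₐ[S] K) (P : (W'⁄K).Point)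
    (h : ∀ x ∈ fb24_coords P, g x = x) : g • P = P := by
  have := fb24_smul_congr g 1 P (fun x hx => by simpa using h x hx)
  simpa using this

/-- A Galois element fixing `P` fixes the coordinates of `P`. -/
theorem fb24_apply_of_smul_eq_self (g : K ≃ₐ[S] K) (P : (W'⁄K).Point) (h : g • P = P) :
    ∀ x ∈ fb24_coords P, g x = x := by
  cases P with
  | zero => intro x hx; simp [fb24_coords] at hx
  | some x y hxy =>
    obtain ⟨h₁, e₁⟩ := fb24_smul_some g hxy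
    rw [e₁] at h
    simp only [Point.some.injEq] at h
    intro z hz
    simp only [fb24_coords_some, Finset.mem_insert, Finset.mem_singleton] at hz
    rcases hz with rfl | rfl
    · exact h.1
    · exact h.2

end Generic

section Main

variable {R : Type*} [CommRing R] [Algebra R ℚ] [Algebra R (AlgebraicClosure ℚ)]
  [@IsScalarTower R ℚ (AlgebraicClosure ℚ) Algebra.toSMul Algebra.toSMul Algebra.toSMul]
  {W' : WeierstrassCurve.Affine R}

/-- **Frobenius bridge on a finite set of points.** -/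
theorem fb24_frob_points (T : Set (W'⁄(AlgebraicClosure ℚ)).Point) (hT : T.Finite)
    (m : ℕ) (hm : 0 < m) (σ : AlgebraicClosure ℚ ≃ₐ[ℚ] AlgebraicClosure ℚ)
    (hσ : ∀ ζ : AlgebraicClosure ℚ, ζ ^ m = 1 → σ ζ = ζ) (S : Finset ℕ) :
    ∃ (ℓ : ℕ) (A : ValuationSubring (AlgebraicClosure ℚ))
      (τ : AlgebraicClosure ℚ ≃ₐ[ℚ] AlgebraicClosure ℚ),
      ℓ.Prime ∧ ℓ ∉ S ∧ ℓ ≡ 1 [MOD m] ∧ A.LiesOverPrime ℓ ∧
      (∀ x ∈ A, (∀ g : AlgebraicClosure ℚ ≃ₐ[ℚ] AlgebraicClosure ℚ,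
          (∀ P ∈ T, g • P = P) → g x = x) → τ x - x ^ ℓ ∈ A.nonunits) ∧
      (∀ P ∈ T, ∀ x ∈ fb24_coords P, x ∈ A → τ x - x ^ ℓ ∈ A.nonunits) ∧
      (∃ j : ℕ, ∀ P ∈ T, σ • P = τ ^ j • P) ∧ (∃ i : ℕ, ∀ P ∈ T, τ • P = σ ^ i • P) := by
  classical
  obtain ⟨ℓ, A, τ, K₀, hℓ, hℓS, hℓm, hA, hs, hfrob, ⟨j, hj⟩, ⟨i, hi⟩, -⟩ :=
    fb24_frob_exists_both (hT.toFinset.biUnion fb24_coords) m hm σ hσ S
  have hcoord : ∀ P ∈ T, ∀ x ∈ fb24_coords P, x ∈ K₀ := fun P hP x hx =>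
    hs x (Finset.mem_biUnion.2 ⟨P, hT.mem_toFinset.2 hP, hx⟩)
  have : IsAlgClosure ℚ (AlgebraicClosure ℚ) := fb24_isAlgClosure
  have : IsGalois ℚ (AlgebraicClosure ℚ) := IsAlgClosure.isGalois ℚ (AlgebraicClosure ℚ)
  refine ⟨ℓ, A, τ, hℓ, hℓS, hℓm, hA, ?_, ?_, ⟨j, ?_⟩, ⟨i, ?_⟩⟩
  · intro x hxA hx
    refine hfrob x ?_ hxA
    rw [← InfiniteGalois.fixedField_fixingSubgroup K₀, IntermediateField.mem_fixedField_iff]
    intro g hg
    rw [IntermediateField.mem_fixingSubgroup_iff] at hg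
    exact hx g fun P hP => fb24_smul_eq_self g P fun z hz => hg z (hcoord P hP z hz)
  · intro P hP x hx hxA
    exact hfrob x (hcoord P hP x hx) hxA
  · intro P hP
    exact fb24_smul_congr σ (τ ^ j) P fun x hx => hj x (hcoord P hP x hx)
  · intro P hP
    exact fb24_smul_congr τ (σ ^ i) P fun x hx => hi x (hcoord P hP x hx)

/-- **Frobenius bridge on the `p`-torsion** (given that it is finite). -/
theorem fb24_frob_torsion (p : ℕ)
    (hfin : {P : (W'⁄(AlgebraicClosure ℚ)).Point | p • P = 0}.Finite)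
    (m : ℕ) (hm : 0 < m) (σ : AlgebraicClosure ℚ ≃ₐ[ℚ] AlgebraicClosure ℚ)
    (hσ : ∀ ζ : AlgebraicClosure ℚ, ζ ^ m = 1 → σ ζ = ζ) (S : Finset ℕ) :
    ∃ (ℓ : ℕ) (A : ValuationSubring (AlgebraicClosure ℚ))
      (τ : AlgebraicClosure ℚ ≃ₐ[ℚ] AlgebraicClosure ℚ),
      ℓ.Prime ∧ ℓ ∉ S ∧ ℓ ≡ 1 [MOD m] ∧ A.LiesOverPrime ℓ ∧
      (∀ x ∈ A, (∀ g : AlgebraicClosure ℚ ≃ₐ[ℚ] AlgebraicClosure ℚ,
          (∀ P : (W'⁄(AlgebraicClosure ℚ)).Point, p • P = 0 → g • P = P) → g x = x) →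
        τ x - x ^ ℓ ∈ A.nonunits) ∧
      (∀ P : (W'⁄(AlgebraicClosure ℚ)).Point, p • P = 0 → ∀ x ∈ fb24_coords P, x ∈ A →
        τ x - x ^ ℓ ∈ A.nonunits) ∧
      (∃ j : ℕ, ∀ P : (W'⁄(AlgebraicClosure ℚ)).Point, p • P = 0 → σ • P = τ ^ j • P) ∧
      (∃ i : ℕ, ∀ P : (W'⁄(AlgebraicClosure ℚ)).Point, p • P = 0 → τ • P = σ ^ i • P) :=
  fb24_frob_points {P : (W'⁄(AlgebraicClosure ℚ)).Point | p • P = 0} hfin m hm σ hσ S

end Main

/-- Instantiation test: integral model. -/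
example (W : WeierstrassCurve ℤ) (p : ℕ)
    (hfin : {P : (W⁄(AlgebraicClosure ℚ)).Point | p • P = 0}.Finite)
    (m : ℕ) (hm : 0 < m) (σ : AlgebraicClosure ℚ ≃ₐ[ℚ] AlgebraicClosure ℚ)
    (hσ : ∀ ζ : AlgebraicClosure ℚ, ζ ^ m = 1 → σ ζ = ζ) (S : Finset ℕ) :
    ∃ (ℓ : ℕ) (A : ValuationSubring (AlgebraicClosure ℚ))
      (τ : AlgebraicClosure ℚ ≃ₐ[ℚ] AlgebraicClosure ℚ),
      ℓ.Prime ∧ ℓ ∉ S ∧ ℓ ≡ 1 [MOD m] ∧ A.LiesOverPrime ℓ ∧
      (∀ x ∈ A, (∀ g : AlgebraicClosure ℚ ≃ₐ[ℚ] AlgebraicClosure ℚ,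
          (∀ P : (W⁄(AlgebraicClosure ℚ)).Point, p • P = 0 → g • P = P) → g x = x) →
        τ x - x ^ ℓ ∈ A.nonunits) ∧
      (∀ P : (W⁄(AlgebraicClosure ℚ)).Point, p • P = 0 → ∀ x ∈ fb24_coords P, x ∈ A →
        τ x - x ^ ℓ ∈ A.nonunits) ∧
      (∃ j : ℕ, ∀ P : (W⁄(AlgebraicClosure ℚ)).Point, p • P = 0 → σ • P = τ ^ j • P) ∧
      (∃ i : ℕ, ∀ P : (W⁄(AlgebraicClosure ℚ)).Point, p • P = 0 → τ • P = σ ^ i • P) :=
  fb24_frob_torsion p hfin m hm σ hσ S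

/-- Instantiation test: rational curve. -/
example (E : WeierstrassCurve ℚ) (p : ℕ)
    (hfin : {P : (E⁄(AlgebraicClosure ℚ)).Point | p • P = 0}.Finite)
    (m : ℕ) (hm : 0 < m) (σ : AlgebraicClosure ℚ ≃ₐ[ℚ] AlgebraicClosure ℚ)
    (hσ : ∀ ζ : AlgebraicClosure ℚ, ζ ^ m = 1 → σ ζ = ζ) (S : Finset ℕ) :
    ∃ (ℓ : ℕ) (A : ValuationSubring (AlgebraicClosure ℚ))
      (τ : AlgebraicClosure ℚ ≃ₐ[ℚ] AlgebraicClosure ℚ),
      ℓ.Prime ∧ ℓ ∉ S ∧ ℓ ≡ 1 [MOD m] ∧ A.LiesOverPrime ℓ ∧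
      (∀ x ∈ A, (∀ g : AlgebraicClosure ℚ ≃ₐ[ℚ] AlgebraicClosure ℚ,
          (∀ P : (E⁄(AlgebraicClosure ℚ)).Point, p • P = 0 → g • P = P) → g x = x) →
        τ x - x ^ ℓ ∈ A.nonunits) ∧
      (∀ P : (E⁄(AlgebraicClosure ℚ)).Point, p • P = 0 → ∀ x ∈ fb24_coords P, x ∈ A →
        τ x - x ^ ℓ ∈ A.nonunits) ∧
      (∃ j : ℕ, ∀ P : (E⁄(AlgebraicClosure ℚ)).Point, p • P = 0 → σ • P = τ ^ j • P) ∧
      (∃ i : ℕ, ∀ P : (E⁄(AlgebraicClosure ℚ)).Point, p • P = 0 → τ • P = σ ^ i • P) :=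
  fb24_frob_torsion p hfin m hm σ hσ S

end Fermat.Agent.S41
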