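import Fermat.Agent.S41.RefereeB7
import Fermat.Agent.S41.DualGlue71b
import Fermat.Agent.S41.L8Plain43

/-!
# S41: the dual Ihara statement `(Hb)` of `rf7_S41_of_Hb`, with no hypothesis left

`hbf98_Hb` : `rf7_Hb p N q D l0` for every prime `p ≠ 2`, `0 < N`, prime `q ∤ N`, every datum `D`
and every prime `l0 ≡ 1 [MOD N q]`.  It is `dg71_Hb_main` (helper71) fed with the three adjointness
identities `l8p43_hadj₁`, `l8p43_hadj₂`, `l8p43_hT` (helper43), for the degeneracy maps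
`hic88_res₁`, `hic88_res₂` (helper88), with adapted representatives from `md32_exists_rep`.
-/

set_option autoImplicit false

open Matrix MatrixGroups CongruenceSubgroup OnePoint
open Fermat.Agent.S16

namespace Fermat.Agent.S41

theorem hbf98_Hb {p : ℕ} (hp : p.Prime) (hp2 : p ≠ 2) {N q : ℕ} (hN : 0 < N) (hq : q.Prime)
    (hqN : ¬ q ∣ N) (D : tr43_Data N q) {l0 : ℕ} (hl0 : l0.Prime) (hl01 : l0 ≡ 1 [MOD N * q]) :
    rf7_Hb p N q D l0 := by
  classical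
  have hl0Nq : ¬ l0 ∣ N * q := ca76_not_dvd_of_modEq hl0 hl01
  have hl0N : ¬ l0 ∣ N := fun h => hl0Nq (h.mul_right q)
  have : NeZero N := ⟨hN.ne'⟩
  have : NeZero q := ⟨hq.ne_zero⟩
  have : NeZero (N * q) := ⟨(Nat.mul_pos hN hq.pos).ne'⟩
  have hfN : Finite (SL(2, ℤ) ⧸ Gamma0 N) := Subgroup.finite_quotient_of_finiteIndex
  have hfQ : Finite (SL(2, ℤ) ⧸ Gamma0 (N * q)) := Subgroup.finite_quotient_of_finiteIndex
  let _ : Fintype (SL(2, ℤ) ⧸ Gamma0 N) := Fintype.ofFinite _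
  let _ : Fintype (SL(2, ℤ) ⧸ Gamma0 (N * q)) := Fintype.ofFinite _
  obtain ⟨repN, hrepN, hadN⟩ := md32_exists_rep (dg71_neg_one_mem N)
  obtain ⟨repQ, hrepQ, hadQ⟩ := md32_exists_rep (dg71_neg_one_mem (N * q))
  exact dg71_Hb_main hp hp2 hN hq hqN D hl0 hl01 hl0N hrepN hadN hrepQ hadQ
    (hic88_res₁ N q ℤ) (hic88_res₂ N q ℤ) (hic88_isRes₁ N q ℤ) (hic88_isRes₂ D ℤ)
    (fun b α => l8p43_hadj₁ hq D hrepN hadN hrepQ hadQ _ (hic88_isRes₁ N q ℤ) b α)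
    (fun b α => l8p43_hadj₂ hq D hrepN hadN hrepQ hadQ _ (hic88_isRes₂ D ℤ) b α)
    (fun x α => l8p43_hT hl0 hl0N hrepN hadN x α)

end Fermat.Agent.S41
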