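/-
S41 / M3 (H-id), helper54: the Hecke operator `T_ℓ` (`ℓ ∤ N`) on `Hom(Γ₀(N), A)` is
"transfer ∘ conjugation by `w` ∘ restriction":

  `heckeHom N ℓ A α g = ∑ q : Γ₀(N) ⧸ Γ₀(N ℓ), α (cw (h(g, q)))`,

where `w = D.w` is the Atkin–Lehner matrix of `D : tr43_Data N ℓ`, `cw h = w h w⁻¹`
(`D.w * h = cw h * D.w` as integer matrices) and `h(g, q) = s(g q)⁻¹ g s(q)` is the cocycle
`ct77_h` of the section `Quotient.out`.  This is the Hom-side twin of `tr43_tr_W_res`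
(`T_ℓ = tr ∘ W ∘ res` on symbols), and the input of Hecke adjointness for the cap-product
pairing.

* `hk54_rep_exists`, `hk54_rep_unique` : `D.inv.rep` is a system of representatives of
  `Γ₀(N ℓ) \ Γ₀(N)`;
* `hk54_w_rep` : `w * rep i ∈ Γ₀(N) * lbMat ℓ i`;
* `hk54_finite` : `Γ₀(N) ⧸ Γ₀(N ℓ)` is finite;
* `hk54_exists_cw` : the conjugation map `cw` exists;
* `hk54_heckeHom_eq_cores` : the identity above.
-/
import Mathlib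
import Fermat.Agent.S16.LB.Invol
import Fermat.Agent.S41.Trace43
import Fermat.Agent.S41.CapTransfer77

set_option autoImplicit false

open CongruenceSubgroup
open scoped MatrixGroups

namespace Fermat.Agent.S41

open Fermat.Agent.S16

section HeckeCores

variable {N ℓ : ℕ}

local notation "mat[" x "]" => ((x : SL(2, ℤ)) : Matrix (Fin 2) (Fin 2) ℤ)

local notation "𝐇" => Subgroup.subgroupOf (Gamma0 (N * ℓ)) (Gamma0 N)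

theorem hk54_coe_mul (x y : Gamma0 N) : mat[(x * y : Gamma0 N)] = mat[x] * mat[y] := by
  rw [Subgroup.coe_mul, Matrix.SpecialLinearGroup.coe_mul]

theorem hk54_coe_one : mat[(1 : Gamma0 N)] = 1 := by
  rw [Subgroup.coe_one, Matrix.SpecialLinearGroup.coe_one]

theorem hk54_coe_inv_mul (x : Gamma0 N) : mat[(x⁻¹ : Gamma0 N)] * mat[x] = 1 := by
  rw [← hk54_coe_mul, inv_mul_cancel, hk54_coe_one]

theorem hk54_coe_mul_inv (x : Gamma0 N) : mat[x] * mat[(x⁻¹ : Gamma0 N)] = 1 := by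
  rw [← hk54_coe_mul, mul_inv_cancel, hk54_coe_one]

theorem hk54_mem_iff (x : Gamma0 N) :
    x ∈ (Gamma0 (N * ℓ)).subgroupOf (Gamma0 N) ↔ ((N * ℓ : ℕ) : ℤ) ∣ mat[x] 1 0 := by
  rw [Subgroup.mem_subgroupOf, Gamma0_mem, ZMod.intCast_zmod_eq_zero_iff_dvd]

/-- every element of `Γ₀(N)` lies in `Γ₀(N ℓ) * rep i` for some `i`. -/
theorem hk54_rep_exists (hℓ : ℓ.Prime) (D : tr43_Data N ℓ) (x : Gamma0 N) :
    ∃ i : Option (Fin ℓ), x * (D.inv.rep i)⁻¹ ∈ (Gamma0 (N * ℓ)).subgroupOf (Gamma0 N) := by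
  obtain ⟨i, M', hM, hdvd⟩ := D.inv.rep_exists hℓ mat[x] (lb_Gamma0_dvd x)
  refine ⟨i, (hk54_mem_iff _).mpr ?_⟩
  have h1 : mat[(x * (D.inv.rep i)⁻¹ : Gamma0 N)] = M' := by
    rw [hk54_coe_mul, hM, Matrix.mul_assoc, hk54_coe_mul_inv, Matrix.mul_one]
  rw [h1]
  exact hdvd

/-- the index `i` with `x ∈ Γ₀(N ℓ) * rep i` is unique. -/
theorem hk54_rep_unique (hℓ : ℓ.Prime) (D : tr43_Data N ℓ) (x : Gamma0 N)
    (i j : Option (Fin ℓ))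
    (hi : x * (D.inv.rep i)⁻¹ ∈ (Gamma0 (N * ℓ)).subgroupOf (Gamma0 N))
    (hj : x * (D.inv.rep j)⁻¹ ∈ (Gamma0 (N * ℓ)).subgroupOf (Gamma0 N)) : i = j := by
  have hmem : D.inv.rep i * (D.inv.rep j)⁻¹ ∈ (Gamma0 (N * ℓ)).subgroupOf (Gamma0 N) := by
    have := Subgroup.mul_mem _ (Subgroup.inv_mem _ hi) hj
    simpa [mul_assoc] using this
  have hdvd := (hk54_mem_iff _).mp hmem
  refine D.inv.rep_unique hℓ i j mat[(D.inv.rep i * (D.inv.rep j)⁻¹ : Gamma0 N)] ?_ ?_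
  · refine Dvd.dvd.trans ⟨(N : ℤ), ?_⟩ hdvd
    push_cast
    ring
  · rw [hk54_coe_mul, Matrix.mul_assoc, hk54_coe_inv_mul, Matrix.mul_one]

/-- `w * rep i` lies in the coset `Γ₀(N) * lbMat ℓ i`. -/
theorem hk54_w_rep (D : tr43_Data N ℓ) (i : Option (Fin ℓ)) :
    ∃ c : Gamma0 N, D.w * mat[D.inv.rep i] = mat[c] * lbMat ℓ i := by
  rcases i with _ | b
  · refine ⟨D.gam', ?_⟩
    show D.w * mat[(1 : Gamma0 N)] = _
    rw [hk54_coe_one, Matrix.mul_one, D.w_eq]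
  · refine ⟨1, ?_⟩
    show D.w * mat[D.inv.gam ((b : ℕ) : ℤ)] = mat[(1 : Gamma0 N)] * lbMat ℓ (some b)
    rw [hk54_coe_one, Matrix.one_mul, tr43_Data.w, tr43_Data.gam, lbMk_coe, tr43_mul_of,
      lbMat_some]
    have h := D.det
    simp only [tr43_Data.inv]
    exact lb_mk_eq (by linear_combination h) (by linear_combination ((b : ℕ) : ℤ) * h)
      (by ring) (by linear_combination (ℓ : ℤ) * h)

/-- conjugation by `w` maps `Γ₀(N ℓ)` into `Γ₀(N)` (in fact into `Γ₀(N ℓ)`). -/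
theorem hk54_exists_cw (D : tr43_Data N ℓ) :
    ∃ cw : Gamma0 (N * ℓ) → Gamma0 N, ∀ h : Gamma0 (N * ℓ), D.w * mat[h] = mat[cw h] * D.w := by
  have hle : Gamma0 (N * ℓ) ≤ Gamma0 N := by
    intro x hx
    rw [Gamma0_mem, ZMod.intCast_zmod_eq_zero_iff_dvd] at hx ⊢
    exact Dvd.dvd.trans ⟨(ℓ : ℤ), by push_cast; ring⟩ hx
  choose f hf using D.w_mul_Gamma0
  exact ⟨fun h => ⟨(f h : SL(2, ℤ)), hle (f h).2⟩, fun h => hf h⟩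

/-- the data of the coset bijection `Γ₀(N) ⧸ Γ₀(N ℓ) ≃ Option (Fin ℓ)` adapted to `w`. -/
theorem hk54_exists_tau (hℓ : ℓ.Prime) (D : tr43_Data N ℓ)
    (cw : Gamma0 (N * ℓ) → Gamma0 N)
    (hcw : ∀ h : Gamma0 (N * ℓ), D.w * mat[h] = mat[cw h] * D.w) :
    ∃ (τ : ↥(Gamma0 N) ⧸ (Gamma0 (N * ℓ)).subgroupOf (Gamma0 N) → Option (Fin ℓ))
      (c : ↥(Gamma0 N) ⧸ (Gamma0 (N * ℓ)).subgroupOf (Gamma0 N) → Gamma0 N),
      Function.Bijective τ ∧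
      ∀ q, D.w * mat[(q.out⁻¹ : Gamma0 N)] = mat[c q] * lbMat ℓ (τ q) := by
  classical
  set Hs : Subgroup (Gamma0 N) := (Gamma0 (N * ℓ)).subgroupOf (Gamma0 N) with hHs
  have key : ∀ q : ↥(Gamma0 N) ⧸ Hs, ∃ (i : Option (Fin ℓ)) (c : Gamma0 N),
      q.out⁻¹ * (D.inv.rep i)⁻¹ ∈ Hs ∧
        D.w * mat[(q.out⁻¹ : Gamma0 N)] = mat[c] * lbMat ℓ i := by
    intro q
    obtain ⟨i, hi⟩ := hk54_rep_exists hℓ D (q.out⁻¹)
    obtain ⟨c₀, hc₀⟩ := hk54_w_rep D i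
    refine ⟨i, cw ⟨_, Subgroup.mem_subgroupOf.mp hi⟩ * c₀, hi, ?_⟩
    have h1 : mat[(q.out⁻¹ : Gamma0 N)] =
        mat[(q.out⁻¹ * (D.inv.rep i)⁻¹ : Gamma0 N)] * mat[D.inv.rep i] := by
      rw [← hk54_coe_mul, inv_mul_cancel_right]
    have h2 := hcw ⟨_, Subgroup.mem_subgroupOf.mp hi⟩
    rw [h1, ← Matrix.mul_assoc]
    rw [show mat[(q.out⁻¹ * (D.inv.rep i)⁻¹ : Gamma0 N)] =
      mat[(⟨_, Subgroup.mem_subgroupOf.mp hi⟩ : Gamma0 (N * ℓ))] from rfl, h2,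
      Matrix.mul_assoc, hc₀, hk54_coe_mul, Matrix.mul_assoc]
  choose τ c hτ hc using key
  refine ⟨τ, c, ⟨?_, ?_⟩, hc⟩
  · intro q q' hqq
    have h1 := hτ q
    have h2 := hτ q'
    rw [← hqq] at h2
    have h3 : (q.out)⁻¹ * q'.out ∈ Hs := by
      have := Hs.mul_mem h1 (Hs.inv_mem h2)
      simpa [mul_assoc] using this
    have h4 : ((q.out : Gamma0 N) : ↥(Gamma0 N) ⧸ Hs) = ((q'.out : Gamma0 N) : ↥(Gamma0 N) ⧸ Hs) :=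
      QuotientGroup.eq.mpr h3
    rwa [QuotientGroup.out_eq', QuotientGroup.out_eq'] at h4
  · intro i
    set q : ↥(Gamma0 N) ⧸ Hs := (((D.inv.rep i)⁻¹ : Gamma0 N) : ↥(Gamma0 N) ⧸ Hs) with hq
    refine ⟨q, ?_⟩
    have h1 : ((q.out : Gamma0 N) : ↥(Gamma0 N) ⧸ Hs) =
        (((D.inv.rep i)⁻¹ : Gamma0 N) : ↥(Gamma0 N) ⧸ Hs) := QuotientGroup.out_eq' q
    have h2 : q.out⁻¹ * (D.inv.rep i)⁻¹ ∈ Hs := QuotientGroup.eq.mp h1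
    exact hk54_rep_unique hℓ D q.out⁻¹ _ _ (hτ q) h2

/-- `Γ₀(N ℓ)` has finite index in `Γ₀(N)` (quotient of the subgroup type). -/
theorem hk54_finite (hℓ : ℓ.Prime) (hℓN : ¬ ℓ ∣ N) :
    Finite (↥(Gamma0 N) ⧸ (Gamma0 (N * ℓ)).subgroupOf (Gamma0 N)) := by
  obtain ⟨D⟩ := tr43_Data_exists (N := N) (q := ℓ) ((Nat.Prime.coprime_iff_not_dvd hℓ).mpr hℓN)
  obtain ⟨cw, hcw⟩ := hk54_exists_cw D
  obtain ⟨τ, -, hτ, -⟩ := hk54_exists_tau hℓ D cw hcw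
  exact Finite.of_injective τ hτ.1

/-- **`T_ℓ` on `Hom(Γ₀(N), A)` is transfer ∘ conjugation by `w` ∘ restriction.** -/
theorem hk54_heckeHom_eq_cores (hℓ : ℓ.Prime) (hℓN : ¬ ℓ ∣ N) (D : tr43_Data N ℓ)
    (cw : Gamma0 (N * ℓ) → Gamma0 N)
    (hcw : ∀ h : Gamma0 (N * ℓ), D.w * mat[h] = mat[cw h] * D.w)
    {A : Type*} [AddCommGroup A] (α : Additive (Gamma0 N) →+ A) (g : Gamma0 N) :
    heckeHom N ℓ A α (Additive.ofMul g) =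
      ∑ᶠ q : ↥(Gamma0 N) ⧸ (Gamma0 (N * ℓ)).subgroupOf (Gamma0 N),
        α (Additive.ofMul (cw ⟨((ct77_h ((Gamma0 (N * ℓ)).subgroupOf (Gamma0 N)) g q :
          Gamma0 N) : SL(2, ℤ)), Subgroup.mem_subgroupOf.mp (ct77_h_mem _ g q)⟩)) := by
  classical
  obtain ⟨τ, c, hτ, hc⟩ := hk54_exists_tau hℓ D cw hcw
  have hfin : Finite (↥(Gamma0 N) ⧸ 𝐇) := Finite.of_injective τ hτ.1
  cases nonempty_fintype (↥(Gamma0 N) ⧸ 𝐇)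
  -- the cocycle of the standard representatives in terms of the new ones
  have hkap : ∀ q : ↥(Gamma0 N) ⧸ 𝐇,
      (lbSysT hℓ hℓN).kap g (τ q) =
        (c q)⁻¹ * cw ⟨((ct77_h 𝐇 g (g⁻¹ • q) : Gamma0 N) : SL(2, ℤ)),
          Subgroup.mem_subgroupOf.mp (ct77_h_mem 𝐇 g (g⁻¹ • q))⟩ * c (g⁻¹ • q) := by
    intro q
    refine ((lbSysT hℓ hℓN).eq_of_mat_mul (j := τ (g⁻¹ • q)) ?_).2
    show lbMat ℓ (τ q) * mat[g] = mat[_] * lbMat ℓ (τ (g⁻¹ • q))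
    have e1 : (q.out⁻¹ * g : Gamma0 N) = ct77_h 𝐇 g (g⁻¹ • q) * (g⁻¹ • q).out⁻¹ := by
      have := ct77_out_inv_mul 𝐇 g (g⁻¹ • q)
      rwa [smul_inv_smul] at this
    have e2 : D.w * mat[(q.out⁻¹ * g : Gamma0 N)] = mat[c q] * (lbMat ℓ (τ q) * mat[g]) := by
      rw [hk54_coe_mul, ← Matrix.mul_assoc, hc q, Matrix.mul_assoc]
    have e3 : D.w * mat[(ct77_h 𝐇 g (g⁻¹ • q) * (g⁻¹ • q).out⁻¹ : Gamma0 N)] =
        mat[cw ⟨((ct77_h 𝐇 g (g⁻¹ • q) : Gamma0 N) : SL(2, ℤ)),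
          Subgroup.mem_subgroupOf.mp (ct77_h_mem 𝐇 g (g⁻¹ • q))⟩] *
          (mat[c (g⁻¹ • q)] * lbMat ℓ (τ (g⁻¹ • q))) := by
      have h2 := hcw ⟨((ct77_h 𝐇 g (g⁻¹ • q) : Gamma0 N) : SL(2, ℤ)),
        Subgroup.mem_subgroupOf.mp (ct77_h_mem 𝐇 g (g⁻¹ • q))⟩
      rw [hk54_coe_mul, ← Matrix.mul_assoc]
      rw [show mat[(ct77_h 𝐇 g (g⁻¹ • q) : Gamma0 N)] =
        mat[(⟨((ct77_h 𝐇 g (g⁻¹ • q) : Gamma0 N) : SL(2, ℤ)),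
          Subgroup.mem_subgroupOf.mp (ct77_h_mem 𝐇 g (g⁻¹ • q))⟩ : Gamma0 (N * ℓ))] from rfl,
        h2, Matrix.mul_assoc, hc (g⁻¹ • q)]
    rw [e1, e3] at e2
    have e4 : lbMat ℓ (τ q) * mat[g] =
        mat[((c q)⁻¹ : Gamma0 N)] * (mat[c q] * (lbMat ℓ (τ q) * mat[g])) := by
      rw [← Matrix.mul_assoc, hk54_coe_inv_mul, Matrix.one_mul]
    rw [e4, ← e2, hk54_coe_mul, hk54_coe_mul]
    simp only [Matrix.mul_assoc]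
  rw [finsum_eq_sum_of_fintype, lb_heckeHom_T hℓ hℓN, LbSys.coh_apply]
  have h1 : ∑ i, α (Additive.ofMul ((lbSysT hℓ hℓN).kap g i)) =
      ∑ q : ↥(Gamma0 N) ⧸ 𝐇, α (Additive.ofMul ((lbSysT hℓ hℓN).kap g (τ q))) :=
    (Fintype.sum_bijective τ hτ _ _ (fun q => rfl)).symm
  rw [h1]
  simp only [hkap, ofMul_mul, ofMul_inv, map_add, map_neg]
  rw [Finset.sum_add_distrib, Finset.sum_add_distrib, Finset.sum_neg_distrib]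
  have hre1 : ∑ q : ↥(Gamma0 N) ⧸ 𝐇, α (Additive.ofMul (c (g⁻¹ • q))) =
      ∑ q : ↥(Gamma0 N) ⧸ 𝐇, α (Additive.ofMul (c q)) :=
    Equiv.sum_comp (MulAction.toPerm g⁻¹ : ↥(Gamma0 N) ⧸ 𝐇 ≃ ↥(Gamma0 N) ⧸ 𝐇)
      (fun q => α (Additive.ofMul (c q)))
  have hre2 : ∑ q : ↥(Gamma0 N) ⧸ 𝐇, α (Additive.ofMul
        (cw ⟨((ct77_h 𝐇 g (g⁻¹ • q) : Gamma0 N) : SL(2, ℤ)),
          Subgroup.mem_subgroupOf.mp (ct77_h_mem 𝐇 g (g⁻¹ • q))⟩)) =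
      ∑ q : ↥(Gamma0 N) ⧸ 𝐇, α (Additive.ofMul
        (cw ⟨((ct77_h 𝐇 g q : Gamma0 N) : SL(2, ℤ)),
          Subgroup.mem_subgroupOf.mp (ct77_h_mem 𝐇 g q)⟩)) :=
    Equiv.sum_comp (MulAction.toPerm g⁻¹ : ↥(Gamma0 N) ⧸ 𝐇 ≃ ↥(Gamma0 N) ⧸ 𝐇)
      (fun q => α (Additive.ofMul (cw ⟨((ct77_h 𝐇 g q : Gamma0 N) : SL(2, ℤ)),
          Subgroup.mem_subgroupOf.mp (ct77_h_mem 𝐇 g q)⟩)))
  rw [hre1, hre2]
  abel

end HeckeCores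

end Fermat.Agent.S41
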