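/-
S41 / M3 (hT), helper54: Hecke adjointness for the Manin-model pairing.

For `ℓ ∤ N` prime, `α : Γ₀(N) → ℤ` a homomorphism and `Φ` a `ℤ`-valued symbol of level `N`:

  `B_N (α, T_ℓ Φ) = B_N (T_ℓ α, Φ)`,

with `B_N = md32_B psl96_rho ∞ rep` (any `U`-adapted section `rep` of `SL(2, ℤ) ⧸ Γ₀(N)`),
`T_ℓ Φ = tr43_T ℓ Φ` and `T_ℓ α = heckeHom N ℓ ℤ α` (S16).

Proof: `T_ℓ Φ = tr (W Φ)` (`tr43_tr_W_res`), then
`B_N (α, tr (W Φ)) = B_{Nℓ} (α, W Φ)`               (B-I)  = `adj96_tr`,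
`B_{Nℓ} (α, W Φ) = B_{Nℓ} (α ∘ conj_w, Φ)`           (B-W)  = `cwc77_BW_conj`,
`B_{Nℓ} (α ∘ conj_w, Φ) = B_N (cores (α ∘ conj_w), Φ)` (B-I') = `adj96_cores`,
`cores (α ∘ conj_w) = heckeHom N ℓ ℤ α`               (H-id) = `hk54_heckeHom_eq_cores`.

* `ha54_B_eq`  : dictionary `md32_B` ↔ potential form (`adj96_B`);
* `ha54_BI`    : (B-I) in `md32_B` form;
* `ha54_BI'`   : (B-I') in `md32_B` form;
* `ha54_hT`    : the adjointness `B_N (α, T_ℓ Φ) = B_N (heckeHom N ℓ ℤ α, Φ)`.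
-/
import Mathlib
import Fermat.Agent.S41.Adjoint96
import Fermat.Agent.S41.CapWConc77
import Fermat.Agent.S41.ManinInst32
import Fermat.Agent.S41.HeckeCores54
import Fermat.Agent.S41.SymbCore71

set_option autoImplicit false

open scoped MatrixGroups
open ModularGroup MulAction Subgroup Function CongruenceSubgroup OnePoint
open Matrix.SpecialLinearGroup (mapGL)

namespace Fermat.Agent.S41

open Fermat.Agent.S16

/-- `Γ₀(M r) ≤ Γ₀(M)`. -/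
theorem ha54_Gamma0_le (M r : ℕ) : Gamma0 (M * r) ≤ Gamma0 M := by
  intro x hx
  rw [Gamma0_mem, ZMod.intCast_zmod_eq_zero_iff_dvd] at hx ⊢
  exact Dvd.dvd.trans ⟨(r : ℤ), by push_cast; ring⟩ hx

/-- Dictionary: the Manin-model pairing `md32_B` of a symbol `Φ` in potential form
(potential `c ↦ Φ (∞, c)`). -/
theorem ha54_B_eq (Γ : Subgroup SL(2, ℤ)) [Fintype (SL(2, ℤ) ⧸ Γ)]
    (rep : SL(2, ℤ) ⧸ Γ → SL(2, ℤ)) (χ : SL(2, ℤ) → ℤ)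
    {Φ : OnePoint ℚ × OnePoint ℚ → ℤ} (hΦ : ∀ a b c, Φ (a, b) + Φ (b, c) = Φ (a, c)) :
    md32_B psl96_rho ∞ rep χ (Function.curry Φ) =
      ∑ᶠ x : SL(2, ℤ) ⧸ Γ, χ ((rep x)⁻¹ * S * rep ((S : SL(2, ℤ)) • x)) *
        (Φ (∞, psl96_rho (rep x)⁻¹ ∞) - Φ (∞, psl96_rho (rep x)⁻¹ (psl96_rho S ∞))) := by
  rw [finsum_eq_sum_of_fintype]
  simp only [md32_B, md32_J, md32_v, Function.curry_apply]
  refine Finset.sum_congr rfl fun x _ => ?_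
  have h := hΦ ∞ (psl96_rho ((rep x)⁻¹ * S) ∞) (psl96_rho (rep x)⁻¹ ∞)
  have h' : psl96_rho ((rep x)⁻¹ * S) (∞ : OnePoint ℚ) = psl96_rho (rep x)⁻¹ (psl96_rho S ∞) := by
    rw [map_mul, Equiv.Perm.mul_apply]
  rw [← h', ← h]
  ring

section Concrete

variable {M r : ℕ}

/-- **(B-I)**, concrete: `B_M (χ, tr Ψ) = B_{M r} (χ, Ψ)` for `χ` additive on `Γ₀(M)` and `Ψ` a
symbol of level `M r`. -/
theorem ha54_BI (hr : r.Prime) (D : tr43_Data M r)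
    [Fintype (SL(2, ℤ) ⧸ Gamma0 M)] [Fintype (SL(2, ℤ) ⧸ Gamma0 (M * r))]
    {repG : SL(2, ℤ) ⧸ Gamma0 M → SL(2, ℤ)}
    (hrepG : ∀ x, (repG x : SL(2, ℤ) ⧸ Gamma0 M) = x) (hadG : md32_Adapted repG)
    {repH : SL(2, ℤ) ⧸ Gamma0 (M * r) → SL(2, ℤ)}
    (hrepH : ∀ x, (repH x : SL(2, ℤ) ⧸ Gamma0 (M * r)) = x) (hadH : md32_Adapted repH)
    {χ : SL(2, ℤ) → ℤ} (hχ : md32_IsHom (Gamma0 M) χ)
    {Ψ : OnePoint ℚ × OnePoint ℚ → ℤ} (hΨ : ∀ a b c, Ψ (a, b) + Ψ (b, c) = Ψ (a, c))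
    (hinv : tr43_Inv (M * r) Ψ) :
    md32_B psl96_rho ∞ repG χ (Function.curry (tr43_tr D Ψ)) =
      md32_B psl96_rho ∞ repH χ (Function.curry Ψ) := by
  let act : MulAction SL(2, ℤ) (OnePoint ℚ) := MulAction.compHom (OnePoint ℚ) (mapGL ℚ)
  have hcompat : ∀ (g : SL(2, ℤ)) (c : OnePoint ℚ), mapGL ℚ g • c = g • c := fun _ _ => rfl
  have ax := cj77_cuspAx_onePoint hcompat
  have hax : adj96_CuspAx (∞ : OnePoint ℚ) := ⟨ax.T_fix, ax.neg_fix, ax.trans, ax.stab_T⟩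
  have h2 : ∀ r : ℤ, r + r = 0 → r = 0 := fun r h => by omega
  have h3 : ∀ r : ℤ, r + r + r = 0 → r = 0 := fun r h => by omega
  have htr : ∀ a b c, tr43_tr D Ψ (a, b) + tr43_tr D Ψ (b, c) = tr43_tr D Ψ (a, c) :=
    sc71_IsSymb.tr D hΨ
  have hsub : ∀ u v : OnePoint ℚ, Ψ (u, v) = Ψ (∞, v) - Ψ (∞, u) := by
    intro u v
    have := hΨ ∞ u v
    linarith
  have hpot : ∀ h ∈ Gamma0 (M * r), ∀ c : OnePoint ℚ,
      Ψ (∞, h • c) = Ψ (∞, c) + Ψ (∞, h • (∞ : OnePoint ℚ)) := by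
    intro h hh c
    have e1 := hΨ ∞ (h • ∞) (h • c)
    have e2 := sc71_inv_apply hinv ⟨h, hh⟩ ∞ c
    rw [← e1, ← e2]
    exact add_comm _ _
  have hpotG : ∀ a b : OnePoint ℚ, tr43_tr D Ψ (∞, b) - tr43_tr D Ψ (∞, a) =
      ∑ᶠ q : ↥(Gamma0 M) ⧸ (Gamma0 (M * r)).subgroupOf (Gamma0 M),
        (Ψ (∞, ((q.out : Gamma0 M) : SL(2, ℤ))⁻¹ • b)
          - Ψ (∞, ((q.out : Gamma0 M) : SL(2, ℤ))⁻¹ • a)) := by
    intro a b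
    have e1 : tr43_tr D Ψ (∞, b) - tr43_tr D Ψ (∞, a) = tr43_tr D Ψ (a, b) := by
      have := htr ∞ a b
      linarith
    rw [e1, ← tr43_tr_eq_finsum_quot hr D hinv (a, b)]
    refine finsum_congr fun q => ?_
    rw [← hsub]
    rfl
  rw [ha54_B_eq _ repG χ htr, ha54_B_eq _ repH χ hΨ]
  exact adj96_tr (G := Gamma0 M) (H := Gamma0 (M * r)) (ha54_Gamma0_le M r)
    (cwc77_neg_one_mem_Gamma0 _) h2 h3 hax hrepG hadG hrepH hadH χ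
    (fun h => Ψ (∞, h • (∞ : OnePoint ℚ))) (fun c => Ψ (∞, c)) hχ hpot
    (fun c => tr43_tr D Ψ (∞, c)) hpotG

/-- **(B-I')**, concrete: `B_{M r} (χ', Φ) = B_M (cores χ', Φ)` for `χ'` additive on `Γ₀(M r)`
and `Φ` a symbol of level `M`; `χG` is any function which on `Γ₀(M)` is the transfer of `χ'`. -/
theorem ha54_BI'
    [Fintype (SL(2, ℤ) ⧸ Gamma0 M)] [Fintype (SL(2, ℤ) ⧸ Gamma0 (M * r))]
    {repG : SL(2, ℤ) ⧸ Gamma0 M → SL(2, ℤ)}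
    (hrepG : ∀ x, (repG x : SL(2, ℤ) ⧸ Gamma0 M) = x) (hadG : md32_Adapted repG)
    {repH : SL(2, ℤ) ⧸ Gamma0 (M * r) → SL(2, ℤ)}
    (hrepH : ∀ x, (repH x : SL(2, ℤ) ⧸ Gamma0 (M * r)) = x) (hadH : md32_Adapted repH)
    {χ' : SL(2, ℤ) → ℤ} (hχ' : md32_IsHom (Gamma0 (M * r)) χ')
    {Φ : OnePoint ℚ × OnePoint ℚ → ℤ} (hΦ : ∀ a b c, Φ (a, b) + Φ (b, c) = Φ (a, c))
    (hinv : tr43_Inv M Φ)
    (χG : SL(2, ℤ) → ℤ)
    (hχG : ∀ g (hg : g ∈ Gamma0 M), χG g =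
      ∑ᶠ q : ↥(Gamma0 M) ⧸ (Gamma0 (M * r)).subgroupOf (Gamma0 M),
        χ' ((ct77_h ((Gamma0 (M * r)).subgroupOf (Gamma0 M)) ⟨g, hg⟩ q : Gamma0 M) :
          SL(2, ℤ))) :
    md32_B psl96_rho ∞ repH χ' (Function.curry Φ) =
      md32_B psl96_rho ∞ repG χG (Function.curry Φ) := by
  let act : MulAction SL(2, ℤ) (OnePoint ℚ) := MulAction.compHom (OnePoint ℚ) (mapGL ℚ)
  have hcompat : ∀ (g : SL(2, ℤ)) (c : OnePoint ℚ), mapGL ℚ g • c = g • c := fun _ _ => rfl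
  have ax := cj77_cuspAx_onePoint hcompat
  have hax : adj96_CuspAx (∞ : OnePoint ℚ) := ⟨ax.T_fix, ax.neg_fix, ax.trans, ax.stab_T⟩
  have h2 : ∀ r : ℤ, r + r = 0 → r = 0 := fun r h => by omega
  have h3 : ∀ r : ℤ, r + r + r = 0 → r = 0 := fun r h => by omega
  have hpot : ∀ g ∈ Gamma0 M, ∀ c : OnePoint ℚ,
      Φ (∞, g • c) = Φ (∞, c) + Φ (∞, g • (∞ : OnePoint ℚ)) := by
    intro g hg c
    have e1 := hΦ ∞ (g • ∞) (g • c)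
    have e2 := sc71_inv_apply hinv ⟨g, hg⟩ ∞ c
    rw [← e1, ← e2]
    exact add_comm _ _
  rw [ha54_B_eq _ repH χ' hΦ, ha54_B_eq _ repG χG hΦ]
  exact adj96_cores (G := Gamma0 M) (H := Gamma0 (M * r)) (ha54_Gamma0_le M r)
    (cwc77_neg_one_mem_Gamma0 _) h2 h3 hax hrepG hadG hrepH hadH χ'
    (fun g => Φ (∞, g • (∞ : OnePoint ℚ))) (fun c => Φ (∞, c)) hχ' hpot χG hχG

end Concrete

section Hecke

variable {N ℓ : ℕ}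

/-- finiteness of `SL(2, ℤ) ⧸ Γ₀(N ℓ)` from that of `SL(2, ℤ) ⧸ Γ₀(N)`. -/
theorem ha54_finite (hℓ : ℓ.Prime) (hℓN : ¬ ℓ ∣ N) [Finite (SL(2, ℤ) ⧸ Gamma0 N)] :
    Finite (SL(2, ℤ) ⧸ Gamma0 (N * ℓ)) := by
  have := hk54_finite hℓ hℓN
  exact Finite.of_equiv _ (Subgroup.quotientEquivProdOfLE (ha54_Gamma0_le N ℓ)).symm

/-- **Hecke adjointness (hT)** for the Manin-model pairing at level `N`, `ℓ ∤ N` prime:
`B_N (α, T_ℓ Φ) = B_N (heckeHom N ℓ ℤ α, Φ)`. -/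
theorem ha54_hT (hℓ : ℓ.Prime) (hℓN : ¬ ℓ ∣ N) [Fintype (SL(2, ℤ) ⧸ Gamma0 N)]
    {rep : SL(2, ℤ) ⧸ Gamma0 N → SL(2, ℤ)}
    (hrep : ∀ x, (rep x : SL(2, ℤ) ⧸ Gamma0 N) = x) (had : md32_Adapted rep)
    (α : Additive (Gamma0 N) →+ ℤ)
    {Φ : OnePoint ℚ × OnePoint ℚ → ℤ} (hΦ : ∀ a b c, Φ (a, b) + Φ (b, c) = Φ (a, c))
    (hinv : tr43_Inv N Φ) :
    md32_B psl96_rho ∞ rep (md32_ext α) (Function.curry (tr43_T ℓ Φ)) =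
      md32_B psl96_rho ∞ rep (md32_ext (heckeHom N ℓ ℤ α)) (Function.curry Φ) := by
  classical
  obtain ⟨D⟩ := tr43_Data_exists (N := N) (q := ℓ) ((Nat.Prime.coprime_iff_not_dvd hℓ).mpr hℓN)
  have hr : ℓ ≠ 0 := hℓ.ne_zero
  have hle := ha54_Gamma0_le N ℓ
  have hnegH : (-1 : SL(2, ℤ)) ∈ Gamma0 (N * ℓ) := cwc77_neg_one_mem_Gamma0 _
  have hfinH : Finite (SL(2, ℤ) ⧸ Gamma0 (N * ℓ)) := ha54_finite hℓ hℓN
  let _ : Fintype (SL(2, ℤ) ⧸ Gamma0 (N * ℓ)) := Fintype.ofFinite _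
  obtain ⟨repH, hrepH, hadH⟩ := md32_exists_rep (Γ := Gamma0 (N * ℓ)) hnegH
  have hinv' : tr43_Inv (N * ℓ) Φ := tr43_Inv_of_dvd (dvd_mul_right N ℓ) hinv
  -- `T_ℓ = tr ∘ W ∘ res` (with the Atkin–Lehner element of `D.inv`)
  have hT : tr43_T ℓ Φ = tr43_tr D.inv (tr43_W D.inv Φ) :=
    (tr43_tr_W_res sc71_scalarTriv hr D.inv hinv).symm
  have hWΦ : ∀ a b c, tr43_W D.inv Φ (a, b) + tr43_W D.inv Φ (b, c) = tr43_W D.inv Φ (a, c) :=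
    sc71_IsSymb.W D.inv hΦ
  have hWinv : tr43_Inv (N * ℓ) (tr43_W D.inv Φ) := tr43_W_Inv hr D.inv hinv'
  -- (B-I)
  rw [hT, ha54_BI hℓ D.inv hrep had hrepH hadH (md32_ext_isHom α) hWΦ hWinv]
  -- the hom `α ∘ conj_w` on `Γ₀(N ℓ)`
  have hcwG : ∀ g (hg : g ∈ Gamma0 (N * ℓ)),
      cwc77_cw hr D g = ((D.conj hr ⟨g, hg⟩ : Gamma0 (N * ℓ)) : SL(2, ℤ)) :=
    fun g hg => cwc77_cw_of_mem hr D hg
  have hχ' : md32_IsHom (Gamma0 (N * ℓ)) (md32_ext α ∘ cwc77_cw hr D) := by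
    intro a ha b hb
    have hab : cwc77_cw hr D (a * b) = cwc77_cw hr D a * cwc77_cw hr D b := by
      rw [hcwG a ha, hcwG b hb, hcwG (a * b) ((Gamma0 (N * ℓ)).mul_mem ha hb)]
      have : (⟨a * b, (Gamma0 (N * ℓ)).mul_mem ha hb⟩ : Gamma0 (N * ℓ)) = ⟨a, ha⟩ * ⟨b, hb⟩ := rfl
      rw [this, map_mul, Subgroup.coe_mul]
    simp only [Function.comp_apply]
    rw [hab]
    exact md32_ext_isHom α _ (hle (cwc77_cw_spec hr D a ha).1) _ (hle (cwc77_cw_spec hr D b hb).1)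
  -- (B-W)
  have e1 : md32_B psl96_rho ∞ repH (md32_ext α) (Function.curry (tr43_W D.inv Φ)) =
      md32_B psl96_rho ∞ repH ((md32_ext α ∘ cwc77_cw hr D) ∘ cwc77_cw hr D.inv)
        (Function.curry (tr43_W D.inv Φ)) := by
    refine md32_B_congr hnegH hrepH (fun g hg => ?_) _
    simp only [Function.comp_apply]
    congr 1
    rw [cwc77_cw_of_mem hr D.inv hg, hcwG _ (D.inv.conj hr ⟨g, hg⟩).2]
    have : D.conj hr ⟨((D.inv.conj hr ⟨g, hg⟩ : Gamma0 (N * ℓ)) : SL(2, ℤ)),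
        (D.inv.conj hr ⟨g, hg⟩).2⟩ = ⟨g, hg⟩ := by
      have h := (D.conj hr).apply_symm_apply ⟨g, hg⟩
      rwa [D.conj_symm_apply hr] at h
    rw [this]
  rw [e1, cwc77_BW_conj hr D.inv hrepH hadH hχ' hΦ hinv']
  -- (B-I') and (H-id)
  refine ha54_BI' hrep had hrepH hadH hχ' hΦ hinv _ (fun g hg => ?_)
  rw [md32_ext_of_mem _ hg,
    hk54_heckeHom_eq_cores hℓ hℓN D
      (fun h => ⟨((D.conj hr h : Gamma0 (N * ℓ)) : SL(2, ℤ)), hle (D.conj hr h).2⟩)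
      (fun h => D.conj_spec hr h) α ⟨g, hg⟩]
  refine finsum_congr fun q => ?_
  have hmem := Subgroup.mem_subgroupOf.mp
    (ct77_h_mem ((Gamma0 (N * ℓ)).subgroupOf (Gamma0 N)) ⟨g, hg⟩ q)
  rw [Function.comp_apply, hcwG _ hmem, md32_ext_of_mem _ (hle (D.conj hr ⟨_, hmem⟩).2)]

end Hecke

end Fermat.Agent.S41
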