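/-
S41 (level raising), module M1.C (helper40): commutation of the Hecke operators `T_ℓ`, `T_ℓ'`
(`ℓ ≠ ℓ'` primes) on functions on a set with an action of the integer matrices of nonzero
determinant, and invariance of `T_ℓ Φ` under `Γ₀(M)`.  Model-agnostic; the coset representatives
are those of S16 (`hh_repTInt ℓ : Option (Fin ℓ) → Matrix (Fin 2) (Fin 2) ℤ`).
-/
import Mathlib
import Fermat.Agent.S41.ETrick40
import Fermat.Agent.S41.Trace43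

set_option autoImplicit false

open scoped MatrixGroups

namespace Fermat.Agent.S41

open Fermat.Agent.S16

/-! ### Right division by the coset representatives -/

theorem hc40_repT_10 (ℓ : ℕ) (i : Option (Fin ℓ)) : hh_repTInt ℓ i 1 0 = 0 := by
  rcases i with _ | j <;> simp [hh_repTInt, hh_mD, hh_mU]

theorem hc40_repT_det (ℓ : ℕ) (i : Option (Fin ℓ)) : (hh_repTInt ℓ i).det = ℓ := by
  rcases i with _ | j
  · exact h40_det_mD ℓ
  · exact h40_det_mU ℓ _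

/-- an integer matrix whose determinant is divisible by the prime `ℓ` is right-divisible by one
of the representatives of `T_ℓ`. -/
theorem hc40_div {ℓ : ℕ} (hℓ : ℓ.Prime) (B : Matrix (Fin 2) (Fin 2) ℤ)
    (hdet : (ℓ : ℤ) ∣ B.det) :
    ∃ (i : Option (Fin ℓ)) (B' : Matrix (Fin 2) (Fin 2) ℤ), B = B' * hh_repTInt ℓ i ∧
      (B' 1 0 = B 1 0 ∨ (ℓ : ℤ) * B' 1 0 = B 1 0) := by
  obtain ⟨a, b, c, d, rfl⟩ : ∃ a b c d : ℤ, B = !![a, b; c, d] :=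
    ⟨B 0 0, B 0 1, B 1 0, B 1 1, Matrix.eta_fin_two B⟩
  rw [Matrix.det_fin_two_of] at hdet
  have hℓp : Prime (ℓ : ℤ) := Nat.prime_iff_prime_int.mp hℓ
  by_cases hac : (ℓ : ℤ) ∣ a ∧ (ℓ : ℤ) ∣ c
  · obtain ⟨⟨a', rfl⟩, ⟨c', rfl⟩⟩ := hac
    refine ⟨none, !![a', b; c', d], ?_, Or.inr (by simp)⟩
    simp only [hh_repTInt, hh_mD]
    ext x y
    fin_cases x <;> fin_cases y <;> simp [Matrix.mul_apply, Fin.sum_univ_two] <;> ring
  · -- find `j` with `b ≡ j a`, `d ≡ j c`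
    have hj : ∃ j : Fin ℓ, (ℓ : ℤ) ∣ b - (j : ℕ) * a ∧ (ℓ : ℤ) ∣ d - (j : ℕ) * c := by
      by_cases ha : (ℓ : ℤ) ∣ a
      · have hc : ¬ (ℓ : ℤ) ∣ c := fun hc => hac ⟨ha, hc⟩
        obtain ⟨j, hj⟩ := hh_exists_fin hℓ c d hc
        refine ⟨j, ?_, hj⟩
        have h1 : (ℓ : ℤ) ∣ c * (b - (j : ℕ) * a) := by
          have e : c * (b - (j : ℕ) * a) = a * (d - (j : ℕ) * c) - (a * d - b * c) := by ring
          rw [e]
          exact dvd_sub (Dvd.dvd.mul_left hj a) hdet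
        exact (hℓp.dvd_or_dvd h1).resolve_left hc
      · obtain ⟨j, hj⟩ := hh_exists_fin hℓ a b ha
        refine ⟨j, hj, ?_⟩
        have h1 : (ℓ : ℤ) ∣ a * (d - (j : ℕ) * c) := by
          have e : a * (d - (j : ℕ) * c) = c * (b - (j : ℕ) * a) + (a * d - b * c) := by ring
          rw [e]
          exact dvd_add (Dvd.dvd.mul_left hj c) hdet
        exact (hℓp.dvd_or_dvd h1).resolve_left ha
    obtain ⟨j, ⟨e1, he1⟩, ⟨e2, he2⟩⟩ := hj
    refine ⟨some j, !![a, e1; c, e2], ?_, Or.inl (by simp)⟩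
    simp only [hh_repTInt, hh_mU]
    ext x y
    fin_cases x <;> fin_cases y <;> simp [Matrix.mul_apply, Fin.sum_univ_two]
    · linear_combination he1
    · linear_combination he2

/-- a matrix which is right-divisible by two different representatives of `T_ℓ` vanishes
modulo `ℓ`. -/
theorem hc40_uniq {ℓ : ℕ} (hℓ : ℓ.Prime) {i i' : Option (Fin ℓ)}
    {B' B'' : Matrix (Fin 2) (Fin 2) ℤ}
    (h : B' * hh_repTInt ℓ i = B'' * hh_repTInt ℓ i') (hne : i ≠ i') :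
    ∀ r c, (ℓ : ℤ) ∣ (B' * hh_repTInt ℓ i) r c := by
  obtain ⟨a, b, c, d, rfl⟩ : ∃ a b c d : ℤ, B' = !![a, b; c, d] :=
    ⟨B' 0 0, B' 0 1, B' 1 0, B' 1 1, Matrix.eta_fin_two B'⟩
  obtain ⟨a', b', c', d', rfl⟩ : ∃ a b c d : ℤ, B'' = !![a, b; c, d] :=
    ⟨B'' 0 0, B'' 0 1, B'' 1 0, B'' 1 1, Matrix.eta_fin_two B''⟩
  have hℓp : Prime (ℓ : ℤ) := Nat.prime_iff_prime_int.mp hℓ
  have h00 := congrFun (congrFun h 0) 0
  have h01 := congrFun (congrFun h 0) 1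
  have h10 := congrFun (congrFun h 1) 0
  have h11 := congrFun (congrFun h 1) 1
  -- a difference of two distinct residues is prime to `ℓ`
  have hdiff : ∀ j j' : Fin ℓ, j ≠ j' → ¬ (ℓ : ℤ) ∣ ((j : ℕ) : ℤ) - ((j' : ℕ) : ℤ) := by
    intro j j' hjj hd
    apply hjj
    have h1 : ((j : ℕ) : ℤ) ≡ ((j' : ℕ) : ℤ) [ZMOD (ℓ : ℤ)] := (Int.modEq_iff_dvd.mpr
      (by simpa using (dvd_neg.mpr hd))).symm.symm
    have h2 : (j : ℕ) ≡ (j' : ℕ) [MOD ℓ] := Int.natCast_modEq_iff.mp h1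
    exact Fin.ext (by rw [← Nat.mod_eq_of_lt j.2, ← Nat.mod_eq_of_lt j'.2]; exact h2)
  rcases i with _ | j <;> rcases i' with _ | j'
  · exact absurd rfl hne
  · simp [hh_repTInt, hh_mD, hh_mU, Matrix.mul_apply, Fin.sum_univ_two] at h00 h01 h10 h11
    intro r s
    fin_cases r <;> fin_cases s <;>
      simp [hh_repTInt, hh_mD, Matrix.mul_apply, Fin.sum_univ_two]
    · rw [h01, ← h00]; exact ⟨a * (j' : ℕ) + b', by ring⟩
    · rw [h11, ← h10]; exact ⟨c * (j' : ℕ) + d', by ring⟩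
  · simp [hh_repTInt, hh_mD, hh_mU, Matrix.mul_apply, Fin.sum_univ_two] at h00 h01 h10 h11
    intro r s
    fin_cases r <;> fin_cases s <;>
      simp [hh_repTInt, hh_mU, Matrix.mul_apply, Fin.sum_univ_two]
    · rw [h00]; exact Dvd.intro_left _ rfl
    · rw [h00]; exact ⟨a' * ((j : ℕ) : ℤ), by ring⟩
    · rw [h10]; exact Dvd.intro_left _ rfl
    · rw [h10]; exact ⟨c' * ((j : ℕ) : ℤ), by ring⟩
  · simp [hh_repTInt, hh_mU, Matrix.mul_apply, Fin.sum_univ_two] at h00 h01 h10 h11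
    have hjj : j ≠ j' := fun e => hne (congrArg some e)
    have ha : (ℓ : ℤ) ∣ a := by
      have h1 : (ℓ : ℤ) ∣ a * (((j : ℕ) : ℤ) - ((j' : ℕ) : ℤ)) :=
        ⟨b' - b, by rw [← h00] at h01; linear_combination h01⟩
      exact (hℓp.dvd_or_dvd h1).resolve_right (hdiff j j' hjj)
    have hc : (ℓ : ℤ) ∣ c := by
      have h1 : (ℓ : ℤ) ∣ c * (((j : ℕ) : ℤ) - ((j' : ℕ) : ℤ)) :=
        ⟨d' - d, by rw [← h10] at h11; linear_combination h11⟩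
      exact (hℓp.dvd_or_dvd h1).resolve_right (hdiff j j' hjj)
    intro r s
    fin_cases r <;> fin_cases s <;>
      simp [hh_repTInt, hh_mU, Matrix.mul_apply, Fin.sum_univ_two]
    · exact ha
    · exact Dvd.dvd.mul_right ha _
    · exact hc
    · exact Dvd.dvd.mul_right hc _

/-- if `ℓ` divides all the entries of a `2 × 2` integer matrix, `ℓ²` divides its determinant. -/
theorem hc40_sq_dvd_det {ℓ : ℤ} {B : Matrix (Fin 2) (Fin 2) ℤ} (h : ∀ r c, ℓ ∣ B r c) :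
    ℓ ^ 2 ∣ B.det := by
  rw [Matrix.det_fin_two]
  obtain ⟨a, ha⟩ := h 0 0
  obtain ⟨b, hb⟩ := h 0 1
  obtain ⟨c, hc⟩ := h 1 0
  obtain ⟨d, hd⟩ := h 1 1
  rw [ha, hb, hc, hd]
  exact ⟨a * d - b * c, by ring⟩

/-- uniqueness of the right divisor among the representatives of `T_ℓ` when `ℓ² ∤ det`. -/
theorem hc40_uniq' {ℓ : ℕ} (hℓ : ℓ.Prime) {i i' : Option (Fin ℓ)}
    {B' B'' : Matrix (Fin 2) (Fin 2) ℤ}
    (h : B' * hh_repTInt ℓ i = B'' * hh_repTInt ℓ i')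
    (hdet : ¬ (ℓ : ℤ) ^ 2 ∣ (B' * hh_repTInt ℓ i).det) : i = i' := by
  by_contra hne
  exact hdet (hc40_sq_dvd_det (hc40_uniq hℓ h hne))

/-- right cancellation of an integer matrix of nonzero determinant. -/
theorem hc40_cancel {A C R : Matrix (Fin 2) (Fin 2) ℤ} (hR : R.det ≠ 0) (h : A * R = C * R) :
    A = C := by
  have h1 : A * R * R.adjugate = C * R * R.adjugate := by rw [h]
  rw [Matrix.mul_assoc, Matrix.mul_assoc, Matrix.mul_adjugate, Matrix.mul_smul, Matrix.mul_smul,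
    Matrix.mul_one, Matrix.mul_one] at h1
  ext r c
  have h2 := congrFun (congrFun h1 r) c
  simp only [Matrix.smul_apply, smul_eq_mul] at h2
  exact mul_left_cancel₀ hR h2

/-! ### Exchanging the representatives of `T_ℓ` and `T_ℓ'` -/

/-- `β'_k β_i = g β_{i'} β'_{k'}` with `g` upper triangular of determinant one. -/
theorem hc40_decomp {ℓ ℓ' : ℕ} (hℓ : ℓ.Prime) (hℓ' : ℓ'.Prime) (k : Option (Fin ℓ'))
    (i : Option (Fin ℓ)) :
    ∃ (i' : Option (Fin ℓ)) (k' : Option (Fin ℓ')) (g : Matrix (Fin 2) (Fin 2) ℤ),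
      g.det = 1 ∧ g 1 0 = 0 ∧
        hh_repTInt ℓ' k * hh_repTInt ℓ i = g * (hh_repTInt ℓ i' * hh_repTInt ℓ' k') := by
  have hℓ'0 : (ℓ' : ℤ) ≠ 0 := by exact_mod_cast hℓ'.ne_zero
  have hℓ0 : (ℓ : ℤ) ≠ 0 := by exact_mod_cast hℓ.ne_zero
  have hBdet : (hh_repTInt ℓ' k * hh_repTInt ℓ i).det = (ℓ' : ℤ) * ℓ := by
    rw [Matrix.det_mul, hc40_repT_det, hc40_repT_det]
  have hB10 : (hh_repTInt ℓ' k * hh_repTInt ℓ i) 1 0 = 0 := by
    rw [Matrix.mul_apply, Fin.sum_univ_two, hc40_repT_10, hc40_repT_10]; ring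
  obtain ⟨k', B₁, hB₁, h10⟩ := hc40_div hℓ' (hh_repTInt ℓ' k * hh_repTInt ℓ i)
    (by rw [hBdet]; exact Dvd.intro _ rfl)
  have hB₁10 : B₁ 1 0 = 0 := by
    rcases h10 with h | h
    · rw [h, hB10]
    · rw [hB10] at h; exact (mul_eq_zero.mp h).resolve_left hℓ'0
  have hB₁det : B₁.det = ℓ := by
    have h1 := congrArg Matrix.det hB₁
    rw [hBdet, Matrix.det_mul, hc40_repT_det] at h1
    exact mul_right_cancel₀ hℓ'0 (by rw [← h1]; ring)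
  obtain ⟨i', g, hg, hg10⟩ := hc40_div hℓ B₁ (by rw [hB₁det])
  have hg10' : g 1 0 = 0 := by
    rcases hg10 with h | h
    · rw [h, hB₁10]
    · rw [hB₁10] at h; exact (mul_eq_zero.mp h).resolve_left hℓ0
  have hgdet : g.det = 1 := by
    have h1 := congrArg Matrix.det hg
    rw [hB₁det, Matrix.det_mul, hc40_repT_det] at h1
    exact mul_right_cancel₀ hℓ0 (by rw [← h1]; ring)
  exact ⟨i', k', g, hgdet, hg10', by rw [hB₁, hg, Matrix.mul_assoc]⟩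

/-- the exchange `(k, i) ↦ (i', k')` is injective. -/
theorem hc40_decomp_inj {ℓ ℓ' : ℕ} (hℓ : ℓ.Prime) (hℓ' : ℓ'.Prime) (hne : ℓ ≠ ℓ')
    {k₁ k₂ : Option (Fin ℓ')} {i₁ i₂ : Option (Fin ℓ)} {g₁ g₂ M : Matrix (Fin 2) (Fin 2) ℤ}
    (hg₂ : g₂.det = 1)
    (h₁ : hh_repTInt ℓ' k₁ * hh_repTInt ℓ i₁ = g₁ * M)
    (h₂ : hh_repTInt ℓ' k₂ * hh_repTInt ℓ i₂ = g₂ * M) : k₁ = k₂ ∧ i₁ = i₂ := by
  have hM : M = g₂.adjugate * (hh_repTInt ℓ' k₂ * hh_repTInt ℓ i₂) := by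
    rw [h₂, ← Matrix.mul_assoc, Matrix.adjugate_mul, hg₂, one_smul, Matrix.one_mul]
  have h : hh_repTInt ℓ' k₁ * hh_repTInt ℓ i₁
      = (g₁ * g₂.adjugate * hh_repTInt ℓ' k₂) * hh_repTInt ℓ i₂ := by
    rw [h₁]
    conv_lhs => rw [hM]
    simp only [Matrix.mul_assoc]
  have hdet : (hh_repTInt ℓ' k₁ * hh_repTInt ℓ i₁).det = (ℓ' : ℤ) * ℓ := by
    rw [Matrix.det_mul, hc40_repT_det, hc40_repT_det]
  have hℓ0 : (ℓ : ℤ) ≠ 0 := by exact_mod_cast hℓ.ne_zero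
  have hi : i₁ = i₂ := by
    apply hc40_uniq' hℓ h
    rw [hdet]
    intro hd
    have h1 : (ℓ : ℤ) ∣ ℓ' := by
      rw [pow_two] at hd
      exact (mul_dvd_mul_iff_right hℓ0).mp hd
    have h2 : ℓ ∣ ℓ' := Int.natCast_dvd_natCast.mp h1
    exact hne ((Nat.prime_dvd_prime_iff_eq hℓ hℓ').mp h2)
  subst hi
  have h' : hh_repTInt ℓ' k₁ = g₁ * g₂.adjugate * hh_repTInt ℓ' k₂ :=
    hc40_cancel (by rw [hc40_repT_det]; exact hℓ0) h
  have hk : k₁ = k₂ := by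
    have h'' : (1 : Matrix (Fin 2) (Fin 2) ℤ) * hh_repTInt ℓ' k₁
        = (g₁ * g₂.adjugate) * hh_repTInt ℓ' k₂ := by rw [Matrix.one_mul]; exact h'
    apply hc40_uniq' hℓ' h''
    rw [Matrix.one_mul, hc40_repT_det]
    intro hd
    have h1 : ℓ' ^ 2 ∣ ℓ' := by exact_mod_cast hd
    have h2 := Nat.le_of_dvd hℓ'.pos h1
    nlinarith [hℓ'.two_le]
  exact ⟨hk, rfl⟩

/-- **The exchange principle**: for `ℓ ≠ ℓ'` primes and any function `F` of integer matrices which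
is invariant under left multiplication by upper triangular matrices of determinant one, the double
sums of `F` over the products `β'_k β_i` and `β_i β'_k` agree. -/
theorem hc40_sum_comm {ℓ ℓ' : ℕ} (hℓ : ℓ.Prime) (hℓ' : ℓ'.Prime) (hne : ℓ ≠ ℓ')
    {M : Type*} [AddCommMonoid M] (F : Matrix (Fin 2) (Fin 2) ℤ → M)
    (hF : ∀ g B : Matrix (Fin 2) (Fin 2) ℤ, g.det = 1 → g 1 0 = 0 → B.det ≠ 0 →
      F (g * B) = F B) :
    ∑ i : Option (Fin ℓ), ∑ k : Option (Fin ℓ'), F (hh_repTInt ℓ' k * hh_repTInt ℓ i)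
      = ∑ k : Option (Fin ℓ'), ∑ i : Option (Fin ℓ), F (hh_repTInt ℓ i * hh_repTInt ℓ' k) := by
  choose σ₁ σ₂ g hgdet hg10 hσ using
    fun x : Option (Fin ℓ') × Option (Fin ℓ) => hc40_decomp hℓ hℓ' x.1 x.2
  have hinj : Function.Injective
      (fun x : Option (Fin ℓ') × Option (Fin ℓ) => ((σ₁ x, σ₂ x) : Option (Fin ℓ) × Option (Fin ℓ'))) := by
    intro x y hxy
    have e1 : σ₁ x = σ₁ y := congrArg Prod.fst hxy
    have e2 : σ₂ x = σ₂ y := congrArg Prod.snd hxy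
    have hx := hσ x
    have hy := hσ y
    rw [e1, e2] at hx
    obtain ⟨hk, hi⟩ := hc40_decomp_inj hℓ hℓ' hne (hgdet y) hx hy
    exact Prod.ext hk hi
  have hbij : Function.Bijective
      (fun x : Option (Fin ℓ') × Option (Fin ℓ) => ((σ₁ x, σ₂ x) : Option (Fin ℓ) × Option (Fin ℓ'))) := by
    rw [Fintype.bijective_iff_injective_and_card]
    refine ⟨hinj, ?_⟩
    rw [Fintype.card_prod, Fintype.card_prod, mul_comm]
  have hdet : ∀ (i : Option (Fin ℓ)) (k : Option (Fin ℓ')),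
      (hh_repTInt ℓ i * hh_repTInt ℓ' k).det ≠ 0 := by
    intro i k
    rw [Matrix.det_mul, hc40_repT_det, hc40_repT_det]
    exact mul_ne_zero (by exact_mod_cast hℓ.ne_zero) (by exact_mod_cast hℓ'.ne_zero)
  calc ∑ i : Option (Fin ℓ), ∑ k : Option (Fin ℓ'), F (hh_repTInt ℓ' k * hh_repTInt ℓ i)
      = ∑ x : Option (Fin ℓ') × Option (Fin ℓ), F (hh_repTInt ℓ' x.1 * hh_repTInt ℓ x.2) :=
        (Fintype.sum_prod_type_right'
          (fun (k : Option (Fin ℓ')) (i : Option (Fin ℓ)) =>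
            F (hh_repTInt ℓ' k * hh_repTInt ℓ i))).symm
    _ = ∑ x : Option (Fin ℓ') × Option (Fin ℓ),
          F (hh_repTInt ℓ (σ₁ x) * hh_repTInt ℓ' (σ₂ x)) := by
        refine Finset.sum_congr rfl fun x _ => ?_
        rw [hσ x, hF _ _ (hgdet x) (hg10 x) (hdet _ _)]
    _ = ∑ y : Option (Fin ℓ) × Option (Fin ℓ'), F (hh_repTInt ℓ y.1 * hh_repTInt ℓ' y.2) :=
        hbij.sum_comp (fun y : Option (Fin ℓ) × Option (Fin ℓ') =>
          F (hh_repTInt ℓ y.1 * hh_repTInt ℓ' y.2))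
    _ = ∑ k : Option (Fin ℓ'), ∑ i : Option (Fin ℓ), F (hh_repTInt ℓ i * hh_repTInt ℓ' k) :=
        Fintype.sum_prod_type_right'
          (fun (i : Option (Fin ℓ)) (k : Option (Fin ℓ')) =>
            F (hh_repTInt ℓ i * hh_repTInt ℓ' k))

/-! ### The variant for `U_q` -/

theorem hc40_repT_00 (ℓ : ℕ) (i : Option (Fin ℓ)) :
    hh_repTInt ℓ i 0 0 = ℓ ∨ hh_repTInt ℓ i 0 0 = 1 := by
  rcases i with _ | j <;> simp [hh_repTInt, hh_mD, hh_mU]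

theorem hc40_repT_00_none (ℓ : ℕ) : hh_repTInt ℓ none 0 0 = ℓ := by
  simp [hh_repTInt, hh_mD]

theorem hc40_repT_00_some (ℓ : ℕ) (j : Fin ℓ) : hh_repTInt ℓ (some j) 0 0 = 1 := by
  simp [hh_repTInt, hh_mU]

theorem hc40_mul_10 {A B : Matrix (Fin 2) (Fin 2) ℤ} (hA : A 1 0 = 0) (hB : B 1 0 = 0) :
    (A * B) 1 0 = 0 := by
  rw [Matrix.mul_apply, Fin.sum_univ_two, hA, hB]; ring

theorem hc40_mul_00 (A : Matrix (Fin 2) (Fin 2) ℤ) {B : Matrix (Fin 2) (Fin 2) ℤ}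
    (hB : B 1 0 = 0) : (A * B) 0 0 = A 0 0 * B 0 0 := by
  rw [Matrix.mul_apply, Fin.sum_univ_two, hB]; ring

/-- the exchange principle for `T_ℓ` and `U_q` (`ℓ ≠ q` primes). -/
theorem hc40_sum_comm_U {ℓ q : ℕ} (hℓ : ℓ.Prime) (hq : q.Prime) (hne : ℓ ≠ q)
    {M : Type*} [AddCommMonoid M] (F : Matrix (Fin 2) (Fin 2) ℤ → M)
    (hF : ∀ g B : Matrix (Fin 2) (Fin 2) ℤ, g.det = 1 → g 1 0 = 0 → B.det ≠ 0 →
      F (g * B) = F B) :
    ∑ i : Option (Fin ℓ), ∑ b : Fin q, F (hh_repTInt q (some b) * hh_repTInt ℓ i)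
      = ∑ b : Fin q, ∑ i : Option (Fin ℓ), F (hh_repTInt ℓ i * hh_repTInt q (some b)) := by
  classical
  have hF' : ∀ g B : Matrix (Fin 2) (Fin 2) ℤ, g.det = 1 → g 1 0 = 0 → B.det ≠ 0 →
      (if (q : ℤ) ∣ (g * B) 0 0 ∨ (g * B) 1 0 ≠ 0 then (0 : M) else F (g * B))
        = (if (q : ℤ) ∣ B 0 0 ∨ B 1 0 ≠ 0 then (0 : M) else F B) := by
    intro g B hg hg10 hB
    have h00 : g 0 0 * g 1 1 = 1 := by
      rw [Matrix.det_fin_two, hg10] at hg; linarith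
    have hu0 : IsUnit (g 0 0) := IsUnit.of_mul_eq_one _ h00
    have hu1 : g 1 1 ≠ 0 := by intro h; rw [h] at h00; simp at h00
    by_cases hB10 : B 1 0 = 0
    · have e1 : (g * B) 1 0 = 0 := hc40_mul_10 hg10 hB10
      have e0 : (g * B) 0 0 = g 0 0 * B 0 0 := hc40_mul_00 g hB10
      by_cases hd : (q : ℤ) ∣ B 0 0
      · rw [if_pos (Or.inl hd), if_pos (Or.inl (by rw [e0]; exact Dvd.dvd.mul_left hd _))]
      · have hd' : ¬ (q : ℤ) ∣ (g * B) 0 0 := by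
          rw [e0, hu0.dvd_mul_left]; exact hd
        rw [if_neg (by rintro (h | h); exacts [hd' h, h e1]),
          if_neg (by rintro (h | h); exacts [hd h, h hB10]), hF g B hg hg10 hB]
    · have e1 : (g * B) 1 0 ≠ 0 := by
        rw [Matrix.mul_apply, Fin.sum_univ_two, hg10, zero_mul, zero_add]
        exact mul_ne_zero hu1 hB10
      rw [if_pos (Or.inr e1), if_pos (Or.inr hB10)]
  have key := hc40_sum_comm hℓ hq hne
    (fun B : Matrix (Fin 2) (Fin 2) ℤ => if (q : ℤ) ∣ B 0 0 ∨ B 1 0 ≠ 0 then (0 : M) else F B) hF'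
  have hnd : ∀ i : Option (Fin ℓ), ¬ (q : ℤ) ∣ hh_repTInt ℓ i 0 0 := by
    intro i hd
    rcases hc40_repT_00 ℓ i with h | h
    · rw [h] at hd
      exact hne ((Nat.prime_dvd_prime_iff_eq hq hℓ).mp (Int.natCast_dvd_natCast.mp hd)).symm
    · rw [h] at hd
      have h1 : q ∣ 1 := by exact_mod_cast hd
      exact hq.one_lt.ne' (Nat.dvd_one.mp h1)
  have hL : ∀ i : Option (Fin ℓ),
      ∑ k : Option (Fin q), (if (q : ℤ) ∣ (hh_repTInt q k * hh_repTInt ℓ i) 0 0 ∨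
          (hh_repTInt q k * hh_repTInt ℓ i) 1 0 ≠ 0 then (0 : M)
          else F (hh_repTInt q k * hh_repTInt ℓ i))
        = ∑ b : Fin q, F (hh_repTInt q (some b) * hh_repTInt ℓ i) := by
    intro i
    rw [Fintype.sum_option, if_pos (Or.inl (by
      rw [hc40_mul_00 _ (hc40_repT_10 ℓ i), hc40_repT_00_none]; exact Dvd.intro _ rfl)), zero_add]
    refine Finset.sum_congr rfl fun b _ => ?_
    rw [if_neg]
    rintro (h | h)
    · rw [hc40_mul_00 _ (hc40_repT_10 ℓ i), hc40_repT_00_some, one_mul] at h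
      exact hnd i h
    · exact h (hc40_mul_10 (hc40_repT_10 q _) (hc40_repT_10 ℓ i))
  have hR : ∀ i : Option (Fin ℓ),
      (if (q : ℤ) ∣ (hh_repTInt ℓ i * hh_repTInt q none) 0 0 ∨
          (hh_repTInt ℓ i * hh_repTInt q none) 1 0 ≠ 0 then (0 : M)
          else F (hh_repTInt ℓ i * hh_repTInt q none)) = 0 := by
    intro i
    rw [if_pos (Or.inl (by
      rw [hc40_mul_00 _ (hc40_repT_10 q none), hc40_repT_00_none]; exact Dvd.intro_left _ rfl))]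
  have hR' : ∀ (i : Option (Fin ℓ)) (b : Fin q),
      (if (q : ℤ) ∣ (hh_repTInt ℓ i * hh_repTInt q (some b)) 0 0 ∨
          (hh_repTInt ℓ i * hh_repTInt q (some b)) 1 0 ≠ 0 then (0 : M)
          else F (hh_repTInt ℓ i * hh_repTInt q (some b)))
        = F (hh_repTInt ℓ i * hh_repTInt q (some b)) := by
    intro i b
    rw [if_neg]
    rintro (h | h)
    · rw [hc40_mul_00 _ (hc40_repT_10 q _), hc40_repT_00_some, mul_one] at h
      exact hnd i h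
    · exact h (hc40_mul_10 (hc40_repT_10 ℓ i) (hc40_repT_10 q _))
  simp only [hL] at key
  rw [key, Fintype.sum_option]
  simp only [hR, hR', Finset.sum_const_zero, zero_add]

/-! ### Instance: the trace calculus model of `Trace43` -/

theorem hc40_lbMat (ℓ : ℕ) (i : Option (Fin ℓ)) : lbMat ℓ i = hh_repTInt ℓ i := by
  rcases i with _ | j <;> rfl

section Trace

variable {X : Type*} [MulAction (GL (Fin 2) ℚ) X] {A : Type*} [AddCommGroup A]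

theorem hc40_T_T {ℓ ℓ' : ℕ} (hℓ : ℓ ≠ 0) (hℓ' : ℓ' ≠ 0) (Φ : X → A) :
    tr43_T ℓ (tr43_T ℓ' Φ)
      = ∑ i : Option (Fin ℓ), ∑ k : Option (Fin ℓ'),
          tr43_sl Φ (hh_repTInt ℓ' k * hh_repTInt ℓ i) := by
  rw [tr43_T]
  refine Finset.sum_congr rfl fun i _ => ?_
  rw [tr43_T, tr43_sl_sum]
  refine Finset.sum_congr rfl fun k _ => ?_
  rw [tr43_sl_sl Φ (tr43_lbMat_det_ne hℓ' k) (tr43_lbMat_det_ne hℓ i), hc40_lbMat, hc40_lbMat]

theorem hc40_T_U {ℓ q : ℕ} (hℓ : ℓ ≠ 0) (hq : q ≠ 0) (Φ : X → A) :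
    tr43_T ℓ (tr43_U q Φ)
      = ∑ i : Option (Fin ℓ), ∑ b : Fin q,
          tr43_sl Φ (hh_repTInt q (some b) * hh_repTInt ℓ i) := by
  rw [tr43_T]
  refine Finset.sum_congr rfl fun i _ => ?_
  rw [tr43_U, tr43_sl_sum]
  refine Finset.sum_congr rfl fun b _ => ?_
  rw [tr43_sl_sl Φ (tr43_lbMat_det_ne hq (some b)) (tr43_lbMat_det_ne hℓ i), hc40_lbMat,
    hc40_lbMat]

theorem hc40_U_T {ℓ q : ℕ} (hℓ : ℓ ≠ 0) (hq : q ≠ 0) (Φ : X → A) :
    tr43_U q (tr43_T ℓ Φ)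
      = ∑ b : Fin q, ∑ i : Option (Fin ℓ),
          tr43_sl Φ (hh_repTInt ℓ i * hh_repTInt q (some b)) := by
  rw [tr43_U]
  refine Finset.sum_congr rfl fun b _ => ?_
  rw [tr43_T, tr43_sl_sum]
  refine Finset.sum_congr rfl fun i _ => ?_
  rw [tr43_sl_sl Φ (tr43_lbMat_det_ne hℓ i) (tr43_lbMat_det_ne hq (some b)), hc40_lbMat,
    hc40_lbMat]

omit [AddCommGroup A] in
/-- a `Γ₀(N)`-invariant function is invariant under the upper triangular matrices of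
determinant one. -/
theorem hc40_sl_inv {N : ℕ} {Φ : X → A} (hΦ : tr43_Inv N Φ) (g B : Matrix (Fin 2) (Fin 2) ℤ)
    (hg : g.det = 1) (hg10 : g 1 0 = 0) (hB : B.det ≠ 0) :
    tr43_sl Φ (g * B) = tr43_sl Φ B :=
  tr43_sl_Gamma0_mul hΦ (tr43_mk N g hg (by rw [hg10]; exact dvd_zero _)) hB

/-- **`T_ℓ T_ℓ' = T_ℓ' T_ℓ`** on `Γ₀(N)`-invariant functions (`ℓ ≠ ℓ'` primes, any level `N`:
the primes may divide `N`). -/
theorem hc40_T_comm {N ℓ ℓ' : ℕ} (hℓ : ℓ.Prime) (hℓ' : ℓ'.Prime) (hne : ℓ ≠ ℓ') {Φ : X → A}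
    (hΦ : tr43_Inv N Φ) : tr43_T ℓ (tr43_T ℓ' Φ) = tr43_T ℓ' (tr43_T ℓ Φ) := by
  rw [hc40_T_T hℓ.ne_zero hℓ'.ne_zero, hc40_T_T hℓ'.ne_zero hℓ.ne_zero]
  exact hc40_sum_comm hℓ hℓ' hne (fun B => tr43_sl Φ B)
    (fun g B hg hg10 hB => hc40_sl_inv hΦ g B hg hg10 hB)

/-- **`T_ℓ U_q = U_q T_ℓ`** on `Γ₀(N)`-invariant functions (`ℓ ≠ q` primes, any level `N`). -/
theorem hc40_T_U_comm {N ℓ q : ℕ} (hℓ : ℓ.Prime) (hq : q.Prime) (hne : ℓ ≠ q) {Φ : X → A}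
    (hΦ : tr43_Inv N Φ) : tr43_T ℓ (tr43_U q Φ) = tr43_U q (tr43_T ℓ Φ) := by
  rw [hc40_T_U hℓ.ne_zero hq.ne_zero, hc40_U_T hℓ.ne_zero hq.ne_zero]
  exact hc40_sum_comm_U hℓ hq hne (fun B => tr43_sl Φ B)
    (fun g B hg hg10 hB => hc40_sl_inv hΦ g B hg hg10 hB)

end Trace

/-! ### Instance: two-variable symbols on `ℙ¹(ℚ)` (the model of `ETrick40`) -/

section Symb

open CongruenceSubgroup Matrix.SpecialLinearGroup

variable {A : Type*} [AddCommGroup A]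

/-- `T_ℓ` of a symbol is a symbol. -/
theorem hc40_heckeT_isSymb {φ : OnePoint ℚ → OnePoint ℚ → A} (h : h40_IsSymb φ) (ℓ : ℕ) :
    h40_IsSymb (h40_heckeT ℓ φ) := by
  intro r s t
  simp only [h40_heckeT]
  rw [← Finset.sum_add_distrib]
  exact Finset.sum_congr rfl fun i _ => h _ _ _

/-- `T_ℓ` preserves `Γ₀(N)`-invariance of two-variable functions (`ℓ ∤ N`). -/
theorem hc40_heckeT_stab {N ℓ : ℕ} (hℓ : ℓ.Prime) (hℓN : ¬ ℓ ∣ N)
    {φ : OnePoint ℚ → OnePoint ℚ → A}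
    (hΓ : ∀ γ ∈ Gamma0 N, mapGL ℚ γ ∈ h40_stab φ) :
    ∀ γ ∈ Gamma0 N, mapGL ℚ γ ∈ h40_stab (h40_heckeT ℓ φ) := by
  intro γ hγ r s
  have hγN : (N : ℤ) ∣ (γ : Matrix (Fin 2) (Fin 2) ℤ) 1 0 := hh_dvd_of_mem (⟨γ, hγ⟩ : Gamma0 N)
  choose π κ hκdet hκN hκ using fun i => hh_exT_int hℓ hℓN i (γ : Matrix (Fin 2) (Fin 2) ℤ)
    γ.det_coe hγN
  have hπ : Function.Injective π := fun i i' hii' =>
    h40_perm_inj hℓ _ γ.det_coe (hκdet i) (hκdet i') (hκ i) (hii' ▸ hκ i')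
  have hπb : Function.Bijective π := Finite.injective_iff_bijective.mp hπ
  have hγdet : (γ : Matrix (Fin 2) (Fin 2) ℤ).det ≠ 0 := by rw [γ.det_coe]; exact one_ne_zero
  have hκd : ∀ i, (κ i).det ≠ 0 := fun i => by rw [hκdet i]; exact one_ne_zero
  have hrep : ∀ i, (hh_repTInt ℓ i).det ≠ 0 := fun i => by
    rw [hc40_repT_det]; exact_mod_cast hℓ.ne_zero
  have hκstab : ∀ i, h40_toGL (κ i) ∈ h40_stab φ := by
    intro i
    have := hΓ (hh_mk N (κ i) (hκdet i) (hκN i) : Gamma0 N).1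
      (hh_mk N (κ i) (hκdet i) (hκN i) : Gamma0 N).2
    rw [← h40_toGL_SL] at this
    exact this
  have key : ∀ (i : Option (Fin ℓ)) (x : OnePoint ℚ),
      h40_toGL (hh_repTInt ℓ i) • mapGL ℚ γ • x
        = h40_toGL (κ i) • h40_toGL (hh_repTInt ℓ (π i)) • x := by
    intro i x
    rw [← h40_toGL_SL, ← mul_smul, ← mul_smul, ← h40_toGL_mul (hrep i) hγdet,
      ← h40_toGL_mul (hκd i) (hrep _), hκ i]
  show h40_heckeT ℓ φ (mapGL ℚ γ • r) (mapGL ℚ γ • s) = h40_heckeT ℓ φ r s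
  simp only [h40_heckeT]
  rw [← hπb.sum_comp (fun j => φ (h40_toGL (hh_repTInt ℓ j) • r) (h40_toGL (hh_repTInt ℓ j) • s))]
  refine Finset.sum_congr rfl fun i _ => ?_
  rw [key i r, key i s]
  exact hκstab i _ _

theorem hc40_heckeT_heckeT {ℓ ℓ' : ℕ} (hℓ : ℓ ≠ 0) (hℓ' : ℓ' ≠ 0)
    (φ : OnePoint ℚ → OnePoint ℚ → A) (r s : OnePoint ℚ) :
    h40_heckeT ℓ (h40_heckeT ℓ' φ) r s
      = ∑ i : Option (Fin ℓ), ∑ k : Option (Fin ℓ'),
          φ (h40_toGL (hh_repTInt ℓ' k * hh_repTInt ℓ i) • r)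
            (h40_toGL (hh_repTInt ℓ' k * hh_repTInt ℓ i) • s) := by
  have hrep : ∀ (m : ℕ), m ≠ 0 → ∀ i, (hh_repTInt m i).det ≠ 0 := fun m hm i => by
    rw [hc40_repT_det]; exact_mod_cast hm
  simp only [h40_heckeT]
  refine Finset.sum_congr rfl fun i _ => Finset.sum_congr rfl fun k _ => ?_
  rw [h40_toGL_mul (hrep ℓ' hℓ' k) (hrep ℓ hℓ i), mul_smul, mul_smul]

/-- **`T_ℓ T_ℓ' = T_ℓ' T_ℓ`** on `Γ₀(N)`-invariant two-variable functions on `ℙ¹(ℚ)`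
(`ℓ ≠ ℓ'` primes, any level `N`). -/
theorem hc40_heckeT_comm {N ℓ ℓ' : ℕ} (hℓ : ℓ.Prime) (hℓ' : ℓ'.Prime) (hne : ℓ ≠ ℓ')
    {φ : OnePoint ℚ → OnePoint ℚ → A}
    (hΓ : ∀ γ ∈ Gamma0 N, mapGL ℚ γ ∈ h40_stab φ) :
    h40_heckeT ℓ (h40_heckeT ℓ' φ) = h40_heckeT ℓ' (h40_heckeT ℓ φ) := by
  funext r s
  rw [hc40_heckeT_heckeT hℓ.ne_zero hℓ'.ne_zero, hc40_heckeT_heckeT hℓ'.ne_zero hℓ.ne_zero]
  refine hc40_sum_comm hℓ hℓ' hne (fun B => φ (h40_toGL B • r) (h40_toGL B • s)) ?_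
  intro g B hg hg10 hB
  show φ (h40_toGL (g * B) • r) (h40_toGL (g * B) • s) = φ (h40_toGL B • r) (h40_toGL B • s)
  rw [h40_toGL_mul (by rw [hg]; exact one_ne_zero) hB, mul_smul, mul_smul]
  have := hΓ (hh_mk N g hg (by rw [hg10]; exact dvd_zero _) : Gamma0 N).1
    (hh_mk N g hg (by rw [hg10]; exact dvd_zero _) : Gamma0 N).2
  rw [← h40_toGL_SL] at this
  exact this _ _

end Symb

end Fermat.Agent.S41
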