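import Mathlib
import Fermat.Agent.S41.Trace43c
import Fermat.Agent.S41.NuHecke53

/-!
# S41 / M2.HD: the degeneracy map on the `Hom` side is Hecke equivariant

`heckeHom` (S16) on `Hom(Γ₀(M), A)` commutes with the restriction `Γ₀(N') ≤ Γ₀(N)` (`N ∣ N'`,
`ℓ ∤ N'`) and with conjugation by the Atkin–Lehner matrix `w` on `Γ₀(N q)`.  Hence the
`Hom`-side degeneracy map `i' (χ₁, χ₂) = χ₁ ∘ res + (χ₂ ∘ res) ∘ conj_w` intertwines
`heckeHom N ℓ × heckeHom N ℓ` with `heckeHom (N q) ℓ` (hypothesis `hi'T` of `hi88_hom_ihara`).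
-/

set_option autoImplicit false

namespace Fermat.Agent.S41

open Matrix MatrixGroups CongruenceSubgroup
open Fermat.Agent.S16

variable {A : Type*} [AddCommGroup A]

theorem hd42_repT_eq (ℓ : ℕ) (i : Option (Fin ℓ)) : hh_repTInt ℓ i = lbMat ℓ i := by
  cases i <;> rfl

/-- integer form of the uniqueness of the Hecke cocycle -/
theorem hd42_unique {N ℓ : ℕ} (hℓ : ℓ.Prime) (hℓN : ¬ ℓ ∣ N) (i j : Option (Fin ℓ))
    (γ K : Gamma0 N)
    (h : hh_repTInt ℓ i * ((γ : SL(2, ℤ)) : Matrix (Fin 2) (Fin 2) ℤ) =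
      ((K : SL(2, ℤ)) : Matrix (Fin 2) (Fin 2) ℤ) * hh_repTInt ℓ j) :
    (hh_repsT N ℓ hℓ hℓN).σ γ i = j ∧ (hh_repsT N ℓ hℓ hℓN).κ i γ = K := by
  apply (hh_repsT N ℓ hℓ hℓN).unique
  refine ((hh_isInt_repT hℓ.ne_zero i).mul (hh_isInt_incl N γ)).ext ?_
  rw [h]
  exact (hh_isInt_incl N K).mul (hh_isInt_repT hℓ.ne_zero j)

/-- **`heckeHom` commutes with restriction** to `Γ₀(N') ≤ Γ₀(N)` (`N ∣ N'`, `ℓ ∤ N'`). -/
theorem hd42_heckeHom_res {N N' ℓ : ℕ} (h : N ∣ N') (hℓ : ℓ.Prime) (hℓN' : ¬ ℓ ∣ N')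
    (χ : Additive (Gamma0 N) →+ A) :
    heckeHom N' ℓ A (χ.comp (MonoidHom.toAdditive (nh53_res h))) =
      (heckeHom N ℓ A χ).comp (MonoidHom.toAdditive (nh53_res h)) := by
  have hℓN : ¬ ℓ ∣ N := fun h' => hℓN' (h'.trans h)
  refine AddMonoidHom.ext fun γ => ?_
  obtain ⟨γ, rfl⟩ := Additive.ofMul.surjective γ
  rw [AddMonoidHom.comp_apply, heckeHom_of_not_dvd hℓ hℓN', heckeHom_of_not_dvd hℓ hℓN,
    HeckeReps.op_apply]
  show _ = (hh_repsT N ℓ hℓ hℓN).op A χ (Additive.ofMul (nh53_res h γ))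
  rw [HeckeReps.op_apply]
  refine Finset.sum_congr rfl fun i _ => ?_
  have hint := hh_repsT_int N' ℓ hℓ hℓN' i γ
  have hu := hd42_unique hℓ hℓN i ((hh_repsT N' ℓ hℓ hℓN').σ γ i) (nh53_res h γ)
    (nh53_res h ((hh_repsT N' ℓ hℓ hℓN').κ i γ)) hint
  rw [hu.2]
  rfl

/-- the Atkin–Lehner matrix `w` in `GL₂(ℝ)` -/
noncomputable def hd42_J {N q : ℕ} (D : tr43_Data N q) (hq : q ≠ 0) : GL (Fin 2) ℝ :=
  Matrix.GeneralLinearGroup.mkOfDetNeZero (D.w.map (Int.castRingHom ℝ)) (by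
    have h : (D.w.map (Int.castRingHom ℝ)).det = ((D.w.det : ℤ) : ℝ) := by
      rw [← RingHom.mapMatrix_apply, ← RingHom.map_det]; rfl
    rw [h, D.w_det]
    exact_mod_cast hq)

theorem hd42_isInt_J {N q : ℕ} (D : tr43_Data N q) (hq : q ≠ 0) :
    hh_IsInt (hd42_J D hq) D.w := rfl

/-- **`heckeHom` commutes with conjugation by the Atkin–Lehner matrix** on `Γ₀(N q)`. -/
theorem hd42_heckeHom_conj {N q ℓ : ℕ} (D : tr43_Data N q) (hq : q ≠ 0) (hℓ : ℓ.Prime)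
    (hℓNq : ¬ ℓ ∣ N * q) (χ : Additive (Gamma0 (N * q)) →+ A) :
    heckeHom (N * q) ℓ A (χ.comp (MonoidHom.toAdditive (D.conj hq).toMonoidHom)) =
      (heckeHom (N * q) ℓ A χ).comp (MonoidHom.toAdditive (D.conj hq).toMonoidHom) := by
  rw [heckeHom_of_not_dvd hℓ hℓNq]
  refine HeckeReps.op_conj (hh_repsT (N * q) ℓ hℓ hℓNq) (D.conj hq) (hd42_J D hq) ?_ ?_ χ
  · intro γ
    rw [mul_inv_eq_iff_eq_mul]
    refine ((hd42_isInt_J D hq).mul (hh_isInt_incl (N * q) γ)).ext ?_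
    rw [D.conj_spec hq γ]
    exact (hh_isInt_incl (N * q) _).mul (hd42_isInt_J D hq)
  · intro i
    obtain ⟨M', h1, h2, h3⟩ := D.w_mul (lbMat ℓ i) (by rw [tr43_lbMat_10]; exact dvd_zero _)
    obtain ⟨j, κ, hκ⟩ := tr43_hnf hℓ hℓNq M' (by rw [h3, tr43_lbMat_det]) h2
    refine ⟨j, κ, ?_⟩
    rw [mul_inv_eq_iff_eq_mul]
    refine ((hd42_isInt_J D hq).mul (hh_isInt_repT hℓ.ne_zero i)).ext ?_
    have e : D.w * hh_repTInt ℓ i =
        ((κ : SL(2, ℤ)) : Matrix (Fin 2) (Fin 2) ℤ) * hh_repTInt ℓ j * D.w := by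
      rw [hd42_repT_eq, hd42_repT_eq, h1, hκ]
    rw [e]
    exact ((hh_isInt_incl (N * q) κ).mul (hh_isInt_repT hℓ.ne_zero j)).mul (hd42_isInt_J D hq)

/-- the degeneracy map on the `Hom` side: `(χ₁, χ₂) ↦ χ₁ ∘ res + (χ₂ ∘ res) ∘ conj_w`. -/
noncomputable def hd42_i' {N q : ℕ} (D : tr43_Data N q) (hq : q ≠ 0) (A : Type*)
    [AddCommGroup A] :
    (Additive (Gamma0 N) →+ A) × (Additive (Gamma0 N) →+ A) →+
      (Additive (Gamma0 (N * q)) →+ A) where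
  toFun χ := χ.1.comp (MonoidHom.toAdditive (nh53_res (dvd_mul_right N q))) +
    (χ.2.comp (MonoidHom.toAdditive (nh53_res (dvd_mul_right N q)))).comp
      (MonoidHom.toAdditive (D.conj hq).toMonoidHom)
  map_zero' := by
    refine AddMonoidHom.ext fun γ => ?_
    simp
  map_add' χ ψ := by
    refine AddMonoidHom.ext fun γ => ?_
    simp only [Prod.fst_add, Prod.snd_add, AddMonoidHom.add_apply, AddMonoidHom.comp_apply]
    abel

theorem hd42_i'_apply {N q : ℕ} (D : tr43_Data N q) (hq : q ≠ 0)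
    (χ₁ χ₂ : Additive (Gamma0 N) →+ A) (γ : Gamma0 (N * q)) :
    hd42_i' D hq A (χ₁, χ₂) (Additive.ofMul γ) =
      χ₁ (Additive.ofMul (nh53_res (dvd_mul_right N q) γ)) +
        χ₂ (Additive.ofMul (nh53_res (dvd_mul_right N q) (D.conj hq γ))) := rfl

/-- **`hi'T`**: the `Hom`-side degeneracy map is Hecke equivariant (`ℓ ∤ N q`). -/
theorem hd42_i'_hecke {N q ℓ : ℕ} (D : tr43_Data N q) (hq : q ≠ 0) (hℓ : ℓ.Prime)
    (hℓNq : ¬ ℓ ∣ N * q) (χ₁ χ₂ : Additive (Gamma0 N) →+ A) :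
    hd42_i' D hq A (heckeHom N ℓ A χ₁, heckeHom N ℓ A χ₂) =
      heckeHom (N * q) ℓ A (hd42_i' D hq A (χ₁, χ₂)) := by
  have e : ∀ χ₁ χ₂ : Additive (Gamma0 N) →+ A, hd42_i' D hq A (χ₁, χ₂) =
      χ₁.comp (MonoidHom.toAdditive (nh53_res (dvd_mul_right N q))) +
        (χ₂.comp (MonoidHom.toAdditive (nh53_res (dvd_mul_right N q)))).comp
          (MonoidHom.toAdditive (D.conj hq).toMonoidHom) := fun _ _ => rfl
  rw [e, e, map_add, hd42_heckeHom_conj D hq hℓ hℓNq,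
    hd42_heckeHom_res (dvd_mul_right N q) hℓ hℓNq, hd42_heckeHom_res (dvd_mul_right N q) hℓ hℓNq]

/-- **bridge to the `δ`-literal form** (`nh53_conj`, `δ = diag(q, 1)`): on homomorphisms of
`Γ₀(N)`, conjugation by `w = γ' δ` and by `δ` agree after restriction. -/
theorem hd42_conj_eq_delta {N q : ℕ} [NeZero q] (D : tr43_Data N q)
    (χ : Additive (Gamma0 N) →+ A) :
    (χ.comp (MonoidHom.toAdditive (nh53_res (dvd_mul_right N q)))).comp
        (MonoidHom.toAdditive (D.conj (NeZero.ne q)).toMonoidHom) =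
      χ.comp (MonoidHom.toAdditive (nh53_conj N q)) := by
  refine AddMonoidHom.ext fun γ => ?_
  obtain ⟨γ, rfl⟩ := Additive.ofMul.surjective γ
  have hq : q ≠ 0 := NeZero.ne q
  show χ (Additive.ofMul (nh53_res (dvd_mul_right N q) (D.conj hq γ))) =
    χ (Additive.ofMul (nh53_conj N q γ))
  -- `conj_w γ = γ' (δ γ δ⁻¹) γ'⁻¹` in `Γ₀(N)`
  have key : nh53_res (dvd_mul_right N q) (D.conj hq γ) =
      D.gam' * nh53_conj N q γ * D.gam'⁻¹ := by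
    rw [eq_mul_inv_iff_mul_eq]
    have hdet : (lbMat q none).det ≠ 0 := tr43_lbMat_det_ne hq none
    refine nh53_conj_unique (M := lbMat q none)
      (K := D.w * ((γ : SL(2, ℤ)) : Matrix (Fin 2) (Fin 2) ℤ)) hdet ?_ ?_
    · rw [Subgroup.coe_mul, Matrix.SpecialLinearGroup.coe_mul, nh53_res_coe, D.conj_spec hq γ,
        Matrix.mul_assoc, ← D.w_eq]
    · rw [Subgroup.coe_mul, Matrix.SpecialLinearGroup.coe_mul, Matrix.mul_assoc,
        ← nh53_conj_spec N q γ, ← Matrix.mul_assoc, ← D.w_eq]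
  rw [key, ofMul_mul, ofMul_mul, map_add, map_add, ofMul_inv, map_neg]
  abel

/-- `hd42_i'` in the `δ`-literal form of `nh53_nu_degeneracy`. -/
theorem hd42_i'_eq_delta {N q : ℕ} [NeZero q] (D : tr43_Data N q)
    (χ₁ χ₂ : Additive (Gamma0 N) →+ A) :
    hd42_i' D (NeZero.ne q) A (χ₁, χ₂) =
      χ₁.comp (MonoidHom.toAdditive (nh53_res (dvd_mul_right N q))) +
        χ₂.comp (MonoidHom.toAdditive (nh53_conj N q)) := by
  rw [← hd42_conj_eq_delta D χ₂]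
  rfl

/-- **`hi'T` in the `δ`-literal form**: `χ₁ ∘ res + χ₂ ∘ conj_δ` is Hecke equivariant. -/
theorem hd42_delta_hecke {N q ℓ : ℕ} [NeZero q] (hqN : Nat.Coprime q N) (hℓ : ℓ.Prime)
    (hℓNq : ¬ ℓ ∣ N * q) (χ₁ χ₂ : Additive (Gamma0 N) →+ A) :
    (heckeHom N ℓ A χ₁).comp (MonoidHom.toAdditive (nh53_res (dvd_mul_right N q))) +
        (heckeHom N ℓ A χ₂).comp (MonoidHom.toAdditive (nh53_conj N q)) =
      heckeHom (N * q) ℓ A (χ₁.comp (MonoidHom.toAdditive (nh53_res (dvd_mul_right N q))) +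
        χ₂.comp (MonoidHom.toAdditive (nh53_conj N q))) := by
  obtain ⟨D⟩ := tr43_Data_exists hqN
  rw [← hd42_i'_eq_delta D, ← hd42_i'_eq_delta D]
  exact hd42_i'_hecke D (NeZero.ne q) hℓ hℓNq χ₁ χ₂

end Fermat.Agent.S41
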