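/-
S41 / M2.HD (helper58): the Hecke operators of S16 on `Hom(Γ₀(·), A)` commute with the
Hom-side degeneracy maps `Hom(Γ₀(N), A) → Hom(Γ₀(N q), A)`:

* `χ ↦ χ ∘ res`            (`res  : Γ₀(N q) → Γ₀(N)` the inclusion, `nh53_res`),
* `χ ↦ χ ∘ conj_δ`         (`conj_δ : Γ₀(N q) → Γ₀(N)`, `γ ↦ δ γ δ⁻¹`, `δ = diag(q, 1)`, `nh53_conj`).

This is hypothesis `hi'T` of `hi88_hom_ihara` for the degeneracy map
`i' (χ₁, χ₂) = χ₁ ∘ res + χ₂ ∘ conj_δ`, which is the shape of `ν` of the symbol side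
degeneracy map (`nh53_nu_degeneracy`).

* `hd58_op_map` : two-group version of `HeckeReps.op_conj` (S16): the transfer-type operator of
  a system of representatives is compatible with a homomorphism `c : Γ → Γ'` induced by an
  element `J` of the ambient group which carries one system of cosets to the other.
* `hd58_heckeHom_res`, `hd58_heckeHom_res_U`, `hd58_heckeHom_conj`, `hd58_degeneracy`.
* `hd58_deg`, `hd58_deg_hecke` : the bundled map `i'` and `hi'T` in bundled form.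
* `hd58_res_conj`, `hd58_comp_conj`, `hd58_comp_conj_symm` : on homomorphisms of level `N`,
  composing the restriction with the Atkin–Lehner automorphism `tr43_Data.conj` of `Γ₀(N q)`
  (or with its inverse) is composing with `conj_δ`.
-/
import Mathlib
import Fermat.Agent.S16.HeckeGamma0
import Fermat.Agent.S41.NuHecke53
import Fermat.Agent.S41.Trace43c

set_option autoImplicit false

open CongruenceSubgroup Matrix.SpecialLinearGroup ModularForm
open scoped MatrixGroups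

namespace Fermat.Agent.S41

open Fermat.Agent.S16

/-! ### The abstract statement -/

section Abstract

variable {Γ Γ' G ι ι' : Type} [Group Γ] [Group Γ'] [Group G] [Fintype ι] [Fintype ι']

/-- **Two-group version of `HeckeReps.op_conj`.**  Let `R`, `R'` be systems of representatives
for `Γ`, `Γ'` inside the same group `G`, `c : Γ → Γ'` a homomorphism induced by `J ∈ G`
(`J γ = c(γ) J`), and assume that `J` carries the cosets of `R` bijectively to the cosets of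
`R'` (`J α_i = g_i α'_{π i} J`).  Then `op (φ ∘ c) = (op φ) ∘ c`. -/
theorem hd58_op_map (R : HeckeReps Γ G ι) (R' : HeckeReps Γ' G ι') (c : Γ →* Γ') (J : G)
    (hJ : ∀ γ : Γ, J * R.incl γ = R'.incl (c γ) * J)
    (π : ι → ι') (hπ : Function.Bijective π) (g : ι → Γ')
    (hα : ∀ i : ι, J * R.α i = R'.incl (g i) * R'.α (π i) * J)
    {A : Type*} [AddCommGroup A] (φ : Additive Γ' →+ A) :
    R.op A (φ.comp (MonoidHom.toAdditive c)) = (R'.op A φ).comp (MonoidHom.toAdditive c) := by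
  classical
  let πe : ι ≃ ι' := Equiv.ofBijective π hπ
  -- the key identity
  have key : ∀ (i : ι) (γ : Γ), R'.σ (c γ) (π i) = π (R.σ γ i) ∧
      R'.κ (π i) (c γ) = (g i)⁻¹ * c (R.κ i γ) * g (R.σ γ i) := by
    intro i γ
    apply R'.unique
    have h1 := R.spec i γ
    have h2 : J * R.α i * R.incl γ = J * R.incl (R.κ i γ) * R.α (R.σ γ i) := by
      rw [mul_assoc, h1, mul_assoc]
    have h3 : R'.incl (g i) * R'.α (π i) * R'.incl (c γ) * J
        = R'.incl (c (R.κ i γ)) * R'.incl (g (R.σ γ i)) * R'.α (π (R.σ γ i)) * J := by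
      calc R'.incl (g i) * R'.α (π i) * R'.incl (c γ) * J
          = R'.incl (g i) * R'.α (π i) * (R'.incl (c γ) * J) := by group
        _ = R'.incl (g i) * R'.α (π i) * (J * R.incl γ) := by rw [hJ γ]
        _ = (R'.incl (g i) * R'.α (π i) * J) * R.incl γ := by group
        _ = J * R.α i * R.incl γ := by rw [hα i]
        _ = J * R.incl (R.κ i γ) * R.α (R.σ γ i) := h2
        _ = R'.incl (c (R.κ i γ)) * J * R.α (R.σ γ i) := by rw [hJ]
        _ = R'.incl (c (R.κ i γ)) * (J * R.α (R.σ γ i)) := by group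
        _ = R'.incl (c (R.κ i γ)) * (R'.incl (g (R.σ γ i)) * R'.α (π (R.σ γ i)) * J) := by
            rw [hα]
        _ = R'.incl (c (R.κ i γ)) * R'.incl (g (R.σ γ i)) * R'.α (π (R.σ γ i)) * J := by group
    have h4 := mul_right_cancel h3
    rw [map_mul, map_mul, map_inv]
    calc R'.α (π i) * R'.incl (c γ)
        = (R'.incl (g i))⁻¹ * (R'.incl (g i) * R'.α (π i) * R'.incl (c γ)) := by group
      _ = (R'.incl (g i))⁻¹ *
            (R'.incl (c (R.κ i γ)) * R'.incl (g (R.σ γ i)) * R'.α (π (R.σ γ i))) := by rw [h4]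
      _ = (R'.incl (g i))⁻¹ * R'.incl (c (R.κ i γ)) * R'.incl (g (R.σ γ i)) *
            R'.α (π (R.σ γ i)) := by group
  refine AddMonoidHom.ext fun γ => ?_
  obtain ⟨γ, rfl⟩ := Additive.ofMul.surjective γ
  rw [AddMonoidHom.comp_apply, HeckeReps.op_apply]
  show _ = R'.op A φ (Additive.ofMul (c γ))
  rw [HeckeReps.op_apply]
  have e1 : ∑ j, φ (Additive.ofMul (R'.κ j (c γ))) =
      ∑ i, φ (Additive.ofMul (R'.κ (π i) (c γ))) :=
    (Equiv.sum_comp πe (fun j => φ (Additive.ofMul (R'.κ j (c γ))))).symm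
  rw [e1]
  have e2 : ∀ i, φ (Additive.ofMul (R'.κ (π i) (c γ))) =
      φ (Additive.ofMul (c (R.κ i γ))) + (φ (Additive.ofMul (g (R.σ γ i)))
        - φ (Additive.ofMul (g i))) := by
    intro i
    rw [(key i γ).2, ofMul_mul, ofMul_mul, ofMul_inv, map_add, map_add, map_neg]
    abel
  rw [Finset.sum_congr rfl (fun i _ => e2 i), Finset.sum_add_distrib, Finset.sum_sub_distrib]
  have e3 : ∑ i, φ (Additive.ofMul (g (R.σ γ i))) = ∑ i, φ (Additive.ofMul (g i)) :=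
    Equiv.sum_comp (R.σEquiv γ) (fun j => φ (Additive.ofMul (g j)))
  rw [e3, sub_self, add_zero]
  rfl

end Abstract

/-! ### Restriction -/

section Res

variable {A : Type*} [AddCommGroup A]

/-- **`T_ℓ` commutes with restriction** from `Γ₀(N)` to `Γ₀(N')`, `N ∣ N'`, `ℓ ∤ N'`. -/
theorem hd58_heckeHom_res {N N' ℓ : ℕ} (hℓ : ℓ.Prime) (h : N ∣ N') (hℓN' : ¬ ℓ ∣ N')
    (χ : Additive (Gamma0 N) →+ A) :
    heckeHom N' ℓ A (χ.comp (MonoidHom.toAdditive (nh53_res h)))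
      = (heckeHom N ℓ A χ).comp (MonoidHom.toAdditive (nh53_res h)) := by
  have hℓN : ¬ ℓ ∣ N := fun h' => hℓN' (h'.trans h)
  rw [heckeHom_of_not_dvd hℓ hℓN', heckeHom_of_not_dvd hℓ hℓN]
  refine hd58_op_map (hh_repsT N' ℓ hℓ hℓN') (hh_repsT N ℓ hℓ hℓN) (nh53_res h) 1
    (fun γ => ?_) id Function.bijective_id (fun _ => 1) (fun i => ?_) χ
  · rw [one_mul, mul_one]; rfl
  · rw [map_one, one_mul, one_mul, mul_one]; rfl

/-- **`U_ℓ` commutes with restriction** from `Γ₀(N)` to `Γ₀(N')`, `ℓ ∣ N ∣ N'`. -/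
theorem hd58_heckeHom_res_U {N N' ℓ : ℕ} (hℓ : ℓ.Prime) (h : N ∣ N') (hℓN : ℓ ∣ N)
    (χ : Additive (Gamma0 N) →+ A) :
    heckeHom N' ℓ A (χ.comp (MonoidHom.toAdditive (nh53_res h)))
      = (heckeHom N ℓ A χ).comp (MonoidHom.toAdditive (nh53_res h)) := by
  rw [heckeHom_of_dvd hℓ (hℓN.trans h), heckeHom_of_dvd hℓ hℓN]
  refine hd58_op_map (hh_repsU N' ℓ hℓ (hℓN.trans h)) (hh_repsU N ℓ hℓ hℓN) (nh53_res h) 1
    (fun γ => ?_) id Function.bijective_id (fun _ => 1) (fun i => ?_) χ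
  · rw [one_mul, mul_one]; rfl
  · rw [map_one, one_mul, one_mul, mul_one]; rfl

end Res

/-! ### Conjugation by `δ = diag(q, 1)` -/

section Conj

variable {A : Type*} [AddCommGroup A]

/-- the permutation `j ↦ q j mod ℓ` of the indices of the `T_ℓ` representatives. -/
def hd58_pi (q ℓ : ℕ) (hℓ : 0 < ℓ) : Option (Fin ℓ) → Option (Fin ℓ)
  | none => none
  | some j => some ⟨(q * (j : ℕ)) % ℓ, Nat.mod_lt _ hℓ⟩

theorem hd58_pi_injective {q ℓ : ℕ} (hℓ : ℓ.Prime) (hℓq : ¬ ℓ ∣ q) :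
    Function.Injective (hd58_pi q ℓ hℓ.pos) := by
  have hcop : Nat.gcd ℓ q = 1 := (Nat.Prime.coprime_iff_not_dvd hℓ).mpr hℓq
  rintro (_ | j) (_ | j') hjj
  · rfl
  · simp [hd58_pi] at hjj
  · simp [hd58_pi] at hjj
  · simp only [hd58_pi, Option.some.injEq, Fin.mk.injEq] at hjj
    have h1 : q * (j : ℕ) ≡ q * (j' : ℕ) [MOD ℓ] := hjj
    have h2 : (j : ℕ) ≡ (j' : ℕ) [MOD ℓ] := Nat.ModEq.cancel_left_of_coprime hcop h1
    have h3 : (j : ℕ) = (j' : ℕ) := Nat.ModEq.eq_of_lt_of_lt h2 j.2 j'.2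
    exact congrArg some (Fin.ext h3)

/-- the translations correcting `δ α_j δ⁻¹`. -/
def hd58_g (N q ℓ : ℕ) : Option (Fin ℓ) → Gamma0 N
  | none => 1
  | some j => hh_trans N (((q * (j : ℕ)) / ℓ : ℕ) : ℤ)

/-- the integer identity `δ α_i = g_i α_{π i} δ`. -/
theorem hd58_delta_rep (N q ℓ : ℕ) (hℓ : 0 < ℓ) (i : Option (Fin ℓ)) :
    lbMat q none * hh_repTInt ℓ i
      = (((hd58_g N q ℓ i : Gamma0 N) : SL(2, ℤ)) : Matrix (Fin 2) (Fin 2) ℤ)
        * hh_repTInt ℓ (hd58_pi q ℓ hℓ i) * lbMat q none := by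
  rcases i with _ | j
  · show lbMat q none * hh_mD ℓ
      = (((1 : Gamma0 N) : SL(2, ℤ)) : Matrix (Fin 2) (Fin 2) ℤ) * hh_mD ℓ * lbMat q none
    rw [lbMat_none, hh_mD, Subgroup.coe_one, Matrix.SpecialLinearGroup.coe_one, one_mul]
    ext a b
    fin_cases a <;> fin_cases b <;> simp [Matrix.mul_apply, Fin.sum_univ_two, mul_comm]
  · have hdm := Int.emod_add_mul_ediv ((q : ℤ) * ((j : ℕ) : ℤ)) (ℓ : ℤ)
    show lbMat q none * hh_mU ℓ j
      = (((hh_trans N (((q * (j : ℕ)) / ℓ : ℕ) : ℤ) : Gamma0 N) : SL(2, ℤ)) :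
          Matrix (Fin 2) (Fin 2) ℤ) * hh_mU ℓ ((q * (j : ℕ)) % ℓ) * lbMat q none
    rw [lbMat_none, hh_mU, hh_mU, hh_trans, hh_mk_coe]
    ext a b
    fin_cases a <;> fin_cases b <;> simp [Matrix.mul_apply, Fin.sum_univ_two]
    linarith

/-- **`T_ℓ` commutes with the `δ`-twisted restriction** `χ ↦ χ ∘ conj_δ`,
`conj_δ : Γ₀(N q) → Γ₀(N)`, `ℓ ∤ N q`. -/
theorem hd58_heckeHom_conj {N q ℓ : ℕ} [NeZero q] (hℓ : ℓ.Prime) (hℓNq : ¬ ℓ ∣ N * q)
    (χ : Additive (Gamma0 N) →+ A) :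
    heckeHom (N * q) ℓ A (χ.comp (MonoidHom.toAdditive (nh53_conj N q)))
      = (heckeHom N ℓ A χ).comp (MonoidHom.toAdditive (nh53_conj N q)) := by
  have hℓN : ¬ ℓ ∣ N := fun h' => hℓNq (Dvd.dvd.mul_right h' q)
  have hℓq : ¬ ℓ ∣ q := fun h' => hℓNq (Dvd.dvd.mul_left h' N)
  have hq0 : q ≠ 0 := NeZero.ne q
  rw [heckeHom_of_not_dvd hℓ hℓNq, heckeHom_of_not_dvd hℓ hℓN]
  have hJ : hh_IsInt (hh_repT q none) (lbMat q none) := hh_isInt_repT hq0 none
  refine hd58_op_map (hh_repsT (N * q) ℓ hℓ hℓNq) (hh_repsT N ℓ hℓ hℓN) (nh53_conj N q)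
    (hh_repT q none) (fun γ => ?_) (hd58_pi q ℓ hℓ.pos)
    (Finite.injective_iff_bijective.mp (hd58_pi_injective hℓ hℓq)) (hd58_g N q ℓ)
    (fun i => ?_) χ
  · refine (hJ.mul (hh_isInt_incl (N * q) γ)).ext ?_
    rw [nh53_conj_spec]
    exact (hh_isInt_incl N _).mul hJ
  · refine (hJ.mul (hh_isInt_repT hℓ.ne_zero i)).ext ?_
    rw [hd58_delta_rep N q ℓ hℓ.pos i]
    exact ((hh_isInt_incl N _).mul (hh_isInt_repT hℓ.ne_zero _)).mul hJ

/-- **`hi'T`**: the Hom-side degeneracy map `(χ₁, χ₂) ↦ χ₁ ∘ res + χ₂ ∘ conj_δ` intertwines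
`T_ℓ × T_ℓ` at level `N` with `T_ℓ` at level `N q` (`ℓ ∤ N q`). -/
theorem hd58_degeneracy {N q ℓ : ℕ} [NeZero q] (hℓ : ℓ.Prime) (hℓNq : ¬ ℓ ∣ N * q)
    (χ₁ χ₂ : Additive (Gamma0 N) →+ A) :
    heckeHom (N * q) ℓ A
        (χ₁.comp (MonoidHom.toAdditive (nh53_res (dvd_mul_right N q)))
          + χ₂.comp (MonoidHom.toAdditive (nh53_conj N q)))
      = (heckeHom N ℓ A χ₁).comp (MonoidHom.toAdditive (nh53_res (dvd_mul_right N q)))
        + (heckeHom N ℓ A χ₂).comp (MonoidHom.toAdditive (nh53_conj N q)) := by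
  rw [map_add, hd58_heckeHom_res hℓ (dvd_mul_right N q) hℓNq, hd58_heckeHom_conj hℓ hℓNq]

/-- the Hom-side degeneracy map `i' (χ₁, χ₂) = χ₁ ∘ res + χ₂ ∘ conj_δ`, bundled. -/
noncomputable def hd58_deg (N q : ℕ) [NeZero q] (A : Type*) [AddCommGroup A] :
    ((Additive (Gamma0 N) →+ A) × (Additive (Gamma0 N) →+ A)) →+
      (Additive (Gamma0 (N * q)) →+ A) :=
  AddMonoidHom.coprod
    (AddMonoidHom.compHom' (MonoidHom.toAdditive (nh53_res (dvd_mul_right N q))))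
    (AddMonoidHom.compHom' (MonoidHom.toAdditive (nh53_conj N q)))

theorem hd58_deg_apply (N q : ℕ) [NeZero q]
    (α : (Additive (Gamma0 N) →+ A) × (Additive (Gamma0 N) →+ A)) :
    hd58_deg N q A α
      = α.1.comp (MonoidHom.toAdditive (nh53_res (dvd_mul_right N q)))
        + α.2.comp (MonoidHom.toAdditive (nh53_conj N q)) := rfl

/-- **`hi'T` in bundled form** (hypothesis `hi'T` of `hi88_hom_ihara` with
`i' := hd58_deg N q A`, `TA' := (heckeHom N ℓ A).prodMap (heckeHom N ℓ A)`,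
`TB' := heckeHom (N * q) ℓ A`). -/
theorem hd58_deg_hecke {N q ℓ : ℕ} [NeZero q] (hℓ : ℓ.Prime) (hℓNq : ¬ ℓ ∣ N * q)
    (α : (Additive (Gamma0 N) →+ A) × (Additive (Gamma0 N) →+ A)) :
    hd58_deg N q A ((heckeHom N ℓ A).prodMap (heckeHom N ℓ A) α)
      = heckeHom (N * q) ℓ A (hd58_deg N q A α) := by
  rw [hd58_deg_apply, hd58_deg_apply, hd58_degeneracy hℓ hℓNq]
  rfl

end Conj

/-! ### The Atkin–Lehner automorphism of `Γ₀(N q)` versus `conj_δ` -/

section AtkinLehner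

variable {A : Type*} [AddCommGroup A] {N q : ℕ}

/-- `w κ w⁻¹ = γ' (δ κ δ⁻¹) γ'⁻¹` inside `Γ₀(N)` (`w = γ' δ`), in multiplied-out form. -/
theorem hd58_res_conj_mul [NeZero q] (D : tr43_Data N q) (κ : Gamma0 (N * q)) :
    nh53_res (dvd_mul_right N q) (D.conj (NeZero.ne q) κ) * D.gam'
      = D.gam' * nh53_conj N q κ := by
  have hq : (lbMat q none).det ≠ 0 := tr43_lbMat_det_ne (NeZero.ne q) none
  refine nh53_conj_unique hq
    (K := D.w * ((κ : SL(2, ℤ)) : Matrix (Fin 2) (Fin 2) ℤ)) ?_ ?_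
  · rw [D.conj_spec (NeZero.ne q) κ, Subgroup.coe_mul, Matrix.SpecialLinearGroup.coe_mul,
      nh53_res_coe, Matrix.mul_assoc, ← D.w_eq]
  · rw [Subgroup.coe_mul, Matrix.SpecialLinearGroup.coe_mul, Matrix.mul_assoc,
      ← nh53_conj_spec, ← Matrix.mul_assoc, ← D.w_eq]

/-- `w κ w⁻¹ = γ' (δ κ δ⁻¹) γ'⁻¹` inside `Γ₀(N)`. -/
theorem hd58_res_conj [NeZero q] (D : tr43_Data N q) (κ : Gamma0 (N * q)) :
    nh53_res (dvd_mul_right N q) (D.conj (NeZero.ne q) κ)
      = D.gam' * nh53_conj N q κ * D.gam'⁻¹ := by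
  rw [← hd58_res_conj_mul D κ, mul_inv_cancel_right]

/-- on homomorphisms of level `N`: restriction followed by the Atkin–Lehner automorphism
`conj_w` of `Γ₀(N q)` is composition with `conj_δ`. -/
theorem hd58_comp_conj [NeZero q] (D : tr43_Data N q) (α : Additive (Gamma0 N) →+ A) :
    (α.comp (MonoidHom.toAdditive (nh53_res (dvd_mul_right N q)))).comp
        (MonoidHom.toAdditive (D.conj (NeZero.ne q)).toMonoidHom)
      = α.comp (MonoidHom.toAdditive (nh53_conj N q)) := by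
  refine AddMonoidHom.ext fun κ => ?_
  obtain ⟨κ, rfl⟩ := Additive.ofMul.surjective κ
  show α (Additive.ofMul (nh53_res (dvd_mul_right N q) (D.conj (NeZero.ne q) κ)))
    = α (Additive.ofMul (nh53_conj N q κ))
  rw [hd58_res_conj D κ, ofMul_mul, ofMul_mul, ofMul_inv, map_add, map_add, map_neg]
  abel

/-- the same with the inverse automorphism (`w⁻¹ κ w`). -/
theorem hd58_comp_conj_symm [NeZero q] (D : tr43_Data N q) (α : Additive (Gamma0 N) →+ A) :
    (α.comp (MonoidHom.toAdditive (nh53_res (dvd_mul_right N q)))).comp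
        (MonoidHom.toAdditive (D.conj (NeZero.ne q)).symm.toMonoidHom)
      = α.comp (MonoidHom.toAdditive (nh53_conj N q)) := by
  have h := hd58_comp_conj D.inv α
  refine AddMonoidHom.ext fun κ => ?_
  obtain ⟨κ, rfl⟩ := Additive.ofMul.surjective κ
  have h' := congrArg (fun f : Additive (Gamma0 (N * q)) →+ A => f (Additive.ofMul κ)) h
  exact h'

end AtkinLehner

end Fermat.Agent.S41
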