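/-
S41 (level raising), module M2.BH (helper88): on `Hom(Γ₀(N), A)` the Hecke operator `T_ℓ`
(S16 `heckeHom`) acts as `ℓ + 1` on the restriction to cusp stabilisers when `ℓ ≡ 1 (mod N)`:
`(T_ℓ χ)(γ) = (ℓ + 1) χ(γ)` for every `γ` with `trace² = 4`.  Hence `T_ℓ χ - (ℓ + 1) χ` is a
parabolic homomorphism.
-/
import Mathlib
import Fermat.Agent.S16.HeckeGamma0
import Fermat.Agent.S41.CuspMove88
import Fermat.Agent.S41.HomIhara88

set_option autoImplicit false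

open CongruenceSubgroup Matrix.SpecialLinearGroup ModularCurve.Period
open scoped MatrixGroups

namespace Fermat.Agent.S41

open Fermat.Agent.S16

/-- A matrix of `SL₂(ℤ)` with trace `2ε` has a primitive `ε`-eigenvector. -/
theorem hp88_exists_eigen (p q r s ε : ℤ) (hdet : p * s - q * r = 1) (hε : ε = 1 ∨ ε = -1)
    (htr : p + s = 2 * ε) :
    ∃ a c : ℤ, IsCoprime a c ∧ p * a + q * c = ε * a ∧ r * a + s * c = ε * c := by
  have hε2 : ε * ε = 1 := by rcases hε with rfl | rfl <;> norm_num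
  by_cases h : q = 0 ∧ p = ε
  · obtain ⟨hq, hp⟩ := h
    refine ⟨0, 1, isCoprime_zero_left.mpr isUnit_one, by rw [hq]; ring, ?_⟩
    linear_combination htr - hp
  · have hpos : 0 < Int.gcd q (ε - p) := by
      rw [Int.gcd_pos_iff]
      by_contra hcon
      obtain ⟨hc1, hc2⟩ := not_or.mp hcon
      exact h ⟨not_not.mp hc1, by linarith [not_not.mp hc2]⟩
    obtain ⟨a, c, hgcd, hq, hp⟩ := Int.exists_gcd_one hpos
    set d : ℤ := (Int.gcd q (ε - p) : ℤ) with hd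
    have hd0 : d ≠ 0 := by
      rw [hd]; exact_mod_cast hpos.ne'
    refine ⟨a, c, Int.isCoprime_iff_gcd_eq_one.mpr hgcd, ?_, ?_⟩
    · apply mul_right_cancel₀ hd0
      have e1 : p * q + q * (ε - p) = ε * q := by ring
      calc (p * a + q * c) * d = p * (a * d) + q * (c * d) := by ring
        _ = p * q + q * (ε - p) := by rw [← hq, ← hp]
        _ = ε * q := e1
        _ = ε * a * d := by rw [hq]; ring
    · apply mul_right_cancel₀ hd0
      have e2 : r * q + s * (ε - p) = ε * (ε - p) := by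
        linear_combination (-1 : ℤ) * hdet + ε * htr + hε2
      calc (r * a + s * c) * d = r * (a * d) + s * (c * d) := by ring
        _ = r * q + s * (ε - p) := by rw [← hq, ← hp]
        _ = ε * (ε - p) := e2
        _ = ε * c * d := by rw [hp]; ring

section Conj

variable (a c x y : ℤ)

/-- A matrix of `SL₂(ℤ)` with first column `(a, c)`. -/
def hp88_G : Matrix (Fin 2) (Fin 2) ℤ := !![a, -y; c, x]

/-- Its inverse. -/
def hp88_Gi : Matrix (Fin 2) (Fin 2) ℤ := !![x, y; -c, a]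

variable {a c x y}

theorem hp88_G_mul_Gi (h : x * a + y * c = 1) : hp88_G a c x y * hp88_Gi a c x y = 1 := by
  ext i j
  fin_cases i <;> fin_cases j <;>
    simp [hp88_G, hp88_Gi, Matrix.mul_apply, Fin.sum_univ_two] <;>
    first | linear_combination h | linear_combination (0 : ℤ) * h

theorem hp88_Gi_mul_G (h : x * a + y * c = 1) : hp88_Gi a c x y * hp88_G a c x y = 1 := by
  ext i j
  fin_cases i <;> fin_cases j <;>
    simp [hp88_G, hp88_Gi, Matrix.mul_apply, Fin.sum_univ_two] <;>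
    first | linear_combination h | linear_combination (0 : ℤ) * h

variable (a c x y)

/-- Conjugation into the basis `(v, v')`. -/
def hp88_cj (m : Matrix (Fin 2) (Fin 2) ℤ) : Matrix (Fin 2) (Fin 2) ℤ :=
  hp88_Gi a c x y * m * hp88_G a c x y

variable {a c x y}

theorem hp88_cj_mul (h : x * a + y * c = 1) (m m' : Matrix (Fin 2) (Fin 2) ℤ) :
    hp88_cj a c x y (m * m') = hp88_cj a c x y m * hp88_cj a c x y m' := by
  unfold hp88_cj
  calc hp88_Gi a c x y * (m * m') * hp88_G a c x y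
      = hp88_Gi a c x y * m * 1 * m' * hp88_G a c x y := by
        simp only [Matrix.mul_one, Matrix.mul_assoc]
    _ = hp88_Gi a c x y * m * (hp88_G a c x y * hp88_Gi a c x y) * m' * hp88_G a c x y := by
        rw [hp88_G_mul_Gi h]
    _ = hp88_Gi a c x y * m * hp88_G a c x y * (hp88_Gi a c x y * m' * hp88_G a c x y) := by
        simp only [Matrix.mul_assoc]

theorem hp88_cj_one (h : x * a + y * c = 1) : hp88_cj a c x y 1 = 1 := by
  unfold hp88_cj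
  rw [Matrix.mul_one, hp88_Gi_mul_G h]

theorem hp88_cj_det (h : x * a + y * c = 1) (m : Matrix (Fin 2) (Fin 2) ℤ) :
    (hp88_cj a c x y m).det = m.det := by
  unfold hp88_cj
  rw [Matrix.det_mul, Matrix.det_mul, mul_comm, ← mul_assoc, ← Matrix.det_mul, hp88_G_mul_Gi h,
    Matrix.det_one, one_mul]

theorem hp88_cj_00 (h : x * a + y * c = 1) (m : Matrix (Fin 2) (Fin 2) ℤ) {lam : ℤ}
    (h0 : m 0 0 * a + m 0 1 * c = lam * a) (h1 : m 1 0 * a + m 1 1 * c = lam * c) :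
    hp88_cj a c x y m 0 0 = lam := by
  simp only [hp88_cj, hp88_G, hp88_Gi, Matrix.mul_apply, Fin.sum_univ_two, Matrix.of_apply,
    Matrix.cons_val_zero, Matrix.cons_val_one, Matrix.cons_val', Matrix.cons_val_fin_one]
  linear_combination x * h0 + y * h1 + lam * h

theorem hp88_cj_10 (m : Matrix (Fin 2) (Fin 2) ℤ) {lam : ℤ}
    (h0 : m 0 0 * a + m 0 1 * c = lam * a) (h1 : m 1 0 * a + m 1 1 * c = lam * c) :
    hp88_cj a c x y m 1 0 = 0 := by
  simp only [hp88_cj, hp88_G, hp88_Gi, Matrix.mul_apply, Fin.sum_univ_two, Matrix.of_apply,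
    Matrix.cons_val_zero, Matrix.cons_val_one, Matrix.cons_val', Matrix.cons_val_fin_one]
  linear_combination (-c) * h0 + a * h1

/-- If the conjugate is scalar then so is the matrix. -/
theorem hp88_eq_of_cj_eq (h : x * a + y * c = 1) (m : Matrix (Fin 2) (Fin 2) ℤ) (e : ℤ)
    (hm : hp88_cj a c x y m = e • (1 : Matrix (Fin 2) (Fin 2) ℤ)) : m = e • 1 := by
  have h1 : hp88_G a c x y * hp88_cj a c x y m * hp88_Gi a c x y = m := by
    unfold hp88_cj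
    calc hp88_G a c x y * (hp88_Gi a c x y * m * hp88_G a c x y) * hp88_Gi a c x y
        = (hp88_G a c x y * hp88_Gi a c x y) * m * (hp88_G a c x y * hp88_Gi a c x y) := by
          simp only [Matrix.mul_assoc]
      _ = m := by rw [hp88_G_mul_Gi h, Matrix.one_mul, Matrix.mul_one]
  rw [← h1, hm, Matrix.mul_smul, Matrix.mul_one, Matrix.smul_mul, hp88_G_mul_Gi h]

theorem hp88_cj_of_eigen (h : x * a + y * c = 1) (m : Matrix (Fin 2) (Fin 2) ℤ) {lam : ℤ}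
    (hm : m.mulVec ![a, c] = lam • ![a, c]) :
    hp88_cj a c x y m 0 0 = lam ∧ hp88_cj a c x y m 1 0 = 0 := by
  have h0 : m 0 0 * a + m 0 1 * c = lam * a := by
    have := congrFun hm 0
    simpa [Matrix.mulVec, dotProduct, Fin.sum_univ_two] using this
  have h1 : m 1 0 * a + m 1 1 * c = lam * c := by
    have := congrFun hm 1
    simpa [Matrix.mulVec, dotProduct, Fin.sum_univ_two] using this
  exact ⟨hp88_cj_00 h m h0 h1, hp88_cj_10 m h0 h1⟩

end Conj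

section Move

variable {N ℓ : ℕ}

/-- The divisibility condition singling out the representative with `lam = ℓ`. -/
def hp88_D (ℓ : ℕ) (a c : ℤ) : Option (Fin ℓ) → Prop
  | none => (ℓ : ℤ) ∣ c
  | some j => (ℓ : ℤ) ∣ a + ((j : ℕ) : ℤ) * c

/-- Cusp move for the `T_ℓ`-representatives of S16, in `mulVec` form. -/
theorem hp88_move (hℓ : ℓ.Prime) (hℓ1 : (N : ℤ) ∣ (ℓ : ℤ) - 1) {a c : ℤ} (hac : IsCoprime a c)
    (i : Option (Fin ℓ)) :
    ∃ (g : Gamma0 N) (lam : ℤ),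
      ((lam = 1 ∧ ¬ hp88_D ℓ a c i) ∨ (lam = ℓ ∧ hp88_D ℓ a c i)) ∧
      (hh_repTInt ℓ i).mulVec ![a, c] =
        lam • ((g : SL(2, ℤ)) : Matrix (Fin 2) (Fin 2) ℤ).mulVec ![a, c] := by
  rcases i with _ | j
  · obtain ⟨g, lam, hg, hlam, e0, e1⟩ := cm88_move_none (M := N) hℓ hℓ1 hac
    refine ⟨⟨g, Gamma0_mem.mpr ((ZMod.intCast_zmod_eq_zero_iff_dvd _ _).mpr hg)⟩, lam, hlam, ?_⟩
    ext k
    fin_cases k
    · simpa [hh_repTInt, hh_mD, Matrix.mulVec, dotProduct, Fin.sum_univ_two] using e0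
    · simpa [hh_repTInt, hh_mD, Matrix.mulVec, dotProduct, Fin.sum_univ_two] using e1
  · obtain ⟨g, lam, hg, hlam, e0, e1⟩ := cm88_move_some (M := N) hℓ hℓ1 hac ((j : ℕ) : ℤ)
    refine ⟨⟨g, Gamma0_mem.mpr ((ZMod.intCast_zmod_eq_zero_iff_dvd _ _).mpr hg)⟩, lam, hlam, ?_⟩
    ext k
    fin_cases k
    · simpa [hh_repTInt, hh_mU, Matrix.mulVec, dotProduct, Fin.sum_univ_two] using e0
    · simpa [hh_repTInt, hh_mU, Matrix.mulVec, dotProduct, Fin.sum_univ_two] using e1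

/-- The sum of the squares of the scalars `lam i` is `ℓ² + ℓ`. -/
theorem hp88_sum_sq (hℓ : ℓ.Prime) {a c : ℤ} (hac : IsCoprime a c) (lam : Option (Fin ℓ) → ℤ)
    (hlam : ∀ i, (lam i = 1 ∧ ¬ hp88_D ℓ a c i) ∨ (lam i = ℓ ∧ hp88_D ℓ a c i)) :
    ∑ i, lam i ^ 2 = (ℓ : ℤ) ^ 2 + ℓ := by
  classical
  have key : ∀ i, lam i ^ 2 = 1 + ((ℓ : ℤ) ^ 2 - 1) * (if hp88_D ℓ a c i then 1 else 0) := by
    intro i
    rcases hlam i with ⟨h1, h2⟩ | ⟨h1, h2⟩
    · rw [h1, if_neg h2]; ring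
    · rw [h1, if_pos h2]; ring
  have hcount : ∑ i : Option (Fin ℓ), (if hp88_D ℓ a c i then (1 : ℤ) else 0) = 1 := by
    rw [Fintype.sum_option]
    have h1 := cm88_count hℓ hac
    have h2 : ∑ j : Fin ℓ, (if hp88_D ℓ a c (some j) then (1 : ℤ) else 0) =
        ((Finset.univ.filter (fun j : Fin ℓ => (ℓ : ℤ) ∣ a + ((j : ℕ) : ℤ) * c)).card : ℤ) := by
      rw [Finset.sum_boole]
      have hfe : (Finset.univ.filter (fun j : Fin ℓ => hp88_D ℓ a c (some j))) =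
          Finset.univ.filter (fun j : Fin ℓ => (ℓ : ℤ) ∣ a + ((j : ℕ) : ℤ) * c) := by
        ext j
        simp [hp88_D]
      rw [hfe]
    rw [h2]
    have h3 : (if hp88_D ℓ a c none then (1 : ℤ) else 0) =
        ((if (ℓ : ℤ) ∣ c then 1 else 0 : ℕ) : ℤ) := by
      by_cases hc : (ℓ : ℤ) ∣ c
      · rw [if_pos (show hp88_D ℓ a c none from hc), if_pos hc]; simp
      · rw [if_neg (show ¬ hp88_D ℓ a c none from hc), if_neg hc]; simp
    rw [h3, add_comm]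
    exact_mod_cast h1
  simp_rw [key]
  rw [Finset.sum_add_distrib, ← Finset.mul_sum, hcount]
  simp only [Finset.sum_const, Finset.card_univ, Fintype.card_option, Fintype.card_fin]
  ring

end Move

section Main

variable {N ℓ : ℕ}

theorem hp88_det_rep (i : Option (Fin ℓ)) : (hh_repTInt ℓ i).det = ℓ := by
  rcases i with _ | j <;> simp [hh_repTInt, hh_mD, hh_mU, Matrix.det_fin_two_of]

/-- **`T_ℓ` is `ℓ + 1` on cusp stabilisers** (`ℓ ≡ 1 mod N`). -/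
theorem hp88_heckeHom_trace (hℓ : ℓ.Prime) (hℓ1 : (N : ℤ) ∣ (ℓ : ℤ) - 1)
    {A : Type*} [AddCommGroup A] (h2 : ∀ a : A, a + a = 0 → a = 0)
    (χ : Additive (Gamma0 N) →+ A) (γ : Gamma0 N)
    (hγ : ((γ : SL(2, ℤ)) : Matrix (Fin 2) (Fin 2) ℤ).trace ^ 2 = 4) :
    heckeHom N ℓ A χ (Additive.ofMul γ) = ((ℓ : ℤ) + 1) • χ (Additive.ofMul γ) := by
  classical
  have hℓ0 : (ℓ : ℤ) ≠ 0 := by exact_mod_cast hℓ.ne_zero
  have hℓpos : (0 : ℤ) < ℓ := by exact_mod_cast hℓ.pos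
  have hℓN : ¬ ℓ ∣ N := by
    intro h
    have h3 : (ℓ : ℤ) ∣ (ℓ : ℤ) - 1 := dvd_trans (by exact_mod_cast h) hℓ1
    have h4 : (ℓ : ℤ) ∣ 1 := by
      have := dvd_sub (dvd_refl (ℓ : ℤ)) h3
      simpa using this
    have h5 : ℓ ∣ 1 := by exact_mod_cast h4
    exact hℓ.one_lt.ne' (Nat.dvd_one.mp h5)
  set R := hh_repsT N ℓ hℓ hℓN with hR
  set m : Matrix (Fin 2) (Fin 2) ℤ := ((γ : SL(2, ℤ)) : Matrix (Fin 2) (Fin 2) ℤ) with hm
  have hdetm : m.det = 1 := (γ : SL(2, ℤ)).2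
  have hdet : m 0 0 * m 1 1 - m 0 1 * m 1 0 = 1 := by
    rw [← Matrix.det_fin_two]; exact hdetm
  obtain ⟨ε, hε, htr⟩ : ∃ ε : ℤ, (ε = 1 ∨ ε = -1) ∧ m 0 0 + m 1 1 = 2 * ε := by
    rw [Matrix.trace_fin_two] at hγ
    have h3 : (m 0 0 + m 1 1 - 2) * (m 0 0 + m 1 1 + 2) = 0 := by linear_combination hγ
    rcases mul_eq_zero.mp h3 with h | h
    · exact ⟨1, Or.inl rfl, by linarith⟩
    · exact ⟨-1, Or.inr rfl, by linarith⟩
  have hε2 : ε * ε = 1 := by rcases hε with rfl | rfl <;> norm_num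
  obtain ⟨a, c, hac, hv0, hv1⟩ :=
    hp88_exists_eigen (m 0 0) (m 0 1) (m 1 0) (m 1 1) ε (by linarith) hε htr
  obtain ⟨x, y, hxy⟩ := id hac
  -- the eigenvector equation for `γ`
  have hmV : m.mulVec ![a, c] = ε • ![a, c] := by
    ext k
    fin_cases k
    · simpa [Matrix.mulVec, dotProduct, Fin.sum_univ_two] using hv0
    · simpa [Matrix.mulVec, dotProduct, Fin.sum_univ_two] using hv1
  -- cusp moves
  choose g lam hlam hgV using fun i => hp88_move (N := N) hℓ hℓ1 hac i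
  have hlampos : ∀ i, 0 < lam i := by
    intro i
    rcases hlam i with ⟨h, -⟩ | ⟨h, -⟩ <;> rw [h]
    · norm_num
    · exact hℓpos
  -- `β i = (g i)⁻¹ α i`
  set β : Option (Fin ℓ) → Matrix (Fin 2) (Fin 2) ℤ := fun i =>
    (((g i : SL(2, ℤ))⁻¹ : SL(2, ℤ)) : Matrix (Fin 2) (Fin 2) ℤ) * hh_repTInt ℓ i with hβ
  have hinvmul : ∀ h : SL(2, ℤ), ((h⁻¹ : SL(2, ℤ)) : Matrix (Fin 2) (Fin 2) ℤ) *
      (h : Matrix (Fin 2) (Fin 2) ℤ) = 1 := by
    intro h
    rw [← Matrix.SpecialLinearGroup.coe_mul, inv_mul_cancel, Matrix.SpecialLinearGroup.coe_one]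
  have hmulinv : ∀ h : SL(2, ℤ), (h : Matrix (Fin 2) (Fin 2) ℤ) *
      ((h⁻¹ : SL(2, ℤ)) : Matrix (Fin 2) (Fin 2) ℤ) = 1 := by
    intro h
    rw [← Matrix.SpecialLinearGroup.coe_mul, mul_inv_cancel, Matrix.SpecialLinearGroup.coe_one]
  have hβV : ∀ i, (β i).mulVec ![a, c] = lam i • ![a, c] := by
    intro i
    simp only [hβ]
    rw [← Matrix.mulVec_mulVec, hgV i, Matrix.mulVec_smul, Matrix.mulVec_mulVec, hinvmul,
      Matrix.one_mulVec]
  have hdetβ : ∀ i, (β i).det = ℓ := by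
    intro i
    simp only [hβ]
    rw [Matrix.det_mul, hp88_det_rep, Matrix.SpecialLinearGroup.det_coe, one_mul]
  -- the elements `p i` of the cusp stabiliser
  set p : Option (Fin ℓ) → Gamma0 N := fun i => (g i)⁻¹ * R.κ i γ * g (R.σ γ i) with hp
  have hκ : ∀ i, R.κ i γ = g i * p i * (g (R.σ γ i))⁻¹ := by
    intro i
    simp only [hp]
    group
  have hpβ : ∀ i, (((p i : Gamma0 N) : SL(2, ℤ)) : Matrix (Fin 2) (Fin 2) ℤ) * β (R.σ γ i)
      = β i * m := by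
    intro i
    have hint := hh_repsT_int N ℓ hℓ hℓN i γ
    simp only [hp, hβ]
    rw [Subgroup.coe_mul, Subgroup.coe_mul, Subgroup.coe_inv,
      Matrix.SpecialLinearGroup.coe_mul, Matrix.SpecialLinearGroup.coe_mul]
    calc (((g i : SL(2, ℤ))⁻¹ : SL(2, ℤ)) : Matrix (Fin 2) (Fin 2) ℤ) *
          ((R.κ i γ : SL(2, ℤ)) : Matrix (Fin 2) (Fin 2) ℤ) *
          ((g (R.σ γ i) : SL(2, ℤ)) : Matrix (Fin 2) (Fin 2) ℤ) *
          ((((g (R.σ γ i) : SL(2, ℤ))⁻¹ : SL(2, ℤ)) : Matrix (Fin 2) (Fin 2) ℤ) *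
            hh_repTInt ℓ (R.σ γ i))
        = (((g i : SL(2, ℤ))⁻¹ : SL(2, ℤ)) : Matrix (Fin 2) (Fin 2) ℤ) *
          (((R.κ i γ : SL(2, ℤ)) : Matrix (Fin 2) (Fin 2) ℤ) *
          ((((g (R.σ γ i) : SL(2, ℤ)) : Matrix (Fin 2) (Fin 2) ℤ) *
          (((g (R.σ γ i) : SL(2, ℤ))⁻¹ : SL(2, ℤ)) : Matrix (Fin 2) (Fin 2) ℤ)) *
            hh_repTInt ℓ (R.σ γ i))) := by simp only [Matrix.mul_assoc]
      _ = (((g i : SL(2, ℤ))⁻¹ : SL(2, ℤ)) : Matrix (Fin 2) (Fin 2) ℤ) *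
          (hh_repTInt ℓ i * m) := by rw [hmulinv, Matrix.one_mul, ← hint]
      _ = _ := by rw [Matrix.mul_assoc]
  -- conjugation into the basis `(v, v')`
  set cj : Matrix (Fin 2) (Fin 2) ℤ → Matrix (Fin 2) (Fin 2) ℤ := hp88_cj a c x y with hcj
  have hcjmul : ∀ u w, cj (u * w) = cj u * cj w := hp88_cj_mul hxy
  have hcjdet : ∀ u, (cj u).det = u.det := hp88_cj_det hxy
  have hB : ∀ i, cj (β i) 0 0 = lam i ∧ cj (β i) 1 0 = 0 := fun i =>
    hp88_cj_of_eigen hxy (β i) (hβV i)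
  have hΓ : cj m 0 0 = ε ∧ cj m 1 0 = 0 := hp88_cj_of_eigen hxy m hmV
  have hB11 : ∀ i, lam i * cj (β i) 1 1 = ℓ := by
    intro i
    have h3 := hcjdet (β i)
    rw [hdetβ, Matrix.det_fin_two, (hB i).1, (hB i).2] at h3
    linear_combination h3
  have hΓ11 : cj m 1 1 = ε := by
    have h3 := hcjdet m
    rw [hdetm, Matrix.det_fin_two, hΓ.1, hΓ.2] at h3
    linear_combination ε * h3 - (cj m 1 1) * hε2
  have hPmul : ∀ i, cj (((p i : Gamma0 N) : SL(2, ℤ)) : Matrix (Fin 2) (Fin 2) ℤ) *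
      cj (β (R.σ γ i)) = cj (β i) * cj m := by
    intro i
    rw [← hcjmul, ← hcjmul, hpβ]
  have hPdet : ∀ q : Gamma0 N,
      (cj ((q : SL(2, ℤ)) : Matrix (Fin 2) (Fin 2) ℤ)).det = 1 := by
    intro q
    rw [hcjdet]; exact (q : SL(2, ℤ)).2
  -- entry (1,0)
  have hP10 : ∀ i, cj (((p i : Gamma0 N) : SL(2, ℤ)) : Matrix (Fin 2) (Fin 2) ℤ) 1 0 = 0 := by
    intro i
    have h3 := congrFun (congrFun (hPmul i) 1) 0
    simp only [Matrix.mul_apply, Fin.sum_univ_two] at h3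
    rw [(hB _).1, (hB _).2, (hB i).2, hΓ.2] at h3
    have h4 : cj (((p i : Gamma0 N) : SL(2, ℤ)) : Matrix (Fin 2) (Fin 2) ℤ) 1 0 *
        lam (R.σ γ i) = 0 := by linear_combination h3
    rcases mul_eq_zero.mp h4 with h | h
    · exact h
    · exact absurd h (hlampos _).ne'
  -- entry (0,0)
  have hP00 : ∀ i, cj (((p i : Gamma0 N) : SL(2, ℤ)) : Matrix (Fin 2) (Fin 2) ℤ) 0 0 = ε ∧
      lam (R.σ γ i) = lam i := by
    intro i
    have h3 := congrFun (congrFun (hPmul i) 0) 0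
    simp only [Matrix.mul_apply, Fin.sum_univ_two] at h3
    rw [(hB _).1, (hB _).2, (hB i).1, hΓ.1, hΓ.2] at h3
    have h4 : cj (((p i : Gamma0 N) : SL(2, ℤ)) : Matrix (Fin 2) (Fin 2) ℤ) 0 0 *
        lam (R.σ γ i) = lam i * ε := by linear_combination h3
    have h5 := hPdet (p i)
    rw [Matrix.det_fin_two, hP10 i, mul_zero, sub_zero] at h5
    have h6 := Int.eq_one_or_neg_one_of_mul_eq_one h5
    have hp1 := hlampos i
    have hp2 := hlampos (R.σ γ i)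
    rcases h6 with h6 | h6 <;> rcases hε with hε | hε <;> rw [h6, hε] at h4 <;> rw [h6, hε]
    · exact ⟨rfl, by linarith⟩
    · exact absurd h4 (by intro h; linarith)
    · exact absurd h4 (by intro h; linarith)
    · exact ⟨rfl, by linarith⟩
  -- entry (0,1)
  have hτ : ∀ i, (ℓ : ℤ) * (ε * cj (((p i : Gamma0 N) : SL(2, ℤ)) : Matrix (Fin 2) (Fin 2) ℤ) 0 1)
      = lam i ^ 2 * (ε * cj m 0 1) + lam i * cj (β i) 0 1
        - lam (R.σ γ i) * cj (β (R.σ γ i)) 0 1 := by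
    intro i
    have h3 := congrFun (congrFun (hPmul i) 0) 1
    simp only [Matrix.mul_apply, Fin.sum_univ_two] at h3
    rw [(hP00 i).1, (hB i).1, hΓ11] at h3
    have h4 := hB11 (R.σ γ i)
    rw [(hP00 i).2] at h4 ⊢
    linear_combination (ε * lam i) * h3
      - (ε * cj (((p i : Gamma0 N) : SL(2, ℤ)) : Matrix (Fin 2) (Fin 2) ℤ) 0 1) * h4
      + (lam i * cj (β i) 0 1 - lam i * cj (β (R.σ γ i)) 0 1) * hε2
  -- the sum of the translation lengths
  have hsumτ : ∑ i, ε * cj (((p i : Gamma0 N) : SL(2, ℤ)) : Matrix (Fin 2) (Fin 2) ℤ) 0 1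
      = ((ℓ : ℤ) + 1) * (ε * cj m 0 1) := by
    apply mul_left_cancel₀ hℓ0
    rw [Finset.mul_sum]
    simp_rw [hτ]
    rw [Finset.sum_sub_distrib, Finset.sum_add_distrib, ← Finset.sum_mul,
      hp88_sum_sq hℓ hac lam hlam]
    have h3 : ∑ i, lam (R.σ γ i) * cj (β (R.σ γ i)) 0 1 = ∑ i, lam i * cj (β i) 0 1 :=
      Equiv.sum_comp (R.σEquiv γ) (fun i => lam i * cj (β i) 0 1)
    rw [h3]
    ring
  -- the stabiliser of the cusp, as a subgroup
  have hcjone : cj 1 = 1 := hp88_cj_one hxy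
  have hcoe_mul : ∀ q q' : Gamma0 N,
      cj (((q * q' : Gamma0 N) : SL(2, ℤ)) : Matrix (Fin 2) (Fin 2) ℤ) =
        cj ((q : SL(2, ℤ)) : Matrix (Fin 2) (Fin 2) ℤ) *
          cj ((q' : SL(2, ℤ)) : Matrix (Fin 2) (Fin 2) ℤ) := by
    intro q q'
    rw [Subgroup.coe_mul, Matrix.SpecialLinearGroup.coe_mul, hcjmul]
  have hdiag : ∀ q : Gamma0 N, cj ((q : SL(2, ℤ)) : Matrix (Fin 2) (Fin 2) ℤ) 1 0 = 0 →
      cj ((q : SL(2, ℤ)) : Matrix (Fin 2) (Fin 2) ℤ) 0 0 *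
        cj ((q : SL(2, ℤ)) : Matrix (Fin 2) (Fin 2) ℤ) 1 1 = 1 := by
    intro q hq
    have h5 := hPdet q
    rw [Matrix.det_fin_two, hq, mul_zero, sub_zero] at h5
    exact h5
  let Pv : Subgroup (Gamma0 N) :=
    { carrier := {q | cj ((q : SL(2, ℤ)) : Matrix (Fin 2) (Fin 2) ℤ) 1 0 = 0}
      mul_mem' := by
        intro q q' hq hq'
        show cj (((q * q' : Gamma0 N) : SL(2, ℤ)) : Matrix (Fin 2) (Fin 2) ℤ) 1 0 = 0
        rw [hcoe_mul]
        simp only [Matrix.mul_apply, Fin.sum_univ_two]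
        rw [show cj ((q : SL(2, ℤ)) : Matrix (Fin 2) (Fin 2) ℤ) 1 0 = 0 from hq,
          show cj ((q' : SL(2, ℤ)) : Matrix (Fin 2) (Fin 2) ℤ) 1 0 = 0 from hq']
        ring
      one_mem' := by
        show cj (((1 : Gamma0 N) : SL(2, ℤ)) : Matrix (Fin 2) (Fin 2) ℤ) 1 0 = 0
        rw [Subgroup.coe_one, Matrix.SpecialLinearGroup.coe_one, hcjone]
        simp
      inv_mem' := by
        intro q hq
        show cj (((q⁻¹ : Gamma0 N) : SL(2, ℤ)) : Matrix (Fin 2) (Fin 2) ℤ) 1 0 = 0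
        have h3 := hcoe_mul q⁻¹ q
        rw [inv_mul_cancel, Subgroup.coe_one, Matrix.SpecialLinearGroup.coe_one, hcjone] at h3
        have h4 := congrFun (congrFun h3 1) 0
        simp only [Matrix.mul_apply, Fin.sum_univ_two] at h4
        rw [show cj ((q : SL(2, ℤ)) : Matrix (Fin 2) (Fin 2) ℤ) 1 0 = 0 from hq] at h4
        have h5 := hdiag q hq
        have h6 : cj (((q⁻¹ : Gamma0 N) : SL(2, ℤ)) : Matrix (Fin 2) (Fin 2) ℤ) 1 0 *
            cj ((q : SL(2, ℤ)) : Matrix (Fin 2) (Fin 2) ℤ) 0 0 = 0 := by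
          have h7 : ((1 : Matrix (Fin 2) (Fin 2) ℤ) 1 0) = 0 := by simp
          rw [h7] at h4
          linear_combination -h4
        rcases mul_eq_zero.mp h6 with h | h
        · exact h
        · rw [h, zero_mul] at h5
          exact absurd h5 (by norm_num) }
  have hPv : ∀ q : Gamma0 N, q ∈ Pv ↔
      cj ((q : SL(2, ℤ)) : Matrix (Fin 2) (Fin 2) ℤ) 1 0 = 0 := fun q => Iff.rfl
  let τ : Pv → ℤ := fun q =>
    cj (((q : Gamma0 N) : SL(2, ℤ)) : Matrix (Fin 2) (Fin 2) ℤ) 0 0 *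
      cj (((q : Gamma0 N) : SL(2, ℤ)) : Matrix (Fin 2) (Fin 2) ℤ) 0 1
  have hτmul : ∀ q q' : Pv, τ (q * q') = τ q + τ q' := by
    intro q q'
    show cj ((((q * q' : Pv) : Gamma0 N) : SL(2, ℤ)) : Matrix (Fin 2) (Fin 2) ℤ) 0 0 *
      cj ((((q * q' : Pv) : Gamma0 N) : SL(2, ℤ)) : Matrix (Fin 2) (Fin 2) ℤ) 0 1 = _
    rw [Subgroup.coe_mul, hcoe_mul]
    simp only [Matrix.mul_apply, Fin.sum_univ_two]
    have hq := (hPv q).mp q.2
    have hq' := (hPv q').mp q'.2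
    have h5 := hdiag q hq
    have h5' := hdiag q' hq'
    have h6 : cj (((q : Gamma0 N) : SL(2, ℤ)) : Matrix (Fin 2) (Fin 2) ℤ) 0 0 *
        cj (((q : Gamma0 N) : SL(2, ℤ)) : Matrix (Fin 2) (Fin 2) ℤ) 0 0 = 1 := by
      rcases Int.eq_one_or_neg_one_of_mul_eq_one h5 with h | h <;> rw [h] <;> norm_num
    rw [hq']
    show _ = cj (((q : Gamma0 N) : SL(2, ℤ)) : Matrix (Fin 2) (Fin 2) ℤ) 0 0 *
      cj (((q : Gamma0 N) : SL(2, ℤ)) : Matrix (Fin 2) (Fin 2) ℤ) 0 1 +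
      cj (((q' : Gamma0 N) : SL(2, ℤ)) : Matrix (Fin 2) (Fin 2) ℤ) 0 0 *
      cj (((q' : Gamma0 N) : SL(2, ℤ)) : Matrix (Fin 2) (Fin 2) ℤ) 0 1
    linear_combination
      (cj (((q' : Gamma0 N) : SL(2, ℤ)) : Matrix (Fin 2) (Fin 2) ℤ) 0 0 *
        cj (((q' : Gamma0 N) : SL(2, ℤ)) : Matrix (Fin 2) (Fin 2) ℤ) 0 1) * h6 +
      (cj (((q : Gamma0 N) : SL(2, ℤ)) : Matrix (Fin 2) (Fin 2) ℤ) 0 0 *
        cj (((q : Gamma0 N) : SL(2, ℤ)) : Matrix (Fin 2) (Fin 2) ℤ) 0 1) * h5'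
  let χP : Pv → A := fun q => χ (Additive.ofMul (q : Gamma0 N))
  have hχmul : ∀ q q' : Pv, χP (q * q') = χP q + χP q' := by
    intro q q'
    show χ (Additive.ofMul ((q * q' : Pv) : Gamma0 N)) = _
    rw [Subgroup.coe_mul, ofMul_mul, map_add]
  have hker : ∀ q : Pv, τ q = 0 → χP q = 0 := by
    intro q hq0
    have hq := (hPv q).mp q.2
    have h5 := hdiag q hq
    have h01 : cj (((q : Gamma0 N) : SL(2, ℤ)) : Matrix (Fin 2) (Fin 2) ℤ) 0 1 = 0 := by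
      rcases mul_eq_zero.mp hq0 with h | h
      · rw [h, zero_mul] at h5; exact absurd h5 (by norm_num)
      · exact h
    set e : ℤ := cj (((q : Gamma0 N) : SL(2, ℤ)) : Matrix (Fin 2) (Fin 2) ℤ) 0 0 with he
    have he2 : e * e = 1 := by
      rcases Int.eq_one_or_neg_one_of_mul_eq_one h5 with h | h <;> rw [h] <;> norm_num
    have h11 : cj (((q : Gamma0 N) : SL(2, ℤ)) : Matrix (Fin 2) (Fin 2) ℤ) 1 1 = e := by
      linear_combination e * h5 - (cj (((q : Gamma0 N) : SL(2, ℤ)) : Matrix (Fin 2) (Fin 2) ℤ) 1 1) * he2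
    have hscal : cj (((q : Gamma0 N) : SL(2, ℤ)) : Matrix (Fin 2) (Fin 2) ℤ) =
        e • (1 : Matrix (Fin 2) (Fin 2) ℤ) := by
      ext u w
      fin_cases u <;> fin_cases w
      · simp [he]
      · simpa using h01
      · simpa using hq
      · simpa using h11
    have hqmat := hp88_eq_of_cj_eq hxy _ e hscal
    have hqq : (q : Gamma0 N) * (q : Gamma0 N) = 1 := by
      apply Subtype.ext
      apply Subtype.ext
      show ((((q : Gamma0 N) * (q : Gamma0 N) : Gamma0 N) : SL(2, ℤ)) :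
        Matrix (Fin 2) (Fin 2) ℤ) = ((1 : Gamma0 N) : SL(2, ℤ))
      rw [Subgroup.coe_mul, Matrix.SpecialLinearGroup.coe_mul, hqmat, Subgroup.coe_one,
        Matrix.SpecialLinearGroup.coe_one, Matrix.smul_mul, Matrix.one_mul, smul_smul, he2,
        one_smul]
    apply h2
    show χ (Additive.ofMul (q : Gamma0 N)) + χ (Additive.ofMul (q : Gamma0 N)) = 0
    rw [← map_add, ← ofMul_mul, hqq, ofMul_one, map_zero]
  -- apply the factorisation lemma
  have hγPv : γ ∈ Pv := (hPv γ).mpr hΓ.2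
  have hmain := hi88_sum_eq_of_factor χP hχmul τ hτmul hker Finset.univ
    (fun i => (⟨p i, (hPv _).mpr (hP10 i)⟩ : Pv)) ⟨γ, hγPv⟩ ((ℓ : ℤ) + 1)
    (by
      show ∑ i, cj (((p i : Gamma0 N) : SL(2, ℤ)) : Matrix (Fin 2) (Fin 2) ℤ) 0 0 *
        cj (((p i : Gamma0 N) : SL(2, ℤ)) : Matrix (Fin 2) (Fin 2) ℤ) 0 1 =
        ((ℓ : ℤ) + 1) * (cj m 0 0 * cj m 0 1)
      simp_rw [(hP00 _).1]
      rw [hΓ.1]
      exact hsumτ)
  have hmain' : ∑ i, χ (Additive.ofMul (p i)) = ((ℓ : ℤ) + 1) • χ (Additive.ofMul γ) := hmain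
  -- conclusion
  rw [heckeHom_of_not_dvd hℓ hℓN, HeckeReps.op_apply]
  have hterm : ∀ i, χ (Additive.ofMul (R.κ i γ)) =
      χ (Additive.ofMul (g i)) + χ (Additive.ofMul (p i)) - χ (Additive.ofMul (g (R.σ γ i))) := by
    intro i
    rw [hκ i, ofMul_mul, ofMul_mul, map_add, map_add, ofMul_inv, map_neg]
    abel
  simp_rw [← hR, hterm]
  rw [Finset.sum_sub_distrib, Finset.sum_add_distrib, hmain']
  have h3 : ∑ i, χ (Additive.ofMul (g (R.σ γ i))) = ∑ i, χ (Additive.ofMul (g i)) :=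
    Equiv.sum_comp (R.σEquiv γ) (fun i => χ (Additive.ofMul (g i)))
  rw [h3]
  abel

/-- `T_ℓ χ - (ℓ + 1) χ` is parabolic (`ℓ ≡ 1 mod N`). -/
theorem hp88_isParabolicHom (hℓ : ℓ.Prime) (hℓ1 : (N : ℤ) ∣ (ℓ : ℤ) - 1)
    {A : Type*} [AddCommGroup A] (h2 : ∀ a : A, a + a = 0 → a = 0)
    (χ : Additive (Gamma0 N) →+ A) :
    IsParabolicHom (Gamma0 N) (heckeHom N ℓ A χ - ((ℓ : ℤ) + 1) • χ) := by
  intro γ hγ
  rw [AddMonoidHom.sub_apply, AddMonoidHom.smul_apply, hp88_heckeHom_trace hℓ hℓ1 h2 χ γ hγ,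
    sub_self]

end Main

end Fermat.Agent.S41
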