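/-
S41 / M3 (helper96): the concrete adjointness statements of link L8 for the Manin-model pairing
`md32_B psl96_rho ∞` on `Γ₀(M) ⊇ Γ₀(M r)` and symbols on `OnePoint ℚ × OnePoint ℚ`.

* `l8c96_B_eq`   : dictionary `md32_B psl96_rho ∞ rep χ (curry Φ) = adj96_B rep ∞ χ (Φ (c0, ·))`;
* `l8c96_BI`     : (B-I)  `B_G (χ, tr Φ) = B_H (χ, Φ)`  (restriction / trace);
* `l8c96_BI'`    : (B-I') `B_H (χ', Φ) = B_G (cores χ', Φ)` (corestriction / restriction);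
* general-subgroup versions `l8c96_tr_gen`, `l8c96_cores_gen`.
-/
import Mathlib
import Fermat.Agent.S41.Adjoint96
import Fermat.Agent.S41.ManinInst32
import Fermat.Agent.S41.Trace43c
import Fermat.Agent.S41.SymbCore71

set_option autoImplicit false

open scoped MatrixGroups
open ModularGroup Matrix MulAction Function Subgroup CongruenceSubgroup

namespace Fermat.Agent.S41

noncomputable section

/-- The Möbius action of `SL(2, ℤ)` on `OnePoint ℚ` (through `GL(2, ℚ)`). -/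
@[reducible] def l8c96_act : MulAction SL(2, ℤ) (OnePoint ℚ) :=
  MulAction.compHom (OnePoint ℚ) (Matrix.SpecialLinearGroup.mapGL ℚ)

attribute [local instance] l8c96_act

theorem l8c96_smul_def (g : SL(2, ℤ)) (c : OnePoint ℚ) :
    g • c = Matrix.SpecialLinearGroup.mapGL ℚ g • c := rfl

theorem l8c96_rho_apply (g : SL(2, ℤ)) (c : OnePoint ℚ) : psl96_rho g c = g • c := rfl

/-- The cusp axioms of `Adjoint96` for `OnePoint ℚ`. -/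
theorem l8c96_cuspAx : adj96_CuspAx (OnePoint.infty : OnePoint ℚ) where
  T_fix := md32_cuspAx_rho.T_fix
  neg_fix := md32_cuspAx_rho.neg_fix
  trans := md32_cuspAx_rho.trans
  stab := md32_cuspAx_rho.stab

section Dict

variable {Γ : Subgroup SL(2, ℤ)}

/-- `md32_Adapted` and `adj96_Adapted` are the same notion. -/
theorem l8c96_adapted {rep : SL(2, ℤ) ⧸ Γ → SL(2, ℤ)} (h : md32_Adapted rep) :
    adj96_Adapted rep := h

/-- the section hypothesis of `ManinDual32` is `ck96_IsSection`. -/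
theorem l8c96_section {rep : SL(2, ℤ) ⧸ Γ → SL(2, ℤ)}
    (h : ∀ x, (rep x : SL(2, ℤ) ⧸ Γ) = x) : ck96_IsSection Γ rep := h

/-- **Dictionary**: the pairing of `ManinDual32` on a symbol is the pairing of `Adjoint96` on
any of its potentials `Φ (c0, ·)`. -/
theorem l8c96_B_eq [Fintype (SL(2, ℤ) ⧸ Γ)] (rep : SL(2, ℤ) ⧸ Γ → SL(2, ℤ))
    (χ : SL(2, ℤ) → ℤ) {Φ : sc71_X → ℤ} (hΦ : sc71_IsSymb Φ) (c0 : OnePoint ℚ) :
    md32_B psl96_rho (OnePoint.infty : OnePoint ℚ) rep χ (Function.curry Φ)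
      = adj96_B rep (OnePoint.infty : OnePoint ℚ) χ (fun c => Φ (c0, c)) := by
  rw [md32_B, adj96_B, finsum_eq_sum_of_fintype]
  refine Finset.sum_congr rfl fun x _ => ?_
  rw [md32_J, md32_v]
  congr 1
  have h := hΦ c0 ((rep x)⁻¹ • (S : SL(2, ℤ)) • (OnePoint.infty : OnePoint ℚ))
    ((rep x)⁻¹ • (OnePoint.infty : OnePoint ℚ))
  rw [l8c96_rho_apply, l8c96_rho_apply, mul_smul, Function.curry_apply]
  linarith

end Dict

/-! ### General subgroups -/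

section Gen

variable {G H : Subgroup SL(2, ℤ)}

/-- potential and period of a `Γ`-invariant symbol. -/
theorem l8c96_pot {Γ : Subgroup SL(2, ℤ)} {Φ : sc71_X → ℤ} (hΦ : sc71_IsSymb Φ)
    (hinv : ∀ g ∈ Γ, ∀ x : sc71_X, Φ (Matrix.SpecialLinearGroup.mapGL ℚ g • x) = Φ x)
    (c0 : OnePoint ℚ) :
    ∀ h ∈ Γ, ∀ c : OnePoint ℚ, (fun c => Φ (c0, c)) (h • c)
      = (fun c => Φ (c0, c)) c + (fun γ : SL(2, ℤ) => Φ (c0, γ • c0)) h := by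
  intro h hh c
  have h1 := hΦ c0 (h • c0) (h • c)
  have h2 := hinv h hh (c0, c)
  rw [Prod.smul_mk] at h2
  change Φ (h • c0, h • c) = Φ (c0, c) at h2
  change Φ (c0, h • c) = Φ (c0, c) + Φ (c0, h • c0)
  linarith

/-- (B-I), general subgroups: if `Ψ` is the trace of the `H`-symbol `Φ`, then
`B_G (χ, Ψ) = B_H (χ, Φ)`. -/
theorem l8c96_tr_gen (hHG : H ≤ G) [Fintype (SL(2, ℤ) ⧸ G)] [Fintype (SL(2, ℤ) ⧸ H)]
    (hneg : (-1 : SL(2, ℤ)) ∈ H)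
    {repG : SL(2, ℤ) ⧸ G → SL(2, ℤ)} (hrepG : ∀ x, (repG x : SL(2, ℤ) ⧸ G) = x)
    (hadG : md32_Adapted repG)
    {repH : SL(2, ℤ) ⧸ H → SL(2, ℤ)} (hrepH : ∀ x, (repH x : SL(2, ℤ) ⧸ H) = x)
    (hadH : md32_Adapted repH)
    {χ : SL(2, ℤ) → ℤ} (hχ : md32_IsHom G χ)
    {Φ : sc71_X → ℤ} (hΦ : sc71_IsSymb Φ)
    (hinv : ∀ g ∈ H, ∀ x : sc71_X, Φ (Matrix.SpecialLinearGroup.mapGL ℚ g • x) = Φ x)
    {Ψ : sc71_X → ℤ} (hΨ : sc71_IsSymb Ψ)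
    (htr : ∀ x : sc71_X, Ψ x = ∑ᶠ q : G ⧸ H.subgroupOf G,
      Φ (Matrix.SpecialLinearGroup.mapGL ℚ (((q.out : G) : SL(2, ℤ))⁻¹) • x)) :
    md32_B psl96_rho (OnePoint.infty : OnePoint ℚ) repG χ (Function.curry Ψ)
      = md32_B psl96_rho (OnePoint.infty : OnePoint ℚ) repH χ (Function.curry Φ) := by
  rw [l8c96_B_eq repG χ hΨ OnePoint.infty, l8c96_B_eq repH χ hΦ OnePoint.infty]
  have hfinH : Finite (SL(2, ℤ) ⧸ H) := Finite.of_fintype _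
  refine adj96_tr hHG hneg (fun r hr => by omega) (fun r hr => by omega) l8c96_cuspAx
    hrepG hadG hrepH hadH χ (fun γ : SL(2, ℤ) => Φ (OnePoint.infty, γ • (OnePoint.infty : OnePoint ℚ)))
    (fun c => Φ (OnePoint.infty, c)) hχ (l8c96_pot hΦ hinv OnePoint.infty) _ ?_
  intro a b
  have h1 := hΨ OnePoint.infty a b
  have e : Ψ (OnePoint.infty, b) - Ψ (OnePoint.infty, a) = Ψ (a, b) := by linarith
  rw [e, htr]
  refine finsum_congr fun q => ?_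
  have h2 := hΦ OnePoint.infty ((((q.out : G) : SL(2, ℤ))⁻¹) • a) ((((q.out : G) : SL(2, ℤ))⁻¹) • b)
  rw [Prod.smul_mk]
  change Φ ((((q.out : G) : SL(2, ℤ))⁻¹) • a, (((q.out : G) : SL(2, ℤ))⁻¹) • b) = _
  linarith

/-- (B-I'), general subgroups: for a `G`-symbol `Φ` and `χ'` additive on `H`, with `χG` the
corestriction (transfer) of `χ'` to `G`: `B_H (χ', Φ) = B_G (χG, Φ)`. -/
theorem l8c96_cores_gen (hHG : H ≤ G) [Fintype (SL(2, ℤ) ⧸ G)] [Fintype (SL(2, ℤ) ⧸ H)]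
    (hneg : (-1 : SL(2, ℤ)) ∈ H)
    {repG : SL(2, ℤ) ⧸ G → SL(2, ℤ)} (hrepG : ∀ x, (repG x : SL(2, ℤ) ⧸ G) = x)
    (hadG : md32_Adapted repG)
    {repH : SL(2, ℤ) ⧸ H → SL(2, ℤ)} (hrepH : ∀ x, (repH x : SL(2, ℤ) ⧸ H) = x)
    (hadH : md32_Adapted repH)
    {χ' : SL(2, ℤ) → ℤ} (hχ' : md32_IsHom H χ')
    {Φ : sc71_X → ℤ} (hΦ : sc71_IsSymb Φ)
    (hinv : ∀ g ∈ G, ∀ x : sc71_X, Φ (Matrix.SpecialLinearGroup.mapGL ℚ g • x) = Φ x)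
    {χG : SL(2, ℤ) → ℤ}
    (hχG : ∀ g (hg : g ∈ G), χG g = ct77_nuTr (H.subgroupOf G) (fun x : G => χ' x) ⟨g, hg⟩) :
    md32_B psl96_rho (OnePoint.infty : OnePoint ℚ) repH χ' (Function.curry Φ)
      = md32_B psl96_rho (OnePoint.infty : OnePoint ℚ) repG χG (Function.curry Φ) := by
  rw [l8c96_B_eq repG χG hΦ OnePoint.infty, l8c96_B_eq repH χ' hΦ OnePoint.infty]
  have hfinH : Finite (SL(2, ℤ) ⧸ H) := Finite.of_fintype _
  exact adj96_cores hHG hneg (fun r hr => by omega) (fun r hr => by omega) l8c96_cuspAx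
    hrepG hadG hrepH hadH χ' (fun γ : SL(2, ℤ) => Φ (OnePoint.infty, γ • (OnePoint.infty : OnePoint ℚ)))
    (fun c => Φ (OnePoint.infty, c)) hχ' (l8c96_pot hΦ hinv OnePoint.infty) χG
    (fun g hg => hχG g hg)

end Gen

/-! ### The levels `Γ₀(M) ⊇ Γ₀(M r)` -/

section Gamma0

variable {M r : ℕ}

theorem l8c96_le (M r : ℕ) : Gamma0 (M * r) ≤ Gamma0 M := by
  intro x hx
  rw [Gamma0_mem, ZMod.intCast_zmod_eq_zero_iff_dvd] at hx ⊢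
  exact Dvd.dvd.trans ⟨(r : ℤ), by push_cast; ring⟩ hx

theorem l8c96_neg_mem (M : ℕ) : (-1 : SL(2, ℤ)) ∈ Gamma0 M := by
  rw [Gamma0_mem]
  simp

theorem l8c96_inv {M : ℕ} {Φ : sc71_X → ℤ} (hinv : tr43_Inv M Φ) :
    ∀ g ∈ Gamma0 M, ∀ x : sc71_X, Φ (Matrix.SpecialLinearGroup.mapGL ℚ g • x) = Φ x :=
  fun g hg x => hinv ⟨g, hg⟩ x

/-- The corestriction (transfer) `Hom(Γ₀(M r), ℤ) → Hom(Γ₀(M), ℤ)` on plain functions. -/
def l8c96_cores (M r : ℕ) (χ' : SL(2, ℤ) → ℤ) : SL(2, ℤ) → ℤ :=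
  adj96_ext (Gamma0 M)
    (ct77_nuTr ((Gamma0 (M * r)).subgroupOf (Gamma0 M)) (fun x : Gamma0 M => χ' x))

theorem l8c96_cores_apply (M r : ℕ) (χ' : SL(2, ℤ) → ℤ) {g : SL(2, ℤ)} (hg : g ∈ Gamma0 M) :
    l8c96_cores M r χ' g
      = ct77_nuTr ((Gamma0 (M * r)).subgroupOf (Gamma0 M)) (fun x : Gamma0 M => χ' x) ⟨g, hg⟩ :=
  adj96_ext_mem _ _ hg

/-- **(B-I)**: `B_{Γ₀(M)} (χ, tr Φ) = B_{Γ₀(M r)} (χ, Φ)`. -/
theorem l8c96_BI (hr : r.Prime) (D : tr43_Data M r)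
    [Fintype (SL(2, ℤ) ⧸ Gamma0 M)] [Fintype (SL(2, ℤ) ⧸ Gamma0 (M * r))]
    {repG : SL(2, ℤ) ⧸ Gamma0 M → SL(2, ℤ)} (hrepG : ∀ x, (repG x : SL(2, ℤ) ⧸ Gamma0 M) = x)
    (hadG : md32_Adapted repG)
    {repH : SL(2, ℤ) ⧸ Gamma0 (M * r) → SL(2, ℤ)}
    (hrepH : ∀ x, (repH x : SL(2, ℤ) ⧸ Gamma0 (M * r)) = x) (hadH : md32_Adapted repH)
    {χ : SL(2, ℤ) → ℤ} (hχ : md32_IsHom (Gamma0 M) χ)
    {Φ : sc71_X → ℤ} (hΦ : sc71_IsSymb Φ) (hinv : tr43_Inv (M * r) Φ) :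
    md32_B psl96_rho (OnePoint.infty : OnePoint ℚ) repG χ (Function.curry (tr43_tr D Φ))
      = md32_B psl96_rho (OnePoint.infty : OnePoint ℚ) repH χ (Function.curry Φ) := by
  refine l8c96_tr_gen (l8c96_le M r) (l8c96_neg_mem _) hrepG hadG hrepH hadH hχ hΦ
    (l8c96_inv hinv) (hΦ.tr D) fun x => ?_
  rw [← tr43_tr_eq_finsum_quot hr D hinv x]
  refine finsum_congr fun q => ?_
  rw [Subgroup.coe_inv]

/-- **(B-I')**: `B_{Γ₀(M r)} (χ', Φ) = B_{Γ₀(M)} (cores χ', Φ)` for a symbol `Φ` of level `M`. -/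
theorem l8c96_BI' (M r : ℕ)
    [Fintype (SL(2, ℤ) ⧸ Gamma0 M)] [Fintype (SL(2, ℤ) ⧸ Gamma0 (M * r))]
    {repG : SL(2, ℤ) ⧸ Gamma0 M → SL(2, ℤ)} (hrepG : ∀ x, (repG x : SL(2, ℤ) ⧸ Gamma0 M) = x)
    (hadG : md32_Adapted repG)
    {repH : SL(2, ℤ) ⧸ Gamma0 (M * r) → SL(2, ℤ)}
    (hrepH : ∀ x, (repH x : SL(2, ℤ) ⧸ Gamma0 (M * r)) = x) (hadH : md32_Adapted repH)
    {χ' : SL(2, ℤ) → ℤ} (hχ' : md32_IsHom (Gamma0 (M * r)) χ')
    {Φ : sc71_X → ℤ} (hΦ : sc71_IsSymb Φ) (hinv : tr43_Inv M Φ) :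
    md32_B psl96_rho (OnePoint.infty : OnePoint ℚ) repH χ' (Function.curry Φ)
      = md32_B psl96_rho (OnePoint.infty : OnePoint ℚ) repG (l8c96_cores M r χ')
          (Function.curry Φ) :=
  l8c96_cores_gen (l8c96_le M r) (l8c96_neg_mem _) hrepG hadG hrepH hadH hχ' hΦ
    (l8c96_inv hinv) (fun _ hg => l8c96_cores_apply M r χ' hg)

end Gamma0

end

end Fermat.Agent.S41
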