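/-
S41 / L8 final bundle (helper45), twin of the last serial step of link L8.

From the two master adjointness statements of the Manin-model pairing `md32_B`
  (B-I)  `B_G(χ, tr Φ) = B_H(χ, Φ)`         (`lf45_BI`)
  (B-I') `B_H(χ', Φ) = B_G(cores χ', Φ)`    (`lf45_BI'`)
for the level pairs `(N, q)` and `(N, l0)` (hypotheses, in the literal shapes of the L8 plan),
together with what is on main:
  (B-W)  `cwc77_BW_conj`, (H-id) `hk54_heckeHom_eq_cores`, (PD1)/(PD2) `md32_PB_pd1/pd2`,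
  (H1')  `him88_H1'_nd53`, the glue `dg71_Hb` and the referee theorem `rf7_S41_of_Hb`,
we get the adjointness inputs `hadj₁`, `hadj₂`, `hT` of `dg71_Hb` for `md32_PB`, then the dual
Ihara lemma `rf7_Hb`, then the frozen conclusion of S41 (`lf45_S41`).
-/
import Mathlib
import Fermat.Agent.S41.DualGlue71
import Fermat.Agent.S41.HomIharaMain88
import Fermat.Agent.S41.CapWConc77
import Fermat.Agent.S41.HeckeCores54
import Fermat.Agent.S41.RefereeB7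

set_option autoImplicit false

open Matrix MatrixGroups CongruenceSubgroup OnePoint ModularGroup
open Fermat.Agent.S16

namespace Fermat.Agent.S41

/-- **(B-I)** for the level pair `(M, M r)`: the trace on symbols is adjoint to the restriction
of homomorphisms. -/
def lf45_BI {M r : ℕ} (D : tr43_Data M r) [Fintype (SL(2, ℤ) ⧸ Gamma0 M)]
    [Fintype (SL(2, ℤ) ⧸ Gamma0 (M * r))]
    (repG : SL(2, ℤ) ⧸ Gamma0 M → SL(2, ℤ)) (repH : SL(2, ℤ) ⧸ Gamma0 (M * r) → SL(2, ℤ)) :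
    Prop :=
  ∀ χ : SL(2, ℤ) → ℤ, md32_IsHom (Gamma0 M) χ →
    ∀ Φ : sc71_X → ℤ, slp10_IsSymb (M * r) Φ →
      md32_B psl96_rho ∞ repG χ (Function.curry (tr43_tr D Φ)) =
        md32_B psl96_rho ∞ repH χ (Function.curry Φ)

/-- **(B-I')** for the level pair `(M, M r)`: the restriction of symbols is adjoint to the
transfer (corestriction) of homomorphisms; `χG` is any function which on `Γ₀(M)` is the
transfer of `χ'`. -/
def lf45_BI' (M r : ℕ) [Fintype (SL(2, ℤ) ⧸ Gamma0 M)]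
    [Fintype (SL(2, ℤ) ⧸ Gamma0 (M * r))]
    (repG : SL(2, ℤ) ⧸ Gamma0 M → SL(2, ℤ)) (repH : SL(2, ℤ) ⧸ Gamma0 (M * r) → SL(2, ℤ)) :
    Prop :=
  ∀ χ' : SL(2, ℤ) → ℤ, md32_IsHom (Gamma0 (M * r)) χ' →
    ∀ χG : SL(2, ℤ) → ℤ,
      (∀ (g : SL(2, ℤ)) (hg : g ∈ Gamma0 M), χG g =
        ∑ᶠ c : ↥(Gamma0 M) ⧸ (Gamma0 (M * r)).subgroupOf (Gamma0 M),
          χ' ((ct77_h ((Gamma0 (M * r)).subgroupOf (Gamma0 M)) ⟨g, hg⟩ c : Gamma0 M) :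
            SL(2, ℤ))) →
    ∀ Φ : sc71_X → ℤ, slp10_IsSymb M Φ →
      md32_B psl96_rho ∞ repH χ' (Function.curry Φ) =
        md32_B psl96_rho ∞ repG χG (Function.curry Φ)

section Bundle

variable {N q : ℕ}

/-- the extension by zero of a homomorphism on `Γ₀(N)` is additive on `Γ₀(N q)`. -/
theorem lf45_ext_isHom (α : Additive (Gamma0 N) →+ ℤ) :
    md32_IsHom (Gamma0 (N * q)) (md32_ext α) := fun a ha b hb =>
  md32_ext_isHom α a (hic88_le N q ha) b (hic88_le N q hb)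

/-- `conj_w` is multiplicative on `Γ₀(N q)`. -/
theorem lf45_cw_mul (hq : q ≠ 0) (D : tr43_Data N q) {a b : SL(2, ℤ)}
    (ha : a ∈ Gamma0 (N * q)) (hb : b ∈ Gamma0 (N * q)) :
    cwc77_cw hq D (a * b) = cwc77_cw hq D a * cwc77_cw hq D b := by
  rw [cwc77_cw_of_mem hq D ha, cwc77_cw_of_mem hq D hb,
    cwc77_cw_of_mem hq D ((Gamma0 (N * q)).mul_mem ha hb)]
  have e : (⟨a * b, (Gamma0 (N * q)).mul_mem ha hb⟩ : Gamma0 (N * q)) = ⟨a, ha⟩ * ⟨b, hb⟩ := rfl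
  rw [e, map_mul]
  rfl

theorem lf45_cw_mem (hq : q ≠ 0) (D : tr43_Data N q) {a : SL(2, ℤ)}
    (ha : a ∈ Gamma0 (N * q)) : cwc77_cw hq D a ∈ Gamma0 (N * q) :=
  (cwc77_cw_spec hq D a ha).1

/-- `(α ∘ conj_w)` is additive on `Γ₀(N q)`. -/
theorem lf45_ext_cw_isHom (hq : q ≠ 0) (D : tr43_Data N q) (α : Additive (Gamma0 N) →+ ℤ) :
    md32_IsHom (Gamma0 (N * q)) (md32_ext α ∘ cwc77_cw hq D) := by
  intro a ha b hb
  simp only [Function.comp_apply]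
  rw [lf45_cw_mul hq D ha hb]
  exact md32_ext_isHom α _ (hic88_le N q (lf45_cw_mem hq D ha)) _
    (hic88_le N q (lf45_cw_mem hq D hb))

variable [Fintype (SL(2, ℤ) ⧸ Gamma0 N)] [Fintype (SL(2, ℤ) ⧸ Gamma0 (N * q))]
  {repN : SL(2, ℤ) ⧸ Gamma0 N → SL(2, ℤ)} {repQ : SL(2, ℤ) ⧸ Gamma0 (N * q) → SL(2, ℤ)}

/-- **`hadj₁`**: the trace is adjoint to the restriction. -/
theorem lf45_hadj₁ (hq : q.Prime) (D : tr43_Data N q)
    (hrepQ : ∀ x, (repQ x : SL(2, ℤ) ⧸ Gamma0 (N * q)) = x)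
    (hI : lf45_BI D repN repQ)
    (b : md32_Symb (Gamma0 (N * q)) psl96_rho) (α : Additive (Gamma0 N) →+ ℤ) :
    md32_PB psl96_rho ∞ repN (dg71_tr hq D b) α =
      md32_PB psl96_rho ∞ repQ b (nd53_res₁ N q ℤ α) := by
  rw [md32_PB_apply, md32_PB_apply]
  have h1 := hI (md32_ext α) (md32_ext_isHom α) (dg71_fn b) (dg71_fn_isSymb b)
  refine h1.trans (md32_B_congr (cwc77_neg_one_mem_Gamma0 _) hrepQ (fun g hg => ?_) _)
  rw [md32_ext_of_mem α (hic88_le N q hg), md32_ext_of_mem _ hg]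
  rfl

/-- **`hadj₂`**: the trace of `W` is adjoint to the twisted restriction. -/
theorem lf45_hadj₂ (hq : q.Prime) (D : tr43_Data N q)
    (hrepQ : ∀ x, (repQ x : SL(2, ℤ) ⧸ Gamma0 (N * q)) = x) (hadQ : md32_Adapted repQ)
    (hI : lf45_BI D repN repQ)
    (b : md32_Symb (Gamma0 (N * q)) psl96_rho) (α : Additive (Gamma0 N) →+ ℤ) :
    md32_PB psl96_rho ∞ repN (dg71_tr hq D (dg71_W hq.ne_zero D b)) α =
      md32_PB psl96_rho ∞ repQ b (nd53_res₂ D hq.ne_zero ℤ α) := by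
  rw [md32_PB_apply, md32_PB_apply]
  have hb := dg71_fn_isSymb b
  have hW : slp10_IsSymb (N * q) (tr43_W D (dg71_fn b)) :=
    ⟨sc71_IsSymb.W D hb.1, tr43_W_Inv hq.ne_zero D hb.2⟩
  have h1 := hI (md32_ext α) (md32_ext_isHom α) _ hW
  have h2 := cwc77_BW_conj hq.ne_zero D hrepQ hadQ (lf45_ext_isHom (q := q) α) hW.1 hW.2
  rw [tr43_W_W sc71_scalarTriv hq.ne_zero D hb.2] at h2
  refine h1.trans (h2.symm.trans
    (md32_B_congr (cwc77_neg_one_mem_Gamma0 _) hrepQ (fun g hg => ?_) _))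
  rw [Function.comp_apply, cwc77_cw_of_mem hq.ne_zero D hg,
    md32_ext_of_mem α (hic88_le N q (D.conj hq.ne_zero ⟨g, hg⟩).2), md32_ext_of_mem _ hg]
  rfl

end Bundle

section Hecke

variable {N l0 : ℕ} [Fintype (SL(2, ℤ) ⧸ Gamma0 N)] [Fintype (SL(2, ℤ) ⧸ Gamma0 (N * l0))]
  {repN : SL(2, ℤ) ⧸ Gamma0 N → SL(2, ℤ)} {repL : SL(2, ℤ) ⧸ Gamma0 (N * l0) → SL(2, ℤ)}

/-- **`hT`**: `T_{l0}` on symbols is adjoint to `heckeHom N l0 ℤ` on homomorphisms. -/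
theorem lf45_hT (hl0 : l0.Prime) (hl0N : ¬ l0 ∣ N) (D' : tr43_Data N l0)
    (hrepL : ∀ x, (repL x : SL(2, ℤ) ⧸ Gamma0 (N * l0)) = x) (hadL : md32_Adapted repL)
    (hI : lf45_BI D' repN repL) (hI' : lf45_BI' N l0 repN repL)
    (x : md32_Symb (Gamma0 N) psl96_rho) (α : Additive (Gamma0 N) →+ ℤ) :
    md32_PB psl96_rho ∞ repN (dg71_T N l0 hl0 hl0N x) α =
      md32_PB psl96_rho ∞ repN x (heckeHom N l0 ℤ α) := by
  rw [md32_PB_apply, md32_PB_apply]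
  have hne : l0 ≠ 0 := hl0.ne_zero
  have hx := dg71_fn_isSymb x
  have hxL : tr43_Inv (N * l0) (dg71_fn x) := tr43_Inv_of_dvd (dvd_mul_right N l0) hx.2
  have hW : slp10_IsSymb (N * l0) (tr43_W D' (dg71_fn x)) :=
    ⟨sc71_IsSymb.W D' hx.1, tr43_W_Inv hne D' hxL⟩
  have hT : tr43_tr D' (tr43_W D' (dg71_fn x)) = tr43_T l0 (dg71_fn x) :=
    tr43_tr_W_res sc71_scalarTriv hne D' hx.2
  have h1 := hI (md32_ext α) (md32_ext_isHom α) _ hW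
  rw [hT] at h1
  have h2 := cwc77_BW_conj hne D' hrepL hadL (lf45_ext_isHom (q := l0) α) hW.1 hW.2
  rw [tr43_W_W sc71_scalarTriv hne D' hxL] at h2
  have h3 := hI' (md32_ext α ∘ cwc77_cw hne D') (lf45_ext_cw_isHom hne D' α)
    (md32_ext (heckeHom N l0 ℤ α)) (fun g hg => ?_) (dg71_fn x) hx
  · exact h1.trans (h2.symm.trans h3)
  · rw [md32_ext_of_mem _ hg,
      hk54_heckeHom_eq_cores hl0 hl0N D'
        (fun h => ⟨((D'.conj hne h : Gamma0 (N * l0)) : SL(2, ℤ)),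
          hic88_le N l0 (D'.conj hne h).2⟩)
        (fun h => D'.conj_spec hne h) α ⟨g, hg⟩]
    refine finsum_congr (fun c => ?_)
    have hmem : ((ct77_h ((Gamma0 (N * l0)).subgroupOf (Gamma0 N)) ⟨g, hg⟩ c : Gamma0 N) :
        SL(2, ℤ)) ∈ Gamma0 (N * l0) :=
      Subgroup.mem_subgroupOf.mp
        (ct77_h_mem ((Gamma0 (N * l0)).subgroupOf (Gamma0 N)) (⟨g, hg⟩ : Gamma0 N) c)
    rw [Function.comp_apply, cwc77_cw_of_mem hne D' hmem,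
      md32_ext_of_mem α (hic88_le N l0 (D'.conj hne ⟨_, hmem⟩).2)]

end Hecke

/-- **The dual Ihara lemma `(Hb)` from (B-I) and (B-I').** -/
theorem lf45_Hb {p N q l0 : ℕ} (hp : p.Prime) (hp2 : p ≠ 2) (hN : 0 < N) (hq : q.Prime)
    (hqN : ¬ q ∣ N) (hl0 : l0.Prime) (hl01 : l0 ≡ 1 [MOD N * q])
    (D : tr43_Data N q) (D' : tr43_Data N l0)
    [Fintype (SL(2, ℤ) ⧸ Gamma0 N)] [Fintype (SL(2, ℤ) ⧸ Gamma0 (N * q))]
    [Fintype (SL(2, ℤ) ⧸ Gamma0 (N * l0))]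
    {repN : SL(2, ℤ) ⧸ Gamma0 N → SL(2, ℤ)} {repQ : SL(2, ℤ) ⧸ Gamma0 (N * q) → SL(2, ℤ)}
    {repL : SL(2, ℤ) ⧸ Gamma0 (N * l0) → SL(2, ℤ)}
    (hrepN : ∀ x, (repN x : SL(2, ℤ) ⧸ Gamma0 N) = x) (hadN : md32_Adapted repN)
    (hrepQ : ∀ x, (repQ x : SL(2, ℤ) ⧸ Gamma0 (N * q)) = x) (hadQ : md32_Adapted repQ)
    (hrepL : ∀ x, (repL x : SL(2, ℤ) ⧸ Gamma0 (N * l0)) = x) (hadL : md32_Adapted repL)
    (hIq : lf45_BI D repN repQ) (hIl : lf45_BI D' repN repL)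
    (hI'l : lf45_BI' N l0 repN repL) :
    rf7_Hb p N q D l0 := by
  have hl0Nq : ¬ l0 ∣ N * q := ca76_not_dvd_of_modEq hl0 hl01
  have hl0N : ¬ l0 ∣ N := fun h => hl0Nq (h.mul_right q)
  exact dg71_Hb p hp hq D hl0 hl0N (md32_PB psl96_rho ∞ repN) (md32_PB psl96_rho ∞ repQ)
    (nd53_res₁ N q ℤ) (nd53_res₂ D hq.ne_zero ℤ) (heckeHom N l0 ℤ)
    (lf45_hadj₁ hq D hrepQ hIq) (lf45_hadj₂ hq D hrepQ hadQ hIq)
    (lf45_hT hl0 hl0N D' hrepL hadL hIl hI'l)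
    (md32_PB_pd1 md32_cuspAx_rho (cwc77_neg_one_mem_Gamma0 _) hrepN hadN hp hp2)
    (md32_PB_pd2 md32_cuspAx_rho (cwc77_neg_one_mem_Gamma0 _) hrepQ hadQ hp hp2) 4
    (fun α₁ α₂ h => him88_H1'_nd53 hp hp2 hN hq hqN hl0 hl01 D α₁ α₂ h)

/-- (B-I) for all level pairs, all Bézout data and all adapted sections. -/
def lf45_AllBI : Prop :=
  ∀ (M r : ℕ), 0 < M → r.Prime → ¬ r ∣ M → ∀ (D : tr43_Data M r)
    [Fintype (SL(2, ℤ) ⧸ Gamma0 M)] [Fintype (SL(2, ℤ) ⧸ Gamma0 (M * r))]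
    (repG : SL(2, ℤ) ⧸ Gamma0 M → SL(2, ℤ)) (repH : SL(2, ℤ) ⧸ Gamma0 (M * r) → SL(2, ℤ)),
    (∀ x, (repG x : SL(2, ℤ) ⧸ Gamma0 M) = x) → md32_Adapted repG →
    (∀ x, (repH x : SL(2, ℤ) ⧸ Gamma0 (M * r)) = x) → md32_Adapted repH →
    lf45_BI D repG repH

/-- (B-I') for all level pairs and all adapted sections. -/
def lf45_AllBI' : Prop :=
  ∀ (M r : ℕ), 0 < M → r.Prime → ¬ r ∣ M →
    ∀ [Fintype (SL(2, ℤ) ⧸ Gamma0 M)] [Fintype (SL(2, ℤ) ⧸ Gamma0 (M * r))]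
    (repG : SL(2, ℤ) ⧸ Gamma0 M → SL(2, ℤ)) (repH : SL(2, ℤ) ⧸ Gamma0 (M * r) → SL(2, ℤ)),
    (∀ x, (repG x : SL(2, ℤ) ⧸ Gamma0 M) = x) → md32_Adapted repG →
    (∀ x, (repH x : SL(2, ℤ) ⧸ Gamma0 (M * r)) = x) → md32_Adapted repH →
    lf45_BI' M r repG repH

/-- `(Hb)` for every Atkin–Lehner datum and every auxiliary prime `l0 ≡ 1 mod N q`, from the
two master statements. -/
theorem lf45_Hb_all {p N q : ℕ} (hp : p.Prime) (hp2 : p ≠ 2) (hN : 0 < N) (hq : q.Prime)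
    (hqN : ¬ q ∣ N) (HBI : lf45_AllBI) (HBI' : lf45_AllBI')
    (D : tr43_Data N q) (l0 : ℕ) (hl0 : l0.Prime) (hl01 : l0 ≡ 1 [MOD N * q]) :
    rf7_Hb p N q D l0 := by
  have hl0Nq : ¬ l0 ∣ N * q := ca76_not_dvd_of_modEq hl0 hl01
  have hl0N : ¬ l0 ∣ N := fun h => hl0Nq (h.mul_right q)
  have hNq : 0 < N * q := Nat.mul_pos hN hq.pos
  have hNl : 0 < N * l0 := Nat.mul_pos hN hl0.pos
  have : NeZero N := ⟨hN.ne'⟩
  have : NeZero (N * q) := ⟨hNq.ne'⟩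
  have : NeZero (N * l0) := ⟨hNl.ne'⟩
  have : Finite (SL(2, ℤ) ⧸ Gamma0 N) := Subgroup.finite_quotient_of_finiteIndex
  have : Finite (SL(2, ℤ) ⧸ Gamma0 (N * q)) := Subgroup.finite_quotient_of_finiteIndex
  have : Finite (SL(2, ℤ) ⧸ Gamma0 (N * l0)) := Subgroup.finite_quotient_of_finiteIndex
  have : Fintype (SL(2, ℤ) ⧸ Gamma0 N) := Fintype.ofFinite _
  have : Fintype (SL(2, ℤ) ⧸ Gamma0 (N * q)) := Fintype.ofFinite _
  have : Fintype (SL(2, ℤ) ⧸ Gamma0 (N * l0)) := Fintype.ofFinite _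
  obtain ⟨D'⟩ := tr43_Data_exists ((Nat.Prime.coprime_iff_not_dvd hl0).mpr hl0N)
  obtain ⟨repN, hrepN, hadN⟩ := md32_exists_rep (Γ := Gamma0 N) (cwc77_neg_one_mem_Gamma0 N)
  obtain ⟨repQ, hrepQ, hadQ⟩ :=
    md32_exists_rep (Γ := Gamma0 (N * q)) (cwc77_neg_one_mem_Gamma0 (N * q))
  obtain ⟨repL, hrepL, hadL⟩ :=
    md32_exists_rep (Γ := Gamma0 (N * l0)) (cwc77_neg_one_mem_Gamma0 (N * l0))
  exact lf45_Hb hp hp2 hN hq hqN hl0 hl01 D D' hrepN hadN hrepQ hadQ hrepL hadL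
    (HBI N q hN hq hqN D repN repQ hrepN hadN hrepQ hadQ)
    (HBI N l0 hN hl0 hl0N D' repN repL hrepN hadN hrepL hadL)
    (HBI' N l0 hN hl0 hl0N repN repL hrepN hadN hrepL hadL)

open WeierstrassCurve WeierstrassCurve.Affine WeierstrassCurve.Affine.Point in
/-- **The frozen conclusion of S41 from the two master statements (B-I), (B-I').** -/
theorem lf45_S41
    (E : WeierstrassCurve ℚ) [E.IsElliptic] {W : WeierstrassCurve ℤ} (hW : W.IsIntegralModelOf E)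
    {p N q' : ℕ} (hp : p.Prime) (hp2 : p ≠ 2) (hN : 0 < N) (hq' : q'.Prime) (hq'N : ¬ q' ∣ N)
    (hirr : GaloisRepIsIrreducible (K := AlgebraicClosure ℚ) ℚ E p)
    (f : CuspForm (CongruenceSubgroup.Gamma0 N) 2) (𝔪 : Ideal (integralClosure ℤ ℂ))
    (hf : f.IsNormalizedEigenform) (hmax : 𝔪.IsMaximal) (hpm : (p : integralClosure ℤ ℂ) ∈ 𝔪)
    (hcong : ∀ ℓ : ℕ, ℓ.Prime → W.IsGoodPrimeFor ℓ → ¬ ℓ ∣ N → ℓ ≠ p →
      ∃ a : integralClosure ℤ ℂ, (a : ℂ) = ModularFormClass.qCoeff f ℓ ∧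
        a - ((W.apOfModel ℓ : ℤ) : integralClosure ℤ ℂ) ∈ 𝔪)
    (hLR : ∃ a : integralClosure ℤ ℂ, (a : ℂ) = ModularFormClass.qCoeff f q' ∧
      a ^ 2 - ((q' : integralClosure ℤ ℂ) + 1) ^ 2 ∈ 𝔪)
    (HBI : lf45_AllBI) (HBI' : lf45_AllBI') :
    ∃ (g : CuspForm (CongruenceSubgroup.Gamma0 (N * q')) 2) (𝔪' : Ideal (integralClosure ℤ ℂ)),
      g.IsNormalizedEigenform ∧ 𝔪'.IsMaximal ∧ (p : integralClosure ℤ ℂ) ∈ 𝔪' ∧
      (∀ ℓ : ℕ, ℓ.Prime → W.IsGoodPrimeFor ℓ → ¬ ℓ ∣ N * q' → ℓ ≠ p →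
        ∃ a : integralClosure ℤ ℂ, (a : ℂ) = ModularFormClass.qCoeff g ℓ ∧
          a - ((W.apOfModel ℓ : ℤ) : integralClosure ℤ ℂ) ∈ 𝔪') ∧
      g.IsNewAt q' :=
  rf7_S41_of_Hb E hW hp hp2 hN hq' hq'N hirr f 𝔪 hf hmax hpm hcong hLR
    (fun D l0 hl0 _ hl01 => lf45_Hb_all hp hp2 hN hq' hq'N HBI HBI' D l0 hl0 hl01)

end Fermat.Agent.S41
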