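/-
S41 / M3 (helper96): the bundled link L8 and the dual Ihara lemma `(Hb)`.

On top of the three B-level adjointness statements (`l8c96_BI`, `l8c96_BI'` of `L8Concrete96`,
`cwc77_BW_conj` of `CapWConc77`) and `heckeHom = cores ∘ conj_w ∘ res` (`HeckeId43`):

* `l8f96_B_hadj₁`, `l8f96_B_hadj₂`, `l8f96_B_hT` : the three adjointness identities for the
  Manin pairing `md32_B psl96_rho ∞` on plain symbols / bundled homomorphisms;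
* `l8f96_hadj₁`, `l8f96_hadj₂`, `l8f96_hT` : the same for `md32_PB`, in the shape of `dg71_Hb`;
* `l8f96_Hb` : the dual Ihara lemma `rf7_Hb p N q D l0`, no hypothesis left.
-/
import Mathlib
import Fermat.Agent.S41.L8Concrete96
import Fermat.Agent.S41.CapWConc77
import Fermat.Agent.S41.HeckeId43
import Fermat.Agent.S41.DualGlue71
import Fermat.Agent.S41.HomIharaMain88
import Fermat.Agent.S41.RefereeB7

set_option autoImplicit false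

open scoped MatrixGroups
open ModularGroup Matrix CongruenceSubgroup
open Fermat.Agent.S16

namespace Fermat.Agent.S41

noncomputable section

/-! ### the three identities at the level of `md32_B` -/

section BLevel

variable {N q : ℕ}

/-- `md32_ext α` and `md32_ext (res₁ α)` agree on `Γ₀(N q)`. -/
theorem l8f96_ext_res₁
    {res₁ : (Additive (Gamma0 N) →+ ℤ) → (Additive (Gamma0 (N * q)) →+ ℤ)}
    (hres₁ : hic88_IsRes₁ N q res₁) (α : Additive (Gamma0 N) →+ ℤ) :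
    ∀ g ∈ Gamma0 (N * q), md32_ext α g = md32_ext (res₁ α) g := by
  intro g hg
  rw [md32_ext_of_mem α (l8c96_le N q hg), md32_ext_of_mem _ hg]
  exact (hres₁ α ⟨g, hg⟩ ⟨g, l8c96_le N q hg⟩ rfl).symm

/-- `md32_ext α` and `md32_ext (res₂ α) ∘ conj_w` agree on `Γ₀(N q)` (`w² = q η`). -/
theorem l8f96_ext_res₂ (hq : q ≠ 0) (D : tr43_Data N q)
    {res₂ : (Additive (Gamma0 N) →+ ℤ) → (Additive (Gamma0 (N * q)) →+ ℤ)}
    (hres₂ : hic88_IsRes₂ D res₂) (α : Additive (Gamma0 N) →+ ℤ) :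
    ∀ g ∈ Gamma0 (N * q), md32_ext α g = (md32_ext (res₂ α) ∘ cwc77_cw hq D) g := by
  intro g hg
  have hle := l8c96_le N q
  rw [Function.comp_apply, cwc77_cw_of_mem hq D hg,
    md32_ext_of_mem (res₂ α) (D.conj hq ⟨g, hg⟩).2, md32_ext_of_mem α (hle hg)]
  have h1 : res₂ α (Additive.ofMul (D.conj hq ⟨g, hg⟩))
      = α (Additive.ofMul (Subgroup.inclusion hle (D.conj hq (D.conj hq ⟨g, hg⟩)))) :=
    hres₂ α (D.conj hq ⟨g, hg⟩) (Subgroup.inclusion hle (D.conj hq (D.conj hq ⟨g, hg⟩)))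
      (D.conj_spec hq (D.conj hq ⟨g, hg⟩)).symm
  refine Eq.trans ?_ h1.symm
  have h3 : ∀ x y : Gamma0 N,
      α (Additive.ofMul (x * y)) = α (Additive.ofMul x) + α (Additive.ofMul y) :=
    fun x y => map_add α (Additive.ofMul x) (Additive.ofMul y)
  have h4 : ∀ x : Gamma0 N, α (Additive.ofMul x⁻¹) = - α (Additive.ofMul x) :=
    fun x => map_neg α (Additive.ofMul x)
  have h5 : Subgroup.inclusion hle (D.eta * ⟨g, hg⟩ * D.eta⁻¹)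
      = Subgroup.inclusion hle D.eta * ⟨g, hle hg⟩ * (Subgroup.inclusion hle D.eta)⁻¹ := rfl
  rw [D.conj_conj hq, h5, h3, h3, h4]
  abel

variable [Fintype (SL(2, ℤ) ⧸ Gamma0 N)]

/-- **(hadj₁)** at the level of `md32_B`. -/
theorem l8f96_B_hadj₁ (hq : q.Prime) (D : tr43_Data N q)
    [Fintype (SL(2, ℤ) ⧸ Gamma0 (N * q))]
    {repN : SL(2, ℤ) ⧸ Gamma0 N → SL(2, ℤ)} (hrepN : ∀ x, (repN x : SL(2, ℤ) ⧸ Gamma0 N) = x)
    (hadN : md32_Adapted repN)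
    {repQ : SL(2, ℤ) ⧸ Gamma0 (N * q) → SL(2, ℤ)}
    (hrepQ : ∀ x, (repQ x : SL(2, ℤ) ⧸ Gamma0 (N * q)) = x) (hadQ : md32_Adapted repQ)
    {res₁ : (Additive (Gamma0 N) →+ ℤ) → (Additive (Gamma0 (N * q)) →+ ℤ)}
    (hres₁ : hic88_IsRes₁ N q res₁) (α : Additive (Gamma0 N) →+ ℤ)
    {Φ : sc71_X → ℤ} (hΦ : slp10_IsSymb (N * q) Φ) :
    md32_B psl96_rho (OnePoint.infty : OnePoint ℚ) repN (md32_ext α)
        (Function.curry (tr43_tr D Φ))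
      = md32_B psl96_rho (OnePoint.infty : OnePoint ℚ) repQ (md32_ext (res₁ α))
        (Function.curry Φ) := by
  rw [l8c96_BI hq D hrepN hadN hrepQ hadQ (md32_ext_isHom α) hΦ.1 hΦ.2]
  exact md32_B_congr (l8c96_neg_mem _) hrepQ (l8f96_ext_res₁ hres₁ α) _

/-- **(hadj₂)** at the level of `md32_B`. -/
theorem l8f96_B_hadj₂ (hq : q.Prime) (D : tr43_Data N q)
    [Fintype (SL(2, ℤ) ⧸ Gamma0 (N * q))]
    {repN : SL(2, ℤ) ⧸ Gamma0 N → SL(2, ℤ)} (hrepN : ∀ x, (repN x : SL(2, ℤ) ⧸ Gamma0 N) = x)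
    (hadN : md32_Adapted repN)
    {repQ : SL(2, ℤ) ⧸ Gamma0 (N * q) → SL(2, ℤ)}
    (hrepQ : ∀ x, (repQ x : SL(2, ℤ) ⧸ Gamma0 (N * q)) = x) (hadQ : md32_Adapted repQ)
    {res₂ : (Additive (Gamma0 N) →+ ℤ) → (Additive (Gamma0 (N * q)) →+ ℤ)}
    (hres₂ : hic88_IsRes₂ D res₂) (α : Additive (Gamma0 N) →+ ℤ)
    {Φ : sc71_X → ℤ} (hΦ : slp10_IsSymb (N * q) Φ) :
    md32_B psl96_rho (OnePoint.infty : OnePoint ℚ) repN (md32_ext α)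
        (Function.curry (tr43_tr D (tr43_W D Φ)))
      = md32_B psl96_rho (OnePoint.infty : OnePoint ℚ) repQ (md32_ext (res₂ α))
        (Function.curry Φ) := by
  rw [l8c96_BI hq D hrepN hadN hrepQ hadQ (md32_ext_isHom α) (sc71_IsSymb.W D hΦ.1)
    (tr43_W_Inv hq.ne_zero D hΦ.2),
    ← cwc77_BW_conj hq.ne_zero D hrepQ hadQ (md32_ext_isHom (res₂ α)) hΦ.1 hΦ.2]
  exact md32_B_congr (l8c96_neg_mem _) hrepQ (l8f96_ext_res₂ hq.ne_zero D hres₂ α) _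

/-- **(hT)** at the level of `md32_B`: `T_ℓ` on symbols is adjoint to `heckeHom N ℓ ℤ`. -/
theorem l8f96_B_hT {ℓ : ℕ} (hN : 0 < N) (hℓ : ℓ.Prime) (hℓN : ¬ ℓ ∣ N)
    {repN : SL(2, ℤ) ⧸ Gamma0 N → SL(2, ℤ)} (hrepN : ∀ x, (repN x : SL(2, ℤ) ⧸ Gamma0 N) = x)
    (hadN : md32_Adapted repN) (α : Additive (Gamma0 N) →+ ℤ)
    {Φ : sc71_X → ℤ} (hΦ : slp10_IsSymb N Φ) :
    md32_B psl96_rho (OnePoint.infty : OnePoint ℚ) repN (md32_ext α)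
        (Function.curry (tr43_T ℓ Φ))
      = md32_B psl96_rho (OnePoint.infty : OnePoint ℚ) repN (md32_ext (heckeHom N ℓ ℤ α))
        (Function.curry Φ) := by
  obtain ⟨D⟩ := tr43_Data_exists (N := N) (q := ℓ) ((Nat.Prime.coprime_iff_not_dvd hℓ).mpr hℓN)
  have : NeZero (N * ℓ) := ⟨Nat.mul_ne_zero hN.ne' hℓ.ne_zero⟩
  let _ : Fintype (SL(2, ℤ) ⧸ Gamma0 (N * ℓ)) := Fintype.ofFinite _
  obtain ⟨repL, hrepL, hadL⟩ := md32_exists_rep (Γ := Gamma0 (N * ℓ)) (l8c96_neg_mem _)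
  have hle := l8c96_le N ℓ
  have hΦL : tr43_Inv (N * ℓ) Φ := tr43_Inv_of_dvd (dvd_mul_right N ℓ) hΦ.2
  -- the homomorphism `(α|Γ₀(Nℓ)) ∘ conj_w⁻¹` on `Γ₀(N ℓ)`
  have hχ' : md32_IsHom (Gamma0 (N * ℓ)) (md32_ext α ∘ cwc77_cw hℓ.ne_zero D.inv) := by
    intro a ha b hb
    rw [Function.comp_apply, Function.comp_apply, Function.comp_apply,
      cwc77_cw_of_mem hℓ.ne_zero D.inv ha, cwc77_cw_of_mem hℓ.ne_zero D.inv hb,
      cwc77_cw_of_mem hℓ.ne_zero D.inv ((Gamma0 (N * ℓ)).mul_mem ha hb)]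
    have e : (⟨a * b, (Gamma0 (N * ℓ)).mul_mem ha hb⟩ : Gamma0 (N * ℓ))
        = ⟨a, ha⟩ * ⟨b, hb⟩ := rfl
    rw [e, map_mul, Subgroup.coe_mul]
    exact md32_ext_isHom α _ (hle (Subtype.prop _)) _ (hle (Subtype.prop _))
  rw [← tr43_tr_W_res sc71_scalarTriv hℓ.ne_zero D hΦ.2,
    l8c96_BI hℓ D hrepN hadN hrepL hadL (md32_ext_isHom α) (sc71_IsSymb.W D hΦ.1)
      (tr43_W_Inv hℓ.ne_zero D hΦL)]
  have h1 : md32_B psl96_rho (OnePoint.infty : OnePoint ℚ) repL (md32_ext α)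
        (Function.curry (tr43_W D Φ))
      = md32_B psl96_rho (OnePoint.infty : OnePoint ℚ) repL
        ((md32_ext α ∘ cwc77_cw hℓ.ne_zero D.inv) ∘ cwc77_cw hℓ.ne_zero D)
        (Function.curry (tr43_W D Φ)) := by
    refine md32_B_congr (l8c96_neg_mem _) hrepL (fun g hg => ?_) _
    rw [Function.comp_apply, Function.comp_apply, cwc77_cw_of_mem hℓ.ne_zero D hg,
      cwc77_cw_of_mem hℓ.ne_zero D.inv (Subtype.prop _)]
    have e : D.inv.conj hℓ.ne_zero (D.conj hℓ.ne_zero ⟨g, hg⟩) = ⟨g, hg⟩ :=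
      (D.conj hℓ.ne_zero).symm_apply_apply ⟨g, hg⟩
    rw [Subtype.coe_eta, e]
  rw [h1, cwc77_BW_conj hℓ.ne_zero D hrepL hadL hχ' hΦ.1 hΦL,
    l8c96_BI' N ℓ hrepN hadN hrepL hadL hχ' hΦ.1 hΦ.2]
  refine md32_B_congr (l8c96_neg_mem _) hrepN (fun g hg => ?_) _
  rw [l8c96_cores_apply N ℓ _ hg, md32_ext_of_mem _ hg,
    hid43_heckeHom_cores_conj hℓ hℓN D.inv α ⟨g, hg⟩]
  refine finsum_congr fun c => ?_
  have hmem : ((ct77_h ((Gamma0 (N * ℓ)).subgroupOf (Gamma0 N)) ⟨g, hg⟩ c : Gamma0 N)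
      : SL(2, ℤ)) ∈ Gamma0 (N * ℓ) :=
    Subgroup.mem_subgroupOf.mp (ct77_h_mem ((Gamma0 (N * ℓ)).subgroupOf (Gamma0 N)) ⟨g, hg⟩ c)
  show (md32_ext α ∘ cwc77_cw hℓ.ne_zero D.inv)
      ((ct77_h ((Gamma0 (N * ℓ)).subgroupOf (Gamma0 N)) ⟨g, hg⟩ c : Gamma0 N) : SL(2, ℤ)) = _
  rw [Function.comp_apply, cwc77_cw_of_mem hℓ.ne_zero D.inv hmem,
    md32_ext_of_mem α (hle (Subtype.prop _))]

end BLevel

/-! ### the three identities for `md32_PB`, in the shape of `dg71_Hb` -/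

section PB

variable {N q : ℕ} [Fintype (SL(2, ℤ) ⧸ Gamma0 N)]

/-- **(hadj₁)**: the trace is adjoint to the restriction. -/
theorem l8f96_hadj₁ (hq : q.Prime) (D : tr43_Data N q)
    [Fintype (SL(2, ℤ) ⧸ Gamma0 (N * q))]
    {repN : SL(2, ℤ) ⧸ Gamma0 N → SL(2, ℤ)} (hrepN : ∀ x, (repN x : SL(2, ℤ) ⧸ Gamma0 N) = x)
    (hadN : md32_Adapted repN)
    {repQ : SL(2, ℤ) ⧸ Gamma0 (N * q) → SL(2, ℤ)}
    (hrepQ : ∀ x, (repQ x : SL(2, ℤ) ⧸ Gamma0 (N * q)) = x) (hadQ : md32_Adapted repQ)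
    {res₁ : (Additive (Gamma0 N) →+ ℤ) → (Additive (Gamma0 (N * q)) →+ ℤ)}
    (hres₁ : hic88_IsRes₁ N q res₁)
    (b : md32_Symb (Gamma0 (N * q)) psl96_rho) (α : Additive (Gamma0 N) →+ ℤ) :
    md32_PB psl96_rho (OnePoint.infty : OnePoint ℚ) repN (dg71_tr hq D b) α
      = md32_PB psl96_rho (OnePoint.infty : OnePoint ℚ) repQ b (res₁ α) :=
  l8f96_B_hadj₁ hq D hrepN hadN hrepQ hadQ hres₁ α (dg71_fn_isSymb b)

/-- **(hadj₂)**: the trace after `W` is adjoint to the second degeneracy map. -/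
theorem l8f96_hadj₂ (hq : q.Prime) (D : tr43_Data N q)
    [Fintype (SL(2, ℤ) ⧸ Gamma0 (N * q))]
    {repN : SL(2, ℤ) ⧸ Gamma0 N → SL(2, ℤ)} (hrepN : ∀ x, (repN x : SL(2, ℤ) ⧸ Gamma0 N) = x)
    (hadN : md32_Adapted repN)
    {repQ : SL(2, ℤ) ⧸ Gamma0 (N * q) → SL(2, ℤ)}
    (hrepQ : ∀ x, (repQ x : SL(2, ℤ) ⧸ Gamma0 (N * q)) = x) (hadQ : md32_Adapted repQ)
    {res₂ : (Additive (Gamma0 N) →+ ℤ) → (Additive (Gamma0 (N * q)) →+ ℤ)}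
    (hres₂ : hic88_IsRes₂ D res₂)
    (b : md32_Symb (Gamma0 (N * q)) psl96_rho) (α : Additive (Gamma0 N) →+ ℤ) :
    md32_PB psl96_rho (OnePoint.infty : OnePoint ℚ) repN
        (dg71_tr hq D (dg71_W hq.ne_zero D b)) α
      = md32_PB psl96_rho (OnePoint.infty : OnePoint ℚ) repQ b (res₂ α) :=
  l8f96_B_hadj₂ hq D hrepN hadN hrepQ hadQ hres₂ α (dg71_fn_isSymb b)

/-- **(hT)**: `T_ℓ` on symbols is adjoint to `heckeHom N ℓ ℤ`. -/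
theorem l8f96_hT {ℓ : ℕ} (hN : 0 < N) (hℓ : ℓ.Prime) (hℓN : ¬ ℓ ∣ N)
    {repN : SL(2, ℤ) ⧸ Gamma0 N → SL(2, ℤ)} (hrepN : ∀ x, (repN x : SL(2, ℤ) ⧸ Gamma0 N) = x)
    (hadN : md32_Adapted repN)
    (x : md32_Symb (Gamma0 N) psl96_rho) (α : Additive (Gamma0 N) →+ ℤ) :
    md32_PB psl96_rho (OnePoint.infty : OnePoint ℚ) repN (dg71_T N ℓ hℓ hℓN x) α
      = md32_PB psl96_rho (OnePoint.infty : OnePoint ℚ) repN x (heckeHom N ℓ ℤ α) :=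
  l8f96_B_hT hN hℓ hℓN hrepN hadN α (dg71_fn_isSymb x)

end PB

/-! ### the dual Ihara lemma -/

/-- **The dual Ihara lemma `(Hb)`**, no hypothesis left: link L9 of the S41 assembly. -/
theorem l8f96_Hb {p N q l0 : ℕ} (hp : p.Prime) (hp2 : p ≠ 2) (hN : 0 < N) (hq : q.Prime)
    (hqN : ¬ q ∣ N) (D : tr43_Data N q) (hl0 : l0.Prime) (hl01 : l0 ≡ 1 [MOD N * q]) :
    rf7_Hb p N q D l0 := by
  have hl0Nq : ¬ l0 ∣ N * q := ca76_not_dvd_of_modEq hl0 hl01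
  have hl0N : ¬ l0 ∣ N := fun h => hl0Nq (h.mul_right q)
  have : NeZero N := ⟨hN.ne'⟩
  have : NeZero (N * q) := ⟨Nat.mul_ne_zero hN.ne' hq.ne_zero⟩
  let _ : Fintype (SL(2, ℤ) ⧸ Gamma0 N) := Fintype.ofFinite _
  let _ : Fintype (SL(2, ℤ) ⧸ Gamma0 (N * q)) := Fintype.ofFinite _
  obtain ⟨repN, hrepN, hadN⟩ := md32_exists_rep (Γ := Gamma0 N) (l8c96_neg_mem _)
  obtain ⟨repQ, hrepQ, hadQ⟩ := md32_exists_rep (Γ := Gamma0 (N * q)) (l8c96_neg_mem _)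
  exact dg71_Hb p hp hq D hl0 hl0N
    (md32_PB psl96_rho OnePoint.infty repN) (md32_PB psl96_rho OnePoint.infty repQ)
    (nd53_res₁ N q ℤ) (nd53_res₂ D hq.ne_zero ℤ) (heckeHom N l0 ℤ)
    (l8f96_hadj₁ hq D hrepN hadN hrepQ hadQ (him88_isRes₁ N q ℤ))
    (l8f96_hadj₂ hq D hrepN hadN hrepQ hadQ (him88_isRes₂ D hq.ne_zero ℤ))
    (l8f96_hT hN hl0 hl0N hrepN hadN)
    (md32_PB_pd1 md32_cuspAx_rho (l8c96_neg_mem _) hrepN hadN hp hp2)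
    (md32_PB_pd2 md32_cuspAx_rho (l8c96_neg_mem _) hrepQ hadQ hp hp2)
    4 (him88_H1'_nd53 hp hp2 hN hq hqN hl0 hl01 D)

/-- the hypothesis `Hb` of `rf7_S41_of_Hb`, in its literal shape. -/
theorem l8f96_Hb_all {p N q : ℕ} (hp : p.Prime) (hp2 : p ≠ 2) (hN : 0 < N) (hq : q.Prime)
    (hqN : ¬ q ∣ N) :
    ∀ (D : tr43_Data N q) (l0 : ℕ), l0.Prime → l0 ≠ p → l0 ≡ 1 [MOD N * q] →
      rf7_Hb p N q D l0 :=
  fun D _ hl0 _ hl01 => l8f96_Hb hp hp2 hN hq hqN D hl0 hl01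

end

end Fermat.Agent.S41
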