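/-
S41 (level raising), adapters (helper52).

The duality chain (`DualIhara28`, `LRAlg54`) is phrased with plain abelian groups (the lattices as
types), additive maps and `lr54_pow T e n = (T - e)^n`.  `lr52_core_pair` / `lr52_S41` are phrased
with lattices `L : Submodule ℤ V` inside vector spaces and powers of endomorphisms of `V`.
This file bridges the two:

* `lr52_resHom` : restriction of a linear map to lattices, as an additive map.
* `lr52_coe_pow` : `↑(lr54_pow TL e n x) = ((T - e • 1) ^ n) ↑x` when `TL` restricts `T`.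
* `lr52_hb_of_duality` : hypothesis `hb` of `lr52_core_pair` / `lr52_S41` from the duality data
  (pairings, adjointness, (PD1), (PD2)) and Ihara on the adjoint side, via `di28_mod_p`.
* `lr52_ha_of_sub` : hypothesis `ha` from its subtype / `lr54_pow` form.
-/
import Mathlib
import Fermat.Agent.S41.LRAlg54
import Fermat.Agent.S41.DualIhara28

set_option autoImplicit false

namespace Fermat.Agent.S41

section Adapt

variable {K : Type*} [Field K] {V V' : Type*} [AddCommGroup V] [Module K V]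
  [AddCommGroup V'] [Module K V']

/-- restriction of a linear map to lattices, as an additive map. -/
def lr52_resHom (f : V →ₗ[K] V') (L : Submodule ℤ V) (L' : Submodule ℤ V')
    (h : ∀ x ∈ L, f x ∈ L') : L →+ L' where
  toFun x := ⟨f x, h x x.2⟩
  map_zero' := Subtype.ext (by simp)
  map_add' x y := Subtype.ext (by simp)

@[simp] theorem lr52_resHom_coe (f : V →ₗ[K] V') (L : Submodule ℤ V) (L' : Submodule ℤ V')
    (h : ∀ x ∈ L, f x ∈ L') (x : L) : ((lr52_resHom f L L' h x : L') : V') = f (x : V) := rfl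

/-- `lr54_pow` of a restricted endomorphism is the restricted power. -/
theorem lr52_coe_pow (T : Module.End K V) (L : Submodule ℤ V) (TL : L →+ L)
    (hTL : ∀ x : L, ((TL x : L) : V) = T (x : V)) (e : ℤ) (n : ℕ) (x : L) :
    ((lr54_pow TL e n x : L) : V) = ((T - e • (1 : Module.End K V)) ^ n) (x : V) := by
  induction n with
  | zero => simp
  | succ n ih =>
    rw [lr54_pow_succ, pow_succ', Module.End.mul_apply, ← ih]
    simp only [LinearMap.sub_apply, LinearMap.smul_apply, Module.End.one_apply,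
      Submodule.coe_sub, Submodule.coe_smul, hTL]

end Adapt

section Duality

variable {K : Type*} [Field K] {VN VQ : Type*} [AddCommGroup VN] [Module K VN]
  [AddCommGroup VQ] [Module K VQ]

/-- **Dual Ihara in the shape of `lr52_core_pair`** from duality.  `LN`, `LQ` the lattices of
levels `N`, `N q` (trace side), `L'`, `M'` the groups on the restriction side, `P`, `Qp` the
pairings, `tr₁ tr₂` the lattice-level traces (restrictions of `j₁ j₂`), `T` the lattice-level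
operator (restriction of `TN0`), adjoint to `T'`. -/
theorem lr52_hb_of_duality (LN : Submodule ℤ VN) (LQ : Submodule ℤ VQ)
    (TN0 : Module.End K VN) (j₁ j₂ : VQ →ₗ[K] VN)
    {L' M' : Type*} [AddCommGroup L'] [AddCommGroup M']
    (p : ℕ) (hp : p.Prime)
    (P : LN →+ L' →+ ℤ) (Qp : LQ →+ M' →+ ℤ)
    (tr₁ tr₂ : LQ →+ LN)
    (htr₁ : ∀ b : LQ, ((tr₁ b : LN) : VN) = j₁ (b : VQ))
    (htr₂ : ∀ b : LQ, ((tr₂ b : LN) : VN) = j₂ (b : VQ))
    (res₁ res₂ : L' →+ M')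
    (hadj₁ : ∀ b α, P (tr₁ b) α = Qp b (res₁ α)) (hadj₂ : ∀ b α, P (tr₂ b) α = Qp b (res₂ α))
    (T : LN →+ LN) (hT0 : ∀ x : LN, ((T x : LN) : VN) = TN0 (x : VN))
    (T' : L' →+ L') (e : ℤ)
    (hT : ∀ x α, P (T x) α = P x (T' α))
    (hPD1 : ∀ lam : LN →+ ZMod p, ∃ α : L', ∀ x, ((P x α : ℤ) : ZMod p) = lam x)
    (hPD2 : ∀ β : M', (∀ b, (p : ℤ) ∣ Qp b β) → ∃ β', β = (p : ℤ) • β')
    (n : ℕ)
    (H1' : ∀ α₁ α₂ : L', (∃ β', res₁ α₁ + res₂ α₂ = (p : ℤ) • β') →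
      (∃ α', lr54_pow T' e n α₁ = (p : ℤ) • α') ∧ (∃ α', lr54_pow T' e n α₂ = (p : ℤ) • α')) :
    ∃ n : ℕ, ∀ x₁ ∈ LN, ∀ x₂ ∈ LN, ∃ y ∈ LQ,
      (∃ x' ∈ LN, ((TN0 - e • (1 : Module.End K VN)) ^ n) x₁ = j₁ y + (p : ℤ) • x') ∧
        ∃ x' ∈ LN, ((TN0 - e • (1 : Module.End K VN)) ^ n) x₂ = j₂ y + (p : ℤ) • x' := by
  have key : ∀ x : LN × LN, ∃ (b : LQ) (y : LN × LN),
      lr54_pow (T.prodMap T) e n x = (tr₁.prod tr₂) b + (p : ℤ) • y := by
    refine di28_mod_p (A := LN × LN) (B := LQ) (A' := L' × L') (B' := M') p hp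
      (di28_prodPair P P) Qp (tr₁.prod tr₂) (res₁.coprod res₂) ?_ (T.prodMap T)
      (T'.prodMap T') e ?_ (di28_pd1_prod p P P hPD1 hPD1) hPD2 n ?_
    · rintro b ⟨α₁, α₂⟩
      simp [hadj₁, hadj₂]
    · rintro ⟨x₁, x₂⟩ ⟨α₁, α₂⟩
      simp [hT]
    · rintro ⟨α₁, α₂⟩ ⟨β', hβ'⟩
      obtain ⟨⟨a₁, h₁⟩, ⟨a₂, h₂⟩⟩ := H1' α₁ α₂ ⟨β', by simpa using hβ'⟩
      refine ⟨(a₁, a₂), ?_⟩
      rw [di28_pow_prodMap]
      simp [h₁, h₂]
  refine ⟨n, fun x₁ hx₁ x₂ hx₂ => ?_⟩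
  obtain ⟨b, y, hby⟩ := key (⟨x₁, hx₁⟩, ⟨x₂, hx₂⟩)
  rw [di28_pow_prodMap] at hby
  have h1 := congrArg (fun z : LN × LN => ((z.1 : LN) : VN)) hby
  have h2 := congrArg (fun z : LN × LN => ((z.2 : LN) : VN)) hby
  simp only [AddMonoidHom.prod_apply, Prod.fst_add, Prod.snd_add, Prod.smul_fst, Prod.smul_snd,
    Submodule.coe_add, Submodule.coe_smul, htr₁, htr₂] at h1 h2
  rw [lr52_coe_pow TN0 LN T hT0] at h1 h2
  exact ⟨(b : VQ), b.2, ⟨(y.1 : VN), y.1.2, h1⟩, ⟨(y.2 : VN), y.2.2, h2⟩⟩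

/-- hypothesis `ha` of `lr52_core_pair` from its subtype / `lr54_pow` form. -/
theorem lr52_ha_of_sub (LN : Submodule ℤ VN) (LQ : Submodule ℤ VQ)
    (TN0 : Module.End K VN) (i₁ i₂ : VN →ₗ[K] VQ) (p : ℕ)
    (T : LN →+ LN) (hT0 : ∀ x : LN, ((T x : LN) : VN) = TN0 (x : VN)) (e : ℤ) (n : ℕ)
    (H1 : ∀ a₁ a₂ : LN, (∃ b : LQ, i₁ (a₁ : VN) + i₂ (a₂ : VN) = (p : ℤ) • (b : VQ)) →
      (∃ a' : LN, lr54_pow T e n a₁ = (p : ℤ) • a') ∧ ∃ a' : LN, lr54_pow T e n a₂ = (p : ℤ) • a') :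
    ∀ x₁ ∈ LN, ∀ x₂ ∈ LN, (∃ y ∈ LQ, i₁ x₁ + i₂ x₂ = (p : ℤ) • y) →
      ∃ n : ℕ, (∃ x' ∈ LN, ((TN0 - e • (1 : Module.End K VN)) ^ n) x₁ = (p : ℤ) • x') ∧
        ∃ x' ∈ LN, ((TN0 - e • (1 : Module.End K VN)) ^ n) x₂ = (p : ℤ) • x' := by
  rintro x₁ hx₁ x₂ hx₂ ⟨y, hy, hxy⟩
  obtain ⟨⟨a₁, h₁⟩, ⟨a₂, h₂⟩⟩ := H1 ⟨x₁, hx₁⟩ ⟨x₂, hx₂⟩ ⟨⟨y, hy⟩, hxy⟩
  refine ⟨n, ⟨(a₁ : VN), a₁.2, ?_⟩, ⟨(a₂ : VN), a₂.2, ?_⟩⟩
  · have := congrArg (fun z : LN => (z : VN)) h₁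
    simp only [Submodule.coe_smul] at this
    rw [lr52_coe_pow TN0 LN T hT0] at this
    exact this
  · have := congrArg (fun z : LN => (z : VN)) h₂
    simp only [Submodule.coe_smul] at this
    rw [lr52_coe_pow TN0 LN T hT0] at this
    exact this

end Duality

end Fermat.Agent.S41
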