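/-
S41 / M7 (helper52): lifting an eigenvector through an equivariant linear map.

`lr52_lift_eigen`: `ν : W → V` linear, equivariant for a commuting family `T` on `W` and a family
`T'` on `V`; `W₀ ⊆ W` a finite dimensional `T`-stable subspace, `w₀ ∈ W₀` such that `ν w₀ ≠ 0`
is a common eigenvector of `T'` with eigenvalues `c`.  Then `W₀` contains a common eigenvector
of `T` with the same eigenvalues `c`.

Intended use (S41, symbols model): `W` = modular symbols over `ℂ` of level `N`, `V` =
`Hom(Γ₀(N), ℂ)`, `ν` = the period map of symbols, `ν w₀` = the period homomorphism of the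
eigenform `f`: one gets an eigen-symbol with the Hecke eigenvalues of `f`.
-/
import Mathlib
import Fermat.Agent.S49.Algebra

set_option autoImplicit false

namespace Fermat.Agent.S41

open Module

section

variable {K : Type*} [Field K] {W V : Type*} [AddCommGroup W] [Module K W]
  [AddCommGroup V] [Module K V]

/-- if `S v = r • v` then `S ^ n v = r ^ n • v`. -/
theorem lr52_pow_apply_eigen (S : Module.End K W) (v : W) (r : K) (h : S v = r • v) (n : ℕ) :
    (S ^ n) v = r ^ n • v := by
  induction n with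
  | zero => simp
  | succ n ih =>
    rw [pow_succ, Module.End.mul_apply, h, map_smul, ih, smul_smul, pow_succ, mul_comm]

/-- intertwining passes to powers. -/
theorem lr52_pow_intertwine (S : Module.End K W) (S' : Module.End K V) (ν : W →ₗ[K] V)
    (h : ∀ w, ν (S w) = S' (ν w)) (n : ℕ) (w : W) : ν ((S ^ n) w) = (S' ^ n) (ν w) := by
  induction n generalizing w with
  | zero => simp
  | succ n ih =>
    rw [pow_succ, Module.End.mul_apply, ih, h, pow_succ, Module.End.mul_apply]

/-- a power `≥ 1` of an endomorphism killing `x` kills `k • x`. -/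
theorem lr52_pow_kill (S' : Module.End K V) (x : V) (h : S' x = 0) (k : K) {n : ℕ} (hn : 1 ≤ n) :
    (S' ^ n) (k • x) = 0 := by
  obtain ⟨m, rfl⟩ : ∃ m, n = m + 1 := ⟨n - 1, by omega⟩
  rw [pow_succ, Module.End.mul_apply, map_smul, h, smul_zero, map_zero]

end

section

variable {K : Type*} [Field K] [IsAlgClosed K] {W V : Type*} [AddCommGroup W] [Module K W]
  [AddCommGroup V] [Module K V]

/-- **Lifting an eigenvector**, finite dimensional source. -/
theorem lr52_lift_eigen_fd [FiniteDimensional K W] {ι : Type*}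
    (T : ι → Module.End K W) (T' : ι → Module.End K V)
    (hcomm : ∀ a b, Commute (T a) (T b))
    (ν : W →ₗ[K] V) (hν : ∀ a w, ν (T a w) = T' a (ν w))
    (w₀ : W) (hne : ν w₀ ≠ 0) (c : ι → K) (hc : ∀ a, T' a (ν w₀) = c a • ν w₀) :
    ∃ w : W, w ≠ 0 ∧ ∀ a, T a w = c a • w := by
  classical
  set χ : V := ν w₀ with hχ
  -- the property of subspaces we minimise
  let P : Submodule K W → Prop := fun U =>
    (∀ a, ∀ u ∈ U, T a u ∈ U) ∧ (∀ u ∈ U, ∃ k : K, ν u = k • χ) ∧ ∃ u ∈ U, ν u = χ
  have hP0 : P (Submodule.comap ν (Submodule.span K {χ})) := by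
    refine ⟨fun a u hu => ?_, fun u hu => ?_, w₀, ?_, rfl⟩
    · rw [Submodule.mem_comap, Submodule.mem_span_singleton] at hu ⊢
      obtain ⟨k, hk⟩ := hu
      refine ⟨k * c a, ?_⟩
      rw [hν, ← hk, map_smul, hc, smul_smul]
    · rw [Submodule.mem_comap, Submodule.mem_span_singleton] at hu
      obtain ⟨k, hk⟩ := hu
      exact ⟨k, hk.symm⟩
    · rw [Submodule.mem_comap]
      exact Submodule.mem_span_singleton_self χ
  obtain ⟨U, hPU, hmin⟩ :=
    (wellFounded_lt (α := Submodule K W)).has_min {U | P U} ⟨_, hP0⟩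
  obtain ⟨hUT, hUν, u₀, hu₀U, hu₀⟩ := hPU
  -- every `T a - c a` is nilpotent on `U`
  have hnil : ∀ a, ∃ n : ℕ, ∀ u ∈ U, ((T a - c a • (1 : Module.End K W)) ^ n) u = 0 := by
    intro a
    set S : Module.End K W := T a - c a • (1 : Module.End K W) with hS
    set S' : Module.End K V := T' a - c a • (1 : Module.End K V) with hS'
    have hSU : ∀ u ∈ U, S u ∈ U := by
      intro u hu
      rw [hS, LinearMap.sub_apply, LinearMap.smul_apply, Module.End.one_apply]
      exact U.sub_mem (hUT a u hu) (U.smul_mem _ hu)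
    have hSν : ∀ w, ν (S w) = S' (ν w) := by
      intro w
      rw [hS, hS', LinearMap.sub_apply, LinearMap.smul_apply, Module.End.one_apply,
        LinearMap.sub_apply, LinearMap.smul_apply, Module.End.one_apply, map_sub, map_smul, hν]
    have hS'χ : S' χ = 0 := by
      rw [hS', LinearMap.sub_apply, LinearMap.smul_apply, Module.End.one_apply, hc, sub_self]
    have hScomm : ∀ b, Commute (T b) S := by
      intro b
      rw [hS]
      exact (hcomm b a).sub_right ((Commute.one_right _).smul_right _)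
    set f : Module.End K U := S.restrict hSU with hf
    obtain ⟨n₀, hn₀⟩ := Filter.eventually_atTop.mp f.eventually_isCompl_ker_pow_range_pow
    set n := n₀ + 1 with hn
    have hcompl : IsCompl (LinearMap.ker (f ^ n)) (LinearMap.range (f ^ n)) := hn₀ n (by omega)
    have hfpow : ∀ (m : ℕ) (x : U), (((f ^ m) x : U) : W) = (S ^ m) (x : W) := by
      intro m x
      rw [hf, Module.End.pow_restrict]
      rfl
    -- decompose `u₀`
    have htop : (⟨u₀, hu₀U⟩ : U) ∈ LinearMap.ker (f ^ n) ⊔ LinearMap.range (f ^ n) := by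
      rw [hcompl.sup_eq_top]; trivial
    obtain ⟨x₁, hx₁, x₂, hx₂, hx12⟩ := Submodule.mem_sup.mp htop
    obtain ⟨x₃, rfl⟩ := hx₂
    have hνx₂ : ν (((f ^ n) x₃ : U) : W) = 0 := by
      rw [hfpow, lr52_pow_intertwine S S' ν hSν]
      obtain ⟨k, hk⟩ := hUν (x₃ : W) x₃.2
      rw [hk]
      exact lr52_pow_kill S' χ hS'χ k (by omega)
    have hνx₁ : ν (x₁ : W) = χ := by
      have h1 : (x₁ : W) + (((f ^ n) x₃ : U) : W) = u₀ := by
        have := congrArg (Subtype.val) hx12
        simpa using this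
      have h2 : ν (x₁ : W) + ν (((f ^ n) x₃ : U) : W) = χ := by
        rw [← map_add, h1, hu₀]
      rwa [hνx₂, add_zero] at h2
    have hx₁ker : (S ^ n) (x₁ : W) = 0 := by
      rw [← hfpow, LinearMap.mem_ker.mp hx₁]
      rfl
    -- the smaller subspace
    have hP1 : P (U ⊓ LinearMap.ker (S ^ n)) := by
      refine ⟨fun b u hu => ?_, fun u hu => hUν u (Submodule.mem_inf.mp hu).1, (x₁ : W),
        Submodule.mem_inf.mpr ⟨x₁.2, LinearMap.mem_ker.mpr hx₁ker⟩, hνx₁⟩
      obtain ⟨huU, huk⟩ := Submodule.mem_inf.mp hu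
      refine Submodule.mem_inf.mpr ⟨hUT b u huU, LinearMap.mem_ker.mpr ?_⟩
      have h1 : (S ^ n) (T b u) = T b ((S ^ n) u) := by
        have := ((hScomm b).pow_right n).eq
        exact (LinearMap.congr_fun this u).symm
      rw [h1, LinearMap.mem_ker.mp huk, map_zero]
    have hle : U ⊓ LinearMap.ker (S ^ n) ≤ U := inf_le_left
    have heq : U ⊓ LinearMap.ker (S ^ n) = U := by
      by_contra hne'
      exact hmin _ hP1 (lt_of_le_of_ne hle hne')
    refine ⟨n, fun u hu => ?_⟩
    have : u ∈ U ⊓ LinearMap.ker (S ^ n) := by rw [heq]; exact hu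
    exact LinearMap.mem_ker.mp (Submodule.mem_inf.mp this).2
  have hUne : U ≠ ⊥ := by
    intro hbot
    rw [hbot, Submodule.mem_bot] at hu₀U
    rw [hu₀U, map_zero] at hu₀
    exact hne hu₀.symm
  obtain ⟨v, hvU, hv0, hv⟩ := Fermat.Agent.S49.exists_common_eigenvector (Set.range T)
    (by
      rintro _ ⟨a, rfl⟩ _ ⟨b, rfl⟩ x
      exact LinearMap.congr_fun (hcomm a b).eq x)
    U hUne (by
      rintro _ ⟨a, rfl⟩ w hw
      exact hUT a w hw)
  refine ⟨v, hv0, fun a => ?_⟩
  obtain ⟨μ, hμ⟩ := hv (T a) ⟨a, rfl⟩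
  obtain ⟨n, hn⟩ := hnil a
  have h1 : (T a - c a • (1 : Module.End K W)) v = (μ - c a) • v := by
    rw [LinearMap.sub_apply, LinearMap.smul_apply, Module.End.one_apply, hμ, sub_smul]
  have h2 := lr52_pow_apply_eigen _ v _ h1 n
  rw [hn v hvU] at h2
  have h3 : (μ - c a) ^ n = 0 := by
    rcases smul_eq_zero.mp h2.symm with h | h
    · exact h
    · exact absurd h hv0
  have h4 : μ = c a := sub_eq_zero.mp (eq_zero_of_pow_eq_zero h3)
  rw [hμ, h4]

/-- **Lifting an eigenvector** through an equivariant map: `W₀` a finite dimensional stable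
subspace, `w₀ ∈ W₀` with `ν w₀ ≠ 0` a common eigenvector of the `T'` with eigenvalues `c`.
Then `W₀` contains a common eigenvector of the `T` with eigenvalues `c`. -/
theorem lr52_lift_eigen {ι : Type*}
    (T : ι → Module.End K W) (T' : ι → Module.End K V)
    (hcomm : ∀ a b, Commute (T a) (T b))
    (ν : W →ₗ[K] V) (hν : ∀ a w, ν (T a w) = T' a (ν w))
    (W₀ : Submodule K W) (hfd : FiniteDimensional K W₀) (hW₀ : ∀ a, ∀ w ∈ W₀, T a w ∈ W₀)
    (w₀ : W) (hw₀ : w₀ ∈ W₀) (hne : ν w₀ ≠ 0) (c : ι → K)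
    (hc : ∀ a, T' a (ν w₀) = c a • ν w₀) :
    ∃ w ∈ W₀, w ≠ 0 ∧ ∀ a, T a w = c a • w := by
  obtain ⟨w, hw0, hw⟩ := lr52_lift_eigen_fd (K := K) (W := W₀) (V := V)
    (fun a => (T a).restrict (hW₀ a)) T'
    (fun a b => by
      apply LinearMap.ext
      intro x
      apply Subtype.ext
      exact LinearMap.congr_fun (hcomm a b).eq (x : W))
    (ν.comp W₀.subtype)
    (fun a w => hν a (w : W))
    ⟨w₀, hw₀⟩ hne c hc
  refine ⟨(w : W), w.2, fun h => hw0 (Subtype.ext h), fun a => ?_⟩
  have := congrArg Subtype.val (hw a)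
  simpa using this

end

end Fermat.Agent.S41
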