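/-
S41 (level raising), abstract algebra core, part 1 (helper52).

`lr52_finKer`: a commuting family `N a` of endomorphisms of a finite abelian group `M`;
for every stable subgroup `U`, either the `N a` have a common nonzero kernel vector in `U`,
or some product of operators `1 - N a ^ (m+1)` kills `U`.
-/
import Mathlib

set_option autoImplicit false

namespace Fermat.Agent.S41

section FinKer

variable {M : Type*} [AddCommGroup M] {ι : Type*}

/-- The multiplicative monoid generated by the operators `1 - N a ^ (m + 1)`. -/
def lr52_S (N : ι → Module.End ℤ M) : Submonoid (Module.End ℤ M) :=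
  Submonoid.closure {e | ∃ a : ι, ∃ m : ℕ, e = 1 - N a ^ (m + 1)}

theorem lr52_S_gen (N : ι → Module.End ℤ M) (a : ι) (m : ℕ) :
    1 - N a ^ (m + 1) ∈ lr52_S N :=
  Submonoid.subset_closure ⟨a, m, rfl⟩

theorem lr52_S_commute (N : ι → Module.End ℤ M) (hcomm : ∀ a b, Commute (N a) (N b))
    {e : Module.End ℤ M} (he : e ∈ lr52_S N) (b : ι) : Commute e (N b) := by
  induction he using Submonoid.closure_induction with
  | mem x hx =>
    obtain ⟨a, m, rfl⟩ := hx
    exact ((Commute.one_left _).sub_left ((hcomm a b).pow_left _))
  | one => exact Commute.one_left _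
  | mul x y _ _ hx hy => exact hx.mul_left hy

theorem lr52_S_stable (N : ι → Module.End ℤ M) (U : Submodule ℤ M)
    (hU : ∀ a, ∀ x ∈ U, N a x ∈ U)
    {e : Module.End ℤ M} (he : e ∈ lr52_S N) : ∀ x ∈ U, e x ∈ U := by
  induction he using Submonoid.closure_induction with
  | mem y hy =>
    obtain ⟨a, m, rfl⟩ := hy
    intro x hx
    have hpow : ∀ k : ℕ, ∀ z ∈ U, (N a ^ k) z ∈ U := by
      intro k
      induction k with
      | zero => intro z hz; simpa using hz
      | succ k ih =>
        intro z hz
        rw [pow_succ, Module.End.mul_apply]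
        exact ih _ (hU a z hz)
    simp only [LinearMap.sub_apply, Module.End.one_apply]
    exact U.sub_mem hx (hpow _ x hx)
  | one => intro x hx; simpa using hx
  | mul y z _ _ hy hz =>
    intro x hx
    rw [Module.End.mul_apply]
    exact hy _ (hz x hx)

theorem lr52_card_lt [Finite M] {U₁ U : Submodule ℤ M} (h : U₁ < U) :
    Nat.card U₁ < Nat.card U := by
  have h1 : (U₁ : Set M) ⊂ (U : Set M) := by
    exact_mod_cast h
  have := Set.ncard_lt_ncard h1 (Set.toFinite _)
  rw [← Nat.card_coe_set_eq, ← Nat.card_coe_set_eq] at this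
  exact this

theorem lr52_finKer [Finite M] (N : ι → Module.End ℤ M) (hcomm : ∀ a b, Commute (N a) (N b)) :
    ∀ (n : ℕ) (U : Submodule ℤ M), Nat.card U = n → (∀ a, ∀ x ∈ U, N a x ∈ U) →
      (∃ x ∈ U, x ≠ 0 ∧ ∀ a, N a x = 0) ∨ (∃ e ∈ lr52_S N, ∀ x ∈ U, e x = 0) := by
  intro n
  induction n using Nat.strong_induction_on with
  | _ n ih =>
    intro U hn hU
    by_cases h0 : ∀ a, ∀ x ∈ U, N a x = 0
    · by_cases hbot : U = ⊥
      · right
        refine ⟨1, one_mem _, fun x hx => ?_⟩
        rw [hbot, Submodule.mem_bot] at hx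
        simp [hx]
      · left
        obtain ⟨x, hxU, hx0⟩ := Submodule.exists_mem_ne_zero_of_ne_bot hbot
        exact ⟨x, hxU, hx0, fun a => h0 a x hxU⟩
    · push Not at h0
      obtain ⟨a, x0, hx0U, hx0⟩ := h0
      -- U₁ = kernel of N a on U
      set U₁ : Submodule ℤ M := U ⊓ LinearMap.ker (N a) with hU₁
      have hU₁lt : U₁ < U := by
        refine lt_of_le_of_ne inf_le_left ?_
        intro heq
        have : x0 ∈ U₁ := heq ▸ hx0U
        exact hx0 (LinearMap.mem_ker.mp this.2)
      have hU₁st : ∀ b, ∀ x ∈ U₁, N b x ∈ U₁ := by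
        intro b x hx
        refine ⟨hU b x hx.1, ?_⟩
        show N a (N b x) = 0
        have := (hcomm a b).eq
        have h2 : N a (N b x) = N b (N a x) := by
          have := congrArg (fun T : Module.End ℤ M => T x) this
          simpa [Module.End.mul_apply] using this
        rw [h2, LinearMap.mem_ker.mp hx.2, map_zero]
      rcases ih _ (hn ▸ lr52_card_lt hU₁lt) U₁ rfl hU₁st with ⟨x, hx, hxne, hxk⟩ | ⟨e₁, he₁, he₁U⟩
      · exact Or.inl ⟨x, hx.1, hxne, hxk⟩
      · -- restriction of N a to U
        let f : U → U := fun x => ⟨N a x, hU a x x.2⟩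
        by_cases hinj : Function.Injective f
        · -- N a is a permutation of U: some power is the identity
          right
          let σ : Equiv.Perm U := Equiv.ofBijective f (Finite.injective_iff_bijective.mp hinj)
          have hpos : 0 < orderOf σ := orderOf_pos σ
          have hpow : ∀ k : ℕ, ∀ x : U, ((σ ^ k) x : M) = (N a ^ k) (x : M) := by
            intro k
            induction k with
            | zero => intro x; simp
            | succ k ih2 =>
              intro x
              rw [pow_succ, Equiv.Perm.mul_apply, ih2, pow_succ, Module.End.mul_apply]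
              rfl
          obtain ⟨m, hm⟩ : ∃ m, orderOf σ = m + 1 := ⟨orderOf σ - 1, by omega⟩
          refine ⟨1 - N a ^ (m + 1), lr52_S_gen N a m, fun x hx => ?_⟩
          have h1 := hpow (m + 1) ⟨x, hx⟩
          rw [← hm, pow_orderOf_eq_one] at h1
          simp only [LinearMap.sub_apply, Module.End.one_apply]
          rw [← hm, ← h1]
          simp
        · -- U₂ = image of U under N a is strictly smaller
          set U₂ : Submodule ℤ M := U.map (N a) with hU₂
          have hU₂le : U₂ ≤ U := by
            rintro _ ⟨x, hx, rfl⟩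
            exact hU a x hx
          have hU₂ne : U₂ ≠ U := by
            intro heq
            apply hinj
            apply Finite.injective_iff_surjective.mpr
            rintro ⟨y, hy⟩
            rw [← heq] at hy
            obtain ⟨x, hx, rfl⟩ := hy
            exact ⟨⟨x, hx⟩, rfl⟩
          have hU₂lt : U₂ < U := lt_of_le_of_ne hU₂le hU₂ne
          have hU₂st : ∀ b, ∀ x ∈ U₂, N b x ∈ U₂ := by
            rintro b _ ⟨x, hx, rfl⟩
            refine ⟨N b x, hU b x hx, ?_⟩
            have := congrArg (fun T : Module.End ℤ M => T x) (hcomm a b).eq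
            simpa [Module.End.mul_apply] using this
          rcases ih _ (hn ▸ lr52_card_lt hU₂lt) U₂ rfl hU₂st with
            ⟨x, hx, hxne, hxk⟩ | ⟨e₂, he₂, he₂U⟩
          · exact Or.inl ⟨x, hU₂le hx, hxne, hxk⟩
          · right
            refine ⟨e₁ * e₂, mul_mem he₁ he₂, fun x hx => ?_⟩
            rw [Module.End.mul_apply]
            apply he₁U
            refine ⟨lr52_S_stable N U hU he₂ x hx, ?_⟩
            show N a (e₂ x) = 0
            have hc := congrArg (fun T : Module.End ℤ M => T x) (lr52_S_commute N hcomm he₂ a).eq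
            simp only [Module.End.mul_apply] at hc
            rw [← hc]
            exact he₂U _ ⟨x, hx, rfl⟩

end FinKer

end Fermat.Agent.S41
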