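/-
S41 (level raising), module M7.1b (helper54): from a characteristic-zero eigenvector to an
eigenvector modulo `p` inside a lattice.

* `lr54_fin_torsion` : a finite module `M` over a commutative ring `R` and a prime ideal `𝔫`
  containing the annihilator of `M`: some nonzero element of `M` is killed by `𝔫`.
* `lr54_isIntegral_eigen` : eigenvalues (on the span of a finitely generated lattice) of
  endomorphisms preserving the lattice are algebraic integers.
-/
import Mathlib
import Fermat.Agent.S49.Algebra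

set_option autoImplicit false

namespace Fermat.Agent.S41

section Fin

variable {R M : Type*} [CommRing R] [AddCommGroup M] [Module R M]

/-- Size of the cyclic submodule generated by `m`. -/
noncomputable def lr54_cyc (R : Type*) {M : Type*} [CommRing R] [AddCommGroup M] [Module R M]
    (m : M) : ℕ := ((Submodule.span R {m} : Submodule R M) : Set M).ncard

theorem lr54_exists_min [Finite M] (P : M → Prop) (hP : ∃ m, P m) :
    ∃ m, P m ∧ ∀ m', P m' → lr54_cyc R m ≤ lr54_cyc R m' := by
  classical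
  have hex : ∃ n, ∃ m, P m ∧ lr54_cyc R m = n := by
    obtain ⟨m, hm⟩ := hP
    exact ⟨_, m, hm, rfl⟩
  obtain ⟨m, hm, hmn⟩ := Nat.find_spec hex
  refine ⟨m, hm, fun m' hm' => ?_⟩
  rw [hmn]
  exact Nat.find_min' hex ⟨m', hm', rfl⟩

theorem lr54_span_eq_of_le [Finite M] {m m' : M}
    (hle : Submodule.span R {m'} ≤ Submodule.span R {m})
    (hcard : lr54_cyc R m ≤ lr54_cyc R m') :
    Submodule.span R {m'} = Submodule.span R {m} := by
  apply SetLike.coe_injective
  exact Set.eq_of_subset_of_ncard_le hle hcard (Set.toFinite _)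

/-- A finite module whose annihilator is contained in a prime ideal `𝔫` has a nonzero element
killed by `𝔫`. -/
theorem lr54_fin_torsion [Finite M] (𝔫 : Ideal R) (h𝔫 : 𝔫.IsPrime)
    (hann : ∀ r : R, (∀ m : M, r • m = 0) → r ∈ 𝔫) :
    ∃ m : M, m ≠ 0 ∧ ∀ r ∈ 𝔫, r • m = 0 := by
  classical
  have h1 : (1 : R) ∉ 𝔫 := fun h => h𝔫.ne_top ((Ideal.eq_top_iff_one _).mpr h)
  -- Stage 0: some element has annihilator inside `𝔫`
  have hS : ∃ m : M, ∀ r : R, r • m = 0 → r ∈ 𝔫 := by
    by_contra hcon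
    push Not at hcon
    choose f hf0 hf𝔫 using hcon
    have : Fintype M := Fintype.ofFinite M
    have hprod : (∏ m : M, f m) ∉ 𝔫 := by
      intro h
      obtain ⟨m, -, hm⟩ := (h𝔫.prod_mem_iff).mp h
      exact hf𝔫 m hm
    apply hprod
    apply hann
    intro m
    rw [← Finset.prod_erase_mul _ _ (Finset.mem_univ m), mul_smul, hf0, smul_zero]
  -- Stage 1: minimal cyclic module among those
  obtain ⟨m₀, hm₀, hmin₀⟩ := lr54_exists_min (R := R) (fun m : M => ∀ r : R, r • m = 0 → r ∈ 𝔫) hS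
  have hm₀ne : m₀ ≠ 0 := by
    intro h0
    exact h1 (hm₀ 1 (by rw [h0, smul_zero]))
  -- elements outside `𝔫` act injectively on `W = R m₀`
  have hinj : ∀ s : R, s ∉ 𝔫 → ∀ w ∈ Submodule.span R {m₀}, s • w = 0 → w = 0 := by
    intro s hs
    have hsm : ∀ r : R, r • (s • m₀) = 0 → r ∈ 𝔫 := by
      intro r hr
      rw [← mul_smul] at hr
      exact (h𝔫.mem_or_mem (hm₀ _ hr)).resolve_right hs
    have hle : Submodule.span R {s • m₀} ≤ Submodule.span R {m₀} := by
      rw [Submodule.span_singleton_le_iff_mem]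
      exact Submodule.smul_mem _ _ (Submodule.mem_span_singleton_self m₀)
    have heq := lr54_span_eq_of_le hle (hmin₀ _ hsm)
    -- multiplication by `s` is surjective on `W`, hence injective
    let W : Submodule R M := Submodule.span R {m₀}
    let g : W →ₗ[R] W := (LinearMap.lsmul R M s).restrict (fun w hw => Submodule.smul_mem _ _ hw)
    have hsurj : Function.Surjective g := by
      rintro ⟨w, hw⟩
      have hw' : w ∈ Submodule.span R {s • m₀} := heq ▸ hw
      obtain ⟨r, rfl⟩ := Submodule.mem_span_singleton.mp hw'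
      refine ⟨⟨r • m₀, Submodule.smul_mem _ _ (Submodule.mem_span_singleton_self m₀)⟩, ?_⟩
      apply Subtype.ext
      show s • (r • m₀) = r • (s • m₀)
      rw [smul_comm]
    have hinj' : Function.Injective g := Finite.injective_iff_surjective.mpr hsurj
    intro w hw h0
    have : (⟨w, hw⟩ : W) = 0 := by
      apply hinj'
      rw [map_zero]
      exact Subtype.ext h0
    exact congrArg Subtype.val this
  -- Stage 2: minimal nonzero cyclic submodule of `W`
  obtain ⟨m, ⟨hmW, hmne⟩, hmin⟩ := lr54_exists_min (R := R)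
    (fun m : M => m ∈ Submodule.span R {m₀} ∧ m ≠ 0)
    ⟨m₀, Submodule.mem_span_singleton_self m₀, hm₀ne⟩
  refine ⟨m, hmne, fun d hd => ?_⟩
  by_contra hdm
  have hdW : d • m ∈ Submodule.span R {m₀} := Submodule.smul_mem _ _ hmW
  have hle : Submodule.span R {d • m} ≤ Submodule.span R {m} := by
    rw [Submodule.span_singleton_le_iff_mem]
    exact Submodule.smul_mem _ _ (Submodule.mem_span_singleton_self m)
  have heq := lr54_span_eq_of_le hle (hmin _ ⟨hdW, hdm⟩)
  have hmem : m ∈ Submodule.span R {d • m} := heq ▸ Submodule.mem_span_singleton_self m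
  obtain ⟨r, hr⟩ := Submodule.mem_span_singleton.mp hmem
  have hnot : (1 - r * d) ∉ 𝔫 := by
    intro h
    apply h1
    have : (1 : R) = (1 - r * d) + r * d := by ring
    rw [this]
    exact 𝔫.add_mem h (𝔫.mul_mem_left r hd)
  apply hmne
  apply hinj _ hnot m hmW
  rw [sub_smul, one_smul, mul_smul, hr, sub_self]

end Fin

section Integral

variable {V : Type*} [AddCommGroup V] [Module ℂ V]

/-- Eigenvalues of an endomorphism preserving a finitely generated lattice, on eigenvectors in
the span of the lattice, are algebraic integers. -/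
theorem lr54_isIntegral_eigen (φ : Module.End ℂ V) (L : Submodule ℤ V) (hfg : L.FG)
    (hφ : ∀ x ∈ L, φ x ∈ L) (v : V) (hv : v ∈ Submodule.span ℂ (L : Set V)) (hv0 : v ≠ 0)
    (c : ℂ) (hc : φ v = c • v) : IsIntegral ℤ c := by
  have hfin : Module.Finite ℤ L := Module.Finite.iff_fg.mpr hfg
  let φL : Module.End ℤ L := (φ.restrictScalars ℤ).restrict hφ
  have hφL : ∀ x : L, ((φL x : L) : V) = φ (x : V) := fun x => rfl
  obtain ⟨P, hPmonic, hP⟩ : IsIntegral ℤ φL := Algebra.IsIntegral.isIntegral _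
  have hP' : Polynomial.aeval φL P = 0 := by rw [Polynomial.aeval_def]; exact hP
  have hpow : ∀ (n : ℕ) (x : L), (φ ^ n) (x : V) = (((φL ^ n) x : L) : V) := by
    intro n
    induction n with
    | zero => intro x; simp
    | succ n ih =>
      intro x
      rw [pow_succ, pow_succ, Module.End.mul_apply, Module.End.mul_apply, ← hφL, ih]
  have key : ∀ (Q : Polynomial ℤ) (x : L),
      (Polynomial.aeval φ Q) (x : V) = (((Polynomial.aeval φL Q) x : L) : V) := by
    intro Q
    induction Q using Polynomial.induction_on' with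
    | add f g hf hg =>
      intro x
      rw [map_add, map_add, LinearMap.add_apply, LinearMap.add_apply, hf, hg, Submodule.coe_add]
    | monomial n a =>
      intro x
      rw [Polynomial.aeval_monomial, Polynomial.aeval_monomial, Module.End.mul_apply,
        Module.End.mul_apply, hpow, Module.algebraMap_end_apply, Module.algebraMap_end_apply,
        Submodule.coe_smul]
  have hzero : ∀ x ∈ Submodule.span ℂ (L : Set V), (Polynomial.aeval φ P) x = 0 := by
    intro x hx
    induction hx using Submodule.span_induction with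
    | mem x hx =>
      have := key P ⟨x, hx⟩
      rw [hP'] at this
      simpa using this
    | zero => simp
    | add x y _ _ hx hy => rw [map_add, hx, hy, add_zero]
    | smul a x _ hx => rw [map_smul, hx, smul_zero]
  have hpowv : ∀ n : ℕ, (φ ^ n) v = c ^ n • v := by
    intro n
    induction n with
    | zero => simp
    | succ n ih =>
      rw [pow_succ, Module.End.mul_apply, hc, map_smul, ih, smul_smul, pow_succ, mul_comm]
  have heig : ∀ Q : Polynomial ℤ, (Polynomial.aeval φ Q) v = (Polynomial.aeval c Q) • v := by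
    intro Q
    induction Q using Polynomial.induction_on' with
    | add f g hf hg => rw [map_add, map_add, LinearMap.add_apply, hf, hg, add_smul]
    | monomial n a =>
      rw [Polynomial.aeval_monomial, Polynomial.aeval_monomial, Module.End.mul_apply, hpowv,
        Module.algebraMap_end_apply, mul_smul, algebraMap_int_eq, eq_intCast,
        Int.cast_smul_eq_zsmul]
  have h0 : (Polynomial.aeval c P) • v = 0 := by rw [← heig, hzero v hv]
  have h1 : Polynomial.aeval c P = 0 := by
    rcases smul_eq_zero.mp h0 with h | h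
    · exact h
    · exact absurd h hv0
  exact ⟨P, hPmonic, by rw [← Polynomial.aeval_def]; exact h1⟩

end Integral

section ModEigen

variable {V : Type*} [AddCommGroup V] [Module ℂ V] {ι : Type*}

/-- **Reduction of an eigenvector modulo `p`** (ring form).  A commutative ring `R` acts on a
complex vector space `V`, stabilising a finitely generated lattice `L`; `v ≠ 0` in the span of
`L` is a common eigenvector of all of `R`, and the eigenvalues of the `T t` are congruent to the
integers `lam t` modulo a prime ideal `𝔪 ∋ p` of `integralClosure ℤ ℂ`.  Then some element of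
`L` outside `pL` is an eigenvector modulo `p` of all `T t` with eigenvalues `lam t`. -/
theorem lr54_exists_mod_eigen_ring {R : Type*} [CommRing R] (ρ : R →+* Module.End ℂ V)
    (L : Submodule ℤ V) (hfg : L.FG) (hL : ∀ r : R, ∀ x ∈ L, ρ r x ∈ L)
    (v : V) (hv : v ∈ Submodule.span ℂ (L : Set V)) (hv0 : v ≠ 0)
    (hev : ∀ r : R, ∃ μ : ℂ, ρ r v = μ • v)
    (p : ℕ) (hp0 : p ≠ 0) (𝔪 : Ideal (integralClosure ℤ ℂ)) (h𝔪 : 𝔪.IsPrime)
    (hp𝔪 : (p : integralClosure ℤ ℂ) ∈ 𝔪) (T : ι → R) (lam : ι → ℤ)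
    (hcong : ∀ t, ∃ a : integralClosure ℤ ℂ, ρ (T t) v = (a : ℂ) • v ∧
      a - ((lam t : ℤ) : integralClosure ℤ ℂ) ∈ 𝔪) :
    ∃ a ∈ L, (¬ ∃ a' ∈ L, a = (p : ℤ) • a') ∧
      ∀ t, ∃ a' ∈ L, ρ (T t) a - lam t • a = (p : ℤ) • a' := by
  classical
  have hfin : Module.Finite ℤ L := Module.Finite.iff_fg.mpr hfg
  have hpC : (p : ℂ) ≠ 0 := Nat.cast_ne_zero.mpr hp0
  -- the eigencharacter
  choose χ₀ hχ₀ using hev
  have hsmul_inj : ∀ c d : ℂ, c • v = d • v → c = d := fun c d h =>
    smul_left_injective ℂ hv0 h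
  let χ₁ : R →+* ℂ :=
    { toFun := χ₀
      map_one' := hsmul_inj _ _ (by rw [← hχ₀, map_one, Module.End.one_apply, one_smul])
      map_mul' := fun r s => hsmul_inj _ _ (by
        rw [← hχ₀, map_mul, Module.End.mul_apply, hχ₀ s, map_smul, hχ₀ r, smul_smul, mul_comm])
      map_zero' := hsmul_inj _ _ (by rw [← hχ₀, map_zero, LinearMap.zero_apply, zero_smul])
      map_add' := fun r s => hsmul_inj _ _ (by
        rw [← hχ₀, map_add, LinearMap.add_apply, hχ₀ r, hχ₀ s, add_smul]) }
  have hχ₁ : ∀ r, ρ r v = χ₁ r • v := hχ₀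
  have hint : ∀ r, χ₁ r ∈ integralClosure ℤ ℂ := fun r =>
    lr54_isIntegral_eigen (ρ r) L hfg (hL r) v hv hv0 (χ₁ r) (hχ₁ r)
  let χ : R →+* integralClosure ℤ ℂ := χ₁.codRestrict (integralClosure ℤ ℂ) hint
  have hχ : ∀ r, ((χ r : integralClosure ℤ ℂ) : ℂ) = χ₁ r := fun r => rfl
  let 𝔫 : Ideal R := Ideal.comap χ 𝔪
  have h𝔫 : 𝔫.IsPrime := Ideal.comap_isPrime χ 𝔪
  -- module structure on the lattice
  let modRL : Module R L := Module.compHom L (Fermat.Agent.S49.latticeHom ρ L hL)
  have hsmul_coe : ∀ (r : R) (x : L), ((r • x : L) : V) = ρ r (x : V) := fun r x => rfl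
  let P : Submodule R L :=
    { carrier := {x | ∃ y : L, x = (p : ℤ) • y}
      add_mem' := by
        rintro _ _ ⟨y₁, rfl⟩ ⟨y₂, rfl⟩
        exact ⟨y₁ + y₂, (smul_add _ _ _).symm⟩
      zero_mem' := ⟨0, (smul_zero _).symm⟩
      smul_mem' := by
        rintro r _ ⟨y, rfl⟩
        refine ⟨r • y, Subtype.ext ?_⟩
        rw [hsmul_coe, Submodule.coe_smul, map_zsmul, Submodule.coe_smul, hsmul_coe] }
  have hP : ∀ x : L, x ∈ P ↔ ∃ y : L, x = (p : ℤ) • y := fun x => Iff.rfl
  -- finiteness of `L / pL`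
  have hfinM : Finite (L ⧸ P) := by
    have : NeZero p := ⟨hp0⟩
    obtain ⟨n, s, hs⟩ := Module.Finite.exists_fin (R := ℤ) (M := L)
    let Φ : (Fin n → ZMod p) → (L ⧸ P) := fun f =>
      Submodule.Quotient.mk (∑ i, ((f i).cast : ℤ) • s i)
    apply Finite.of_surjective Φ
    intro m
    obtain ⟨x, rfl⟩ := Submodule.Quotient.mk_surjective P m
    have hx : x ∈ Submodule.span ℤ (Set.range s) := hs ▸ Submodule.mem_top
    obtain ⟨c, rfl⟩ := (Submodule.mem_span_range_iff_exists_fun ℤ).mp hx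
    refine ⟨fun i => (c i : ZMod p), ?_⟩
    show Submodule.Quotient.mk _ = Submodule.Quotient.mk _
    rw [Submodule.Quotient.eq, hP]
    refine ⟨∑ i, (-(c i / p)) • s i, ?_⟩
    rw [← Finset.sum_sub_distrib, Finset.smul_sum]
    refine Finset.sum_congr rfl fun i _ => ?_
    rw [ZMod.coe_intCast, ← sub_smul, smul_smul]
    congr 1
    have := Int.emod_add_mul_ediv (c i) p
    linarith
  -- the annihilator of `L / pL` lies in `𝔫`
  have hann : ∀ r : R, (∀ m : L ⧸ P, r • m = 0) → r ∈ 𝔫 := by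
    intro r hr
    have hrL : ∀ x : L, ∃ y : L, ρ r (x : V) = (p : ℤ) • (y : V) := by
      intro x
      have h0 := hr (Submodule.Quotient.mk x)
      rw [← Submodule.Quotient.mk_smul, Submodule.Quotient.mk_eq_zero, hP] at h0
      obtain ⟨y, hy⟩ := h0
      refine ⟨y, ?_⟩
      rw [← hsmul_coe, hy, Submodule.coe_smul]
    let φ : Module.End ℂ V := (p : ℂ)⁻¹ • ρ r
    have hφL : ∀ x ∈ L, φ x ∈ L := by
      intro x hx
      obtain ⟨y, hy⟩ := hrL ⟨x, hx⟩
      have : φ x = (y : V) := by
        show (p : ℂ)⁻¹ • ρ r x = (y : V)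
        rw [hy, ← Int.cast_smul_eq_zsmul ℂ, Int.cast_natCast, smul_smul, inv_mul_cancel₀ hpC,
          one_smul]
      rw [this]
      exact y.2
    have hφv : φ v = ((p : ℂ)⁻¹ * χ₁ r) • v := by
      show (p : ℂ)⁻¹ • ρ r v = _
      rw [hχ₁, smul_smul]
    have hd : (p : ℂ)⁻¹ * χ₁ r ∈ integralClosure ℤ ℂ :=
      lr54_isIntegral_eigen φ L hfg hφL v hv hv0 _ hφv
    have heq : χ r = (p : integralClosure ℤ ℂ) * ⟨(p : ℂ)⁻¹ * χ₁ r, hd⟩ := by
      apply Subtype.ext
      rw [hχ]
      push_cast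
      rw [← mul_assoc, mul_inv_cancel₀ hpC, one_mul]
    show χ r ∈ 𝔪
    rw [heq]
    exact 𝔪.mul_mem_right _ hp𝔪
  obtain ⟨m, hm0, hm⟩ := lr54_fin_torsion 𝔫 h𝔫 hann
  obtain ⟨a₀, rfl⟩ := Submodule.Quotient.mk_surjective P m
  refine ⟨(a₀ : V), a₀.2, ?_, fun t => ?_⟩
  · rintro ⟨a', ha'L, ha'⟩
    apply hm0
    rw [Submodule.Quotient.mk_eq_zero, hP]
    exact ⟨⟨a', ha'L⟩, Subtype.ext ha'⟩
  · have hmem : T t - (lam t : R) ∈ 𝔫 := by
      obtain ⟨a, ha, ha𝔪⟩ := hcong t
      have hat : χ (T t) = a := by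
        apply Subtype.ext
        rw [hχ]
        exact hsmul_inj _ _ (by rw [← hχ₁, ha])
      show χ (T t - (lam t : R)) ∈ 𝔪
      rw [map_sub, map_intCast, hat]
      exact ha𝔪
    have h0 := hm _ hmem
    rw [← Submodule.Quotient.mk_smul, Submodule.Quotient.mk_eq_zero, hP] at h0
    obtain ⟨y, hy⟩ := h0
    refine ⟨(y : V), y.2, ?_⟩
    have h1 := congrArg (Subtype.val) hy
    rw [hsmul_coe, Submodule.coe_smul, map_sub, LinearMap.sub_apply, map_intCast,
      Module.End.intCast_apply] at h1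
    exact h1

open scoped IsMulCommutative in
/-- **Reduction of an eigenvector modulo `p`** (operator form): a commuting family `T t` of
endomorphisms of a complex vector space stabilising a finitely generated lattice `L`, a common
eigenvector `v ≠ 0` in the span of `L` with eigenvalues `c t`, congruent to integers `lam t`
modulo a prime ideal `𝔪 ∋ p` of `integralClosure ℤ ℂ`.  Then some element of `L` outside `pL`
is an eigenvector modulo `p` of all `T t` with eigenvalues `lam t`. -/
theorem lr54_exists_mod_eigen (T : ι → Module.End ℂ V)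
    (hcomm : ∀ s t, T s * T t = T t * T s)
    (L : Submodule ℤ V) (hfg : L.FG) (hL : ∀ t, ∀ x ∈ L, T t x ∈ L)
    (v : V) (hv : v ∈ Submodule.span ℂ (L : Set V)) (hv0 : v ≠ 0)
    (c : ι → ℂ) (hc : ∀ t, T t v = c t • v)
    (p : ℕ) (hp0 : p ≠ 0) (𝔪 : Ideal (integralClosure ℤ ℂ)) (h𝔪 : 𝔪.IsPrime)
    (hp𝔪 : (p : integralClosure ℤ ℂ) ∈ 𝔪) (lam : ι → ℤ)
    (hcong : ∀ t, ∃ a : integralClosure ℤ ℂ, (a : ℂ) = c t ∧
      a - ((lam t : ℤ) : integralClosure ℤ ℂ) ∈ 𝔪) :
    ∃ a ∈ L, (¬ ∃ a' ∈ L, a = (p : ℤ) • a') ∧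
      ∀ t, ∃ a' ∈ L, T t a - lam t • a = (p : ℤ) • a' := by
  classical
  let S : Subring (Module.End ℂ V) := Subring.closure (Set.range T)
  have hSc : IsMulCommutative S := Subring.isMulCommutative_closure (by
    rintro _ ⟨s, rfl⟩ _ ⟨t, rfl⟩
    exact hcomm s t)
  let instS : CommRing S := inferInstance
  have hLS : ∀ r : S, ∀ x ∈ L, (S.subtype r) x ∈ L := by
    rintro ⟨r, hr⟩
    show ∀ x ∈ L, r x ∈ L
    induction hr using Subring.closure_induction with
    | mem r hr =>
      obtain ⟨t, rfl⟩ := hr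
      exact hL t
    | zero => intro x _; simp
    | one => intro x hx; simpa using hx
    | add a b _ _ ha hb => intro x hx; exact L.add_mem (ha x hx) (hb x hx)
    | neg a _ ha => intro x hx; exact L.neg_mem (ha x hx)
    | mul a b _ _ ha hb => intro x hx; exact ha _ (hb x hx)
  have hevS : ∀ r : S, ∃ μ : ℂ, (S.subtype r) v = μ • v := by
    rintro ⟨r, hr⟩
    show ∃ μ : ℂ, r v = μ • v
    induction hr using Subring.closure_induction with
    | mem r hr =>
      obtain ⟨t, rfl⟩ := hr
      exact ⟨c t, hc t⟩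
    | zero => exact ⟨0, by simp⟩
    | one => exact ⟨1, by simp⟩
    | add a b _ _ ha hb =>
      obtain ⟨μ, hμ⟩ := ha
      obtain ⟨ν, hν⟩ := hb
      exact ⟨μ + ν, by rw [LinearMap.add_apply, hμ, hν, add_smul]⟩
    | neg a _ ha =>
      obtain ⟨μ, hμ⟩ := ha
      exact ⟨-μ, by rw [LinearMap.neg_apply, hμ, neg_smul]⟩
    | mul a b _ _ ha hb =>
      obtain ⟨μ, hμ⟩ := ha
      obtain ⟨ν, hν⟩ := hb
      exact ⟨ν * μ, by rw [Module.End.mul_apply, hν, map_smul, hμ, smul_smul]⟩
  have key := lr54_exists_mod_eigen_ring (R := S) S.subtype L hfg hLS v hv hv0 hevS p hp0 𝔪 h𝔪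
    hp𝔪 (fun t => (⟨T t, Subring.subset_closure ⟨t, rfl⟩⟩ : S)) lam (fun t => by
      obtain ⟨a, ha, ha𝔪⟩ := hcong t
      refine ⟨a, ?_, ha𝔪⟩
      show T t v = (a : ℂ) • v
      rw [ha, hc])
  exact key

end ModEigen

end Fermat.Agent.S41
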