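/-
S41 (level raising), pair-shaped algebra core (helper52).

`lr52_core_pair` is `lr52_core` with `VX = VN × VN`, `LX = LN × LN`, `i = i₁ + i₂`,
`j = (j₁, j₂)` unfolded, and with the sign `ε = ±1` of the level-raising congruence
`a_q ^ 2 ≡ (q + 1) ^ 2` handled inside (the eigenvector used is `(w, -ε w)`).

Data: lattices `LN ⊂ VN` (level `N`), `LQ ⊂ VQ` (level `N q`), commuting families `TN`, `TQ`,
one more operator `Tq` on `VN` (the Hecke operator at `q` of level `N`), degeneracy maps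
`i₁ i₂ : VN → VQ`, traces `j₁ j₂ : VQ → VN` with
`j₁ i₁ = j₂ i₂ = q + 1`, `j₁ i₂ = j₂ i₁ = Tq`.
-/
import Mathlib
import Fermat.Agent.S41.LRCore52

set_option autoImplicit false

namespace Fermat.Agent.S41

section Pair

variable {K : Type*} [Field K] {VN : Type*} [AddCommGroup VN] [Module K VN]

/-- powers of `T × T - c` act componentwise. -/
theorem lr52_prodMap_pow (T : Module.End K VN) (c : ℤ) (n : ℕ) (x₁ x₂ : VN) :
    (((T.prodMap T : Module.End K (VN × VN)) - c • (1 : Module.End K (VN × VN))) ^ n) (x₁, x₂)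
      = (((T - c • (1 : Module.End K VN)) ^ n) x₁, ((T - c • (1 : Module.End K VN)) ^ n) x₂) := by
  induction n generalizing x₁ x₂ with
  | zero => simp
  | succ n ih =>
    simp only [pow_succ, Module.End.mul_apply]
    have h1 : ((T.prodMap T : Module.End K (VN × VN)) - c • (1 : Module.End K (VN × VN)))
        (x₁, x₂) = ((T - c • (1 : Module.End K VN)) x₁, (T - c • (1 : Module.End K VN)) x₂) := by
      simp only [LinearMap.sub_apply, LinearMap.smul_apply, Module.End.one_apply,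
        LinearMap.prodMap_apply, Prod.smul_mk, Prod.mk_sub_mk]
    rw [h1, ih]

/-- the span of a product lattice contains the pairs of elements of the span. -/
theorem lr52_mem_span_prod (LN : Submodule ℤ VN) (w₁ w₂ : VN)
    (h₁ : w₁ ∈ Submodule.span K (LN : Set VN)) (h₂ : w₂ ∈ Submodule.span K (LN : Set VN)) :
    (w₁, w₂) ∈ Submodule.span K ((LN.prod LN : Submodule ℤ (VN × VN)) : Set (VN × VN)) := by
  have hl : (w₁, (0 : VN)) ∈
      Submodule.span K ((LN.prod LN : Submodule ℤ (VN × VN)) : Set (VN × VN)) := by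
    have h := Submodule.mem_map_of_mem (f := LinearMap.inl K VN VN) h₁
    rw [Submodule.map_span] at h
    refine Submodule.span_mono ?_ h
    rintro _ ⟨x, hx, rfl⟩
    exact ⟨hx, LN.zero_mem⟩
  have hr : ((0 : VN), w₂) ∈
      Submodule.span K ((LN.prod LN : Submodule ℤ (VN × VN)) : Set (VN × VN)) := by
    have h := Submodule.mem_map_of_mem (f := LinearMap.inr K VN VN) h₂
    rw [Submodule.map_span] at h
    refine Submodule.span_mono ?_ h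
    rintro _ ⟨x, hx, rfl⟩
    exact ⟨LN.zero_mem, hx⟩
  have := Submodule.add_mem _ hl hr
  simpa using this

end Pair

section Core

variable {K : Type*} [Field K] [IsAlgClosed K] [CharZero K]
  {VN VQ : Type*} [AddCommGroup VN] [Module K VN] [AddCommGroup VQ] [Module K VQ]

/-- **Level raising, abstract pair form.**  See the file header.  Output: a common eigenvector
`y` of the `TQ l` in `ker j₁ ∩ ker j₂` whose eigenvalues are congruent to `t l` modulo a maximal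
ideal `Q ∋ p`. -/
theorem lr52_core_pair
    (LN : Submodule ℤ VN) (LQ : Submodule ℤ VQ) (hNfg : LN.FG) (hQfg : LQ.FG)
    {ι : Type*} (TN : ι → Module.End K VN) (TQ : ι → Module.End K VQ) (Tq : Module.End K VN)
    (hTN : ∀ l, ∀ x ∈ LN, TN l x ∈ LN) (hTQ : ∀ l, ∀ y ∈ LQ, TQ l y ∈ LQ)
    (hcN : ∀ l l', Commute (TN l) (TN l')) (hcQ : ∀ l l', Commute (TQ l) (TQ l'))
    (i₁ i₂ : VN →ₗ[K] VQ) (j₁ j₂ : VQ →ₗ[K] VN)
    (hi₁L : ∀ x ∈ LN, i₁ x ∈ LQ) (hi₂L : ∀ x ∈ LN, i₂ x ∈ LQ)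
    (hj₁L : ∀ y ∈ LQ, j₁ y ∈ LN) (hj₂L : ∀ y ∈ LQ, j₂ y ∈ LN)
    (hi₁T : ∀ l x, i₁ (TN l x) = TQ l (i₁ x)) (hi₂T : ∀ l x, i₂ (TN l x) = TQ l (i₂ x))
    (hj₁T : ∀ l y, j₁ (TQ l y) = TN l (j₁ y)) (hj₂T : ∀ l y, j₂ (TQ l y) = TN l (j₂ y))
    (q : ℕ)
    (h11 : ∀ x, j₁ (i₁ x) = ((q : ℤ) + 1) • x) (h12 : ∀ x, j₁ (i₂ x) = Tq x)
    (h21 : ∀ x, j₂ (i₁ x) = Tq x) (h22 : ∀ x, j₂ (i₂ x) = ((q : ℤ) + 1) • x)
    (p : ℕ) (hp : p.Prime) (t : ι → ℤ) (l0 : ι) (c0 : ℤ) (hne : ¬ (p : ℤ) ∣ t l0 - c0)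
    -- Ihara: the kernel of `i₁ + i₂` mod `p` is killed by a power of `TN l0 - c0`
    (ha : ∀ x₁ ∈ LN, ∀ x₂ ∈ LN, (∃ y ∈ LQ, i₁ x₁ + i₂ x₂ = (p : ℤ) • y) →
      ∃ n : ℕ, (∃ x' ∈ LN, ((TN l0 - c0 • (1 : Module.End K VN)) ^ n) x₁ = (p : ℤ) • x') ∧
        ∃ x' ∈ LN, ((TN l0 - c0 • (1 : Module.End K VN)) ^ n) x₂ = (p : ℤ) • x')
    -- dual Ihara: the cokernel of `(j₁, j₂)` mod `p` is killed by a power of `TN l0 - c0`
    (hb : ∃ n : ℕ, ∀ x₁ ∈ LN, ∀ x₂ ∈ LN, ∃ y ∈ LQ,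
      (∃ x' ∈ LN, ((TN l0 - c0 • (1 : Module.End K VN)) ^ n) x₁ = j₁ y + (p : ℤ) • x') ∧
        ∃ x' ∈ LN, ((TN l0 - c0 • (1 : Module.End K VN)) ^ n) x₂ = j₂ y + (p : ℤ) • x')
    -- the eigenvector of level `N`
    (w : VN) (hw0 : w ≠ 0) (hwL : w ∈ Submodule.span K (LN : Set VN))
    (a : ι → integralClosure ℤ K) (hwa : ∀ l, TN l w = (a l : K) • w)
    (aq : integralClosure ℤ K) (hwq : Tq w = (aq : K) • w)
    (𝔪 : Ideal (integralClosure ℤ K)) (h𝔪 : 𝔪.IsPrime) (hp𝔪 : (p : integralClosure ℤ K) ∈ 𝔪)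
    (hat : ∀ l, a l - (t l : integralClosure ℤ K) ∈ 𝔪)
    (hLR : aq ^ 2 - ((q : integralClosure ℤ K) + 1) ^ 2 ∈ 𝔪) :
    ∃ (y : VQ) (lam : ι → integralClosure ℤ K) (Q : Ideal (integralClosure ℤ K)),
      y ≠ 0 ∧ j₁ y = 0 ∧ j₂ y = 0 ∧ (∀ l, TQ l y = (lam l : K) • y) ∧ Q.IsMaximal ∧
      (p : integralClosure ℤ K) ∈ Q ∧ ∀ l, lam l - (t l : integralClosure ℤ K) ∈ Q := by
  classical
  -- the sign
  obtain ⟨e, he2, hes⟩ : ∃ e : integralClosure ℤ K, e * e = 1 ∧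
      ((q : integralClosure ℤ K) + 1) - e * aq ∈ 𝔪 := by
    have hfac : (aq - ((q : integralClosure ℤ K) + 1)) * (aq + ((q : integralClosure ℤ K) + 1))
        ∈ 𝔪 := by
      have : (aq - ((q : integralClosure ℤ K) + 1)) * (aq + ((q : integralClosure ℤ K) + 1))
          = aq ^ 2 - ((q : integralClosure ℤ K) + 1) ^ 2 := by ring
      rw [this]; exact hLR
    rcases h𝔪.mem_or_mem hfac with h | h
    · refine ⟨1, by ring, ?_⟩
      have : ((q : integralClosure ℤ K) + 1) - 1 * aq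
          = -(aq - ((q : integralClosure ℤ K) + 1)) := by ring
      rw [this]; exact 𝔪.neg_mem h
    · refine ⟨-1, by ring, ?_⟩
      have : ((q : integralClosure ℤ K) + 1) - (-1) * aq
          = aq + ((q : integralClosure ℤ K) + 1) := by ring
      rw [this]; exact h
  have he2K : (e : K) * (e : K) = 1 := by
    have := congrArg (fun z : integralClosure ℤ K => (z : K)) he2
    simpa using this
  -- the product data
  set LX : Submodule ℤ (VN × VN) := LN.prod LN with hLX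
  set TX : ι → Module.End K (VN × VN) := fun l => (TN l).prodMap (TN l) with hTXdef
  set i : (VN × VN) →ₗ[K] VQ := i₁.coprod i₂ with hidef
  set j : VQ →ₗ[K] (VN × VN) := j₁.prod j₂ with hjdef
  set s : integralClosure ℤ K := ((q : integralClosure ℤ K) + 1) - e * aq with hsdef
  have hXfg : LX.FG := Submodule.FG.prod hNfg hNfg
  have hTX : ∀ l, ∀ x ∈ LX, TX l x ∈ LX := by
    rintro l ⟨x₁, x₂⟩ ⟨h₁, h₂⟩
    exact ⟨hTN l x₁ h₁, hTN l x₂ h₂⟩
  have hcX : ∀ l l', Commute (TX l) (TX l') := by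
    intro l l'
    apply LinearMap.ext
    rintro ⟨x₁, x₂⟩
    show ((TN l) ((TN l') x₁), (TN l) ((TN l') x₂)) = ((TN l') ((TN l) x₁), (TN l') ((TN l) x₂))
    have h1 := LinearMap.congr_fun (hcN l l').eq x₁
    have h2 := LinearMap.congr_fun (hcN l l').eq x₂
    simp only [Module.End.mul_apply] at h1 h2
    rw [h1, h2]
  have hiL : ∀ x ∈ LX, i x ∈ LQ := by
    rintro ⟨x₁, x₂⟩ ⟨h₁, h₂⟩
    show i₁ x₁ + i₂ x₂ ∈ LQ
    exact LQ.add_mem (hi₁L x₁ h₁) (hi₂L x₂ h₂)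
  have hjL : ∀ y ∈ LQ, j y ∈ LX := fun y hy => ⟨hj₁L y hy, hj₂L y hy⟩
  have hiT : ∀ l x, i (TX l x) = TQ l (i x) := by
    rintro l ⟨x₁, x₂⟩
    show i₁ (TN l x₁) + i₂ (TN l x₂) = TQ l (i₁ x₁ + i₂ x₂)
    rw [hi₁T, hi₂T, map_add]
  have hjT : ∀ l y, j (TQ l y) = TX l (j y) := by
    intro l y
    show (j₁ (TQ l y), j₂ (TQ l y)) = (TN l (j₁ y), TN l (j₂ y))
    rw [hj₁T, hj₂T]
  have haX : ∀ x ∈ LX, (∃ y ∈ LQ, i x = (p : ℤ) • y) →
      ∃ n : ℕ, ∃ x' ∈ LX, ((TX l0 - c0 • (1 : Module.End K (VN × VN))) ^ n) x = (p : ℤ) • x' := by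
    rintro ⟨x₁, x₂⟩ ⟨h₁, h₂⟩ hy
    obtain ⟨n, ⟨x₁', hx₁', e₁⟩, ⟨x₂', hx₂', e₂⟩⟩ := ha x₁ h₁ x₂ h₂ hy
    refine ⟨n, (x₁', x₂'), ⟨hx₁', hx₂'⟩, ?_⟩
    rw [hTXdef]
    show (((TN l0).prodMap (TN l0) - c0 • (1 : Module.End K (VN × VN))) ^ n) (x₁, x₂) = _
    rw [lr52_prodMap_pow, e₁, e₂]
    rfl
  have hbX : ∃ n : ℕ, ∀ x ∈ LX, ∃ y ∈ LQ, ∃ x' ∈ LX,
      ((TX l0 - c0 • (1 : Module.End K (VN × VN))) ^ n) x = j y + (p : ℤ) • x' := by
    obtain ⟨n, hn⟩ := hb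
    refine ⟨n, ?_⟩
    rintro ⟨x₁, x₂⟩ ⟨h₁, h₂⟩
    obtain ⟨y, hy, ⟨x₁', hx₁', e₁⟩, ⟨x₂', hx₂', e₂⟩⟩ := hn x₁ h₁ x₂ h₂
    refine ⟨y, hy, (x₁', x₂'), ⟨hx₁', hx₂'⟩, ?_⟩
    rw [hTXdef]
    show (((TN l0).prodMap (TN l0) - c0 • (1 : Module.End K (VN × VN))) ^ n) (x₁, x₂) = _
    rw [lr52_prodMap_pow, e₁, e₂]
    rfl
  -- the eigenvector `(w, -e w)`
  set v : VN × VN := (w, -((e : K) • w)) with hvdef
  have hv0 : v ≠ 0 := by
    intro h
    exact hw0 (congrArg Prod.fst h)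
  have hvL : v ∈ Submodule.span K (LX : Set (VN × VN)) :=
    lr52_mem_span_prod LN w _ hwL (Submodule.neg_mem _ (Submodule.smul_mem _ _ hwL))
  have hva : ∀ l, TX l v = (a l : K) • v := by
    intro l
    show (TN l w, TN l (-((e : K) • w))) = (a l : K) • (w, -((e : K) • w))
    rw [map_neg, map_smul, hwa l, Prod.smul_mk, smul_neg, smul_comm]
  have hcastq : (((q : ℤ) + 1 : ℤ)) • w = ((q : K) + 1) • w := by
    rw [← Int.cast_smul_eq_zsmul K]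
    push_cast
    rfl
  have hvs : j (i v) = (s : K) • v := by
    show (j₁ (i₁ w + i₂ (-((e : K) • w))), j₂ (i₁ w + i₂ (-((e : K) • w))))
      = (s : K) • (w, -((e : K) • w))
    have hsK : (s : K) = ((q : K) + 1) - (e : K) * (aq : K) := by
      rw [hsdef]; push_cast; rfl
    have hq1 : ∀ x : VN, ((q : ℤ) + 1) • x = ((q : K) + 1) • x := by
      intro x
      rw [← Int.cast_smul_eq_zsmul K]
      push_cast
      rfl
    rw [map_add, map_add, h11, h12, h21, h22, map_neg, map_smul, hwq, Prod.smul_mk, hsK,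
      hq1, hq1]
    refine Prod.ext ?_ ?_
    · show ((q : K) + 1) • w + -((e : K) • (aq : K) • w) = (((q : K) + 1) - (e : K) * (aq : K)) • w
      rw [sub_smul, mul_smul, sub_eq_add_neg]
    · show (aq : K) • w + ((q : K) + 1) • -((e : K) • w)
        = (((q : K) + 1) - (e : K) * (aq : K)) • -((e : K) • w)
      rw [smul_neg, smul_neg, smul_smul, smul_smul, ← sub_eq_add_neg, ← sub_smul, ← neg_smul]
      congr 1
      have : (aq : K) = (e : K) * (e : K) * (aq : K) := by rw [he2K, one_mul]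
      linear_combination this
  have h𝔪top : 𝔪 ≠ ⊤ := h𝔪.ne_top
  obtain ⟨y, lam, Q, hy0, hjy, hy, hQ, hpQ, hlam⟩ :=
    lr52_core LX LQ hXfg hQfg TX TQ hTX hTQ hcX hcQ i j hiL hjL hiT hjT p hp t l0 c0 hne
      haX hbX v hv0 hvL a hva s hvs 𝔪 h𝔪top hp𝔪 hat hes
  refine ⟨y, lam, Q, hy0, ?_, ?_, hy, hQ, hpQ, hlam⟩
  · exact congrArg Prod.fst hjy
  · exact congrArg Prod.snd hjy

end Core

end Fermat.Agent.S41
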