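/-
S41 (level raising), abstract final assembly (helper52).

`lr52_S41`: the conclusion of the frozen statement S41 from
* the arithmetic hypotheses of S41 on `f`, `𝔪` (`hcong`, `hLR`),
* an abstract "model package": lattices `LN ⊂ VN` (level `N`), `LQ ⊂ VQ` (level `N q'`) over `ℂ`
  with Hecke operators `TN ℓ`, `TQ ℓ` (`ℓ` prime, `ℓ ∤ N q'`), `Tq` (level `N`, at `q'`),
  degeneracy maps `i₁ i₂`, traces `j₁ j₂`,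
* one auxiliary prime `l0` with `p ∤ a_{l0}(W) - (l0 + 1)`                     [M5],
* Ihara (`ha`) and dual Ihara (`hb`) for `TN l0 - (l0 + 1)`                     [L6, L9],
* an eigenvector `w` of level `N` with the eigenvalues of `f`                   [L11],
* the output link `hout`: a non-Eisenstein eigenvector in `ker j₁ ∩ ker j₂` gives a normalised
  eigenform of level `N q'`, new at `q'`, with the same eigenvalues            [L13].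
-/
import Mathlib
import Fermat.Prelude.Def_FLTPrelim_ModularRep
import Fermat.Prelude.Def_FreyPackage_LevelRaising
import Fermat.Agent.S41.LRPair52

set_option autoImplicit false

open CongruenceSubgroup ModularFormClass

namespace Fermat.Agent.S41

/-- an integer prime to `p` does not lie in a proper ideal containing `p`. -/
theorem lr52_not_mem_of_not_dvd {R : Type*} [CommRing R] (Q : Ideal R) (hQ : Q ≠ ⊤) (p : ℕ)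
    (hp : p.Prime) (hpQ : (p : R) ∈ Q) (n : ℤ) (hn : ¬ (p : ℤ) ∣ n) : (n : R) ∉ Q := by
  intro hnQ
  have hpp : Prime (p : ℤ) := Nat.prime_iff_prime_int.mp hp
  have hcop : IsCoprime (p : ℤ) n := (Prime.coprime_iff_not_dvd hpp).mpr hn
  obtain ⟨u, v, huv⟩ := hcop
  apply hQ
  rw [Ideal.eq_top_iff_one]
  have h1 : ((u * (p : ℤ) + v * n : ℤ) : R) = 1 := by rw [huv]; simp
  rw [← h1]
  push_cast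
  exact Q.add_mem (Q.mul_mem_left _ hpQ) (Q.mul_mem_left _ hnQ)

/-- **Abstract final assembly**, generic index type. -/
theorem lr52_final
    {VN VQ : Type*} [AddCommGroup VN] [Module ℂ VN] [AddCommGroup VQ] [Module ℂ VQ]
    (LN : Submodule ℤ VN) (LQ : Submodule ℤ VQ) (hNfg : LN.FG) (hQfg : LQ.FG)
    {ι : Type*} (TN : ι → Module.End ℂ VN) (TQ : ι → Module.End ℂ VQ) (Tq : Module.End ℂ VN)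
    (hTN : ∀ l, ∀ x ∈ LN, TN l x ∈ LN) (hTQ : ∀ l, ∀ y ∈ LQ, TQ l y ∈ LQ)
    (hcN : ∀ l l', Commute (TN l) (TN l')) (hcQ : ∀ l l', Commute (TQ l) (TQ l'))
    (i₁ i₂ : VN →ₗ[ℂ] VQ) (j₁ j₂ : VQ →ₗ[ℂ] VN)
    (hi₁L : ∀ x ∈ LN, i₁ x ∈ LQ) (hi₂L : ∀ x ∈ LN, i₂ x ∈ LQ)
    (hj₁L : ∀ y ∈ LQ, j₁ y ∈ LN) (hj₂L : ∀ y ∈ LQ, j₂ y ∈ LN)
    (hi₁T : ∀ l x, i₁ (TN l x) = TQ l (i₁ x)) (hi₂T : ∀ l x, i₂ (TN l x) = TQ l (i₂ x))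
    (hj₁T : ∀ l y, j₁ (TQ l y) = TN l (j₁ y)) (hj₂T : ∀ l y, j₂ (TQ l y) = TN l (j₂ y))
    (q : ℕ)
    (h11 : ∀ x, j₁ (i₁ x) = ((q : ℤ) + 1) • x) (h12 : ∀ x, j₁ (i₂ x) = Tq x)
    (h21 : ∀ x, j₂ (i₁ x) = Tq x) (h22 : ∀ x, j₂ (i₂ x) = ((q : ℤ) + 1) • x)
    (p : ℕ) (hp : p.Prime) (t : ι → ℤ) (l0 : ι) (c0 : ℤ) (hne : ¬ (p : ℤ) ∣ t l0 - c0)
    (ha : ∀ x₁ ∈ LN, ∀ x₂ ∈ LN, (∃ y ∈ LQ, i₁ x₁ + i₂ x₂ = (p : ℤ) • y) →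
      ∃ n : ℕ, (∃ x' ∈ LN, ((TN l0 - c0 • (1 : Module.End ℂ VN)) ^ n) x₁ = (p : ℤ) • x') ∧
        ∃ x' ∈ LN, ((TN l0 - c0 • (1 : Module.End ℂ VN)) ^ n) x₂ = (p : ℤ) • x')
    (hb : ∃ n : ℕ, ∀ x₁ ∈ LN, ∀ x₂ ∈ LN, ∃ y ∈ LQ,
      (∃ x' ∈ LN, ((TN l0 - c0 • (1 : Module.End ℂ VN)) ^ n) x₁ = j₁ y + (p : ℤ) • x') ∧
        ∃ x' ∈ LN, ((TN l0 - c0 • (1 : Module.End ℂ VN)) ^ n) x₂ = j₂ y + (p : ℤ) • x')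
    (w : VN) (hw0 : w ≠ 0) (hwL : w ∈ Submodule.span ℂ (LN : Set VN))
    (a : ι → integralClosure ℤ ℂ) (hwa : ∀ l, TN l w = (a l : ℂ) • w)
    (aq : integralClosure ℤ ℂ) (hwq : Tq w = (aq : ℂ) • w)
    (𝔪 : Ideal (integralClosure ℤ ℂ)) (h𝔪 : 𝔪.IsPrime) (hp𝔪 : (p : integralClosure ℤ ℂ) ∈ 𝔪)
    (hat : ∀ l, a l - (t l : integralClosure ℤ ℂ) ∈ 𝔪)
    (hLR : aq ^ 2 - ((q : integralClosure ℤ ℂ) + 1) ^ 2 ∈ 𝔪)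
    (M : ℕ) (val : ι → ℕ)
    (hout : ∀ (y : VQ) (lam : ι → ℂ), y ≠ 0 → j₁ y = 0 → j₂ y = 0 →
      (∀ l, TQ l y = lam l • y) → lam l0 ≠ (c0 : ℂ) →
      ∃ g : CuspForm (Gamma0 M) 2, g.IsNormalizedEigenform ∧
        (∀ l, qCoeff g (val l) = lam l) ∧ g.IsNewAt q) :
    ∃ (g : CuspForm (Gamma0 M) 2) (𝔪' : Ideal (integralClosure ℤ ℂ)),
      g.IsNormalizedEigenform ∧ 𝔪'.IsMaximal ∧ (p : integralClosure ℤ ℂ) ∈ 𝔪' ∧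
      (∀ l : ι, ∃ b : integralClosure ℤ ℂ, (b : ℂ) = qCoeff g (val l) ∧
        b - (t l : integralClosure ℤ ℂ) ∈ 𝔪') ∧ g.IsNewAt q := by
  obtain ⟨y, lam, Q, hy0, hj₁y, hj₂y, hy, hQ, hpQ, hlam⟩ :=
    lr52_core_pair LN LQ hNfg hQfg TN TQ Tq hTN hTQ hcN hcQ i₁ i₂ j₁ j₂ hi₁L hi₂L hj₁L hj₂L
      hi₁T hi₂T hj₁T hj₂T q h11 h12 h21 h22 p hp t l0 c0 hne ha hb w hw0 hwL a hwa aq hwq
      𝔪 h𝔪 hp𝔪 hat hLR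
  have hne0 : ((lam l0 : integralClosure ℤ ℂ) : ℂ) ≠ (c0 : ℂ) := by
    intro h
    have h1 : lam l0 = (c0 : integralClosure ℤ ℂ) := by
      apply Subtype.ext
      rw [h]
      simp
    have h2 : ((c0 - t l0 : ℤ) : integralClosure ℤ ℂ) ∈ Q := by
      have := hlam l0
      rw [h1] at this
      push_cast
      exact this
    refine lr52_not_mem_of_not_dvd Q hQ.ne_top p hp hpQ (c0 - t l0) ?_ h2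
    intro hd
    apply hne
    have : t l0 - c0 = -(c0 - t l0) := by ring
    rw [this]
    exact (dvd_neg).mpr hd
  obtain ⟨g, hg, hgl, hgq⟩ := hout y (fun l => (lam l : ℂ)) hy0 hj₁y hj₂y hy hne0
  exact ⟨g, Q, hg, hQ, hpQ, fun l => ⟨lam l, (hgl l).symm, hlam l⟩, hgq⟩

/-- **S41 from a model package.**  The conclusion is the conclusion of the frozen statement S41
verbatim; the hypotheses are the arithmetic ones of S41 plus the links of the chain. -/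
theorem lr52_S41 {W : WeierstrassCurve ℤ} {p N q' : ℕ} (hp : p.Prime)
    (f : CuspForm (Gamma0 N) 2) (𝔪 : Ideal (integralClosure ℤ ℂ))
    (hmax : 𝔪.IsMaximal) (hpm : (p : integralClosure ℤ ℂ) ∈ 𝔪)
    (hcong : ∀ ℓ : ℕ, ℓ.Prime → W.IsGoodPrimeFor ℓ → ¬ ℓ ∣ N → ℓ ≠ p →
      ∃ a : integralClosure ℤ ℂ, (a : ℂ) = qCoeff f ℓ ∧
        a - ((W.apOfModel ℓ : ℤ) : integralClosure ℤ ℂ) ∈ 𝔪)
    (hLR : ∃ a : integralClosure ℤ ℂ, (a : ℂ) = qCoeff f q' ∧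
      a ^ 2 - ((q' : integralClosure ℤ ℂ) + 1) ^ 2 ∈ 𝔪)
    -- the model package
    {VN VQ : Type*} [AddCommGroup VN] [Module ℂ VN] [AddCommGroup VQ] [Module ℂ VQ]
    (LN : Submodule ℤ VN) (LQ : Submodule ℤ VQ) (hNfg : LN.FG) (hQfg : LQ.FG)
    (TN : ℕ → Module.End ℂ VN) (TQ : ℕ → Module.End ℂ VQ) (Tq : Module.End ℂ VN)
    (hTN : ∀ ℓ : ℕ, ℓ.Prime → ¬ ℓ ∣ N * q' → ∀ x ∈ LN, TN ℓ x ∈ LN)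
    (hTQ : ∀ ℓ : ℕ, ℓ.Prime → ¬ ℓ ∣ N * q' → ∀ y ∈ LQ, TQ ℓ y ∈ LQ)
    (hcN : ∀ ℓ ℓ' : ℕ, ℓ.Prime → ¬ ℓ ∣ N * q' → ℓ'.Prime → ¬ ℓ' ∣ N * q' →
      Commute (TN ℓ) (TN ℓ'))
    (hcQ : ∀ ℓ ℓ' : ℕ, ℓ.Prime → ¬ ℓ ∣ N * q' → ℓ'.Prime → ¬ ℓ' ∣ N * q' →
      Commute (TQ ℓ) (TQ ℓ'))
    (i₁ i₂ : VN →ₗ[ℂ] VQ) (j₁ j₂ : VQ →ₗ[ℂ] VN)
    (hi₁L : ∀ x ∈ LN, i₁ x ∈ LQ) (hi₂L : ∀ x ∈ LN, i₂ x ∈ LQ)
    (hj₁L : ∀ y ∈ LQ, j₁ y ∈ LN) (hj₂L : ∀ y ∈ LQ, j₂ y ∈ LN)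
    (hi₁T : ∀ ℓ : ℕ, ℓ.Prime → ¬ ℓ ∣ N * q' → ∀ x, i₁ (TN ℓ x) = TQ ℓ (i₁ x))
    (hi₂T : ∀ ℓ : ℕ, ℓ.Prime → ¬ ℓ ∣ N * q' → ∀ x, i₂ (TN ℓ x) = TQ ℓ (i₂ x))
    (hj₁T : ∀ ℓ : ℕ, ℓ.Prime → ¬ ℓ ∣ N * q' → ∀ y, j₁ (TQ ℓ y) = TN ℓ (j₁ y))
    (hj₂T : ∀ ℓ : ℕ, ℓ.Prime → ¬ ℓ ∣ N * q' → ∀ y, j₂ (TQ ℓ y) = TN ℓ (j₂ y))
    (h11 : ∀ x, j₁ (i₁ x) = ((q' : ℤ) + 1) • x) (h12 : ∀ x, j₁ (i₂ x) = Tq x)
    (h21 : ∀ x, j₂ (i₁ x) = Tq x) (h22 : ∀ x, j₂ (i₂ x) = ((q' : ℤ) + 1) • x)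
    -- M5: the auxiliary prime
    (l0 : ℕ) (hl0 : l0.Prime) (hl0W : W.IsGoodPrimeFor l0) (hl0N : ¬ l0 ∣ N * q') (hl0p : l0 ≠ p)
    (hl0ne : ¬ (p : ℤ) ∣ W.apOfModel l0 - ((l0 : ℤ) + 1))
    -- L6: Ihara
    (ha : ∀ x₁ ∈ LN, ∀ x₂ ∈ LN, (∃ y ∈ LQ, i₁ x₁ + i₂ x₂ = (p : ℤ) • y) →
      ∃ n : ℕ,
        (∃ x' ∈ LN, ((TN l0 - ((l0 : ℤ) + 1) • (1 : Module.End ℂ VN)) ^ n) x₁ = (p : ℤ) • x') ∧
        ∃ x' ∈ LN, ((TN l0 - ((l0 : ℤ) + 1) • (1 : Module.End ℂ VN)) ^ n) x₂ = (p : ℤ) • x')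
    -- L9: dual Ihara
    (hb : ∃ n : ℕ, ∀ x₁ ∈ LN, ∀ x₂ ∈ LN, ∃ y ∈ LQ,
      (∃ x' ∈ LN, ((TN l0 - ((l0 : ℤ) + 1) • (1 : Module.End ℂ VN)) ^ n) x₁
          = j₁ y + (p : ℤ) • x') ∧
        ∃ x' ∈ LN, ((TN l0 - ((l0 : ℤ) + 1) • (1 : Module.End ℂ VN)) ^ n) x₂
          = j₂ y + (p : ℤ) • x')
    -- L11: the eigenvector of `f`
    (hw : ∃ w : VN, w ≠ 0 ∧ w ∈ Submodule.span ℂ (LN : Set VN) ∧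
      (∀ ℓ : ℕ, ℓ.Prime → ¬ ℓ ∣ N * q' → TN ℓ w = qCoeff f ℓ • w) ∧ Tq w = qCoeff f q' • w)
    -- L13: output
    (hout : ∀ (y : VQ) (lam : ℕ → ℂ), y ≠ 0 → j₁ y = 0 → j₂ y = 0 →
      (∀ ℓ : ℕ, ℓ.Prime → W.IsGoodPrimeFor ℓ → ¬ ℓ ∣ N * q' → ℓ ≠ p → TQ ℓ y = lam ℓ • y) →
      lam l0 ≠ (l0 : ℂ) + 1 →
      ∃ g : CuspForm (Gamma0 (N * q')) 2, g.IsNormalizedEigenform ∧
        (∀ ℓ : ℕ, ℓ.Prime → W.IsGoodPrimeFor ℓ → ¬ ℓ ∣ N * q' → ℓ ≠ p → qCoeff g ℓ = lam ℓ) ∧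
        g.IsNewAt q') :
    ∃ (g : CuspForm (CongruenceSubgroup.Gamma0 (N * q')) 2) (𝔪' : Ideal (integralClosure ℤ ℂ)),
      g.IsNormalizedEigenform ∧ 𝔪'.IsMaximal ∧ (p : integralClosure ℤ ℂ) ∈ 𝔪' ∧
      (∀ ℓ : ℕ, ℓ.Prime → W.IsGoodPrimeFor ℓ → ¬ ℓ ∣ N * q' → ℓ ≠ p →
        ∃ a : integralClosure ℤ ℂ, (a : ℂ) = ModularFormClass.qCoeff g ℓ ∧
          a - ((W.apOfModel ℓ : ℤ) : integralClosure ℤ ℂ) ∈ 𝔪') ∧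
      g.IsNewAt q' := by
  classical
  -- the index type of good primes
  let ι : Type := {ℓ : ℕ // ℓ.Prime ∧ W.IsGoodPrimeFor ℓ ∧ ¬ ℓ ∣ N * q' ∧ ℓ ≠ p}
  have hdvd : ∀ ℓ : ℕ, ¬ ℓ ∣ N * q' → ¬ ℓ ∣ N := fun ℓ h h' => h (Dvd.dvd.mul_right h' q')
  -- integral eigenvalues
  have hex : ∀ l : ι, ∃ a : integralClosure ℤ ℂ, (a : ℂ) = qCoeff f l.1 ∧
      a - ((W.apOfModel l.1 : ℤ) : integralClosure ℤ ℂ) ∈ 𝔪 :=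
    fun l => hcong l.1 l.2.1 l.2.2.1 (hdvd _ l.2.2.2.1) l.2.2.2.2
  choose a ha1 ha2 using hex
  obtain ⟨aq, haq1, haq2⟩ := hLR
  obtain ⟨w, hw0, hwL, hwT, hwq⟩ := hw
  let l0' : ι := ⟨l0, hl0, hl0W, hl0N, hl0p⟩
  obtain ⟨g, Q, hg, hQ, hpQ, hgl, hgq⟩ := lr52_final LN LQ hNfg hQfg
    (fun l : ι => TN l.1) (fun l : ι => TQ l.1) Tq
    (fun l => hTN l.1 l.2.1 l.2.2.2.1) (fun l => hTQ l.1 l.2.1 l.2.2.2.1)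
    (fun l l' => hcN l.1 l'.1 l.2.1 l.2.2.2.1 l'.2.1 l'.2.2.2.1)
    (fun l l' => hcQ l.1 l'.1 l.2.1 l.2.2.2.1 l'.2.1 l'.2.2.2.1)
    i₁ i₂ j₁ j₂ hi₁L hi₂L hj₁L hj₂L
    (fun l => hi₁T l.1 l.2.1 l.2.2.2.1) (fun l => hi₂T l.1 l.2.1 l.2.2.2.1)
    (fun l => hj₁T l.1 l.2.1 l.2.2.2.1) (fun l => hj₂T l.1 l.2.1 l.2.2.2.1)
    q' h11 h12 h21 h22 p hp (fun l : ι => W.apOfModel l.1) l0' ((l0 : ℤ) + 1) hl0ne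
    ha hb w hw0 hwL a
    (fun l => by rw [ha1 l]; exact hwT l.1 l.2.1 l.2.2.2.1)
    aq (by rw [haq1]; exact hwq) 𝔪 hmax.isPrime hpm ha2 haq2
    (N * q') (fun l : ι => l.1)
    (fun y lam hy0 hj₁ hj₂ hy hl0lam => by
      -- extend `lam` by zero outside the good primes
      let lam' : ℕ → ℂ := fun ℓ =>
        if h : ℓ.Prime ∧ W.IsGoodPrimeFor ℓ ∧ ¬ ℓ ∣ N * q' ∧ ℓ ≠ p then lam ⟨ℓ, h⟩ else 0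
      have hlam' : ∀ l : ι, lam' l.1 = lam l := fun l => by
        show (if h : _ then lam ⟨l.1, h⟩ else 0) = lam l
        rw [dif_pos l.2]
      obtain ⟨g, hg, hgl, hgq⟩ := hout y lam' hy0 hj₁ hj₂
        (fun ℓ h1 h2 h3 h4 => by
          have := hy ⟨ℓ, h1, h2, h3, h4⟩
          rw [hlam' ⟨ℓ, h1, h2, h3, h4⟩]
          exact this)
        (by
          rw [hlam' l0']
          intro h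
          apply hl0lam
          rw [h]
          push_cast
          rfl)
      exact ⟨g, hg, fun l => by rw [hgl l.1 l.2.1 l.2.2.1 l.2.2.2.1 l.2.2.2.2, hlam' l], hgq⟩)
  exact ⟨g, Q, hg, hQ, hpQ, fun ℓ h1 h2 h3 h4 => hgl ⟨ℓ, h1, h2, h3, h4⟩, hgq⟩

end Fermat.Agent.S41
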