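/-
S41 / M3 (L8), helper60: the two adjunctions "restriction / trace" of the Manin-model pairing
`md32_B` for a pair of subgroups `H ≤ G ≤ SL(2, ℤ)`, proved DIRECTLY in the Manin model
(no cap products, no bridge).

* `ma60_BI_abs`, `ma60_BI_reps`, `ma60_BI` : **(B-I)**  `B_G(χ, tr Φ) = B_H(χ|_H, Φ)`
  (abstract fibre-sum form, coset-representative form, and the `tr43_tr` form for
  `Γ₀(M r) ≤ Γ₀(M)`).
* `ma60_BI'_abs`, `ma60_BI'` : **(B-I')** `B_H(χ', Φ|_H) = B_G(cores χ', Φ)` with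
  `cores = ma60_cores` = transfer `ct77_nuTr` (extended by zero outside `G`).

Both hold for ANY `U`-adapted sections of `SL(2, ℤ) ⧸ G` and `SL(2, ℤ) ⧸ H`.
-/
import Mathlib
import Fermat.Agent.S41.ManinInst32
import Fermat.Agent.S41.CapCores77
import Fermat.Agent.S41.CosetReindex98
import Fermat.Agent.S41.SymbCore71

set_option autoImplicit false

open scoped MatrixGroups
open ModularGroup Matrix CongruenceSubgroup

namespace Fermat.Agent.S41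

noncomputable section

section Proj

variable {H G : Subgroup SL(2, ℤ)}

/-- The projection `SL(2, ℤ) ⧸ H → SL(2, ℤ) ⧸ G` for `H ≤ G`. -/
def ma60_pi (hHG : H ≤ G) : SL(2, ℤ) ⧸ H → SL(2, ℤ) ⧸ G := Subgroup.quotientMapOfLE hHG

theorem ma60_pi_mk (hHG : H ≤ G) (g : SL(2, ℤ)) :
    ma60_pi hHG (g : SL(2, ℤ) ⧸ H) = (g : SL(2, ℤ) ⧸ G) := rfl

theorem ma60_pi_smul (hHG : H ≤ G) (g : SL(2, ℤ)) (y : SL(2, ℤ) ⧸ H) :
    ma60_pi hHG (g • y) = g • ma60_pi hHG y := by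
  induction y using QuotientGroup.induction_on with
  | H a => rfl

/-- `δ y = (rep_G (π y))⁻¹ * rep_H y`, an element of `G`. -/
def ma60_del (hHG : H ≤ G) (repG : SL(2, ℤ) ⧸ G → SL(2, ℤ)) (repH : SL(2, ℤ) ⧸ H → SL(2, ℤ))
    (y : SL(2, ℤ) ⧸ H) : SL(2, ℤ) :=
  (repG (ma60_pi hHG y))⁻¹ * repH y

theorem ma60_del_mem (hHG : H ≤ G) {repG : SL(2, ℤ) ⧸ G → SL(2, ℤ)}
    (hrepG : ∀ x, (repG x : SL(2, ℤ) ⧸ G) = x) {repH : SL(2, ℤ) ⧸ H → SL(2, ℤ)}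
    (hrepH : ∀ y, (repH y : SL(2, ℤ) ⧸ H) = y) (y : SL(2, ℤ) ⧸ H) :
    ma60_del hHG repG repH y ∈ G := by
  have h : (repG (ma60_pi hHG y) : SL(2, ℤ) ⧸ G) = ((repH y : SL(2, ℤ)) : SL(2, ℤ) ⧸ G) := by
    rw [hrepG, ← ma60_pi_mk hHG, hrepH]
  exact QuotientGroup.eq.mp h

/-- the two `σ`-cocycles are conjugate through `δ`. -/
theorem ma60_del_smul (hHG : H ≤ G) (repG : SL(2, ℤ) ⧸ G → SL(2, ℤ))
    (repH : SL(2, ℤ) ⧸ H → SL(2, ℤ)) (g : SL(2, ℤ)) (y : SL(2, ℤ) ⧸ H) :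
    md32_sig repH g y = (ma60_del hHG repG repH (g • y))⁻¹ * md32_sig repG g (ma60_pi hHG y)
      * ma60_del hHG repG repH y := by
  simp only [ma60_del, md32_sig, ma60_pi_smul]
  group

theorem ma60_isHom_le (hHG : H ≤ G) {χ : SL(2, ℤ) → ℤ} (hχ : md32_IsHom G χ) : md32_IsHom H χ :=
  fun a ha b hb => hχ a (hHG ha) b (hHG hb)

theorem ma60_isSymb_le (hHG : H ≤ G) {C : Type*} {ρ : SL(2, ℤ) →* Equiv.Perm C}
    {Φ : C → C → ℤ} (hΦ : md32_IsSymb G ρ Φ) : md32_IsSymb H ρ Φ :=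
  ⟨hΦ.1, fun γ hγ a b => hΦ.2 γ (hHG hγ) a b⟩

theorem ma60_J_arg_mem {Γ : Subgroup SL(2, ℤ)} (hneg : (-1 : SL(2, ℤ)) ∈ Γ)
    {rep : SL(2, ℤ) ⧸ Γ → SL(2, ℤ)} (hrep : ∀ x, (rep x : SL(2, ℤ) ⧸ Γ) = x)
    (x : SL(2, ℤ) ⧸ Γ) : (rep x)⁻¹ * S * rep ((S : SL(2, ℤ)) • x) ∈ Γ := by
  have h := md32_sig_mem hrep S ((S : SL(2, ℤ)) • x)
  rwa [md32_sig, md32_SS (md32_neg_smul hneg)] at h

/-- The Manin coordinate of a symbol at the coset of `g`, computed with `g` itself. -/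
theorem ma60_v_mk {Γ : Subgroup SL(2, ℤ)} {C : Type*} {ρ : SL(2, ℤ) →* Equiv.Perm C} {cinf : C}
    {rep : SL(2, ℤ) ⧸ Γ → SL(2, ℤ)} (hrep : ∀ x, (rep x : SL(2, ℤ) ⧸ Γ) = x)
    {Φ : C → C → ℤ} (hΦ : md32_IsSymb Γ ρ Φ) (g : SL(2, ℤ)) :
    md32_v ρ cinf rep Φ (g : SL(2, ℤ) ⧸ Γ) = Φ (ρ (g⁻¹ * S) cinf) (ρ g⁻¹ cinf) := by
  have hh : (rep (g : SL(2, ℤ) ⧸ Γ))⁻¹ * g ∈ Γ := QuotientGroup.eq.mp (hrep (g : SL(2, ℤ) ⧸ Γ))
  have key : ∀ (h k : SL(2, ℤ)), h ∈ Γ →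
      Φ (ρ (h * k * S) cinf) (ρ (h * k) cinf) = Φ (ρ (k * S) cinf) (ρ k cinf) := by
    intro h k hh
    rw [mul_assoc, map_mul, map_mul ρ h k, Equiv.Perm.mul_apply, Equiv.Perm.mul_apply,
      hΦ.2 _ hh]
  have := key _ g⁻¹ hh
  rw [mul_inv_cancel_right] at this
  exact this

end Proj

section BI

variable {H G : Subgroup SL(2, ℤ)} [Fintype (SL(2, ℤ) ⧸ H)] [Fintype (SL(2, ℤ) ⧸ G)]
  {C : Type*} {ρ : SL(2, ℤ) →* Equiv.Perm C} {cinf : C}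

omit [Fintype (SL(2, ℤ) ⧸ H)] [Fintype (SL(2, ℤ) ⧸ G)] in
/-- `χ (δ (U y)) = χ (δ y)` for adapted sections. -/
theorem ma60_chi_del_U (hHG : H ≤ G) (hnegH : (-1 : SL(2, ℤ)) ∈ H)
    {repG : SL(2, ℤ) ⧸ G → SL(2, ℤ)} (hrepG : ∀ x, (repG x : SL(2, ℤ) ⧸ G) = x)
    (hadG : md32_Adapted repG) {repH : SL(2, ℤ) ⧸ H → SL(2, ℤ)}
    (hrepH : ∀ y, (repH y : SL(2, ℤ) ⧸ H) = y) (hadH : md32_Adapted repH)
    {χ : SL(2, ℤ) → ℤ} (hχ : md32_IsHom G χ) (y : SL(2, ℤ) ⧸ H) :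
    χ (ma60_del hHG repG repH (md32_U • y)) = χ (ma60_del hHG repG repH y) := by
  have h1 := ma60_del_smul hHG repG repH md32_U y
  have h2 : ma60_del hHG repG repH (md32_U • y)
      = md32_sig repG md32_U (ma60_pi hHG y) * ma60_del hHG repG repH y
        * (md32_sig repH md32_U y)⁻¹ := by
    rw [h1]; group
  have hsG := md32_sig_mem hrepG md32_U (ma60_pi hHG y)
  have hsH := md32_sig_mem hrepH md32_U y
  have hd := ma60_del_mem hHG hrepG hrepH y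
  rw [h2, hχ _ (G.mul_mem hsG hd) _ (G.inv_mem (hHG hsH)), hχ _ hsG _ hd, hχ.inv (hHG hsH),
    md32_chi_sig_U hrepG hadG (hHG hnegH) hχ,
    md32_chi_sig_U hrepH hadH hnegH (ma60_isHom_le hHG hχ)]
  ring

omit [Fintype (SL(2, ℤ) ⧸ H)] [Fintype (SL(2, ℤ) ⧸ G)] in
/-- the jump function upstairs is the pull-back of the jump function downstairs, up to the
`S`-coboundary of `-χ ∘ δ`. -/
theorem ma60_J_pi (hHG : H ≤ G) (hnegH : (-1 : SL(2, ℤ)) ∈ H)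
    {repG : SL(2, ℤ) ⧸ G → SL(2, ℤ)} (hrepG : ∀ x, (repG x : SL(2, ℤ) ⧸ G) = x)
    {repH : SL(2, ℤ) ⧸ H → SL(2, ℤ)} (hrepH : ∀ y, (repH y : SL(2, ℤ) ⧸ H) = y)
    {χ : SL(2, ℤ) → ℤ} (hχ : md32_IsHom G χ) (y : SL(2, ℤ) ⧸ H) :
    md32_J repH χ y = md32_J repG χ (ma60_pi hHG y) + (- χ (ma60_del hHG repG repH y))
      - (- χ (ma60_del hHG repG repH ((S : SL(2, ℤ)) • y))) := by
  have e : (repH y)⁻¹ * S * repH ((S : SL(2, ℤ)) • y)
      = (ma60_del hHG repG repH y)⁻¹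
        * ((repG (ma60_pi hHG y))⁻¹ * S * repG ((S : SL(2, ℤ)) • ma60_pi hHG y))
        * ma60_del hHG repG repH ((S : SL(2, ℤ)) • y) := by
    simp only [ma60_del, ma60_pi_smul]; group
  have hd := ma60_del_mem hHG hrepG hrepH y
  have hd' := ma60_del_mem hHG hrepG hrepH ((S : SL(2, ℤ)) • y)
  have hm := ma60_J_arg_mem (hHG hnegH) hrepG (ma60_pi hHG y)
  rw [md32_J, e, hχ _ (G.mul_mem (G.inv_mem hd) hm) _ hd', hχ _ (G.inv_mem hd) _ hm,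
    hχ.inv hd, md32_J]
  ring

/-- **(B-I), abstract fibre-sum form.** If the Manin coordinates of `Ψ` (for `G`) are the fibre
sums of those of `Φ` (for `H ≤ G`), then `B_G(χ, Ψ) = B_H(χ, Φ)` for every `χ` additive on
`G`. -/
theorem ma60_BI_abs [DecidableEq (SL(2, ℤ) ⧸ G)] (hHG : H ≤ G) (hax : md32_CuspAx ρ cinf)
    (hnegH : (-1 : SL(2, ℤ)) ∈ H)
    {repG : SL(2, ℤ) ⧸ G → SL(2, ℤ)} (hrepG : ∀ x, (repG x : SL(2, ℤ) ⧸ G) = x)
    (hadG : md32_Adapted repG) {repH : SL(2, ℤ) ⧸ H → SL(2, ℤ)}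
    (hrepH : ∀ y, (repH y : SL(2, ℤ) ⧸ H) = y) (hadH : md32_Adapted repH)
    {χ : SL(2, ℤ) → ℤ} (hχ : md32_IsHom G χ) {Φ Ψ : C → C → ℤ} (hΦ : md32_IsSymb H ρ Φ)
    (htr : ∀ x : SL(2, ℤ) ⧸ G, md32_v ρ cinf repG Ψ x
      = ∑ y ∈ Finset.univ.filter (fun y => ma60_pi hHG y = x), md32_v ρ cinf repH Φ y) :
    md32_B ρ cinf repG χ Ψ = md32_B ρ cinf repH χ Φ := by
  have hf : ∀ y, (fun y => - χ (ma60_del hHG repG repH y)) (md32_U • y)
      = (fun y => - χ (ma60_del hHG repG repH y)) y := fun y => by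
    show - χ _ = - χ _
    rw [ma60_chi_del_U hHG hnegH hrepG hadG hrepH hadH hχ]
  rw [md32_B_eq hax hrepH hΦ (J := fun y => md32_J repG χ (ma60_pi hHG y)) hf
    (fun y => ma60_J_pi hHG hnegH hrepG hrepH hχ y)]
  rw [md32_B, ← Finset.sum_fiberwise Finset.univ (ma60_pi hHG)
    (fun y => md32_J repG χ (ma60_pi hHG y) * md32_v ρ cinf repH Φ y)]
  refine Finset.sum_congr rfl fun x _ => ?_
  rw [htr, Finset.mul_sum]
  refine Finset.sum_congr rfl fun y hy => ?_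
  rw [(Finset.mem_filter.mp hy).2]

/-- **(B-I), coset-representative form.** `Ψ = ∑ i, Φ ∘ r i` for a system `r` of representatives
of `H \ G`. -/
theorem ma60_BI_reps (hHG : H ≤ G) (hax : md32_CuspAx ρ cinf)
    (hnegH : (-1 : SL(2, ℤ)) ∈ H)
    {repG : SL(2, ℤ) ⧸ G → SL(2, ℤ)} (hrepG : ∀ x, (repG x : SL(2, ℤ) ⧸ G) = x)
    (hadG : md32_Adapted repG) {repH : SL(2, ℤ) ⧸ H → SL(2, ℤ)}
    (hrepH : ∀ y, (repH y : SL(2, ℤ) ⧸ H) = y) (hadH : md32_Adapted repH)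
    {χ : SL(2, ℤ) → ℤ} (hχ : md32_IsHom G χ) {Φ : C → C → ℤ} (hΦ : md32_IsSymb H ρ Φ)
    {ι : Type*} [Fintype ι] (r : ι → SL(2, ℤ)) (hrG : ∀ i, r i ∈ G)
    (hex : ∀ g ∈ G, ∃ i, g * (r i)⁻¹ ∈ H) (huniq : ∀ i j, r i * (r j)⁻¹ ∈ H → i = j)
    {Ψ : C → C → ℤ} (hΨ : ∀ a b, Ψ a b = ∑ i, Φ (ρ (r i) a) (ρ (r i) b)) :
    md32_B ρ cinf repG χ Ψ = md32_B ρ cinf repH χ Φ := by
  classical
  refine ma60_BI_abs hHG hax hnegH hrepG hadG hrepH hadH hχ hΦ (fun x => ?_)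
  have himg : Finset.univ.filter (fun y => ma60_pi hHG y = x)
      = Finset.univ.image (fun i => ((repG x * (r i)⁻¹ : SL(2, ℤ)) : SL(2, ℤ) ⧸ H)) := by
    ext y
    simp only [Finset.mem_filter, Finset.mem_univ, true_and, Finset.mem_image]
    constructor
    · intro hy
      have hg : (repH y)⁻¹ * repG x ∈ G := by
        apply QuotientGroup.eq.mp
        calc ((repH y : SL(2, ℤ)) : SL(2, ℤ) ⧸ G)
            = ma60_pi hHG ((repH y : SL(2, ℤ)) : SL(2, ℤ) ⧸ H) := rfl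
          _ = x := by rw [hrepH, hy]
          _ = _ := (hrepG x).symm
      obtain ⟨i, hi⟩ := hex _ hg
      refine ⟨i, ?_⟩
      conv_rhs => rw [← hrepH y]
      apply QuotientGroup.eq.mpr
      have e : (repG x * (r i)⁻¹)⁻¹ * repH y = ((repH y)⁻¹ * repG x * (r i)⁻¹)⁻¹ := by group
      rw [e]; exact H.inv_mem hi
    · rintro ⟨i, rfl⟩
      rw [ma60_pi_mk]
      calc ((repG x * (r i)⁻¹ : SL(2, ℤ)) : SL(2, ℤ) ⧸ G) = (repG x : SL(2, ℤ) ⧸ G) :=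
            QuotientGroup.eq.mpr (by
              have e : (repG x * (r i)⁻¹)⁻¹ * repG x = r i := by group
              rw [e]; exact hrG i)
        _ = x := hrepG x
  have hinj : Function.Injective
      (fun i => ((repG x * (r i)⁻¹ : SL(2, ℤ)) : SL(2, ℤ) ⧸ H)) := by
    intro i j hij
    have h := QuotientGroup.eq.mp hij
    apply huniq
    have e : (repG x * (r i)⁻¹)⁻¹ * (repG x * (r j)⁻¹) = r i * (r j)⁻¹ := by group
    rwa [e] at h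
  rw [himg, Finset.sum_image (fun i _ j _ hij => hinj hij)]
  show Ψ (ρ ((repG x)⁻¹ * S) cinf) (ρ (repG x)⁻¹ cinf) = _
  rw [hΨ]
  refine Finset.sum_congr rfl fun i _ => ?_
  rw [ma60_v_mk hrepH hΦ]
  have e1 : (repG x * (r i)⁻¹)⁻¹ * S = r i * ((repG x)⁻¹ * S) := by group
  have e2 : (repG x * (r i)⁻¹)⁻¹ = r i * (repG x)⁻¹ := by group
  rw [e1, e2, map_mul ρ (r i) ((repG x)⁻¹ * S), map_mul ρ (r i) (repG x)⁻¹,
    Equiv.Perm.mul_apply, Equiv.Perm.mul_apply]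

end BI

section Cores

variable {H G : Subgroup SL(2, ℤ)}

open Classical in
/-- Corestriction (transfer) of a function additive on `H` to `G`, extended by zero. -/
def ma60_cores (H G : Subgroup SL(2, ℤ)) (χ' : SL(2, ℤ) → ℤ) : SL(2, ℤ) → ℤ :=
  fun g => if hg : g ∈ G then
    ct77_nuTr (H.subgroupOf G) (fun x : G => χ' (x : SL(2, ℤ))) ⟨g, hg⟩ else 0

theorem ma60_cores_of_mem (χ' : SL(2, ℤ) → ℤ) {g : SL(2, ℤ)} (hg : g ∈ G) :
    ma60_cores H G χ' g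
      = ct77_nuTr (H.subgroupOf G) (fun x : G => χ' (x : SL(2, ℤ))) ⟨g, hg⟩ := by
  rw [ma60_cores]
  exact dif_pos hg

/-- any function which is the transfer of `χ'` on `G` is additive on `G`. -/
theorem ma60_transfer_isHom [Finite (G ⧸ H.subgroupOf G)] {χ' : SL(2, ℤ) → ℤ}
    (hχ' : md32_IsHom H χ') {ψ : SL(2, ℤ) → ℤ}
    (hψ : ∀ (g : SL(2, ℤ)) (hg : g ∈ G),
      ψ g = ct77_nuTr (H.subgroupOf G) (fun x : G => χ' (x : SL(2, ℤ))) ⟨g, hg⟩) :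
    md32_IsHom G ψ := by
  intro a ha b hb
  rw [hψ a ha, hψ b hb, hψ (a * b) (G.mul_mem ha hb)]
  exact ct77_nuTr_mul (H.subgroupOf G) (χ' := fun x : G => χ' (x : SL(2, ℤ)))
    (fun x hx y hy => hχ' _ (Subgroup.mem_subgroupOf.mp hx) _ (Subgroup.mem_subgroupOf.mp hy))
    ⟨a, ha⟩ ⟨b, hb⟩

theorem ma60_cores_isHom [Finite (G ⧸ H.subgroupOf G)] {χ' : SL(2, ℤ) → ℤ}
    (hχ' : md32_IsHom H χ') : md32_IsHom G (ma60_cores H G χ') :=
  ma60_transfer_isHom hχ' (fun _ hg => ma60_cores_of_mem χ' hg)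

theorem ma60_finite_sub (H G : Subgroup SL(2, ℤ)) [Finite (SL(2, ℤ) ⧸ H)] :
    Finite (G ⧸ H.subgroupOf G) := by
  have : H.FiniteIndex := Subgroup.finiteIndex_of_finite_quotient
  infer_instance

variable (hHG : H ≤ G) {repG : SL(2, ℤ) ⧸ G → SL(2, ℤ)}
  (hrepG : ∀ x, (repG x : SL(2, ℤ) ⧸ G) = x) {repH : SL(2, ℤ) ⧸ H → SL(2, ℤ)}
  (hrepH : ∀ y, (repH y : SL(2, ℤ) ⧸ H) = y)

/-- `δ y` as an element of the group `G`. -/
def ma60_delG (y : SL(2, ℤ) ⧸ H) : G :=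
  ⟨ma60_del hHG repG repH y, ma60_del_mem hHG hrepG hrepH y⟩

/-- the class of `δ y` in `G ⧸ H`. -/
def ma60_q (y : SL(2, ℤ) ⧸ H) : G ⧸ H.subgroupOf G :=
  QuotientGroup.mk (ma60_delG hHG hrepG hrepH y)

/-- `σ_G(g, x)` as an element of the group `G`. -/
def ma60_sigG (g : SL(2, ℤ)) (x : SL(2, ℤ) ⧸ G) : G :=
  ⟨md32_sig repG g x, md32_sig_mem hrepG g x⟩

theorem ma60_q_smul (g : SL(2, ℤ)) (y : SL(2, ℤ) ⧸ H) :
    ma60_q hHG hrepG hrepH (g • y)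
      = ma60_sigG hrepG g (ma60_pi hHG y) • ma60_q hHG hrepG hrepH y := by
  rw [ma60_q, ma60_q, MulAction.Quotient.smul_mk]
  apply QuotientGroup.eq.mpr
  rw [Subgroup.mem_subgroupOf]
  have e : (((ma60_delG hHG hrepG hrepH (g • y))⁻¹
      * (ma60_sigG hrepG g (ma60_pi hHG y) • ma60_delG hHG hrepG hrepH y) : G) : SL(2, ℤ))
      = md32_sig repH g y := by
    rw [ma60_del_smul hHG repG repH g y]
    simp only [smul_eq_mul, Subgroup.coe_mul, Subgroup.coe_inv, ma60_delG, ma60_sigG]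
    group
  rw [e]
  exact md32_sig_mem hrepH g y

/-- `h y = (δ y)⁻¹ * s (q y) ∈ H`, `s = Quotient.out`. -/
def ma60_h (y : SL(2, ℤ) ⧸ H) : SL(2, ℤ) :=
  (ma60_del hHG repG repH y)⁻¹ * ((Quotient.out (ma60_q hHG hrepG hrepH y) : G) : SL(2, ℤ))

theorem ma60_h_mem (y : SL(2, ℤ) ⧸ H) : ma60_h hHG hrepG hrepH y ∈ H := by
  have h : (QuotientGroup.mk (ma60_delG hHG hrepG hrepH y) : G ⧸ H.subgroupOf G)
      = QuotientGroup.mk (Quotient.out (ma60_q hHG hrepG hrepH y)) := by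
    rw [QuotientGroup.out_eq']; rfl
  have h2 := QuotientGroup.eq.mp h
  rw [Subgroup.mem_subgroupOf] at h2
  exact h2

/-- the `σ`-cocycle of `H` through the transfer cocycle `ct77_h`. -/
theorem ma60_sig_decomp (g : SL(2, ℤ)) (y : SL(2, ℤ) ⧸ H) :
    md32_sig repH g y = ma60_h hHG hrepG hrepH (g • y)
      * ((ct77_h (H.subgroupOf G) (ma60_sigG hrepG g (ma60_pi hHG y))
          (ma60_q hHG hrepG hrepH y) : G) : SL(2, ℤ))
      * (ma60_h hHG hrepG hrepH y)⁻¹ := by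
  have hq := ma60_q_smul hHG hrepG hrepH g y
  rw [ma60_del_smul hHG repG repH g y, ct77_h, ← hq]
  simp only [ma60_h, Subgroup.coe_mul, Subgroup.coe_inv, ma60_sigG]
  group

theorem ma60_chi_sig {χ' : SL(2, ℤ) → ℤ} (hχ' : md32_IsHom H χ') (g : SL(2, ℤ))
    (y : SL(2, ℤ) ⧸ H) :
    χ' (md32_sig repH g y) = χ' (ma60_h hHG hrepG hrepH (g • y))
      + χ' ((ct77_h (H.subgroupOf G) (ma60_sigG hrepG g (ma60_pi hHG y))
          (ma60_q hHG hrepG hrepH y) : G) : SL(2, ℤ))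
      - χ' (ma60_h hHG hrepG hrepH y) := by
  have h1 := ma60_h_mem hHG hrepG hrepH (g • y)
  have h2 := ma60_h_mem hHG hrepG hrepH y
  have h3 : ((ct77_h (H.subgroupOf G) (ma60_sigG hrepG g (ma60_pi hHG y))
      (ma60_q hHG hrepG hrepH y) : G) : SL(2, ℤ)) ∈ H :=
    Subgroup.mem_subgroupOf.mp (ct77_h_mem (H.subgroupOf G) _ _)
  rw [ma60_sig_decomp hHG hrepG hrepH g y, hχ' _ (H.mul_mem h1 h3) _ (H.inv_mem h2),
    hχ' _ h1 _ h3, hχ'.inv h2]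
  ring

/-- `SL(2, ℤ) ⧸ H ≃ SL(2, ℤ) ⧸ G × G ⧸ H`. -/
def ma60_equiv : (SL(2, ℤ) ⧸ H) ≃ (SL(2, ℤ) ⧸ G) × (G ⧸ H.subgroupOf G) where
  toFun y := (ma60_pi hHG y, ma60_q hHG hrepG hrepH y)
  invFun p := ((repG p.1 * ((Quotient.out p.2 : G) : SL(2, ℤ)) : SL(2, ℤ)) : SL(2, ℤ) ⧸ H)
  left_inv y := by
    show ((repG (ma60_pi hHG y)
      * ((Quotient.out (ma60_q hHG hrepG hrepH y) : G) : SL(2, ℤ)) : SL(2, ℤ)) : SL(2, ℤ) ⧸ H) = y
    conv_rhs => rw [← hrepH y]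
    apply QuotientGroup.eq.mpr
    have e : (repG (ma60_pi hHG y)
        * ((Quotient.out (ma60_q hHG hrepG hrepH y) : G) : SL(2, ℤ)))⁻¹ * repH y
        = (ma60_h hHG hrepG hrepH y)⁻¹ := by
      simp only [ma60_h, ma60_del]; group
    rw [e]
    exact H.inv_mem (ma60_h_mem hHG hrepG hrepH y)
  right_inv p := by
    obtain ⟨x, q⟩ := p
    have hπ : ma60_pi hHG ((repG x * ((Quotient.out q : G) : SL(2, ℤ)) : SL(2, ℤ))
        : SL(2, ℤ) ⧸ H) = x := by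
      rw [ma60_pi_mk]
      calc ((repG x * ((Quotient.out q : G) : SL(2, ℤ)) : SL(2, ℤ)) : SL(2, ℤ) ⧸ G)
          = (repG x : SL(2, ℤ) ⧸ G) :=
            QuotientGroup.eq.mpr (by
              have e : (repG x * ((Quotient.out q : G) : SL(2, ℤ)))⁻¹ * repG x
                  = (((Quotient.out q : G) : SL(2, ℤ)))⁻¹ := by group
              rw [e]; exact G.inv_mem (Quotient.out q : G).2)
        _ = x := hrepG x
    have hq : ma60_q hHG hrepG hrepH ((repG x * ((Quotient.out q : G) : SL(2, ℤ)) : SL(2, ℤ))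
        : SL(2, ℤ) ⧸ H) = q := by
      conv_rhs => rw [← QuotientGroup.out_eq' q]
      rw [ma60_q]
      apply QuotientGroup.eq.mpr
      rw [Subgroup.mem_subgroupOf]
      have h1 := QuotientGroup.eq.mp
        (hrepH ((repG x * ((Quotient.out q : G) : SL(2, ℤ)) : SL(2, ℤ)) : SL(2, ℤ) ⧸ H))
      show (ma60_del hHG repG repH _)⁻¹ * ((Quotient.out q : G) : SL(2, ℤ)) ∈ H
      rw [ma60_del, hπ]
      convert h1 using 1
      group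
    exact Prod.ext hπ hq

theorem ma60_equiv_symm_fst (x : SL(2, ℤ) ⧸ G) (q : G ⧸ H.subgroupOf G) :
    ma60_pi hHG ((ma60_equiv hHG hrepG hrepH).symm (x, q)) = x :=
  congrArg Prod.fst ((ma60_equiv hHG hrepG hrepH).apply_symm_apply (x, q))

theorem ma60_equiv_symm_snd (x : SL(2, ℤ) ⧸ G) (q : G ⧸ H.subgroupOf G) :
    ma60_q hHG hrepG hrepH ((ma60_equiv hHG hrepG hrepH).symm (x, q)) = q :=
  congrArg Prod.snd ((ma60_equiv hHG hrepG hrepH).apply_symm_apply (x, q))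

theorem ma60_equiv_symm_smul (g : SL(2, ℤ)) (x : SL(2, ℤ) ⧸ G) (q : G ⧸ H.subgroupOf G) :
    (ma60_equiv hHG hrepG hrepH).symm (g • x, ma60_sigG hrepG g x • q)
      = g • (ma60_equiv hHG hrepG hrepH).symm (x, q) := by
  rw [Equiv.symm_apply_eq]
  show _ = (ma60_pi hHG (g • (ma60_equiv hHG hrepG hrepH).symm (x, q)),
    ma60_q hHG hrepG hrepH (g • (ma60_equiv hHG hrepG hrepH).symm (x, q)))
  rw [ma60_pi_smul, ma60_q_smul, ma60_equiv_symm_fst, ma60_equiv_symm_snd]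

end Cores

section BI'

variable {H G : Subgroup SL(2, ℤ)} [Fintype (SL(2, ℤ) ⧸ H)] [Fintype (SL(2, ℤ) ⧸ G)]
  {C : Type*} {ρ : SL(2, ℤ) →* Equiv.Perm C} {cinf : C}

/-- **(B-I'), general form.** For `χ'` additive on `H ≤ G`, a symbol `Φ` for `G` and ANY
function `ψ` which on `G` is the transfer of `χ'`: `B_H(χ', Φ) = B_G(ψ, Φ)`, for any adapted
sections. -/
theorem ma60_BI'_gen (hHG : H ≤ G) (hax : md32_CuspAx ρ cinf)
    (hnegH : (-1 : SL(2, ℤ)) ∈ H)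
    {repG : SL(2, ℤ) ⧸ G → SL(2, ℤ)} (hrepG : ∀ x, (repG x : SL(2, ℤ) ⧸ G) = x)
    (hadG : md32_Adapted repG) {repH : SL(2, ℤ) ⧸ H → SL(2, ℤ)}
    (hrepH : ∀ y, (repH y : SL(2, ℤ) ⧸ H) = y) (hadH : md32_Adapted repH)
    {χ' : SL(2, ℤ) → ℤ} (hχ' : md32_IsHom H χ') {Φ : C → C → ℤ} (hΦ : md32_IsSymb G ρ Φ)
    {ψ : SL(2, ℤ) → ℤ}
    (hψ : ∀ (g : SL(2, ℤ)) (hg : g ∈ G),
      ψ g = ct77_nuTr (H.subgroupOf G) (fun x : G => χ' (x : SL(2, ℤ))) ⟨g, hg⟩) :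
    md32_B ρ cinf repH χ' Φ = md32_B ρ cinf repG ψ Φ := by
  classical
  have : Finite (G ⧸ H.subgroupOf G) := ma60_finite_sub H G
  have : Fintype (G ⧸ H.subgroupOf G) := Fintype.ofFinite _
  have hnegG := hHG hnegH
  have hΦH : md32_IsSymb H ρ Φ := ma60_isSymb_le hHG hΦ
  have hcor : md32_IsHom G ψ := ma60_transfer_isHom hχ' hψ
  have hSSH := md32_SS (md32_neg_smul hnegH)
  have hSSG := md32_SS (md32_neg_smul hnegG)
  -- the Manin coordinates upstairs are pulled back from downstairs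
  have hv : ∀ y, md32_v ρ cinf repH Φ y = md32_v ρ cinf repG Φ (ma60_pi hHG y) := by
    intro y
    have h1 := ma60_v_mk (cinf := cinf) hrepG hΦ (repH y)
    have h2 : ((repH y : SL(2, ℤ)) : SL(2, ℤ) ⧸ G) = ma60_pi hHG y := by
      rw [← ma60_pi_mk hHG, hrepH]
    rw [h2] at h1
    rw [h1, md32_v]
  -- the key identity
  have hkey := ma60_chi_sig hHG hrepG hrepH hχ'
  have hcsum : ∀ (g : SL(2, ℤ)) (x : SL(2, ℤ) ⧸ G),
      ∑ q : G ⧸ H.subgroupOf G,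
        χ' ((ct77_h (H.subgroupOf G) (ma60_sigG hrepG g x) q : G) : SL(2, ℤ))
      = ψ (md32_sig repG g x) := by
    intro g x
    rw [hψ _ (md32_sig_mem hrepG g x), ct77_nuTr, finsum_eq_sum_of_fintype]
    rfl
  -- the fibre sums of `η = χ' ∘ h` are `U`-invariant
  have hFU : ∀ x : SL(2, ℤ) ⧸ G,
      (fun x => ∑ q : G ⧸ H.subgroupOf G,
        χ' (ma60_h hHG hrepG hrepH ((ma60_equiv hHG hrepG hrepH).symm (x, q)))) (md32_U • x)
      = (fun x => ∑ q : G ⧸ H.subgroupOf G,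
        χ' (ma60_h hHG hrepG hrepH ((ma60_equiv hHG hrepG hrepH).symm (x, q)))) x := by
    intro x
    show ∑ q : G ⧸ H.subgroupOf G,
        χ' (ma60_h hHG hrepG hrepH ((ma60_equiv hHG hrepG hrepH).symm (md32_U • x, q)))
      = ∑ q : G ⧸ H.subgroupOf G,
        χ' (ma60_h hHG hrepG hrepH ((ma60_equiv hHG hrepG hrepH).symm (x, q)))
    rw [← Equiv.sum_comp (MulAction.toPerm (ma60_sigG hrepG md32_U x)
      : (G ⧸ H.subgroupOf G) ≃ (G ⧸ H.subgroupOf G))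
      (fun q => χ' (ma60_h hHG hrepG hrepH
        ((ma60_equiv hHG hrepG hrepH).symm (md32_U • x, q))))]
    have h2 : ∀ q : G ⧸ H.subgroupOf G,
        χ' (ma60_h hHG hrepG hrepH ((ma60_equiv hHG hrepG hrepH).symm
          (md32_U • x, (MulAction.toPerm (ma60_sigG hrepG md32_U x)
            : (G ⧸ H.subgroupOf G) ≃ (G ⧸ H.subgroupOf G)) q)))
        = χ' (ma60_h hHG hrepG hrepH ((ma60_equiv hHG hrepG hrepH).symm (x, q)))
          - χ' ((ct77_h (H.subgroupOf G) (ma60_sigG hrepG md32_U x) q : G) : SL(2, ℤ)) := by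
      intro q
      rw [MulAction.toPerm_apply, ma60_equiv_symm_smul]
      have h3 := hkey md32_U ((ma60_equiv hHG hrepG hrepH).symm (x, q))
      rw [md32_chi_sig_U hrepH hadH hnegH hχ', ma60_equiv_symm_fst, ma60_equiv_symm_snd] at h3
      linarith
    rw [Finset.sum_congr rfl (fun q _ => h2 q), Finset.sum_sub_distrib, hcsum,
      md32_chi_sig_U hrepG hadG hnegG hcor, sub_zero]
  -- the jump function upstairs
  have hJ : ∀ y, md32_J repH χ' y = χ' (ma60_h hHG hrepG hrepH y)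
      + χ' ((ct77_h (H.subgroupOf G) (ma60_sigG hrepG S (ma60_pi hHG ((S : SL(2, ℤ)) • y)))
          (ma60_q hHG hrepG hrepH ((S : SL(2, ℤ)) • y)) : G) : SL(2, ℤ))
      - χ' (ma60_h hHG hrepG hrepH ((S : SL(2, ℤ)) • y)) := by
    intro y
    rw [md32_J_eq_sig hnegH, hkey, hSSH]
  have h_i : ∑ y, χ' (ma60_h hHG hrepG hrepH y) * md32_v ρ cinf repH Φ y = 0 := by
    rw [← Equiv.sum_comp (ma60_equiv hHG hrepG hrepH).symm, Fintype.sum_prod_type]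
    have h1 : ∀ x : SL(2, ℤ) ⧸ G, ∑ q : G ⧸ H.subgroupOf G,
        χ' (ma60_h hHG hrepG hrepH ((ma60_equiv hHG hrepG hrepH).symm (x, q)))
          * md32_v ρ cinf repH Φ ((ma60_equiv hHG hrepG hrepH).symm (x, q))
        = (∑ q : G ⧸ H.subgroupOf G,
            χ' (ma60_h hHG hrepG hrepH ((ma60_equiv hHG hrepG hrepH).symm (x, q))))
          * md32_v ρ cinf repG Φ x := by
      intro x
      rw [Finset.sum_mul]
      refine Finset.sum_congr rfl fun q _ => ?_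
      rw [hv, ma60_equiv_symm_fst]
    rw [Finset.sum_congr rfl (fun x _ => h1 x)]
    exact md32_sum_U hFU (md32_v_U hax hrepG hΦ)
  have h_ii : ∑ y, χ' (ma60_h hHG hrepG hrepH ((S : SL(2, ℤ)) • y))
      * md32_v ρ cinf repH Φ y = 0 := by
    rw [md32_sum_S (f := fun y => χ' (ma60_h hHG hrepG hrepH y)) (md32_v_S hax hrepH hΦH),
      h_i, neg_zero]
  have h_iii : ∑ y, χ' ((ct77_h (H.subgroupOf G)
        (ma60_sigG hrepG S (ma60_pi hHG ((S : SL(2, ℤ)) • y)))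
        (ma60_q hHG hrepG hrepH ((S : SL(2, ℤ)) • y)) : G) : SL(2, ℤ))
      * md32_v ρ cinf repH Φ y = md32_B ρ cinf repG ψ Φ := by
    rw [← Equiv.sum_comp (MulAction.toPerm (S : SL(2, ℤ)))
      (fun y => χ' ((ct77_h (H.subgroupOf G)
        (ma60_sigG hrepG S (ma60_pi hHG ((S : SL(2, ℤ)) • y)))
        (ma60_q hHG hrepG hrepH ((S : SL(2, ℤ)) • y)) : G) : SL(2, ℤ))
      * md32_v ρ cinf repH Φ y)]
    simp only [MulAction.toPerm_apply, hSSH]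
    rw [← Equiv.sum_comp (ma60_equiv hHG hrepG hrepH).symm, Fintype.sum_prod_type, md32_B,
      ← Equiv.sum_comp (MulAction.toPerm (S : SL(2, ℤ)))
        (fun x => md32_J repG ψ x * md32_v ρ cinf repG Φ x)]
    refine Finset.sum_congr rfl fun x _ => ?_
    simp only [MulAction.toPerm_apply]
    rw [md32_J_eq_sig hnegG, hSSG, ← hcsum, Finset.sum_mul]
    refine Finset.sum_congr rfl fun q _ => ?_
    rw [ma60_equiv_symm_fst, ma60_equiv_symm_snd, hv, ma60_pi_smul, ma60_equiv_symm_fst]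
  rw [md32_B]
  simp only [hJ, add_mul, sub_mul, Finset.sum_add_distrib, Finset.sum_sub_distrib, h_i, h_ii,
    h_iii]
  ring

/-- **(B-I')** with the transfer `ma60_cores`. -/
theorem ma60_BI'_abs (hHG : H ≤ G) (hax : md32_CuspAx ρ cinf)
    (hnegH : (-1 : SL(2, ℤ)) ∈ H)
    {repG : SL(2, ℤ) ⧸ G → SL(2, ℤ)} (hrepG : ∀ x, (repG x : SL(2, ℤ) ⧸ G) = x)
    (hadG : md32_Adapted repG) {repH : SL(2, ℤ) ⧸ H → SL(2, ℤ)}
    (hrepH : ∀ y, (repH y : SL(2, ℤ) ⧸ H) = y) (hadH : md32_Adapted repH)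
    {χ' : SL(2, ℤ) → ℤ} (hχ' : md32_IsHom H χ') {Φ : C → C → ℤ} (hΦ : md32_IsSymb G ρ Φ) :
    md32_B ρ cinf repH χ' Φ = md32_B ρ cinf repG (ma60_cores H G χ') Φ :=
  ma60_BI'_gen hHG hax hnegH hrepG hadG hrepH hadH hχ' hΦ
    (fun _ hg => ma60_cores_of_mem χ' hg)

/-- **(B-I')** with the literal `dite` form of the transfer, for any decidability instance. -/
theorem ma60_BI'_dite [DecidablePred (fun g : SL(2, ℤ) => g ∈ G)] (hHG : H ≤ G)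
    (hax : md32_CuspAx ρ cinf) (hnegH : (-1 : SL(2, ℤ)) ∈ H)
    {repG : SL(2, ℤ) ⧸ G → SL(2, ℤ)} (hrepG : ∀ x, (repG x : SL(2, ℤ) ⧸ G) = x)
    (hadG : md32_Adapted repG) {repH : SL(2, ℤ) ⧸ H → SL(2, ℤ)}
    (hrepH : ∀ y, (repH y : SL(2, ℤ) ⧸ H) = y) (hadH : md32_Adapted repH)
    {χ' : SL(2, ℤ) → ℤ} (hχ' : md32_IsHom H χ') {Φ : C → C → ℤ} (hΦ : md32_IsSymb G ρ Φ) :
    md32_B ρ cinf repH χ' Φ = md32_B ρ cinf repG
      (fun g => if hg : g ∈ G then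
        ct77_nuTr (H.subgroupOf G) (fun x : G => χ' (x : SL(2, ℤ))) ⟨g, hg⟩ else 0) Φ :=
  ma60_BI'_gen hHG hax hnegH hrepG hadG hrepH hadH hχ' hΦ (fun _ hg => dif_pos hg)

end BI'

section Concrete

theorem ma60_neg_one_mem_Gamma0 (N : ℕ) : (-1 : SL(2, ℤ)) ∈ Gamma0 N := by
  rw [Gamma0_mem]
  simp

theorem ma60_Gamma0_le (M r : ℕ) : Gamma0 (M * r) ≤ Gamma0 M := by
  intro g hg
  rw [Gamma0_mem, ZMod.intCast_zmod_eq_zero_iff_dvd] at hg ⊢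
  exact (Int.natCast_dvd_natCast.mpr (dvd_mul_right M r)).trans hg

/-- a symbol of level `N` in the conventions of `SymbCore71` is a symbol for `Γ₀(N)` in the
conventions of `ManinDual32`. -/
theorem ma60_isSymb_curry {N : ℕ} {Φ : sc71_X → ℤ} (hΦ : sc71_IsSymb Φ)
    (hinv : tr43_Inv N Φ) : md32_IsSymb (Gamma0 N) psl96_rho (Function.curry Φ) :=
  ⟨fun a b c => hΦ a b c, fun γ hγ a b => hinv ⟨γ, hγ⟩ (a, b)⟩

variable {M r : ℕ} [Fintype (SL(2, ℤ) ⧸ Gamma0 M)] [Fintype (SL(2, ℤ) ⧸ Gamma0 (M * r))]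

/-- **(B-I)** for `Γ₀(M r) ≤ Γ₀(M)` and the trace `tr43_tr`:
`B_M(χ, tr Φ) = B_{M r}(χ, Φ)` for `χ` additive on `Γ₀(M)`, `Φ` a symbol of level `M r`, and
any adapted sections. -/
theorem ma60_BI (hr : r.Prime) (D : tr43_Data M r)
    {repG : SL(2, ℤ) ⧸ Gamma0 M → SL(2, ℤ)}
    (hrepG : ∀ x, (repG x : SL(2, ℤ) ⧸ Gamma0 M) = x) (hadG : md32_Adapted repG)
    {repH : SL(2, ℤ) ⧸ Gamma0 (M * r) → SL(2, ℤ)}
    (hrepH : ∀ y, (repH y : SL(2, ℤ) ⧸ Gamma0 (M * r)) = y) (hadH : md32_Adapted repH)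
    {χ : SL(2, ℤ) → ℤ} (hχ : md32_IsHom (Gamma0 M) χ)
    {Φ : sc71_X → ℤ} (hΦ : sc71_IsSymb Φ) (hinv : tr43_Inv (M * r) Φ) :
    md32_B psl96_rho (OnePoint.infty : OnePoint ℚ) repG χ (Function.curry (tr43_tr D Φ))
      = md32_B psl96_rho (OnePoint.infty : OnePoint ℚ) repH χ (Function.curry Φ) := by
  refine ma60_BI_reps (ma60_Gamma0_le M r) md32_cuspAx_rho (ma60_neg_one_mem_Gamma0 _)
    hrepG hadG hrepH hadH hχ (ma60_isSymb_curry hΦ hinv)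
    (fun i : Option (Fin r) => (D.rep i : SL(2, ℤ))) (fun i => (D.rep i).2) ?_ ?_ ?_
  · intro g hg
    obtain ⟨i, hi⟩ := cr98_rep_ex hr D ⟨g, hg⟩
    exact ⟨i, Subgroup.mem_subgroupOf.mp hi⟩
  · intro i j h
    exact cr98_rep_uniq hr D i j (Subgroup.mem_subgroupOf.mpr h)
  · intro a b
    show tr43_tr D Φ (a, b) = _
    rw [tr43_tr_apply]
    rfl

/-- **(B-I')** for `Γ₀(M r) ≤ Γ₀(M)`: `B_{M r}(χ', Φ) = B_M(cores χ', Φ)` for `χ'` additive on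
`Γ₀(M r)`, `Φ` a symbol of level `M`, and any adapted sections; `cores` is the transfer
`ct77_nuTr`, extended by zero outside `Γ₀(M)`. -/
theorem ma60_BI' [DecidablePred (fun g : SL(2, ℤ) => g ∈ Gamma0 M)]
    {repG : SL(2, ℤ) ⧸ Gamma0 M → SL(2, ℤ)}
    (hrepG : ∀ x, (repG x : SL(2, ℤ) ⧸ Gamma0 M) = x) (hadG : md32_Adapted repG)
    {repH : SL(2, ℤ) ⧸ Gamma0 (M * r) → SL(2, ℤ)}
    (hrepH : ∀ y, (repH y : SL(2, ℤ) ⧸ Gamma0 (M * r)) = y) (hadH : md32_Adapted repH)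
    {χ' : SL(2, ℤ) → ℤ} (hχ' : md32_IsHom (Gamma0 (M * r)) χ')
    {Φ : sc71_X → ℤ} (hΦ : sc71_IsSymb Φ) (hinv : tr43_Inv M Φ) :
    md32_B psl96_rho (OnePoint.infty : OnePoint ℚ) repH χ' (Function.curry Φ)
      = md32_B psl96_rho (OnePoint.infty : OnePoint ℚ) repG
        (fun g => if hg : g ∈ Gamma0 M then
          ct77_nuTr ((Gamma0 (M * r)).subgroupOf (Gamma0 M))
            (fun x : Gamma0 M => χ' (x : SL(2, ℤ))) ⟨g, hg⟩ else 0) (Function.curry Φ) :=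
  ma60_BI'_dite (ma60_Gamma0_le M r) md32_cuspAx_rho (ma60_neg_one_mem_Gamma0 _)
    hrepG hadG hrepH hadH hχ' (ma60_isSymb_curry hΦ hinv)

/-- **(B-I')** for `Γ₀(M r) ≤ Γ₀(M)`, with any function `ψ` equal to the transfer on
`Γ₀(M)`. -/
theorem ma60_BI'_of_eq
    {repG : SL(2, ℤ) ⧸ Gamma0 M → SL(2, ℤ)}
    (hrepG : ∀ x, (repG x : SL(2, ℤ) ⧸ Gamma0 M) = x) (hadG : md32_Adapted repG)
    {repH : SL(2, ℤ) ⧸ Gamma0 (M * r) → SL(2, ℤ)}
    (hrepH : ∀ y, (repH y : SL(2, ℤ) ⧸ Gamma0 (M * r)) = y) (hadH : md32_Adapted repH)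
    {χ' : SL(2, ℤ) → ℤ} (hχ' : md32_IsHom (Gamma0 (M * r)) χ')
    {Φ : sc71_X → ℤ} (hΦ : sc71_IsSymb Φ) (hinv : tr43_Inv M Φ) {ψ : SL(2, ℤ) → ℤ}
    (hψ : ∀ (g : SL(2, ℤ)) (hg : g ∈ Gamma0 M),
      ψ g = ct77_nuTr ((Gamma0 (M * r)).subgroupOf (Gamma0 M))
        (fun x : Gamma0 M => χ' (x : SL(2, ℤ))) ⟨g, hg⟩) :
    md32_B psl96_rho (OnePoint.infty : OnePoint ℚ) repH χ' (Function.curry Φ)
      = md32_B psl96_rho (OnePoint.infty : OnePoint ℚ) repG ψ (Function.curry Φ) :=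
  ma60_BI'_gen (ma60_Gamma0_le M r) md32_cuspAx_rho (ma60_neg_one_mem_Gamma0 _)
    hrepG hadG hrepH hadH hχ' (ma60_isSymb_curry hΦ hinv) hψ

end Concrete

end

end Fermat.Agent.S41
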