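/-
S41 / M3.D4b twin (helper45): perfectness of the Manin-model pairing
`B_T(χ, Φ) = ∑_x χ((sec x)⁻¹ S sec(S x)) Φ((sec x)⁻¹ S c∞, (sec x)⁻¹ c∞)`
between homomorphisms `χ : Γ → ℤ` and `ℤ`-valued modular symbols `Φ` for a finite index subgroup
`Γ ≤ SL(2, ℤ)` containing `-1`, modulo an odd prime `p`.

Everything is cocycle calculus on `X = SL(2, ℤ) ⧸ Γ`: a cocycle is `c : SL(2, ℤ) → X → A` with
`c (g h) x = c g (h x) + c h x`.
-/
import Mathlib
import Fermat.Agent.S41.PSL2Univ96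
import Fermat.Agent.S41.CupKappa96

set_option autoImplicit false

open scoped MatrixGroups
open ModularGroup Matrix

namespace Fermat.Agent.S41

/-- Induction over the generators `S`, `T` of `SL(2, ℤ)`. -/
theorem pd45_induction {P : SL(2, ℤ) → Prop} (hS : P S) (hT : P T) (h1 : P 1)
    (hmul : ∀ g h, P g → P h → P (g * h)) (hinv : ∀ g, P g → P g⁻¹) (g : SL(2, ℤ)) : P g := by
  have hg : g ∈ Subgroup.closure ({S, T} : Set SL(2, ℤ)) := by
    rw [SpecialLinearGroup.SL2Z_generators]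
    exact Subgroup.mem_top g
  induction hg using Subgroup.closure_induction with
  | mem x hx =>
    rcases hx with rfl | hx
    · exact hS
    · rw [Set.mem_singleton_iff] at hx
      rw [hx]
      exact hT
  | one => exact h1
  | mul x y _ _ hx hy => exact hmul x y hx hy
  | inv x _ hx => exact hinv x hx

section Coc

variable {Γ : Subgroup SL(2, ℤ)} {A : Type*} [AddCommGroup A]

/-- Cocycles on `X = SL(2, ℤ) ⧸ Γ`. -/
def pd45_IsCoc (c : SL(2, ℤ) → SL(2, ℤ) ⧸ Γ → A) : Prop :=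
  ∀ g h x, c (g * h) x = c g (h • x) + c h x

theorem pd45_coc_one {c : SL(2, ℤ) → SL(2, ℤ) ⧸ Γ → A} (hc : pd45_IsCoc c)
    (x : SL(2, ℤ) ⧸ Γ) : c 1 x = 0 := by
  have h := hc 1 1 x
  rw [mul_one, one_smul] at h
  exact left_eq_add.mp h

theorem pd45_coc_inv {c : SL(2, ℤ) → SL(2, ℤ) ⧸ Γ → A} (hc : pd45_IsCoc c)
    (g : SL(2, ℤ)) (x : SL(2, ℤ) ⧸ Γ) : c g⁻¹ x = - c g (g⁻¹ • x) := by
  have h := hc g g⁻¹ x
  rw [mul_inv_cancel, pd45_coc_one hc] at h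
  exact eq_neg_of_add_eq_zero_right h.symm

theorem pd45_SS (hneg : (-1 : SL(2, ℤ)) ∈ Γ) (x : SL(2, ℤ) ⧸ Γ) : S • S • x = x := by
  rw [← mul_smul, ← sq, psl96_S_sq, ck96_neg_one_smul Γ hneg]

theorem pd45_UUU (hneg : (-1 : SL(2, ℤ)) ∈ Γ) (x : SL(2, ℤ) ⧸ Γ) :
    (S * T) • (S * T) • (S * T) • x = x := by
  rw [← mul_smul, ← mul_smul, ← pow_three', psl96_U_cube, ck96_neg_one_smul Γ hneg]

theorem pd45_Sinv (hneg : (-1 : SL(2, ℤ)) ∈ Γ) (x : SL(2, ℤ) ⧸ Γ) : S⁻¹ • x = S • x := by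
  rw [inv_smul_eq_iff, pd45_SS hneg]

theorem pd45_coc_neg_one {c : SL(2, ℤ) → SL(2, ℤ) ⧸ Γ → A} (hc : pd45_IsCoc c)
    (hU : ∀ x, c (S * T) x = 0) (x : SL(2, ℤ) ⧸ Γ) : c (-1) x = 0 := by
  have h3 : ((S * T) * (S * T) * (S * T) : SL(2, ℤ)) = -1 := by
    rw [← pow_three']
    exact psl96_U_cube
  rw [← h3, hc, hc, hU, hU, hU, add_zero, add_zero]

theorem pd45_coc_neg {c : SL(2, ℤ) → SL(2, ℤ) ⧸ Γ → A} (hc : pd45_IsCoc c)
    (hU : ∀ x, c (S * T) x = 0) (g : SL(2, ℤ)) (x : SL(2, ℤ) ⧸ Γ) : c (-g) x = c g x := by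
  have h : (-g : SL(2, ℤ)) = (-1) * g := by rw [neg_one_mul]
  rw [h, hc, pd45_coc_neg_one hc hU, zero_add]

theorem pd45_coc_S_anti {c : SL(2, ℤ) → SL(2, ℤ) ⧸ Γ → A} (hc : pd45_IsCoc c)
    (hU : ∀ x, c (S * T) x = 0) (x : SL(2, ℤ) ⧸ Γ) : c S (S • x) = - c S x := by
  have h2 : (S * S : SL(2, ℤ)) = -1 := by
    rw [← sq]
    exact psl96_S_sq
  have h := hc S S x
  rw [h2, pd45_coc_neg_one hc hU] at h
  exact eq_neg_of_add_eq_zero_left h.symm

/-- Existence of a cocycle with prescribed values on `S` and `S * T`. -/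
theorem pd45_exists_coc (hneg : (-1 : SL(2, ℤ)) ∈ Γ) (a b : SL(2, ℤ) ⧸ Γ → A)
    (ha : ∀ x, a (S • x) + a x = 0)
    (hb : ∀ x, b ((S * T) • (S * T) • x) + b ((S * T) • x) + b x = 0) :
    ∃ c : SL(2, ℤ) → SL(2, ℤ) ⧸ Γ → A, pd45_IsCoc c ∧ (∀ x, c S x = a x) ∧
      ∀ x, c (S * T) x = b x := by
  let s' : ck96_Mon (SL(2, ℤ) ⧸ Γ) (Multiplicative A) :=
    ⟨MulAction.toPerm S, fun x => Multiplicative.ofAdd (a x)⟩
  let u' : ck96_Mon (SL(2, ℤ) ⧸ Γ) (Multiplicative A) :=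
    ⟨MulAction.toPerm (S * T), fun x => Multiplicative.ofAdd (b x)⟩
  have hs : s' ^ 2 = 1 := by
    rw [sq]
    ext x
    · simp [s', pd45_SS hneg]
    · change Multiplicative.ofAdd (a (S • x)) * Multiplicative.ofAdd (a x) = 1
      rw [← ofAdd_add, ha]
      rfl
  have hu : u' ^ 3 = 1 := by
    rw [pow_three']
    ext x
    · simp [u', pd45_UUU hneg]
    · change Multiplicative.ofAdd (b ((S * T) • (S * T) • x)) *
        Multiplicative.ofAdd (b ((S * T) • x)) * Multiplicative.ofAdd (b x) = 1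
      rw [← ofAdd_add, ← ofAdd_add, hb]
      rfl
  obtain ⟨Ψ, hΨS, hΨU⟩ := psl96_univ s' u' hs hu
  have hcomp : (ck96_Mon.permHom).comp Ψ = MulAction.toPermHom SL(2, ℤ) (SL(2, ℤ) ⧸ Γ) := by
    apply psl96_hom_ext
    · rw [MonoidHom.comp_apply, hΨS]
      rfl
    · rw [MonoidHom.comp_apply, hΨU]
      rfl
  have hperm : ∀ g x, (Ψ g).perm x = g • x := fun g x => by
    have := congrArg (fun m => m x) (DFunLike.congr_fun hcomp g)
    exact this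
  refine ⟨fun g x => Multiplicative.toAdd ((Ψ g).fn x), fun g h x => ?_, fun x => ?_, fun x => ?_⟩
  · simp only [map_mul, ck96_Mon.mul_fn, hperm, toAdd_mul]
  · simp only [hΨS]
    rfl
  · simp only [hΨU]
    rfl

end Coc

section Coeff

variable {Γ : Subgroup SL(2, ℤ)} [Fintype (SL(2, ℤ) ⧸ Γ)]

/-- The values of a `U`-normalised cocycle are integral linear combinations of its values on
`S`, with coefficients independent of the cocycle. -/
theorem pd45_coeff (g : SL(2, ℤ)) :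
    ∃ w : SL(2, ℤ) ⧸ Γ → SL(2, ℤ) ⧸ Γ → ℤ, ∀ c : SL(2, ℤ) → SL(2, ℤ) ⧸ Γ → ℤ,
      pd45_IsCoc c → (∀ x, c (S * T) x = 0) → ∀ x, c g x = ∑ y, w x y * c S y := by
  classical
  refine pd45_induction (P := fun g => ∃ w : SL(2, ℤ) ⧸ Γ → SL(2, ℤ) ⧸ Γ → ℤ,
    ∀ c : SL(2, ℤ) → SL(2, ℤ) ⧸ Γ → ℤ,
      pd45_IsCoc c → (∀ x, c (S * T) x = 0) → ∀ x, c g x = ∑ y, w x y * c S y) ?_ ?_ ?_ ?_ ?_ g
  · refine ⟨fun x y => if y = x then 1 else 0, fun c _ _ x => ?_⟩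
    simp
  · refine ⟨fun x y => if y = S⁻¹ • (S * T) • x then -1 else 0, fun c hc hU x => ?_⟩
    have hT : (T : SL(2, ℤ)) = S⁻¹ * (S * T) := by group
    have h1 : c T x = c S⁻¹ ((S * T) • x) + c (S * T) x := by
      conv_lhs => rw [hT]
      exact hc _ _ _
    rw [h1, hU, add_zero, pd45_coc_inv hc]
    simp
  · refine ⟨fun _ _ => 0, fun c hc _ x => ?_⟩
    rw [pd45_coc_one hc]
    simp
  · rintro g h ⟨wg, hg⟩ ⟨wh, hh⟩
    refine ⟨fun x y => wg (h • x) y + wh x y, fun c hc hU x => ?_⟩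
    rw [hc, hg c hc hU, hh c hc hU, ← Finset.sum_add_distrib]
    exact Finset.sum_congr rfl fun y _ => by ring
  · rintro g ⟨wg, hg⟩
    refine ⟨fun x y => - wg (g⁻¹ • x) y, fun c hc hU x => ?_⟩
    rw [pd45_coc_inv hc, hg c hc hU, ← Finset.sum_neg_distrib]
    exact Finset.sum_congr rfl fun y _ => by ring

/-- Reindexing a sum over `X` along `S`. -/
theorem pd45_sum_S (F : SL(2, ℤ) ⧸ Γ → ℤ) :
    ∑ x, F (S • x) = ∑ x, F x :=
  Equiv.sum_comp (MulAction.toPerm (S : SL(2, ℤ))) F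

/-- Reindexing a sum over `X` along `U = S * T`. -/
theorem pd45_sum_U (F : SL(2, ℤ) ⧸ Γ → ℤ) :
    ∑ x, F ((S * T) • x) = ∑ x, F x :=
  Equiv.sum_comp (MulAction.toPerm (S * T : SL(2, ℤ))) F

/-- **The cycle of `γ ∈ Γ`.** There is a Manin vector `v` (antisymmetric under `S`, with
vanishing `U`-orbit sums) such that `2 c γ x₀ = ∑ v y * c S y` for all `U`-normalised
cocycles `c`. -/
theorem pd45_cycle (hneg : (-1 : SL(2, ℤ)) ∈ Γ) (γ : SL(2, ℤ)) (hγ : γ ∈ Γ) :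
    ∃ v : SL(2, ℤ) ⧸ Γ → ℤ, (∀ x, v (S • x) = - v x) ∧
      (∀ x, v x + v ((S * T) • x) + v ((S * T) • (S * T) • x) = 0) ∧
      ∀ c : SL(2, ℤ) → SL(2, ℤ) ⧸ Γ → ℤ, pd45_IsCoc c → (∀ x, c (S * T) x = 0) →
        2 * c γ ((1 : SL(2, ℤ)) : SL(2, ℤ) ⧸ Γ) = ∑ y, v y * c S y := by
  classical
  obtain ⟨w, hw⟩ := pd45_coeff (Γ := Γ) γ
  set x0 : SL(2, ℤ) ⧸ Γ := ((1 : SL(2, ℤ)) : SL(2, ℤ) ⧸ Γ) with hx0
  set v : SL(2, ℤ) ⧸ Γ → ℤ := fun y => w x0 y - w x0 (S • y) with hv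
  have hanti : ∀ x, v (S • x) = - v x := fun x => by
    simp only [hv, pd45_SS hneg]
    ring
  have hmain : ∀ c : SL(2, ℤ) → SL(2, ℤ) ⧸ Γ → ℤ, pd45_IsCoc c → (∀ x, c (S * T) x = 0) →
      2 * c γ x0 = ∑ y, v y * c S y := fun c hc hU => by
    have h1 : ∑ y, w x0 (S • y) * c S y = - ∑ y, w x0 y * c S y := by
      rw [← pd45_sum_S (fun y => w x0 y * c S y), ← Finset.sum_neg_distrib]
      refine Finset.sum_congr rfl fun y _ => ?_
      rw [pd45_coc_S_anti hc hU]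
      ring
    have h2 : ∑ y, v y * c S y = ∑ y, w x0 y * c S y - ∑ y, w x0 (S • y) * c S y := by
      rw [← Finset.sum_sub_distrib]
      exact Finset.sum_congr rfl fun y _ => by simp only [hv]; ring
    rw [h2, h1, hw c hc hU x0]
    ring
  refine ⟨v, hanti, fun x => ?_, hmain⟩
  -- Kirchhoff: test against the coboundary of a `U`-invariant function
  set e : SL(2, ℤ) ⧸ Γ → ℤ := fun y => if y = x then 1 else 0 with he
  set f : SL(2, ℤ) ⧸ Γ → ℤ := fun y => e y + e ((S * T) • y) + e ((S * T) • (S * T) • y) with hf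
  have hfU : ∀ y, f ((S * T) • y) = f y := fun y => by
    simp only [hf, pd45_UUU hneg]
    ring
  set c : SL(2, ℤ) → SL(2, ℤ) ⧸ Γ → ℤ := fun g y => f (g • y) - f y with hcdef
  have hc : pd45_IsCoc c := fun g h y => by
    simp only [hcdef, mul_smul]
    ring
  have hcU : ∀ y, c (S * T) y = 0 := fun y => by
    simp only [hcdef, hfU, sub_self]
  have hγ0 : c γ x0 = 0 := by
    have : γ • x0 = x0 := ck96_base_fix (⟨γ, hγ⟩ : Γ)
    simp only [hcdef, this, sub_self]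
  have h0 := hmain c hc hcU
  rw [hγ0, mul_zero] at h0
  have h1 : ∑ y, v y * f (S • y) = - ∑ y, v y * f y := by
    rw [← pd45_sum_S (fun y => v y * f y), ← Finset.sum_neg_distrib]
    refine Finset.sum_congr rfl fun y _ => ?_
    rw [hanti]
    ring
  have h2 : ∑ y, v y * c S y = ∑ y, v y * f (S • y) - ∑ y, v y * f y := by
    rw [← Finset.sum_sub_distrib]
    exact Finset.sum_congr rfl fun y _ => by simp only [hcdef]; ring
  have h3 : ∑ y, v y * f y = 0 := by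
    rw [h2, h1] at h0
    linarith
  have e1 : ∑ y, v y * e y = v x := by
    simp [he]
  have e2 : ∑ y, v y * e ((S * T) • y) = v ((S * T) • (S * T) • x) := by
    have : ∀ y, e ((S * T) • y) = if y = (S * T) • (S * T) • x then 1 else 0 := fun y => by
      simp only [he]
      congr 1
      apply propext
      constructor
      · intro h
        rw [← h, pd45_UUU hneg]
      · intro h
        rw [h, pd45_UUU hneg]
    simp [this]
  have e3 : ∑ y, v y * e ((S * T) • (S * T) • y) = v ((S * T) • x) := by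
    have : ∀ y, e ((S * T) • (S * T) • y) = if y = (S * T) • x then 1 else 0 := fun y => by
      simp only [he]
      congr 1
      apply propext
      constructor
      · intro h
        rw [← h, pd45_UUU hneg]
      · intro h
        rw [h, pd45_UUU hneg]
    simp [this]
  have h4 : ∑ y, v y * f y = v x + v ((S * T) • (S * T) • x) + v ((S * T) • x) := by
    rw [← e1, ← e2, ← e3, ← Finset.sum_add_distrib, ← Finset.sum_add_distrib]
    exact Finset.sum_congr rfl fun y _ => by simp only [hf]; ring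
  rw [h4] at h3
  linarith

end Coeff

section Hom

variable {Γ : Subgroup SL(2, ℤ)}

/-- `χ` is additive on `Γ`. -/
def pd45_IsHom (Γ : Subgroup SL(2, ℤ)) (χ : SL(2, ℤ) → ℤ) : Prop :=
  ∀ a ∈ Γ, ∀ b ∈ Γ, χ (a * b) = χ a + χ b

theorem pd45_hom_one {χ : SL(2, ℤ) → ℤ} (hχ : pd45_IsHom Γ χ) : χ 1 = 0 := by
  have h := hχ 1 Γ.one_mem 1 Γ.one_mem
  rw [mul_one] at h
  linarith

theorem pd45_hom_neg_one (hneg : (-1 : SL(2, ℤ)) ∈ Γ) {χ : SL(2, ℤ) → ℤ}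
    (hχ : pd45_IsHom Γ χ) : χ (-1) = 0 := by
  have h := hχ (-1) hneg (-1) hneg
  have h1 : ((-1 : SL(2, ℤ)) * -1) = 1 := by simp
  rw [h1, pd45_hom_one hχ] at h
  linarith

theorem pd45_hom_inv {χ : SL(2, ℤ) → ℤ} (hχ : pd45_IsHom Γ χ) {a : SL(2, ℤ)} (ha : a ∈ Γ) :
    χ a⁻¹ = - χ a := by
  have h := hχ a⁻¹ (Γ.inv_mem ha) a ha
  rw [inv_mul_cancel, pd45_hom_one hχ] at h
  linarith

/-- The Shapiro cocycle of `χ`. -/
def pd45_cchi (sec : SL(2, ℤ) ⧸ Γ → SL(2, ℤ)) (χ : SL(2, ℤ) → ℤ) (g : SL(2, ℤ))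
    (x : SL(2, ℤ) ⧸ Γ) : ℤ :=
  χ ((sec (g • x))⁻¹ * g * sec x)

theorem pd45_gam_mem {sec : SL(2, ℤ) ⧸ Γ → SL(2, ℤ)} (hsec : ck96_IsSection Γ sec)
    (g : SL(2, ℤ)) (x : SL(2, ℤ) ⧸ Γ) : (sec (g • x))⁻¹ * g * sec x ∈ Γ :=
  (ck96_gam hsec g x).2

theorem pd45_cchi_coc {sec : SL(2, ℤ) ⧸ Γ → SL(2, ℤ)} (hsec : ck96_IsSection Γ sec)
    {χ : SL(2, ℤ) → ℤ} (hχ : pd45_IsHom Γ χ) : pd45_IsCoc (pd45_cchi sec χ) := by
  intro g h x
  have h1 : (sec ((g * h) • x))⁻¹ * (g * h) * sec x =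
      ((sec (g • h • x))⁻¹ * g * sec (h • x)) * ((sec (h • x))⁻¹ * h * sec x) := by
    rw [mul_smul]
    group
  unfold pd45_cchi
  rw [h1, hχ _ (pd45_gam_mem hsec g (h • x)) _ (pd45_gam_mem hsec h x)]

/-- `U`-adapted sections. -/
def pd45_UAdapted (sec : SL(2, ℤ) ⧸ Γ → SL(2, ℤ)) : Prop :=
  ∀ x, (S * T) • x ≠ x →
    sec ((S * T) • x) = (S * T) * sec x ∨ sec ((S * T) • x) = -((S * T) * sec x)

theorem pd45_cchi_U {sec : SL(2, ℤ) ⧸ Γ → SL(2, ℤ)} (hsec : ck96_IsSection Γ sec)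
    (hneg : (-1 : SL(2, ℤ)) ∈ Γ) (hrep : pd45_UAdapted sec)
    {χ : SL(2, ℤ) → ℤ} (hχ : pd45_IsHom Γ χ) (x : SL(2, ℤ) ⧸ Γ) :
    pd45_cchi sec χ (S * T) x = 0 := by
  unfold pd45_cchi
  by_cases hx : (S * T) • x = x
  · have hmem := pd45_gam_mem hsec (S * T) x
    rw [hx] at hmem ⊢
    set g0 : SL(2, ℤ) := (sec x)⁻¹ * (S * T) * sec x with hg0
    have h3 : g0 * g0 * g0 = -1 := by
      have h3' : ((S * T) * (S * T) * (S * T) : SL(2, ℤ)) = -1 := by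
        rw [← pow_three']
        exact psl96_U_cube
      have : g0 * g0 * g0 = (sec x)⁻¹ * ((S * T) * (S * T) * (S * T)) * sec x := by
        rw [hg0]
        group
      rw [this, h3']
      simp
    have h4 := hχ (g0 * g0) (Γ.mul_mem hmem hmem) g0 hmem
    rw [hχ g0 hmem g0 hmem, h3, pd45_hom_neg_one hneg hχ] at h4
    linarith
  · rcases hrep x hx with h | h
    · rw [h]
      have : ((S * T) * sec x)⁻¹ * (S * T) * sec x = 1 := by group
      rw [this, pd45_hom_one hχ]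
    · rw [h]
      have : (-((S * T) * sec x))⁻¹ * (S * T) * sec x = -1 := by
        rw [inv_neg, neg_mul, neg_mul, mul_assoc, inv_mul_cancel]
      rw [this, pd45_hom_neg_one hneg hχ]

theorem pd45_sec_base {sec : SL(2, ℤ) ⧸ Γ → SL(2, ℤ)} (hsec : ck96_IsSection Γ sec) :
    sec ((1 : SL(2, ℤ)) : SL(2, ℤ) ⧸ Γ) ∈ Γ := by
  have h := QuotientGroup.eq.mp (hsec ((1 : SL(2, ℤ)) : SL(2, ℤ) ⧸ Γ))
  have h' := Γ.inv_mem h
  simpa using h'

theorem pd45_cchi_base {sec : SL(2, ℤ) ⧸ Γ → SL(2, ℤ)} (hsec : ck96_IsSection Γ sec)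
    {χ : SL(2, ℤ) → ℤ} (hχ : pd45_IsHom Γ χ) {γ : SL(2, ℤ)} (hγ : γ ∈ Γ) :
    pd45_cchi sec χ γ ((1 : SL(2, ℤ)) : SL(2, ℤ) ⧸ Γ) = χ γ := by
  have hfix : γ • ((1 : SL(2, ℤ)) : SL(2, ℤ) ⧸ Γ) = ((1 : SL(2, ℤ)) : SL(2, ℤ) ⧸ Γ) :=
    ck96_base_fix (⟨γ, hγ⟩ : Γ)
  have hr := pd45_sec_base hsec
  unfold pd45_cchi
  rw [hfix, hχ _ (Γ.mul_mem (Γ.inv_mem hr) hγ) _ hr, hχ _ (Γ.inv_mem hr) _ hγ,
    pd45_hom_inv hχ hr]
  ring

theorem pd45_cchi_S (hneg : (-1 : SL(2, ℤ)) ∈ Γ) (sec : SL(2, ℤ) ⧸ Γ → SL(2, ℤ))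
    (χ : SL(2, ℤ) → ℤ) (x : SL(2, ℤ) ⧸ Γ) :
    pd45_cchi sec χ S (S • x) = χ ((sec x)⁻¹ * S * sec (S • x)) := by
  unfold pd45_cchi
  rw [pd45_SS hneg]

/-- **(PD2), Manin-vector form.** -/
theorem pd45_PD2_vec [Fintype (SL(2, ℤ) ⧸ Γ)] {sec : SL(2, ℤ) ⧸ Γ → SL(2, ℤ)}
    (hsec : ck96_IsSection Γ sec) (hneg : (-1 : SL(2, ℤ)) ∈ Γ) (hrep : pd45_UAdapted sec)
    {χ : SL(2, ℤ) → ℤ} (hχ : pd45_IsHom Γ χ) {p : ℕ} (hp : p.Prime) (hp2 : p ≠ 2)
    (h : ∀ v : SL(2, ℤ) ⧸ Γ → ℤ, (∀ x, v (S • x) = - v x) →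
      (∀ x, v x + v ((S * T) • x) + v ((S * T) • (S * T) • x) = 0) →
      (p : ℤ) ∣ ∑ x, χ ((sec x)⁻¹ * S * sec (S • x)) * v x) :
    ∀ γ ∈ Γ, (p : ℤ) ∣ χ γ := by
  intro γ hγ
  obtain ⟨v, hv1, hv2, hv3⟩ := pd45_cycle hneg γ hγ
  have h1 := hv3 (pd45_cchi sec χ) (pd45_cchi_coc hsec hχ) (pd45_cchi_U hsec hneg hrep hχ)
  rw [pd45_cchi_base hsec hχ hγ] at h1
  have h2 : ∑ x, χ ((sec x)⁻¹ * S * sec (S • x)) * v x = - ∑ y, v y * pd45_cchi sec χ S y := by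
    rw [← pd45_sum_S (fun y => v y * pd45_cchi sec χ S y), ← Finset.sum_neg_distrib]
    refine Finset.sum_congr rfl fun x _ => ?_
    rw [pd45_cchi_S hneg, hv1]
    ring
  have h3 := h v hv1 hv2
  rw [h2, ← h1] at h3
  have hcop : IsCoprime (p : ℤ) (2 : ℤ) := by
    have : Nat.Coprime p 2 := (Nat.coprime_primes hp Nat.prime_two).mpr hp2
    exact_mod_cast Nat.isCoprime_iff_coprime.mpr this
  have h4 : (p : ℤ) ∣ 2 * χ γ := (dvd_neg).mp h3
  exact hcop.dvd_of_dvd_mul_left h4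

/-- **Homomorphisms with prescribed `S`-cocycle** (up to the coboundary of a `U`-invariant
function, which is invisible to Manin vectors). -/
theorem pd45_hom_onto [Fintype (SL(2, ℤ) ⧸ Γ)] {sec : SL(2, ℤ) ⧸ Γ → SL(2, ℤ)}
    (hsec : ck96_IsSection Γ sec) (hneg : (-1 : SL(2, ℤ)) ∈ Γ) (hrep : pd45_UAdapted sec)
    (J : SL(2, ℤ) ⧸ Γ → ℤ) (hJ : ∀ x, J (S • x) = - J x) :
    ∃ χ : SL(2, ℤ) → ℤ, pd45_IsHom Γ χ ∧
      ∀ v : SL(2, ℤ) ⧸ Γ → ℤ, (∀ x, v (S • x) = - v x) →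
        (∀ x, v x + v ((S * T) • x) + v ((S * T) • (S * T) • x) = 0) →
        ∑ x, χ ((sec x)⁻¹ * S * sec (S • x)) * v x = ∑ x, J x * v x := by
  classical
  obtain ⟨c, hc, hcS, hcU⟩ := pd45_exists_coc hneg (fun x => - J x) (fun _ => (0 : ℤ))
    (fun x => by rw [hJ]; ring) (fun x => by ring)
  set x0 : SL(2, ℤ) ⧸ Γ := ((1 : SL(2, ℤ)) : SL(2, ℤ) ⧸ Γ) with hx0
  have hfix : ∀ b ∈ Γ, b • x0 = x0 := fun b hb => ck96_base_fix (⟨b, hb⟩ : Γ)
  have hχ : pd45_IsHom Γ (fun g => c g x0) := fun a _ b hb => by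
    change c (a * b) x0 = c a x0 + c b x0
    rw [hc, hfix b hb]
  refine ⟨fun g => c g x0, hχ, fun v hv1 hv2 => ?_⟩
  have hsecx : ∀ x, sec x • x0 = x := fun x => by
    rw [hx0, MulAction.Quotient.smul_mk, smul_eq_mul, mul_one]
    exact hsec x
  set h : SL(2, ℤ) ⧸ Γ → ℤ := fun x => c (sec x) x0 with hh
  -- the Shapiro cocycle of `χ` is cohomologous to `c`
  have hcoh : ∀ g x, c ((sec (g • x))⁻¹ * g * sec x) x0 = c g x + h x - h (g • x) := fun g x => by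
    have e1 : (sec (g • x))⁻¹ * g * sec x = (sec (g • x))⁻¹ * (g * sec x) := by group
    rw [e1, hc, hc, mul_smul, hsecx, pd45_coc_inv hc]
    have e2 : (sec (g • x))⁻¹ • g • x = x0 := by
      rw [inv_smul_eq_iff, hsecx]
    rw [e2]
    simp only [hh]
    ring
  have hhU : ∀ x, h ((S * T) • x) = h x := fun x => by
    by_cases hx : (S * T) • x = x
    · rw [hx]
    · simp only [hh]
      rcases hrep x hx with h' | h'
      · rw [h', hc, hcU, zero_add]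
      · rw [h', pd45_coc_neg hc hcU, hc, hcU, zero_add]
  have hterm : ∀ x, c ((sec x)⁻¹ * S * sec (S • x)) x0 = J x + h (S • x) - h x := fun x => by
    have := hcoh S (S • x)
    rw [pd45_SS hneg] at this
    rw [this, hcS, hJ]
    ring
  have hhv : ∑ x, h x * v x = 0 := by
    have e1 : ∑ x, h x * v ((S * T) • x) = ∑ x, h x * v x := by
      rw [← pd45_sum_U (fun x => h x * v x)]
      exact Finset.sum_congr rfl fun x _ => by rw [hhU]
    have e2 : ∑ x, h x * v ((S * T) • (S * T) • x) = ∑ x, h x * v x := by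
      rw [← e1, ← pd45_sum_U (fun x => h x * v ((S * T) • x))]
      exact Finset.sum_congr rfl fun x _ => by rw [hhU]
    have e3 : ∑ x, h x * v x + ∑ x, h x * v ((S * T) • x) +
        ∑ x, h x * v ((S * T) • (S * T) • x) = 0 := by
      rw [← Finset.sum_add_distrib, ← Finset.sum_add_distrib]
      refine Finset.sum_eq_zero fun x _ => ?_
      rw [← mul_add, ← mul_add, hv2, mul_zero]
    rw [e1, e2] at e3
    linarith
  have hhSv : ∑ x, h (S • x) * v x = - ∑ x, h x * v x := by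
    rw [← pd45_sum_S (fun x => h x * v x), ← Finset.sum_neg_distrib]
    exact Finset.sum_congr rfl fun x _ => by rw [hv1]; ring
  have : ∑ x, c ((sec x)⁻¹ * S * sec (S • x)) x0 * v x =
      ∑ x, J x * v x + ∑ x, h (S • x) * v x - ∑ x, h x * v x := by
    rw [← Finset.sum_add_distrib, ← Finset.sum_sub_distrib]
    exact Finset.sum_congr rfl fun x _ => by rw [hterm]; ring
  rw [this, hhSv, hhv]
  ring

end Hom

section Symb

variable {Γ : Subgroup SL(2, ℤ)} {C : Type*} [MulAction SL(2, ℤ) C]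

/-- `ℤ`-valued modular symbols for `Γ` on a cusp set `C`. -/
def pd45_IsSymb (Γ : Subgroup SL(2, ℤ)) (Φ : C → C → ℤ) : Prop :=
  (∀ a b c, Φ a b + Φ b c = Φ a c) ∧ ∀ γ ∈ Γ, ∀ a b, Φ (γ • a) (γ • b) = Φ a b

/-- The Manin values of a symbol. -/
def pd45_mv (sec : SL(2, ℤ) ⧸ Γ → SL(2, ℤ)) (cinf : C) (Φ : C → C → ℤ)
    (x : SL(2, ℤ) ⧸ Γ) : ℤ :=
  Φ ((sec x)⁻¹ • S • cinf) ((sec x)⁻¹ • cinf)

theorem pd45_symb_self {Φ : C → C → ℤ} (hΦ : pd45_IsSymb Γ Φ) (a : C) : Φ a a = 0 := by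
  have h := hΦ.1 a a a
  linarith

theorem pd45_symb_swap {Φ : C → C → ℤ} (hΦ : pd45_IsSymb Γ Φ) (a b : C) : Φ b a = - Φ a b := by
  have h := hΦ.1 a b a
  rw [pd45_symb_self hΦ] at h
  linarith

theorem pd45_symb_add {Φ Ψ : C → C → ℤ} (hΦ : pd45_IsSymb Γ Φ) (hΨ : pd45_IsSymb Γ Ψ) :
    pd45_IsSymb Γ (Φ + Ψ) := by
  refine ⟨fun a b c => ?_, fun γ hγ a b => ?_⟩
  · have h1 := hΦ.1 a b c
    have h2 := hΨ.1 a b c
    simp only [Pi.add_apply]
    linarith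
  · simp only [Pi.add_apply]
    rw [hΦ.2 γ hγ, hΨ.2 γ hγ]

theorem pd45_symb_zero : pd45_IsSymb Γ (0 : C → C → ℤ) :=
  ⟨fun _ _ _ => by simp, fun _ _ _ _ => rfl⟩

theorem pd45_symb_neg {Φ : C → C → ℤ} (hΦ : pd45_IsSymb Γ Φ) : pd45_IsSymb Γ (-Φ) := by
  refine ⟨fun a b c => ?_, fun γ hγ a b => ?_⟩
  · have h1 := hΦ.1 a b c
    simp only [Pi.neg_apply]
    linarith
  · simp only [Pi.neg_apply]
    rw [hΦ.2 γ hγ]

theorem pd45_symb_nsmul {Φ : C → C → ℤ} (hΦ : pd45_IsSymb Γ Φ) (n : ℕ) :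
    pd45_IsSymb Γ (n • Φ) := by
  induction n with
  | zero => rw [zero_smul]; exact pd45_symb_zero
  | succ n ih => rw [succ_nsmul]; exact pd45_symb_add ih hΦ

/-- `-1` acts trivially on the cusps. -/
theorem pd45_neg_smul (cinf : C) (hnegC : (-1 : SL(2, ℤ)) • cinf = cinf) (g : SL(2, ℤ)) :
    (-g) • cinf = g • cinf := by
  have h : (-g : SL(2, ℤ)) = g * (-1) := by rw [mul_neg, mul_one]
  rw [h, mul_smul, hnegC]

theorem pd45_Sinv_cusp (cinf : C) (hnegC : (-1 : SL(2, ℤ)) • cinf = cinf) :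
    (S⁻¹ : SL(2, ℤ)) • cinf = S • cinf := by
  have h : (S⁻¹ : SL(2, ℤ)) = -S := by
    apply inv_eq_of_mul_eq_one_right
    rw [mul_neg, ← sq, psl96_S_sq, neg_neg]
  rw [h, pd45_neg_smul cinf hnegC]

/-- The cocycle of a symbol. -/
def pd45_csym (sec : SL(2, ℤ) ⧸ Γ → SL(2, ℤ)) (cinf : C) (Φ : C → C → ℤ) (g : SL(2, ℤ))
    (x : SL(2, ℤ) ⧸ Γ) : ℤ :=
  Φ ((sec x)⁻¹ • cinf) ((sec x)⁻¹ • g⁻¹ • cinf)

theorem pd45_csym_coc {sec : SL(2, ℤ) ⧸ Γ → SL(2, ℤ)} (hsec : ck96_IsSection Γ sec) (cinf : C)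
    {Φ : C → C → ℤ} (hΦ : pd45_IsSymb Γ Φ) : pd45_IsCoc (pd45_csym sec cinf Φ) := by
  intro g h x
  unfold pd45_csym
  have hγ := pd45_gam_mem hsec h x
  have e1 : (sec (h • x))⁻¹ = ((sec (h • x))⁻¹ * h * sec x) * ((sec x)⁻¹ * h⁻¹) := by group
  have e2 : ∀ d : C, (sec (h • x))⁻¹ • d =
      ((sec (h • x))⁻¹ * h * sec x) • ((sec x)⁻¹ • h⁻¹ • d) := fun d => by
    rw [← mul_smul, ← mul_smul, mul_assoc ((sec (h • x))⁻¹ * h * sec x), ← e1]
  rw [e2 cinf, e2 (g⁻¹ • cinf), hΦ.2 _ hγ, _root_.mul_inv_rev, mul_smul, add_comm]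
  exact (hΦ.1 _ _ _).symm

theorem pd45_csym_T (sec : SL(2, ℤ) ⧸ Γ → SL(2, ℤ)) (cinf : C) (hT : (T : SL(2, ℤ)) • cinf = cinf)
    {Φ : C → C → ℤ} (hΦ : pd45_IsSymb Γ Φ) (x : SL(2, ℤ) ⧸ Γ) :
    pd45_csym sec cinf Φ T x = 0 := by
  unfold pd45_csym
  have h : (T⁻¹ : SL(2, ℤ)) • cinf = cinf := by rw [inv_smul_eq_iff, hT]
  rw [h, pd45_symb_self hΦ]

theorem pd45_csym_S (sec : SL(2, ℤ) ⧸ Γ → SL(2, ℤ)) (cinf : C)
    (hnegC : (-1 : SL(2, ℤ)) • cinf = cinf)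
    {Φ : C → C → ℤ} (hΦ : pd45_IsSymb Γ Φ) (x : SL(2, ℤ) ⧸ Γ) :
    pd45_csym sec cinf Φ S x = - pd45_mv sec cinf Φ x := by
  unfold pd45_csym pd45_mv
  rw [pd45_Sinv_cusp cinf hnegC, pd45_symb_swap hΦ]

theorem pd45_csym_neg_one (sec : SL(2, ℤ) ⧸ Γ → SL(2, ℤ)) (cinf : C)
    (hnegC : (-1 : SL(2, ℤ)) • cinf = cinf)
    {Φ : C → C → ℤ} (hΦ : pd45_IsSymb Γ Φ) (x : SL(2, ℤ) ⧸ Γ) :
    pd45_csym sec cinf Φ (-1) x = 0 := by
  unfold pd45_csym
  have h : ((-1 : SL(2, ℤ))⁻¹) • cinf = cinf := by rw [inv_smul_eq_iff, hnegC]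
  rw [h, pd45_symb_self hΦ]

/-- Manin values are antisymmetric under `S`. -/
theorem pd45_mv_S {sec : SL(2, ℤ) ⧸ Γ → SL(2, ℤ)} (hsec : ck96_IsSection Γ sec)
    (cinf : C) (hnegC : (-1 : SL(2, ℤ)) • cinf = cinf)
    {Φ : C → C → ℤ} (hΦ : pd45_IsSymb Γ Φ) (x : SL(2, ℤ) ⧸ Γ) :
    pd45_mv sec cinf Φ (S • x) = - pd45_mv sec cinf Φ x := by
  have hc := pd45_csym_coc hsec cinf hΦ
  have h2 : (S * S : SL(2, ℤ)) = -1 := by
    rw [← sq]
    exact psl96_S_sq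
  have h := hc S S x
  rw [h2, pd45_csym_neg_one sec cinf hnegC hΦ, pd45_csym_S sec cinf hnegC hΦ,
    pd45_csym_S sec cinf hnegC hΦ] at h
  linarith

/-- Manin values have vanishing `U`-orbit sums. -/
theorem pd45_mv_U {sec : SL(2, ℤ) ⧸ Γ → SL(2, ℤ)} (hsec : ck96_IsSection Γ sec)
    (hneg : (-1 : SL(2, ℤ)) ∈ Γ)
    (cinf : C) (hT : (T : SL(2, ℤ)) • cinf = cinf) (hnegC : (-1 : SL(2, ℤ)) • cinf = cinf)
    {Φ : C → C → ℤ} (hΦ : pd45_IsSymb Γ Φ) (x : SL(2, ℤ) ⧸ Γ) :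
    pd45_mv sec cinf Φ x + pd45_mv sec cinf Φ ((S * T) • x) +
      pd45_mv sec cinf Φ ((S * T) • (S * T) • x) = 0 := by
  have hc := pd45_csym_coc hsec cinf hΦ
  -- `c (S T) y = - mv (T y)` and `T y = S (U y)`
  have hU : ∀ y, pd45_csym sec cinf Φ (S * T) y = pd45_mv sec cinf Φ ((S * T) • y) := fun y => by
    rw [hc, pd45_csym_T sec cinf hT hΦ, add_zero, pd45_csym_S sec cinf hnegC hΦ]
    have hTy : (T : SL(2, ℤ)) • y = S • (S * T) • y := by
      have : (T : SL(2, ℤ)) = S⁻¹ * (S * T) := by group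
      conv_lhs => rw [this]
      rw [mul_smul, pd45_Sinv hneg]
    rw [hTy, pd45_mv_S hsec cinf hnegC hΦ, neg_neg]
  have h3 : ((S * T) * (S * T) * (S * T) : SL(2, ℤ)) = -1 := by
    rw [← pow_three']
    exact psl96_U_cube
  have h := hc ((S * T) * (S * T)) (S * T) x
  rw [h3, pd45_csym_neg_one sec cinf hnegC hΦ, hc, hU, hU, hU, pd45_UUU hneg] at h
  linarith

/-- **Manin's trick.** A symbol whose Manin values are divisible by `m` is divisible by `m`. -/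
theorem pd45_symb_ext {sec : SL(2, ℤ) ⧸ Γ → SL(2, ℤ)} (hsec : ck96_IsSection Γ sec)
    (cinf : C) (hT : (T : SL(2, ℤ)) • cinf = cinf) (hnegC : (-1 : SL(2, ℤ)) • cinf = cinf)
    (htrans : ∀ c : C, ∃ g : SL(2, ℤ), g • cinf = c)
    {Φ : C → C → ℤ} (hΦ : pd45_IsSymb Γ Φ) (m : ℤ) (h : ∀ x, m ∣ pd45_mv sec cinf Φ x) :
    ∀ a b, m ∣ Φ a b := by
  have hc := pd45_csym_coc hsec cinf hΦ
  have hall : ∀ g : SL(2, ℤ), ∀ x, m ∣ pd45_csym sec cinf Φ g x := by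
    intro g
    refine pd45_induction (P := fun g => ∀ x, m ∣ pd45_csym sec cinf Φ g x) ?_ ?_ ?_ ?_ ?_ g
    · intro x
      rw [pd45_csym_S sec cinf hnegC hΦ]
      exact (dvd_neg).mpr (h x)
    · intro x
      rw [pd45_csym_T sec cinf hT hΦ]
      exact dvd_zero m
    · intro x
      rw [pd45_coc_one hc]
      exact dvd_zero m
    · intro g k hg hk x
      rw [hc]
      exact dvd_add (hg _) (hk _)
    · intro g hg x
      rw [pd45_coc_inv hc]
      exact (dvd_neg).mpr (hg _)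
  have hbase : ∀ g : SL(2, ℤ), m ∣ Φ cinf (g • cinf) := by
    intro g
    have h1 := hall g⁻¹ ((1 : SL(2, ℤ)) : SL(2, ℤ) ⧸ Γ)
    unfold pd45_csym at h1
    have hr := Γ.inv_mem (pd45_sec_base hsec)
    rw [inv_inv, hΦ.2 _ hr] at h1
    exact h1
  intro a b
  obtain ⟨g, rfl⟩ := htrans a
  obtain ⟨k, rfl⟩ := htrans b
  have e : Φ (g • cinf) (k • cinf) = Φ cinf (k • cinf) - Φ cinf (g • cinf) := by
    have := hΦ.1 cinf (g • cinf) (k • cinf)
    linarith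
  rw [e]
  exact dvd_sub (hbase k) (hbase g)

/-- **Every Manin vector comes from a symbol.** -/
theorem pd45_symb_onto {sec : SL(2, ℤ) ⧸ Γ → SL(2, ℤ)} (hsec : ck96_IsSection Γ sec)
    (hneg : (-1 : SL(2, ℤ)) ∈ Γ) (cinf : C)
    (htrans : ∀ c : C, ∃ g : SL(2, ℤ), g • cinf = c)
    (hstab : ∀ g : SL(2, ℤ), g • cinf = cinf → ∃ k : ℤ, g = T ^ k ∨ g = -T ^ k)
    (v : SL(2, ℤ) ⧸ Γ → ℤ) (hv1 : ∀ x, v (S • x) = - v x)
    (hv2 : ∀ x, v x + v ((S * T) • x) + v ((S * T) • (S * T) • x) = 0) :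
    ∃ Φ : C → C → ℤ, pd45_IsSymb Γ Φ ∧ ∀ x, pd45_mv sec cinf Φ x = v x := by
  obtain ⟨c, hc, hcS, hcU⟩ := pd45_exists_coc hneg (fun x => - v x) (fun x => v ((S * T) • x))
    (fun x => by rw [hv1]; ring)
    (fun x => by
      have := hv2 x
      rw [pd45_UUU hneg]
      linarith)
  set x0 : SL(2, ℤ) ⧸ Γ := ((1 : SL(2, ℤ)) : SL(2, ℤ) ⧸ Γ) with hx0
  have hfix : ∀ b ∈ Γ, b • x0 = x0 := fun b hb => ck96_base_fix (⟨b, hb⟩ : Γ)
  have hsecx : ∀ x, sec x • x0 = x := fun x => by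
    rw [hx0, MulAction.Quotient.smul_mk, smul_eq_mul, mul_one]
    exact hsec x
  -- the subgroup on which `c` vanishes
  let K : Subgroup SL(2, ℤ) :=
    { carrier := {g | ∀ x, c g x = 0}
      mul_mem' := fun {a b} ha hb x => by rw [hc, ha, hb, add_zero]
      one_mem' := fun x => pd45_coc_one hc x
      inv_mem' := fun {a} ha x => by rw [pd45_coc_inv hc, ha, neg_zero] }
  have hKT : (T : SL(2, ℤ)) ∈ K := fun x => by
    have hTe : (T : SL(2, ℤ)) = S⁻¹ * (S * T) := by group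
    have h1 : c T x = c S⁻¹ ((S * T) • x) + c (S * T) x := by
      conv_lhs => rw [hTe]
      exact hc _ _ _
    rw [h1, pd45_coc_inv hc, hcS, hcU, pd45_Sinv hneg, hv1]
    ring
  have hKneg : (-1 : SL(2, ℤ)) ∈ K := fun x => by
    have h2 : (S * S : SL(2, ℤ)) = -1 := by
      rw [← sq]
      exact psl96_S_sq
    rw [← h2, hc, hcS, hcS, hv1]
    ring
  have hKstab : ∀ t : SL(2, ℤ), t • cinf = cinf → t ∈ K := fun t ht => by
    obtain ⟨k, hk | hk⟩ := hstab t ht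
    · rw [hk]
      exact K.zpow_mem hKT k
    · rw [hk, ← neg_one_mul]
      exact K.mul_mem hKneg (K.zpow_mem hKT k)
  -- the potential
  set pot : C → ℤ := fun a => c (Classical.choose (htrans a))⁻¹ x0 with hpot
  have hpotg : ∀ g : SL(2, ℤ), pot (g • cinf) = c g⁻¹ x0 := fun g => by
    have hg' := Classical.choose_spec (htrans (g • cinf))
    set g' := Classical.choose (htrans (g • cinf)) with hg'def
    have ht : (g⁻¹ * g') • cinf = cinf := by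
      rw [mul_smul, hg', inv_smul_smul]
    have htK : (g⁻¹ * g')⁻¹ ∈ K := K.inv_mem (hKstab _ ht)
    have e : g'⁻¹ = (g⁻¹ * g')⁻¹ * g⁻¹ := by group
    change c g'⁻¹ x0 = c g⁻¹ x0
    rw [e, hc, htK, zero_add]
  refine ⟨fun a b => pot b - pot a, ⟨fun a b d => by ring, fun γ hγ a b => ?_⟩, fun x => ?_⟩
  · obtain ⟨g, rfl⟩ := htrans a
    obtain ⟨k, rfl⟩ := htrans b
    have hshift : ∀ g : SL(2, ℤ), pot (γ • g • cinf) = pot (g • cinf) + c γ⁻¹ x0 := fun g => by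
      rw [← mul_smul, hpotg, hpotg, _root_.mul_inv_rev, hc, hfix _ (Γ.inv_mem hγ)]
    change pot (γ • k • cinf) - pot (γ • g • cinf) = pot (k • cinf) - pot (g • cinf)
    rw [hshift, hshift]
    ring
  · unfold pd45_mv
    have e1 : (sec x)⁻¹ • S • cinf = ((sec x)⁻¹ * S) • cinf := by rw [mul_smul]
    change pot ((sec x)⁻¹ • cinf) - pot ((sec x)⁻¹ • S • cinf) = v x
    rw [e1, hpotg, hpotg, _root_.mul_inv_rev, inv_inv, hc, hsecx, pd45_coc_inv hc, hcS,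
      pd45_Sinv hneg, hv1]
    ring

end Symb

section Main

variable {Γ : Subgroup SL(2, ℤ)} {C : Type*} [MulAction SL(2, ℤ) C]

/-- The Manin-model pairing `B_T(χ, Φ)` (for `Φ a b = pot b - pot a` this is the right-hand
side of `br96_bridge`). -/
noncomputable def pd45_BT (Γ : Subgroup SL(2, ℤ)) (sec : SL(2, ℤ) ⧸ Γ → SL(2, ℤ)) (cinf : C)
    (χ : SL(2, ℤ) → ℤ) (Φ : C → C → ℤ) : ℤ :=
  ∑ᶠ x : SL(2, ℤ) ⧸ Γ, χ ((sec x)⁻¹ * S * sec (S • x)) * pd45_mv sec cinf Φ x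

theorem pd45_BT_eq_sum [Fintype (SL(2, ℤ) ⧸ Γ)] (sec : SL(2, ℤ) ⧸ Γ → SL(2, ℤ)) (cinf : C)
    (χ : SL(2, ℤ) → ℤ) (Φ : C → C → ℤ) :
    pd45_BT Γ sec cinf χ Φ = ∑ x, χ ((sec x)⁻¹ * S * sec (S • x)) * pd45_mv sec cinf Φ x :=
  finsum_eq_sum_of_fintype _

theorem pd45_BT_eq_finsum (sec : SL(2, ℤ) ⧸ Γ → SL(2, ℤ)) (cinf : C)
    (χ : SL(2, ℤ) → ℤ) (Φ : C → C → ℤ) :
    pd45_BT Γ sec cinf χ Φ = ∑ᶠ x : SL(2, ℤ) ⧸ Γ, χ ((sec x)⁻¹ * S * sec (S • x)) *
      Φ ((sec x)⁻¹ • S • cinf) ((sec x)⁻¹ • cinf) := rfl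

/-- **(PD2).** A homomorphism `χ` on `Γ` whose pairing with every symbol is divisible by the
odd prime `p` is divisible by `p`. -/
theorem pd45_PD2 [Finite (SL(2, ℤ) ⧸ Γ)] {sec : SL(2, ℤ) ⧸ Γ → SL(2, ℤ)}
    (hsec : ck96_IsSection Γ sec) (hneg : (-1 : SL(2, ℤ)) ∈ Γ) (hrep : pd45_UAdapted sec)
    (cinf : C) (htrans : ∀ c : C, ∃ g : SL(2, ℤ), g • cinf = c)
    (hstab : ∀ g : SL(2, ℤ), g • cinf = cinf → ∃ k : ℤ, g = T ^ k ∨ g = -T ^ k)
    {χ : SL(2, ℤ) → ℤ} (hχ : pd45_IsHom Γ χ) {p : ℕ} (hp : p.Prime) (hp2 : p ≠ 2)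
    (h : ∀ Φ : C → C → ℤ, pd45_IsSymb Γ Φ → (p : ℤ) ∣ pd45_BT Γ sec cinf χ Φ) :
    ∀ γ ∈ Γ, (p : ℤ) ∣ χ γ := by
  classical
  let _ : Fintype (SL(2, ℤ) ⧸ Γ) := Fintype.ofFinite _
  refine pd45_PD2_vec hsec hneg hrep hχ hp hp2 fun v hv1 hv2 => ?_
  obtain ⟨Φ, hΦ, hmv⟩ := pd45_symb_onto hsec hneg cinf htrans hstab v hv1 hv2
  have h1 := h Φ hΦ
  rw [pd45_BT_eq_sum] at h1
  simpa only [hmv] using h1

theorem pd45_odd_dvd {p : ℕ} (hp : p.Prime) (hp2 : p ≠ 2) {a : ℤ} (h : (p : ℤ) ∣ 2 * a) :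
    (p : ℤ) ∣ a := by
  have hcop : IsCoprime (p : ℤ) (2 : ℤ) := by
    have : Nat.Coprime p 2 := (Nat.coprime_primes hp Nat.prime_two).mpr hp2
    exact_mod_cast Nat.isCoprime_iff_coprime.mpr this
  exact hcop.dvd_of_dvd_mul_left h

/-- **(PD3).** A symbol whose pairing with every homomorphism is divisible by the odd prime `p`
is divisible by `p`. -/
theorem pd45_PD3 [Finite (SL(2, ℤ) ⧸ Γ)] {sec : SL(2, ℤ) ⧸ Γ → SL(2, ℤ)}
    (hsec : ck96_IsSection Γ sec) (hneg : (-1 : SL(2, ℤ)) ∈ Γ) (hrep : pd45_UAdapted sec)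
    (cinf : C) (hT : (T : SL(2, ℤ)) • cinf = cinf) (hnegC : (-1 : SL(2, ℤ)) • cinf = cinf)
    (htrans : ∀ c : C, ∃ g : SL(2, ℤ), g • cinf = c)
    {Φ : C → C → ℤ} (hΦ : pd45_IsSymb Γ Φ) {p : ℕ} (hp : p.Prime) (hp2 : p ≠ 2)
    (h : ∀ χ : SL(2, ℤ) → ℤ, pd45_IsHom Γ χ → (p : ℤ) ∣ pd45_BT Γ sec cinf χ Φ) :
    ∀ a b, (p : ℤ) ∣ Φ a b := by
  classical
  let _ : Fintype (SL(2, ℤ) ⧸ Γ) := Fintype.ofFinite _
  refine pd45_symb_ext hsec cinf hT hnegC htrans hΦ (p : ℤ) fun x1 => ?_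
  set v := pd45_mv sec cinf Φ with hv
  have hv1 : ∀ x, v (S • x) = - v x := pd45_mv_S hsec cinf hnegC hΦ
  have hv2 : ∀ x, v x + v ((S * T) • x) + v ((S * T) • (S * T) • x) = 0 :=
    pd45_mv_U hsec hneg cinf hT hnegC hΦ
  set e : SL(2, ℤ) ⧸ Γ → ℤ := fun y => if y = x1 then 1 else 0 with he
  obtain ⟨χ, hχ, hχv⟩ := pd45_hom_onto hsec hneg hrep (fun y => e y - e (S • y))
    (fun y => by simp only [pd45_SS hneg]; ring)
  have h1 := h χ hχ
  rw [pd45_BT_eq_sum, hχv v hv1 hv2] at h1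
  have e1 : ∑ y, e y * v y = v x1 := by simp [he]
  have e2 : ∑ y, e (S • y) * v y = - v x1 := by
    have : ∑ y, e (S • y) * v y = ∑ y, e y * v (S • y) := by
      rw [← pd45_sum_S (fun y => e y * v (S • y))]
      exact Finset.sum_congr rfl fun y _ => by rw [pd45_SS hneg]
    rw [this]
    simp [he, hv1]
  have e3 : ∑ y, (e y - e (S • y)) * v y = 2 * v x1 := by
    have : ∑ y, (e y - e (S • y)) * v y = ∑ y, e y * v y - ∑ y, e (S • y) * v y := by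
      rw [← Finset.sum_sub_distrib]
      exact Finset.sum_congr rfl fun y _ => by ring
    rw [this, e1, e2]
    ring
  rw [e3] at h1
  exact pd45_odd_dvd hp hp2 h1

/-- **(PD1).** Every additive functional on symbols with values in `ZMod p` (`p` an odd prime)
is `Φ ↦ B_T(χ, Φ) mod p` for a homomorphism `χ` on `Γ`. -/
theorem pd45_PD1 [Finite (SL(2, ℤ) ⧸ Γ)] {sec : SL(2, ℤ) ⧸ Γ → SL(2, ℤ)}
    (hsec : ck96_IsSection Γ sec) (hneg : (-1 : SL(2, ℤ)) ∈ Γ) (hrep : pd45_UAdapted sec)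
    (cinf : C) (hT : (T : SL(2, ℤ)) • cinf = cinf) (hnegC : (-1 : SL(2, ℤ)) • cinf = cinf)
    (htrans : ∀ c : C, ∃ g : SL(2, ℤ), g • cinf = c)
    {p : ℕ} (hp : p.Prime) (hp2 : p ≠ 2) (lam : (C → C → ℤ) → ZMod p)
    (hlam : ∀ Φ Ψ : C → C → ℤ, pd45_IsSymb Γ Φ → pd45_IsSymb Γ Ψ →
      lam (Φ + Ψ) = lam Φ + lam Ψ) :
    ∃ χ : SL(2, ℤ) → ℤ, pd45_IsHom Γ χ ∧ ∀ Φ : C → C → ℤ, pd45_IsSymb Γ Φ →
      ((pd45_BT Γ sec cinf χ Φ : ℤ) : ZMod p) = lam Φ := by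
  classical
  let _ : Fintype (SL(2, ℤ) ⧸ Γ) := Fintype.ofFinite _
  have : Fact p.Prime := ⟨hp⟩
  -- elementary properties of `lam`
  have hlam0 : lam 0 = 0 := by
    have h := hlam 0 0 pd45_symb_zero pd45_symb_zero
    rw [add_zero] at h
    exact left_eq_add.mp h
  have hlamneg : ∀ Φ : C → C → ℤ, pd45_IsSymb Γ Φ → lam (-Φ) = - lam Φ := fun Φ hΦ => by
    have h := hlam Φ (-Φ) hΦ (pd45_symb_neg hΦ)
    rw [add_neg_cancel, hlam0] at h
    exact eq_neg_of_add_eq_zero_right h.symm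
  have hlamn : ∀ (n : ℕ) (Φ : C → C → ℤ), pd45_IsSymb Γ Φ → lam (n • Φ) = n • lam Φ := by
    intro n Φ hΦ
    induction n with
    | zero => rw [zero_smul, zero_smul, hlam0]
    | succ n ih => rw [succ_nsmul, succ_nsmul, hlam _ _ (pd45_symb_nsmul hΦ n) hΦ, ih]
  -- the graph of `lam` over the Manin values mod `p`
  let red : (C → C → ℤ) → (SL(2, ℤ) ⧸ Γ → ZMod p) × ZMod p :=
    fun Φ => (fun x => ((pd45_mv sec cinf Φ x : ℤ) : ZMod p), lam Φ)
  let Gr : AddSubgroup ((SL(2, ℤ) ⧸ Γ → ZMod p) × ZMod p) :=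
    { carrier := {w | ∃ Φ : C → C → ℤ, pd45_IsSymb Γ Φ ∧ w = red Φ}
      add_mem' := by
        rintro _ _ ⟨Φ, hΦ, rfl⟩ ⟨Ψ, hΨ, rfl⟩
        refine ⟨Φ + Ψ, pd45_symb_add hΦ hΨ, ?_⟩
        refine Prod.ext (funext fun x => ?_) (hlam Φ Ψ hΦ hΨ).symm
        simp [red, pd45_mv]
      zero_mem' := by
        refine ⟨0, pd45_symb_zero, ?_⟩
        refine Prod.ext (funext fun x => ?_) hlam0.symm
        simp [red, pd45_mv]
      neg_mem' := by
        rintro _ ⟨Φ, hΦ, rfl⟩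
        refine ⟨-Φ, pd45_symb_neg hΦ, ?_⟩
        refine Prod.ext (funext fun x => ?_) (hlamneg Φ hΦ).symm
        simp [red, pd45_mv] }
  have hnot : ((0 : SL(2, ℤ) ⧸ Γ → ZMod p), (1 : ZMod p)) ∉ AddSubgroup.toZModSubmodule p Gr := by
    rintro ⟨Φ, hΦ, hw⟩
    have hw1 : ∀ x, ((pd45_mv sec cinf Φ x : ℤ) : ZMod p) = 0 := fun x =>
      (congrFun (congrArg Prod.fst hw) x).symm
    have hw2 : lam Φ = 1 := (congrArg Prod.snd hw).symm
    have hdiv : ∀ a b, (p : ℤ) ∣ Φ a b :=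
      pd45_symb_ext hsec cinf hT hnegC htrans hΦ (p : ℤ)
        fun x => (ZMod.intCast_zmod_eq_zero_iff_dvd _ p).mp (hw1 x)
    have hp0 : (p : ℤ) ≠ 0 := by exact_mod_cast hp.ne_zero
    let Θ : C → C → ℤ := fun a b => Φ a b / p
    have hΘe : ∀ a b, (p : ℤ) * Θ a b = Φ a b := fun a b => Int.mul_ediv_cancel' (hdiv a b)
    have hΘ : pd45_IsSymb Γ Θ := by
      refine ⟨fun a b c => ?_, fun γ hγ a b => ?_⟩
      · apply mul_left_cancel₀ hp0
        rw [mul_add, hΘe, hΘe, hΘe]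
        exact hΦ.1 a b c
      · apply mul_left_cancel₀ hp0
        rw [hΘe, hΘe]
        exact hΦ.2 γ hγ a b
    have hΦΘ : Φ = p • Θ := by
      funext a b
      simp only [Pi.smul_apply, nsmul_eq_mul]
      exact (hΘe a b).symm
    rw [hΦΘ, hlamn p Θ hΘ] at hw2
    simp at hw2
  obtain ⟨F, hF1, hF2⟩ := Submodule.exists_le_ker_of_notMem hnot
  set u : ZMod p := F (0, 1) with hu
  let G : (SL(2, ℤ) ⧸ Γ → ZMod p) →ₗ[ZMod p] ZMod p :=
    F.comp (LinearMap.inl (ZMod p) (SL(2, ℤ) ⧸ Γ → ZMod p) (ZMod p))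
  set a : SL(2, ℤ) ⧸ Γ → ZMod p := fun x => - G (fun j => if x = j then 1 else 0) * u⁻¹ with ha
  have hlamF : ∀ Φ : C → C → ℤ, pd45_IsSymb Γ Φ →
      lam Φ = ∑ x, a x * ((pd45_mv sec cinf Φ x : ℤ) : ZMod p) := fun Φ hΦ => by
    have hmem : red Φ ∈ AddSubgroup.toZModSubmodule p Gr := ⟨Φ, hΦ, rfl⟩
    have h0 : F (red Φ) = 0 := hF2 hmem
    have hsplit : red Φ = LinearMap.inl (ZMod p) (SL(2, ℤ) ⧸ Γ → ZMod p) (ZMod p)
        (fun x => ((pd45_mv sec cinf Φ x : ℤ) : ZMod p)) +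
        lam Φ • ((0 : SL(2, ℤ) ⧸ Γ → ZMod p), (1 : ZMod p)) := by
      refine Prod.ext ?_ ?_
      · simp [red]
      · simp [red]
    rw [hsplit, map_add, map_smul, ← hu] at h0
    have hG : F (LinearMap.inl (ZMod p) (SL(2, ℤ) ⧸ Γ → ZMod p) (ZMod p)
        (fun x => ((pd45_mv sec cinf Φ x : ℤ) : ZMod p))) =
        ∑ x, ((pd45_mv sec cinf Φ x : ℤ) : ZMod p) * G (fun j => if x = j then 1 else 0) := by
      have := LinearMap.pi_apply_eq_sum_univ G (fun x => ((pd45_mv sec cinf Φ x : ℤ) : ZMod p))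
      simp only [smul_eq_mul] at this
      exact this
    rw [hG, smul_eq_mul] at h0
    have h1 : lam Φ = - (∑ x, ((pd45_mv sec cinf Φ x : ℤ) : ZMod p) *
        G (fun j => if x = j then 1 else 0)) * u⁻¹ := by
      have h2 : lam Φ * u = - ∑ x, ((pd45_mv sec cinf Φ x : ℤ) : ZMod p) *
          G (fun j => if x = j then 1 else 0) := by
        linear_combination h0
      rw [← h2, mul_assoc, mul_inv_cancel₀ hF1, mul_one]
    rw [h1, ← Finset.sum_neg_distrib, Finset.sum_mul]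
    refine Finset.sum_congr rfl fun x _ => ?_
    simp only [ha]
    ring
  -- integer lifts of `a / 2`
  have h2ne : (2 : ZMod p) ≠ 0 := by
    intro h
    have h' : ((2 : ℕ) : ZMod p) = 0 := by exact_mod_cast h
    rw [ZMod.natCast_eq_zero_iff] at h'
    exact hp2 ((Nat.prime_dvd_prime_iff_eq hp Nat.prime_two).mp h')
  set al : SL(2, ℤ) ⧸ Γ → ℤ := fun x => ((a x / 2 : ZMod p).val : ℤ) with hal
  have halc : ∀ x, ((al x : ℤ) : ZMod p) = a x / 2 := fun x => by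
    simp only [hal]
    rw [Int.cast_natCast, ZMod.natCast_zmod_val]
  obtain ⟨χ, hχ, hχv⟩ := pd45_hom_onto hsec hneg hrep (fun y => al y - al (S • y))
    (fun y => by simp only [pd45_SS hneg]; ring)
  refine ⟨χ, hχ, fun Φ hΦ => ?_⟩
  set v := pd45_mv sec cinf Φ with hv
  have hv1 : ∀ x, v (S • x) = - v x := pd45_mv_S hsec cinf hnegC hΦ
  have hv2 : ∀ x, v x + v ((S * T) • x) + v ((S * T) • (S * T) • x) = 0 :=
    pd45_mv_U hsec hneg cinf hT hnegC hΦ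
  rw [pd45_BT_eq_sum, hχv v hv1 hv2, hlamF Φ hΦ]
  have e2 : ∑ y, al (S • y) * v y = - ∑ y, al y * v y := by
    rw [← pd45_sum_S (fun y => al y * v y), ← Finset.sum_neg_distrib]
    exact Finset.sum_congr rfl fun y _ => by rw [hv1]; ring
  have e3 : ∑ y, (al y - al (S • y)) * v y = 2 * ∑ y, al y * v y := by
    have : ∑ y, (al y - al (S • y)) * v y = ∑ y, al y * v y - ∑ y, al (S • y) * v y := by
      rw [← Finset.sum_sub_distrib]
      exact Finset.sum_congr rfl fun y _ => by ring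
    rw [this, e2]
    ring
  rw [e3]
  push_cast
  rw [Finset.mul_sum]
  refine Finset.sum_congr rfl fun x _ => ?_
  rw [halc]
  simp only [hv]
  field_simp

end Main

section Sec

variable {Γ : Subgroup SL(2, ℤ)}

/-- **Existence of `U`-adapted sections.** -/
theorem pd45_exists_sec (hneg : (-1 : SL(2, ℤ)) ∈ Γ) :
    ∃ sec : SL(2, ℤ) ⧸ Γ → SL(2, ℤ), ck96_IsSection Γ sec ∧ pd45_UAdapted sec := by
  classical
  have hU3 : ∀ x : SL(2, ℤ) ⧸ Γ, (S * T) • (S * T) • (S * T) • x = x := pd45_UUU hneg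
  -- the `U`-orbit relation
  let r : Setoid (SL(2, ℤ) ⧸ Γ) :=
    { r := fun x y => y = x ∨ y = (S * T) • x ∨ y = (S * T) • (S * T) • x
      iseqv :=
        { refl := fun x => Or.inl rfl
          symm := by
            rintro x y (h | h | h)
            · exact Or.inl h.symm
            · exact Or.inr (Or.inr (by rw [h, hU3]))
            · exact Or.inr (Or.inl (by rw [h, hU3]))
          trans := by
            rintro x y z (h1 | h1 | h1) (h2 | h2 | h2)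
            · exact Or.inl (by rw [h2, h1])
            · exact Or.inr (Or.inl (by rw [h2, h1]))
            · exact Or.inr (Or.inr (by rw [h2, h1]))
            · exact Or.inr (Or.inl (by rw [h2, h1]))
            · exact Or.inr (Or.inr (by rw [h2, h1]))
            · exact Or.inl (by rw [h2, h1, hU3])
            · exact Or.inr (Or.inr (by rw [h2, h1]))
            · exact Or.inl (by rw [h2, h1, hU3])
            · exact Or.inr (Or.inl (by rw [h2, h1, hU3])) } }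
  let b : SL(2, ℤ) ⧸ Γ → SL(2, ℤ) ⧸ Γ := fun x => (Quotient.mk r x).out
  have hb : ∀ x, x = b x ∨ x = (S * T) • b x ∨ x = (S * T) • (S * T) • b x := fun x =>
    Quotient.mk_out (s := r) x
  have hbU : ∀ x, b ((S * T) • x) = b x := fun x => by
    have : Quotient.mk r ((S * T) • x) = Quotient.mk r x :=
      Quotient.sound (s := r) (Or.inr (Or.inr (by rw [hU3])))
    simp only [b, this]
  let out' : SL(2, ℤ) ⧸ Γ → SL(2, ℤ) := Quotient.out
  have hout : ∀ y : SL(2, ℤ) ⧸ Γ, ((out' y : SL(2, ℤ)) : SL(2, ℤ) ⧸ Γ) = y := fun y =>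
    Quotient.out_eq' y
  have hmk : ∀ (g : SL(2, ℤ)) (y : SL(2, ℤ) ⧸ Γ),
      ((g * out' y : SL(2, ℤ)) : SL(2, ℤ) ⧸ Γ) = g • y := fun g y => by
    conv_rhs => rw [← hout y]
    rfl
  let sec : SL(2, ℤ) ⧸ Γ → SL(2, ℤ) := fun x =>
    if x = b x then out' (b x) else
      if x = (S * T) • b x then (S * T) * out' (b x) else (S * T) * ((S * T) * out' (b x))
  refine ⟨sec, fun x => ?_, fun x hx => ?_⟩
  · simp only [sec]
    split_ifs with h1 h2
    · rw [hout]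
      exact h1.symm
    · rw [hmk]
      exact h2.symm
    · have e : (((S * T) * ((S * T) * out' (b x)) : SL(2, ℤ)) : SL(2, ℤ) ⧸ Γ) =
          (S * T) • (S * T) • b x := by
        conv_rhs => rw [← hout (b x)]
        rfl
      rw [e]
      rcases hb x with h | h | h
      · exact absurd h h1
      · exact absurd h h2
      · exact h.symm
  · -- `U`-adaptedness
    have hbx := hbU x
    rcases hb x with h | h | h
    · -- `x = b x`
      have h1 : sec x = out' (b x) := by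
        simp only [sec]
        rw [if_pos h]
      have hUx1 : ¬ (S * T) • x = b ((S * T) • x) := by
        rw [hbx]
        intro h'
        exact hx (h'.trans h.symm)
      have hUx2 : (S * T) • x = (S * T) • b ((S * T) • x) := by
        rw [hbx, ← h]
      have h2 : sec ((S * T) • x) = (S * T) * out' (b x) := by
        simp only [sec]
        rw [if_neg hUx1, if_pos hUx2, hbx]
      exact Or.inl (by rw [h1, h2])
    · -- `x = U (b x)`
      have hne : ¬ x = b x := by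
        intro h'
        apply hx
        conv_rhs => rw [h]
        rw [← h']
      have h1 : sec x = (S * T) * out' (b x) := by
        simp only [sec]
        rw [if_neg hne, if_pos h]
      have hUx1 : ¬ (S * T) • x = b ((S * T) • x) := by
        rw [hbx]
        intro h'
        -- `U x = b x` and `x = U (b x)` give `U U (b x) = b x`, so `U (b x) = b x`
        apply hne
        have e1 : (S * T) • (S * T) • b x = b x := by rw [← h]; exact h'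
        have e2 : (S * T) • b x = b x := by
          have := hU3 (b x)
          rw [e1] at this
          exact this
        exact h.trans e2
      have hUx2 : ¬ (S * T) • x = (S * T) • b ((S * T) • x) := by
        rw [hbx]
        intro h'
        exact hne (smul_left_cancel _ h')
      have h2 : sec ((S * T) • x) = (S * T) * ((S * T) * out' (b x)) := by
        simp only [sec]
        rw [if_neg hUx1, if_neg hUx2, hbx]
      exact Or.inl (by rw [h1, h2])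
    · -- `x = U U (b x)`
      have hUxb : (S * T) • x = b x := by
        conv_lhs => rw [h]
        exact hU3 (b x)
      have hne1 : ¬ x = b x := by
        intro h'
        apply hx
        rw [hUxb]
        exact h'.symm
      have hne2 : ¬ x = (S * T) • b x := by
        intro h'
        apply hx
        -- `U x = b x`, `x = U (b x)`: then `x = U (U x)`, `U x = U U U x = x`
        have e1 : x = (S * T) • (S * T) • x := by
          conv_lhs => rw [h', ← hUxb]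
        have e2 := hU3 x
        rw [← e1] at e2
        exact e2
      have h1 : sec x = (S * T) * ((S * T) * out' (b x)) := by
        simp only [sec]
        rw [if_neg hne1, if_neg hne2]
      have hUx1 : (S * T) • x = b ((S * T) • x) := by
        rw [hbx, hUxb]
      have h2 : sec ((S * T) • x) = out' (b x) := by
        simp only [sec]
        rw [if_pos hUx1, hbx]
      refine Or.inr ?_
      rw [h1, h2]
      have h3 : ((S * T) * ((S * T) * ((S * T) * out' (b x))) : SL(2, ℤ)) = - out' (b x) := by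
        have h3' : ((S * T) * (S * T) * (S * T) : SL(2, ℤ)) = -1 := by
          rw [← pow_three']
          exact psl96_U_cube
        rw [← mul_assoc, ← mul_assoc, h3', neg_one_mul]
      rw [h3, neg_neg]

end Sec

end Fermat.Agent.S41
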