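/-
S41 / M3.D4b (helper32), service file for the L8 / L9 packaging.

* additivity of `md32_B` in both variables (plain functions);
* `md32_B_indep`: the Manin-model pairing does not depend on the `U`-adapted section;
* the dictionary between the curried symbols `md32_Symb (Gamma0 M) psl96_rho` and the plain
  symbols `Φ : OnePoint ℚ × OnePoint ℚ → ℤ` with `slp10_IsSymb M Φ`;
* operators on plain symbols as additive maps on `md32_Symb` (`md32_opHom`), in particular the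
  trace, the Atkin-Lehner operator, the Hecke operators and the restriction.
-/
import Mathlib
import Fermat.Agent.S41.ManinInst32
import Fermat.Agent.S41.SymbLatticeP10
import Fermat.Agent.S41.SymbCore71

set_option autoImplicit false

open scoped MatrixGroups
open ModularGroup Matrix CongruenceSubgroup

namespace Fermat.Agent.S41

noncomputable section

section Additivity

variable {Γ : Subgroup SL(2, ℤ)} [Fintype (SL(2, ℤ) ⧸ Γ)] {C : Type*}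
  (ρ : SL(2, ℤ) →* Equiv.Perm C) (cinf : C) (rep : SL(2, ℤ) ⧸ Γ → SL(2, ℤ))

theorem md32_B_add_hom (χ χ' : SL(2, ℤ) → ℤ) (Φ : C → C → ℤ) :
    md32_B ρ cinf rep (χ + χ') Φ = md32_B ρ cinf rep χ Φ + md32_B ρ cinf rep χ' Φ := by
  simp only [md32_B, md32_J, Pi.add_apply, add_mul, Finset.sum_add_distrib]

theorem md32_B_add_symb (χ : SL(2, ℤ) → ℤ) (Φ Φ' : C → C → ℤ) :
    md32_B ρ cinf rep χ (Φ + Φ') = md32_B ρ cinf rep χ Φ + md32_B ρ cinf rep χ Φ' := by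
  simp only [md32_B, md32_v, Pi.add_apply, mul_add, Finset.sum_add_distrib]

theorem md32_B_zsmul_hom (n : ℤ) (χ : SL(2, ℤ) → ℤ) (Φ : C → C → ℤ) :
    md32_B ρ cinf rep (n • χ) Φ = n * md32_B ρ cinf rep χ Φ := by
  simp only [md32_B, md32_J, Pi.smul_apply, smul_eq_mul, Finset.mul_sum, mul_assoc]

theorem md32_B_zsmul_symb (n : ℤ) (χ : SL(2, ℤ) → ℤ) (Φ : C → C → ℤ) :
    md32_B ρ cinf rep χ (n • Φ) = n * md32_B ρ cinf rep χ Φ := by
  simp only [md32_B, md32_v, Pi.smul_apply, smul_eq_mul, Finset.mul_sum]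
  exact Finset.sum_congr rfl (fun x _ => by ring)

theorem md32_B_neg_hom (χ : SL(2, ℤ) → ℤ) (Φ : C → C → ℤ) :
    md32_B ρ cinf rep (-χ) Φ = - md32_B ρ cinf rep χ Φ := by
  simp only [md32_B, md32_J, Pi.neg_apply, neg_mul, Finset.sum_neg_distrib]

theorem md32_B_neg_symb (χ : SL(2, ℤ) → ℤ) (Φ : C → C → ℤ) :
    md32_B ρ cinf rep χ (-Φ) = - md32_B ρ cinf rep χ Φ := by
  simp only [md32_B, md32_v, Pi.neg_apply, mul_neg, Finset.sum_neg_distrib]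

theorem md32_B_sub_hom (χ χ' : SL(2, ℤ) → ℤ) (Φ : C → C → ℤ) :
    md32_B ρ cinf rep (χ - χ') Φ = md32_B ρ cinf rep χ Φ - md32_B ρ cinf rep χ' Φ := by
  rw [sub_eq_add_neg, md32_B_add_hom, md32_B_neg_hom, sub_eq_add_neg]

theorem md32_B_sub_symb (χ : SL(2, ℤ) → ℤ) (Φ Φ' : C → C → ℤ) :
    md32_B ρ cinf rep χ (Φ - Φ') = md32_B ρ cinf rep χ Φ - md32_B ρ cinf rep χ Φ' := by
  rw [sub_eq_add_neg, md32_B_add_symb, md32_B_neg_symb, sub_eq_add_neg]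

theorem md32_B_zero_hom (Φ : C → C → ℤ) : md32_B ρ cinf rep 0 Φ = 0 := by
  simp [md32_B, md32_J]

theorem md32_B_zero_symb (χ : SL(2, ℤ) → ℤ) : md32_B ρ cinf rep χ 0 = 0 := by
  simp [md32_B, md32_v]

theorem md32_B_sum_hom {ι : Type*} (s : Finset ι) (F : ι → SL(2, ℤ) → ℤ) (Φ : C → C → ℤ) :
    md32_B ρ cinf rep (∑ i ∈ s, F i) Φ = ∑ i ∈ s, md32_B ρ cinf rep (F i) Φ := by
  classical
  induction s using Finset.induction_on with
  | empty => simpa using md32_B_zero_hom ρ cinf rep Φ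
  | insert i s hi ih => rw [Finset.sum_insert hi, Finset.sum_insert hi, md32_B_add_hom, ih]

theorem md32_B_sum_symb {ι : Type*} (s : Finset ι) (χ : SL(2, ℤ) → ℤ) (F : ι → C → C → ℤ) :
    md32_B ρ cinf rep χ (∑ i ∈ s, F i) = ∑ i ∈ s, md32_B ρ cinf rep χ (F i) := by
  classical
  induction s using Finset.induction_on with
  | empty => simpa using md32_B_zero_symb ρ cinf rep χ
  | insert i s hi ih => rw [Finset.sum_insert hi, Finset.sum_insert hi, md32_B_add_symb, ih]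

omit [Fintype (SL(2, ℤ) ⧸ Γ)] in
theorem md32_IsHom.add {χ χ' : SL(2, ℤ) → ℤ} (h : md32_IsHom Γ χ) (h' : md32_IsHom Γ χ') :
    md32_IsHom Γ (χ + χ') := fun a ha b hb => by
  simp only [Pi.add_apply, h a ha b hb, h' a ha b hb]; ring

omit [Fintype (SL(2, ℤ) ⧸ Γ)] in
theorem md32_IsHom.neg {χ : SL(2, ℤ) → ℤ} (h : md32_IsHom Γ χ) : md32_IsHom Γ (-χ) :=
  fun a ha b hb => by simp only [Pi.neg_apply, h a ha b hb]; ring

omit [Fintype (SL(2, ℤ) ⧸ Γ)] in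
theorem md32_IsHom.zsmul {χ : SL(2, ℤ) → ℤ} (h : md32_IsHom Γ χ) (n : ℤ) :
    md32_IsHom Γ (n • χ) :=
  fun a ha b hb => by simp only [Pi.smul_apply, smul_eq_mul, h a ha b hb]; ring

omit [Fintype (SL(2, ℤ) ⧸ Γ)] in
theorem md32_IsHom.zero : md32_IsHom Γ (0 : SL(2, ℤ) → ℤ) := fun _ _ _ _ => by simp

omit [Fintype (SL(2, ℤ) ⧸ Γ)] in
theorem md32_IsHom.mono {Γ' : Subgroup SL(2, ℤ)} (hle : Γ' ≤ Γ) {χ : SL(2, ℤ) → ℤ}
    (h : md32_IsHom Γ χ) : md32_IsHom Γ' χ := fun a ha b hb => h a (hle ha) b (hle hb)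

end Additivity

section Indep

variable {Γ : Subgroup SL(2, ℤ)} [Fintype (SL(2, ℤ) ⧸ Γ)] {C : Type*}
  {ρ : SL(2, ℤ) →* Equiv.Perm C} {cinf : C}

/-- **Independence of the section.**  The Manin-model pairing of a homomorphism with a symbol
is the same for any two `U`-adapted systems of coset representatives. -/
theorem md32_B_indep (hax : md32_CuspAx ρ cinf) (hneg : (-1 : SL(2, ℤ)) ∈ Γ)
    {rep rep' : SL(2, ℤ) ⧸ Γ → SL(2, ℤ)} (hrep : ∀ x, (rep x : SL(2, ℤ) ⧸ Γ) = x)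
    (hrep' : ∀ x, (rep' x : SL(2, ℤ) ⧸ Γ) = x) (had : md32_Adapted rep)
    (had' : md32_Adapted rep') {χ : SL(2, ℤ) → ℤ} (hχ : md32_IsHom Γ χ)
    {Φ : C → C → ℤ} (hΦ : md32_IsSymb Γ ρ Φ) :
    md32_B ρ cinf rep' χ Φ = md32_B ρ cinf rep χ Φ := by
  have hγ : ∀ x, (rep x)⁻¹ * rep' x ∈ Γ := by
    intro x
    apply QuotientGroup.eq.mp
    rw [hrep, hrep']
  have hrep'_eq : ∀ x, rep' x = rep x * ((rep x)⁻¹ * rep' x) := fun x => by group
  -- the coordinates of the symbol do not change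
  have hv : ∀ x, md32_v ρ cinf rep' Φ x = md32_v ρ cinf rep Φ x := by
    intro x
    have e : (rep' x)⁻¹ = ((rep x)⁻¹ * rep' x)⁻¹ * (rep x)⁻¹ := by group
    rw [md32_v, e, mul_assoc, map_mul, map_mul ρ _ (rep x)⁻¹, Equiv.Perm.mul_apply,
      Equiv.Perm.mul_apply, hΦ.2 _ (Γ.inv_mem (hγ x))]
    rfl
  -- the jump function changes by a coboundary
  have hJ : ∀ x, md32_J rep' χ x = md32_J rep χ x + (- χ ((rep x)⁻¹ * rep' x))
      - (- χ ((rep ((S : SL(2, ℤ)) • x))⁻¹ * rep' ((S : SL(2, ℤ)) • x))) := by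
    intro x
    have hmid : (rep x)⁻¹ * S * rep ((S : SL(2, ℤ)) • x) ∈ Γ := by
      have := md32_sig_mem hrep S ((S : SL(2, ℤ)) • x)
      rwa [md32_sig, md32_SS (md32_neg_smul hneg)] at this
    have e : (rep' x)⁻¹ * S * rep' ((S : SL(2, ℤ)) • x)
        = ((rep x)⁻¹ * rep' x)⁻¹ * ((rep x)⁻¹ * S * rep ((S : SL(2, ℤ)) • x))
          * ((rep ((S : SL(2, ℤ)) • x))⁻¹ * rep' ((S : SL(2, ℤ)) • x)) := by group
    rw [md32_J, e, hχ _ (Γ.mul_mem (Γ.inv_mem (hγ x)) hmid) _ (hγ _),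
      hχ _ (Γ.inv_mem (hγ x)) _ hmid, hχ.inv (hγ x), md32_J]
    ring
  have hf : ∀ x, (fun x => - χ ((rep x)⁻¹ * rep' x)) (md32_U • x)
      = (fun x => - χ ((rep x)⁻¹ * rep' x)) x := by
    intro x
    have e : md32_sig rep' md32_U x
        = ((rep (md32_U • x))⁻¹ * rep' (md32_U • x))⁻¹ * md32_sig rep md32_U x
          * ((rep x)⁻¹ * rep' x) := by
      simp only [md32_sig]; group
    have h1 := md32_chi_sig_U hrep' had' hneg hχ x
    rw [e, hχ _ (Γ.mul_mem (Γ.inv_mem (hγ _)) (md32_sig_mem hrep _ _)) _ (hγ x),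
      hχ _ (Γ.inv_mem (hγ _)) _ (md32_sig_mem hrep _ _), hχ.inv (hγ _),
      md32_chi_sig_U hrep had hneg hχ x] at h1
    show - χ ((rep (md32_U • x))⁻¹ * rep' (md32_U • x)) = - χ ((rep x)⁻¹ * rep' x)
    linarith
  rw [md32_B_eq hax hrep' hΦ hf hJ, md32_B]
  exact Finset.sum_congr rfl (fun x _ => by rw [hv])

end Indep

section Dictionary

/-- The curried form of a plain symbol of level `M` is a symbol for `Γ₀(M)`. -/
theorem md32_isSymb_curry (M : ℕ) (Φ : OnePoint ℚ × OnePoint ℚ → ℤ) :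
    md32_IsSymb (Gamma0 M) psl96_rho (Function.curry Φ) ↔ slp10_IsSymb M Φ := by
  constructor
  · rintro ⟨h1, h2⟩
    refine ⟨fun a b c => h1 a b c, ?_⟩
    rintro ⟨g, hg⟩ ⟨a, b⟩
    exact h2 g hg a b
  · rintro ⟨h1, h2⟩
    exact ⟨fun a b c => h1 a b c, fun g hg a b => h2 ⟨g, hg⟩ (a, b)⟩

theorem md32_isSymb_uncurry (M : ℕ) (Φ : OnePoint ℚ → OnePoint ℚ → ℤ) :
    slp10_IsSymb M (Function.uncurry Φ) ↔ md32_IsSymb (Gamma0 M) psl96_rho Φ :=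
  (md32_isSymb_curry M (Function.uncurry Φ)).symm

/-- From a plain symbol of level `M` to `md32_Symb`. -/
def md32_ofP {M : ℕ} (Φ : OnePoint ℚ × OnePoint ℚ → ℤ) (h : slp10_IsSymb M Φ) :
    md32_Symb (Gamma0 M) psl96_rho :=
  ⟨Function.curry Φ, (md32_isSymb_curry M Φ).mpr h⟩

/-- From `md32_Symb` to plain symbols. -/
def md32_toP {M : ℕ} (Φ : md32_Symb (Gamma0 M) psl96_rho) : OnePoint ℚ × OnePoint ℚ → ℤ :=
  Function.uncurry (Φ : OnePoint ℚ → OnePoint ℚ → ℤ)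

theorem md32_toP_apply {M : ℕ} (Φ : md32_Symb (Gamma0 M) psl96_rho) (x : OnePoint ℚ × OnePoint ℚ) :
    md32_toP Φ x = (Φ : OnePoint ℚ → OnePoint ℚ → ℤ) x.1 x.2 := rfl

theorem md32_toP_isSymb {M : ℕ} (Φ : md32_Symb (Gamma0 M) psl96_rho) :
    slp10_IsSymb M (md32_toP Φ) :=
  (md32_isSymb_uncurry M _).mpr Φ.2

theorem md32_toP_ofP {M : ℕ} (Φ : OnePoint ℚ × OnePoint ℚ → ℤ) (h : slp10_IsSymb M Φ) :
    md32_toP (md32_ofP Φ h) = Φ := rfl

theorem md32_ofP_toP {M : ℕ} (Φ : md32_Symb (Gamma0 M) psl96_rho) :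
    md32_ofP (md32_toP Φ) (md32_toP_isSymb Φ) = Φ := rfl

theorem md32_toP_injective {M : ℕ} :
    Function.Injective (md32_toP (M := M)) := by
  intro Φ Ψ h
  rw [← md32_ofP_toP Φ, ← md32_ofP_toP Ψ]
  simp only [h]

theorem md32_toP_add {M : ℕ} (Φ Ψ : md32_Symb (Gamma0 M) psl96_rho) :
    md32_toP (Φ + Ψ) = md32_toP Φ + md32_toP Ψ := rfl

theorem md32_toP_zero {M : ℕ} : md32_toP (0 : md32_Symb (Gamma0 M) psl96_rho) = 0 := rfl

theorem md32_toP_neg {M : ℕ} (Φ : md32_Symb (Gamma0 M) psl96_rho) :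
    md32_toP (-Φ) = - md32_toP Φ := rfl

theorem md32_toP_sub {M : ℕ} (Φ Ψ : md32_Symb (Gamma0 M) psl96_rho) :
    md32_toP (Φ - Ψ) = md32_toP Φ - md32_toP Ψ := rfl

theorem md32_toP_zsmul {M : ℕ} (n : ℤ) (Φ : md32_Symb (Gamma0 M) psl96_rho) :
    md32_toP (n • Φ) = n • md32_toP Φ := by
  funext x
  simp [md32_toP_apply]

theorem md32_toP_nsmul {M : ℕ} (n : ℕ) (Φ : md32_Symb (Gamma0 M) psl96_rho) :
    md32_toP (n • Φ) = n • md32_toP Φ := by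
  funext x
  simp [md32_toP_apply]

/-- Divisibility in `md32_Symb` is pointwise divisibility. -/
theorem md32_exists_zsmul_iff {M : ℕ} {p : ℤ} (hp : p ≠ 0)
    (Φ : md32_Symb (Gamma0 M) psl96_rho) :
    (∃ Ψ : md32_Symb (Gamma0 M) psl96_rho, Φ = p • Ψ) ↔ ∀ x, p ∣ md32_toP Φ x := by
  constructor
  · rintro ⟨Ψ, rfl⟩ x
    rw [md32_toP_zsmul]
    exact ⟨md32_toP Ψ x, rfl⟩
  · intro h
    obtain ⟨Ψ, hΨ, hΨ2⟩ := slp10_div hp (md32_toP_isSymb Φ) h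
    refine ⟨md32_ofP Ψ hΨ, md32_toP_injective ?_⟩
    rw [md32_toP_zsmul, md32_toP_ofP]
    funext x
    rw [hΨ2 x]; rfl

/-- An additive operator on plain symbols, as an additive map on `md32_Symb`. -/
def md32_opHom {M M' : ℕ}
    (F : (OnePoint ℚ × OnePoint ℚ → ℤ) → (OnePoint ℚ × OnePoint ℚ → ℤ))
    (hadd : ∀ Φ Ψ, F (Φ + Ψ) = F Φ + F Ψ)
    (hF : ∀ Φ, slp10_IsSymb M Φ → slp10_IsSymb M' (F Φ)) :
    md32_Symb (Gamma0 M) psl96_rho →+ md32_Symb (Gamma0 M') psl96_rho :=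
  AddMonoidHom.mk' (fun Φ => md32_ofP (F (md32_toP Φ)) (hF _ (md32_toP_isSymb Φ)))
    (fun Φ Ψ => md32_toP_injective (by
      rw [md32_toP_ofP, md32_toP_add, md32_toP_add, md32_toP_ofP, md32_toP_ofP, hadd]))

theorem md32_toP_opHom {M M' : ℕ}
    (F : (OnePoint ℚ × OnePoint ℚ → ℤ) → (OnePoint ℚ × OnePoint ℚ → ℤ))
    (hadd : ∀ Φ Ψ, F (Φ + Ψ) = F Φ + F Ψ)
    (hF : ∀ Φ, slp10_IsSymb M Φ → slp10_IsSymb M' (F Φ))
    (Φ : md32_Symb (Gamma0 M) psl96_rho) :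
    md32_toP (md32_opHom F hadd hF Φ) = F (md32_toP Φ) := rfl

theorem md32_opHom_ofP {M M' : ℕ}
    (F : (OnePoint ℚ × OnePoint ℚ → ℤ) → (OnePoint ℚ × OnePoint ℚ → ℤ))
    (hadd : ∀ Φ Ψ, F (Φ + Ψ) = F Φ + F Ψ)
    (hF : ∀ Φ, slp10_IsSymb M Φ → slp10_IsSymb M' (F Φ))
    (Φ : OnePoint ℚ × OnePoint ℚ → ℤ) (h : slp10_IsSymb M Φ) :
    md32_opHom F hadd hF (md32_ofP Φ h) = md32_ofP (F Φ) (hF Φ h) := rfl

/-- The trace `Γ₀(N q) → Γ₀(N)` on `md32_Symb`. -/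
def md32_trHom {N q : ℕ} (hq : q.Prime) (D : tr43_Data N q) :
    md32_Symb (Gamma0 (N * q)) psl96_rho →+ md32_Symb (Gamma0 N) psl96_rho :=
  md32_opHom (tr43_tr D) (tr43_tr_add D) (fun _ h => ⟨sc71_IsSymb.tr D h.1, tr43_tr_Inv hq D h.2⟩)

theorem md32_toP_trHom {N q : ℕ} (hq : q.Prime) (D : tr43_Data N q)
    (Φ : md32_Symb (Gamma0 (N * q)) psl96_rho) :
    md32_toP (md32_trHom hq D Φ) = tr43_tr D (md32_toP Φ) := rfl

/-- The Atkin-Lehner operator on `md32_Symb` of level `N q`. -/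
def md32_WHom {N q : ℕ} (hq : q ≠ 0) (D : tr43_Data N q) :
    md32_Symb (Gamma0 (N * q)) psl96_rho →+ md32_Symb (Gamma0 (N * q)) psl96_rho :=
  md32_opHom (tr43_W D) (tr43_W_add D) (fun _ h => ⟨sc71_IsSymb.W D h.1, tr43_W_Inv hq D h.2⟩)

theorem md32_toP_WHom {N q : ℕ} (hq : q ≠ 0) (D : tr43_Data N q)
    (Φ : md32_Symb (Gamma0 (N * q)) psl96_rho) :
    md32_toP (md32_WHom hq D Φ) = tr43_W D (md32_toP Φ) := rfl

/-- The Hecke operator `T_ℓ` (`ℓ ∤ M`) on `md32_Symb` of level `M`. -/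
def md32_THom {M ℓ : ℕ} (hℓ : ℓ.Prime) (hℓM : ¬ ℓ ∣ M) :
    md32_Symb (Gamma0 M) psl96_rho →+ md32_Symb (Gamma0 M) psl96_rho :=
  md32_opHom (tr43_T ℓ) (tr43_T_add ℓ) (fun _ h => ⟨sc71_IsSymb.T h.1 ℓ, tr43_T_Inv hℓ hℓM h.2⟩)

theorem md32_toP_THom {M ℓ : ℕ} (hℓ : ℓ.Prime) (hℓM : ¬ ℓ ∣ M)
    (Φ : md32_Symb (Gamma0 M) psl96_rho) :
    md32_toP (md32_THom hℓ hℓM Φ) = tr43_T ℓ (md32_toP Φ) := rfl

/-- Restriction of the level. -/
def md32_resHom {M M' : ℕ} (h : M ∣ M') :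
    md32_Symb (Gamma0 M) psl96_rho →+ md32_Symb (Gamma0 M') psl96_rho :=
  md32_opHom id (fun _ _ => rfl) (fun _ hΦ => ⟨hΦ.1, tr43_Inv_of_dvd h hΦ.2⟩)

theorem md32_toP_resHom {M M' : ℕ} (h : M ∣ M') (Φ : md32_Symb (Gamma0 M) psl96_rho) :
    md32_toP (md32_resHom h Φ) = md32_toP Φ := rfl

/-- `md32_toP` as an additive map (the `cL`, `cM` of `dp28_hDI`). -/
def md32_toPHom (M : ℕ) :
    md32_Symb (Gamma0 M) psl96_rho →+ (OnePoint ℚ × OnePoint ℚ → ℤ) where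
  toFun := md32_toP
  map_zero' := rfl
  map_add' := fun _ _ => rfl

theorem md32_toPHom_apply {M : ℕ} (Φ : md32_Symb (Gamma0 M) psl96_rho) :
    md32_toPHom M Φ = md32_toP Φ := rfl

theorem md32_toPHom_isSymb {M : ℕ} (Φ : md32_Symb (Gamma0 M) psl96_rho) :
    slp10_IsSymb M (md32_toPHom M Φ) := md32_toP_isSymb Φ

theorem md32_toPHom_surj {M : ℕ} (φ : OnePoint ℚ × OnePoint ℚ → ℤ) (h : slp10_IsSymb M φ) :
    ∃ x, md32_toPHom M x = φ := ⟨md32_ofP φ h, rfl⟩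

theorem md32_toPHom_trHom {N q : ℕ} (hq : q.Prime) (D : tr43_Data N q)
    (b : md32_Symb (Gamma0 (N * q)) psl96_rho) :
    md32_toPHom N (md32_trHom hq D b) = tr43_tr D (md32_toPHom (N * q) b) := rfl

theorem md32_toPHom_trHom_WHom {N q : ℕ} (hq : q.Prime) (D : tr43_Data N q)
    (b : md32_Symb (Gamma0 (N * q)) psl96_rho) :
    md32_toPHom N (md32_trHom hq D (md32_WHom hq.ne_zero D b))
      = tr43_tr D (tr43_W D (md32_toPHom (N * q) b)) := rfl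

theorem md32_toPHom_THom {M ℓ : ℕ} (hℓ : ℓ.Prime) (hℓM : ¬ ℓ ∣ M)
    (x : md32_Symb (Gamma0 M) psl96_rho) :
    md32_toPHom M (md32_THom hℓ hℓM x) = tr43_T ℓ (md32_toPHom M x) := rfl

/-- The pairing on `md32_Symb`, evaluated on plain data: for `Φ` a plain symbol of level `M`
and `α : Γ₀(M) → ℤ` it is the Manin-model pairing of the extension by zero of `α` with the
curried symbol. -/
theorem md32_PB_ofP {M : ℕ} [Fintype (SL(2, ℤ) ⧸ Gamma0 M)]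
    (rep : SL(2, ℤ) ⧸ Gamma0 M → SL(2, ℤ)) (Φ : OnePoint ℚ × OnePoint ℚ → ℤ)
    (h : slp10_IsSymb M Φ) (α : Additive (Gamma0 M) →+ ℤ) :
    md32_PB psl96_rho OnePoint.infty rep (md32_ofP Φ h) α
      = md32_B psl96_rho OnePoint.infty rep (md32_ext α) (Function.curry Φ) := rfl

theorem md32_PB_toP {M : ℕ} [Fintype (SL(2, ℤ) ⧸ Gamma0 M)]
    (rep : SL(2, ℤ) ⧸ Gamma0 M → SL(2, ℤ)) (b : md32_Symb (Gamma0 M) psl96_rho)
    (α : Additive (Gamma0 M) →+ ℤ) :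
    md32_PB psl96_rho OnePoint.infty rep b α
      = md32_B psl96_rho OnePoint.infty rep (md32_ext α) (Function.curry (md32_toP b)) := rfl

/-- The bundled pairing does not depend on the `U`-adapted section. -/
theorem md32_PB_indep {Γ : Subgroup SL(2, ℤ)} [Fintype (SL(2, ℤ) ⧸ Γ)] {C : Type*}
    {ρ : SL(2, ℤ) →* Equiv.Perm C} {cinf : C} (hax : md32_CuspAx ρ cinf)
    (hneg : (-1 : SL(2, ℤ)) ∈ Γ)
    {rep rep' : SL(2, ℤ) ⧸ Γ → SL(2, ℤ)} (hrep : ∀ x, (rep x : SL(2, ℤ) ⧸ Γ) = x)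
    (hrep' : ∀ x, (rep' x : SL(2, ℤ) ⧸ Γ) = x) (had : md32_Adapted rep)
    (had' : md32_Adapted rep') :
    md32_PB ρ cinf rep' = md32_PB (Γ := Γ) ρ cinf rep := by
  refine AddMonoidHom.ext (fun Φ => AddMonoidHom.ext (fun α => ?_))
  rw [md32_PB_apply, md32_PB_apply]
  exact md32_B_indep hax hneg hrep hrep' had had' (md32_ext_isHom α) Φ.2

end Dictionary

end

end Fermat.Agent.S41
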