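/-
S41 / M5.NE twin (helper24): the non-Eisenstein prime, modulo the reduction link (F3-W).

`ne24_exists_good_prime_of`: for `E/ℚ` with irreducible mod `p` representation, an integral
model `W`, a modulus `m > 0` and a finite set `S` of primes there is a prime `ℓ ∉ S`,
`ℓ ≡ 1 mod m`, of good reduction with `p ∤ ℓ + 1 - a_ℓ(W)`.

Proof: otherwise every `σ ∈ H := Stab(μ_m) ≤ Gal(ℚ̄/ℚ)` fixes a nonzero point of `E[p]`
(`fb24_frob_torsion`: `σ = τ ^ j` on `W[p]` for a Frobenius `τ` at a good prime `ℓ ≡ 1 mod m`;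
(F3-W): `τ` fixes a nonzero point of `W[p]` as `p ∣ #W(𝔽_ℓ)`; transport `W ↔ E` by `vc83`),
contradicting `co82_corner'` (`H` is normal with abelian quotient).
-/
import Fermat.Agent.S41.FrobTors24
import Fermat.Agent.S41.Corner82
import Fermat.Prelude.Def_FLTPrelim_Modularity

set_option autoImplicit false

open WeierstrassCurve WeierstrassCurve.Affine WeierstrassCurve.Affine.Point

namespace Fermat.Agent.S41

/-- The reduction link (F3-W), in the shape of the M5 interface: outside a finite set of primes,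
a Frobenius element `τ` at `ℓ` (Frobenius congruence on the field of definition of `W[p]`) fixes
a nonzero `p`-torsion point as soon as `p` divides the number of points of `W` mod `ℓ`. -/
def ne24_F3W (W : WeierstrassCurve ℤ) (p : ℕ) : Prop :=
  ∃ S0 : Finset ℕ, ∀ ℓ : ℕ, ℓ.Prime → ℓ ∉ S0 →
    ∀ A : ValuationSubring (AlgebraicClosure ℚ), A.LiesOverPrime ℓ →
    ∀ τ : AlgebraicClosure ℚ ≃ₐ[ℚ] AlgebraicClosure ℚ,
      (∀ x ∈ A, (∀ g : AlgebraicClosure ℚ ≃ₐ[ℚ] AlgebraicClosure ℚ,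
          (∀ P : (W⁄(AlgebraicClosure ℚ)).Point, p • P = 0 → g • P = P) → g x = x) →
        τ x - x ^ ℓ ∈ A.nonunits) →
      p ∣ (W.reductionMod ℓ).card →
      ∃ P : (W⁄(AlgebraicClosure ℚ)).Point, P ≠ 0 ∧ p • P = 0 ∧ τ • P = P

/-- The stabiliser of the `m`-th roots of unity in `Gal(ℚ̄/ℚ)`. -/
def ne24_H (m : ℕ) : Subgroup (AlgebraicClosure ℚ ≃ₐ[ℚ] AlgebraicClosure ℚ) where
  carrier := {σ | ∀ ζ : AlgebraicClosure ℚ, ζ ^ m = 1 → σ ζ = ζ}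
  mul_mem' := by
    intro a b ha hb ζ hζ
    rw [AlgEquiv.mul_apply, hb ζ hζ, ha ζ hζ]
  one_mem' := fun ζ _ => rfl
  inv_mem' := by
    intro a ha ζ hζ
    have h := ha ζ hζ
    calc a⁻¹ ζ = a⁻¹ (a ζ) := by rw [h]
      _ = (a⁻¹ * a) ζ := rfl
      _ = ζ := by rw [inv_mul_cancel]; rfl

theorem ne24_mem_H {m : ℕ} {σ : AlgebraicClosure ℚ ≃ₐ[ℚ] AlgebraicClosure ℚ} :
    σ ∈ ne24_H m ↔ ∀ ζ : AlgebraicClosure ℚ, ζ ^ m = 1 → σ ζ = ζ := Iff.rfl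

instance ne24_H_normal (m : ℕ) : (ne24_H m).Normal := by
  constructor
  intro h hh g ζ hζ
  have h1 : (g⁻¹ ζ) ^ m = 1 := by rw [← map_pow, hζ, map_one]
  calc (g * h * g⁻¹) ζ = g (h (g⁻¹ ζ)) := rfl
    _ = g (g⁻¹ ζ) := by rw [hh _ h1]
    _ = (g * g⁻¹) ζ := rfl
    _ = ζ := by rw [mul_inv_cancel]; rfl

/-- `Gal(ℚ̄/ℚ)` acts on `μ_m` through an abelian group. -/
theorem ne24_comm_on_roots {m : ℕ} (hm : 0 < m)
    (g g' : AlgebraicClosure ℚ ≃ₐ[ℚ] AlgebraicClosure ℚ) (z : AlgebraicClosure ℚ)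
    (hz : z ^ m = 1) : g (g' z) = g' (g z) := by
  have : NeZero m := ⟨hm.ne'⟩
  have : IsAlgClosure ℚ (AlgebraicClosure ℚ) := fb24_isAlgClosure
  obtain ⟨ζ, hζ⟩ : ∃ ζ : AlgebraicClosure ℚ, IsPrimitiveRoot ζ m :=
    HasEnoughRootsOfUnity.exists_primitiveRoot (AlgebraicClosure ℚ) m
  obtain ⟨k, -, rfl⟩ := hζ.eq_pow_of_pow_eq_one hz
  have h1 : (g ζ) ^ m = 1 := by rw [← map_pow, hζ.pow_eq_one, map_one]
  have h2 : (g' ζ) ^ m = 1 := by rw [← map_pow, hζ.pow_eq_one, map_one]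
  obtain ⟨a, -, ha⟩ := hζ.eq_pow_of_pow_eq_one h1
  obtain ⟨b, -, hb⟩ := hζ.eq_pow_of_pow_eq_one h2
  rw [map_pow, map_pow, ← hb, map_pow, ← ha, map_pow, map_pow, ← ha, map_pow, ← hb]
  ring

theorem ne24_comm_mem_H {m : ℕ} (hm : 0 < m)
    (g g' : AlgebraicClosure ℚ ≃ₐ[ℚ] AlgebraicClosure ℚ) :
    g * g' * g⁻¹ * g'⁻¹ ∈ ne24_H m := by
  intro ζ hζ
  have h1 : ((g' * g)⁻¹ ζ) ^ m = 1 := by rw [← map_pow, hζ, map_one]
  have h2 := ne24_comm_on_roots hm g g' _ h1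
  calc (g * g' * g⁻¹ * g'⁻¹) ζ = g (g' ((g' * g)⁻¹ ζ)) := by
        rw [mul_inv_rev]; rfl
    _ = g' (g ((g' * g)⁻¹ ζ)) := h2
    _ = ((g' * g) * (g' * g)⁻¹) ζ := rfl
    _ = ζ := by rw [mul_inv_cancel]; rfl

/-- Equal curves have the same points, coordinatewise. -/
theorem ne24_exists_equiv_of_eq {K : Type*} [Field K] [DecidableEq K] {V₁ V₂ : WeierstrassCurve K}
    (h : V₁ = V₂) :
    ∃ e : V₁.toAffine.Point ≃+ V₂.toAffine.Point,
      ∀ (x y : K) (hxy : V₁.toAffine.Nonsingular x y),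
        ∃ h' : V₂.toAffine.Nonsingular x y, e (Point.some x y hxy) = Point.some x y h' := by
  subst h
  exact ⟨AddEquiv.refl _, fun x y hxy => ⟨hxy, rfl⟩⟩

/-- The points of an integral model over `ℚ̄`, and of its base change to `ℚ`, agree
Galois-equivariantly. -/
theorem ne24_exists_equiv_int (W : WeierstrassCurve ℤ) :
    ∃ e : (W⁄(AlgebraicClosure ℚ)).Point ≃+
        ((W.map (Int.castRingHom ℚ))⁄(AlgebraicClosure ℚ)).Point,
      ∀ (g : AlgebraicClosure ℚ ≃ₐ[ℚ] AlgebraicClosure ℚ) (P : (W⁄(AlgebraicClosure ℚ)).Point),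
        e (g • P) = g • e P := by
  have hcurve : W⁄(AlgebraicClosure ℚ) = (W.map (Int.castRingHom ℚ))⁄(AlgebraicClosure ℚ) := by
    show W.map (algebraMap ℤ (AlgebraicClosure ℚ)) =
      (W.map (Int.castRingHom ℚ)).map (algebraMap ℚ (AlgebraicClosure ℚ))
    rw [WeierstrassCurve.map_map]
    congr 1
  obtain ⟨e, he⟩ := ne24_exists_equiv_of_eq hcurve
  refine ⟨e, fun g P => ?_⟩
  cases P with
  | zero =>
    have h0 : g • (0 : (W⁄(AlgebraicClosure ℚ)).Point) = 0 := rfl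
    have h0' : g • (0 : ((W.map (Int.castRingHom ℚ))⁄(AlgebraicClosure ℚ)).Point) = 0 := rfl
    show e (g • (0 : (W⁄(AlgebraicClosure ℚ)).Point)) = g • e 0
    rw [h0, _root_.map_zero, h0']
  | some x y hxy =>
    obtain ⟨h₁, e₁⟩ := fb24_smul_some g hxy
    obtain ⟨h₂, e₂⟩ := he x y hxy
    obtain ⟨h₃, e₃⟩ := he (g x) (g y) h₁
    obtain ⟨h₄, e₄⟩ := fb24_smul_some g h₂
    rw [e₁, e₃, e₂, e₄]

/-- Galois-equivariant identification of the points of `E` and of an integral model. -/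
theorem ne24_exists_equiv (E : WeierstrassCurve ℚ) {W : WeierstrassCurve ℤ}
    (hW : W.IsIntegralModelOf E) :
    ∃ e : (W⁄(AlgebraicClosure ℚ)).Point ≃+ (E⁄(AlgebraicClosure ℚ)).Point,
      ∀ (g : AlgebraicClosure ℚ ≃ₐ[ℚ] AlgebraicClosure ℚ) (P : (W⁄(AlgebraicClosure ℚ)).Point),
        e (g • P) = g • e P := by
  obtain ⟨C, hC⟩ := hW
  obtain ⟨e₁, he₁⟩ := ne24_exists_equiv_int W
  refine ⟨e₁.trans (vc83_galEquiv (AlgebraicClosure ℚ) C hC.symm), fun g P => ?_⟩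
  rw [AddEquiv.trans_apply, AddEquiv.trans_apply, he₁, vc83_galEquiv_smul]

/-- The discriminant of an integral model of an elliptic curve is nonzero. -/
theorem ne24_Δ_ne_zero (E : WeierstrassCurve ℚ) [E.IsElliptic] {W : WeierstrassCurve ℤ}
    (hW : W.IsIntegralModelOf E) : W.Δ ≠ 0 := by
  obtain ⟨C, hC⟩ := hW
  intro h0
  have h1 : (W.map (Int.castRingHom ℚ)).Δ = 0 := by rw [map_Δ, h0, _root_.map_zero]
  rw [← hC, variableChange_Δ] at h1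
  have h2 : E.Δ ≠ 0 := E.isUnit_Δ.ne_zero
  have h3 : ((C.u⁻¹ : ℚˣ) : ℚ) ^ 12 ≠ 0 := pow_ne_zero _ (Units.ne_zero _)
  exact (mul_ne_zero h3 h2) h1

/-- Finiteness of the `p`-torsion of an integral model over `ℚ̄`. -/
theorem ne24_finite_torsion {W : WeierstrassCurve ℤ} (hΔ : W.Δ ≠ 0) {p : ℕ} (hp : p.Prime)
    (hp2 : p ≠ 2) : {P : (W⁄(AlgebraicClosure ℚ)).Point | p • P = 0}.Finite := by
  have hΔ' : (W.baseChange (AlgebraicClosure ℚ)).Δ ≠ 0 := by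
    rw [WeierstrassCurve.baseChange, map_Δ]
    intro h
    apply hΔ
    have : algebraMap ℤ (AlgebraicClosure ℚ) W.Δ = algebraMap ℤ (AlgebraicClosure ℚ) 0 := by
      rw [h, _root_.map_zero]
    exact (FaithfulSMul.algebraMap_injective ℤ (AlgebraicClosure ℚ)) this
  have hfin := (tc82_card_torsionBy (W.baseChange (AlgebraicClosure ℚ)) two_ne_zero hΔ'
    (hp.odd_of_ne_two hp2) hp.one_lt (Nat.cast_ne_zero.mpr hp.ne_zero)).1
  have hset : {P : (W⁄(AlgebraicClosure ℚ)).Point | p • P = 0} =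
      ((Submodule.torsionBy ℤ (W⁄(AlgebraicClosure ℚ)).Point (p : ℤ) :
        Submodule ℤ (W⁄(AlgebraicClosure ℚ)).Point) : Set (W⁄(AlgebraicClosure ℚ)).Point) := by
    ext P
    simp only [Set.mem_ofPred_eq, SetLike.mem_coe, Submodule.mem_torsionBy_iff, natCast_zsmul]
  rw [hset]
  exact Set.toFinite _

/-- A power of an element fixing a point fixes the point. -/
theorem ne24_pow_smul_eq {G X : Type*} [Monoid G] [MulAction G X] (g : G) (x : X)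
    (h : g • x = x) (j : ℕ) : g ^ j • x = x := by
  induction j with
  | zero => rw [pow_zero, one_smul]
  | succ n ih => rw [pow_succ, mul_smul, h, ih]

/-- The number of points mod `ℓ` is `ℓ + 1 - a_ℓ`. -/
theorem ne24_card_eq (W : WeierstrassCurve ℤ) {ℓ : ℕ} (hℓ : ℓ.Prime) :
    (ℓ : ℤ) + 1 - W.apOfModel ℓ = ((W.reductionMod ℓ).card : ℤ) := by
  have : NeZero ℓ := ⟨hℓ.ne_zero⟩
  unfold WeierstrassCurve.apOfModel WeierstrassCurve.traceOfFrobenius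
  rw [Nat.card_zmod]
  ring

/-- **The non-Eisenstein prime, modulo the reduction link (F3-W).** -/
theorem ne24_exists_good_prime_of (E : WeierstrassCurve ℚ) [E.IsElliptic] {W : WeierstrassCurve ℤ}
    (hW : W.IsIntegralModelOf E) {p : ℕ} (hp : p.Prime) (hp2 : p ≠ 2)
    (hirr : GaloisRepIsIrreducible (K := AlgebraicClosure ℚ) ℚ E p)
    (hF3 : ne24_F3W W p) (m : ℕ) (hm : 0 < m) (S : Finset ℕ) :
    ∃ ℓ : ℕ, ℓ.Prime ∧ ℓ ∉ S ∧ ℓ ≡ 1 [MOD m] ∧ W.IsGoodPrimeFor ℓ ∧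
      ¬ (p : ℤ) ∣ (ℓ : ℤ) + 1 - W.apOfModel ℓ := by
  by_contra hcon
  have hno : ∀ ℓ : ℕ, ℓ.Prime → ℓ ∉ S → ℓ ≡ 1 [MOD m] → W.IsGoodPrimeFor ℓ →
      (p : ℤ) ∣ (ℓ : ℤ) + 1 - W.apOfModel ℓ := by
    intro ℓ h1 h2 h3 h4
    by_contra h5
    exact hcon ⟨ℓ, h1, h2, h3, h4, h5⟩
  have hΔ : W.Δ ≠ 0 := ne24_Δ_ne_zero E hW
  have hfin := ne24_finite_torsion hΔ hp hp2
  obtain ⟨S0, hS0⟩ := hF3
  obtain ⟨e, he⟩ := ne24_exists_equiv E hW
  refine co82_corner' E hp hp2 hirr (ne24_H m) (ne24_comm_mem_H hm) ?_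
  intro σ hσ
  obtain ⟨ℓ, A, τ, hℓ, hℓS, hℓm, hA, hfrob, -, ⟨j, hj⟩, -⟩ :=
    fb24_frob_torsion (W' := W) p hfin m hm σ hσ (S ∪ S0 ∪ W.Δ.natAbs.primeFactors)
  simp only [Finset.mem_union, not_or] at hℓS
  obtain ⟨⟨hℓS1, hℓS0⟩, hℓbad⟩ := hℓS
  have hgood : W.IsGoodPrimeFor ℓ := by
    intro hdvd
    apply hℓbad
    rw [Nat.mem_primeFactors]
    exact ⟨hℓ, Int.natCast_dvd.mp hdvd, Int.natAbs_ne_zero.mpr hΔ⟩
  have hdvd : p ∣ (W.reductionMod ℓ).card := by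
    have := hno ℓ hℓ hℓS1 hℓm hgood
    rw [ne24_card_eq W hℓ] at this
    exact Int.natCast_dvd_natCast.mp this
  obtain ⟨P, hP0, hpP, hτP⟩ := hS0 ℓ hℓ hℓS0 A hA τ hfrob hdvd
  refine ⟨e P, ?_, ?_, ?_⟩
  · intro h
    exact hP0 (e.map_eq_zero_iff.mp h)
  · rw [← map_nsmul, hpP, _root_.map_zero]
  · rw [← he, hj P hpP, ne24_pow_smul_eq τ P hτP]

end Fermat.Agent.S41
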