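/-
S41 (helper92): the frozen S41 statement from ONE remaining hypothesis.

`pf92_S41_of_Hb`: the conclusion of S41 under its frozen hypotheses, given the dual Ihara statement
`HB` (plain form of `rf7_main`, for every Atkin-Lehner datum `D` and every prime `l0 = 1 mod N q'`,
`l0 ≠ p`).  Inputs: `rf7_main` (Referee7), `ne92_exists_good_prime` (NonEisFinal92), `el2_H0`
(EigenSymb2), `tr43_Data_exists` (Trace43).
-/
import Mathlib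
import Fermat.Prelude.Def_FLTPrelim_ModularRep
import Fermat.Prelude.Def_FreyPackage_LevelRaising
import Fermat.Agent.S41.NonEisFinal92
import Fermat.Agent.S41.Referee7
import Fermat.Agent.S41.EigenSymb2

set_option autoImplicit false
open WeierstrassCurve WeierstrassCurve.Affine WeierstrassCurve.Affine.Point
open scoped CongruenceSubgroup
open WeierstrassCurve

namespace Fermat.Agent.S41

/-- **S41 from the dual Ihara statement.** -/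
theorem pf92_S41_of_Hb
    (E : WeierstrassCurve ℚ) [E.IsElliptic] {W : WeierstrassCurve ℤ} (hW : W.IsIntegralModelOf E)
    {p N q' : ℕ} (hp : p.Prime) (hp2 : p ≠ 2) (hN : 0 < N) (hq' : q'.Prime) (hq'N : ¬ q' ∣ N) (_hq'p : q' ≠ p)
    (hirr : GaloisRepIsIrreducible (K := AlgebraicClosure ℚ) ℚ E p)
    (f : CuspForm (CongruenceSubgroup.Gamma0 N) 2) (𝔪 : Ideal (integralClosure ℤ ℂ))
    (hf : f.IsNormalizedEigenform) (hmax : 𝔪.IsMaximal) (hpm : (p : integralClosure ℤ ℂ) ∈ 𝔪)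
    (hcong : ∀ ℓ : ℕ, ℓ.Prime → W.IsGoodPrimeFor ℓ → ¬ ℓ ∣ N → ℓ ≠ p →
      ∃ a : integralClosure ℤ ℂ, (a : ℂ) = ModularFormClass.qCoeff f ℓ ∧
        a - ((W.apOfModel ℓ : ℤ) : integralClosure ℤ ℂ) ∈ 𝔪)
    (hLR : ∃ a : integralClosure ℤ ℂ, (a : ℂ) = ModularFormClass.qCoeff f q' ∧
      a ^ 2 - ((q' : integralClosure ℤ ℂ) + 1) ^ 2 ∈ 𝔪)
    (HB : ∀ (D : tr43_Data N q') (l0 : ℕ), l0.Prime → l0 ≡ 1 [MOD N * q'] → l0 ≠ p →
      ∃ n : ℕ, ∀ φ₁ φ₂ : sc71_X → ℤ, slp10_IsSymb N φ₁ → slp10_IsSymb N φ₂ →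
      ∃ Ψ : sc71_X → ℤ, slp10_IsSymb (N * q') Ψ ∧
        (∀ z, (p : ℤ) ∣ (ic42_E l0)^[n] φ₁ z - tr43_tr D Ψ z) ∧
        (∀ z, (p : ℤ) ∣ (ic42_E l0)^[n] φ₂ z - tr43_tr D (tr43_W D Ψ) z)) :
    ∃ (g : CuspForm (CongruenceSubgroup.Gamma0 (N * q')) 2) (𝔪' : Ideal (integralClosure ℤ ℂ)),
      g.IsNormalizedEigenform ∧ 𝔪'.IsMaximal ∧ (p : integralClosure ℤ ℂ) ∈ 𝔪' ∧
      (∀ ℓ : ℕ, ℓ.Prime → W.IsGoodPrimeFor ℓ → ¬ ℓ ∣ N * q' → ℓ ≠ p →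
        ∃ a : integralClosure ℤ ℂ, (a : ℂ) = ModularFormClass.qCoeff g ℓ ∧
          a - ((W.apOfModel ℓ : ℤ) : integralClosure ℤ ℂ) ∈ 𝔪') ∧
      g.IsNewAt q' := by
  have hNN : NeZero N := ⟨hN.ne'⟩
  have hcop : Nat.Coprime q' N := (Nat.Prime.coprime_iff_not_dvd hq').mpr hq'N
  obtain ⟨D⟩ := tr43_Data_exists hcop
  obtain ⟨l0, hl0, hl0S, hl01, hl0g, hl0ne⟩ :=
    ne92_exists_good_prime E hW hp hp2 hirr (N * q') (Nat.mul_pos hN hq'.pos) {p}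
  have hl0p : l0 ≠ p := fun h => hl0S (by simp [h])
  have hl0ne' : ¬ (p : ℤ) ∣ W.apOfModel l0 - ((l0 : ℤ) + 1) := by
    intro h
    apply hl0ne
    have := dvd_neg.mpr h
    rwa [neg_sub] at this
  obtain ⟨v, hv0, -, hvT⟩ := el2_H0 N hf
  refine rf7_main hp hp2 hN hq' hq'N f 𝔪 hmax hpm hcong hLR D l0 hl0 hl0g hl0p hl01 hl0ne'
    (HB D l0 hl0 hl01 hl0p) ⟨(v : sc71_X → ℂ), v.2, ?_, hvT⟩
  intro h0
  exact hv0 (Subtype.ext h0)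

end Fermat.Agent.S41
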