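/-
S41 / M5.F3 (helper12): reduction of the odd torsion of a Frey model over a valuation ring.

`L` algebraically closed, `A : ValuationSubring L` with residue field `k`, `a b : A` with
`2`, `2m+1`, `a`, `b`, `a + b` units of `A`; `W` the Frey model `Y² = X (X - a) (X + b)` over `L`,
`W0` the Frey model with the reduced parameters over `k`.  Then the `(2m+1)`-torsion points of `W`
have coordinates in `A`, and coordinatewise reduction `rf12_red` maps them bijectively onto the
`(2m+1)`-torsion points of `W0`.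
-/
import Mathlib
import Fermat.Agent.S05.FreyModel
import Fermat.Agent.S13.Ladder
import Fermat.Agent.S41.FreyTors12

set_option autoImplicit false

open Polynomial WeierstrassCurve WeierstrassCurve.Affine

namespace Fermat.Agent.S41

open Fermat.Agent.S05 Fermat.Agent.S13

/-! ### Points of a Frey model with prescribed normalised coordinates -/

section Field

variable {K : Type*} [Field K] {W : WeierstrassCurve K} {A B : K}

/-- a point with prescribed normalised coordinates `(X, Y)` on the curve `Y² = X (X-A) (X+B)`. -/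
theorem rf12_exists_point_XY (hW : IsFreyModel W A B) (h2 : (2 : K) ≠ 0)
    (hA : A ≠ 0) (hB : B ≠ 0) (hAB : A + B ≠ 0) (X Y : K)
    (hXY : Y ^ 2 = X * (X - A) * (X + B)) :
    ∃ P : W.toAffine.Point, P ≠ 0 ∧ ptX P = X ∧ ptY P = Y := by
  have h4 : (4 : K) ≠ 0 := by
    have : (4 : K) = 2 * 2 := by norm_num
    rw [this]; exact mul_ne_zero h2 h2
  have h8 : (8 : K) ≠ 0 := by
    have : (8 : K) = 2 * 4 := by norm_num
    rw [this]; exact mul_ne_zero h2 h4
  have h64 : (64 : K) ≠ 0 := by
    have : (64 : K) = 8 * 8 := by norm_num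
    rw [this]; exact mul_ne_zero h8 h8
  obtain ⟨x, hx⟩ : ∃ x : K, 4 * x = X := ⟨X / 4, mul_div_cancel₀ X h4⟩
  obtain ⟨y, hy⟩ : ∃ y : K, 8 * y = Y - X := ⟨(Y - X) / 8, mul_div_cancel₀ _ h8⟩
  have ha₂ := hW.a₂
  have ha₄ := hW.a₄
  have heq : W.toAffine.Equation x y := by
    rw [Affine.equation_iff, hW.a₁, hW.a₃, hW.a₆]
    apply mul_left_cancel₀ h64
    have e1 : (8 * y) ^ 2 + 2 * (8 * y) * (4 * x) = Y ^ 2 - X ^ 2 := by
      rw [hy, hx]; ring
    have e2 : (4 * x) ^ 3 + (4 * W.a₂) * (4 * x) ^ 2 + (16 * W.a₄) * (4 * x) =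
        X * (X - A) * (X + B) - X ^ 2 := by
      rw [hx, ha₂, ha₄]; ring
    linear_combination e1 - e2 + hXY
  have hns : W.toAffine.Nonsingular x y := by
    rw [Affine.nonsingular_iff]
    refine ⟨heq, ?_⟩
    by_cases hY0 : Y = 0
    · left
      rw [hW.a₁]
      intro h
      have h' : 2 * (8 * y) = 3 * (4 * x) ^ 2 + 2 * (4 * W.a₂) * (4 * x) + 16 * W.a₄ := by
        linear_combination 16 * h
      rw [hy, hx, ha₂, ha₄, hY0] at h'
      have hf' : 3 * X ^ 2 + 2 * (B - A) * X - A * B = 0 := by linear_combination -h'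
      have hf : X * (X - A) * (X + B) = 0 := by rw [← hXY, hY0]; ring
      rcases mul_eq_zero.mp hf with hf | hf
      · rcases mul_eq_zero.mp hf with hf | hf
        · rw [hf] at hf'
          exact mul_ne_zero hA hB (by linear_combination -hf')
        · have hr : X = A := by linear_combination hf
          rw [hr] at hf'
          exact mul_ne_zero hA hAB (by linear_combination hf')
      · have hr : X = -B := by linear_combination hf
        rw [hr] at hf'
        exact mul_ne_zero hB hAB (by linear_combination hf')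
    · right
      rw [hW.a₁, hW.a₃]
      intro h
      apply hY0
      have : Y = 8 * y + 4 * x := by rw [hy, hx]; ring
      rw [this]
      linear_combination (4 : K) * h
  refine ⟨Point.some _ _ hns, Point.some_ne_zero hns, ?_, ?_⟩
  · show 4 * x = X
    exact hx
  · show 8 * y + 4 * x = Y
    rw [hy, hx]; ring

/-- A chosen point with normalised coordinates `(X, Y)` (or `0` if there is none). -/
noncomputable def rf12_pt (W : WeierstrassCurve K) (X Y : K) : W.toAffine.Point :=
  open Classical in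
  if h : ∃ P : W.toAffine.Point, P ≠ 0 ∧ ptX P = X ∧ ptY P = Y then h.choose else 0

theorem rf12_pt_spec (hW : IsFreyModel W A B) (h2 : (2 : K) ≠ 0)
    (hA : A ≠ 0) (hB : B ≠ 0) (hAB : A + B ≠ 0) (X Y : K)
    (hXY : Y ^ 2 = X * (X - A) * (X + B)) :
    rf12_pt W X Y ≠ 0 ∧ ptX (rf12_pt W X Y) = X ∧ ptY (rf12_pt W X Y) = Y := by
  have h := rf12_exists_point_XY hW h2 hA hB hAB X Y hXY
  unfold rf12_pt
  rw [dif_pos h]
  exact h.choose_spec

/-- an odd-torsion point equal to its negative is zero -/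
theorem rf12_eq_zero_of_eq_neg {G : Type*} [AddCommGroup G] {m : ℕ} {Q : G}
    (hQ : (2 * m + 1) • Q = 0) (hneg : Q = -Q) : Q = 0 := by
  have h2 : (2 : ℕ) • Q = 0 := by
    rw [two_nsmul]
    nth_rewrite 1 [hneg]
    exact neg_add_cancel Q
  have h3 : (2 * m + 1) • Q = Q := by
    rw [add_nsmul, mul_comm, mul_nsmul', h2, nsmul_zero, zero_add, one_nsmul]
  rw [← h3, hQ]

end Field

/-! ### Valuation subrings: roots of polynomials with unit leading coefficient -/

section Val

variable {L : Type*} [Field L] (A : ValuationSubring L)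

/-- a nonzero residue comes from a nonzero element -/
theorem rf12_coe_ne_zero {y : A} (hy : IsLocalRing.residue A y ≠ 0) : (y : L) ≠ 0 := by
  intro h
  apply hy
  have : y = 0 := Subtype.ext h
  rw [this, map_zero]

/-- roots (in `L`) of a polynomial over `A` with unit leading coefficient lie in `A`. -/
theorem rf12_mem_of_root {G : Polynomial A} {d : ℕ} (hdeg : G.natDegree ≤ d)
    (hu : IsUnit (G.coeff d)) {x : L} (hx : (G.map A.subtype).eval x = 0) : x ∈ A := by
  obtain ⟨u, hu'⟩ := hu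
  set G' : Polynomial A := C (↑u⁻¹ : A) * G with hG'
  have hc : G'.coeff d = 1 := by
    rw [hG', coeff_C_mul, ← hu']
    exact Units.inv_mul u
  have hdeg' : G'.natDegree ≤ d := (natDegree_C_mul_le _ _).trans hdeg
  have hnat : G'.natDegree = d :=
    le_antisymm hdeg' (le_natDegree_of_ne_zero (by rw [hc]; exact one_ne_zero))
  have hmonic : G'.Monic := by rw [Monic, leadingCoeff, hnat, hc]
  have hint : IsIntegral A x := by
    refine ⟨G', hmonic, ?_⟩
    show eval₂ A.subtype x G' = 0
    rw [← eval_map, hG', Polynomial.map_mul, eval_mul, hx, mul_zero]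
  obtain ⟨y, hy⟩ := IsIntegrallyClosed.isIntegral_iff.mp hint
  rw [← hy]
  exact y.2

/-- square roots of elements of `A` lie in `A`. -/
theorem rf12_mem_of_sq_mem {y : L} (h : y ^ 2 ∈ A) : y ∈ A := by
  rw [← A.valuation_le_one_iff] at h ⊢
  rw [map_pow] at h
  by_contra hcon
  rw [not_le] at hcon
  exact absurd h (not_le.mpr (one_lt_pow₀ hcon (by norm_num)))

theorem rf12_eval_coe (G : Polynomial A) (x : A) :
    (G.map A.subtype).eval (x : L) = ((G.eval x : A) : L) := by
  rw [eval_map]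
  exact eval₂_at_apply A.subtype x

theorem rf12_eval_res (G : Polynomial A) (x : A) :
    (G.map (IsLocalRing.residue A)).eval (IsLocalRing.residue A x) =
      IsLocalRing.residue A (G.eval x) := by
  rw [eval_map]
  exact eval₂_at_apply (IsLocalRing.residue A) x

/-- **Root lifting.** If `G` has unit leading coefficient and `L` is algebraically closed, every
root of the reduction of `G` is the residue of a root of `G` in `A`. -/
theorem rf12_root_lift [IsAlgClosed L] {G : Polynomial A} {d : ℕ} (hdeg : G.natDegree ≤ d)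
    (hu : IsUnit (G.coeff d)) (ξ : IsLocalRing.ResidueField A)
    (hξ : (G.map (IsLocalRing.residue A)).eval ξ = 0) :
    ∃ r : A, G.eval r = 0 ∧ IsLocalRing.residue A r = ξ := by
  by_contra hcon'
  have hcon : ∀ r : A, G.eval r = 0 → IsLocalRing.residue A r ≠ ξ :=
    fun r hr hres => hcon' ⟨r, hr, hres⟩
  obtain ⟨x, rfl⟩ := IsLocalRing.residue_surjective ξ
  set G₀ : Polynomial L := G.map A.subtype with hG₀
  have hcoeff : G₀.coeff d = ((G.coeff d : A) : L) := by
    rw [hG₀, coeff_map]; rfl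
  have hcne : G₀.coeff d ≠ 0 := by
    rw [hcoeff]
    intro h
    have h0 : G.coeff d = 0 := Subtype.ext h
    rw [h0] at hu
    exact not_isUnit_zero hu
  have hnat : G₀.natDegree = d :=
    le_antisymm (natDegree_map_le.trans hdeg) (le_natDegree_of_ne_zero hcne)
  have hlead : A.valuation G₀.leadingCoeff = 1 := by
    rw [leadingCoeff, hnat, hcoeff]
    exact (A.valuation_eq_one_iff _).mp hu
  have hroots : ∀ r ∈ G₀.roots, A.valuation ((x : L) - r) = 1 := by
    intro r hr
    have hr0 : G₀.eval r = 0 := (mem_roots'.mp hr).2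
    have hrA : r ∈ A := rf12_mem_of_root A hdeg hu hr0
    have hrz : G.eval (⟨r, hrA⟩ : A) = 0 := by
      apply Subtype.ext
      rw [← rf12_eval_coe]
      exact hr0
    have hne := hcon ⟨r, hrA⟩ hrz
    have hunit : IsUnit (x - ⟨r, hrA⟩ : A) := by
      rw [← IsLocalRing.residue_ne_zero_iff_isUnit, map_sub, sub_ne_zero]
      exact fun h => hne h.symm
    exact (A.valuation_eq_one_iff _).mp hunit
  have hprod : A.valuation ((G₀.roots.map fun r => (x : L) - r).prod) = 1 := by
    rw [map_multiset_prod, Multiset.map_map]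
    apply Multiset.prod_eq_one
    intro y hy
    rw [Multiset.mem_map] at hy
    obtain ⟨r, hr, rfl⟩ := hy
    exact hroots r hr
  have heval : A.valuation (G₀.eval (x : L)) = 1 := by
    rw [(IsAlgClosed.splits G₀).eval_eq_prod_roots, map_mul, hlead, hprod, mul_one]
  rw [rf12_eval_coe] at heval
  have hunit : IsUnit (G.eval x) := (A.valuation_eq_one_iff _).mpr heval
  rw [← IsLocalRing.residue_ne_zero_iff_isUnit, ← rf12_eval_res] at hunit
  exact hunit hξ

/-- Two distinct roots in `A` with the same residue force a multiple root of the reduction. -/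
theorem rf12_not_separable_of_roots {G : Polynomial A} {x x' : A} (hx : G.eval x = 0)
    (hx' : G.eval x' = 0) (hne : x ≠ x')
    (hres : IsLocalRing.residue A x = IsLocalRing.residue A x') :
    ¬ (G.map (IsLocalRing.residue A)).Separable := by
  intro hsep
  have h1 : (X - C x) * (G /ₘ (X - C x)) = G := mul_divByMonic_eq_iff_isRoot.mpr hx
  set G1 := G /ₘ (X - C x) with hG1
  have h2 : G1.eval x' = 0 := by
    have h3 : (x' - x) * G1.eval x' = 0 := by
      have := congrArg (eval x') h1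
      rw [eval_mul, eval_sub, eval_X, eval_C, hx'] at this
      exact this
    rcases mul_eq_zero.mp h3 with h | h
    · exact absurd (sub_eq_zero.mp h).symm hne
    · exact h
  have h4 : (X - C x') * (G1 /ₘ (X - C x')) = G1 := mul_divByMonic_eq_iff_isRoot.mpr h2
  set G2 := G1 /ₘ (X - C x') with hG2
  have h5 : G.map (IsLocalRing.residue A) =
      (X - C (IsLocalRing.residue A x)) * (X - C (IsLocalRing.residue A x)) *
        G2.map (IsLocalRing.residue A) := by
    conv_lhs => rw [← h1, ← h4]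
    rw [Polynomial.map_mul, Polynomial.map_mul, Polynomial.map_sub, Polynomial.map_sub, map_X,
      map_C, map_C, ← hres]
    ring
  have h6 := hsep.squarefree (X - C (IsLocalRing.residue A x)) ⟨_, h5⟩
  exact not_isUnit_X_sub_C _ h6

end Val

/-! ### The reduction map on odd torsion -/

section RedDef

variable {L : Type*} [Field L] (A : ValuationSubring L)

/-- Coordinatewise reduction of the points of a Frey model with normalised coordinates in `A`
(all other points are sent to `0`). -/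
noncomputable def rf12_red (W : WeierstrassCurve L)
    (W0 : WeierstrassCurve (IsLocalRing.ResidueField A)) (P : W.toAffine.Point) :
    W0.toAffine.Point :=
  open Classical in
  if h : P ≠ 0 ∧ ptX P ∈ A ∧ ptY P ∈ A then
    rf12_pt W0 (IsLocalRing.residue A ⟨ptX P, h.2.1⟩) (IsLocalRing.residue A ⟨ptY P, h.2.2⟩)
  else 0

/-- The standing hypotheses: `2`, `2m+1`, `a`, `b`, `a+b` are units of `A` (stated on residues),
`W` is the Frey model with parameters `a`, `b` over `L`, `W0` the one with the reduced parameters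
over the residue field. -/
structure rf12_Data (a b : A) (m : ℕ) (W : WeierstrassCurve L)
    (W0 : WeierstrassCurve (IsLocalRing.ResidueField A)) : Prop where
  hm : 1 ≤ m
  h2 : (2 : IsLocalRing.ResidueField A) ≠ 0
  ha : IsLocalRing.residue A a ≠ 0
  hb : IsLocalRing.residue A b ≠ 0
  hab : IsLocalRing.residue A a + IsLocalRing.residue A b ≠ 0
  hp : ((2 * m + 1 : ℕ) : IsLocalRing.ResidueField A) ≠ 0
  hW : IsFreyModel W (a : L) (b : L)
  hW0 : IsFreyModel W0 (IsLocalRing.residue A a) (IsLocalRing.residue A b)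

variable {A} {a b : A} {m : ℕ} {W : WeierstrassCurve L}
  {W0 : WeierstrassCurve (IsLocalRing.ResidueField A)}

theorem rf12_Data.h2L (D : rf12_Data A a b m W W0) : (2 : L) ≠ 0 := by
  have h : IsLocalRing.residue A (2 : A) ≠ 0 := by rw [map_ofNat]; exact D.h2
  exact rf12_coe_ne_zero A h

theorem rf12_Data.haL (D : rf12_Data A a b m W W0) : (a : L) ≠ 0 := rf12_coe_ne_zero A D.ha

theorem rf12_Data.hbL (D : rf12_Data A a b m W W0) : (b : L) ≠ 0 := rf12_coe_ne_zero A D.hb

theorem rf12_Data.habL (D : rf12_Data A a b m W W0) : (a : L) + (b : L) ≠ 0 := by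
  have h : IsLocalRing.residue A (a + b) ≠ 0 := by rw [map_add]; exact D.hab
  exact rf12_coe_ne_zero A h

theorem rf12_Data.hpL (D : rf12_Data A a b m W W0) : ((2 * m + 1 : ℕ) : L) ≠ 0 := by
  have h : IsLocalRing.residue A ((2 * m + 1 : ℕ) : A) ≠ 0 := by rw [map_natCast]; exact D.hp
  have := rf12_coe_ne_zero A h
  rw [← map_natCast A.subtype]
  exact this

/-- the leading coefficient `-(2m+1)` of `ladG a b m` is a unit of `A`. -/
theorem rf12_Data.unit_lead (D : rf12_Data A a b m W W0) :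
    IsUnit ((ladG a b m).coeff (2 * m ^ 2 + 2 * m)) := by
  rw [(ladG_lead a b D.hm).2, ← IsLocalRing.residue_ne_zero_iff_isUnit, map_neg, neg_ne_zero,
    map_natCast]
  exact D.hp

theorem rf12_Data.ladG_L (_D : rf12_Data A a b m W W0) :
    ladG (a : L) (b : L) m = (ladG a b m).map A.subtype :=
  ladG_map A.subtype a b m

theorem rf12_Data.ladG_k (_D : rf12_Data A a b m W W0) :
    ladG (IsLocalRing.residue A a) (IsLocalRing.residue A b) m =
      (ladG a b m).map (IsLocalRing.residue A) :=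
  ladG_map (IsLocalRing.residue A) a b m

theorem rf12_red_zero : rf12_red A W W0 (0 : W.toAffine.Point) = 0 := by
  unfold rf12_red
  rw [dif_neg]
  exact fun h => h.1 rfl

/-- the reduced coordinates satisfy the reduced equation. -/
theorem rf12_res_eq (D : rf12_Data A a b m W W0) (P : W.toAffine.Point)
    (hx : ptX P ∈ A) (hy : ptY P ∈ A) :
    IsLocalRing.residue A ⟨ptY P, hy⟩ ^ 2 =
      IsLocalRing.residue A ⟨ptX P, hx⟩ *
        (IsLocalRing.residue A ⟨ptX P, hx⟩ - IsLocalRing.residue A a) *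
        (IsLocalRing.residue A ⟨ptX P, hx⟩ + IsLocalRing.residue A b) := by
  have e : (⟨ptY P, hy⟩ : A) ^ 2 = ⟨ptX P, hx⟩ * (⟨ptX P, hx⟩ - a) * (⟨ptX P, hx⟩ + b) := by
    apply Subtype.ext
    push_cast
    exact ptY_sq D.hW P
  have := congrArg (IsLocalRing.residue A) e
  rwa [map_pow, map_mul, map_mul, map_sub, map_add] at this

end RedDef

section Red

variable {L : Type*} [Field L] [DecidableEq L] {A : ValuationSubring L}
  [DecidableEq (IsLocalRing.ResidueField A)] {a b : A} {m : ℕ} {W : WeierstrassCurve L}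
  {W0 : WeierstrassCurve (IsLocalRing.ResidueField A)}

omit [DecidableEq (IsLocalRing.ResidueField A)] in
/-- **Integrality**: nonzero `(2m+1)`-torsion points have normalised coordinates in `A`. -/
theorem rf12_integral (D : rf12_Data A a b m W W0) {P : W.toAffine.Point} (hP0 : P ≠ 0)
    (hP : (2 * m + 1) • P = 0) : ptX P ∈ A ∧ ptY P ∈ A := by
  have hroot := (ft12_smul_eq_zero_iff_ladG D.hW D.h2L D.haL D.hbL D.habL D.hm hP0).mp hP
  rw [D.ladG_L] at hroot
  have hx : ptX P ∈ A := rf12_mem_of_root A (ladG_lead a b D.hm).1 D.unit_lead hroot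
  refine ⟨hx, rf12_mem_of_sq_mem A ?_⟩
  rw [ptY_sq D.hW P]
  exact mul_mem (mul_mem hx (sub_mem hx a.2)) (add_mem hx b.2)

omit [DecidableEq (IsLocalRing.ResidueField A)] in
/-- the normalised `X`-coordinate of a torsion point is a root of `ladG a b m` in `A`. -/
theorem rf12_root (D : rf12_Data A a b m W W0) {P : W.toAffine.Point} (hP0 : P ≠ 0)
    (hP : (2 * m + 1) • P = 0) (hx : ptX P ∈ A) : (ladG a b m).eval (⟨ptX P, hx⟩ : A) = 0 := by
  have hroot := (ft12_smul_eq_zero_iff_ladG D.hW D.h2L D.haL D.hbL D.habL D.hm hP0).mp hP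
  rw [D.ladG_L] at hroot
  apply Subtype.ext
  rw [← rf12_eval_coe]
  exact hroot

omit [DecidableEq (IsLocalRing.ResidueField A)] in
/-- **Coordinates of the reduction** of a nonzero torsion point. -/
theorem rf12_red_spec (D : rf12_Data A a b m W W0) {P : W.toAffine.Point} (hP0 : P ≠ 0)
    (hP : (2 * m + 1) • P = 0) :
    ∃ (hx : ptX P ∈ A) (hy : ptY P ∈ A), rf12_red A W W0 P ≠ 0 ∧
      ptX (rf12_red A W W0 P) = IsLocalRing.residue A ⟨ptX P, hx⟩ ∧
      ptY (rf12_red A W W0 P) = IsLocalRing.residue A ⟨ptY P, hy⟩ := by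
  obtain ⟨hx, hy⟩ := rf12_integral D hP0 hP
  refine ⟨hx, hy, ?_⟩
  unfold rf12_red
  rw [dif_pos ⟨hP0, hx, hy⟩]
  exact rf12_pt_spec D.hW0 D.h2 D.ha D.hb D.hab _ _ (rf12_res_eq D P hx hy)

omit [DecidableEq (IsLocalRing.ResidueField A)] in
theorem rf12_red_ne_zero (D : rf12_Data A a b m W W0) {P : W.toAffine.Point} (hP0 : P ≠ 0)
    (hP : (2 * m + 1) • P = 0) : rf12_red A W W0 P ≠ 0 :=
  (rf12_red_spec D hP0 hP).choose_spec.choose_spec.1

/-- **The reduction of a torsion point is a torsion point.** -/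
theorem rf12_red_torsion (D : rf12_Data A a b m W W0) {P : W.toAffine.Point}
    (hP : (2 * m + 1) • P = 0) : (2 * m + 1) • rf12_red A W W0 P = 0 := by
  by_cases hP0 : P = 0
  · rw [hP0, rf12_red_zero, nsmul_zero]
  obtain ⟨hx, hy, hne, hX, -⟩ := rf12_red_spec D hP0 hP
  rw [ft12_smul_eq_zero_iff_ladG D.hW0 D.h2 D.ha D.hb D.hab D.hm hne, hX, D.ladG_k,
    rf12_eval_res, rf12_root D hP0 hP hx, map_zero]

/-- **Reduction commutes with negation.** -/
theorem rf12_red_neg (D : rf12_Data A a b m W W0) {P : W.toAffine.Point}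
    (hP : (2 * m + 1) • P = 0) : rf12_red A W W0 (-P) = -rf12_red A W W0 P := by
  by_cases hP0 : P = 0
  · rw [hP0, neg_zero, rf12_red_zero, neg_zero]
  have hP0' : -P ≠ 0 := neg_ne_zero.mpr hP0
  have hP' : (2 * m + 1) • (-P) = 0 := by rw [neg_nsmul, hP, neg_zero]
  obtain ⟨hx, hy, hne, hX, hY⟩ := rf12_red_spec D hP0 hP
  obtain ⟨hx', hy', hne', hX', hY'⟩ := rf12_red_spec D hP0' hP'
  refine eq_of_ptX_eq_of_ptY_eq D.h2 hne' (neg_ne_zero.mpr hne) ?_ ?_
  · rw [hX', ptX_neg (rf12_red A W W0 P), hX]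
    exact congrArg (IsLocalRing.residue A) (Subtype.ext (ptX_neg P))
  · rw [hY', ptY_neg D.hW0 (rf12_red A W W0 P), hY, ← map_neg]
    exact congrArg (IsLocalRing.residue A) (Subtype.ext (ptY_neg D.hW P))

/-- **Injectivity** of the reduction on `(2m+1)`-torsion. -/
theorem rf12_red_injOn (D : rf12_Data A a b m W W0) {P P' : W.toAffine.Point}
    (hP : (2 * m + 1) • P = 0) (hP' : (2 * m + 1) • P' = 0)
    (h : rf12_red A W W0 P = rf12_red A W W0 P') : P = P' := by
  by_cases hP0 : P = 0
  · by_cases hP0' : P' = 0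
    · rw [hP0, hP0']
    · exfalso
      rw [hP0, rf12_red_zero] at h
      exact rf12_red_ne_zero D hP0' hP' h.symm
  by_cases hP0' : P' = 0
  · exfalso
    rw [hP0', rf12_red_zero] at h
    exact rf12_red_ne_zero D hP0 hP h
  obtain ⟨hx, hy, hne, hX, hY⟩ := rf12_red_spec D hP0 hP
  obtain ⟨hx', hy', hne', hX', hY'⟩ := rf12_red_spec D hP0' hP'
  have hXres : IsLocalRing.residue A ⟨ptX P, hx⟩ = IsLocalRing.residue A ⟨ptX P', hx'⟩ := by
    rw [← hX, ← hX', h]
  have hXeq : ptX P = ptX P' := by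
    by_contra hne
    have hneA : (⟨ptX P, hx⟩ : A) ≠ ⟨ptX P', hx'⟩ := fun e => hne (congrArg Subtype.val e)
    have hsep : ((ladG a b m).map (IsLocalRing.residue A)).Separable := by
      rw [← D.ladG_k]
      exact ft12_ladG_separable _ _ D.h2 D.ha D.hb D.hab D.hm D.hp
    exact rf12_not_separable_of_roots A (rf12_root D hP0 hP hx) (rf12_root D hP0' hP' hx') hneA
      hXres hsep
  rcases eq_or_eq_neg_of_ptX_eq D.h2L hP0 hP0' hXeq with h1 | h1
  · exact h1
  · exfalso
    have h2 : rf12_red A W W0 P = -rf12_red A W W0 P := by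
      conv_lhs => rw [h1, rf12_red_neg D hP', ← h]
    exact hne (rf12_eq_zero_of_eq_neg (rf12_red_torsion D hP) h2)

/-- **Lifting**: every `(2m+1)`-torsion point of `W0` is the reduction of a `(2m+1)`-torsion
point of `W`. -/
theorem rf12_red_lift [IsAlgClosed L] (D : rf12_Data A a b m W W0) {Q : W0.toAffine.Point}
    (hQ : (2 * m + 1) • Q = 0) :
    ∃ P : W.toAffine.Point, (2 * m + 1) • P = 0 ∧ rf12_red A W W0 P = Q := by
  by_cases hQ0 : Q = 0
  · exact ⟨0, nsmul_zero _, by rw [rf12_red_zero, hQ0]⟩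
  have hroot := (ft12_smul_eq_zero_iff_ladG D.hW0 D.h2 D.ha D.hb D.hab D.hm hQ0).mp hQ
  rw [D.ladG_k] at hroot
  obtain ⟨r, hr, hrres⟩ := rf12_root_lift A (ladG_lead a b D.hm).1 D.unit_lead _ hroot
  obtain ⟨Y, hY⟩ := IsAlgClosed.exists_pow_nat_eq ((r : L) * ((r : L) - a) * ((r : L) + b))
    (n := 2) (by norm_num)
  have hYA : Y ∈ A := rf12_mem_of_sq_mem A (by
    rw [hY]; exact mul_mem (mul_mem r.2 (sub_mem r.2 a.2)) (add_mem r.2 b.2))
  have hYres : IsLocalRing.residue A ⟨Y, hYA⟩ ^ 2 = ptY Q ^ 2 := by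
    rw [ptY_sq D.hW0 Q, ← hrres]
    have e : (⟨Y, hYA⟩ : A) ^ 2 = r * (r - a) * (r + b) := by
      apply Subtype.ext
      push_cast
      exact hY
    have := congrArg (IsLocalRing.residue A) e
    rwa [map_pow, map_mul, map_mul, map_sub, map_add] at this
  obtain ⟨Y', hY', hY'A, hY'res⟩ : ∃ Y' : L, Y' ^ 2 = (r : L) * ((r : L) - a) * ((r : L) + b) ∧
      ∃ h : Y' ∈ A, IsLocalRing.residue A ⟨Y', h⟩ = ptY Q := by
    rcases sq_eq_sq_iff_eq_or_eq_neg.mp hYres with h | h
    · exact ⟨Y, hY, hYA, h⟩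
    · refine ⟨-Y, by rw [neg_sq]; exact hY, neg_mem hYA, ?_⟩
      have e : (⟨-Y, neg_mem hYA⟩ : A) = -⟨Y, hYA⟩ := rfl
      rw [e, map_neg, h, neg_neg]
  obtain ⟨hPne, hPX, hPY⟩ := rf12_pt_spec D.hW D.h2L D.haL D.hbL D.habL (r : L) Y' hY'
  have hPtors : (2 * m + 1) • rf12_pt W (r : L) Y' = 0 := by
    rw [ft12_smul_eq_zero_iff_ladG D.hW D.h2L D.haL D.hbL D.habL D.hm hPne, hPX, D.ladG_L,
      rf12_eval_coe, hr]
    rfl
  refine ⟨rf12_pt W (r : L) Y', hPtors, ?_⟩
  obtain ⟨hx, hy, hne, hX, hY2⟩ := rf12_red_spec D hPne hPtors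
  refine eq_of_ptX_eq_of_ptY_eq D.h2 hne hQ0 ?_ ?_
  · rw [hX, ← hrres]
    exact congrArg (IsLocalRing.residue A) (Subtype.ext hPX)
  · rw [hY2, ← hY'res]
    exact congrArg (IsLocalRing.residue A) (Subtype.ext hPY)

omit [DecidableEq (IsLocalRing.ResidueField A)] in
/-- **Frobenius on coordinates**: if the normalised coordinates of `P'` are congruent to the
`ℓ`-th powers of those of `P` modulo the maximal ideal, the same holds exactly for the
reductions. -/
theorem rf12_red_frob (D : rf12_Data A a b m W W0) {P P' : W.toAffine.Point} (hP0 : P ≠ 0)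
    (hP : (2 * m + 1) • P = 0) (hP0' : P' ≠ 0) (hP' : (2 * m + 1) • P' = 0) (ℓ : ℕ)
    (hXc : ptX P' - ptX P ^ ℓ ∈ A.nonunits) (hYc : ptY P' - ptY P ^ ℓ ∈ A.nonunits) :
    ptX (rf12_red A W W0 P') = ptX (rf12_red A W W0 P) ^ ℓ ∧
      ptY (rf12_red A W W0 P') = ptY (rf12_red A W W0 P) ^ ℓ := by
  obtain ⟨hx, hy, -, hX, hY⟩ := rf12_red_spec D hP0 hP
  obtain ⟨hx', hy', -, hX', hY'⟩ := rf12_red_spec D hP0' hP'
  have key : ∀ (z z' : L) (hz : z ∈ A) (hz' : z' ∈ A), z' - z ^ ℓ ∈ A.nonunits →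
      IsLocalRing.residue A ⟨z', hz'⟩ = IsLocalRing.residue A ⟨z, hz⟩ ^ ℓ := by
    intro z z' hz hz' hc
    rw [← map_pow, ← sub_eq_zero, ← map_sub, IsLocalRing.residue_eq_zero_iff,
      ← ValuationSubring.coe_mem_nonunits_iff]
    exact hc
  exact ⟨by rw [hX', hX]; exact key _ _ hx hx' hXc, by rw [hY', hY]; exact key _ _ hy hy' hYc⟩

end Red

end Fermat.Agent.S41
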