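/-
S41 / M5.F3 (helper12): reduction of the odd torsion of a general Weierstrass curve with good
reduction over a valuation ring (W-level package on top of `RedFrey12`, `VarChange83`,
`FreyForm83`).

`L` algebraically closed, `A : ValuationSubring L` with residue field `k`; `WL` a Weierstrass
curve over `L` whose coefficients lie in `A`, `Wk` the curve over `k` with the reduced
coefficients; `2`, `2m+1` and `Δ` units.  Then there is a map `red` from the points of `WL` to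
the points of `Wk` which on `(2m+1)`-torsion is coordinatewise reduction, injective, onto the
`(2m+1)`-torsion of `Wk`, and compatible with negation.
-/
import Mathlib
import Fermat.Agent.S41.RedFrey12
import Fermat.Agent.S41.VarChange83
import Fermat.Agent.S41.FreyForm83

set_option autoImplicit false

open Polynomial WeierstrassCurve WeierstrassCurve.Affine

namespace Fermat.Agent.S41

open Fermat.Agent.S05 Fermat.Agent.S13

/-! ### The relation "`z ∈ A` and `z` reduces to `ζ`" -/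

section RedRel

variable {L : Type*} [Field L] (A : ValuationSubring L)

/-- `z` lies in `A` and its residue is `ζ`. -/
def rw12_Red (z : L) (ζ : IsLocalRing.ResidueField A) : Prop :=
  ∃ h : z ∈ A, IsLocalRing.residue A ⟨z, h⟩ = ζ

variable {A}

theorem rw12_Red.of (w : A) : rw12_Red A (w : L) (IsLocalRing.residue A w) := ⟨w.2, rfl⟩

theorem rw12_Red.mem {z : L} {ζ : IsLocalRing.ResidueField A} (h : rw12_Red A z ζ) : z ∈ A := h.1

theorem rw12_Red.unique {z : L} {ζ ζ' : IsLocalRing.ResidueField A} (h : rw12_Red A z ζ)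
    (h' : rw12_Red A z ζ') : ζ = ζ' := by
  obtain ⟨hz, rfl⟩ := h
  obtain ⟨hz', rfl⟩ := h'
  rfl

theorem rw12_Red.congr {z z' : L} {ζ ζ' : IsLocalRing.ResidueField A} (h : rw12_Red A z ζ)
    (hz : z = z') (hζ : ζ = ζ') : rw12_Red A z' ζ' := by
  subst hz; subst hζ; exact h

theorem rw12_Red.add {z z' : L} {ζ ζ' : IsLocalRing.ResidueField A} (h : rw12_Red A z ζ)
    (h' : rw12_Red A z' ζ') : rw12_Red A (z + z') (ζ + ζ') := by
  obtain ⟨hz, rfl⟩ := h
  obtain ⟨hz', rfl⟩ := h'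
  exact ⟨add_mem hz hz', by rw [← map_add]; rfl⟩

theorem rw12_Red.mul {z z' : L} {ζ ζ' : IsLocalRing.ResidueField A} (h : rw12_Red A z ζ)
    (h' : rw12_Red A z' ζ') : rw12_Red A (z * z') (ζ * ζ') := by
  obtain ⟨hz, rfl⟩ := h
  obtain ⟨hz', rfl⟩ := h'
  exact ⟨mul_mem hz hz', by rw [← map_mul]; rfl⟩

theorem rw12_Red.neg {z : L} {ζ : IsLocalRing.ResidueField A} (h : rw12_Red A z ζ) :
    rw12_Red A (-z) (-ζ) := by
  obtain ⟨hz, rfl⟩ := h
  exact ⟨neg_mem hz, by rw [← map_neg]; rfl⟩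

theorem rw12_Red.sub {z z' : L} {ζ ζ' : IsLocalRing.ResidueField A} (h : rw12_Red A z ζ)
    (h' : rw12_Red A z' ζ') : rw12_Red A (z - z') (ζ - ζ') := by
  rw [sub_eq_add_neg, sub_eq_add_neg]
  exact h.add h'.neg

theorem rw12_Red.zero : rw12_Red A (0 : L) 0 := ⟨zero_mem A, by
  have : (⟨0, zero_mem A⟩ : A) = 0 := rfl
  rw [this, map_zero]⟩

theorem rw12_Red.one : rw12_Red A (1 : L) 1 := ⟨one_mem A, by
  have : (⟨1, one_mem A⟩ : A) = 1 := rfl
  rw [this, map_one]⟩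

theorem rw12_Red.pow {z : L} {ζ : IsLocalRing.ResidueField A} (h : rw12_Red A z ζ) (n : ℕ) :
    rw12_Red A (z ^ n) (ζ ^ n) := by
  induction n with
  | zero => simpa using rw12_Red.one
  | succ n ih => rw [pow_succ, pow_succ]; exact ih.mul h

theorem rw12_Red.natCast (n : ℕ) : rw12_Red A (n : L) (n : IsLocalRing.ResidueField A) := by
  induction n with
  | zero => simpa using rw12_Red.zero
  | succ n ih => rw [Nat.cast_succ, Nat.cast_succ]; exact ih.add rw12_Red.one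

theorem rw12_Red.intCast (n : ℤ) : rw12_Red A (n : L) (n : IsLocalRing.ResidueField A) := by
  cases n with
  | ofNat n => simpa using rw12_Red.natCast n
  | negSucc n =>
    rw [Int.cast_negSucc, Int.cast_negSucc]
    exact (rw12_Red.natCast (n + 1)).neg

theorem rw12_Red.ofNat (n : ℕ) [n.AtLeastTwo] :
    rw12_Red A (OfNat.ofNat n : L) (OfNat.ofNat n : IsLocalRing.ResidueField A) := by
  exact (rw12_Red.natCast (A := A) n).congr Nat.cast_ofNat Nat.cast_ofNat

theorem rw12_Red.inv {z : L} {ζ : IsLocalRing.ResidueField A} (h : rw12_Red A z ζ)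
    (hζ : ζ ≠ 0) : rw12_Red A z⁻¹ ζ⁻¹ := by
  obtain ⟨hz, rfl⟩ := h
  have hu : IsUnit (⟨z, hz⟩ : A) := (IsLocalRing.residue_ne_zero_iff_isUnit _).mp hζ
  obtain ⟨u, hu'⟩ := hu
  have h1 : ((u : A) : L) * ((↑u⁻¹ : A) : L) = 1 :=
    congrArg Subtype.val (Units.mul_inv u)
  have e : ((↑u⁻¹ : A) : L) = z⁻¹ := by
    rw [hu'] at h1
    exact eq_inv_of_mul_eq_one_right h1
  have hm : z⁻¹ ∈ A := e ▸ (↑u⁻¹ : A).2
  refine ⟨hm, ?_⟩
  have e2 : (⟨z⁻¹, hm⟩ : A) = ↑u⁻¹ := Subtype.ext e.symm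
  rw [e2, map_units_inv, hu']

theorem rw12_Red.div {z z' : L} {ζ ζ' : IsLocalRing.ResidueField A} (h : rw12_Red A z ζ)
    (h' : rw12_Red A z' ζ') (hζ : ζ' ≠ 0) : rw12_Red A (z / z') (ζ / ζ') := by
  rw [div_eq_mul_inv, div_eq_mul_inv]
  exact h.mul (h'.inv hζ)

theorem rw12_Red.of_nonunits {z : L} (h : z ∈ A.nonunits) : rw12_Red A z 0 := by
  obtain ⟨hz, hm⟩ := ValuationSubring.mem_nonunits_iff_exists_mem_maximalIdeal.mp h
  exact ⟨hz, (IsLocalRing.residue_eq_zero_iff _).mpr hm⟩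

/-- a nonzero residue forces a nonzero element -/
theorem rw12_Red.ne_zero {z : L} {ζ : IsLocalRing.ResidueField A} (h : rw12_Red A z ζ)
    (hζ : ζ ≠ 0) : z ≠ 0 := by
  rintro rfl
  exact hζ (h.unique rw12_Red.zero)

/-- Frobenius congruence: `z' ≡ z ^ ℓ` modulo the maximal ideal. -/
theorem rw12_Red.frob {z z' : L} {ζ : IsLocalRing.ResidueField A} (h : rw12_Red A z ζ) (ℓ : ℕ)
    (hc : z' - z ^ ℓ ∈ A.nonunits) : rw12_Red A z' (ζ ^ ℓ) := by
  have := (rw12_Red.of_nonunits hc).add (h.pow ℓ)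
  exact this.congr (by ring) (by ring)

end RedRel

/-! ### The W-level reduction package -/

section Compat

variable {L : Type*} [Field L] (A : ValuationSubring L)

/-- `WL` has coefficients in `A` reducing to those of `Wk`; `2` and `Δ` are units. -/
structure rw12_Compat (WL : WeierstrassCurve L)
    (Wk : WeierstrassCurve (IsLocalRing.ResidueField A)) : Prop where
  h₁ : rw12_Red A WL.a₁ Wk.a₁
  h₂ : rw12_Red A WL.a₂ Wk.a₂
  h₃ : rw12_Red A WL.a₃ Wk.a₃
  h₄ : rw12_Red A WL.a₄ Wk.a₄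
  h₆ : rw12_Red A WL.a₆ Wk.a₆
  h2 : (2 : IsLocalRing.ResidueField A) ≠ 0
  hΔ : Wk.Δ ≠ 0

end Compat

section Main

variable {L : Type*} [Field L] [IsAlgClosed L] (A : ValuationSubring L)
  {WL : WeierstrassCurve L} {Wk : WeierstrassCurve (IsLocalRing.ResidueField A)}

/-- **Frey form over the valuation ring**: the roots of the 2-division cubic lie in `A`, and the
Frey parameters are units. -/
theorem rw12_exists_frey (H : rw12_Compat A WL Wk) {m : ℕ} (hm : 1 ≤ m)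
    (hp : ((2 * m + 1 : ℕ) : IsLocalRing.ResidueField A) ≠ 0) :
    ∃ (e1 : L) (ε1 : IsLocalRing.ResidueField A) (a b : A), rw12_Red A e1 ε1 ∧
      rf12_Data A a b m (ff83_vc WL e1 • WL) (ff83_vc Wk ε1 • Wk) := by
  have h2L : (2 : L) ≠ 0 := (rw12_Red.ofNat (A := A) 2).ne_zero H.h2
  have h4k : (4 : IsLocalRing.ResidueField A) ≠ 0 := by
    have : (4 : IsLocalRing.ResidueField A) = 2 * 2 := by norm_num
    rw [this]; exact mul_ne_zero H.h2 H.h2
  obtain ⟨e1, e2, e3, hs1, hs2, hs3⟩ := ff83_exists_roots WL h2L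
  have hb2 : rw12_Red A WL.b₂ Wk.b₂ := by
    simp only [b₂]
    exact (H.h₁.pow 2).add ((rw12_Red.ofNat 4).mul H.h₂)
  have hb4 : rw12_Red A WL.b₄ Wk.b₄ := by
    simp only [b₄]
    exact ((rw12_Red.ofNat 2).mul H.h₄).add (H.h₁.mul H.h₃)
  have hb6 : rw12_Red A WL.b₆ Wk.b₆ := by
    simp only [b₆]
    exact (H.h₃.pow 2).add ((rw12_Red.ofNat 4).mul H.h₆)
  -- the roots of the cubic lie in `A`
  have hroot : ∀ e : L, 4 * e ^ 3 + WL.b₂ * e ^ 2 + 2 * WL.b₄ * e + WL.b₆ = 0 → e ∈ A := by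
    intro e he
    let G : Polynomial A := C 4 * X ^ 3 + C ⟨WL.b₂, hb2.mem⟩ * X ^ 2 +
      C (2 * ⟨WL.b₄, hb4.mem⟩) * X + C ⟨WL.b₆, hb6.mem⟩
    have hdeg : G.natDegree ≤ 3 := natDegree_cubic_le
    have hc : G.coeff 3 = 4 := by
      simp only [G, coeff_add, coeff_C_mul, coeff_X_pow, coeff_X, coeff_C]
      norm_num
    have hu : IsUnit (G.coeff 3) := by
      rw [hc, ← IsLocalRing.residue_ne_zero_iff_isUnit, map_ofNat]
      exact h4k
    refine rf12_mem_of_root A hdeg hu ?_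
    simp only [G, Polynomial.map_add, Polynomial.map_mul, Polynomial.map_pow, map_C, map_X,
      eval_add, eval_mul, eval_pow, eval_C, eval_X]
    rw [map_mul, map_ofNat, map_ofNat]
    exact he
  have he1A : e1 ∈ A := hroot e1 (by rw [hs1, hs2, hs3]; ring)
  have he2A : e2 ∈ A := hroot e2 (by rw [hs1, hs2, hs3]; ring)
  have he3A : e3 ∈ A := hroot e3 (by rw [hs1, hs2, hs3]; ring)
  have r1 : rw12_Red A e1 (IsLocalRing.residue A ⟨e1, he1A⟩) := ⟨he1A, rfl⟩
  have r2 : rw12_Red A e2 (IsLocalRing.residue A ⟨e2, he2A⟩) := ⟨he2A, rfl⟩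
  have r3 : rw12_Red A e3 (IsLocalRing.residue A ⟨e3, he3A⟩) := ⟨he3A, rfl⟩
  set ε1 := IsLocalRing.residue A ⟨e1, he1A⟩ with hε1
  set ε2 := IsLocalRing.residue A ⟨e2, he2A⟩ with hε2
  set ε3 := IsLocalRing.residue A ⟨e3, he3A⟩ with hε3
  have hs1' : Wk.b₂ = -4 * (ε1 + ε2 + ε3) :=
    (hs1 ▸ hb2).unique (((rw12_Red.ofNat 4).neg).mul ((r1.add r2).add r3))
  have hs2' : Wk.b₄ = 2 * (ε1 * ε2 + ε1 * ε3 + ε2 * ε3) :=
    (hs2 ▸ hb4).unique ((rw12_Red.ofNat 2).mul (((r1.mul r2).add (r1.mul r3)).add (r2.mul r3)))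
  have hs3' : Wk.b₆ = -4 * (ε1 * ε2 * ε3) :=
    (hs3 ▸ hb6).unique (((rw12_Red.ofNat 4).neg).mul ((r1.mul r2).mul r3))
  obtain ⟨hAne, hBne, hABne⟩ := ff83_params_ne_zero Wk H.h2 ε1 ε2 ε3 hs1' hs2' hs3' H.hΔ
  have ea : IsLocalRing.residue A (4 * (⟨e2, he2A⟩ - ⟨e1, he1A⟩)) = 4 * (ε2 - ε1) := by
    rw [map_mul, map_ofNat, map_sub]
  have eb : IsLocalRing.residue A (4 * (⟨e1, he1A⟩ - ⟨e3, he3A⟩)) = 4 * (ε1 - ε3) := by
    rw [map_mul, map_ofNat, map_sub]
  refine ⟨e1, ε1, 4 * (⟨e2, he2A⟩ - ⟨e1, he1A⟩), 4 * (⟨e1, he1A⟩ - ⟨e3, he3A⟩), r1, ?_⟩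
  refine ⟨hm, H.h2, by rw [ea]; exact hAne, by rw [eb]; exact hBne, by rw [ea, eb]; exact hABne,
    hp, ?_, ?_⟩
  · have := ff83_isFreyModel WL h2L e1 e2 e3 hs1 hs2 hs3
    exact this
  · rw [ea, eb]
    exact ff83_isFreyModel Wk H.h2 ε1 ε2 ε3 hs1' hs2' hs3'

omit [IsAlgClosed L] in
theorem rw12_vcX {F : Type*} [Field F] (W : WeierstrassCurve F) (e x : F) :
    vc83_X (ff83_vc W e) x = x + e := by
  simp [vc83_X]

omit [IsAlgClosed L] in
theorem rw12_vcY {F : Type*} [Field F] (W : WeierstrassCurve F) (e x y : F) :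
    vc83_Y (ff83_vc W e) x y = y + (1 - W.a₁) / 2 * x + -(W.a₁ * e + W.a₃) / 2 := by
  simp [vc83_Y]

/-- **The W-level reduction package.**  A map `red` from the points of `WL` to the points of
`Wk` which on `(2m+1)`-torsion preserves torsion, nonvanishing and negation, is injective, hits
every `(2m+1)`-torsion point of `Wk`, and is coordinatewise reduction. -/
theorem rw12_exists_red [DecidableEq L] [DecidableEq (IsLocalRing.ResidueField A)]
    (H : rw12_Compat A WL Wk) {m : ℕ} (hm : 1 ≤ m)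
    (hp : ((2 * m + 1 : ℕ) : IsLocalRing.ResidueField A) ≠ 0) :
    ∃ red : WL.toAffine.Point → Wk.toAffine.Point,
      red 0 = 0 ∧
      (∀ P, (2 * m + 1) • P = 0 → (2 * m + 1) • red P = 0) ∧
      (∀ P, (2 * m + 1) • P = 0 → P ≠ 0 → red P ≠ 0) ∧
      (∀ P, (2 * m + 1) • P = 0 → red (-P) = -red P) ∧
      (∀ P P', (2 * m + 1) • P = 0 → (2 * m + 1) • P' = 0 → red P = red P' → P = P') ∧
      (∀ Q, (2 * m + 1) • Q = 0 → ∃ P, (2 * m + 1) • P = 0 ∧ red P = Q) ∧
      (∀ (x y : L) (h : WL.toAffine.Nonsingular x y),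
        (2 * m + 1) • (Point.some x y h : WL.toAffine.Point) = 0 →
        ∃ (ξ η : IsLocalRing.ResidueField A) (h' : Wk.toAffine.Nonsingular ξ η),
          red (Point.some x y h) = Point.some ξ η h' ∧ rw12_Red A x ξ ∧ rw12_Red A y η) := by
  obtain ⟨e1, ε1, a, b, r1, D⟩ := rw12_exists_frey A H hm hp
  obtain ⟨φL, hφL⟩ : ∃ φ : (ff83_vc WL e1 • WL).toAffine.Point ≃+ WL.toAffine.Point,
      ∀ P, φ P = vc83_map (ff83_vc WL e1) rfl P := ⟨vc83_addEquiv (ff83_vc WL e1) rfl, fun _ => rfl⟩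
  obtain ⟨φk, hφk⟩ : ∃ φ : (ff83_vc Wk ε1 • Wk).toAffine.Point ≃+ Wk.toAffine.Point,
      ∀ P, φ P = vc83_map (ff83_vc Wk ε1) rfl P := ⟨vc83_addEquiv (ff83_vc Wk ε1) rfl, fun _ => rfl⟩
  have tors : ∀ P : WL.toAffine.Point, (2 * m + 1) • P = 0 → (2 * m + 1) • φL.symm P = 0 := by
    intro P hP
    rw [← map_nsmul, hP, map_zero]
  refine ⟨fun P => φk (rf12_red A _ _ (φL.symm P)), ?_, ?_, ?_, ?_, ?_, ?_, ?_⟩
  · show φk (rf12_red A _ _ (φL.symm 0)) = 0
    rw [map_zero, rf12_red_zero, map_zero]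
  · intro P hP
    show (2 * m + 1) • φk (rf12_red A _ _ (φL.symm P)) = 0
    rw [← map_nsmul, rf12_red_torsion D (tors P hP), map_zero]
  · intro P hP hP0 h
    have h1 : rf12_red A (ff83_vc WL e1 • WL) (ff83_vc Wk ε1 • Wk) (φL.symm P) = 0 := by
      apply φk.injective
      rw [map_zero]
      exact h
    refine rf12_red_ne_zero D (fun h0 => hP0 ?_) (tors P hP) h1
    have := congrArg φL h0
    rwa [AddEquiv.apply_symm_apply, map_zero] at this
  · intro P hP
    show φk (rf12_red A _ _ (φL.symm (-P))) = -φk (rf12_red A _ _ (φL.symm P))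
    rw [map_neg, rf12_red_neg D (tors P hP), map_neg]
  · intro P P' hP hP' h
    exact φL.symm.injective (rf12_red_injOn D (tors P hP) (tors P' hP') (φk.injective h))
  · intro Q hQ
    have hQ' : (2 * m + 1) • φk.symm Q = 0 := by rw [← map_nsmul, hQ, map_zero]
    obtain ⟨P, hP, hPQ⟩ := rf12_red_lift D hQ'
    refine ⟨φL P, by rw [← map_nsmul, hP, map_zero], ?_⟩
    show φk (rf12_red A _ _ (φL.symm (φL P))) = Q
    rw [AddEquiv.symm_apply_apply, hPQ, AddEquiv.apply_symm_apply]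
  · intro x y h hP
    have hP't := tors _ hP
    have hP'0 : φL.symm (Point.some x y h) ≠ 0 := by
      intro h0
      have := congrArg φL h0
      rw [AddEquiv.apply_symm_apply, map_zero] at this
      exact Point.some_ne_zero h this
    obtain ⟨hx, hy, hne, hX, hY⟩ := rf12_red_spec D hP'0 hP't
    have hφ : φL (φL.symm (Point.some x y h)) = Point.some x y h := AddEquiv.apply_symm_apply _ _
    show ∃ (ξ η : IsLocalRing.ResidueField A) (h' : Wk.toAffine.Nonsingular ξ η),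
      φk (rf12_red A _ _ (φL.symm (Point.some x y h))) = Point.some ξ η h' ∧ _
    generalize φL.symm (Point.some x y h) = P' at hP'0 hx hy hne hX hY hφ
    rcases P' with _ | ⟨x', y', h'⟩
    · exact absurd rfl hP'0
    rw [hφL, vc83_map_some, Point.some.injEq, rw12_vcX, rw12_vcY] at hφ
    obtain ⟨hxx, hyy⟩ := hφ
    generalize rf12_red A (ff83_vc WL e1 • WL) (ff83_vc Wk ε1 • Wk) (Point.some x' y' h') = Q'
      at hne hX hY
    rcases Q' with _ | ⟨x0, y0, h0⟩
    · exact absurd rfl hne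
    simp only [ptX, ptY] at hx hy hX hY
    have h4k : (4 : IsLocalRing.ResidueField A) ≠ 0 := by
      have : (4 : IsLocalRing.ResidueField A) = 2 * 2 := by norm_num
      rw [this]; exact mul_ne_zero H.h2 H.h2
    have h8k : (8 : IsLocalRing.ResidueField A) ≠ 0 := by
      have : (8 : IsLocalRing.ResidueField A) = 2 * 4 := by norm_num
      rw [this]; exact mul_ne_zero H.h2 h4k
    have h4L : (4 : L) ≠ 0 := (rw12_Red.ofNat (A := A) 4).ne_zero h4k
    have h8L : (8 : L) ≠ 0 := (rw12_Red.ofNat (A := A) 8).ne_zero h8k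
    have rX : rw12_Red A (4 * x') (4 * x0) := ⟨hx, hX.symm⟩
    have rY : rw12_Red A (8 * y' + 4 * x') (8 * y0 + 4 * x0) := ⟨hy, hY.symm⟩
    have rx : rw12_Red A x' x0 :=
      (rX.div (rw12_Red.ofNat 4) h4k).congr (by field_simp) (by field_simp)
    have ry : rw12_Red A y' y0 :=
      ((rY.sub rX).div (rw12_Red.ofNat 8) h8k).congr (by field_simp; ring) (by field_simp; ring)
    have rs : rw12_Red A ((1 - WL.a₁) / 2) ((1 - Wk.a₁) / 2) :=
      (rw12_Red.one.sub H.h₁).div (rw12_Red.ofNat 2) H.h2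
    have rt : rw12_Red A (-(WL.a₁ * e1 + WL.a₃) / 2) (-(Wk.a₁ * ε1 + Wk.a₃) / 2) :=
      ((H.h₁.mul r1).add H.h₃).neg.div (rw12_Red.ofNat 2) H.h2
    refine ⟨vc83_X (ff83_vc Wk ε1) x0, vc83_Y (ff83_vc Wk ε1) x0 y0,
      (vc83_nonsingular Wk (ff83_vc Wk ε1) x0 y0).mp h0, ?_, ?_, ?_⟩
    · rw [hφk, vc83_map_some]
    · rw [rw12_vcX, ← hxx]
      exact rx.add r1
    · rw [rw12_vcY, ← hyy]
      exact (ry.add (rs.mul rx)).add rt

/-- The reduction package for an odd `p > 1` with `p ≠ 0` in the residue field, with the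
coordinate clause stated through `IsLocalRing.residue`. -/
theorem rw12_exists_red' [DecidableEq L] [DecidableEq (IsLocalRing.ResidueField A)]
    (H : rw12_Compat A WL Wk) {p : ℕ} (hp1 : 1 < p) (hodd : Odd p)
    (hpk : (p : IsLocalRing.ResidueField A) ≠ 0) :
    ∃ red : WL.toAffine.Point → Wk.toAffine.Point,
      (∀ P, P ≠ 0 → p • P = 0 →
        ∃ (x y : L) (h : WL.toAffine.Nonsingular x y) (hx : x ∈ A) (hy : y ∈ A)
          (h' : Wk.toAffine.Nonsingular (IsLocalRing.residue A ⟨x, hx⟩)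
            (IsLocalRing.residue A ⟨y, hy⟩)),
          P = Point.some x y h ∧ red P = Point.some _ _ h') ∧
      (∀ P, p • P = 0 → p • red P = 0) ∧
      (∀ Q, p • Q = 0 → ∃ P, p • P = 0 ∧ red P = Q) ∧
      red 0 = 0 ∧
      (∀ P, p • P = 0 → P ≠ 0 → red P ≠ 0) ∧
      (∀ P, p • P = 0 → red (-P) = -red P) ∧
      (∀ P P', p • P = 0 → p • P' = 0 → red P = red P' → P = P') := by
  obtain ⟨m, rfl⟩ := hodd
  have hm : 1 ≤ m := by omega
  obtain ⟨red, h0, htors, hne, hneg, hinj, hlift, hcoord⟩ := rw12_exists_red A H hm hpk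
  refine ⟨red, ?_, htors, hlift, h0, hne, hneg, hinj⟩
  intro P hP0 hP
  rcases P with _ | ⟨x, y, h⟩
  · exact absurd rfl hP0
  obtain ⟨ξ, η, h', hred, ⟨hx, rfl⟩, ⟨hy, rfl⟩⟩ := hcoord x y h hP
  exact ⟨x, y, h, hx, hy, h', rfl, hred⟩

end Main

/-! ### Curves coming from `ℤ` -/

section IntModel

variable {L : Type*} [Field L] (A : ValuationSubring L)

/-- A Weierstrass curve over `ℤ` gives compatible curves over `L` and over the residue field
as soon as `2` and `Δ` are nonzero in the residue field. -/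
theorem rw12_compat_int (W : WeierstrassCurve ℤ) (f : ℤ →+* L)
    (g : ℤ →+* IsLocalRing.ResidueField A) (h2 : (2 : IsLocalRing.ResidueField A) ≠ 0)
    (hΔ : g W.Δ ≠ 0) : rw12_Compat A (W.map f) (W.map g) := by
  have key : ∀ n : ℤ, rw12_Red A (f n) (g n) := fun n => by
    rw [eq_intCast f, eq_intCast g]
    exact rw12_Red.intCast n
  exact ⟨key _, key _, key _, key _, key _, h2, by rw [map_Δ]; exact hΔ⟩

/-- The same for a reduction obtained in two steps (e.g. `ℤ → ZMod ℓ → k`). -/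
theorem rw12_compat_int' {R : Type*} [CommRing R] (W : WeierstrassCurve ℤ) (f : ℤ →+* L)
    (g₁ : ℤ →+* R) (g₂ : R →+* IsLocalRing.ResidueField A)
    (h2 : (2 : IsLocalRing.ResidueField A) ≠ 0) (hΔ : g₂ (g₁ W.Δ) ≠ 0) :
    rw12_Compat A (W.map f) ((W.map g₁).map g₂) := by
  rw [WeierstrassCurve.map_map]
  exact rw12_compat_int A W f (g₂.comp g₁) h2 hΔ

end IntModel

end Fermat.Agent.S41
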