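import Mathlib
import Fermat.Agent.S41.SymbCore71
import Fermat.Agent.S41.Trace43b
import Fermat.Agent.S41.HeckeComm40
import Fermat.Agent.S41.SymbLatticeQ10

/-!
# S41 / L0: the modules of modular symbols, their lattices and operators

Conventions C1–C6 of the S41 architecture ruling.  `P = OnePoint ℚ`, `sc71_X = P × P`.

* `sm71_symb R A M`  : the `R`-module of `A`-valued symbols of level `M`
                        (`Submodule R (sc71_X → A)`: `sc71_IsSymb Φ ∧ tr43_Inv M Φ`);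
* `sm71_latt K M`    : the `ℤ`-lattice of integer valued symbols (`Submodule ℤ (sm71_symb K K M)`);
* `sm71_T`, `sm71_U`, `sm71_W`, `sm71_res`, `sm71_tr` : the operators of `Trace43` as linear maps;
* `sm71_i`, `sm71_j` : the degeneracy maps `i (φ₁, φ₂) = φ₁ + W φ₂`, `j Φ = (tr Φ, tr (W Φ))`;
* `sm71_j_i`         : `j ∘ i = [[q + 1, T_q], [T_q, q + 1]]`;
* `sm71_T_comm`, `sm71_i_T`, `sm71_j_T`, `sm71_T_U_comm`, `sm71_U_U` : commutation relations;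
* `sm71_*_latt`      : all operators preserve the lattices;
* `sm71_nu`          : the period map `ν` as a linear map to `Additive (Gamma0 M) →+ A`, with
                        `sm71_nu_T`, `sm71_nu_U`, `sm71_nu_parabolic`, `sm71_nu_eq_zero_iff`.
-/

set_option autoImplicit false

open Matrix MatrixGroups CongruenceSubgroup OnePoint
open Fermat.Agent.S16

namespace Fermat.Agent.S41

/-! ### scalar multiplication and the function-level operators -/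

section Smul

variable {R : Type*} [Semiring R] {A : Type*} [AddCommGroup A] [Module R A]

theorem sm71_sl_smul (r : R) (Φ : sc71_X → A) (m : Matrix (Fin 2) (Fin 2) ℤ) :
    tr43_sl (r • Φ) m = r • tr43_sl Φ m := rfl

theorem sm71_T_smul (ℓ : ℕ) (r : R) (Φ : sc71_X → A) : tr43_T ℓ (r • Φ) = r • tr43_T ℓ Φ := by
  simp only [tr43_T, sm71_sl_smul, Finset.smul_sum]

theorem sm71_U_smul (q : ℕ) (r : R) (Φ : sc71_X → A) : tr43_U q (r • Φ) = r • tr43_U q Φ := by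
  simp only [tr43_U, sm71_sl_smul, Finset.smul_sum]

theorem sm71_W_smul {N q : ℕ} (D : tr43_Data N q) (r : R) (Φ : sc71_X → A) :
    tr43_W D (r • Φ) = r • tr43_W D Φ := rfl

theorem sm71_tr_smul {N q : ℕ} (D : tr43_Data N q) (r : R) (Φ : sc71_X → A) :
    tr43_tr D (r • Φ) = r • tr43_tr D Φ := by
  simp only [tr43_tr, sm71_sl_smul, Finset.smul_sum]

end Smul

/-! ### the module of symbols -/

section Defs

variable (R : Type*) [Ring R] (A : Type*) [AddCommGroup A] [Module R A]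

/-- The `R`-module of `A`-valued modular symbols of level `M`: functions `Φ` on pairs of cusps
with `Φ (a, b) + Φ (b, c) = Φ (a, c)` which are invariant under `Γ₀(M)`. -/
def sm71_symb (M : ℕ) : Submodule R (sc71_X → A) where
  carrier := {Φ | sc71_IsSymb Φ ∧ tr43_Inv M Φ}
  add_mem' := fun h h' => ⟨h.1.add h'.1, tr43_Inv_add h.2 h'.2⟩
  zero_mem' := ⟨sc71_IsSymb.zero, tr43_Inv_zero⟩
  smul_mem' := fun r Φ h => ⟨fun a b c => by
    simp only [Pi.smul_apply]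
    rw [← smul_add, h.1 a b c], fun γ x => by
    simp only [Pi.smul_apply]
    rw [h.2 γ x]⟩

variable {R A}

theorem sm71_mem_symb {M : ℕ} {Φ : sc71_X → A} :
    Φ ∈ sm71_symb R A M ↔ sc71_IsSymb Φ ∧ tr43_Inv M Φ := Iff.rfl

theorem sm71_isSymb {M : ℕ} (Φ : sm71_symb R A M) : sc71_IsSymb (Φ : sc71_X → A) := Φ.2.1

theorem sm71_inv {M : ℕ} (Φ : sm71_symb R A M) : tr43_Inv M (Φ : sc71_X → A) := Φ.2.2

variable (R A)

/-- the Hecke operator `T_ℓ` (`ℓ ∤ M`) on symbols of level `M`. -/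
noncomputable def sm71_T (M ℓ : ℕ) (hℓ : ℓ.Prime) (hℓM : ¬ ℓ ∣ M) :
    Module.End R (sm71_symb R A M) where
  toFun Φ := ⟨tr43_T ℓ Φ.1, Φ.2.1.T ℓ, tr43_T_Inv hℓ hℓM Φ.2.2⟩
  map_add' Φ Ψ := Subtype.ext (tr43_T_add ℓ Φ.1 Ψ.1)
  map_smul' r Φ := Subtype.ext (sm71_T_smul ℓ r Φ.1)

/-- the Hecke operator `U_q` (`q ∣ M`) on symbols of level `M`. -/
noncomputable def sm71_U (M q : ℕ) (hq : q.Prime) (hqM : q ∣ M) :
    Module.End R (sm71_symb R A M) where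
  toFun Φ := ⟨tr43_U q Φ.1, Φ.2.1.U q, tr43_U_Inv hq hqM Φ.2.2⟩
  map_add' Φ Ψ := Subtype.ext (tr43_U_add q Φ.1 Ψ.1)
  map_smul' r Φ := Subtype.ext (sm71_U_smul q r Φ.1)

/-- the Atkin–Lehner operator `W_q` on symbols of level `N q`. -/
noncomputable def sm71_W {N q : ℕ} (hq : q ≠ 0) (D : tr43_Data N q) :
    Module.End R (sm71_symb R A (N * q)) where
  toFun Φ := ⟨tr43_W D Φ.1, Φ.2.1.W D, tr43_W_Inv hq D Φ.2.2⟩
  map_add' Φ Ψ := Subtype.ext (tr43_W_add D Φ.1 Ψ.1)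
  map_smul' r Φ := Subtype.ext (sm71_W_smul D r Φ.1)

/-- restriction (inclusion) from level `N` to level `N q`. -/
def sm71_res (N q : ℕ) : sm71_symb R A N →ₗ[R] sm71_symb R A (N * q) where
  toFun Φ := ⟨Φ.1, Φ.2.1, tr43_Inv_of_dvd (dvd_mul_right N q) Φ.2.2⟩
  map_add' _ _ := rfl
  map_smul' _ _ := rfl

/-- the trace from level `N q` to level `N`. -/
noncomputable def sm71_tr {N q : ℕ} (hq : q.Prime) (D : tr43_Data N q) :
    sm71_symb R A (N * q) →ₗ[R] sm71_symb R A N where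
  toFun Φ := ⟨tr43_tr D Φ.1, Φ.2.1.tr D, tr43_tr_Inv hq D Φ.2.2⟩
  map_add' Φ Ψ := Subtype.ext (tr43_tr_add D Φ.1 Ψ.1)
  map_smul' r Φ := Subtype.ext (sm71_tr_smul D r Φ.1)

/-- the degeneracy map `i (φ₁, φ₂) = φ₁ + W_q φ₂` from level `N` (twice) to level `N q`. -/
noncomputable def sm71_i {N q : ℕ} (hq : q.Prime) (D : tr43_Data N q) :
    (sm71_symb R A N × sm71_symb R A N) →ₗ[R] sm71_symb R A (N * q) :=
  (sm71_res R A N q).coprod ((sm71_W R A hq.ne_zero D).comp (sm71_res R A N q))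

/-- the degeneracy map `j Φ = (tr Φ, tr (W_q Φ))` from level `N q` to level `N` (twice). -/
noncomputable def sm71_j {N q : ℕ} (hq : q.Prime) (D : tr43_Data N q) :
    sm71_symb R A (N * q) →ₗ[R] (sm71_symb R A N × sm71_symb R A N) :=
  (sm71_tr R A hq D).prod ((sm71_tr R A hq D).comp (sm71_W R A hq.ne_zero D))

/-- `T_ℓ` on pairs of symbols of level `N`. -/
noncomputable def sm71_T2 (M ℓ : ℕ) (hℓ : ℓ.Prime) (hℓM : ¬ ℓ ∣ M) :
    Module.End R (sm71_symb R A M × sm71_symb R A M) :=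
  (sm71_T R A M ℓ hℓ hℓM).prodMap (sm71_T R A M ℓ hℓ hℓM)

/-- the period map `ν : Symb_{Γ₀(M)}(A) → Hom(Γ₀(M), A)`, `Φ ↦ (γ ↦ Φ (∞, γ ∞))`. -/
noncomputable def sm71_nu (M : ℕ) : sm71_symb R A M →ₗ[R] (Additive (Gamma0 M) →+ A) where
  toFun Φ := sc71_nu M Φ.1 Φ.2.1 Φ.2.2
  map_add' _ _ := AddMonoidHom.ext fun _ => rfl
  map_smul' _ _ := AddMonoidHom.ext fun _ => rfl

variable {R A}

/-! ### coercion lemmas -/

@[simp] theorem sm71_T_coe (M ℓ : ℕ) (hℓ : ℓ.Prime) (hℓM : ¬ ℓ ∣ M) (Φ : sm71_symb R A M) :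
    ((sm71_T R A M ℓ hℓ hℓM Φ : sm71_symb R A M) : sc71_X → A) = tr43_T ℓ (Φ : sc71_X → A) := rfl

@[simp] theorem sm71_U_coe (M q : ℕ) (hq : q.Prime) (hqM : q ∣ M) (Φ : sm71_symb R A M) :
    ((sm71_U R A M q hq hqM Φ : sm71_symb R A M) : sc71_X → A) = tr43_U q (Φ : sc71_X → A) := rfl

@[simp] theorem sm71_W_coe {N q : ℕ} (hq : q ≠ 0) (D : tr43_Data N q)
    (Φ : sm71_symb R A (N * q)) :
    ((sm71_W R A hq D Φ : sm71_symb R A (N * q)) : sc71_X → A) = tr43_W D (Φ : sc71_X → A) := rfl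

@[simp] theorem sm71_res_coe (N q : ℕ) (Φ : sm71_symb R A N) :
    ((sm71_res R A N q Φ : sm71_symb R A (N * q)) : sc71_X → A) = (Φ : sc71_X → A) := rfl

@[simp] theorem sm71_tr_coe {N q : ℕ} (hq : q.Prime) (D : tr43_Data N q)
    (Φ : sm71_symb R A (N * q)) :
    ((sm71_tr R A hq D Φ : sm71_symb R A N) : sc71_X → A) = tr43_tr D (Φ : sc71_X → A) := rfl

theorem sm71_i_coe {N q : ℕ} (hq : q.Prime) (D : tr43_Data N q)
    (x : sm71_symb R A N × sm71_symb R A N) :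
    ((sm71_i R A hq D x : sm71_symb R A (N * q)) : sc71_X → A) =
      (x.1 : sc71_X → A) + tr43_W D (x.2 : sc71_X → A) := rfl

theorem sm71_j_fst {N q : ℕ} (hq : q.Prime) (D : tr43_Data N q) (Φ : sm71_symb R A (N * q)) :
    (((sm71_j R A hq D Φ).1 : sm71_symb R A N) : sc71_X → A) = tr43_tr D (Φ : sc71_X → A) := rfl

theorem sm71_j_snd {N q : ℕ} (hq : q.Prime) (D : tr43_Data N q) (Φ : sm71_symb R A (N * q)) :
    (((sm71_j R A hq D Φ).2 : sm71_symb R A N) : sc71_X → A) =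
      tr43_tr D (tr43_W D (Φ : sc71_X → A)) := rfl

theorem sm71_j_apply {N q : ℕ} (hq : q.Prime) (D : tr43_Data N q) (Φ : sm71_symb R A (N * q)) :
    sm71_j R A hq D Φ =
      (sm71_tr R A hq D Φ, sm71_tr R A hq D (sm71_W R A hq.ne_zero D Φ)) := rfl

theorem sm71_i_apply {N q : ℕ} (hq : q.Prime) (D : tr43_Data N q)
    (x : sm71_symb R A N × sm71_symb R A N) :
    sm71_i R A hq D x =
      sm71_res R A N q x.1 + sm71_W R A hq.ne_zero D (sm71_res R A N q x.2) := rfl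

theorem sm71_T2_apply (M ℓ : ℕ) (hℓ : ℓ.Prime) (hℓM : ¬ ℓ ∣ M)
    (x : sm71_symb R A M × sm71_symb R A M) :
    sm71_T2 R A M ℓ hℓ hℓM x = (sm71_T R A M ℓ hℓ hℓM x.1, sm71_T R A M ℓ hℓ hℓM x.2) := rfl

theorem sm71_nu_coe (M : ℕ) (Φ : sm71_symb R A M) :
    sm71_nu R A M Φ = sc71_nu M (Φ : sc71_X → A) Φ.2.1 Φ.2.2 := rfl


/-! ### `j ∘ i` -/

/-- **`j ∘ i = [[q + 1, T_q], [T_q, q + 1]]`.** -/
theorem sm71_j_i {N q : ℕ} (hq : q.Prime) (hqN : ¬ q ∣ N) (D : tr43_Data N q)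
    (x : sm71_symb R A N × sm71_symb R A N) :
    sm71_j R A hq D (sm71_i R A hq D x) =
      ((q + 1) • x.1 + sm71_T R A N q hq hqN x.2, sm71_T R A N q hq hqN x.1 + (q + 1) • x.2) := by
  have h1 := x.1.2.2
  have h2 := x.2.2.2
  have h2' : tr43_Inv (N * q) (x.2 : sc71_X → A) := tr43_Inv_of_dvd (dvd_mul_right N q) h2
  refine Prod.ext (Subtype.ext ?_) (Subtype.ext ?_)
  · rw [sm71_j_fst, sm71_i_coe, tr43_tr_add, tr43_tr_res D h1,
      tr43_tr_W_res sc71_scalarTriv hq.ne_zero D h2]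
    rfl
  · rw [sm71_j_snd, sm71_i_coe, tr43_W_add, tr43_tr_add,
      tr43_tr_W_res sc71_scalarTriv hq.ne_zero D h1, tr43_W_W sc71_scalarTriv hq.ne_zero D h2',
      tr43_tr_res D h2]
    rfl

/-! ### commutation relations -/

/-- the `T_ℓ` commute. -/
theorem sm71_T_comm (M ℓ ℓ' : ℕ) (hℓ : ℓ.Prime) (hℓM : ¬ ℓ ∣ M) (hℓ' : ℓ'.Prime)
    (hℓ'M : ¬ ℓ' ∣ M) : Commute (sm71_T R A M ℓ hℓ hℓM) (sm71_T R A M ℓ' hℓ' hℓ'M) := by
  refine LinearMap.ext fun Φ => Subtype.ext ?_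
  show tr43_T ℓ (tr43_T ℓ' (Φ : sc71_X → A)) = tr43_T ℓ' (tr43_T ℓ (Φ : sc71_X → A))
  by_cases h : ℓ = ℓ'
  · subst h; rfl
  · exact hc40_T_comm hℓ hℓ' h Φ.2.2

/-- the `T_ℓ` on pairs commute. -/
theorem sm71_T2_comm (M ℓ ℓ' : ℕ) (hℓ : ℓ.Prime) (hℓM : ¬ ℓ ∣ M) (hℓ' : ℓ'.Prime)
    (hℓ'M : ¬ ℓ' ∣ M) : Commute (sm71_T2 R A M ℓ hℓ hℓM) (sm71_T2 R A M ℓ' hℓ' hℓ'M) := by
  have h := (sm71_T_comm (R := R) (A := A) M ℓ ℓ' hℓ hℓM hℓ' hℓ'M).eq
  refine LinearMap.ext fun x => ?_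
  have h1 := LinearMap.congr_fun h x.1
  have h2 := LinearMap.congr_fun h x.2
  simp only [Module.End.mul_apply] at h1 h2
  exact Prod.ext h1 h2

/-- `T_ℓ` commutes with `U_q`. -/
theorem sm71_T_U_comm (M ℓ q : ℕ) (hℓ : ℓ.Prime) (hℓM : ¬ ℓ ∣ M) (hq : q.Prime) (hqM : q ∣ M) :
    Commute (sm71_T R A M ℓ hℓ hℓM) (sm71_U R A M q hq hqM) := by
  refine LinearMap.ext fun Φ => Subtype.ext ?_
  show tr43_T ℓ (tr43_U q (Φ : sc71_X → A)) = tr43_U q (tr43_T ℓ (Φ : sc71_X → A))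
  have h : ℓ ≠ q := by
    rintro rfl
    exact hℓM hqM
  exact hc40_T_U_comm hℓ hq h Φ.2.2

/-- `T_ℓ` commutes with `W_q` (`ℓ ∤ N q`). -/
theorem sm71_T_W_comm {N q ℓ : ℕ} (hℓ : ℓ.Prime) (hℓNq : ¬ ℓ ∣ N * q) (hq : q ≠ 0)
    (D : tr43_Data N q) :
    Commute (sm71_T R A (N * q) ℓ hℓ hℓNq) (sm71_W R A hq D) := by
  refine LinearMap.ext fun Φ => Subtype.ext ?_
  exact tr43_T_W hℓ hℓNq hq D Φ.2.2

/-- `T_ℓ` commutes with restriction. -/
theorem sm71_res_T {N q ℓ : ℕ} (hℓ : ℓ.Prime) (hℓN : ¬ ℓ ∣ N) (hℓNq : ¬ ℓ ∣ N * q)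
    (Φ : sm71_symb R A N) :
    sm71_res R A N q (sm71_T R A N ℓ hℓ hℓN Φ) =
      sm71_T R A (N * q) ℓ hℓ hℓNq (sm71_res R A N q Φ) := rfl

/-- `T_ℓ` commutes with the trace (`ℓ ∤ N q`). -/
theorem sm71_tr_T {N q ℓ : ℕ} (hℓ : ℓ.Prime) (hℓN : ¬ ℓ ∣ N) (hℓNq : ¬ ℓ ∣ N * q)
    (hq : q.Prime) (D : tr43_Data N q) (Φ : sm71_symb R A (N * q)) :
    sm71_tr R A hq D (sm71_T R A (N * q) ℓ hℓ hℓNq Φ) =
      sm71_T R A N ℓ hℓ hℓN (sm71_tr R A hq D Φ) :=
  Subtype.ext (tr43_T_tr hℓ hℓNq hq D Φ.2.2).symm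

/-- `i` is Hecke equivariant. -/
theorem sm71_i_T {N q ℓ : ℕ} (hℓ : ℓ.Prime) (hℓN : ¬ ℓ ∣ N) (hℓNq : ¬ ℓ ∣ N * q)
    (hq : q.Prime) (D : tr43_Data N q) (x : sm71_symb R A N × sm71_symb R A N) :
    sm71_i R A hq D (sm71_T2 R A N ℓ hℓ hℓN x) =
      sm71_T R A (N * q) ℓ hℓ hℓNq (sm71_i R A hq D x) := by
  rw [sm71_i_apply, sm71_i_apply, map_add, sm71_T2_apply]
  have h := (sm71_T_W_comm (R := R) (A := A) hℓ hℓNq hq.ne_zero D).eq
  have h2 := LinearMap.congr_fun h (sm71_res R A N q x.2)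
  simp only [Module.End.mul_apply] at h2
  rw [h2, sm71_res_T hℓ hℓN hℓNq, sm71_res_T hℓ hℓN hℓNq]

/-- `j` is Hecke equivariant. -/
theorem sm71_j_T {N q ℓ : ℕ} (hℓ : ℓ.Prime) (hℓN : ¬ ℓ ∣ N) (hℓNq : ¬ ℓ ∣ N * q)
    (hq : q.Prime) (D : tr43_Data N q) (Φ : sm71_symb R A (N * q)) :
    sm71_j R A hq D (sm71_T R A (N * q) ℓ hℓ hℓNq Φ) =
      sm71_T2 R A N ℓ hℓ hℓN (sm71_j R A hq D Φ) := by
  rw [sm71_j_apply, sm71_j_apply, sm71_T2_apply]
  have h := (sm71_T_W_comm (R := R) (A := A) hℓ hℓNq hq.ne_zero D).eq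
  have h2 := LinearMap.congr_fun h Φ
  simp only [Module.End.mul_apply] at h2
  rw [← h2, sm71_tr_T hℓ hℓN hℓNq, sm71_tr_T hℓ hℓN hℓNq]

/-- on the kernel of `j`: `U_q = - W_q`. -/
theorem sm71_U_eq_neg_W {N q : ℕ} (hq : q.Prime) (D : tr43_Data N q)
    (Φ : sm71_symb R A (N * q)) (h : sm71_j R A hq D Φ = 0) :
    sm71_U R A (N * q) q hq (dvd_mul_left q N) Φ = -sm71_W R A hq.ne_zero D Φ := by
  have h2 : tr43_tr D (tr43_W D (Φ : sc71_X → A)) = 0 := by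
    rw [← sm71_j_snd hq D Φ, h]; rfl
  exact Subtype.ext (tr43_U_eq_neg_W sc71_scalarTriv hq.ne_zero D Φ.2.2 h2)

/-- on the kernel of `j`: `U_q ^ 2 = 1`. -/
theorem sm71_U_U {N q : ℕ} (hq : q.Prime) (D : tr43_Data N q)
    (Φ : sm71_symb R A (N * q)) (h : sm71_j R A hq D Φ = 0) :
    sm71_U R A (N * q) q hq (dvd_mul_left q N) (sm71_U R A (N * q) q hq (dvd_mul_left q N) Φ)
      = Φ := by
  have h1 : tr43_tr D (Φ : sc71_X → A) = 0 := by
    rw [← sm71_j_fst hq D Φ, h]; rfl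
  have h2 : tr43_tr D (tr43_W D (Φ : sc71_X → A)) = 0 := by
    rw [← sm71_j_snd hq D Φ, h]; rfl
  exact Subtype.ext (tr43_U_U sc71_scalarTriv hq.ne_zero D Φ.2.2 h1 h2)

/-- `W_q` is an involution. -/
theorem sm71_W_W {N q : ℕ} (hq : q ≠ 0) (D : tr43_Data N q) (Φ : sm71_symb R A (N * q)) :
    sm71_W R A hq D (sm71_W R A hq D Φ) = Φ :=
  Subtype.ext (tr43_W_W sc71_scalarTriv hq D Φ.2.2)

/-- the kernel of `j` is stable under `W_q`. -/
theorem sm71_j_W {N q : ℕ} (hq : q.Prime) (D : tr43_Data N q)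
    (Φ : sm71_symb R A (N * q)) (h : sm71_j R A hq D Φ = 0) :
    sm71_j R A hq D (sm71_W R A hq.ne_zero D Φ) = 0 := by
  rw [sm71_j_apply] at h
  rw [sm71_j_apply, sm71_W_W, (Prod.mk.inj h).1, (Prod.mk.inj h).2]
  rfl

/-! ### the period map -/

theorem sm71_nu_apply (M : ℕ) (Φ : sm71_symb R A M) (γ : Gamma0 M) (c : OnePoint ℚ) :
    sm71_nu R A M Φ (Additive.ofMul γ) =
      (Φ : sc71_X → A) (c, Matrix.SpecialLinearGroup.mapGL ℚ (γ : SL(2, ℤ)) • c) :=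
  sc71_nu_apply Φ.2.1 Φ.2.2 γ c

/-- `ν ∘ T_ℓ = T_ℓ ∘ ν` (S16 Hecke operator on `Hom(Γ₀(M), A)`). -/
theorem sm71_nu_T (M ℓ : ℕ) (hℓ : ℓ.Prime) (hℓM : ¬ ℓ ∣ M) (Φ : sm71_symb R A M) :
    sm71_nu R A M (sm71_T R A M ℓ hℓ hℓM Φ) = heckeHom M ℓ A (sm71_nu R A M Φ) :=
  sc71_nu_T hℓ hℓM Φ.2.1 Φ.2.2

/-- `ν ∘ U_q = U_q ∘ ν`. -/
theorem sm71_nu_U (M q : ℕ) (hq : q.Prime) (hqM : q ∣ M) (Φ : sm71_symb R A M) :
    sm71_nu R A M (sm71_U R A M q hq hqM Φ) = heckeHom M q A (sm71_nu R A M Φ) :=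
  sc71_nu_U hq hqM Φ.2.1 Φ.2.2

/-- on the kernel of `j`, `U_q ^ 2 = 1` on the period homomorphism. -/
theorem sm71_nu_U_U {N q : ℕ} (hq : q.Prime) (D : tr43_Data N q)
    (Φ : sm71_symb R A (N * q)) (h : sm71_j R A hq D Φ = 0) :
    heckeHom (N * q) q A (heckeHom (N * q) q A (sm71_nu R A (N * q) Φ)) =
      sm71_nu R A (N * q) Φ := by
  rw [← sm71_nu_U (N * q) q hq (dvd_mul_left q N), ← sm71_nu_U (N * q) q hq (dvd_mul_left q N),
    sm71_U_U hq D Φ h]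

/-- `ν Φ` is a parabolic homomorphism. -/
theorem sm71_nu_parabolic (M : ℕ) (Φ : sm71_symb R A M) :
    ModularCurve.Period.IsParabolicHom (Gamma0 M) (sm71_nu R A M Φ) :=
  sc71_nu_parabolic Φ.2.1 Φ.2.2

/-- the kernel of `ν` consists of the boundary symbols. -/
theorem sm71_nu_eq_zero_iff (M : ℕ) (Φ : sm71_symb R A M) (c : OnePoint ℚ) :
    sm71_nu R A M Φ = 0 ↔ ∀ (γ : Gamma0 M) (x : OnePoint ℚ),
      (Φ : sc71_X → A) (c, Matrix.SpecialLinearGroup.mapGL ℚ (γ : SL(2, ℤ)) • x) =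
        (Φ : sc71_X → A) (c, x) :=
  sc71_nu_eq_zero_iff Φ.2.1 Φ.2.2 c

/-- `ν` commutes with restriction of the level. -/
theorem sm71_nu_res (N q : ℕ) (Φ : sm71_symb R A N) (γ : Gamma0 (N * q))
    (hγ : (γ : SL(2, ℤ)) ∈ Gamma0 N) :
    sm71_nu R A (N * q) (sm71_res R A N q Φ) (Additive.ofMul γ) =
      sm71_nu R A N Φ (Additive.ofMul ⟨(γ : SL(2, ℤ)), hγ⟩) := rfl

end Defs

/-! ### the lattice of integer valued symbols -/

section Lattice

/-- integer valued functions. -/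
def sm71_IsInt {K : Type*} [Ring K] (Φ : sc71_X → K) : Prop := ∀ x, ∃ n : ℤ, Φ x = (n : K)

section IsInt

variable {K : Type*} [Ring K]

theorem sm71_IsInt.zero : sm71_IsInt (0 : sc71_X → K) := fun _ => ⟨0, by simp⟩

theorem sm71_IsInt.add {Φ Ψ : sc71_X → K} (h : sm71_IsInt Φ) (h' : sm71_IsInt Ψ) :
    sm71_IsInt (Φ + Ψ) := fun x => by
  obtain ⟨n, hn⟩ := h x
  obtain ⟨m, hm⟩ := h' x
  exact ⟨n + m, by rw [Pi.add_apply, hn, hm, Int.cast_add]⟩

theorem sm71_IsInt.neg {Φ : sc71_X → K} (h : sm71_IsInt Φ) : sm71_IsInt (-Φ) := fun x => by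
  obtain ⟨n, hn⟩ := h x
  exact ⟨-n, by rw [Pi.neg_apply, hn, Int.cast_neg]⟩

theorem sm71_IsInt.zsmul {Φ : sc71_X → K} (h : sm71_IsInt Φ) (c : ℤ) :
    sm71_IsInt (c • Φ) := fun x => by
  obtain ⟨n, hn⟩ := h x
  exact ⟨c * n, by rw [Pi.smul_apply, hn, zsmul_eq_mul, Int.cast_mul]⟩

theorem sm71_IsInt.sum {ι : Type*} (s : Finset ι) {F : ι → sc71_X → K}
    (h : ∀ i ∈ s, sm71_IsInt (F i)) : sm71_IsInt (∑ i ∈ s, F i) := by
  classical
  induction s using Finset.induction_on with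
  | empty => simpa using sm71_IsInt.zero
  | insert i s hi ih =>
    rw [Finset.sum_insert hi]
    exact (h i (Finset.mem_insert_self i s)).add
      (ih fun j hj => h j (Finset.mem_insert_of_mem hj))

theorem sm71_IsInt.sl {Φ : sc71_X → K} (h : sm71_IsInt Φ) (m : Matrix (Fin 2) (Fin 2) ℤ) :
    sm71_IsInt (tr43_sl Φ m) := fun _ => h _

theorem sm71_IsInt.T {Φ : sc71_X → K} (h : sm71_IsInt Φ) (ℓ : ℕ) : sm71_IsInt (tr43_T ℓ Φ) :=
  sm71_IsInt.sum _ fun _ _ => h.sl _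

theorem sm71_IsInt.U {Φ : sc71_X → K} (h : sm71_IsInt Φ) (q : ℕ) : sm71_IsInt (tr43_U q Φ) :=
  sm71_IsInt.sum _ fun _ _ => h.sl _

theorem sm71_IsInt.W {N q : ℕ} (D : tr43_Data N q) {Φ : sc71_X → K} (h : sm71_IsInt Φ) :
    sm71_IsInt (tr43_W D Φ) := h.sl _

theorem sm71_IsInt.tr {N q : ℕ} (D : tr43_Data N q) {Φ : sc71_X → K} (h : sm71_IsInt Φ) :
    sm71_IsInt (tr43_tr D Φ) :=
  sm71_IsInt.sum _ fun _ _ => h.sl _

end IsInt

variable (K : Type*) [Ring K]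

/-- The lattice of integer valued symbols inside the `K`-valued symbols of level `M`. -/
def sm71_latt (M : ℕ) : Submodule ℤ (sm71_symb K K M) where
  carrier := {v | sm71_IsInt (v : sc71_X → K)}
  add_mem' := fun h h' => h.add h'
  zero_mem' := sm71_IsInt.zero
  smul_mem' := fun c _ h => h.zsmul c

variable {K}

theorem sm71_mem_latt {M : ℕ} {v : sm71_symb K K M} :
    v ∈ sm71_latt K M ↔ ∀ x, ∃ n : ℤ, (v : sc71_X → K) x = (n : K) := Iff.rfl

theorem sm71_T_latt (M ℓ : ℕ) (hℓ : ℓ.Prime) (hℓM : ¬ ℓ ∣ M) {v : sm71_symb K K M}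
    (hv : v ∈ sm71_latt K M) : sm71_T K K M ℓ hℓ hℓM v ∈ sm71_latt K M :=
  sm71_IsInt.T hv ℓ

theorem sm71_U_latt (M q : ℕ) (hq : q.Prime) (hqM : q ∣ M) {v : sm71_symb K K M}
    (hv : v ∈ sm71_latt K M) : sm71_U K K M q hq hqM v ∈ sm71_latt K M :=
  sm71_IsInt.U hv q

theorem sm71_W_latt {N q : ℕ} (hq : q ≠ 0) (D : tr43_Data N q) {v : sm71_symb K K (N * q)}
    (hv : v ∈ sm71_latt K (N * q)) : sm71_W K K hq D v ∈ sm71_latt K (N * q) :=
  sm71_IsInt.W D hv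

theorem sm71_res_latt (N q : ℕ) {v : sm71_symb K K N} (hv : v ∈ sm71_latt K N) :
    sm71_res K K N q v ∈ sm71_latt K (N * q) := hv

theorem sm71_tr_latt {N q : ℕ} (hq : q.Prime) (D : tr43_Data N q) {v : sm71_symb K K (N * q)}
    (hv : v ∈ sm71_latt K (N * q)) : sm71_tr K K hq D v ∈ sm71_latt K N :=
  sm71_IsInt.tr D hv

/-- `i` maps the lattice `L_N × L_N` into `L_{N q}`. -/
theorem sm71_i_latt {N q : ℕ} (hq : q.Prime) (D : tr43_Data N q)
    {x : sm71_symb K K N × sm71_symb K K N}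
    (hx : x ∈ (sm71_latt K N).prod (sm71_latt K N)) :
    sm71_i K K hq D x ∈ sm71_latt K (N * q) :=
  sm71_IsInt.add hx.1 (sm71_IsInt.W D hx.2)

/-- `j` maps the lattice `L_{N q}` into `L_N × L_N`. -/
theorem sm71_j_latt {N q : ℕ} (hq : q.Prime) (D : tr43_Data N q)
    {v : sm71_symb K K (N * q)} (hv : v ∈ sm71_latt K (N * q)) :
    sm71_j K K hq D v ∈ (sm71_latt K N).prod (sm71_latt K N) :=
  ⟨sm71_IsInt.tr D hv, sm71_IsInt.tr D (sm71_IsInt.W D hv)⟩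

theorem sm71_T2_latt (M ℓ : ℕ) (hℓ : ℓ.Prime) (hℓM : ¬ ℓ ∣ M)
    {x : sm71_symb K K M × sm71_symb K K M}
    (hx : x ∈ (sm71_latt K M).prod (sm71_latt K M)) :
    sm71_T2 K K M ℓ hℓ hℓM x ∈ (sm71_latt K M).prod (sm71_latt K M) :=
  ⟨sm71_IsInt.T hx.1 ℓ, sm71_IsInt.T hx.2 ℓ⟩

/-! ### bridge to the curried model of `SymbLattice10`; finite generation and span -/

variable (R : Type*) [Ring R] (A : Type*) [AddCommGroup A] [Module R A]

/-- currying: the symbols of level `M` in the two-variable shape of `SymbLattice10`. -/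
def sm71_curry (M : ℕ) : sm71_symb R A M ≃ₗ[R] sl10_symb R A psl96_rho (Gamma0 M) where
  toFun Φ := ⟨fun a b => Φ.1 (a, b), Φ.2.1, fun g hg a b => Φ.2.2 ⟨g, hg⟩ (a, b)⟩
  invFun φ := ⟨fun x => φ.1 x.1 x.2, fun a b c => φ.2.1 a b c,
    fun γ x => φ.2.2 γ.1 γ.2 x.1 x.2⟩
  left_inv _ := rfl
  right_inv _ := rfl
  map_add' _ _ := rfl
  map_smul' _ _ := rfl

variable {R A}

theorem sm71_curry_apply (M : ℕ) (Φ : sm71_symb R A M) (a b : OnePoint ℚ) :
    ((sm71_curry R A M Φ : sl10_symb R A psl96_rho (Gamma0 M)) :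
      OnePoint ℚ → OnePoint ℚ → A) a b = (Φ : sc71_X → A) (a, b) := rfl

theorem sm71_curry_symm_apply (M : ℕ) (φ : sl10_symb R A psl96_rho (Gamma0 M)) (x : sc71_X) :
    (((sm71_curry R A M).symm φ : sm71_symb R A M) : sc71_X → A) x =
      (φ : OnePoint ℚ → OnePoint ℚ → A) x.1 x.2 := rfl

theorem sm71_curry_mem_latt [CharZero K] (M : ℕ) (v : sm71_symb K K M) :
    sm71_curry K K M v ∈ sl10_latt K psl96_rho (Gamma0 M) ↔ v ∈ sm71_latt K M := by
  rw [sl10_mem_latt_iff, sm71_mem_latt]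
  constructor
  · rintro h ⟨a, b⟩
    exact h a b
  · intro h a b
    exact h (a, b)

theorem sm71_latt_eq_map [CharZero K] (M : ℕ) :
    sm71_latt K M = (sl10_latt K psl96_rho (Gamma0 M)).map
      ((sm71_curry K K M).symm.toLinearMap.restrictScalars ℤ) := by
  ext v
  rw [Submodule.mem_map]
  constructor
  · intro hv
    exact ⟨sm71_curry K K M v, (sm71_curry_mem_latt M v).mpr hv,
      (sm71_curry K K M).symm_apply_apply v⟩
  · rintro ⟨w, hw, rfl⟩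
    rw [← sm71_curry_mem_latt]
    have : sm71_curry K K M ((sm71_curry K K M).symm w) = w :=
      (sm71_curry K K M).apply_symm_apply w
    show sm71_curry K K M ((sm71_curry K K M).symm w) ∈ _
    rw [this]
    exact hw

/-- the lattice of integer valued symbols of level `M` is finitely generated. -/
theorem sm71_latt_fg (K : Type*) [Ring K] [CharZero K] (M : ℕ) [NeZero M] :
    (sm71_latt K M).FG := by
  rw [sm71_latt_eq_map]
  exact (slq10_latt_fg (Gamma0 M) K).map _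

/-- the lattice of integer valued symbols spans the space of symbols. -/
theorem sm71_span_latt (K : Type*) [Field K] [CharZero K] (M : ℕ) [NeZero M] :
    Submodule.span K (sm71_latt K M : Set (sm71_symb K K M)) = ⊤ := by
  have h := slq10_span_latt (Gamma0 M) K
  have himg : (sm71_latt K M : Set (sm71_symb K K M)) =
      (sm71_curry K K M).symm.toLinearMap ''
        (sl10_latt K psl96_rho (Gamma0 M) : Set (sl10_symb K K psl96_rho (Gamma0 M))) := by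
    rw [sm71_latt_eq_map]
    rfl
  rw [himg, Submodule.span_image, h, Submodule.map_top, LinearEquiv.range]

/-- the product lattice `L_M × L_M` spans. -/
theorem sm71_span_latt_prod (K : Type*) [Field K] [CharZero K] (M : ℕ) [NeZero M] :
    Submodule.span K (((sm71_latt K M).prod (sm71_latt K M) :
      Submodule ℤ (sm71_symb K K M × sm71_symb K K M)) :
        Set (sm71_symb K K M × sm71_symb K K M)) = ⊤ := by
  rw [eq_top_iff]
  rintro ⟨a, b⟩ -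
  have ha : a ∈ Submodule.span K (sm71_latt K M : Set (sm71_symb K K M)) := by
    rw [sm71_span_latt]; trivial
  have hb : b ∈ Submodule.span K (sm71_latt K M : Set (sm71_symb K K M)) := by
    rw [sm71_span_latt]; trivial
  have e : ((a, b) : sm71_symb K K M × sm71_symb K K M) =
      LinearMap.inl K _ _ a + LinearMap.inr K _ _ b := by simp
  rw [e]
  refine Submodule.add_mem _ ?_ ?_
  · have : Submodule.span K (sm71_latt K M : Set (sm71_symb K K M)) ≤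
        (Submodule.span K (((sm71_latt K M).prod (sm71_latt K M) :
          Submodule ℤ (sm71_symb K K M × sm71_symb K K M)) :
            Set (sm71_symb K K M × sm71_symb K K M))).comap
          (LinearMap.inl K (sm71_symb K K M) (sm71_symb K K M)) := by
      rw [Submodule.span_le]
      intro v hv
      exact Submodule.subset_span ⟨hv, Submodule.zero_mem _⟩
    exact this ha
  · have : Submodule.span K (sm71_latt K M : Set (sm71_symb K K M)) ≤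
        (Submodule.span K (((sm71_latt K M).prod (sm71_latt K M) :
          Submodule ℤ (sm71_symb K K M × sm71_symb K K M)) :
            Set (sm71_symb K K M × sm71_symb K K M))).comap
          (LinearMap.inr K (sm71_symb K K M) (sm71_symb K K M)) := by
      rw [Submodule.span_le]
      intro v hv
      exact Submodule.subset_span ⟨Submodule.zero_mem _, hv⟩
    exact this hb

/-- the product lattice `L_M × L_M` is finitely generated. -/
theorem sm71_latt_prod_fg (K : Type*) [Ring K] [CharZero K] (M : ℕ) [NeZero M] :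
    ((sm71_latt K M).prod (sm71_latt K M)).FG :=
  (sm71_latt_fg K M).prod (sm71_latt_fg K M)

end Lattice

end Fermat.Agent.S41
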