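/-
S41 / M5 support (helper83), input (G1): the `n`-torsion of an elliptic curve over an
algebraically closed field with `2 ≠ 0`, `n ≠ 0` (`n` odd) has exactly `n²` elements.

Obtained by transporting helper12's Frey-model count (`ft12_card_torsionBy`) along the
change of variables of `FreyForm83` using the point equivalence of `VarChange83`.

* `tc83_torsionByEquiv`   : an additive equivalence induces an equivalence on `torsionBy ℤ _ n`
* `tc83_card_torsionBy`   : general curve over an algebraically closed field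
* `tc83_card_torsion`     : `Nat.card E[p] = p²` for `E/ℚ` elliptic, `p` an odd prime,
                             on the Prelude's carrier `Submodule.torsionBy ℤ (E⁄Q̄).Point p`
-/
import Mathlib
import Fermat.Agent.S41.VarChange83
import Fermat.Agent.S41.FreyForm83
import Fermat.Agent.S41.FreyTors12

set_option autoImplicit false

namespace Fermat.Agent.S41

open WeierstrassCurve Fermat.Agent.S05

/-- An additive equivalence restricts to an equivalence between the `n`-torsion submodules. -/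
def tc83_torsionByEquiv {M N : Type*} [AddCommGroup M] [AddCommGroup N] (e : M ≃+ N) (n : ℤ) :
    Submodule.torsionBy ℤ M n ≃ Submodule.torsionBy ℤ N n where
  toFun P := ⟨e P.1, by
    have hP := P.2
    rw [Submodule.mem_torsionBy_iff] at hP ⊢
    rw [← map_zsmul, hP, map_zero]⟩
  invFun Q := ⟨e.symm Q.1, by
    have hQ := Q.2
    rw [Submodule.mem_torsionBy_iff] at hQ ⊢
    rw [← map_zsmul, hQ, map_zero]⟩
  left_inv P := Subtype.ext (e.symm_apply_apply P.1)
  right_inv Q := Subtype.ext (e.apply_symm_apply Q.1)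

@[simp] lemma tc83_torsionByEquiv_coe {M N : Type*} [AddCommGroup M] [AddCommGroup N]
    (e : M ≃+ N) (n : ℤ) (P : Submodule.torsionBy ℤ M n) :
    ((tc83_torsionByEquiv e n P : Submodule.torsionBy ℤ N n) : N) = e P.1 := rfl

section General

variable {K : Type*} [Field K] [DecidableEq K] [IsAlgClosed K]

/-- **Exact count, general curve.** Over an algebraically closed field with `2 ≠ 0` and
`2m+1 ≠ 0`, a Weierstrass curve with `Δ ≠ 0` has exactly `(2m+1)²` points killed by `2m+1`. -/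
theorem tc83_card_torsionBy (W : WeierstrassCurve K) (h2 : (2 : K) ≠ 0) (hΔ : W.Δ ≠ 0)
    {m : ℕ} (hm : 1 ≤ m) (hnK : ((2 * m + 1 : ℕ) : K) ≠ 0) :
    Finite (Submodule.torsionBy ℤ W.toAffine.Point ((2 * m + 1 : ℕ) : ℤ)) ∧
      Nat.card (Submodule.torsionBy ℤ W.toAffine.Point ((2 * m + 1 : ℕ) : ℤ)) =
        (2 * m + 1) ^ 2 := by
  obtain ⟨C, A, B, hF, hA, hB, hAB⟩ := ff83_exists_frey W h2 hΔ
  obtain ⟨hfin, hcard⟩ := ft12_card_torsionBy hF h2 hA hB hAB hm hnK
  have e : Submodule.torsionBy ℤ (C • W).toAffine.Point ((2 * m + 1 : ℕ) : ℤ) ≃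
      Submodule.torsionBy ℤ W.toAffine.Point ((2 * m + 1 : ℕ) : ℤ) :=
    tc83_torsionByEquiv (vc83_addEquiv C rfl) _
  exact ⟨Finite.of_equiv _ e, by rw [← Nat.card_congr e, hcard]⟩

/-- Set form of `tc83_card_torsionBy`. -/
theorem tc83_ncard_torsion (W : WeierstrassCurve K) (h2 : (2 : K) ≠ 0) (hΔ : W.Δ ≠ 0)
    {m : ℕ} (hm : 1 ≤ m) (hnK : ((2 * m + 1 : ℕ) : K) ≠ 0) :
    {P : W.toAffine.Point | (2 * m + 1) • P = 0}.Finite ∧
      {P : W.toAffine.Point | (2 * m + 1) • P = 0}.ncard = (2 * m + 1) ^ 2 := by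
  obtain ⟨hfin, hcard⟩ := tc83_card_torsionBy W h2 hΔ hm hnK
  have hset : ((Submodule.torsionBy ℤ W.toAffine.Point ((2 * m + 1 : ℕ) : ℤ) :
      Submodule ℤ _) : Set W.toAffine.Point) = {P | (2 * m + 1) • P = 0} := by
    ext x
    show x ∈ Submodule.torsionBy ℤ W.toAffine.Point ((2 * m + 1 : ℕ) : ℤ) ↔ (2 * m + 1) • x = 0
    rw [Submodule.mem_torsionBy_iff, Nat.cast_smul_eq_nsmul]
  constructor
  · rw [← hset]
    exact Set.toFinite _
  · rw [← hset, ← hcard]
    exact (Nat.card_coe_set_eq _).symm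

end General

section Rat

open WeierstrassCurve.Affine

/-- **(G1)** For an elliptic curve `E/ℚ` and an odd prime `p`, `E(Q̄)[p]` has exactly `p²`
elements (on the Prelude's carrier). -/
theorem tc83_card_torsion (E : WeierstrassCurve ℚ) [E.IsElliptic] {p : ℕ} (hp : p.Prime)
    (hp2 : p ≠ 2) :
    Finite (Submodule.torsionBy ℤ (E.toAffine⁄(AlgebraicClosure ℚ)).Point p) ∧
      Nat.card (Submodule.torsionBy ℤ (E.toAffine⁄(AlgebraicClosure ℚ)).Point p) = p ^ 2 := by
  obtain ⟨m, rfl⟩ : ∃ m, p = 2 * m + 1 := (hp.eq_two_or_odd'.resolve_left hp2)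
  have hm : 1 ≤ m := by
    rcases Nat.eq_zero_or_pos m with h | h
    · subst h
      exact absurd hp (by norm_num)
    · exact h
  have h2 : (2 : AlgebraicClosure ℚ) ≠ 0 := two_ne_zero
  have hnK : ((2 * m + 1 : ℕ) : AlgebraicClosure ℚ) ≠ 0 := Nat.cast_ne_zero.mpr (by omega)
  have hΔ : (E.toAffine⁄(AlgebraicClosure ℚ)).Δ ≠ 0 := by
    have : (E.map (algebraMap ℚ (AlgebraicClosure ℚ))).IsElliptic := inferInstance
    exact (E.map (algebraMap ℚ (AlgebraicClosure ℚ))).isUnit_Δ.ne_zero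
  exact tc83_card_torsionBy (E.toAffine⁄(AlgebraicClosure ℚ)) h2 hΔ hm hnK

end Rat

end Fermat.Agent.S41
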