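/-
S41 / M5 (helper26): the twist count.

`W0` a Weierstrass curve over `ZMod ℓ` with `Δ ≠ 0`, `k` an algebraically closed field of
characteristic `ℓ`, `φ : k →ₐ[ZMod ℓ] k` the Frobenius `x ↦ x ^ ℓ`, `Φ` the induced endomorphism of
the group of `k`-points.  Then

  `#{Q | Φ Q = Q} + #{Q | Φ Q = -Q} = 2 ℓ + 2`,

and as a consequence the "abelian corner" lemma `tw26_corner`: if the `p`-torsion lifts to a group
`V` on which a Frobenius lift acts as `+1` or as `-1`, then `p ∤ 2 ℓ + 2`.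
-/
import Mathlib

set_option autoImplicit false

open WeierstrassCurve WeierstrassCurve.Affine Polynomial

namespace Fermat.Agent.S41

noncomputable section

variable {ℓ : ℕ} [Fact ℓ.Prime] {k : Type*} [Field k] [DecidableEq k] [Algebra (ZMod ℓ) k]
  (W0 : WeierstrassCurve (ZMod ℓ)) (φ : k →ₐ[ZMod ℓ] k)

/-- The endomorphism of the group of `k`-points induced by `φ`. -/
def tw26_Phi : (W0⁄k).toAffine.Point →+ (W0⁄k).toAffine.Point := Point.map (W' := W0) φ

/-- The points fixed by `Φ`. -/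
def tw26_fixed : AddSubgroup (W0⁄k).toAffine.Point where
  carrier := {Q | tw26_Phi W0 φ Q = Q}
  zero_mem' := map_zero _
  add_mem' := by
    intro a b ha hb
    change _ = _ at ha hb ⊢
    rw [map_add, ha, hb]
  neg_mem' := by
    intro a ha
    change _ = _ at ha ⊢
    rw [map_neg, ha]

/-- The points negated by `Φ`. -/
def tw26_anti : AddSubgroup (W0⁄k).toAffine.Point where
  carrier := {Q | tw26_Phi W0 φ Q = -Q}
  zero_mem' := by simp
  add_mem' := by
    intro a b ha hb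
    change _ = _ at ha hb ⊢
    rw [map_add, ha, hb, neg_add]
  neg_mem' := by
    intro a ha
    change _ = _ at ha ⊢
    rw [map_neg, ha]

theorem tw26_mem_fixed {Q : (W0⁄k).toAffine.Point} :
    Q ∈ tw26_fixed W0 φ ↔ tw26_Phi W0 φ Q = Q := Iff.rfl

theorem tw26_mem_anti {Q : (W0⁄k).toAffine.Point} :
    Q ∈ tw26_anti W0 φ ↔ tw26_Phi W0 φ Q = -Q := Iff.rfl

omit [DecidableEq k] in
/-- The fixed points of `x ↦ x ^ ℓ` are the elements of the prime field. -/
theorem tw26_mem_range {x : k} (hx : x ^ ℓ = x) : ∃ a : ZMod ℓ, algebraMap (ZMod ℓ) k a = x := by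
  classical
  by_contra hcon
  rw [not_exists] at hcon
  have hℓ : 1 < ℓ := (Fact.out : ℓ.Prime).one_lt
  set f : k[X] := X ^ ℓ - X with hf
  have hdeg : f.natDegree = ℓ := FiniteField.X_pow_card_sub_X_natDegree_eq k hℓ
  have hf0 : f ≠ 0 := by
    intro h
    rw [h, natDegree_zero] at hdeg
    omega
  have hinj : Function.Injective (algebraMap (ZMod ℓ) k) := (algebraMap (ZMod ℓ) k).injective
  set S : Finset k := insert x (Finset.univ.image (algebraMap (ZMod ℓ) k)) with hS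
  have hSsub : S ⊆ f.roots.toFinset := by
    intro y hy
    rw [Multiset.mem_toFinset, mem_roots hf0, IsRoot.def, hf]
    simp only [eval_sub, eval_pow, eval_X]
    rw [hS, Finset.mem_insert, Finset.mem_image] at hy
    rcases hy with rfl | ⟨a, -, rfl⟩
    · rw [hx, sub_self]
    · rw [← map_pow, ZMod.pow_card, sub_self]
  have hScard : S.card = ℓ + 1 := by
    rw [hS, Finset.card_insert_of_notMem, Finset.card_image_of_injective _ hinj, Finset.card_univ,
      ZMod.card]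
    intro h
    rw [Finset.mem_image] at h
    obtain ⟨a, -, ha⟩ := h
    exact hcon a ha
  have h1 := Finset.card_le_card hSsub
  have h2 := Multiset.toFinset_card_le f.roots
  have h3 := card_roots' f
  omega

/-! ### The fibre quadric over a point of the prime field -/

/-- the linear coefficient of the fibre quadric `y ^ 2 + c y = d` at `x = a`. -/
def tw26_c (a : ZMod ℓ) : k := algebraMap (ZMod ℓ) k (W0.a₁ * a + W0.a₃)

/-- the constant coefficient of the fibre quadric `y ^ 2 + c y = d` at `x = a`. -/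
def tw26_d (a : ZMod ℓ) : k :=
  algebraMap (ZMod ℓ) k (a ^ 3 + W0.a₂ * a ^ 2 + W0.a₄ * a + W0.a₆)

omit [DecidableEq k] in
theorem tw26_equation_iff (a : ZMod ℓ) (y : k) :
    (W0⁄k).toAffine.Equation (algebraMap (ZMod ℓ) k a) y ↔
      y ^ 2 + tw26_c W0 a * y = tw26_d W0 a := by
  rw [Affine.equation_iff]
  have h1 : (W0⁄k).a₁ = algebraMap (ZMod ℓ) k W0.a₁ := rfl
  have h2 : (W0⁄k).a₂ = algebraMap (ZMod ℓ) k W0.a₂ := rfl
  have h3 : (W0⁄k).a₃ = algebraMap (ZMod ℓ) k W0.a₃ := rfl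
  have h4 : (W0⁄k).a₄ = algebraMap (ZMod ℓ) k W0.a₄ := rfl
  have h6 : (W0⁄k).a₆ = algebraMap (ZMod ℓ) k W0.a₆ := rfl
  rw [h1, h2, h3, h4, h6]
  simp only [tw26_c, tw26_d, map_add, map_mul, map_pow]
  constructor <;> intro h <;> linear_combination h

omit [DecidableEq k] in
theorem tw26_exists_root [IsAlgClosed k] (a : ZMod ℓ) :
    ∃ y : k, y ^ 2 + tw26_c W0 a * y = tw26_d W0 a := by
  have hdeg : (X ^ 2 + C (tw26_c W0 a) * X - C (tw26_d W0 a) : k[X]).degree ≠ 0 := by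
    have h : (X ^ 2 + C (tw26_c W0 a) * X - C (tw26_d W0 a) : k[X]).degree = 2 := by
      compute_degree!
    rw [h]
    norm_num
  obtain ⟨y, hy⟩ := IsAlgClosed.exists_root _ hdeg
  refine ⟨y, ?_⟩
  rw [IsRoot.def] at hy
  simp only [eval_sub, eval_add, eval_pow, eval_X, eval_mul, eval_C] at hy
  linear_combination hy

/-- a chosen root of the fibre quadric. -/
def tw26_y1 [IsAlgClosed k] (a : ZMod ℓ) : k := (tw26_exists_root (k := k) W0 a).choose

/-- the other root of the fibre quadric. -/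
def tw26_y2 [IsAlgClosed k] (a : ZMod ℓ) : k := - tw26_y1 (k := k) W0 a - tw26_c W0 a

omit [DecidableEq k] in
theorem tw26_y1_spec [IsAlgClosed k] (a : ZMod ℓ) :
    tw26_y1 (k := k) W0 a ^ 2 + tw26_c W0 a * tw26_y1 W0 a = tw26_d W0 a :=
  (tw26_exists_root (k := k) W0 a).choose_spec

omit [DecidableEq k] in
theorem tw26_root_iff [IsAlgClosed k] (a : ZMod ℓ) (y : k) :
    y ^ 2 + tw26_c W0 a * y = tw26_d W0 a ↔ y = tw26_y1 W0 a ∨ y = tw26_y2 W0 a := by
  have h1 := tw26_y1_spec (k := k) W0 a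
  have key : y ^ 2 + tw26_c W0 a * y - tw26_d W0 a =
      (y - tw26_y1 W0 a) * (y - tw26_y2 W0 a) := by
    rw [tw26_y2]
    linear_combination h1
  constructor
  · intro h
    have h0 : (y - tw26_y1 W0 a) * (y - tw26_y2 W0 a) = 0 := by
      rw [← key, h, sub_self]
    rcases mul_eq_zero.mp h0 with h | h
    · exact Or.inl (sub_eq_zero.mp h)
    · exact Or.inr (sub_eq_zero.mp h)
  · intro h
    have h0 : (y - tw26_y1 W0 a) * (y - tw26_y2 W0 a) = 0 := by
      rcases h with h | h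
      · rw [h, sub_self, zero_mul]
      · rw [h, sub_self, mul_zero]
    rw [← key] at h0
    exact sub_eq_zero.mp h0

omit [DecidableEq k] in
theorem tw26_phi_c (a : ZMod ℓ) : φ (tw26_c W0 a) = tw26_c W0 a := φ.commutes _

omit [DecidableEq k] in
theorem tw26_phi_d (a : ZMod ℓ) : φ (tw26_d W0 a) = tw26_d W0 a := φ.commutes _

omit [DecidableEq k] in
theorem tw26_phi_y1 [IsAlgClosed k] (a : ZMod ℓ) :
    φ (tw26_y1 W0 a) = tw26_y1 W0 a ∨ φ (tw26_y1 W0 a) = tw26_y2 W0 a := by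
  rw [← tw26_root_iff]
  have h1 := congrArg φ (tw26_y1_spec (k := k) W0 a)
  rw [map_add, map_pow, map_mul, tw26_phi_c, tw26_phi_d] at h1
  exact h1

omit [DecidableEq k] in
theorem tw26_phi_y2 [IsAlgClosed k] (a : ZMod ℓ) :
    φ (tw26_y2 W0 a) = - φ (tw26_y1 W0 a) - tw26_c W0 a := by
  rw [tw26_y2, map_sub, map_neg, tw26_phi_c]

/-- the roots of the fibre quadric fixed by `φ`. -/
def tw26_FixA [IsAlgClosed k] (a : ZMod ℓ) : Finset k :=
  ({tw26_y1 W0 a, tw26_y2 W0 a} : Finset k).filter (fun y => φ y = y)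

/-- the roots of the fibre quadric sent by `φ` to the other root. -/
def tw26_AntA [IsAlgClosed k] (a : ZMod ℓ) : Finset k :=
  ({tw26_y1 W0 a, tw26_y2 W0 a} : Finset k).filter (fun y => φ y = - y - tw26_c W0 a)

theorem tw26_card_FixA_add [IsAlgClosed k] (a : ZMod ℓ) :
    (tw26_FixA W0 φ a).card + (tw26_AntA W0 φ a).card = 2 := by
  have hy2 : tw26_y2 (k := k) W0 a = - tw26_y1 W0 a - tw26_c W0 a := rfl
  have hy1 : tw26_y1 (k := k) W0 a = - tw26_y2 W0 a - tw26_c W0 a := by rw [hy2]; ring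
  have hφ2 := tw26_phi_y2 W0 φ a
  by_cases heq : tw26_y1 (k := k) W0 a = tw26_y2 W0 a
  · have hφ1 : φ (tw26_y1 W0 a) = tw26_y1 W0 a := by
      rcases tw26_phi_y1 W0 φ a with h | h
      · exact h
      · rw [h, heq]
    have hF : tw26_FixA W0 φ a = {tw26_y1 W0 a} := by
      rw [tw26_FixA, ← heq, Finset.pair_eq_singleton]
      exact Finset.filter_true_of_mem (fun y hy => by rw [Finset.mem_singleton.mp hy]; exact hφ1)
    have hA : tw26_AntA W0 φ a = {tw26_y1 W0 a} := by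
      rw [tw26_AntA, ← heq, Finset.pair_eq_singleton]
      refine Finset.filter_true_of_mem (fun y hy => ?_)
      rw [Finset.mem_singleton.mp hy, hφ1, ← hy2, ← heq]
    rw [hF, hA, Finset.card_singleton]
  · rcases tw26_phi_y1 W0 φ a with h | h
    · have h2 : φ (tw26_y2 W0 a) = tw26_y2 W0 a := by rw [hφ2, h, ← hy2]
      have hF : tw26_FixA W0 φ a = {tw26_y1 W0 a, tw26_y2 W0 a} := by
        rw [tw26_FixA]
        refine Finset.filter_true_of_mem (fun y hy => ?_)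
        rcases Finset.mem_insert.mp hy with hy | hy
        · rw [hy]; exact h
        · rw [Finset.mem_singleton.mp hy]; exact h2
      have hA : tw26_AntA W0 φ a = ∅ := by
        rw [tw26_AntA]
        refine Finset.filter_false_of_mem (fun y hy => ?_)
        rcases Finset.mem_insert.mp hy with hy | hy
        · rw [hy, h, ← hy2]; exact heq
        · rw [Finset.mem_singleton.mp hy, h2, ← hy1]; exact fun h' => heq h'.symm
      rw [hF, hA, Finset.card_pair heq, Finset.card_empty]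
    · have h2 : φ (tw26_y2 W0 a) = tw26_y1 W0 a := by rw [hφ2, h, ← hy1]
      have hF : tw26_FixA W0 φ a = ∅ := by
        rw [tw26_FixA]
        refine Finset.filter_false_of_mem (fun y hy => ?_)
        rcases Finset.mem_insert.mp hy with hy | hy
        · rw [hy, h]; exact fun h' => heq h'.symm
        · rw [Finset.mem_singleton.mp hy, h2]; exact heq
      have hA : tw26_AntA W0 φ a = {tw26_y1 W0 a, tw26_y2 W0 a} := by
        rw [tw26_AntA]
        refine Finset.filter_true_of_mem (fun y hy => ?_)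
        rcases Finset.mem_insert.mp hy with hy | hy
        · rw [hy, h, ← hy2]
        · rw [Finset.mem_singleton.mp hy, h2, ← hy1]
      rw [hF, hA, Finset.card_pair heq, Finset.card_empty]

/-! ### The global count -/

omit [DecidableEq k] in
theorem tw26_Δ_ne_zero (hΔ : W0.Δ ≠ 0) : (W0⁄k).Δ ≠ 0 := by
  have h : (W0⁄k).Δ = algebraMap (ZMod ℓ) k W0.Δ := W0.map_Δ _
  rw [h]
  exact fun h0 => hΔ ((algebraMap (ZMod ℓ) k).injective (by rw [h0, map_zero]))

open scoped Classical in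
/-- the affine point `(a, y)` (junk value `0` if it is singular). -/
def tw26_pt (s : Σ _ : ZMod ℓ, k) : (W0⁄k).toAffine.Point :=
  if h : (W0⁄k).toAffine.Nonsingular (algebraMap (ZMod ℓ) k s.1) s.2 then Point.some _ _ h else 0

omit [DecidableEq k] in
theorem tw26_pt_eq (s : Σ _ : ZMod ℓ, k)
    (h : (W0⁄k).toAffine.Nonsingular (algebraMap (ZMod ℓ) k s.1) s.2) :
    tw26_pt W0 s = Point.some _ _ h := by
  rw [tw26_pt, dif_pos h]

/-- the affine parts of the fixed points / of the negated points, as finsets. -/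
def tw26_FixS [IsAlgClosed k] : Finset (Σ _ : ZMod ℓ, k) := Finset.univ.sigma (tw26_FixA W0 φ)

/-- the affine parts of the negated points, as a finset. -/
def tw26_AntS [IsAlgClosed k] : Finset (Σ _ : ZMod ℓ, k) := Finset.univ.sigma (tw26_AntA W0 φ)

theorem tw26_nonsingular_of_mem [IsAlgClosed k] (hΔ : W0.Δ ≠ 0) (a : ZMod ℓ) (y : k)
    (hy : y ∈ ({tw26_y1 W0 a, tw26_y2 W0 a} : Finset k)) :
    (W0⁄k).toAffine.Nonsingular (algebraMap (ZMod ℓ) k a) y := by
  rw [← Affine.equation_iff_nonsingular_of_Δ_ne_zero (tw26_Δ_ne_zero W0 hΔ), tw26_equation_iff,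
    tw26_root_iff]
  simpa using hy

omit [DecidableEq k] in
theorem tw26_pt_mk (a : ZMod ℓ) (y : k)
    (h : (W0⁄k).toAffine.Nonsingular (algebraMap (ZMod ℓ) k a) y) :
    tw26_pt W0 ⟨a, y⟩ = Point.some _ _ h :=
  tw26_pt_eq W0 ⟨a, y⟩ h

theorem tw26_pt_injOn [IsAlgClosed k] (hΔ : W0.Δ ≠ 0) (S : Finset (Σ _ : ZMod ℓ, k))
    (hS : ∀ s ∈ S, s.2 ∈ ({tw26_y1 W0 s.1, tw26_y2 W0 s.1} : Finset k)) :
    Set.InjOn (tw26_pt (k := k) W0) (S : Set (Σ _ : ZMod ℓ, k)) := by
  rintro ⟨a, y⟩ hs ⟨a', y'⟩ hs' h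
  have hm : y ∈ ({tw26_y1 W0 a, tw26_y2 W0 a} : Finset k) := hS ⟨a, y⟩ (Finset.mem_coe.mp hs)
  have hm' : y' ∈ ({tw26_y1 W0 a', tw26_y2 W0 a'} : Finset k) :=
    hS ⟨a', y'⟩ (Finset.mem_coe.mp hs')
  have e1 := tw26_pt_mk W0 a y (tw26_nonsingular_of_mem W0 hΔ a y hm)
  have e2 := tw26_pt_mk W0 a' y' (tw26_nonsingular_of_mem W0 hΔ a' y' hm')
  rw [e1, e2] at h
  have h' := Point.some.inj h
  have ha : a = a' := (algebraMap (ZMod ℓ) k).injective h'.1
  have hy : y = y' := h'.2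
  rw [ha, hy]

theorem tw26_ncard_aux [IsAlgClosed k] (hΔ : W0.Δ ≠ 0) (S : Finset (Σ _ : ZMod ℓ, k))
    (hS : ∀ s ∈ S, s.2 ∈ ({tw26_y1 W0 s.1, tw26_y2 W0 s.1} : Finset k)) :
    (insert 0 (tw26_pt (k := k) W0 '' (S : Set (Σ _ : ZMod ℓ, k)))).ncard = S.card + 1 ∧
      (insert 0 (tw26_pt (k := k) W0 '' (S : Set (Σ _ : ZMod ℓ, k)))).Finite := by
  have hfin : (tw26_pt (k := k) W0 '' (S : Set (Σ _ : ZMod ℓ, k))).Finite :=
    (Finset.finite_toSet S).image _
  have h0 : (0 : (W0⁄k).toAffine.Point) ∉ tw26_pt (k := k) W0 '' (S : Set (Σ _ : ZMod ℓ, k)) := by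
    rintro ⟨⟨a, y⟩, hs, h⟩
    have hm : y ∈ ({tw26_y1 W0 a, tw26_y2 W0 a} : Finset k) := hS ⟨a, y⟩ (Finset.mem_coe.mp hs)
    have e1 := tw26_pt_mk W0 a y (tw26_nonsingular_of_mem W0 hΔ a y hm)
    rw [e1] at h
    exact Point.some_ne_zero _ h
  refine ⟨?_, hfin.insert _⟩
  rw [Set.ncard_insert_of_notMem h0 hfin, (tw26_pt_injOn W0 hΔ S hS).ncard_image,
    Set.ncard_coe_finset]

theorem tw26_fixed_eq [IsAlgClosed k] (hΔ : W0.Δ ≠ 0) (hφ : ∀ x, φ x = x ^ ℓ) :
    (tw26_fixed W0 φ : Set (W0⁄k).toAffine.Point) =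
      insert 0 (tw26_pt (k := k) W0 '' (tw26_FixS W0 φ : Set (Σ _ : ZMod ℓ, k))) := by
  ext Q
  rw [SetLike.mem_coe, tw26_mem_fixed, Set.mem_insert_iff, Set.mem_image]
  constructor
  · intro hQ
    rcases Q with _ | ⟨x, y, h⟩
    · exact Or.inl rfl
    · right
      rw [tw26_Phi, Point.map_some, Point.some.injEq] at hQ
      obtain ⟨hx, hy⟩ := hQ
      obtain ⟨a, rfl⟩ := tw26_mem_range (ℓ := ℓ) (x := x) (by rw [← hφ, hx])
      have hmem : y ∈ ({tw26_y1 W0 a, tw26_y2 W0 a} : Finset k) := by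
        have := (tw26_root_iff W0 a y).mp ((tw26_equation_iff W0 a y).mp h.1)
        simpa using this
      refine ⟨⟨a, y⟩, ?_, ?_⟩
      · rw [Finset.mem_coe, tw26_FixS, Finset.mem_sigma]
        exact ⟨Finset.mem_univ _, Finset.mem_filter.mpr ⟨hmem, hy⟩⟩
      · exact tw26_pt_mk W0 a y h
  · rintro (rfl | ⟨⟨a, y⟩, hs, rfl⟩)
    · exact map_zero _
    · rw [Finset.mem_coe, tw26_FixS, Finset.mem_sigma] at hs
      obtain ⟨hmem, hy⟩ := Finset.mem_filter.mp hs.2
      rw [tw26_pt_mk W0 a y (tw26_nonsingular_of_mem W0 hΔ a y hmem), tw26_Phi, Point.map_some,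
        Point.some.injEq]
      exact ⟨φ.commutes a, hy⟩

theorem tw26_anti_eq [IsAlgClosed k] (hΔ : W0.Δ ≠ 0) (hφ : ∀ x, φ x = x ^ ℓ) :
    (tw26_anti W0 φ : Set (W0⁄k).toAffine.Point) =
      insert 0 (tw26_pt (k := k) W0 '' (tw26_AntS W0 φ : Set (Σ _ : ZMod ℓ, k))) := by
  ext Q
  rw [SetLike.mem_coe, tw26_mem_anti, Set.mem_insert_iff, Set.mem_image]
  constructor
  · intro hQ
    rcases Q with _ | ⟨x, y, h⟩
    · exact Or.inl rfl
    · right
      rw [tw26_Phi, Point.map_some, Point.neg_some, Point.some.injEq] at hQ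
      obtain ⟨hx, hy⟩ := hQ
      obtain ⟨a, rfl⟩ := tw26_mem_range (ℓ := ℓ) (x := x) (by rw [← hφ, hx])
      have hmem : y ∈ ({tw26_y1 W0 a, tw26_y2 W0 a} : Finset k) := by
        have := (tw26_root_iff W0 a y).mp ((tw26_equation_iff W0 a y).mp h.1)
        simpa using this
      have hy' : φ y = - y - tw26_c W0 a := by
        rw [hy]
        change - y - algebraMap (ZMod ℓ) k W0.a₁ * algebraMap (ZMod ℓ) k a
          - algebraMap (ZMod ℓ) k W0.a₃ = _
        simp only [tw26_c, map_add, map_mul]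
        ring
      refine ⟨⟨a, y⟩, ?_, ?_⟩
      · rw [Finset.mem_coe, tw26_AntS, Finset.mem_sigma]
        exact ⟨Finset.mem_univ _, Finset.mem_filter.mpr ⟨hmem, hy'⟩⟩
      · exact tw26_pt_mk W0 a y h
  · rintro (rfl | ⟨⟨a, y⟩, hs, rfl⟩)
    · rw [map_zero, neg_zero]
    · rw [Finset.mem_coe, tw26_AntS, Finset.mem_sigma] at hs
      obtain ⟨hmem, hy⟩ := Finset.mem_filter.mp hs.2
      rw [tw26_pt_mk W0 a y (tw26_nonsingular_of_mem W0 hΔ a y hmem), tw26_Phi, Point.map_some,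
        Point.neg_some, Point.some.injEq]
      refine ⟨φ.commutes a, ?_⟩
      rw [hy]
      change _ = - y - algebraMap (ZMod ℓ) k W0.a₁ * algebraMap (ZMod ℓ) k a
          - algebraMap (ZMod ℓ) k W0.a₃
      simp only [tw26_c, map_add, map_mul]
      ring

theorem tw26_FixS_mem [IsAlgClosed k] (s : Σ _ : ZMod ℓ, k) (hs : s ∈ tw26_FixS W0 φ) :
    s.2 ∈ ({tw26_y1 W0 s.1, tw26_y2 W0 s.1} : Finset k) := by
  rw [tw26_FixS, Finset.mem_sigma] at hs
  exact (Finset.mem_filter.mp hs.2).1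

theorem tw26_AntS_mem [IsAlgClosed k] (s : Σ _ : ZMod ℓ, k) (hs : s ∈ tw26_AntS W0 φ) :
    s.2 ∈ ({tw26_y1 W0 s.1, tw26_y2 W0 s.1} : Finset k) := by
  rw [tw26_AntS, Finset.mem_sigma] at hs
  exact (Finset.mem_filter.mp hs.2).1

theorem tw26_card_fixed_eq [IsAlgClosed k] (hΔ : W0.Δ ≠ 0) (hφ : ∀ x, φ x = x ^ ℓ) :
    Nat.card (tw26_fixed W0 φ) = (tw26_FixS W0 φ).card + 1 ∧ Finite (tw26_fixed W0 φ) := by
  have h := tw26_ncard_aux W0 hΔ (tw26_FixS W0 φ) (tw26_FixS_mem W0 φ)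
  rw [← tw26_fixed_eq W0 φ hΔ hφ] at h
  exact ⟨(Nat.card_coe_set_eq _).trans h.1, h.2.to_subtype⟩

theorem tw26_card_anti_eq [IsAlgClosed k] (hΔ : W0.Δ ≠ 0) (hφ : ∀ x, φ x = x ^ ℓ) :
    Nat.card (tw26_anti W0 φ) = (tw26_AntS W0 φ).card + 1 ∧ Finite (tw26_anti W0 φ) := by
  have h := tw26_ncard_aux W0 hΔ (tw26_AntS W0 φ) (tw26_AntS_mem W0 φ)
  rw [← tw26_anti_eq W0 φ hΔ hφ] at h
  exact ⟨(Nat.card_coe_set_eq _).trans h.1, h.2.to_subtype⟩

/-- **Twist count.**  The number of points fixed by Frobenius plus the number of points negated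
by Frobenius is `2 ℓ + 2`. -/
theorem tw26_card_add [IsAlgClosed k] (hΔ : W0.Δ ≠ 0) (hφ : ∀ x, φ x = x ^ ℓ) :
    Nat.card (tw26_fixed W0 φ) + Nat.card (tw26_anti W0 φ) = 2 * ℓ + 2 := by
  rw [(tw26_card_fixed_eq W0 φ hΔ hφ).1, (tw26_card_anti_eq W0 φ hΔ hφ).1, tw26_FixS, tw26_AntS,
    Finset.card_sigma, Finset.card_sigma]
  have hsum : ∑ a : ZMod ℓ, ((tw26_FixA W0 φ a).card + (tw26_AntA W0 φ a).card) = 2 * ℓ := by
    rw [Finset.sum_congr rfl (fun a _ => tw26_card_FixA_add W0 φ a), Finset.sum_const,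
      Finset.card_univ, ZMod.card, smul_eq_mul, mul_comm]
  rw [Finset.sum_add_distrib] at hsum
  omega

theorem tw26_finite_fixed [IsAlgClosed k] (hΔ : W0.Δ ≠ 0) (hφ : ∀ x, φ x = x ^ ℓ) :
    Finite (tw26_fixed W0 φ) := (tw26_card_fixed_eq W0 φ hΔ hφ).2

theorem tw26_finite_anti [IsAlgClosed k] (hΔ : W0.Δ ≠ 0) (hφ : ∀ x, φ x = x ^ ℓ) :
    Finite (tw26_anti W0 φ) := (tw26_card_anti_eq W0 φ hΔ hφ).2

/-! ### The corner lemma -/

/-- in an additive group, a point of odd prime order is not its own negative. -/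
theorem tw26_ne_neg {G : Type*} [AddCommGroup G] {p : ℕ} (hp : p.Prime) (hp2 : p ≠ 2) {Q : G}
    (hQ0 : Q ≠ 0) (hQp : p • Q = 0) : Q ≠ -Q := by
  intro h
  have := Fact.mk hp
  have ho : addOrderOf Q = p := addOrderOf_eq_prime hQp hQ0
  have h2 : (2 : ℕ) • Q = 0 := by
    rw [two_nsmul]
    nth_rewrite 2 [h]
    exact add_neg_cancel Q
  have hdvd : p ∣ 2 := ho ▸ addOrderOf_dvd_of_nsmul_eq_zero h2
  exact hp2 ((Nat.prime_dvd_prime_iff_eq hp Nat.prime_two).mp hdvd)

/-- **Abelian corner.**  Let `V` be a group with a self-map `τ` and a "reduction" map `red` to the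
`k`-points of `W0` such that nonzero elements have nonzero `p`-torsion images, `red` commutes with
negation, intertwines `τ` with Frobenius, and every nonzero `p`-torsion point lifts.  If `τ` is
`+1` on `V`, or `τ` is `-1` on `V`, then `p ∤ 2 ℓ + 2`. -/
theorem tw26_corner [IsAlgClosed k] (hΔ : W0.Δ ≠ 0) (hφ : ∀ x, φ x = x ^ ℓ) {p : ℕ} (hp : p.Prime)
    (hp2 : p ≠ 2) {V : Type*} [AddCommGroup V] (τ : V → V) (red : V → (W0⁄k).toAffine.Point)
    (hV : ∃ P : V, P ≠ 0) (h0 : ∀ P, P ≠ 0 → red P ≠ 0) (hpt : ∀ P, p • red P = 0)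
    (hneg : ∀ P, red (-P) = - red P) (hfrob : ∀ P, red (τ P) = tw26_Phi W0 φ (red P))
    (hlift : ∀ Q : (W0⁄k).toAffine.Point, Q ≠ 0 → p • Q = 0 → ∃ P, red P = Q)
    (heps : (∀ P, τ P = P) ∨ (∀ P, τ P = -P)) : ¬ (p ∣ 2 * ℓ + 2) := by
  have := Fact.mk hp
  have := tw26_finite_fixed W0 φ hΔ hφ
  have := tw26_finite_anti W0 φ hΔ hφ
  obtain ⟨P0, hP0⟩ := hV
  have hQ0 : red P0 ≠ 0 := h0 P0 hP0
  have hQp : p • red P0 = 0 := hpt P0
  rw [← tw26_card_add W0 φ hΔ hφ]
  rcases heps with heps | heps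
  · -- `τ = 1`: `p ∣ #fixed`, `p ∤ #anti`
    have hmem : red P0 ∈ tw26_fixed W0 φ := by
      rw [tw26_mem_fixed, ← hfrob, heps]
    have hdvd : p ∣ Nat.card (tw26_fixed W0 φ) := by
      have ho : addOrderOf (⟨red P0, hmem⟩ : tw26_fixed W0 φ) = p := by
        apply addOrderOf_eq_prime
        · exact Subtype.ext (by simpa using hQp)
        · exact fun h => hQ0 (congrArg Subtype.val h)
      exact ho ▸ addOrderOf_dvd_natCard _
    have hndvd : ¬ p ∣ Nat.card (tw26_anti W0 φ) := by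
      intro h
      obtain ⟨⟨Q, hQ⟩, hQo⟩ := exists_prime_addOrderOf_dvd_card' p h
      have hQne : Q ≠ 0 := by
        rintro rfl
        have h00 : (⟨0, hQ⟩ : tw26_anti W0 φ) = 0 := rfl
        rw [h00, addOrderOf_zero] at hQo
        exact hp.one_lt.ne hQo
      have hQp' : p • Q = 0 := by
        have := addOrderOf_nsmul_eq_zero (⟨Q, hQ⟩ : tw26_anti W0 φ)
        rw [hQo] at this
        simpa using congrArg Subtype.val this
      obtain ⟨P', rfl⟩ := hlift Q hQne hQp'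
      rw [tw26_mem_anti, ← hfrob, heps] at hQ
      exact tw26_ne_neg hp hp2 hQne hQp' hQ
    exact fun h => hndvd ((Nat.dvd_add_right hdvd).mp h)
  · -- `τ = -1`: `p ∣ #anti`, `p ∤ #fixed`
    have hmem : red P0 ∈ tw26_anti W0 φ := by
      rw [tw26_mem_anti, ← hfrob, heps, hneg]
    have hdvd : p ∣ Nat.card (tw26_anti W0 φ) := by
      have ho : addOrderOf (⟨red P0, hmem⟩ : tw26_anti W0 φ) = p := by
        apply addOrderOf_eq_prime
        · exact Subtype.ext (by simpa using hQp)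
        · exact fun h => hQ0 (congrArg Subtype.val h)
      exact ho ▸ addOrderOf_dvd_natCard _
    have hndvd : ¬ p ∣ Nat.card (tw26_fixed W0 φ) := by
      intro h
      obtain ⟨⟨Q, hQ⟩, hQo⟩ := exists_prime_addOrderOf_dvd_card' p h
      have hQne : Q ≠ 0 := by
        rintro rfl
        have h00 : (⟨0, hQ⟩ : tw26_fixed W0 φ) = 0 := rfl
        rw [h00, addOrderOf_zero] at hQo
        exact hp.one_lt.ne hQo
      have hQp' : p • Q = 0 := by
        have := addOrderOf_nsmul_eq_zero (⟨Q, hQ⟩ : tw26_fixed W0 φ)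
        rw [hQo] at this
        simpa using congrArg Subtype.val this
      obtain ⟨P', rfl⟩ := hlift Q hQne hQp'
      rw [tw26_mem_fixed, ← hfrob, heps, hneg] at hQ
      exact tw26_ne_neg hp hp2 hQne hQp' hQ.symm
    exact fun h => hndvd ((Nat.dvd_add_left hdvd).mp h)

/-! ### The fixed points are the `ZMod ℓ`-points; the concrete Frobenius -/

omit [DecidableEq k] in
theorem tw26_nonsingular_iff (x y : ZMod ℓ) :
    (W0⁄k).toAffine.Nonsingular (algebraMap (ZMod ℓ) k x) (algebraMap (ZMod ℓ) k y) ↔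
      W0.toAffine.Nonsingular x y :=
  Affine.map_nonsingular (W := W0) (algebraMap (ZMod ℓ) k).injective x y

/-- the base change of a `ZMod ℓ`-point to `k`. -/
def tw26_incl : W0.toAffine.Point → (W0⁄k).toAffine.Point
  | Point.zero => 0
  | Point.some x y h => Point.some (algebraMap (ZMod ℓ) k x) (algebraMap (ZMod ℓ) k y)
      ((tw26_nonsingular_iff W0 x y).mpr h)

omit [DecidableEq k] in
theorem tw26_incl_injective : Function.Injective (tw26_incl (k := k) W0) := by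
  rintro (_ | ⟨x, y, h⟩) (_ | ⟨x', y', h'⟩) hQ
  · rfl
  · exact absurd hQ.symm (Point.some_ne_zero _)
  · exact absurd hQ (Point.some_ne_zero _)
  · have h1 := Point.some.inj hQ
    have hx : x = x' := (algebraMap (ZMod ℓ) k).injective h1.1
    have hy : y = y' := (algebraMap (ZMod ℓ) k).injective h1.2
    subst hx hy
    rfl

theorem tw26_range_incl (hφ : ∀ x, φ x = x ^ ℓ) :
    Set.range (tw26_incl (k := k) W0) = (tw26_fixed W0 φ : Set (W0⁄k).toAffine.Point) := by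
  ext Q
  rw [Set.mem_range, SetLike.mem_coe, tw26_mem_fixed]
  constructor
  · rintro ⟨(_ | ⟨x, y, h⟩), rfl⟩
    · exact map_zero _
    · change tw26_Phi W0 φ (Point.some _ _ _) = Point.some _ _ _
      rw [tw26_Phi, Point.map_some, Point.some.injEq]
      exact ⟨φ.commutes x, φ.commutes y⟩
  · intro hQ
    rcases Q with _ | ⟨x, y, h⟩
    · exact ⟨Point.zero, rfl⟩
    · rw [tw26_Phi, Point.map_some, Point.some.injEq] at hQ
      obtain ⟨hx, hy⟩ := hQ
      obtain ⟨a, rfl⟩ := tw26_mem_range (ℓ := ℓ) (x := x) (by rw [← hφ, hx])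
      obtain ⟨b, rfl⟩ := tw26_mem_range (ℓ := ℓ) (x := y) (by rw [← hφ, hy])
      exact ⟨Point.some a b ((tw26_nonsingular_iff W0 a b).mp h), rfl⟩

/-- the points fixed by Frobenius are exactly the `ZMod ℓ`-points. -/
theorem tw26_card_fixed (hφ : ∀ x, φ x = x ^ ℓ) :
    Nat.card (tw26_fixed W0 φ) = Nat.card W0.toAffine.Point := by
  rw [← Nat.card_range_of_injective (tw26_incl_injective (k := k) W0)]
  exact (Nat.card_coe_set_eq _).trans
    ((congrArg Set.ncard (tw26_range_incl W0 φ hφ).symm).trans (Nat.card_coe_set_eq _).symm)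

/-- the Frobenius `x ↦ x ^ ℓ` of `k` as a `ZMod ℓ`-algebra endomorphism. -/
def tw26_frob (ℓ : ℕ) [Fact ℓ.Prime] (k : Type*) [Field k] [Algebra (ZMod ℓ) k] : k →ₐ[ZMod ℓ] k :=
  FiniteField.frobeniusAlgHom (ZMod ℓ) k

theorem tw26_frob_apply (ℓ : ℕ) [Fact ℓ.Prime] (k : Type*) [Field k] [Algebra (ZMod ℓ) k] (x : k) :
    tw26_frob ℓ k x = x ^ ℓ := by
  rw [tw26_frob, FiniteField.coe_frobeniusAlgHom, ZMod.card]

/-- **Twist count**, concrete form: with `Φ` induced by `x ↦ x ^ ℓ`,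
`#W0(ZMod ℓ) + #{Q | Φ Q = -Q} = 2 ℓ + 2`. -/
theorem tw26_card_add' [IsAlgClosed k] (hΔ : W0.Δ ≠ 0) :
    Nat.card W0.toAffine.Point + Nat.card (tw26_anti W0 (tw26_frob ℓ k)) = 2 * ℓ + 2 := by
  rw [← tw26_card_fixed W0 (tw26_frob ℓ k) (tw26_frob_apply ℓ k)]
  exact tw26_card_add W0 (tw26_frob ℓ k) hΔ (tw26_frob_apply ℓ k)

end

end Fermat.Agent.S41
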