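/-
S41 / L14 (helper98), referee route end to end: the frozen S41 statement with the single
remaining link `(Hb)` (dual Ihara, plain pointwise form of `rf7_main`) as its only extra
hypothesis.  `(NE)` is `ne92_exists_good_prime`, `(H0)` is `el2_H0`, everything else is
`rf7_main`.
-/
import Mathlib
import Fermat.Statements.S41
import Fermat.Agent.S41.Referee7
import Fermat.Agent.S41.NonEisFinal92
import Fermat.Agent.S41.EigenSymb2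

set_option autoImplicit false

open WeierstrassCurve WeierstrassCurve.Affine WeierstrassCurve.Affine.Point
open scoped CongruenceSubgroup
open Fermat.Agent.S16

namespace Fermat.Agent.S41

/-- The dual Ihara link `(Hb)` of `rf7_main`, for the Atkin–Lehner datum `D` at `(N, q)` and the
auxiliary prime `l0`: a power of `E = T_{l0} - (l0 + 1)` maps pairs of integral symbols of level
`N` into `(tr, tr ∘ W) (symbols of level N q) + p (symbols)²`. -/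
def vr98_Hb (p N q : ℕ) (D : tr43_Data N q) (l0 : ℕ) : Prop :=
  ∃ n : ℕ, ∀ φ₁ φ₂ : sc71_X → ℤ, slp10_IsSymb N φ₁ → slp10_IsSymb N φ₂ →
    ∃ Ψ : sc71_X → ℤ, slp10_IsSymb (N * q) Ψ ∧
      (∀ z, (p : ℤ) ∣ (ic42_E l0)^[n] φ₁ z - tr43_tr D Ψ z) ∧
      (∀ z, (p : ℤ) ∣ (ic42_E l0)^[n] φ₂ z - tr43_tr D (tr43_W D Ψ) z)

/-- **S41 from `(Hb)`.**  The frozen statement, with the dual Ihara link for one Atkin–Lehner
datum and every admissible auxiliary prime as the only hypothesis left. -/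
theorem vr98_of_Hb
    (E : WeierstrassCurve ℚ) [E.IsElliptic] {W : WeierstrassCurve ℤ} (hW : W.IsIntegralModelOf E)
    {p N q' : ℕ} (hp : p.Prime) (hp2 : p ≠ 2) (hN : 0 < N) (hq' : q'.Prime) (hq'N : ¬ q' ∣ N)
    (hirr : GaloisRepIsIrreducible (K := AlgebraicClosure ℚ) ℚ E p)
    (f : CuspForm (CongruenceSubgroup.Gamma0 N) 2) (𝔪 : Ideal (integralClosure ℤ ℂ))
    (hf : f.IsNormalizedEigenform) (hmax : 𝔪.IsMaximal) (hpm : (p : integralClosure ℤ ℂ) ∈ 𝔪)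
    (hcong : ∀ ℓ : ℕ, ℓ.Prime → W.IsGoodPrimeFor ℓ → ¬ ℓ ∣ N → ℓ ≠ p →
      ∃ a : integralClosure ℤ ℂ, (a : ℂ) = ModularFormClass.qCoeff f ℓ ∧
        a - ((W.apOfModel ℓ : ℤ) : integralClosure ℤ ℂ) ∈ 𝔪)
    (hLR : ∃ a : integralClosure ℤ ℂ, (a : ℂ) = ModularFormClass.qCoeff f q' ∧
      a ^ 2 - ((q' : integralClosure ℤ ℂ) + 1) ^ 2 ∈ 𝔪)
    (D : tr43_Data N q')
    (Hb : ∀ l0 : ℕ, l0.Prime → ¬ l0 ∣ N * q' → l0 ≠ p → l0 ≡ 1 [MOD N * q'] →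
      W.IsGoodPrimeFor l0 → vr98_Hb p N q' D l0) :
    ∃ (g : CuspForm (CongruenceSubgroup.Gamma0 (N * q')) 2) (𝔪' : Ideal (integralClosure ℤ ℂ)),
      g.IsNormalizedEigenform ∧ 𝔪'.IsMaximal ∧ (p : integralClosure ℤ ℂ) ∈ 𝔪' ∧
      (∀ ℓ : ℕ, ℓ.Prime → W.IsGoodPrimeFor ℓ → ¬ ℓ ∣ N * q' → ℓ ≠ p →
        ∃ a : integralClosure ℤ ℂ, (a : ℂ) = ModularFormClass.qCoeff g ℓ ∧
          a - ((W.apOfModel ℓ : ℤ) : integralClosure ℤ ℂ) ∈ 𝔪') ∧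
      g.IsNewAt q' := by
  -- (NE)
  obtain ⟨l0, hl0, hl0S, hl01, hl0g, hl0ne⟩ :=
    ne92_exists_good_prime E hW hp hp2 hirr (N * q') (Nat.mul_pos hN hq'.pos)
      (N * q' * p).primeFactors
  have hNqp : N * q' * p ≠ 0 :=
    Nat.mul_ne_zero (Nat.mul_ne_zero hN.ne' hq'.ne_zero) hp.ne_zero
  have hl0dvd : ¬ l0 ∣ N * q' * p := fun h =>
    hl0S (Nat.mem_primeFactors.mpr ⟨hl0, h, hNqp⟩)
  have hl0Nq : ¬ l0 ∣ N * q' := fun h => hl0dvd (Dvd.dvd.mul_right h p)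
  have hl0p : l0 ≠ p := fun h => hl0dvd (h ▸ Dvd.intro_left (N * q') rfl)
  have hl0ne' : ¬ (p : ℤ) ∣ W.apOfModel l0 - ((l0 : ℤ) + 1) := by
    intro h
    apply hl0ne
    have e : (l0 : ℤ) + 1 - W.apOfModel l0 = -(W.apOfModel l0 - ((l0 : ℤ) + 1)) := by ring
    rw [e]
    exact (dvd_neg).mpr h
  -- (H0)
  have : NeZero N := ⟨hN.ne'⟩
  obtain ⟨v, hv0, -, hvT⟩ := el2_H0 N hf
  have H0 : ∃ φ : sc71_X → ℂ, slp10_IsSymb N φ ∧ φ ≠ 0 ∧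
      ∀ ℓ : ℕ, ℓ.Prime → ¬ ℓ ∣ N → tr43_T ℓ φ = ModularFormClass.qCoeff f ℓ • φ := by
    refine ⟨(v : sc71_X → ℂ), v.2, ?_, hvT⟩
    intro h
    exact hv0 (Subtype.ext h)
  exact rf7_main hp hp2 hN hq' hq'N f 𝔪 hmax hpm hcong hLR D l0 hl0 hl0g hl0p hl01 hl0ne'
    (Hb l0 hl0 hl0Nq hl0p hl01 hl0g) H0

/-- the Atkin–Lehner datum exists. -/
theorem vr98_exists_data {N q' : ℕ} (hq' : q'.Prime) (hq'N : ¬ q' ∣ N) :
    Nonempty (tr43_Data N q') :=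
  tr43_Data_exists ((Nat.Prime.coprime_iff_not_dvd hq').mpr hq'N)

end Fermat.Agent.S41
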